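import Fermat.Agent.LT2.Local2
import Fermat.Agent.TaylorWiles.FlatLocalModel
import Fermat.Agent.TaylorWiles.FlatQuotient
import Fermat.Agent.TaylorWiles.Defs
import Fermat.Agent.Deformation.AdicMatrix
import Fermat.Agent.RT.DeformFlat

/-!
# From flat deformations to the local conditions at `2`

A first order deformation of a residual representation, flat at `q`, gives a flat local class
(`flatDefo_of_isDefoOf`). When the residual representation at `2` is defined over `𝔽₂`, every
linear functional on the coefficient field turns such a class into a `FlatExt`, so the bounds of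
`LT2.Local2` apply coordinate by coordinate.
-/

set_option autoImplicit false

open scoped Matrix

noncomputable section

namespace FLTA.LT2

open FLTA.TaylorWiles.Flat (M2 DV IsAdCoc FlatDefo IntModel cobd defoAct inerG inerAut
  defoAct_apply)
open FLTA.PT (GQ Gl Ql lvlLoc lvlQ lvlQ_le_lvlLoc loc locAut)
open FLTA.TW (Ad0 IsDefoOf defoMat)

attribute [local instance] FLTA.PT.factPrime

variable {k : Type} [Field k]

/-! ## Flat at `q` gives a flat local class -/

/-- Reading a basis vector expansion as a pair. -/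
def dualPair : (Fin 2 → DualNumber k) ≃+ DV k where
  toFun c := (fun i => (c i).fst, fun i => (c i).snd)
  invFun w i := TrivSqZeroExt.inl (w.1 i) + TrivSqZeroExt.inr (w.2 i)
  left_inv c := funext fun i => TrivSqZeroExt.inl_fst_add_inr_snd_eq (c i)
  right_inv w := by ext i <;> simp
  map_add' c c' := by ext i <;> simp

theorem dualPair_defoMat (M : GQ →* M2 k) (x : GQ → Ad0 k) (g : GQ) (c : Fin 2 → DualNumber k) :
    dualPair (defoMat M x g *ᵥ c) =
      (M g *ᵥ (dualPair c).1, M g *ᵥ (dualPair c).2 + ((x g).1 * M g) *ᵥ (dualPair c).1) := by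
  refine Prod.ext (funext fun i => ?_) (funext fun i => ?_) <;> fin_cases i <;>
    simp [dualPair, defoMat, Matrix.mulVec, dotProduct, Fin.sum_univ_two,
      TrivSqZeroExt.snd_mul] <;> ring

/-- A first order deformation flat at `q` is a flat local class. -/
theorem flatDefo_of_isDefoOf [Finite k] (q : Nat.Primes) (M : GQ →* M2 k) (x : GQ → Ad0 k)
    (ρ : GaloisRepAdic (DualNumber k)) (h : IsDefoOf M x ρ) (hflat : ρ.IsFlatAt (q : ℕ)) :
    FlatDefo (M.comp (loc q)) fun g => (x (loc q g)).1 := by
  obtain ⟨b, hb⟩ := h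
  have : Finite (DualNumber k) := inferInstanceAs (Finite (k × k))
  have : IsArtinianRing (DualNumber k) := isArtinian_of_finite
  have hS : ∀ g, (LinearMap.toMatrix b b (ρ.ρ g)).map TrivSqZeroExt.snd = (x g).1 * M g :=
    fun g => by rw [hb g]; ext i j; simp [defoMat]
  have hcoc : ∀ g h, (x (g * h)).1 = M g * (x h).1 * M g⁻¹ + (x g).1 := by
    intro g h
    have h1 : (x (g * h)).1 * M (g * h) = M g * ((x h).1 * M h) + (x g).1 * M g * M h := by
      rw [← hS, map_mul, LinearMap.toMatrix_mul, hb g, hb h]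
      ext i j
      simp [defoMat, Matrix.mul_apply, Fin.sum_univ_two, TrivSqZeroExt.snd_mul]
      ring
    have hg : M g * M g⁻¹ = 1 := by rw [← map_mul, mul_inv_cancel, map_one]
    have hh : M h * M h⁻¹ = 1 := by rw [← map_mul, mul_inv_cancel, map_one]
    have hgh : M (g * h) * (M h⁻¹ * M g⁻¹) = 1 := by
      rw [map_mul, mul_assoc (M g), ← mul_assoc (M h), hh, one_mul, hg]
    have h2 := congrArg (· * (M h⁻¹ * M g⁻¹)) h1
    simp only [mul_assoc, add_mul, hgh, mul_one] at h2
    simp only [← mul_assoc (M h), hh, one_mul, hg, mul_one] at h2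
    rw [h2, mul_assoc]
  refine ⟨⟨fun g => LinearMap.mem_ker.mp (x (loc q g)).2, fun g h => ?_, ?_⟩, ?_⟩
  · simp only [map_mul, MonoidHom.comp_apply, map_inv, hcoc]
  · obtain ⟨L, hL, hlvl⟩ := Deformation.exists_level_eq_one_of_artinian ρ
    refine ⟨ρ.ρ.toHomUnits.ker.comap (loc q), lvlQ_le_lvlLoc q _
      ⟨inferInstance, L, hL, fun s hs => Units.ext ?_⟩, fun u hu => ?_⟩
    · have h1 := hlvl s fun y hy => (IntermediateField.mem_fixingSubgroup_iff L s).mp hs y hy
      rw [Deformation.toMat_apply, ← LinearMap.toMatrix_one (Deformation.repBasis ρ)] at h1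
      exact (LinearMap.toMatrix _ _).injective h1
    · have hρ : ρ.ρ (loc q u) = 1 := congrArg Units.val (MonoidHom.mem_ker.mp hu)
      have h1 := hb (loc q u)
      rw [hρ, LinearMap.toMatrix_one] at h1
      have hM : M (loc q u) = 1 := by
        have := congrArg
          (fun A : Matrix (Fin 2) (Fin 2) (DualNumber k) => A.map TrivSqZeroExt.fst) h1
        refine (Eq.trans ?_ this.symm).trans (Matrix.map_one _ (by simp) (by simp))
        ext i j; simp [defoMat]
      have := hS (loc q u)
      rw [hρ, LinearMap.toMatrix_one, hM, mul_one] at this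
      rw [← this]
      ext i j
      by_cases hij : i = j <;> simp [hij]
  · have := FLTA.RT.finite_space ρ
    obtain ⟨N, hN⟩ := TaylorWiles.Flat.exists_intModel q
      (FLTA.RT.model_of_isFlatAt ρ q.2 hflat)
    refine TaylorWiles.Flat.exists_intModel_congr
      (act := fun g : inerG q => FLTA.RT.rhoHom ρ (loc q (g : Gl q)))
      (b.equivFun.toAddEquiv.trans dualPair) (fun g v => ?_) (N := N)
      fun g i v => hN (g : Gl q) i v
    show dualPair (b.equivFun (ρ.ρ (loc q (g : Gl q)) v)) = _
    rw [show b.equivFun (ρ.ρ (loc q (g : Gl q)) v) =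
      defoMat M x (loc q (g : Gl q)) *ᵥ b.equivFun v from by
        rw [← hb]; exact (LinearMap.toMatrix_mulVec_repr b b _ v).symm, dualPair_defoMat]
    rfl

/-! ## A functional on the coefficients -/

section functional

variable [Algebra (ZMod 2) k]

local notation "ιk" => (algebraMap (ZMod 2) k)

theorem functional_algebraMap_mul (l : k →ₗ[ZMod 2] ZMod 2) (a : ZMod 2) (y : k) :
    l (ιk a * y) = a * l y := by
  rw [← Algebra.smul_def, map_smul, smul_eq_mul]

theorem functional_mul_algebraMap (l : k →ₗ[ZMod 2] ZMod 2) (a : ZMod 2) (y : k) :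
    l (y * ιk a) = l y * a := by
  rw [← Algebra.commutes, functional_algebraMap_mul, mul_comm]

theorem map_mul_functional (l : k →ₗ[ZMod 2] ZMod 2) (A : M2 (ZMod 2)) (Y : M2 k) :
    (A.map ιk * Y).map l = A * Y.map l := by
  ext i j
  simp [Matrix.mul_apply, functional_algebraMap_mul]

theorem mul_map_functional (l : k →ₗ[ZMod 2] ZMod 2) (A : M2 (ZMod 2)) (Y : M2 k) :
    (Y * A.map ιk).map l = Y.map l * A := by
  ext i j
  simp [Matrix.mul_apply, functional_mul_algebraMap]

theorem functional_mulVec (l : k →ₗ[ZMod 2] ZMod 2) (A : M2 (ZMod 2)) (w : Fin 2 → k) :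
    (fun i => l ((A.map ιk *ᵥ w) i)) = A *ᵥ fun i => l (w i) := by
  ext i
  simp [Matrix.mulVec, dotProduct, functional_algebraMap_mul]

theorem functional_mulVec_base (l : k →ₗ[ZMod 2] ZMod 2) (Y : M2 k) (v : V2) :
    (fun i => l ((Y *ᵥ fun j => ιk (v j)) i)) = Y.map l *ᵥ v := by
  ext i
  simp [Matrix.mulVec, dotProduct, functional_mul_algebraMap]

theorem trace_map_functional (l : k →ₗ[ZMod 2] ZMod 2) (Y : M2 k) :
    (Y.map l).trace = l Y.trace := by
  simp [Matrix.trace]

theorem surjective_of_functional_ne_zero {l : k →ₗ[ZMod 2] ZMod 2} (hl : l ≠ 0) :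
    Function.Surjective l := by
  obtain ⟨a, ha⟩ : ∃ a, l a ≠ 0 := by
    by_contra h
    push Not at h
    exact hl (LinearMap.ext h)
  have h1 : l a = 1 := by
    revert ha
    generalize l a = c
    revert c
    decide
  exact fun c => ⟨c • a, by rw [map_smul, h1, smul_eq_mul, mul_one]⟩

variable {M : Gl twoP →* M2 (ZMod 2)} {M' : Gl twoP →* M2 k} {z : Gl twoP → M2 k}

/-- A flat class over `k` gives, for every functional, a flat extension over `𝔽₂`. -/
theorem flatExt_of_flatDefo_functional [Finite k] (hM' : ∀ g, M' g = (M g).map ιk)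
    (h : FlatDefo M' z) (l : k →ₗ[ZMod 2] ZMod 2) : FlatExt M fun g => (z g).map l := by
  have hco : IsAdCoc M fun g => (z g).map l := by
    refine ⟨fun g => ?_, fun a b => ?_, ?_⟩
    · rw [trace_map_functional, h.trace, map_zero]
    · show (z (a * b)).map l = _
      rw [h.coc, Matrix.map_add l (map_add l), hM', hM', mul_map_functional, map_mul_functional]
    · obtain ⟨U, hU, h1⟩ := h.level
      exact ⟨U, hU, fun u hu => by simp [h1 u hu]⟩
  have : CharP k 2 := charP_of_injective_algebraMap (RingHom.injective ιk) 2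
  obtain ⟨N, hN⟩ := h.model
  refine ⟨hco, ?_⟩
  suffices H : ∀ m : k →ₗ[ZMod 2] ZMod 2, Function.Surjective m →
      ∃ (X : Type) (_ : AddCommGroup X) (act : inerG twoP → X →+ X)
      (N : IntModel (Ql twoP) X) (e : V2 →+ X) (p : V2 → X),
      N.Equivariant act inerAut ∧ (∀ x, act 1 x = x) ∧
      (∀ (a b : inerG twoP) x, act (a * b) x = act a (act b x)) ∧ (∀ x : X, (2 : ℕ) • x = 0) ∧
      Function.Injective e ∧ (∀ (g : inerG twoP) w, act g (e w) = e (M (g : Gl twoP) *ᵥ w)) ∧
      ∀ (g : inerG twoP) v, act g (p v) =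
        p (M (g : Gl twoP) *ᵥ v) + e (((z g).map m * M (g : Gl twoP)) *ᵥ v) by
    by_cases hl : l = 0
    · obtain ⟨a, ha⟩ : ∃ a : k →ₗ[ZMod 2] ZMod 2, a ≠ 0 := by
        have : Module.Finite (ZMod 2) k := Module.Finite.of_finite
        let b := Module.finBasis (ZMod 2) k
        obtain ⟨j⟩ := b.index_nonempty
        exact ⟨b.coord j, fun h0 => by
          have h2 := LinearMap.congr_fun h0 (b j)
          simp at h2⟩
      obtain ⟨X, i, act, N', e, p, hN', h1, hmul, h2, hinj, he, -⟩ :=
        H a (surjective_of_functional_ne_zero ha)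
      refine ⟨X, i, act, N', e, e, hN', h1, hmul, h2, hinj, he, fun g v => ?_⟩
      rw [he, show (z (g : Gl twoP)).map l = 0 by ext; simp [hl], zero_mul, Matrix.zero_mulVec,
        map_zero, add_zero]
    · exact H l (surjective_of_functional_ne_zero hl)
  intro m hm
  let π : DV k →+ (Fin 2 → k) × V2 :=
    { toFun := fun x => (x.1, fun i => m (x.2 i))
      map_zero' := by ext <;> simp
      map_add' := fun x y => by ext <;> simp }
  let act' : inerG twoP → (Fin 2 → k) × V2 →+ (Fin 2 → k) × V2 := fun g =>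
    { toFun := fun x => (M' (g : Gl twoP) *ᵥ x.1, M (g : Gl twoP) *ᵥ x.2 +
        fun i => m (((z g * M' (g : Gl twoP)) *ᵥ x.1) i))
      map_zero' := by ext <;> simp
      map_add' := fun x y => by
        refine Prod.ext (by simp only [Prod.fst_add, Matrix.mulVec_add]) (funext fun i => ?_)
        simp only [Prod.fst_add, Prod.snd_add, Matrix.mulVec_add, Pi.add_apply, map_add]
        abel }
  have hπ : Function.Surjective π := fun x =>
    ⟨(x.1, fun i => Function.surjInv hm (x.2 i)),
      Prod.ext rfl (funext fun i => Function.surjInv_eq hm (x.2 i))⟩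
  have hcomm : ∀ (g : inerG twoP) x, π (defoAct M' z (g : Gl twoP) x) = act' g (π x) := by
    intro g x
    refine Prod.ext rfl (funext fun i => ?_)
    show m ((M' (g : Gl twoP) *ᵥ x.2 + (z g * M' (g : Gl twoP)) *ᵥ x.1) i) =
      (M (g : Gl twoP) *ᵥ fun j => m (x.2 j)) i + m (((z g * M' (g : Gl twoP)) *ᵥ x.1) i)
    rw [Pi.add_apply, map_add]
    congr 1
    rw [hM']
    exact congrFun (functional_mulVec m _ x.2) i
  have hact1 : ∀ x, act' 1 x = x := fun x => by
    obtain ⟨y, rfl⟩ := hπ x
    rw [← hcomm]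
    exact congrArg π (TaylorWiles.Flat.defoAct_one h.toIsAdCoc y)
  have hactmul : ∀ (a b : inerG twoP) x, act' (a * b) x = act' a (act' b x) := fun a b x => by
    obtain ⟨y, rfl⟩ := hπ x
    rw [← hcomm, ← hcomm, ← hcomm]
    exact congrArg π (TaylorWiles.Flat.defoAct_mul h.toIsAdCoc (a : Gl twoP) (b : Gl twoP) y)
  obtain ⟨N', hN', -⟩ := N.exists_quotient (act' := act') hN
    (fun g y => ⟨defoAct M' z ((g⁻¹ : inerG twoP) : Gl twoP) y, by
      rw [← TaylorWiles.Flat.defoAct_mul h.toIsAdCoc, ← Subgroup.coe_mul, mul_inv_cancel]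
      exact TaylorWiles.Flat.defoAct_one h.toIsAdCoc y⟩)
    (fun g x y hxy => by
      rw [← hact1 x, ← hact1 y, ← inv_mul_cancel g, hactmul, hactmul, hxy])
    π hπ hcomm
  refine ⟨(Fin 2 → k) × V2, inferInstance, act', N', AddMonoidHom.inr _ _,
    fun v => (fun i => ιk (v i), 0), hN', hact1, hactmul, fun x => ?_,
    fun a b hab => congrArg Prod.snd hab, fun g w => ?_, fun g v => ?_⟩
  · refine Prod.ext (funext fun i => ?_) (funext fun i => ?_)
    · simp [CharTwo.two_eq_zero]
    · simp [CharTwo.two_eq_zero]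
  · refine Prod.ext ?_ ?_
    · simp [act']
    · simp only [act', AddMonoidHom.coe_mk, ZeroHom.coe_mk, AddMonoidHom.inr_apply,
        Matrix.mulVec_zero, Pi.zero_apply, map_zero]
      exact add_zero _
  · refine Prod.ext ?_ ?_
    · simp only [act', AddMonoidHom.coe_mk, ZeroHom.coe_mk, AddMonoidHom.inr_apply,
        Prod.fst_add, add_zero, hM']
      exact funext fun i => (RingHom.map_mulVec ιk (M (g : Gl twoP)) v i).symm
    · simp only [act', AddMonoidHom.coe_mk, ZeroHom.coe_mk, AddMonoidHom.inr_apply,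
        Prod.snd_add, Matrix.mulVec_zero, zero_add]
      rw [functional_mulVec_base, hM', mul_map_functional]

/-- Functionals separate: classes killed on inertia coordinate by coordinate are killed. -/
theorem exists_cobd_of_functional [Finite k] (hM' : ∀ g, M' g = (M g).map ιk)
    (h : ∀ l : k →ₗ[ZMod 2] ZMod 2, ∃ X : M2 (ZMod 2), X.trace = 0 ∧
      ∀ g ∈ inerG twoP, ((fun g => (z g).map l) + cobd M X) g = 0) :
    ∃ X : M2 k, X.trace = 0 ∧ ∀ g ∈ inerG twoP, (z + cobd M' X) g = 0 := by
  classical
  have : Module.Finite (ZMod 2) k := Module.Finite.of_finite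
  let b := Module.finBasis (ZMod 2) k
  choose X hX htriv using fun i => h (b.coord i)
  let Y : M2 k := ∑ j, b j • (X j).map ιk
  have hY : ∀ i, Y.map (b.coord i) = X i := fun i => by
    ext a c
    have he : Y a c = ∑ j, X j a c • b j := by
      simp only [Y, Matrix.sum_apply, Matrix.smul_apply, Matrix.map_apply, smul_eq_mul]
      exact Finset.sum_congr rfl fun j _ => by rw [Algebra.smul_def, mul_comm]
    rw [Matrix.map_apply, he, map_sum, Finset.sum_eq_single i]
    · simp
    · intro j _ hji; simp [hji]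
    · simp
  refine ⟨Y, b.ext_elem fun i => ?_, fun g hg => Matrix.ext fun a c => b.ext_elem fun i => ?_⟩
  · rw [← Module.Basis.coord_apply, ← trace_map_functional, hY, hX, map_zero, Finsupp.zero_apply]
  · have h1 := congrFun₂ (htriv i g hg) a c
    rw [← Module.Basis.coord_apply, Matrix.zero_apply, map_zero, Finsupp.zero_apply]
    refine Eq.trans ?_ h1
    simp only [Pi.add_apply, cobd, hM', Matrix.add_apply, Matrix.sub_apply, map_add, map_sub]
    have h2 := congrFun₂ ((mul_map_functional (b.coord i) (M g⁻¹) ((M g).map ιk * Y)).trans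
      (by rw [map_mul_functional, hY])) a c
    rw [Matrix.map_apply] at h2
    rw [h2, ← congrFun₂ (hY i) a c]
    rfl

end functional

/-! ## Deformations flat at `2` -/

variable [Finite k] [Algebra (ZMod 2) k] {M : GQ →* M2 k} {x : GQ → Ad0 k}
  {ρ : GaloisRepAdic (DualNumber k)} {M₀ : Gl twoP →* M2 (ZMod 2)}

/-- A deformation flat at `2` gives a flat extension for every functional. -/
theorem flatExt_of_isFlatAt (hM : ∀ g, M (loc twoP g) = (M₀ g).map (algebraMap (ZMod 2) k))
    (h : IsDefoOf M x ρ) (hflat : ρ.IsFlatAt 2) (l : k →ₗ[ZMod 2] ZMod 2) :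
    FlatExt M₀ fun g => (x (loc twoP g)).1.map l :=
  flatExt_of_flatDefo_functional (M' := M.comp (loc twoP)) hM
    (flatDefo_of_isDefoOf twoP M x ρ h hflat) l

/-- The Steinberg part of a deformation flat at `2` lies on the line. -/
theorem low_of_isFlatAt (hres : Res2 M₀)
    (hM : ∀ g, M (loc twoP g) = (M₀ g).map (algebraMap (ZMod 2) k))
    (h : IsDefoOf M x ρ) (hflat : ρ.IsFlatAt 2) (l : k →ₗ[ZMod 2] ZMod 2) :
    Low fun g => stVec ((x (loc twoP g)).1.map l) :=
  low_of_flatExt hres (flatExt_of_isFlatAt hM h hflat l)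

/-- A deformation flat at `2` with trivial Steinberg part is unramified up to a coboundary. -/
theorem unramified_of_isFlatAt (hres : Res2 M₀)
    (hM : ∀ g, M (loc twoP g) = (M₀ g).map (algebraMap (ZMod 2) k))
    (h : IsDefoOf M x ρ) (hflat : ρ.IsFlatAt 2)
    (hst : ∀ l : k →ₗ[ZMod 2] ZMod 2,
      VecTrivial M₀ fun g => stVec ((x (loc twoP g)).1.map l)) :
    ∃ X : M2 k, X.trace = 0 ∧ ∀ g ∈ inerG twoP,
      ((fun g => (x (loc twoP g)).1) + cobd (M.comp (loc twoP)) X) g = 0 :=
  exists_cobd_of_functional (M := M₀) hM fun l =>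
    unramified_of_flatExt hres (flatExt_of_isFlatAt hM h hflat l) (hst l)

end FLTA.LT2

end
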