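import Fermat.Agent.LevelRaising.AssemblyIdentities

/-!
# Restriction to `Γ₀(L q)` is injective on homomorphisms of `Γ₀(L)`, for `q ≥ 5`

`Γ₀(L q)` contains the kernel of reduction modulo `q` and a `d ≡ diag(a, a⁻¹)` with `a² ≢ 1`; the
commutator of `d` with `u = (1 0; L 1)` kills the image of `u`, and `Γ₀(L q)` with `u` generate.
-/

set_option autoImplicit false

noncomputable section

namespace FLTA.LT2

open CongruenceSubgroup FLTA.LevelRaising FLTA.Periods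
open scoped MatrixGroups

variable {L q : ℕ} {A : Type*} [AddCommGroup A]

/-- `(1 0; k L 1)`. -/
def lowerPow (L : ℕ) (k : ℤ) : Gamma0 L :=
  ⟨⟨!![1, 0; k * L, 1], by simp [Matrix.det_fin_two_of]⟩,
    mem_Gamma0_of_dvd (Dvd.intro_left k rfl)⟩

theorem lowerPow_add (a b : ℤ) : lowerPow L (a + b) = lowerPow L a * lowerPow L b := by
  refine Subtype.ext (Subtype.ext ?_)
  show !![(1 : ℤ), 0; (a + b) * L, 1] = !![1, 0; a * L, 1] * !![1, 0; b * L, 1]
  ext i j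
  fin_cases i <;> fin_cases j <;> simp [Matrix.mul_apply, Fin.sum_univ_two] <;> ring

/-- A homomorphism of `Γ₀(L)` which vanishes on `Γ₀(L q)` is zero, for a prime `q ≥ 5`. -/
theorem eq_zero_of_inclRes_eq_zero (hq : q.Prime) (hq5 : 5 ≤ q) (hqL : ¬ q ∣ L)
    {z : Additive (Gamma0 L) →+ A} (h : inclRes L q z = 0) : z = 0 := by
  have hqi : Prime (q : ℤ) := Nat.prime_iff_prime_int.mp hq
  have hqL' : ¬ (q : ℤ) ∣ L := fun h' => hqL (Int.natCast_dvd_natCast.mp h')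
  have hcop : IsCoprime (L : ℤ) (q : ℤ) :=
    ((Prime.coprime_iff_not_dvd hqi).mpr hqL').symm
  -- vanishing on the elements of level `L q`
  have h0 : ∀ γ : Gamma0 L, (q : ℤ) ∣ ((γ : SL(2, ℤ)) 1 0) → z (Additive.ofMul γ) = 0 := by
    intro γ hγ
    have hm : (γ : SL(2, ℤ)) ∈ Gamma0 (L * q) := by
      refine mem_Gamma0_of_dvd ?_
      push_cast
      exact hcop.mul_dvd (dvd_of_mem_Gamma0 γ.2) hγ
    have := DFunLike.congr_fun h (Additive.ofMul (⟨γ, hm⟩ : Gamma0 (L * q)))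
    rwa [inclRes_apply, AddMonoidHom.zero_apply] at this
  let f : ℤ →+ A := AddMonoidHom.mk' (fun k => z (Additive.ofMul (lowerPow L k))) fun a b => by
    rw [lowerPow_add, ofMul_mul, map_add]
  have hf : ∀ k : ℤ, z (Additive.ofMul (lowerPow L k)) = k • f 1 := fun k => by
    rw [← map_zsmul]; simp [f]
  -- modulo level `L q` every element with unit top left entry is a power of `u`
  have hkey : ∀ (γ : Gamma0 L) (k : ℤ),
      (q : ℤ) ∣ (γ : SL(2, ℤ)) 1 0 - k * L * (γ : SL(2, ℤ)) 0 0 →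
        z (Additive.ofMul γ) = k • f 1 := by
    intro γ k hk
    have h1 := h0 (lowerPow L (-k) * γ) (by
      show (q : ℤ) ∣ ((lowerPow L (-k) : SL(2, ℤ)) * (γ : SL(2, ℤ))) 1 0
      simp only [lowerPow, Matrix.SpecialLinearGroup.coe_mul, Matrix.mul_apply, Fin.sum_univ_two]
      simpa [add_comm, sub_eq_neg_add] using hk)
    rw [ofMul_mul, map_add, hf, neg_smul, neg_add_eq_zero] at h1
    exact h1.symm
  -- `q • f 1 = 0` and `(a'² - 1) • f 1 = 0`
  have hq0 : (q : ℤ) • f 1 = 0 := by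
    rw [← hf]
    exact h0 _ (by simp [lowerPow])
  obtain ⟨a₀, ha₁, ha₂⟩ :=
    Nat.chineseRemainder (show Nat.Coprime q L from hq.coprime_iff_not_dvd.mpr hqL) 2 1
  have hqa : (q : ℤ) ∣ (a₀ : ℤ) - 2 := (Nat.modEq_iff_dvd.mp ha₁.symm)
  have hLa : (L : ℤ) ∣ (a₀ : ℤ) - 1 := (Nat.modEq_iff_dvd.mp ha₂.symm)
  have hq2 : ¬ (q : ℤ) ∣ 2 := fun h' => by
    have := Int.le_of_dvd two_pos h'
    omega
  have hq3 : ¬ (q : ℤ) ∣ 3 := fun h' => by
    have := Int.le_of_dvd (by norm_num) h'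
    omega
  have hna : ¬ (q : ℤ) ∣ a₀ := fun h' => hq2 (by simpa using dvd_sub h' hqa)
  have hc1 : IsCoprime (a₀ : ℤ) ((q : ℤ) * ((L : ℤ) * q)) := by
    have haq : IsCoprime (a₀ : ℤ) (q : ℤ) := ((Prime.coprime_iff_not_dvd hqi).mpr hna).symm
    have haL : IsCoprime (a₀ : ℤ) (L : ℤ) := by
      obtain ⟨t, ht⟩ := hLa
      exact ⟨1, -t, by linear_combination ht⟩
    exact haq.mul_right (haL.mul_right haq)
  obtain ⟨a', β, hab⟩ := hc1
  let d : Gamma0 L := ⟨⟨!![(a₀ : ℤ), -(β * q); (L : ℤ) * q, a'], by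
      rw [Matrix.det_fin_two_of]; linear_combination hab⟩,
    mem_Gamma0_of_dvd (Dvd.intro (q : ℤ) rfl)⟩
  have hinv : (q : ℤ) ∣ a' * a₀ - 1 :=
    ⟨-(β * ((L : ℤ) * q)), by linear_combination hab⟩
  have hdu := hkey (d * lowerPow L 1 * d⁻¹) (a' * a') (by
    obtain ⟨t, ht⟩ := hinv
    refine ⟨a' * a' * β * L * L * a', ?_⟩
    simp only [d, lowerPow, Subgroup.coe_mul, Subgroup.coe_inv,
      Matrix.SpecialLinearGroup.coe_mul, Matrix.SpecialLinearGroup.coe_inv, Matrix.adjugate_fin_two,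
      Matrix.mul_apply, Fin.sum_univ_two]
    simp
    linear_combination -(a' * a' * (L : ℤ)) * hab)
  rw [ofMul_mul, ofMul_mul, map_add, map_add, ofMul_inv, map_neg, add_neg_cancel_comm, hf,
    one_smul] at hdu
  have h1 : (a' * a' - 1) • f 1 = 0 := by rw [sub_smul, one_smul, ← hdu, sub_self]
  have hne : ¬ (q : ℤ) ∣ a' * a' - 1 := fun h' => hq3 (by
    obtain ⟨t, ht⟩ := h'
    obtain ⟨u, hu⟩ := hinv
    obtain ⟨v, hv⟩ := hqa
    exact ⟨-t * (a₀ * a₀) + u * (a' * a₀ + 1) - v * (a₀ + 2), by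
      linear_combination -(a₀ : ℤ) * a₀ * ht + (a' * a₀ + 1) * hu - ((a₀ : ℤ) + 2) * hv⟩)
  obtain ⟨x, y, hxy⟩ := ((Prime.coprime_iff_not_dvd hqi).mpr hne)
  have hf1 : f 1 = 0 := by
    have h3 : (x * (q : ℤ) + y * (a' * a' - 1)) • f 1 = 0 := by
      rw [add_smul, mul_smul, mul_smul, hq0, h1, smul_zero, smul_zero, add_zero]
    rwa [hxy, one_smul] at h3
  -- every element
  have hunit : ∀ γ : Gamma0 L, ¬ (q : ℤ) ∣ (γ : SL(2, ℤ)) 0 0 → z (Additive.ofMul γ) = 0 := by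
    intro γ hγ
    obtain ⟨c, hc⟩ := dvd_of_mem_Gamma0 γ.2
    obtain ⟨x, y, hxy⟩ := ((Prime.coprime_iff_not_dvd hqi).mpr hγ)
    rw [hkey γ (c * y) ⟨(L : ℤ) * c * x, by
      linear_combination hc - (L : ℤ) * c * hxy⟩, hf1, smul_zero]
  refine AddMonoidHom.ext fun g => ?_
  obtain ⟨γ, rfl⟩ : ∃ γ, Additive.ofMul γ = g := ⟨g.toMul, rfl⟩
  rw [AddMonoidHom.zero_apply]
  by_cases hγ : (q : ℤ) ∣ (γ : SL(2, ℤ)) 0 0
  · let T : Gamma0 L := ⟨⟨!![1, 1; 0, 1], by simp [Matrix.det_fin_two_of]⟩,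
      mem_Gamma0_of_dvd (dvd_zero _)⟩
    have hT : z (Additive.ofMul T) = 0 := h0 T (dvd_zero _)
    have hu := hunit (T * γ) (by
      intro h'
      have h2 : (q : ℤ) ∣ (γ : SL(2, ℤ)) 1 0 := by
        have h3 := dvd_sub h' hγ
        simpa [T, Matrix.mul_apply, Fin.sum_univ_two] using h3
      have hdet := (γ : SL(2, ℤ)).2
      rw [Matrix.det_fin_two] at hdet
      exact hqi.not_dvd_one (hdet ▸ dvd_sub (hγ.mul_right _) (h2.mul_left _)))
    rw [ofMul_mul, map_add, hT, zero_add] at hu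
    exact hu
  · exact hunit γ hγ

end FLTA.LT2

end
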