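import Fermat.Agent.RT.Diamond.ResidualOld
import Fermat.Agent.LT2.PointsTameIncl

/-!
# A residual eigen class at an auxiliary prime is old, in every residual characteristic

Restriction from `Γ₀(L)` to `Γ₀(L q)` is injective on homomorphisms for `q ≥ 5`.
-/

set_option autoImplicit false
set_option synthInstance.maxHeartbeats 400000

noncomputable section

open AlgebraicCurve ModularCurve CongruenceSubgroup
open FLTA.Gamma0 (homPar0 homPar0Map IsParHom0)

namespace FLTA.LT2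

open FLTA.Periods FLTA.LevelRaising FLTA.RT.Diamond

local notation "Qb" => AlgebraicClosure ℚ
local notation "Γℚ" => AlgebraicClosure ℚ ≃ₐ[ℚ] AlgebraicClosure ℚ

/-- **A residual eigen class at an auxiliary prime `q ≥ 5` is old**; the residual characteristic
may be `2`, where `t² ≠ 4` says `t ≠ 0`. -/
theorem exists_old_of_eigen_five_le {p : ℕ} [Fact p.Prime] {κ : Type} [Field κ] [CharP κ p]
    {L q : ℕ} [NeZero L] [Fact q.Prime] [NeZero (L * q)] (hqL : ¬ q ∣ L) (hq5 : 5 ≤ q)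
    (hqp : q ≠ p) (ρ : GaloisRepAdic κ) (hdet : ρ.DetIsCyclotomic p)
    (S : Finset ℕ) (hpS : p ∈ S) (hLS : ∀ l : ℕ, l.Prime → l ∣ L * q → l ∈ S) (a : ℕ → κ)
    (htr : ∀ l : ℕ, l.Prime → l ∉ S → ∀ A : ValuationSubring Qb, A.LiesOverPrime l →
      ∀ σ : Γℚ, A.IsFrobeniusAt σ l → ρ.trace σ = a l)
    (x : Additive (Gamma0 (L * q)) →+ κ) (hx : IsParHom0 (Gamma0 (L * q)) x) (hx0 : x ≠ 0)
    (hT : ∀ l : ℕ, l.Prime → l ∉ S → heckeHom κ (L * q) l x = a l • x)
    (α : κ) (hU : heckeHom κ (L * q) q x = α • x) {A : ValuationSubring Qb}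
    (hA : A.LiesOverPrime q) {F : Γℚ} (hF : A.IsFrobeniusAt F q)
    (hα : α * α - ρ.trace F * α + 1 = 0) (ht : ρ.trace F ^ 2 ≠ 4) :
    ∃ y y' : homPar0 ℤ (Gamma0 L) κ, y ≠ 0 ∧
      (∀ g, x (Additive.ofMul g) =
        y.1 (Additive.ofMul (inclHom L q g)) + y'.1 (Additive.ofMul (conjHom L q g))) ∧
      heckeHom κ L q y.1 = ρ.trace F • y.1 ∧
      ∀ e : κ →+ ZMod p,
        heckeOperatorBar L ⟨q, Fact.out⟩
            (rawPoint L p (homPar0Map (Gamma0 L) e y) : JZero L) =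
          (rawPoint L p (homPar0Map (Gamma0 L) (e.comp (AddMonoidHom.mulLeft (ρ.trace F))) y) :
            JZero L) :=
  exists_old_of_eigen_of_injective hqL hqp
    (fun _ hz => eq_zero_of_inclRes_eq_zero Fact.out hq5 hqL hz)
    ρ hdet S hpS hLS a htr x hx hx0 hT α hU hA hF hα ht

end FLTA.LT2

end
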