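import Fermat.Agent.LT2.TraceDefs

/-!
# Atkin–Lehner operators commute with Hecke operators

Read off from potentials, for parabolic homomorphisms with values in any group.
-/

set_option autoImplicit false

noncomputable section

namespace FLTA.LT2

open CongruenceSubgroup ModularCurve.Period FLTA.Periods FLTA.LevelRaising FLTA.Gamma0
open scoped MatrixGroups OnePoint

variable {A : Type*} [AddCommGroup A] {𝕜 : Type*} [CommRing 𝕜] [Module 𝕜 A]

theorem isParabolicHom_alRes {N q : ℕ} [NeZero q] (h : Nat.Coprime q N)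
    {y : Additive (Gamma0 (N * q)) →+ A} (hy : IsParabolicHom (Gamma0 (N * q)) y) :
    IsParabolicHom (Gamma0 (N * q)) (alRes h y) := by
  intro γ hγ
  refine hy (alHom h γ) ?_
  rwa [trace_alHom]

/-- `T_ℓ` commutes with the Atkin–Lehner operator. -/
theorem heckeHom_alRes {N q : ℕ} [NeZero N] [NeZero q] (h : Nat.Coprime q N) {ℓ : ℕ}
    (hℓ : ℓ.Prime) (hℓM : ¬ ℓ ∣ N * q) {y : Additive (Gamma0 (N * q)) →+ A}
    (hy : IsParabolicHom (Gamma0 (N * q)) y) :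
    heckeHom 𝕜 (N * q) ℓ (alRes h y) = alRes h (heckeHom 𝕜 (N * q) ℓ y) := by
  classical
  haveI := Fact.mk hℓ
  haveI : NeZero ℓ := ⟨hℓ.ne_zero⟩
  have hℓN : ¬ ℓ ∣ N := fun hd => hℓM (hd.trans (dvd_mul_right N q))
  have hℓq : ¬ ℓ ∣ q := fun hd => hℓM (hd.trans (dvd_mul_left q N))
  obtain ⟨g, H⟩ := exists_isPrim hy
  have hq' : (q : ZMod ℓ) ≠ 0 := fun h0 => hℓq ((ZMod.natCast_eq_zero_iff _ _).mp h0)
  set σ : OnePoint (ZMod ℓ) ≃ OnePoint (ZMod ℓ) :=
    Equiv.optionCongr (Equiv.mulLeft₀ (q : ZMod ℓ) hq') with hσ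
  set τ := σ.trans ((repsT hℓN).permEquiv (alGamma h)).symm with hτdef
  have hτ : ∀ i, (repsT hℓN).perm (alGamma h) (τ i) = σ i := fun i =>
    ((repsT hℓN).permEquiv (alGamma h)).apply_symm_apply (σ i)
  -- the diagonal matrix past the representatives
  have hdiag : ∀ i, ∃ n : Gamma0 N,
      degMat q * tMat ℓ i = QMat.ofSL (n : SL(2, ℤ)) * (tMat ℓ (σ i) * degMat q) := by
    intro i
    induction i using OnePoint.rec with
    | infty =>
      refine ⟨1, ?_⟩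
      show degMat q * tMat ℓ ∞ = _ * (tMat ℓ ∞ * degMat q)
      simp [QMat.mul_def, QMat.diag, QMat.ofSL, mul_comm]
    | coe j =>
      obtain ⟨m, hm⟩ : (ℓ : ℤ) ∣ (q : ℤ) * (j.val : ℤ) - (((q : ZMod ℓ) * j).val : ℤ) := by
        rw [← ZMod.intCast_zmod_eq_zero_iff_dvd]; simp
      have hm' : (q : ℚ) * (j.val : ℕ) = (((q : ZMod ℓ) * j).val : ℕ) + (ℓ : ℚ) * m := by
        have : (q : ℤ) * (j.val : ℤ) = (((q : ZMod ℓ) * j).val : ℤ) + ℓ * m := by
          linear_combination hm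
        exact_mod_cast this
      refine ⟨⟨⟨!![1, m; 0, 1], by simp [Matrix.det_fin_two_of]⟩,
        mem_Gamma0_of_dvd (by simp)⟩, ?_⟩
      show degMat q * tMat ℓ (j : OnePoint (ZMod ℓ)) =
        _ * (tMat ℓ (((q : ZMod ℓ) * j : ZMod ℓ) : OnePoint (ZMod ℓ)) * degMat q)
      simp [QMat.mul_def, QMat.diag, QMat.ofSL, -ZMod.natCast_val]
      linear_combination hm'
  choose n hn using hdiag
  set δ : OnePoint (ZMod ℓ) → Gamma0 N :=
    fun i => alGamma h * n i * ((repsT hℓN).cocyc (alGamma h) (τ i))⁻¹ with hδdef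
  have hrep : ∀ i, alMat h * tMat ℓ i =
      QMat.ofSL (δ i : SL(2, ℤ)) * (tMat ℓ (τ i) * alMat h) := by
    intro i
    have e := tMat_mul_ofSL hℓN (alGamma h) (τ i)
    rw [hτ] at e
    simp only [hδdef, alMat, Subgroup.coe_mul, InvMemClass.coe_inv, QMat.ofSL_mul,
      qmat_mul_assoc]
    rw [← qmat_mul_assoc (tMat ℓ (τ i)), e, hn]
    simp only [← qmat_mul_assoc, ← QMat.ofSL_mul, mul_assoc, inv_mul_cancel, mul_one]
  obtain ⟨e1, e2⟩ := alGamma_apply_one h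
  have hmem : ∀ i, (δ i : SL(2, ℤ)) ∈ Gamma0 (N * q) := by
    intro i
    refine mem_Gamma0_of_dvd ?_
    push_cast
    refine IsCoprime.mul_dvd (Int.isCoprime_iff_nat_coprime.mpr (by simpa using h.symm))
      (dvd_of_mem_Gamma0 (δ i).2) ?_
    set b := ((alGamma h : Gamma0 N) : SL(2, ℤ)) 0 1 with hb
    have hdet := Matrix.SpecialLinearGroup.det_coe ((alGamma h : Gamma0 N) : SL(2, ℤ))
    rw [Matrix.det_fin_two, e1, e2, ← hb] at hdet
    have hbq : IsCoprime b (q : ℤ) :=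
      ⟨-(N : ℤ), ((alGamma h : Gamma0 N) : SL(2, ℤ)) 0 0, by linear_combination hdet⟩
    have hℓq' : IsCoprime (ℓ : ℤ) (q : ℤ) :=
      Int.isCoprime_iff_nat_coprime.mpr (by simpa using hℓ.coprime_iff_not_dvd.mpr hℓq)
    obtain ⟨k, hk⟩ : ∃ k : ℤ, (alMat h * tMat ℓ i).d = (k : ℚ) * q := by
      induction i using OnePoint.rec with
      | infty =>
        exact ⟨1, by simp [alMat, QMat.mul_def, QMat.diag, QMat.ofSL, e2]⟩
      | coe j =>
        exact ⟨(N : ℤ) * (j.val : ℤ) + ℓ, by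
          simp [alMat, QMat.mul_def, QMat.diag, QMat.ofSL, e1, e2, -ZMod.natCast_val]; ring⟩
    obtain ⟨x, z, hx, hxb, hxd⟩ : ∃ x z : ℤ, IsCoprime x (q : ℤ) ∧
        (tMat ℓ (τ i) * alMat h).b = (x : ℚ) ∧ (tMat ℓ (τ i) * alMat h).d = (z : ℚ) * q := by
      induction τ i using OnePoint.rec with
      | infty =>
        exact ⟨ℓ * b, 1, hℓq'.mul_left hbq,
          by simp [alMat, QMat.mul_def, QMat.diag, QMat.ofSL, ← hb],
          by simp [alMat, QMat.mul_def, QMat.diag, QMat.ofSL, e2]⟩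
      | coe t =>
        exact ⟨b + (t.val : ℤ) * q, ℓ, hbq.add_mul_right_left _,
          by simp [alMat, QMat.mul_def, QMat.diag, QMat.ofSL, e2, ← hb, -ZMod.natCast_val],
          by simp [alMat, QMat.mul_def, QMat.diag, QMat.ofSL, e2]⟩
    have hz := congrArg QMat.d (hrep i)
    set X := tMat ℓ (τ i) * alMat h with hX
    have hz' : (alMat h * tMat ℓ i).d =
        ((δ i : SL(2, ℤ)) 1 0 : ℚ) * X.b + ((δ i : SL(2, ℤ)) 1 1 : ℚ) * X.d := hz
    rw [hk, hxb, hxd] at hz'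
    have hdvd : (q : ℤ) ∣ (δ i : SL(2, ℤ)) 1 0 * x := by
      refine ⟨k - (δ i : SL(2, ℤ)) 1 1 * z, ?_⟩
      have : ((δ i : SL(2, ℤ)) 1 0 : ℚ) * x = q * (k - ((δ i : SL(2, ℤ)) 1 1 : ℚ) * z) := by
        linear_combination -hz'
      exact_mod_cast this
    exact hx.symm.dvd_of_dvd_mul_right hdvd
  refine eq_of_isPrim (isPrim_potT hℓ hℓM (H.alRes h)) ((isPrim_potT hℓ hℓM H).alRes h)
    (∑ i, y (Additive.ofMul (⟨_, hmem i⟩ : Gamma0 (N * q)))) fun P hP => ?_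
  simp only [potT]
  rw [← Equiv.sum_comp τ (fun i => g ((tMat ℓ i).app ((alMat h).app P))),
    ← Finset.sum_add_distrib]
  refine Finset.sum_congr rfl fun i _ => ?_
  rw [← QMat.app_mul, hrep, QMat.app_mul, ← QMat.app_mul (tMat ℓ (τ i))]
  refine (H.2 ⟨_, hmem i⟩ _ ?_).trans (by rw [QMat.app_mul])
  exact QMat.app_ne_zero (by
    rw [QMat.det_mul, det_tMat]
    exact mul_ne_zero (Nat.cast_ne_zero.mpr hℓ.ne_zero) (det_alMat_ne h)) hP

/-! ### The operators `alOp` -/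

variable (𝕜) in
theorem isParabolicHom_alOp {L d : ℕ} {y : Additive (Gamma0 L) →+ A}
    (hy : IsParabolicHom (Gamma0 L) y) : IsParabolicHom (Gamma0 L) (alOp 𝕜 A L d y) := by
  intro γ hγ
  refine hy (alAuto L d γ) ?_
  rwa [trace_alAuto]

/-- `T_ℓ` commutes with `W_d`. -/
theorem heckeHom_alOp {L d : ℕ} [NeZero L] {ℓ : ℕ} (hℓ : ℓ.Prime) (hℓL : ¬ ℓ ∣ L)
    {y : Additive (Gamma0 L) →+ A} (hy : IsParabolicHom (Gamma0 L) y) :
    heckeHom 𝕜 L ℓ (alOp 𝕜 A L d y) = alOp 𝕜 A L d (heckeHom 𝕜 L ℓ y) := by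
  by_cases hd : d ≠ 0 ∧ L / d * d = L ∧ Nat.Coprime d (L / d)
  · obtain ⟨N, rfl⟩ : ∃ N, L = N * d := ⟨L / d, hd.2.1.symm⟩
    have : NeZero d := ⟨hd.1⟩
    have : NeZero N := ⟨fun h => NeZero.ne (N * d) (by rw [h, zero_mul])⟩
    have h : Nat.Coprime d N := by
      simpa [Nat.mul_div_cancel N (Nat.pos_of_ne_zero hd.1)] using hd.2.2
    rw [alOp_eq_alRes 𝕜 A N d h, alOp_eq_alRes 𝕜 A N d h]
    exact heckeHom_alRes h hℓ hℓL hy
  · have e : ∀ z : Additive (Gamma0 L) →+ A, alOp 𝕜 A L d z = z := fun z => by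
      refine AddMonoidHom.ext fun u => ?_
      obtain ⟨γ, rfl⟩ := Additive.ofMul.surjective u
      rw [alOp_apply, alAuto, dif_neg hd]
      rfl
    rw [e, e]

variable (𝕜) in
/-- `W_d` is an involution. -/
theorem alOp_alOp_self (L d : ℕ) (y : Additive (Gamma0 L) →+ A) :
    alOp 𝕜 A L d (alOp 𝕜 A L d y) = y := by
  by_cases hd : d ≠ 0 ∧ L / d * d = L ∧ Nat.Coprime d (L / d)
  · obtain ⟨N, rfl⟩ : ∃ N, L = N * d := ⟨L / d, hd.2.1.symm⟩
    have : NeZero d := ⟨hd.1⟩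
    have h : Nat.Coprime d N := by
      simpa [Nat.mul_div_cancel N (Nat.pos_of_ne_zero hd.1)] using hd.2.2
    rw [alOp_eq_alRes 𝕜 A N d h, alOp_eq_alRes 𝕜 A N d h, alRes_alRes]
  · refine AddMonoidHom.ext fun u => ?_
    obtain ⟨γ, rfl⟩ := Additive.ofMul.surjective u
    simp only [alOp_apply, alAuto, dif_neg hd, MonoidHom.id_apply]

end FLTA.LT2
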