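import Mathlib

/-!
# Binary quartic forms for the squarefree sieve (LT2, part A)

The final target (`Fermat/Agent/LT2/SieveMain.lean`): given a separable quartic form `qform c`,
a modulus `m`, a residue class modulo `m`, local solubility outside `m` and a real point with
the prescribed sign, there are coprime `u, v` in the class with that sign such that no square
of a prime not dividing `m` divides `qform c u v`.
-/

set_option autoImplicit false

namespace FLTA.LT2.Sieve

/-- The binary quartic form with coefficients `c`. -/
def qform (c : Fin 5 → ℤ) (u v : ℤ) : ℤ :=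
  c 0 * u ^ 4 + c 1 * u ^ 3 * v + c 2 * u ^ 2 * v ^ 2 + c 3 * u * v ^ 3 + c 4 * v ^ 4

/-- The dehomogenised polynomial `qform c X 1`. -/
noncomputable def qpoly (c : Fin 5 → ℤ) : Polynomial ℤ :=
  Polynomial.C (c 0) * Polynomial.X ^ 4 + Polynomial.C (c 1) * Polynomial.X ^ 3 +
    Polynomial.C (c 2) * Polynomial.X ^ 2 + Polynomial.C (c 3) * Polynomial.X +
    Polynomial.C (c 4)

theorem qform_homog (c : Fin 5 → ℤ) (k u v : ℤ) :
    qform c (k * u) (k * v) = k ^ 4 * qform c u v := by
  simp only [qform]; ring

theorem qpoly_eval (c : Fin 5 → ℤ) (x : ℤ) : (qpoly c).eval x = qform c x 1 := by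
  simp [qpoly, qform]

end FLTA.LT2.Sieve
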