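import Fermat.Agent.LT2.HesseForms
import Fermat.Agent.LT2.SieveDefs

/-!
# The quartic of the Hesse pencil is separable

Over a field in which `6` and `c₄ ^ 3 - c₆ ^ 2` are nonzero, `hD` has no repeated zero, and no
common zero with `hC4` other than the origin.
-/

set_option autoImplicit false

namespace FLTA.LT2.Hesse

open Polynomial

variable {K : Type*} [Field K] {c₄ c₆ u v : K}

/-- No repeated zero. -/
theorem eq_zero_of_hD_of_hA (h2 : (2 : K) ≠ 0) (h3 : (3 : K) ≠ 0) (hΔ : c₄ ^ 3 - c₆ ^ 2 ≠ 0)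
    (hf : hD c₄ c₆ u v = 0) (hp : hA c₄ c₆ u v = 0) : u = 0 ∧ v = 0 := by
  simp only [hA] at hp
  simp only [hD] at hf
  rcases eq_or_ne v 0 with rfl | hv
  · exact ⟨eq_zero_of_pow_eq_zero (n := 3) (by linear_combination hp), rfl⟩
  exfalso
  have hh : c₄ * u ^ 2 + 2 * c₆ * u * v + c₄ ^ 2 * v ^ 2 = 0 := by
    have : (3 * v ^ 2) * (c₄ * u ^ 2 + 2 * c₆ * u * v + c₄ ^ 2 * v ^ 2) = 0 := by
      linear_combination u * hp - hf
    exact (mul_eq_zero.1 this).resolve_left (mul_ne_zero h3 (pow_ne_zero _ hv))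
  have hu : u = 0 := by
    have : (2 * 2 * (c₄ ^ 3 - c₆ ^ 2) * v ^ 2) * u = 0 := by
      linear_combination (c₄ * u - 2 * c₆ * v) * hh - c₄ ^ 2 * hp
    exact (mul_eq_zero.1 this).resolve_left
      (mul_ne_zero (mul_ne_zero (mul_ne_zero h2 h2) hΔ) (pow_ne_zero _ hv))
  subst hu
  have h4 : c₄ = 0 := by
    have : c₄ ^ 2 * v ^ 2 = 0 := by linear_combination hh
    simpa [hv] using this
  subst h4
  have h6 : c₆ = 0 := by
    have : 2 * (c₆ * v ^ 3) = 0 := by linear_combination -hp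
    simpa [hv, h2] using this
  exact hΔ (by rw [h6]; ring)

theorem hA_sq (c₄ c₆ u v : K) :
    hA c₄ c₆ u v ^ 2 = (u ^ 2 - c₄ * v ^ 2) * hD c₄ c₆ u v + v ^ 2 * hC4 c₄ c₆ u v := by
  simp only [hA, hD, hC4]; ring

/-- No common zero with the fourth invariant. -/
theorem eq_zero_of_hD_of_hC4 (h2 : (2 : K) ≠ 0) (h3 : (3 : K) ≠ 0) (hΔ : c₄ ^ 3 - c₆ ^ 2 ≠ 0)
    (hf : hD c₄ c₆ u v = 0) (hC : hC4 c₄ c₆ u v = 0) : u = 0 ∧ v = 0 :=
  eq_zero_of_hD_of_hA h2 h3 hΔ hf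
    (eq_zero_of_pow_eq_zero (n := 2) (by rw [hA_sq, hf, hC]; ring))

/-- Outside `6 Δ`, a prime dividing both `hD` and `hC4` divides the arguments. -/
theorem dvd_of_dvd_hD_of_dvd_hC4 (W : WeierstrassCurve ℤ) {ℓ : ℕ} (hℓ : ℓ.Prime) (hℓ2 : ℓ ≠ 2)
    (hℓ3 : ℓ ≠ 3) (hΔ : ¬ (ℓ : ℤ) ∣ W.Δ) {u v : ℤ} (hf : (ℓ : ℤ) ∣ hD W.c₄ W.c₆ u v)
    (hC : (ℓ : ℤ) ∣ hC4 W.c₄ W.c₆ u v) : (ℓ : ℤ) ∣ u ∧ (ℓ : ℤ) ∣ v := by
  haveI : Fact ℓ.Prime := ⟨hℓ⟩
  have key : ∀ p : ℕ, p.Prime → ℓ ≠ p → ((p : ℕ) : ZMod ℓ) ≠ 0 := fun p hp hne h =>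
    hne ((Nat.prime_dvd_prime_iff_eq hℓ hp).1 ((ZMod.natCast_eq_zero_iff _ _).1 h))
  have h2 : (2 : ZMod ℓ) ≠ 0 := by simpa using key 2 Nat.prime_two hℓ2
  have h3 : (3 : ZMod ℓ) ≠ 0 := by simpa using key 3 Nat.prime_three hℓ3
  have hd : (W.c₄ : ZMod ℓ) ^ 3 - (W.c₆ : ZMod ℓ) ^ 2 ≠ 0 := by
    have h := congrArg (fun z : ℤ => (z : ZMod ℓ)) W.c_relation
    push_cast at h
    rw [← h, show (1728 : ZMod ℓ) = 2 ^ 6 * 3 ^ 3 by norm_num]
    exact mul_ne_zero (mul_ne_zero (pow_ne_zero _ h2) (pow_ne_zero _ h3))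
      fun h0 => hΔ ((ZMod.intCast_zmod_eq_zero_iff_dvd _ _).1 h0)
  have := eq_zero_of_hD_of_hC4 (u := (u : ZMod ℓ)) (v := (v : ZMod ℓ)) h2 h3 hd
    (by
      have h := (ZMod.intCast_zmod_eq_zero_iff_dvd _ _).2 hf
      rw [← eq_intCast (Int.castRingHom (ZMod ℓ)), map_hD] at h
      exact h)
    (by
      have h := (ZMod.intCast_zmod_eq_zero_iff_dvd _ _).2 hC
      rw [← eq_intCast (Int.castRingHom (ZMod ℓ)), map_hC4] at h
      exact h)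
  exact ⟨(ZMod.intCast_zmod_eq_zero_iff_dvd _ _).1 this.1,
    (ZMod.intCast_zmod_eq_zero_iff_dvd _ _).1 this.2⟩

/-- The coefficients of `hD` for the sieve. -/
def quarticCoeffs (c₄ c₆ : ℤ) : Fin 5 → ℤ := ![1, 0, -6 * c₄, -8 * c₆, -3 * c₄ ^ 2]

theorem qform_quarticCoeffs (c₄ c₆ u v : ℤ) :
    Sieve.qform (quarticCoeffs c₄ c₆) u v = hD c₄ c₆ u v := by
  show (1 : ℤ) * u ^ 4 + 0 * u ^ 3 * v + -6 * c₄ * u ^ 2 * v ^ 2 + -8 * c₆ * u * v ^ 3 +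
    -3 * c₄ ^ 2 * v ^ 4 = hD c₄ c₆ u v
  simp only [hD]; ring

/-- Separability of the dehomogenised quartic. -/
theorem separable_qpoly (W : WeierstrassCurve ℤ) (hΔ : W.Δ ≠ 0) :
    ((Sieve.qpoly (quarticCoeffs W.c₄ W.c₆)).map (Int.castRingHom ℚ)).Separable := by
  set p := (Sieve.qpoly (quarticCoeffs W.c₄ W.c₆)).map (Int.castRingHom ℚ) with hp
  have hp' : p = X ^ 4 - C (6 * (W.c₄ : ℚ)) * X ^ 2 - C (8 * (W.c₆ : ℚ)) * X
      - C (3 * (W.c₄ : ℚ) ^ 2) := by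
    simp [hp, Sieve.qpoly, quarticCoeffs, Polynomial.map_add, Polynomial.map_mul,
      Polynomial.map_pow, Polynomial.map_neg, sub_eq_add_neg, map_ofNat]
  have hne : p ≠ 0 := fun h => by
    have := congrArg (fun q => q.coeff 4) (hp'.symm.trans h)
    simp only [coeff_sub, coeff_C_mul, coeff_X_pow, coeff_X, coeff_C, coeff_zero] at this
    norm_num at this
  rw [separable_def, ← EuclideanDomain.gcd_isUnit_iff]
  by_contra hu
  have hdeg : (EuclideanDomain.gcd p (derivative p)).degree ≠ 0 := fun h =>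
    hu (isUnit_iff_degree_eq_zero.2 h)
  obtain ⟨α, hα⟩ := IsAlgClosed.exists_aeval_eq_zero (AlgebraicClosure ℚ) _ hdeg
  have h1 := aeval_eq_zero_of_dvd_aeval_eq_zero (EuclideanDomain.gcd_dvd_left p (derivative p)) hα
  have h2 := aeval_eq_zero_of_dvd_aeval_eq_zero (EuclideanDomain.gcd_dvd_right p (derivative p)) hα
  rw [hp'] at h1 h2
  simp [derivative_pow] at h1 h2
  have hd : (W.c₄ : AlgebraicClosure ℚ) ^ 3 - (W.c₆ : AlgebraicClosure ℚ) ^ 2 ≠ 0 := by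
    have h := congrArg (fun z : ℤ => (z : AlgebraicClosure ℚ)) W.c_relation
    push_cast at h
    rw [← h]
    exact mul_ne_zero (by norm_num) (Int.cast_ne_zero.2 hΔ)
  have := eq_zero_of_hD_of_hA (u := α) (v := 1) two_ne_zero three_ne_zero hd
    (by simp only [hD]; linear_combination h1)
    (by simp only [hA]; linear_combination (1 / 4) * h2)
  exact one_ne_zero this.2

end FLTA.LT2.Hesse
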