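import Fermat.Agent.LT2.SieveCount

/-!
# The squarefree sieve for binary quartic forms with local conditions (LT2, part A)
-/

set_option autoImplicit false

namespace FLTA.LT2.Sieve

/-- The form as a function on the real plane. -/
def qformR (c : Fin 5 → ℤ) (x y : ℝ) : ℝ :=
  (c 0 : ℝ) * x ^ 4 + (c 1 : ℝ) * x ^ 3 * y + (c 2 : ℝ) * x ^ 2 * y ^ 2 +
    (c 3 : ℝ) * x * y ^ 3 + (c 4 : ℝ) * y ^ 4

theorem qformR_intCast (c : Fin 5 → ℤ) (u v : ℤ) :
    qformR c (u : ℝ) (v : ℝ) = (qform c u v : ℝ) := by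
  simp [qformR, qform]

theorem qformR_homog (c : Fin 5 → ℤ) (k x y : ℝ) :
    qformR c (k * x) (k * y) = k ^ 4 * qformR c x y := by
  simp only [qformR]; ring

/-- Congruent arguments give congruent values. -/
theorem qform_congr (c : Fin 5 → ℤ) (q u v x y : ℤ) (hu : q ∣ u - x) (hv : q ∣ v - y) :
    q ∣ qform c u v - qform c x y := by
  have h1 : x ≡ u [ZMOD q] := Int.modEq_iff_dvd.mpr hu
  have h2 : y ≡ v [ZMOD q] := Int.modEq_iff_dvd.mpr hv
  refine Int.modEq_iff_dvd.mp ?_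
  simp only [qform]
  gcongr

/-- Chinese remainder theorem for a residue modulo `m` and residues modulo squares of primes
not dividing `m`. -/
theorem exists_crt (m : ℕ) (u0 : ℤ) (S : Finset ℕ) (hS : ∀ l ∈ S, l.Prime ∧ ¬ l ∣ m)
    (x : ℕ → ℤ) : ∃ u : ℤ, (m : ℤ) ∣ u - u0 ∧ ∀ l ∈ S, (l : ℤ) ^ 2 ∣ u - x l := by
  classical
  induction S using Finset.induction_on with
  | empty => exact ⟨u0, by simp, by simp⟩
  | insert l S hl ih =>
    obtain ⟨u, hu, hus⟩ := ih fun q hq => hS q (Finset.mem_insert_of_mem hq)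
    obtain ⟨hlp, hlm⟩ := hS l (Finset.mem_insert_self _ _)
    have hcop : Nat.Coprime (m * ∏ q ∈ S, q ^ 2) (l ^ 2) := by
      refine Nat.Coprime.pow_right 2 (Nat.Coprime.mul_left ?_ ?_)
      · exact (hlp.coprime_iff_not_dvd.mpr hlm).symm
      · refine Nat.Coprime.prod_left fun q hq => Nat.Coprime.pow_left 2 ?_
        exact (Nat.coprime_primes (hS q (Finset.mem_insert_of_mem hq)).1 hlp).mpr
          fun h => hl (h ▸ hq)
    obtain ⟨a, b, hab⟩ := (Nat.isCoprime_iff_coprime).mpr hcop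
    set N : ℕ := m * ∏ q ∈ S, q ^ 2 with hN
    push_cast at hab
    refine ⟨u + a * (N : ℤ) * (x l - u), ?_, ?_⟩
    · have hm : (m : ℤ) ∣ (N : ℤ) := Int.natCast_dvd_natCast.mpr (Dvd.intro _ rfl)
      have h := dvd_add hu ((hm.mul_left a).mul_right (x l - u))
      rwa [show u - u0 + a * (N : ℤ) * (x l - u) = u + a * (N : ℤ) * (x l - u) - u0 by ring] at h
    · intro q hq
      rcases Finset.mem_insert.mp hq with rfl | hq'
      · have h : (q : ℤ) ^ 2 ∣ b * (q : ℤ) ^ 2 * (u - x q) :=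
          (dvd_mul_left _ _).mul_right _
        rwa [show b * (q : ℤ) ^ 2 * (u - x q) = u + a * (N : ℤ) * (x q - u) - x q by
          linear_combination (u - x q) * hab] at h
      · have hq2 : (q : ℤ) ^ 2 ∣ (N : ℤ) := by
          have : q ^ 2 ∣ N :=
            (Finset.dvd_prod_of_mem (fun q => q ^ 2) hq').trans (Dvd.intro_left _ rfl)
          exact_mod_cast Int.natCast_dvd_natCast.mpr this
        have h := dvd_add (hus q hq') ((hq2.mul_left a).mul_right (x l - u))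
        rwa [show u - x q + a * (N : ℤ) * (x l - u) = u + a * (N : ℤ) * (x l - u) - x q by
          ring] at h

private theorem exists_nhd_pos (f : ℝ → ℝ → ℝ) (a b : ℝ)
    (hev : ∀ᶠ p : ℝ × ℝ in nhds (a, b), 0 < f p.1 p.2) :
    ∃ δ > (0 : ℝ), ∀ p q : ℝ, |p - a| < δ → |q - b| < δ → 0 < f p q := by
  obtain ⟨δ, hδ, hball⟩ := Metric.eventually_nhds_iff.mp hev
  exact ⟨δ, hδ, fun p q hp hq => @hball (p, q)
    (max_lt (lt_of_eq_of_lt (Real.dist_eq p a) hp) (lt_of_eq_of_lt (Real.dist_eq q b) hq))⟩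

/-- The sign of the form is constant on boxes centred far out on a ray. -/
theorem exists_sign_box (c : Fin 5 → ℤ) (s : ℤ) (a b : ℝ)
    (h : 0 < (s : ℝ) * qformR c a b) :
    ∃ K : ℕ, 0 < K ∧ ∀ N x y : ℝ, 0 < N → |x - (K : ℝ) * N * a| ≤ 3 * N →
      |y - (K : ℝ) * N * b| ≤ 3 * N → 0 < (s : ℝ) * qformR c x y := by
  have hcont : Continuous fun p : ℝ × ℝ => (s : ℝ) * qformR c p.1 p.2 := by
    unfold qformR; fun_prop
  obtain ⟨δ, hδ, hball⟩ := exists_nhd_pos (fun x y => (s : ℝ) * qformR c x y) a b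
    ((isOpen_lt continuous_const hcont).mem_nhds h)
  obtain ⟨K, hK⟩ := exists_nat_gt (3 / δ)
  have hK0 : (0 : ℝ) < K := lt_trans (by positivity) hK
  refine ⟨K, Nat.cast_pos.mp hK0, fun N x y hN hx hy => ?_⟩
  have hKN : (0 : ℝ) < K * N := mul_pos hK0 hN
  have hlt : ∀ z t : ℝ, |z - (K : ℝ) * N * t| ≤ 3 * N → |z / (K * N) - t| < δ := by
    intro z t hz
    rw [show z / (K * N) - t = (z - (K : ℝ) * N * t) / (K * N) by field_simp]
    rw [abs_div, abs_of_pos hKN, div_lt_iff₀ hKN]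
    have h3 : 3 < δ * K := by rw [div_lt_iff₀ hδ] at hK; linarith
    nlinarith
  have h2 : 0 < (s : ℝ) * qformR c (x / (K * N)) (y / (K * N)) :=
    hball _ _ (hlt x a hx) (hlt y b hy)
  have e := qformR_homog c (K * N) (x / (K * N)) (y / (K * N))
  rw [mul_div_cancel₀ x hKN.ne', mul_div_cancel₀ y hKN.ne'] at e
  rw [e, mul_left_comm]
  positivity

/-- For a prime `l ≥ 5` a form with a coefficient prime to `l` has a value prime to `l`. -/
theorem exists_not_sq_dvd (c : Fin 5 → ℤ) (l : ℕ) (hl : l.Prime) (h5 : 5 ≤ l)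
    (hc : ∃ i, ¬ (l : ℤ) ∣ c i) : ∃ u v : ℤ, ¬ (l : ℤ) ^ 2 ∣ qform c u v := by
  by_contra hcon
  push Not at hcon
  have hd : ∀ u v : ℤ, (l : ℤ) ∣ qform c u v := fun u v =>
    (dvd_pow_self _ two_ne_zero).trans (hcon u v)
  have hp : Prime (l : ℤ) := Nat.prime_iff_prime_int.mp hl
  have hsmall : ∀ k : ℕ, 0 < k → k < 5 → ∀ z : ℤ, (l : ℤ) ∣ (k : ℤ) * z → (l : ℤ) ∣ z := by
    intro k hk hk5 z hz
    exact (hp.dvd_mul.mp hz).resolve_left fun h => by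
      have := Nat.le_of_dvd hk (Int.natCast_dvd_natCast.mp h); omega
  have a1 := hd 1 0
  have a2 := hd 0 1
  have a3 := hd 1 1
  have a4 := hd 1 (-1)
  have a5 := hd 2 1
  simp [qform] at a1 a2
  have b2 : (l : ℤ) ∣ c 2 := by
    refine hsmall 2 (by norm_num) (by norm_num) _ ?_
    have h := dvd_sub (dvd_add a3 a4) ((a1.add a2).mul_left 2)
    rwa [show qform c 1 1 + qform c 1 (-1) - 2 * (c 0 + c 4) = ((2 : ℕ) : ℤ) * c 2 by
      simp [qform]; ring] at h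
  have b1 : (l : ℤ) ∣ c 1 := by
    refine hsmall 3 (by norm_num) (by norm_num) _ (hsmall 2 (by norm_num) (by norm_num) _ ?_)
    have h := dvd_sub (dvd_sub a5 (a3.mul_left 2))
      ((((a1.mul_left 14).add (b2.mul_left 2))).add (a2.mul_left (-1)))
    rwa [show qform c 2 1 - 2 * qform c 1 1 - (14 * c 0 + 2 * c 2 + -1 * c 4) =
      ((2 : ℕ) : ℤ) * (((3 : ℕ) : ℤ) * c 1) by simp [qform]; ring] at h
  have b3 : (l : ℤ) ∣ c 3 := by
    have h := dvd_sub a3 (((a1.add b1).add b2).add a2)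
    rwa [show qform c 1 1 - (c 0 + c 1 + c 2 + c 4) = c 3 by simp [qform]] at h
  obtain ⟨i, hi⟩ := hc
  fin_cases i <;> exact hi ‹_›

/-- The sieve, given the bad modulus and the estimate for the number of primes. -/
theorem exists_squarefree_value_aux (hπ : ∀ k C : ℕ, ∀ᶠ n : ℕ in Filter.atTop,
      k * Nat.primeCounting (C * n) ≤ n)
    (c : Fin 5 → ℤ) (B : ℕ) (hB : 0 < B)
    (hroot : ∀ l : ℕ, l.Prime → ¬ l ∣ B → ∃ R : Finset ℤ, R.card ≤ 4 ∧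
      ∀ u v : ℤ, ¬ ((l : ℤ) ∣ u ∧ (l : ℤ) ∣ v) → (l : ℤ) ^ 2 ∣ qform c u v →
      ∃ r ∈ R, (l : ℤ) ^ 2 ∣ (u - r * v))
    (m : ℕ) (hm : 0 < m) (u0 v0 : ℤ)
    (hprim : ∀ l : ℕ, l.Prime → l ∣ m → ¬ ((l : ℤ) ∣ u0 ∧ (l : ℤ) ∣ v0))
    (hloc : ∀ l : ℕ, l.Prime → ¬ l ∣ m → ∃ u v : ℤ, ¬ (l : ℤ) ^ 2 ∣ qform c u v)
    (s : ℤ) (a b : ℝ) (hsign : 0 < (s : ℝ) * qformR c a b) :
    ∃ u v : ℤ, IsCoprime u v ∧ (m : ℤ) ∣ u - u0 ∧ (m : ℤ) ∣ v - v0 ∧
      0 < s * qform c u v ∧ ∀ l : ℕ, l.Prime → ¬ l ∣ m → ¬ (l : ℤ) ^ 2 ∣ qform c u v := by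
  classical
  set S := (Finset.range (B + 17)).filter
    fun l => l.Prime ∧ ¬ l ∣ m ∧ (l < 16 ∨ l ∣ B) with hSdef
  have hS : ∀ l ∈ S, l.Prime ∧ ¬ l ∣ m := fun l hl => by
    rw [hSdef, Finset.mem_filter] at hl; exact ⟨hl.2.1, hl.2.2.1⟩
  have hloc' : ∀ l : ℕ, ∃ p : ℤ × ℤ, l.Prime → ¬ l ∣ m → ¬ (l : ℤ) ^ 2 ∣ qform c p.1 p.2 := by
    intro l
    by_cases hl : l.Prime ∧ ¬ l ∣ m
    · obtain ⟨u, v, h⟩ := hloc l hl.1 hl.2; exact ⟨(u, v), fun _ _ => h⟩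
    · exact ⟨(0, 0), fun h1 h2 => absurd ⟨h1, h2⟩ hl⟩
  choose P hP using hloc'
  obtain ⟨u1, hu1, hu1S⟩ := exists_crt m u0 S hS fun l => (P l).1
  obtain ⟨v1, hv1, hv1S⟩ := exists_crt m v0 S hS fun l => (P l).2
  set M : ℕ := m * ∏ l ∈ S, l ^ 2 with hMdef
  have hmM : m ∣ M := Dvd.intro _ rfl
  have hSM : ∀ l ∈ S, l ^ 2 ∣ M := fun l hl =>
    (Finset.dvd_prod_of_mem (fun q => q ^ 2) hl).trans (Dvd.intro_left _ rfl)
  have hM : 0 < M := Nat.mul_pos hm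
    (Finset.prod_pos fun l hl => pow_pos (hS l hl).1.pos 2)
  have hbadM : ∀ l : ℕ, l.Prime → (l < 16 ∨ l ∣ B) → l ∣ M := by
    intro l hl hlB
    by_cases hlm : l ∣ m
    · exact hlm.trans hmM
    · refine (dvd_pow_self l two_ne_zero).trans (hSM l ?_)
      rw [hSdef, Finset.mem_filter, Finset.mem_range]
      refine ⟨?_, hl, hlm, hlB⟩
      rcases hlB with h | h
      · omega
      · have := Nat.le_of_dvd hB h; omega
  have hMprimes : ∀ l : ℕ, l.Prime → l ∣ M → l ∣ m ∨ l ∈ S := by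
    intro l hl hd
    rcases hl.dvd_mul.mp hd with h | h
    · exact Or.inl h
    · obtain ⟨q, hq, hlq⟩ := (hl.prime.dvd_finsetProd_iff _).mp h
      exact Or.inr (((Nat.prime_dvd_prime_iff_eq hl (hS q hq).1).mp
        (hl.dvd_of_dvd_pow hlq)) ▸ hq)
  obtain ⟨K, hK, hKbox⟩ := exists_sign_box c s a b hsign
  obtain ⟨C, hC⟩ := exists_nat_gt ((M : ℝ) * (K * (|a| + |b|) + 4))
  have hev := exists_good_point hπ c M hM.ne'
    (fun l hl h => hbadM l hl (Or.inl h))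
    (fun l hl hlM => hroot l hl fun h => hlM (hbadM l hl (Or.inr h))) C
  rw [Filter.eventually_atTop] at hev
  obtain ⟨Y0, hY0⟩ := hev
  set Y := max Y0 1 with hYdef
  have hY1 : (1 : ℝ) ≤ Y := by exact_mod_cast le_max_right Y0 1
  have hMz : (0 : ℤ) < M := by exact_mod_cast hM
  have hMr : (0 : ℝ) < M := by exact_mod_cast hM
  -- the corners of the box
  set pu : ℤ := u1 % (M : ℤ) + (M : ℤ) * ⌊(K : ℝ) * Y * a⌋ with hpu
  set pv : ℤ := v1 % (M : ℤ) + (M : ℤ) * ⌊(K : ℝ) * Y * b⌋ with hpv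
  have hnear : ∀ (w : ℤ) (t : ℝ) (i : ℕ), i < Y →
      |((w % (M : ℤ) + (M : ℤ) * ⌊(K : ℝ) * Y * t⌋ + (M : ℤ) * (i : ℤ) : ℤ) : ℝ) -
        (K : ℝ) * ((M : ℝ) * Y) * t| ≤ 3 * ((M : ℝ) * Y) := by
    intro w t i hi
    have h1 : (0 : ℝ) ≤ ((w % (M : ℤ) : ℤ) : ℝ) := by
      exact_mod_cast Int.emod_nonneg _ hMz.ne'
    have h2 : ((w % (M : ℤ) : ℤ) : ℝ) < M := by
      exact_mod_cast Int.emod_lt_of_pos _ hMz
    have h3 := Int.floor_le ((K : ℝ) * Y * t)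
    have h4 := Int.lt_floor_add_one ((K : ℝ) * Y * t)
    have h5 : (i : ℝ) < Y := by exact_mod_cast hi
    have h6 : (0 : ℝ) ≤ i := Nat.cast_nonneg i
    push_cast
    rw [abs_le]
    constructor <;> nlinarith
  have hbound : ∀ (w : ℤ) (t : ℝ), |t| ≤ |a| + |b| → ∀ i < Y,
      |w % (M : ℤ) + (M : ℤ) * ⌊(K : ℝ) * Y * t⌋ + (M : ℤ) * (i : ℤ)| ≤ (C : ℤ) * Y := by
    intro w t ht i hi
    have h := hnear w t i hi
    have h1 : |(K : ℝ) * ((M : ℝ) * Y) * t| ≤ (K : ℝ) * ((M : ℝ) * Y) * (|a| + |b|) := by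
      rw [abs_mul, abs_of_nonneg (by positivity : (0 : ℝ) ≤ (K : ℝ) * ((M : ℝ) * Y))]
      exact mul_le_mul_of_nonneg_left ht (by positivity)
    have h2 := abs_sub_abs_le_abs_sub
      (((w % (M : ℤ) + (M : ℤ) * ⌊(K : ℝ) * Y * t⌋ + (M : ℤ) * (i : ℤ) : ℤ) : ℝ))
      ((K : ℝ) * ((M : ℝ) * Y) * t)
    have h3 : (M : ℝ) * (K * (|a| + |b|) + 4) * Y ≤ (C : ℝ) * Y :=
      mul_le_mul_of_nonneg_right hC.le (by positivity)
    have h4 : 0 ≤ (M : ℝ) * Y := by positivity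
    rw [← Int.cast_le (R := ℝ), Int.cast_abs]
    push_cast at h2 h ⊢
    nlinarith
  have hcongr : ∀ (w : ℤ) (f : ℤ) (i : ℕ),
      (M : ℤ) ∣ w % (M : ℤ) + (M : ℤ) * f + (M : ℤ) * (i : ℤ) - w := fun w f i =>
    ⟨f + i - w / (M : ℤ), by linear_combination Int.mul_ediv_add_emod w (M : ℤ)⟩
  have hprimM : ∀ l : ℕ, l.Prime → l ∣ M → ¬ ((l : ℤ) ∣ u1 ∧ (l : ℤ) ∣ v1) := by
    rintro l hl hlM ⟨hu, hv⟩
    rcases hMprimes l hl hlM with h | h
    · have h' : (l : ℤ) ∣ (m : ℤ) := Int.natCast_dvd_natCast.mpr h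
      exact hprim l hl h ⟨by simpa using dvd_sub hu (h'.trans hu1),
        by simpa using dvd_sub hv (h'.trans hv1)⟩
    · obtain ⟨hlp, hlm⟩ := hS l h
      obtain ⟨x, hx⟩ := hu
      obtain ⟨y, hy⟩ := hv
      have h1 := qform_congr c _ _ _ _ _ (hu1S l h) (hv1S l h)
      have h2 : (l : ℤ) ^ 2 ∣ qform c u1 v1 := by
        rw [hx, hy, qform_homog]
        exact Dvd.dvd.mul_right (pow_dvd_pow _ (by norm_num)) _
      exact hP l hlp hlm (by simpa using dvd_sub h2 h1)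
  obtain ⟨i, hi, j, hj, hgood⟩ := hY0 Y (le_max_left _ _) pu pv
    (fun l hl hlM h => hprimM l hl hlM (by
      have h' : (l : ℤ) ∣ (M : ℤ) := Int.natCast_dvd_natCast.mpr hlM
      constructor
      · have := dvd_sub h.1 (h'.trans (hcongr u1 ⌊(K : ℝ) * Y * a⌋ 0))
        simpa [hpu] using this
      · have := dvd_sub h.2 (h'.trans (hcongr v1 ⌊(K : ℝ) * Y * b⌋ 0))
        simpa [hpv] using this))
    (fun i hi => hbound u1 a (le_add_of_nonneg_right (abs_nonneg b)) i hi)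
    (fun i hi => hbound v1 b (le_add_of_nonneg_left (abs_nonneg a)) i hi)
  set u := pu + (M : ℤ) * (i : ℤ) with hu
  set v := pv + (M : ℤ) * (j : ℤ) with hv
  have huM : (M : ℤ) ∣ u - u1 := hcongr u1 _ i
  have hvM : (M : ℤ) ∣ v - v1 := hcongr v1 _ j
  have hum : (m : ℤ) ∣ u - u0 := by
    simpa using dvd_add ((Int.natCast_dvd_natCast.mpr hmM).trans huM) hu1
  have hvm : (m : ℤ) ∣ v - v0 := by
    simpa using dvd_add ((Int.natCast_dvd_natCast.mpr hmM).trans hvM) hv1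
  have hsq : ∀ l : ℕ, l.Prime → ¬ l ∣ m → ¬ (l : ℤ) ^ 2 ∣ qform c u v := by
    intro l hl hlm hd
    by_cases hlM : l ∣ M
    · have hlS := (hMprimes l hl hlM).resolve_left hlm
      have hl2 : (l : ℤ) ^ 2 ∣ (M : ℤ) := by
        exact_mod_cast Int.natCast_dvd_natCast.mpr (hSM l hlS)
      refine hP l hl hlm ?_
      have h2 := qform_congr c ((l : ℤ) ^ 2) u v (P l).1 (P l).2
        (by simpa using dvd_add (hl2.trans huM) (hu1S l hlS))
        (by simpa using dvd_add (hl2.trans hvM) (hv1S l hlS))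
      simpa using dvd_sub hd h2
    · exact hgood l hl hlM hd
  refine ⟨u, v, ?_, hum, hvm, ?_, hsq⟩
  · refine Int.isCoprime_iff_nat_coprime.mpr (Nat.coprime_of_dvd fun l hl ha hb => ?_)
    obtain ⟨x, hx⟩ : (l : ℤ) ∣ u := Int.natCast_dvd.mpr ha
    obtain ⟨y, hy⟩ : (l : ℤ) ∣ v := Int.natCast_dvd.mpr hb
    by_cases hlm : l ∣ m
    · have h' : (l : ℤ) ∣ (m : ℤ) := Int.natCast_dvd_natCast.mpr hlm
      exact hprim l hl hlm ⟨by simpa using dvd_sub (Dvd.intro x hx.symm) (h'.trans hum),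
        by simpa using dvd_sub (Dvd.intro y hy.symm) (h'.trans hvm)⟩
    · refine hsq l hl hlm ?_
      rw [hx, hy, qform_homog]
      exact Dvd.dvd.mul_right (pow_dvd_pow _ (by norm_num)) _
  · have h := hKbox ((M : ℝ) * Y) (u : ℝ) (v : ℝ) (by positivity) (hnear u1 a i hi)
      (hnear v1 b j hj)
    rw [qformR_intCast] at h
    exact_mod_cast h

end FLTA.LT2.Sieve
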