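import Fermat.Agent.LT2.Defs
import Fermat.Agent.LT2.HesseDisc
import Fermat.Agent.LT2.SieveMain

/-!
# The classes at odd primes of the companion curve, and the Chinese remainder theorem

At a bad prime with `v(Δ)` odd stay close to `W`; with `v(Δ)` even make `hD` exactly divisible
by `ℓ` through its simple root `3 c₆ / c₄`.
-/

set_option autoImplicit false

open WeierstrassCurve

namespace FLTA.LT2

open Hesse

theorem hD_congr (c₄ c₆ q u v u₀ v₀ : ℤ) (hu : q ∣ u - u₀) (hv : q ∣ v - v₀) :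
    q ∣ hD c₄ c₆ u v - hD c₄ c₆ u₀ v₀ := by
  simpa only [qform_quarticCoeffs] using
    Sieve.qform_congr (quarticCoeffs c₄ c₆) q u v u₀ v₀ hu hv

theorem hC4_congr (c₄ c₆ q u v u₀ v₀ : ℤ) (hu : q ∣ u - u₀) (hv : q ∣ v - v₀) :
    q ∣ hC4 c₄ c₆ u v - hC4 c₄ c₆ u₀ v₀ := by
  have h1 : u₀ ≡ u [ZMOD q] := Int.modEq_iff_dvd.mpr hu
  have h2 : v₀ ≡ v [ZMOD q] := Int.modEq_iff_dvd.mpr hv
  refine Int.modEq_iff_dvd.mp ?_
  simp only [hC4]
  gcongr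

theorem hC6_congr (c₄ c₆ q u v u₀ v₀ : ℤ) (hu : q ∣ u - u₀) (hv : q ∣ v - v₀) :
    q ∣ hC6 c₄ c₆ u v - hC6 c₄ c₆ u₀ v₀ := by
  have h1 : u₀ ≡ u [ZMOD q] := Int.modEq_iff_dvd.mpr hu
  have h2 : v₀ ≡ v [ZMOD q] := Int.modEq_iff_dvd.mpr hv
  refine Int.modEq_iff_dvd.mp ?_
  simp only [hC6]
  gcongr

variable (W : WeierstrassCurve ℤ)

/-- The class at a bad odd prime. -/
theorem exists_class_bad {ℓ : ℕ} (hℓ : ℓ.Prime) (h2 : ℓ ≠ 2) (hd : (ℓ : ℤ) ∣ W.Δ)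
    (hc : ¬ (ℓ : ℤ) ∣ W.c₄) :
    ∃ u₀ v₀ : ℤ, ¬ ((ℓ : ℤ) ∣ u₀ ∧ (ℓ : ℤ) ∣ v₀) ∧ ∀ u v : ℤ,
      (ℓ : ℤ) ^ 2 ∣ u - u₀ → (ℓ : ℤ) ^ 2 ∣ v - v₀ →
        ¬ (ℓ : ℤ) ∣ hC4 W.c₄ W.c₆ u v ∧
          Odd (padicValInt ℓ W.Δ + 3 * padicValInt ℓ (hD W.c₄ W.c₆ u v)) := by
  have : Fact ℓ.Prime := ⟨hℓ⟩
  have hℓ' : Prime (ℓ : ℤ) := Nat.prime_iff_prime_int.mp hℓ
  have hdown : ∀ {z : ℤ}, (ℓ : ℤ) ^ 2 ∣ z → (ℓ : ℤ) ∣ z := fun h =>
    (dvd_pow_self _ two_ne_zero).trans h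
  by_cases hodd : Odd (padicValInt ℓ W.Δ)
  · refine ⟨1, 0, fun h => hℓ'.not_dvd_one h.1, fun u v hu hv => ⟨fun h => hc ?_, ?_⟩⟩
    · have := dvd_sub h (hdown (hC4_congr W.c₄ W.c₆ _ u v 1 0 hu hv))
      simpa [hC4_one_zero] using this
    · have hD' : ¬ (ℓ : ℤ) ∣ hD W.c₄ W.c₆ u v := fun h => hℓ'.not_dvd_one (by
        have := dvd_sub h (hdown (hD_congr W.c₄ W.c₆ _ u v 1 0 hu hv))
        simpa [hD] using this)
      rw [padicValInt.eq_zero_of_not_dvd hD', mul_zero, add_zero]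
      exact hodd
  · set c := (W.c₄ : ZMod ℓ) with hc'
    have hc0 : c ≠ 0 := fun h => hc ((ZMod.intCast_zmod_eq_zero_iff_dvd _ _).1 h)
    set d : ZMod ℓ := (W.c₆ : ZMod ℓ) / c with hd'
    have hrel : c ^ 3 = (W.c₆ : ZMod ℓ) ^ 2 := by
      have h := congrArg (fun z : ℤ => (z : ZMod ℓ)) W.c_relation
      push_cast at h
      rw [(ZMod.intCast_zmod_eq_zero_iff_dvd W.Δ ℓ).2 hd, mul_zero] at h
      exact sub_eq_zero.1 h.symm
    have h4 : c = d ^ 2 := by rw [hd', div_pow, ← hrel]; field_simp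
    have h6 : (W.c₆ : ZMod ℓ) = d ^ 3 := by
      rw [pow_succ, ← h4, hd']; field_simp
    have hd0 : d ≠ 0 := fun h => hc0 (by rw [h4, h]; ring)
    have htwo : (2 : ZMod ℓ) ≠ 0 := fun h => h2 (((Nat.prime_dvd_prime_iff_eq hℓ Nat.prime_two).1
      ((ZMod.natCast_eq_zero_iff 2 ℓ).1 (by exact_mod_cast h))))
    set r : ℤ := ((3 * d).val : ℤ) with hr
    have hr' : (r : ZMod ℓ) = 3 * d := by rw [hr]; push_cast; rw [ZMod.natCast_zmod_val]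
    have hDr : (ℓ : ℤ) ∣ hD W.c₄ W.c₆ r 1 := by
      refine (ZMod.intCast_zmod_eq_zero_iff_dvd _ _).1 ?_
      rw [← eq_intCast (Int.castRingHom (ZMod ℓ)), map_hD]
      simp only [eq_intCast, Int.cast_one, hr', ← hc', h6, hD]
      rw [h4]; ring
    have hder : ¬ (ℓ : ℤ) ∣ 4 * r ^ 3 - 12 * W.c₄ * r - 8 * W.c₆ := fun h => by
      have h' := (ZMod.intCast_zmod_eq_zero_iff_dvd _ _).2 h
      push_cast at h'
      rw [hr', ← hc', h6, h4] at h'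
      have : (2 : ZMod ℓ) ^ 6 * d ^ 3 = 0 := by linear_combination h'
      simp [htwo, hd0] at this
    have hstep : hD W.c₄ W.c₆ (r + ℓ) 1 - hD W.c₄ W.c₆ r 1 =
        (ℓ : ℤ) * (4 * r ^ 3 - 12 * W.c₄ * r - 8 * W.c₆)
          + (ℓ : ℤ) ^ 2 * (6 * r ^ 2 + 4 * r * ℓ + (ℓ : ℤ) ^ 2 - 6 * W.c₄) := by
      simp only [hD]; ring
    obtain ⟨u₀, hu₀, hsq⟩ : ∃ u₀ : ℤ, (ℓ : ℤ) ∣ u₀ - r ∧
        ¬ (ℓ : ℤ) ^ 2 ∣ hD W.c₄ W.c₆ u₀ 1 := by
      by_cases h : (ℓ : ℤ) ^ 2 ∣ hD W.c₄ W.c₆ r 1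
      · refine ⟨r + ℓ, by simp, fun h' => hder ?_⟩
        have h'' := dvd_sub (dvd_sub h' h)
          (dvd_mul_right ((ℓ : ℤ) ^ 2) (6 * r ^ 2 + 4 * r * ℓ + (ℓ : ℤ) ^ 2 - 6 * W.c₄))
        rw [hstep, add_sub_cancel_right, sq] at h''
        exact (mul_dvd_mul_iff_left hℓ'.ne_zero).1 h''
      · exact ⟨r, by simp, h⟩
    refine ⟨u₀, 1, fun h => hℓ'.not_dvd_one h.2, fun u v hu hv => ⟨fun h => ?_, ?_⟩⟩
    · have hu' : (u : ZMod ℓ) = 3 * d := by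
        have := (ZMod.intCast_zmod_eq_zero_iff_dvd _ _).2
          (dvd_add (hdown hu) hu₀)
        push_cast at this
        linear_combination this + hr'
      have hv' : (v : ZMod ℓ) = 1 := by
        have := (ZMod.intCast_zmod_eq_zero_iff_dvd _ _).2 (hdown hv)
        push_cast at this
        linear_combination this
      have h' := (ZMod.intCast_zmod_eq_zero_iff_dvd _ _).2 h
      rw [← eq_intCast (Int.castRingHom (ZMod ℓ)), map_hC4] at h'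
      simp only [eq_intCast, hu', hv', ← hc', h6, hC4] at h'
      rw [h4] at h'
      have : (2 : ZMod ℓ) ^ 8 * d ^ 6 = 0 := by linear_combination h'
      simp [htwo, hd0] at this
    · have hdvd : (ℓ : ℤ) ∣ hD W.c₄ W.c₆ u v := by
        have h1 := hdown (hD_congr W.c₄ W.c₆ _ u v u₀ 1 hu hv)
        have h2' := hD_congr W.c₄ W.c₆ (ℓ : ℤ) u₀ 1 r 1 hu₀ (by simp)
        simpa using dvd_add (dvd_add h1 h2') hDr
      have hndvd : ¬ (ℓ : ℤ) ^ 2 ∣ hD W.c₄ W.c₆ u v := fun h => hsq (by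
        simpa using dvd_sub h (hD_congr W.c₄ W.c₆ _ u v u₀ 1 hu hv))
      have hne : hD W.c₄ W.c₆ u v ≠ 0 := fun h => hndvd (h ▸ dvd_zero _)
      have hval : padicValInt ℓ (hD W.c₄ W.c₆ u v) = 1 := by
        have a1 := ((padicValInt_dvd_iff (p := ℓ) 1 _).1 (by simpa using hdvd)).resolve_left hne
        have a2 : ¬ 2 ≤ padicValInt ℓ (hD W.c₄ W.c₆ u v) := fun h =>
          hndvd ((padicValInt_dvd_iff (p := ℓ) 2 _).2 (Or.inr h))
        omega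
      rw [hval]
      rw [Nat.not_odd_iff_even] at hodd
      exact hodd.add_odd (by decide)

/-- Chinese remainder theorem for prime powers. -/
theorem exists_crt_primes (T : Finset ℕ) (hT : ∀ l ∈ T, l.Prime) (e : ℕ → ℕ) (x : ℕ → ℤ) :
    ∃ u : ℤ, ∀ l ∈ T, (l : ℤ) ^ e l ∣ u - x l := by
  classical
  induction T using Finset.induction_on with
  | empty => exact ⟨0, by simp⟩
  | insert l T hl ih =>
    obtain ⟨u, hu⟩ := ih fun q hq => hT q (Finset.mem_insert_of_mem hq)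
    have hcop : IsCoprime (∏ q ∈ T, (q : ℤ) ^ e q) ((l : ℤ) ^ e l) := by
      refine IsCoprime.prod_left fun q hq => IsCoprime.pow ?_
      exact Nat.isCoprime_iff_coprime.mpr ((Nat.coprime_primes
        (hT q (Finset.mem_insert_of_mem hq)) (hT l (Finset.mem_insert_self _ _))).mpr
          fun h => hl (h ▸ hq))
    obtain ⟨a, b, hab⟩ := hcop
    refine ⟨u + a * (∏ q ∈ T, (q : ℤ) ^ e q) * (x l - u), fun q hq => ?_⟩
    rcases Finset.mem_insert.mp hq with rfl | hq'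
    · exact ⟨b * (u - x q), by linear_combination (x q - u) * hab⟩
    · obtain ⟨t, ht⟩ := Finset.dvd_prod_of_mem (fun q : ℕ => (q : ℤ) ^ e q) hq'
      obtain ⟨t', ht'⟩ := hu q hq'
      exact ⟨t' + a * t * (x l - u), by
        linear_combination ht' + (a * (x l - u)) * ht⟩

end FLTA.LT2
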