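import Mathlib

/-!
# The covariants of the Hesse pencil

For invariants `c₄, c₆` the curves with the same 3-torsion (symplectically) have invariants
`hC4, hC6` at `(l, m)`, and discriminant that of the given curve times `hD ^ 3`.
-/

set_option autoImplicit false

namespace FLTA.LT2.Hesse

variable {R S : Type*} [CommRing R] [CommRing S]

/-- The quartic whose roots are the cusps of the family. -/
def hD (c₄ c₆ l m : R) : R :=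
  l ^ 4 - 6 * c₄ * l ^ 2 * m ^ 2 - 8 * c₆ * l * m ^ 3 - 3 * c₄ ^ 2 * m ^ 4

/-- The fourth invariant of the family. -/
def hC4 (c₄ c₆ l m : R) : R :=
  c₄ * l ^ 4 + 4 * c₆ * l ^ 3 * m + 6 * c₄ ^ 2 * l ^ 2 * m ^ 2 + 4 * c₄ * c₆ * l * m ^ 3
    - (3 * c₄ ^ 3 - 4 * c₆ ^ 2) * m ^ 4

/-- The sixth invariant of the family. -/
def hC6 (c₄ c₆ l m : R) : R :=
  c₆ * l ^ 6 + 6 * c₄ ^ 2 * l ^ 5 * m + 15 * c₄ * c₆ * l ^ 4 * m ^ 2 + 20 * c₆ ^ 2 * l ^ 3 * m ^ 3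
    + 15 * c₄ ^ 2 * c₆ * l ^ 2 * m ^ 4 + 6 * (3 * c₄ ^ 4 - 2 * c₄ * c₆ ^ 2) * l * m ^ 5
    + (9 * c₄ ^ 3 * c₆ - 8 * c₆ ^ 3) * m ^ 6

theorem hC4_pow_three_sub (c₄ c₆ l m : R) :
    hC4 c₄ c₆ l m ^ 3 - hC6 c₄ c₆ l m ^ 2 = (c₄ ^ 3 - c₆ ^ 2) * hD c₄ c₆ l m ^ 3 := by
  simp only [hC4, hC6, hD]; ring

/-- The numerator of the isomorphism on abscissae. -/
def hNum (c₄ c₆ l m t : R) : R :=
  t * (l ^ 3 - 3 * c₄ * l * m ^ 2 - 2 * c₆ * m ^ 3)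
    - 3 * m * (c₄ * l ^ 2 + 2 * c₆ * l * m + c₄ ^ 2 * m ^ 2)

/-- The coefficient of `t` in `hNum`. -/
def hA (c₄ c₆ l m : R) : R := l ^ 3 - 3 * c₄ * l * m ^ 2 - 2 * c₆ * m ^ 3

theorem hNum_cross (c₄ c₆ l m t t' : R) :
    hNum c₄ c₆ l m t * (l - m * t') - hNum c₄ c₆ l m t' * (l - m * t) =
      hD c₄ c₆ l m * (t - t') := by
  simp only [hNum, hD]; ring

theorem hNum_weierstrass (c₄ c₆ l m t : R) :
    hD c₄ c₆ l m ^ 2 * (t ^ 3 - 3 * c₄ * t - 2 * c₆) * (l - m * t) -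
        (hNum c₄ c₆ l m t ^ 3 - 3 * hC4 c₄ c₆ l m * hNum c₄ c₆ l m t * (l - m * t) ^ 2
          - 2 * hC6 c₄ c₆ l m * (l - m * t) ^ 3) =
      -(m * hD c₄ c₆ l m ^ 2) * hD c₄ c₆ t 1 := by
  simp only [hNum, hD, hC4, hC6]; ring

theorem hNum_quartic (c₄ c₆ l m t : R) :
    hD (hC4 c₄ c₆ l m) (hC6 c₄ c₆ l m) (hNum c₄ c₆ l m t) (l - m * t) =
      (hA c₄ c₆ l m ^ 4 - 6 * hC4 c₄ c₆ l m * hA c₄ c₆ l m ^ 2 * m ^ 2
        + 8 * hC6 c₄ c₆ l m * hA c₄ c₆ l m * m ^ 3 - 3 * hC4 c₄ c₆ l m ^ 2 * m ^ 4) *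
        hD c₄ c₆ t 1 := by
  simp only [hNum, hD, hC4, hC6, hA]; ring

theorem map_hD (f : R →+* S) (c₄ c₆ l m : R) :
    f (hD c₄ c₆ l m) = hD (f c₄) (f c₆) (f l) (f m) := by
  simp only [hD, map_sub, map_mul, map_pow, map_ofNat]

theorem map_hC4 (f : R →+* S) (c₄ c₆ l m : R) :
    f (hC4 c₄ c₆ l m) = hC4 (f c₄) (f c₆) (f l) (f m) := by
  simp only [hC4, map_sub, map_add, map_mul, map_pow, map_ofNat]

theorem map_hC6 (f : R →+* S) (c₄ c₆ l m : R) :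
    f (hC6 c₄ c₆ l m) = hC6 (f c₄) (f c₆) (f l) (f m) := by
  simp only [hC6, map_sub, map_add, map_mul, map_pow, map_ofNat]

theorem map_hNum (f : R →+* S) (c₄ c₆ l m t : R) :
    f (hNum c₄ c₆ l m t) = hNum (f c₄) (f c₆) (f l) (f m) (f t) := by
  simp only [hNum, map_sub, map_add, map_mul, map_pow, map_ofNat]

theorem hD_smul (c₄ c₆ k l m : R) : hD c₄ c₆ (k * l) (k * m) = k ^ 4 * hD c₄ c₆ l m := by
  simp only [hD]; ring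

theorem hC4_smul (c₄ c₆ k l m : R) : hC4 c₄ c₆ (k * l) (k * m) = k ^ 4 * hC4 c₄ c₆ l m := by
  simp only [hC4]; ring

theorem hC6_smul (c₄ c₆ k l m : R) : hC6 c₄ c₆ (k * l) (k * m) = k ^ 6 * hC6 c₄ c₆ l m := by
  simp only [hC6]; ring

theorem hC4_one_zero (c₄ c₆ : R) : hC4 c₄ c₆ 1 0 = c₄ := by simp [hC4]

theorem hC6_one_zero (c₄ c₆ : R) : hC6 c₄ c₆ 1 0 = c₆ := by simp [hC6]

end FLTA.LT2.Hesse
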