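import Fermat.Agent.LT2.Defs
import Fermat.Agent.LT2.HesseForms

/-!
# The class at `2` of the companion curve

For `c₄` odd and `v₂(Δ) = 3s` the members with `u / v ≡ -c₆ / c₄` modulo `2 ^ (3 + s)` have good
supersingular reduction at `2` after scaling by `2 ^ (s + 2)`.
-/

set_option autoImplicit false

open WeierstrassCurve

namespace FLTA.LT2

open Hesse

theorem hC4_mul_pow (c₄ c₆ u v : ℤ) :
    hC4 c₄ c₆ u v * c₄ ^ 3 = (c₄ * u + c₆ * v) ^ 4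
      + 6 * (c₄ ^ 3 - c₆ ^ 2) * (c₄ * u + c₆ * v) ^ 2 * v ^ 2
      - 8 * c₆ * (c₄ ^ 3 - c₆ ^ 2) * (c₄ * u + c₆ * v) * v ^ 3
      - 3 * (c₄ ^ 3 - c₆ ^ 2) ^ 2 * v ^ 4 := by
  simp only [hC4]; ring

theorem hC6_mul_pow (c₄ c₆ u v : ℤ) :
    hC6 c₄ c₆ u v * c₄ ^ 6 = c₆ * (c₄ * u + c₆ * v) ^ 6
      + 6 * (c₄ ^ 3 - c₆ ^ 2) * (c₄ * u + c₆ * v) ^ 5 * v
      - 15 * c₆ * (c₄ ^ 3 - c₆ ^ 2) * (c₄ * u + c₆ * v) ^ 4 * v ^ 2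
      + 20 * c₆ ^ 2 * (c₄ ^ 3 - c₆ ^ 2) * (c₄ * u + c₆ * v) ^ 3 * v ^ 3
      + 15 * c₆ * (c₄ ^ 3 - c₆ ^ 2) ^ 2 * (c₄ * u + c₆ * v) ^ 2 * v ^ 4
      + (12 * c₆ ^ 2 * (c₄ ^ 3 - c₆ ^ 2) ^ 2 + 18 * (c₄ ^ 3 - c₆ ^ 2) ^ 3)
          * (c₄ * u + c₆ * v) * v ^ 5
      - (8 * c₆ ^ 3 * (c₄ ^ 3 - c₆ ^ 2) ^ 2 + 9 * c₆ * (c₄ ^ 3 - c₆ ^ 2) ^ 3) * v ^ 6 := by
  simp only [hC6]; ring

theorem odd_sq_zmod_four {z : ℤ} (hz : ¬ (2 : ℤ) ∣ z) : (z : ZMod 4) ^ 2 = 1 := by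
  obtain ⟨k, rfl⟩ := Int.odd_iff.2 (by omega : z % 2 = 1)
  push_cast
  have : ∀ x : ZMod 4, (2 * x + 1) ^ 2 = 1 := by decide +kernel
  exact this _

variable (W : WeierstrassCurve ℤ)

theorem four_dvd_c₆_add_one (hc : ¬ (2 : ℤ) ∣ W.c₄) : (4 : ℤ) ∣ W.c₆ + 1 := by
  have h1 : ¬ (2 : ℤ) ∣ W.a₁ := fun ⟨a, ha⟩ => hc (by
    refine ⟨8 * (a ^ 2 + W.a₂) ^ 2 - 12 * (2 * W.a₄ + W.a₁ * W.a₃), ?_⟩
    simp only [WeierstrassCurve.c₄, WeierstrassCurve.b₂, WeierstrassCurve.b₄, ha]; ring)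
  refine (ZMod.intCast_zmod_eq_zero_iff_dvd _ 4).1 ?_
  simp only [WeierstrassCurve.c₆, WeierstrassCurve.b₂, WeierstrassCurve.b₄, WeierstrassCurve.b₆]
  push_cast
  rw [odd_sq_zmod_four h1]
  have : ∀ x y z : ZMod 4, -(1 + 4 * x) ^ 3 + 36 * (1 + 4 * x) * y - 216 * z + 1 = 0 := by
    decide +kernel
  exact this _ _ _

/-- The class at `2`. -/
theorem exists_class_two (hW : W.IsSemistableModel) (hΔ : W.Δ ≠ 0) (h2 : TwoOK W) :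
    ∃ (k J : ℕ) (u₀ v₀ : ℤ), 0 < J ∧ ¬ ((2 : ℤ) ∣ u₀ ∧ (2 : ℤ) ∣ v₀) ∧
      ∀ u v : ℤ, (2 : ℤ) ^ J ∣ u - u₀ → (2 : ℤ) ^ J ∣ v - v₀ →
        (2 : ℤ) ^ (4 * k + 4) ∣ hC4 W.c₄ W.c₆ u v ∧
          ∃ B : ℤ, hC6 W.c₄ W.c₆ u v = 2 ^ (6 * k) * (8 * B) ∧ (4 : ℤ) ∣ B - 1 := by
  by_cases hc : (2 : ℤ) ∣ W.c₄
  · -- supersingular: stay close to `W`
    have hgood : ¬ (2 : ℤ) ∣ W.Δ := fun h => hW 2 Nat.prime_two h hc
    have ha1 : (2 : ℤ) ∣ W.a₁ := by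
      refine Int.prime_two.dvd_of_dvd_pow (n := 4) ?_
      obtain ⟨t, ht⟩ := hc
      refine ⟨t - 4 * W.a₁ ^ 2 * W.a₂ - 8 * W.a₂ ^ 2 + 24 * W.a₄ + 12 * W.a₁ * W.a₃, ?_⟩
      simp only [WeierstrassCurve.c₄, WeierstrassCurve.b₂, WeierstrassCurve.b₄] at ht
      linear_combination ht
    obtain ⟨a, ha⟩ := ha1
    have ha3 : ¬ (2 : ℤ) ∣ W.a₃ := fun ⟨b, hb⟩ => hgood (by
      refine (ZMod.intCast_zmod_eq_zero_iff_dvd _ 2).1 ?_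
      simp only [WeierstrassCurve.Δ, WeierstrassCurve.b₂, WeierstrassCurve.b₄,
        WeierstrassCurve.b₆, WeierstrassCurve.b₈, ha, hb]
      push_cast
      rw [show (2 : ZMod 2) = 0 from rfl, show (4 : ZMod 2) = 0 from rfl,
        show (8 : ZMod 2) = 0 from rfl]
      ring)
    obtain ⟨b, hb⟩ := Int.odd_iff.2 (by omega : W.a₃ % 2 = 1)
    refine ⟨0, 5, 1, 0, by norm_num, fun h => by omega, fun u v hu hv => ?_⟩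
    have hu' : (u : ZMod 32) = 1 := by
      have := (ZMod.intCast_zmod_eq_zero_iff_dvd (u - 1) 32).2 (by exact_mod_cast hu)
      push_cast at this
      linear_combination this
    have hv' : (v : ZMod 32) = 0 := by
      have := (ZMod.intCast_zmod_eq_zero_iff_dvd (v - 0) 32).2 (by exact_mod_cast hv)
      push_cast at this
      linear_combination this
    obtain ⟨t4, h4⟩ : (32 : ℤ) ∣ hC4 W.c₄ W.c₆ u v - W.c₄ := by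
      refine (ZMod.intCast_zmod_eq_zero_iff_dvd _ 32).1 ?_
      simp only [hC4]; push_cast; rw [hu', hv']; ring
    obtain ⟨t6, h6⟩ : (32 : ℤ) ∣ hC6 W.c₄ W.c₆ u v - W.c₆ := by
      refine (ZMod.intCast_zmod_eq_zero_iff_dvd _ 32).1 ?_
      simp only [hC6]; push_cast; rw [hu', hv']; ring
    refine ⟨⟨(a ^ 2 + W.a₂) ^ 2 - 3 * (W.a₄ + a * W.a₃) + 2 * t4, ?_⟩,
      -8 * (a ^ 2 + W.a₂) ^ 3 + 36 * (a ^ 2 + W.a₂) * (W.a₄ + a * W.a₃)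
        - 27 * ((2 * b + 1) ^ 2 + 4 * W.a₆) + 4 * t6, ?_, ?_⟩
    · simp only [WeierstrassCurve.c₄, WeierstrassCurve.b₂, WeierstrassCurve.b₄, ha] at h4 ⊢
      linear_combination h4
    · simp only [WeierstrassCurve.c₆, WeierstrassCurve.b₂, WeierstrassCurve.b₄,
        WeierstrassCurve.b₆, ha] at h6 ⊢
      rw [hb] at h6 ⊢
      linear_combination h6
    · exact ⟨-2 * (a ^ 2 + W.a₂) ^ 3 + 9 * (a ^ 2 + W.a₂) * (W.a₄ + a * W.a₃)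
        - 27 * (b ^ 2 + b + W.a₆) + t6 - 7, by ring⟩
  · obtain ⟨s, o, ho, hq⟩ : ∃ (s : ℕ) (o : ℤ), ¬ (2 : ℤ) ∣ o ∧ W.Δ = (2 ^ s) ^ 3 * o := by
      rcases h2 with h | ⟨s, hs⟩
      · exact ⟨0, W.Δ, h, by simp⟩
      · have hdvd : ((2 : ℕ) : ℤ) ^ (3 * s) ∣ W.Δ :=
          (padicValInt_dvd_iff (p := 2) (3 * s) W.Δ).2 (Or.inr hs.ge)
        obtain ⟨o, ho⟩ := hdvd
        refine ⟨s, o, fun h => ?_, by rw [ho, ← pow_mul, mul_comm s 3]; norm_num⟩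
        have h1 : ((2 : ℕ) : ℤ) ^ (3 * s + 1) ∣ W.Δ := by
          rw [ho, pow_succ]; exact mul_dvd_mul_left _ (by exact_mod_cast h)
        rcases (padicValInt_dvd_iff (p := 2) (3 * s + 1) W.Δ).1 h1 with h' | h'
        · exact hΔ h'
        · omega
    have hcop : IsCoprime W.c₄ ((2 : ℤ) ^ (3 + s)) :=
      ((Int.prime_two.coprime_iff_not_dvd.2 hc).symm).pow_right
    obtain ⟨x, y, hxy⟩ := id hcop
    refine ⟨s + 2, 3 + s, -W.c₆ * x, 1, by omega, fun h => by omega, fun u v hu hv => ?_⟩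
    have hv2 : ¬ (2 : ℤ) ∣ v := by
      have : (2 : ℤ) ∣ v - 1 := (dvd_pow_self 2 (by omega : 3 + s ≠ 0)).trans hv
      omega
    obtain ⟨w, hw⟩ : (2 : ℤ) ^ (3 + s) ∣ W.c₄ * u + W.c₆ * v := by
      have h := dvd_add (dvd_add (hu.mul_left W.c₄) (hv.mul_left W.c₆))
        (dvd_mul_left ((2 : ℤ) ^ (3 + s)) (W.c₆ * y))
      rw [show W.c₄ * u + W.c₆ * v = W.c₄ * (u - -W.c₆ * x) + W.c₆ * (v - 1)
        + W.c₆ * y * 2 ^ (3 + s) by linear_combination (-W.c₆) * hxy]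
      exact h
    set q : ℤ := 2 ^ s with hqs
    have hw' : W.c₄ * u + W.c₆ * v = 8 * q * w := by rw [hw, hqs]; ring
    have hP : W.c₄ ^ 3 - W.c₆ ^ 2 = 1728 * (q ^ 3 * o) := by rw [← hq, W.c_relation]
    have e4 : hC4 W.c₄ W.c₆ u v * W.c₄ ^ 3 = 4096 * q ^ 4 * (w ^ 4 + 162 * q * o * w ^ 2 * v ^ 2
        - 27 * o * W.c₆ * w * v ^ 3 - 2187 * q ^ 2 * o ^ 2 * v ^ 4) := by
      rw [hC4_mul_pow, hw', hP]; ring
    obtain ⟨t, e6⟩ : ∃ t : ℤ, hC6 W.c₄ W.c₆ u v * W.c₄ ^ 6 =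
        32768 * q ^ 6 * (-(729 * W.c₆ ^ 3 * o ^ 2 * v ^ 6) + 4 * t) := by
      refine ⟨2 * W.c₆ * w ^ 6 + 2592 * q ^ 2 * o * w ^ 5 * v
        - 810 * q * W.c₆ * o * w ^ 4 * v ^ 2 + 135 * W.c₆ ^ 2 * o * w ^ 3 * v ^ 3
        + 21870 * q ^ 2 * W.c₆ * o ^ 2 * w ^ 2 * v ^ 4
        + 2187 * q * W.c₆ ^ 2 * o ^ 2 * w * v ^ 5 + 5668704 * q ^ 4 * o ^ 3 * w * v ^ 5
        - 354294 * q ^ 3 * W.c₆ * o ^ 3 * v ^ 6, ?_⟩
      rw [hC6_mul_pow, hw', hP]; ring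
    have hk4 : (2 : ℤ) ^ (4 * (s + 2) + 4) = 4096 * q ^ 4 := by
      rw [hqs, ← pow_mul, show 4 * (s + 2) + 4 = 12 + s * 4 by ring, pow_add]; norm_num
    have hk6 : (2 : ℤ) ^ (6 * (s + 2)) * 8 = 32768 * q ^ 6 := by
      rw [hqs, ← pow_mul, show 6 * (s + 2) = 12 + s * 6 by ring, pow_add]; ring
    have hc2 : IsCoprime W.c₄ 2 := (Int.prime_two.coprime_iff_not_dvd.2 hc).symm
    refine ⟨?_, ?_⟩
    · exact (hc2.pow (m := 3) (n := 4 * (s + 2) + 4)).symm.dvd_of_dvd_mul_right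
        (hk4 ▸ ⟨_, e4⟩)
    · obtain ⟨B, hB⟩ : (2 : ℤ) ^ (6 * (s + 2) + 3) ∣ hC6 W.c₄ W.c₆ u v := by
        refine (hc2.pow (m := 6) (n := 6 * (s + 2) + 3)).symm.dvd_of_dvd_mul_right ?_
        rw [pow_add, show (2 : ℤ) ^ 3 = 8 by norm_num, hk6]
        exact ⟨_, e6⟩
      refine ⟨B, by rw [hB, pow_add]; ring, ?_⟩
      have hB' : B * W.c₄ ^ 6 = -(729 * W.c₆ ^ 3 * o ^ 2 * v ^ 6) + 4 * t := by
        refine mul_left_cancel₀ (a := 32768 * q ^ 6) (by positivity) ?_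
        rw [← e6, hB, ← hk6, pow_add]; ring
      refine (ZMod.intCast_zmod_eq_zero_iff_dvd _ 4).1 ?_
      have h := congrArg (fun z : ℤ => (z : ZMod 4)) hB'
      have h6 := (ZMod.intCast_zmod_eq_zero_iff_dvd _ 4).2 (four_dvd_c₆_add_one W hc)
      push_cast at h h6 ⊢
      rw [show (W.c₄ : ZMod 4) ^ 6 = ((W.c₄ : ZMod 4) ^ 2) ^ 3 by ring,
        show (v : ZMod 4) ^ 6 = ((v : ZMod 4) ^ 2) ^ 3 by ring, odd_sq_zmod_four hc,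
        odd_sq_zmod_four hv2, odd_sq_zmod_four ho,
        show (W.c₆ : ZMod 4) = -1 by linear_combination h6, show (729 : ZMod 4) = 1 from rfl,
        show (4 : ZMod 4) = 0 from rfl] at h
      linear_combination h

end FLTA.LT2
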