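import Fermat.Agent.LT2.HesseMap
import Fermat.Agent.Elliptic.Switch.Congr

/-!
# The Galois equivariant isomorphism of 3-torsion and the congruence of traces
-/

set_option autoImplicit false

noncomputable section

open WeierstrassCurve WeierstrassCurve.Affine WeierstrassCurve.Affine.Point
open FLTA.EllReducible

open scoped WeierstrassCurve.Affine

namespace FLTA.LT2.Hesse

local notation "Qbar" => AlgebraicClosure ℚ

theorem IsMember.map {K L : Type*} [Field K] [Field L] [CharZero K] [CharZero L] (f : K →+* L)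
    {W V : WeierstrassCurve K} {l m : K} (h : IsMember W V l m) :
    IsMember (W.map f) (V.map f) (f l) (f m) := by
  refine ⟨?_, ?_, ?_, ?_⟩
  · rw [map_c₄, map_c₄, map_c₆, h.c₄_eq, map_hC4]
  · rw [map_c₆, map_c₆, map_c₄, h.c₆_eq, map_hC6]
  · rw [map_Δ]; exact fun e => h.Δ_ne (f.injective (e.trans (_root_.map_zero f).symm))
  · rw [map_Δ]; exact fun e => h.Δ_ne' (f.injective (e.trans (_root_.map_zero f).symm))

section Rat

variable {W V : WeierstrassCurve ℚ} {l m : ℚ}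

theorem mapPoint_smul (h : IsMember W V l m) (σ : Qbar ≃ₐ[ℚ] Qbar) (P : (W⁄Qbar).Point)
    (hP : 3 • P = 0) :
    mapPoint (W⁄Qbar) (V⁄Qbar) (algebraMap ℚ Qbar l) (algebraMap ℚ Qbar m) (σ • P) =
      σ • mapPoint (W⁄Qbar) (V⁄Qbar) (algebraMap ℚ Qbar l) (algebraMap ℚ Qbar m) P := by
  have hm : IsMember (W⁄Qbar) (V⁄Qbar) (algebraMap ℚ Qbar l) (algebraMap ℚ Qbar m) :=
    h.map (algebraMap ℚ Qbar)
  rcases P with _ | ⟨x, y, hn⟩
  · exact mapPoint_zero _ _ _ _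
  have hx := (eval_Ψ₃_eq_zero_iff _ hm.Δ_ne hn).1 hP
  have hP' : 3 • (σ • (Affine.Point.some x y hn : (W⁄Qbar).Point)) = 0 := by
    rw [algEquiv_smul_def, ← map_nsmul, hP, _root_.map_zero]
  rw [hm.mapPoint_some hn hx, algEquiv_smul_def, algEquiv_smul_def, Affine.Point.map_some,
    Affine.Point.map_some] at *
  rw [hm.mapPoint_some _ ((eval_Ψ₃_eq_zero_iff _ hm.Δ_ne _).1 hP'), Affine.Point.some.injEq]
  have c : ∀ q : ℚ, (σ.toAlgHom : Qbar →+* Qbar) (algebraMap ℚ Qbar q) = algebraMap ℚ Qbar q :=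
    fun q => σ.commutes q
  constructor
  · simp only [mapX, tCoord, WeierstrassCurve.b₂, WeierstrassCurve.baseChange, Affine.baseChange, map_a₁, map_a₂, map_c₄, map_c₆,
      hNum, map_sub, map_add, map_mul, map_div₀, map_pow, map_ofNat, AlgEquiv.toAlgHom_eq_coe,
      AlgHom.coe_coe, AlgEquiv.commutes, AlgHom.commutes]
  · simp only [mapY, mapX, etaCoord, tCoord, WeierstrassCurve.b₂, WeierstrassCurve.baseChange, Affine.baseChange, map_a₁, map_a₂,
      map_a₃, map_c₄, map_c₆, hNum, hD, map_sub, map_add, map_mul, map_div₀, map_pow, map_ofNat,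
      AlgEquiv.toAlgHom_eq_coe, AlgHom.coe_coe, AlgEquiv.commutes, AlgHom.commutes]

/-- The isomorphism of 3-torsion. -/
theorem exists_torsion_equiv (h : IsMember W V l m) :
    ∃ φ : Tors W 3 ≃+ Tors V 3, ∀ (σ : Qbar ≃ₐ[ℚ] Qbar) (x : Tors W 3), φ (σ • x) = σ • φ x := by
  have hm : IsMember (W⁄Qbar) (V⁄Qbar) (algebraMap ℚ Qbar l) (algebraMap ℚ Qbar m) :=
    h.map (algebraMap ℚ Qbar)
  have h3 : ∀ x : Tors W 3, 3 • (x : (W⁄Qbar).Point) = 0 := fun x => by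
    have := (Submodule.mem_torsionBy_iff _ _).1 x.2
    rwa [natCast_zsmul] at this
  let f : Tors W 3 →+ Tors V 3 :=
    { toFun := fun x => ⟨mapPoint (W⁄Qbar) (V⁄Qbar) (algebraMap ℚ Qbar l) (algebraMap ℚ Qbar m) x,
        (Submodule.mem_torsionBy_iff _ _).2 (by
          rw [natCast_zsmul]; exact hm.three_nsmul_mapPoint _ (h3 x))⟩
      map_zero' := Subtype.ext (mapPoint_zero (W⁄Qbar) (V⁄Qbar) (algebraMap ℚ Qbar l)
        (algebraMap ℚ Qbar m))
      map_add' := fun x y => Subtype.ext (hm.mapPoint_add _ _ (h3 x) (h3 y)) }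
  have : (W⁄Qbar).IsElliptic := ⟨isUnit_iff_ne_zero.2 hm.Δ_ne⟩
  have : (V⁄Qbar).IsElliptic := ⟨isUnit_iff_ne_zero.2 hm.Δ_ne'⟩
  have hW := EllTorsion.natCard_torsionBy (W⁄Qbar) (n := 3) (by norm_num)
  have hV := EllTorsion.natCard_torsionBy (V⁄Qbar) (n := 3) (by norm_num)
  have : Finite (Tors V 3) := EllTorsion.finite_torsionBy (V⁄Qbar) (by norm_num)
  have hinj : Function.Injective f := fun x y e =>
    Subtype.ext (hm.mapPoint_injective (h3 x) (h3 y) (congrArg Subtype.val e))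
  have hbij : Function.Bijective f :=
    Function.Injective.bijective_of_nat_card_le hinj (le_of_eq (hV.trans hW.symm))
  exact ⟨AddEquiv.ofBijective f hbij, fun σ x => Subtype.ext (mapPoint_smul h σ _ (h3 x))⟩

end Rat

/-- A member of the family has traces congruent mod 3 (away from 2 and 3). -/
theorem three_dvd_apOfModel_sub (W V : WeierstrassCurve ℤ) (hΔ : W.Δ ≠ 0) (hΔ' : V.Δ ≠ 0)
    (l m : ℚ) (h4 : (V.c₄ : ℚ) = hC4 (W.c₄ : ℚ) (W.c₆ : ℚ) l m)
    (h6 : (V.c₆ : ℚ) = hC6 (W.c₄ : ℚ) (W.c₆ : ℚ) l m)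
    (ℓ : ℕ) (hℓ : ℓ.Prime) (hg : W.IsGoodPrimeFor ℓ) (hg' : V.IsGoodPrimeFor ℓ) (hℓ2 : ℓ ≠ 2)
    (hℓ3 : ℓ ≠ 3) : (3 : ℤ) ∣ (V.apOfModel ℓ - W.apOfModel ℓ) := by
  have hm : IsMember (W.map (Int.castRingHom ℚ)) (V.map (Int.castRingHom ℚ)) l m :=
    ⟨by rw [map_c₄, map_c₄, map_c₆]; exact h4, by rw [map_c₆, map_c₆, map_c₄]; exact h6,
      by rw [map_Δ]; simpa using hΔ, by rw [map_Δ]; simpa using hΔ'⟩
  obtain ⟨φ, hφ⟩ := exists_torsion_equiv hm
  have : Fact (Nat.Prime 3) := ⟨Nat.prime_three⟩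
  obtain ⟨A, hA⟩ := FLTA.Galois.exists_liesOverPrime hℓ
  obtain ⟨σ, hσ⟩ := FLTA.Galois.exists_isFrobeniusAt hℓ hA
  have e := EllTorsion.galoisTrace_frobenius W hΔ 3 (by norm_num) ℓ hℓ hℓ2 hg hℓ3 A hA σ hσ
  have e' := EllTorsion.galoisTrace_frobenius V hΔ' 3 (by norm_num) ℓ hℓ hℓ2 hg' hℓ3 A hA σ hσ
  let Φ : Tors (W.map (Int.castRingHom ℚ)) 3 ≃ₗ[ZMod 3] Tors (V.map (Int.castRingHom ℚ)) 3 :=
    { φ with map_smul' := fun c x => (φ.toAddMonoidHom.toZModLinearMap 3).map_smul c x }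
  have hconj : Φ.conj (galoisRepModuleEnd ℚ (W.map (Int.castRingHom ℚ)) 3 σ)
      = galoisRepModuleEnd ℚ (V.map (Int.castRingHom ℚ)) 3 σ := by
    refine LinearMap.ext fun y => ?_
    rw [LinearEquiv.conj_apply_apply]
    exact (hφ σ (Φ.symm y)).trans (congrArg _ (Φ.apply_symm_apply y))
  have htr : galoisTrace (K := Qbar) ℚ (V.map (Int.castRingHom ℚ)) 3 σ
      = galoisTrace (K := Qbar) ℚ (W.map (Int.castRingHom ℚ)) 3 σ := by
    rw [galoisTrace_def, galoisTrace_def, ← hconj]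
    exact LinearMap.trace_conj' _ Φ
  have : ((V.apOfModel ℓ - W.apOfModel ℓ : ℤ) : ZMod 3) = 0 := by
    push_cast
    rw [sub_eq_zero]
    exact (e'.symm.trans htr).trans e
  exact_mod_cast (ZMod.intCast_zmod_eq_zero_iff_dvd _ 3).1 this

end FLTA.LT2.Hesse
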