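import Fermat.Agent.LT2.SieveMain

/-!
# Roots of a separable quartic modulo squares of good primes (LT2, part A)
-/

set_option autoImplicit false

open Polynomial

namespace FLTA.LT2.Sieve

/-- Denominators of a rational polynomial can be cleared. -/
theorem exists_int_multiple (p : ℚ[X]) :
    ∃ d : ℤ, d ≠ 0 ∧ ∃ A : ℤ[X], A.map (Int.castRingHom ℚ) = C (d : ℚ) * p := by
  induction p using Polynomial.induction_on' with
  | add p q hp hq =>
    obtain ⟨d, hd, A, hA⟩ := hp
    obtain ⟨e, he, B, hB⟩ := hq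
    refine ⟨d * e, mul_ne_zero hd he, C e * A + C d * B, ?_⟩
    simp only [Polynomial.map_add, Polynomial.map_mul, Polynomial.map_C, hA, hB, Int.coe_castRingHom,
      Int.cast_mul, map_mul]
    ring
  | monomial n q =>
    refine ⟨(q.den : ℤ), by exact_mod_cast q.den_nz, monomial n q.num, ?_⟩
    rw [Polynomial.map_monomial, Polynomial.C_mul_monomial, eq_intCast]
    congr 1
    push_cast
    rw [mul_comm]
    exact (Rat.mul_den_eq_num q).symm

/-- A separable integral quartic has no repeated root modulo a prime not dividing a fixed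
nonzero integer. -/
theorem exists_disc (c : Fin 5 → ℤ) (hsep : ((qpoly c).map (Int.castRingHom ℚ)).Separable) :
    ∃ D : ℤ, D ≠ 0 ∧ ∀ l x : ℤ, l ∣ (qpoly c).eval x →
      l ∣ (derivative (qpoly c)).eval x → l ∣ D := by
  obtain ⟨a, b, hab⟩ := hsep
  obtain ⟨d, hd, A, hA⟩ := exists_int_multiple a
  obtain ⟨e, he, B, hB⟩ := exists_int_multiple b
  have hkey : C e * A * qpoly c + C d * B * derivative (qpoly c) = C (d * e) := by
    refine Polynomial.map_injective (Int.castRingHom ℚ) Int.cast_injective ?_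
    simp only [Polynomial.map_add, Polynomial.map_mul, Polynomial.map_C, hA, hB, Int.coe_castRingHom,
      map_mul, ← Polynomial.derivative_map]
    linear_combination (C (d : ℚ) * C (e : ℚ)) * hab
  refine ⟨d * e, mul_ne_zero hd he, fun l x h1 h2 => ?_⟩
  have h := congrArg (Polynomial.eval x) hkey
  simp only [eval_add, eval_mul, eval_C] at h
  rw [← h]
  exact dvd_add (h1.mul_left _) (h2.mul_left _)

/-- A prime not dividing the leading coefficient has at most four roots of the quartic. -/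
theorem card_roots_mod_le (c : Fin 5 → ℤ) (l : ℕ) (hl : l.Prime) (hc : ¬ (l : ℤ) ∣ c 0) :
    ((Finset.range l).filter fun x : ℕ => (l : ℤ) ∣ (qpoly c).eval (x : ℤ)).card ≤ 4 := by
  have := Fact.mk hl
  set g := (qpoly c).map (Int.castRingHom (ZMod l)) with hg
  have hdeg : g.natDegree ≤ 4 := by
    refine Polynomial.natDegree_map_le.trans ?_
    unfold qpoly
    compute_degree
  have hne : g ≠ 0 := by
    intro h
    apply hc
    rw [← ZMod.intCast_zmod_eq_zero_iff_dvd]
    have h4 := congrArg (fun p => Polynomial.coeff p 4) h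
    have h5 : (qpoly c).coeff 4 = c 0 := by
      simp only [qpoly, Polynomial.coeff_add,
        Polynomial.coeff_C_mul, Polynomial.coeff_X, Polynomial.coeff_C]
      norm_num
    simpa only [hg, Polynomial.coeff_map, h5, Polynomial.coeff_zero, eq_intCast] using h4
  refine le_trans ?_ ((Multiset.toFinset_card_le g.roots).trans
    ((Polynomial.card_roots' g).trans hdeg))
  refine Finset.card_le_card_of_injOn (fun x : ℕ => (x : ZMod l)) ?_ ?_
  · intro x hx
    rw [Finset.mem_coe, Finset.mem_filter] at hx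
    rw [Finset.mem_coe, Multiset.mem_toFinset, Polynomial.mem_roots hne, Polynomial.IsRoot.def,
      hg]
    dsimp only
    rw [show ((x : ℕ) : ZMod l) = Int.castRingHom (ZMod l) (x : ℤ) by simp,
      Polynomial.eval_map_apply, eq_intCast, ZMod.intCast_zmod_eq_zero_iff_dvd]
    exact hx.2
  · intro x hx y hy hxy
    rw [Finset.mem_coe, Finset.mem_filter, Finset.mem_range] at hx hy
    have := congrArg ZMod.val hxy
    simpa [ZMod.val_natCast_of_lt hx.1, ZMod.val_natCast_of_lt hy.1] using this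

/-- Outside a fixed modulus the quartic vanishes modulo `l ^ 2` on at most four lines. -/
theorem exists_bad_modulus (c : Fin 5 → ℤ) (h0 : c 0 ≠ 0)
    (hsep : ((qpoly c).map (Int.castRingHom ℚ)).Separable) :
    ∃ B : ℕ, 0 < B ∧ ∀ l : ℕ, l.Prime → ¬ l ∣ B → ∃ R : Finset ℤ, R.card ≤ 4 ∧
      ∀ u v : ℤ, ¬ ((l : ℤ) ∣ u ∧ (l : ℤ) ∣ v) → (l : ℤ) ^ 2 ∣ qform c u v →
      ∃ r ∈ R, (l : ℤ) ^ 2 ∣ (u - r * v) := by
  classical
  obtain ⟨D, hD, hDl⟩ := exists_disc c hsep
  refine ⟨(D * c 0).natAbs, Int.natAbs_pos.mpr (mul_ne_zero hD h0), fun l hl hlB => ?_⟩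
  have hlD : ¬ (l : ℤ) ∣ D := fun h => hlB (Int.natCast_dvd.mp (h.mul_right _))
  have hlc : ¬ (l : ℤ) ∣ c 0 := fun h => hlB (Int.natCast_dvd.mp (h.mul_left _))
  have hp : Prime (l : ℤ) := Nat.prime_iff_prime_int.mp hl
  set f := qpoly c with hf
  set T := (Finset.range l).filter fun x : ℕ => (l : ℤ) ∣ f.eval (x : ℤ) with hT
  set lift : ℕ → ℤ := fun x =>
    if h : ∃ r : ℤ, (l : ℤ) ∣ r - (x : ℤ) ∧ (l : ℤ) ^ 2 ∣ f.eval r then h.choose else 0
    with hlift
  refine ⟨T.image lift, Finset.card_image_le.trans (card_roots_mod_le c l hl hlc),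
    fun u v hne hdvd => ?_⟩
  have hv : ¬ (l : ℤ) ∣ v := by
    intro hv
    refine hne ⟨?_, hv⟩
    have h1 : (l : ℤ) ∣ qform c u v := (dvd_pow_self _ two_ne_zero).trans hdvd
    have h2 := dvd_sub h1
      (qform_congr c (l : ℤ) u v u 0 (by simp) (by simpa using hv))
    have h3 : (l : ℤ) ∣ c 0 * u ^ 4 := by simpa [qform] using h2
    exact hp.dvd_of_dvd_pow ((hp.dvd_mul.mp h3).resolve_left hlc)
  obtain ⟨a, w, haw⟩ : IsCoprime ((l : ℤ) ^ 2) v := ((hp.coprime_iff_not_dvd).mpr hv).pow_left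
  have hz : (l : ℤ) ^ 2 ∣ f.eval (u * w) := by
    rw [hf, qpoly_eval]
    have h1 : (l : ℤ) ^ 2 ∣ qform c (w * u) (w * v) := by
      rw [qform_homog]; exact hdvd.mul_left _
    have h2 := qform_congr c ((l : ℤ) ^ 2) (w * u) (w * v) (u * w) 1
      (by simp [mul_comm]) ⟨-a, by linear_combination haw⟩
    simpa using dvd_sub h1 h2
  set x := ((u * w) % (l : ℤ)).toNat with hxdef
  have hl0 : (0 : ℤ) < l := by exact_mod_cast hl.pos
  have hxz : (x : ℤ) = (u * w) % (l : ℤ) := Int.toNat_of_nonneg (Int.emod_nonneg _ hl0.ne')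
  have hxd : (l : ℤ) ∣ u * w - (x : ℤ) := by
    rw [hxz]; exact Int.dvd_self_sub_emod
  have hxT : x ∈ T := by
    rw [hT, Finset.mem_filter, Finset.mem_range]
    refine ⟨by have := Int.emod_lt_of_pos (u * w) hl0; omega, ?_⟩
    have := dvd_sub ((dvd_pow_self _ two_ne_zero).trans hz)
      (hxd.trans (Polynomial.sub_dvd_eval_sub (u * w) (x : ℤ) f))
    simpa using this
  have hex : ∃ r : ℤ, (l : ℤ) ∣ r - (x : ℤ) ∧ (l : ℤ) ^ 2 ∣ f.eval r := ⟨u * w, hxd, hz⟩
  have hr : (l : ℤ) ∣ lift x - (x : ℤ) ∧ (l : ℤ) ^ 2 ∣ f.eval (lift x) := by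
    rw [hlift]; simp only [dif_pos hex]; exact hex.choose_spec
  refine ⟨lift x, Finset.mem_image_of_mem _ hxT, ?_⟩
  set r := lift x with hrdef
  have hδ : (l : ℤ) ∣ u * w - r := by
    have := dvd_sub hxd hr.1
    rwa [sub_sub_sub_cancel_right] at this
  have hder : ¬ (l : ℤ) ∣ (derivative f).eval r := fun h =>
    hlD (hDl _ r ((dvd_pow_self _ two_ne_zero).trans hr.2) h)
  obtain ⟨k, hk⟩ := Polynomial.binomExpansion f r (u * w - r)
  rw [add_sub_cancel] at hk
  have h4 : (l : ℤ) ^ 2 ∣ (derivative f).eval r * (u * w - r) := by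
    have h5 := dvd_sub (dvd_sub hz hr.2) ((pow_dvd_pow_of_dvd hδ 2).mul_left k)
    rwa [hk, show f.eval r + (derivative f).eval r * (u * w - r) + k * (u * w - r) ^ 2 -
      f.eval r - k * (u * w - r) ^ 2 = (derivative f).eval r * (u * w - r) by ring] at h5
  have h6 : (l : ℤ) ^ 2 ∣ u * w - r :=
    (((hp.coprime_iff_not_dvd).mpr hder).pow_left).dvd_of_dvd_mul_left h4
  have h7 : u - r * v = (u * w - r) * v + (l : ℤ) ^ 2 * (a * u) := by
    linear_combination -u * haw
  rw [h7]
  exact dvd_add (h6.mul_right _) (Dvd.intro _ rfl)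

end FLTA.LT2.Sieve
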