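import Fermat.Agent.LT2.SievePrimes
import Fermat.Agent.LT2.SieveRoots

/-!
# The elementary squarefree sieve for binary quartic forms (LT2, part A)

Export: `exists_squarefree_value`. Local conditions at finitely many primes are encoded by the
modulus `m` and the class `(u0, v0)`; at every other prime only local solubility is needed,
which is automatic for primes `≥ 5` not dividing all coefficients (`exists_not_sq_dvd`).
-/

set_option autoImplicit false

namespace FLTA.LT2.Sieve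

/-- Squarefree values of a separable binary quartic form in a residue class, with the sign of
a given real point. -/
theorem exists_squarefree_value (c : Fin 5 → ℤ) (h0 : c 0 ≠ 0)
    (hsep : ((qpoly c).map (Int.castRingHom ℚ)).Separable)
    (m : ℕ) (hm : 0 < m) (u0 v0 : ℤ)
    (hprim : ∀ l : ℕ, l.Prime → l ∣ m → ¬ ((l : ℤ) ∣ u0 ∧ (l : ℤ) ∣ v0))
    (hloc : ∀ l : ℕ, l.Prime → ¬ l ∣ m → ∃ u v : ℤ, ¬ (l : ℤ) ^ 2 ∣ qform c u v)
    (s : ℤ) (a b : ℝ) (hsign : 0 < (s : ℝ) * qformR c a b) :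
    ∃ u v : ℤ, IsCoprime u v ∧ (m : ℤ) ∣ u - u0 ∧ (m : ℤ) ∣ v - v0 ∧
      0 < s * qform c u v ∧ ∀ l : ℕ, l.Prime → ¬ l ∣ m → ¬ (l : ℤ) ^ 2 ∣ qform c u v := by
  obtain ⟨B, hB, hroot⟩ := exists_bad_modulus c h0 hsep
  exact exists_squarefree_value_aux eventually_mul_primeCounting_le c B hB hroot m hm u0 v0
    hprim hloc s a b hsign

/-- The sign may be witnessed by an integral point. -/
theorem exists_squarefree_value_int (c : Fin 5 → ℤ) (h0 : c 0 ≠ 0)
    (hsep : ((qpoly c).map (Int.castRingHom ℚ)).Separable)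
    (m : ℕ) (hm : 0 < m) (u0 v0 : ℤ)
    (hprim : ∀ l : ℕ, l.Prime → l ∣ m → ¬ ((l : ℤ) ∣ u0 ∧ (l : ℤ) ∣ v0))
    (hloc : ∀ l : ℕ, l.Prime → ¬ l ∣ m → ∃ u v : ℤ, ¬ (l : ℤ) ^ 2 ∣ qform c u v)
    (s : ℤ) (a b : ℤ) (hsign : 0 < s * qform c a b) :
    ∃ u v : ℤ, IsCoprime u v ∧ (m : ℤ) ∣ u - u0 ∧ (m : ℤ) ∣ v - v0 ∧
      0 < s * qform c u v ∧ ∀ l : ℕ, l.Prime → ¬ l ∣ m → ¬ (l : ℤ) ^ 2 ∣ qform c u v :=
  exists_squarefree_value c h0 hsep m hm u0 v0 hprim hloc s a b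
    (by rw [qformR_intCast]; exact_mod_cast hsign)

end FLTA.LT2.Sieve
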