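import Fermat.Agent.LT2.CompanionModel
import Fermat.Agent.LT2.CompanionTwo
import Fermat.Agent.LT2.CompanionOdd
import Fermat.Agent.LT2.Sieve
import Fermat.Agent.LT2.HesseCong

/-! # Part A: the companion curve -/

set_option autoImplicit false

open WeierstrassCurve

namespace FLTA.LT2

open Hesse

theorem three_not_dvd_or_dvd_c₆ (W : WeierstrassCurve ℤ) :
    ¬ (3 : ℤ) ∣ W.c₆ ∨ (27 : ℤ) ∣ W.c₆ := by
  by_cases h : (3 : ℤ) ∣ W.b₂
  · obtain ⟨t, ht⟩ := h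
    exact Or.inr ⟨-t ^ 3 + 4 * t * W.b₄ - 8 * W.b₆, by
      simp only [WeierstrassCurve.c₆]; rw [ht]; ring⟩
  · refine Or.inl fun hc => h (Int.prime_three.dvd_of_dvd_pow (n := 3) ?_)
    obtain ⟨t, ht⟩ := hc
    refine ⟨12 * W.b₂ * W.b₄ - 72 * W.b₆ - t, ?_⟩
    simp only [WeierstrassCurve.c₆] at ht
    linear_combination (-1 : ℤ) * ht

/-- The class at the primes of the modulus of the sieve. -/
def ClassOK (W : WeierstrassCurve ℤ) (ℓ : ℕ) (u v : ℤ) : Prop :=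
  ((ℓ : ℤ) ∣ W.Δ → ¬ (ℓ : ℤ) ∣ hC4 W.c₄ W.c₆ u v ∧
    Odd (padicValInt ℓ W.Δ + 3 * padicValInt ℓ (hD W.c₄ W.c₆ u v))) ∧
  (¬ (ℓ : ℤ) ∣ W.Δ → ℓ = 3 → ¬ (3 : ℤ) ∣ hD W.c₄ W.c₆ u v ∧
    (27 : ℤ) ∣ hC6 W.c₄ W.c₆ u v - W.c₆)

theorem exists_class (W : WeierstrassCurve ℤ) (hW : W.IsSemistableModel) {ℓ : ℕ} (hℓ : ℓ.Prime)
    (h2 : ℓ ≠ 2) : ∃ u₀ v₀ : ℤ, ¬ ((ℓ : ℤ) ∣ u₀ ∧ (ℓ : ℤ) ∣ v₀) ∧
      ∀ u v : ℤ, (ℓ : ℤ) ^ 3 ∣ u - u₀ → (ℓ : ℤ) ^ 3 ∣ v - v₀ → ClassOK W ℓ u v := by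
  have hℓ' : Prime (ℓ : ℤ) := Nat.prime_iff_prime_int.mp hℓ
  by_cases hd : (ℓ : ℤ) ∣ W.Δ
  · obtain ⟨u₀, v₀, hp, h⟩ := exists_class_bad W hℓ h2 hd (hW ℓ hℓ hd)
    exact ⟨u₀, v₀, hp, fun u v hu hv => ⟨fun _ => h u v ((pow_dvd_pow _ (by norm_num)).trans hu)
      ((pow_dvd_pow _ (by norm_num)).trans hv), fun h' => absurd hd h'⟩⟩
  · refine ⟨1, 0, fun h => hℓ'.not_dvd_one h.1, fun u v hu hv => ⟨fun h' => absurd h' hd, ?_⟩⟩
    rintro - rfl
    refine ⟨fun h => ?_, ?_⟩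
    · have h' := dvd_sub h ((dvd_pow_self _ (by norm_num : 3 ≠ 0)).trans
        (hD_congr W.c₄ W.c₆ _ u v 1 0 hu hv))
      simp [hD] at h'
    · simpa [hC6_one_zero] using hC6_congr W.c₄ W.c₆ _ u v 1 0 hu hv

/-- Existence of the companion curve, with the congruence of traces away from `2`. -/
theorem exists_companion_away_two (W : WeierstrassCurve ℤ) (hΔ : W.Δ ≠ 0) (hW : W.IsSemistableModel)
    (h2 : TwoOK W) :
    ∃ E : WeierstrassCurve ℤ, Companion E ∧ ∀ ℓ : ℕ, ℓ.Prime → ℓ ≠ 2 → W.IsGoodPrimeFor ℓ →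
      E.IsGoodPrimeFor ℓ → ℓ ≠ 3 → (3 : ℤ) ∣ (E.apOfModel ℓ - W.apOfModel ℓ) := by
  classical
  obtain ⟨k, J, u2, v2, hJ, hp2, htwo⟩ := exists_class_two W hW hΔ h2
  set T : Finset ℕ := insert 2 (3 * W.Δ.natAbs).primeFactors with hT
  have hTp : ∀ l ∈ T, l.Prime := fun l hl => by
    rcases Finset.mem_insert.mp hl with rfl | hl
    exacts [Nat.prime_two, Nat.prime_of_mem_primeFactors hl]
  have h3T : 3 ∈ T := Finset.mem_insert_of_mem (Nat.mem_primeFactors.mpr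
    ⟨Nat.prime_three, dvd_mul_right _ _, mul_ne_zero (by norm_num) (Int.natAbs_ne_zero.mpr hΔ)⟩)
  have hbadT : ∀ l : ℕ, l.Prime → (l : ℤ) ∣ W.Δ → l ∈ T := fun l hl hd =>
    Finset.mem_insert_of_mem (Nat.mem_primeFactors.mpr
      ⟨hl, dvd_mul_of_dvd_right (Int.natCast_dvd.mp hd) _,
        mul_ne_zero (by norm_num) (Int.natAbs_ne_zero.mpr hΔ)⟩)
  -- residues
  have hcls : ∀ l : ℕ, ∃ a b : ℤ, l ∈ T → ¬ ((l : ℤ) ∣ a ∧ (l : ℤ) ∣ b) ∧
      if l = 2 then (a = u2 ∧ b = v2) else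
        ∀ u v : ℤ, (l : ℤ) ^ 3 ∣ u - a → (l : ℤ) ^ 3 ∣ v - b → ClassOK W l u v := by
    intro l
    by_cases hl : l = 2
    · exact ⟨u2, v2, fun _ => ⟨by subst hl; exact_mod_cast hp2, by simp [hl]⟩⟩
    · by_cases hlT : l ∈ T
      · obtain ⟨a, b, ha, hb⟩ := exists_class W hW (hTp l hlT) hl
        exact ⟨a, b, fun _ => ⟨ha, by rw [if_neg hl]; exact hb⟩⟩
      · exact ⟨0, 0, fun h => absurd h hlT⟩
  choose ra rb hr using hcls
  set e : ℕ → ℕ := fun l => if l = 2 then J else 3 with he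
  have he0 : ∀ l, e l ≠ 0 := fun l => by simp only [he]; split_ifs <;> omega
  obtain ⟨u0, hu0⟩ := exists_crt_primes T hTp e ra
  obtain ⟨v0, hv0⟩ := exists_crt_primes T hTp e rb
  set M : ℕ := ∏ l ∈ T, l ^ e l with hM
  have hM0 : 0 < M := Finset.prod_pos fun l hl => pow_pos (hTp l hl).pos _
  have hTM : ∀ l ∈ T, (l : ℤ) ^ e l ∣ (M : ℤ) := fun l hl => by
    exact_mod_cast Finset.dvd_prod_of_mem (fun l => l ^ e l) hl
  have hMT : ∀ l : ℕ, l.Prime → l ∣ M → l ∈ T := fun l hl hd => by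
    obtain ⟨q, hq, hlq⟩ := (Prime.dvd_finsetProd_iff hl.prime _).mp hd
    rwa [(Nat.prime_dvd_prime_iff_eq hl (hTp q hq)).mp (hl.dvd_of_dvd_pow hlq)]
  set c := quarticCoeffs W.c₄ W.c₆ with hc
  obtain ⟨s, a, b, hs, hsign⟩ : ∃ s a b : ℤ, s * W.Δ < 0 ∧ 0 < s * Sieve.qform c a b := by
    rcases lt_or_gt_of_ne hΔ with hn | hpos
    · exact ⟨1, 1, 0, by linarith, by simp [hc, qform_quarticCoeffs, hD]⟩
    · have hc4 : W.c₄ ≠ 0 := fun h => by
        have := W.c_relation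
        rw [h] at this
        nlinarith [sq_nonneg W.c₆]
      refine ⟨-1, 0, 1, by linarith, ?_⟩
      rw [hc, qform_quarticCoeffs]
      have := pow_two_pos_of_ne_zero hc4
      simp only [hD]
      linarith
  obtain ⟨u, v, huv, hu, hv, hpos, hsf⟩ := Sieve.exists_squarefree_value_int c
    (by simp [hc, quarticCoeffs]) (separable_qpoly W hΔ) M hM0 u0 v0
    (fun l hl hd h => by
      have hlT := hMT l hl hd
      have ha := (dvd_pow_self (l : ℤ) (he0 l)).trans (hu0 l hlT)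
      have hb := (dvd_pow_self (l : ℤ) (he0 l)).trans (hv0 l hlT)
      exact (hr l hlT).1 ⟨by simpa using dvd_sub h.1 ha, by simpa using dvd_sub h.2 hb⟩)
    (fun l hl _ => ⟨1, 0, by
      rw [hc, qform_quarticCoeffs]
      simp only [hD]
      simpa using (Nat.prime_iff_prime_int.mp hl).not_dvd_one ∘ (dvd_pow_self _ two_ne_zero).trans⟩)
    s a b hsign
  simp only [hc, qform_quarticCoeffs] at hpos hsf
  have hclass : ∀ l ∈ T, (l : ℤ) ^ e l ∣ u - ra l ∧ (l : ℤ) ^ e l ∣ v - rb l := fun l hl =>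
    ⟨by simpa using dvd_add ((hTM l hl).trans hu) (hu0 l hl),
     by simpa using dvd_add ((hTM l hl).trans hv) (hv0 l hl)⟩
  have hOK : ∀ l ∈ T, l ≠ 2 → ClassOK W l u v := fun l hl hl2 => by
    have h := (hr l hl).2
    rw [if_neg hl2] at h
    have h' := hclass l hl
    simp only [he, if_neg hl2] at h'
    exact h u v h'.1 h'.2
  have h2T : (2 : ℕ) ∈ T := Finset.mem_insert_self _ _
  have hra2 := (hr 2 h2T).2
  rw [if_pos rfl] at hra2
  have h2cls := hclass 2 h2T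
  simp only [he, if_pos, hra2.1, hra2.2] at h2cls
  obtain ⟨⟨A, hA⟩, B, hB, hB1⟩ := htwo u v (by exact_mod_cast h2cls.1) (by exact_mod_cast h2cls.2)
  set C4 := hC4 W.c₄ W.c₆ u v with hC4'
  set C6 := hC6 W.c₄ W.c₆ u v with hC6'
  set D := hD W.c₄ W.c₆ u v with hD'
  have hrel : 27 * (W.Δ * D ^ 3) = 2 ^ (12 * k) * (64 * A ^ 3 - B ^ 2) := by
    refine mul_left_cancel₀ (show (64 : ℤ) ≠ 0 by norm_num) ?_
    have h := hC4_pow_three_sub W.c₄ W.c₆ u v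
    rw [← hC4', ← hC6', ← hD', hA, hB, ← W.c_relation, pow_add] at h
    rw [show (2 : ℤ) ^ (12 * k) = (2 ^ (4 * k)) ^ 3 from by rw [← pow_mul]; congr 1; ring,
      show (64 : ℤ) * (27 * (W.Δ * D ^ 3)) = 1728 * W.Δ * D ^ 3 by ring, ← h,
      show (2 : ℤ) ^ (6 * k) = (2 ^ (2 * k)) ^ 3 from by rw [← pow_mul]; congr 1; ring,
      show (2 : ℤ) ^ (4 * k) = (2 ^ (2 * k)) ^ 2 from by rw [← pow_mul]; congr 1; ring]
    ring
  have h27 : (27 : ℤ) ∣ 64 * A ^ 3 - B ^ 2 :=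
    ((show IsCoprime (27 : ℤ) 2 from ⟨1, -13, by norm_num⟩).pow_right
      (n := 12 * k)).dvd_of_dvd_mul_left ⟨_, hrel.symm⟩
  have hcop3 : ∀ i : ℕ, IsCoprime ((3 : ℤ) ^ i) (2 ^ (6 * k) * 8) := fun i =>
    IsCoprime.mul_right ((show IsCoprime (3 : ℤ) 2 from ⟨1, -1, by norm_num⟩).pow)
      ((show IsCoprime (3 : ℤ) 8 from ⟨3, -1, by norm_num⟩).pow_left)
  have hB3 : ¬ (3 : ℤ) ∣ B ∨ (27 : ℤ) ∣ B := by
    by_cases h3 : (3 : ℤ) ∣ W.Δ
    · refine Or.inl fun hb => ((hOK 3 h3T (by norm_num)).1 (by exact_mod_cast h3)).1 ?_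
      obtain ⟨t, ht⟩ := hb
      have hA3 : (3 : ℤ) ∣ A := by
        refine Int.prime_three.dvd_of_dvd_pow (n := 3) ?_
        obtain ⟨w, hw⟩ := h27
        exact ⟨-21 * A ^ 3 + 9 * w + 3 * t ^ 2, by rw [ht] at hw; linear_combination hw⟩
      exact_mod_cast hA ▸ hA3.mul_left _
    · have hcong := ((hOK 3 h3T (by norm_num)).2 (by exact_mod_cast h3) rfl).2
      rcases three_not_dvd_or_dvd_c₆ W with h | h
      · refine Or.inl fun hb => h ?_
        have : (3 : ℤ) ∣ C6 := hB ▸ (hb.mul_left 8).mul_left _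
        simpa [hC6'] using dvd_sub this ((show (3 : ℤ) ∣ 27 by norm_num).trans hcong)
      · refine Or.inr ?_
        have h' : (3 : ℤ) ^ 3 ∣ C6 := by simpa [hC6'] using dvd_add hcong h
        rw [hB, ← mul_assoc] at h'
        simpa using (hcop3 3).dvd_of_dvd_mul_left h'
  obtain ⟨E, hE1, hE3, hE4, hE6, hEΔ⟩ := exists_model_of_invariants A B hB1 h27 hB3
  have hkey : 2 ^ (12 * k) * E.Δ = W.Δ * D ^ 3 := by
    refine mul_left_cancel₀ (show (27 : ℤ) ≠ 0 by norm_num) ?_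
    rw [hrel, ← hEΔ]; ring
  have hB2 : ¬ (2 : ℤ) ∣ B := fun h => by omega
  have hE2 : ¬ (2 : ℤ) ∣ E.Δ := fun h => hB2 (Int.prime_two.dvd_of_dvd_pow (n := 2) (by
    obtain ⟨t, ht⟩ := h
    exact ⟨32 * A ^ 3 - 27 * t, by rw [ht] at hEΔ; linear_combination hEΔ⟩))
  have hDne : D ≠ 0 := fun h => by rw [h, mul_zero] at hpos; exact lt_irrefl _ hpos
  -- odd primes dividing the new discriminant
  have hdiv : ∀ p : ℕ, p.Prime → (p : ℤ) ∣ E.Δ → p ≠ 2 ∧ ¬ (p : ℤ) ∣ C4 ∧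
      Odd (padicValInt p W.Δ + 3 * padicValInt p D) := by
    intro p hp hd
    have hp2 : p ≠ 2 := by rintro rfl; exact hE2 (by exact_mod_cast hd)
    have hp' : Prime (p : ℤ) := Nat.prime_iff_prime_int.mp hp
    refine ⟨hp2, ?_⟩
    by_cases hW' : (p : ℤ) ∣ W.Δ
    · exact (hOK p (hbadT p hp hW') hp2).1 hW'
    · have hpD : (p : ℤ) ∣ D := hp'.dvd_of_dvd_pow
        ((hp'.dvd_mul.mp (hkey ▸ hd.mul_left _)).resolve_left hW')
      have hp3 : p ≠ 3 := by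
        rintro rfl
        exact ((hOK 3 h3T (by norm_num)).2 hW' rfl).1 hpD
      have hpM : ¬ p ∣ M := fun h => by
        rcases Finset.mem_insert.mp (hMT p hp h) with h' | h'
        · exact hp2 h'
        · rcases hp.dvd_mul.mp (Nat.dvd_of_mem_primeFactors h') with h'' | h''
          · exact hp3 ((Nat.prime_dvd_prime_iff_eq hp Nat.prime_three).mp h'')
          · exact hW' (Int.natCast_dvd.mpr h'')
      refine ⟨fun h => ?_, ?_⟩
      · have hb := dvd_of_dvd_hD_of_dvd_hC4 W hp hp2 hp3 hW' hpD h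
        exact hp'.not_isUnit (huv.isUnit_of_dvd' hb.1 hb.2)
      · have : Fact p.Prime := ⟨hp⟩
        have a0 : padicValInt p W.Δ = 0 := padicValInt.eq_zero_of_not_dvd hW'
        have a1 := ((padicValInt_dvd_iff (p := p) 1 D).1 (by simpa using hpD)).resolve_left hDne
        have a2 : ¬ 2 ≤ padicValInt p D := fun h =>
          hsf p hp hpM ((padicValInt_dvd_iff (p := p) 2 D).2 (Or.inr h))
        exact ⟨1, by omega⟩
  refine ⟨E, ⟨?_, ?_, hE2, two_dvd_apOfModel_two E hE1 hE3 hE2, ?_⟩, ?_⟩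
  · intro p hp hd hc4
    refine (hdiv p hp hd).2.1 ?_
    rw [hE4] at hc4
    rw [hA, pow_add, mul_assoc]
    exact (by exact_mod_cast hc4 : (p : ℤ) ∣ 2 ^ 4 * A).mul_left _
  · have hs' : 0 < (s * D) ^ 3 := pow_pos hpos 3
    by_contra h
    have h1 : 0 ≤ W.Δ * D ^ 3 := hkey ▸ mul_nonneg (by positivity) (not_lt.mp h)
    have h2' : (s * W.Δ) * (s * D) ^ 3 < 0 := mul_neg_of_neg_of_pos hs hs'
    have h3' : (s * W.Δ) * (s * D) ^ 3 = s ^ 4 * (W.Δ * D ^ 3) := by ring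
    rw [h3'] at h2'
    exact absurd h2' (not_lt.mpr (mul_nonneg (by positivity) h1))
  · intro p hp hd
    obtain ⟨hp2, -, hodd⟩ := hdiv p hp hd
    have : Fact p.Prime := ⟨hp⟩
    have h := congrArg (padicValInt p) hkey
    have hE0 : E.Δ ≠ 0 := fun h0 => hE2 (h0 ▸ dvd_zero _)
    have h0 : padicValInt p ((2 : ℤ) ^ (12 * k)) = 0 :=
      padicValInt.eq_zero_of_not_dvd fun h' => hp2 ((Nat.prime_dvd_prime_iff_eq hp
        Nat.prime_two).mp (Int.natCast_dvd_natCast.mp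
          ((Nat.prime_iff_prime_int.mp hp).dvd_of_dvd_pow h')))
    rw [padicValInt.mul (by positivity) hE0, padicValInt.mul hΔ (pow_ne_zero _ hDne), h0,
      zero_add, show D ^ 3 = D * (D * D) by ring, padicValInt.mul hDne (mul_ne_zero hDne hDne),
      padicValInt.mul hDne hDne] at h
    rw [h, show padicValInt p D + (padicValInt p D + padicValInt p D)
      = 3 * padicValInt p D by ring]
    exact hodd
  · intro ℓ hℓ hℓ2 hg hg' hℓ3
    have hE0 : E.Δ ≠ 0 := fun h0 => hE2 (h0 ▸ dvd_zero _)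
    have h2k : ((2 : ℚ) ^ k) ≠ 0 := by positivity
    refine three_dvd_apOfModel_sub W E hΔ hE0 (((2 : ℚ) ^ k)⁻¹ * u) (((2 : ℚ) ^ k)⁻¹ * v) ?_ ?_
      ℓ hℓ hg hg' hℓ2 hℓ3
    · rw [hC4_smul, hE4]
      have h := congrArg (Int.castRingHom ℚ) hA
      rw [hC4', map_hC4] at h
      simp only [eq_intCast] at h
      push_cast at h ⊢
      rw [h]; field_simp; ring
    · rw [hC6_smul, hE6]
      have h := congrArg (Int.castRingHom ℚ) hB
      rw [hC6', map_hC6] at h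
      simp only [eq_intCast] at h
      push_cast at h ⊢
      rw [h]; field_simp; ring

/-- Existence of the companion curve of a curve which is multiplicative at `2`. -/
theorem exists_companion (W : WeierstrassCurve ℤ) (hΔ : W.Δ ≠ 0) (hW : W.IsSemistableModel)
    (h2 : TwoOK W) (h2Δ : (2 : ℤ) ∣ W.Δ) :
    ∃ E : WeierstrassCurve ℤ, Companion E ∧ TraceCong 3 W E := by
  obtain ⟨E, hE, hcong⟩ := exists_companion_away_two W hΔ hW h2
  exact ⟨E, hE, fun ℓ hℓ hg hg' hℓ3 =>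
    hcong ℓ hℓ (by rintro rfl; exact hg (by exact_mod_cast h2Δ)) hg hg' hℓ3⟩

end FLTA.LT2
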