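import Fermat.Agent.Periods.HomForm
import Fermat.Agent.Periods.CharExtend
import Fermat.Agent.Periods.HeckeQuot

/-!
# An eigenform from congruences modulo every power of a prime

If for every `n` some module over the Hecke algebra has a vector of order at least `p ^ n` on
which `T_ℓ` acts by the integer `a ℓ` (`ℓ` in a set of good primes), then some normalized
eigenform of level `N` has `ℓ`-th coefficient `a ℓ` for these `ℓ`.
-/

set_option autoImplicit false

noncomputable section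

namespace FLTA.LT2

open CongruenceSubgroup FLTA.Periods
open scoped MatrixGroups IsMulCommutative

/-- Relations between operators hold for the eigenvalues of a vector. -/
theorem aeval_apply_of_eigen {R V : Type*} [CommRing R] [AddCommGroup V]
    (φ : R →+* Module.End ℤ V) {σ : Type*} (t : σ → R) (a : σ → ℤ) {z : V}
    (h : ∀ s, φ (t s) z = a s • z) (P : MvPolynomial σ ℤ) :
    φ (MvPolynomial.aeval t P) z = MvPolynomial.eval a P • z := by
  induction P using MvPolynomial.induction_on with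
  | C c => simp
  | add P Q hP hQ =>
    rw [map_add (MvPolynomial.aeval t), map_add (MvPolynomial.eval a), map_add φ,
      LinearMap.add_apply, hP, hQ, add_smul]
  | mul_X P s hP =>
    rw [map_mul (MvPolynomial.aeval t), map_mul (MvPolynomial.eval a), MvPolynomial.aeval_X,
      MvPolynomial.eval_X, map_mul φ, Module.End.mul_apply, h, map_zsmul, hP, ← mul_smul,
      mul_comm]

/-- The limit step, with finitely many primes at a time. -/
theorem exists_eigenform_of_eigenvectors_finset {N : ℕ} [NeZero N] {p : ℕ} (hp : 1 < p)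
    (G : ℕ → Prop) (hG : ∀ ℓ, G ℓ → ℓ.Prime ∧ ¬ ℓ ∣ N) (a : ℕ → ℤ)
    (h : ∀ (n : ℕ) (F : Finset ℕ), ∃ (V : Type) (_ : AddCommGroup V)
      (φ : fullHecke N →+* Module.End ℤ V) (z : V),
      (∀ k : ℤ, k • z = 0 → (p : ℤ) ^ n ∣ k) ∧
      ∀ (ℓ : ℕ) (hℓ : G ℓ), ℓ ∈ F →
        φ (CuspForm.heckeAlgebra.T (hG ℓ hℓ).1 (hG ℓ hℓ).2 (Set.notMem_empty ℓ)) z = a ℓ • z) :
    ∃ f : CuspForm (Gamma0 N) 2, f.IsNormalizedEigenform ∧
      ∀ ℓ, G ℓ → ModularFormClass.qCoeff f ℓ = (a ℓ : ℂ) := by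
  let t : {ℓ // G ℓ} → fullHecke N := fun s =>
    CuspForm.heckeAlgebra.T (hG s.1 s.2).1 (hG s.1 s.2).2 (Set.notMem_empty s.1)
  let a' : {ℓ // G ℓ} → ℤ := fun s => a s.1
  let g : MvPolynomial {ℓ // G ℓ} ℤ →+* fullHecke N := (MvPolynomial.aeval t).toRingHom
  have hker : RingHom.ker g ≤ RingHom.ker (MvPolynomial.eval a') := by
    intro P hP
    rw [RingHom.mem_ker] at hP ⊢
    refine Int.eq_zero_of_abs_lt_dvd (m := (p : ℤ) ^ (MvPolynomial.eval a' P).natAbs) ?_ ?_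
    · obtain ⟨V, _, φ, z, hz, hzT⟩ :=
        h (MvPolynomial.eval a' P).natAbs (P.vars.image Subtype.val)
      refine hz _ ?_
      obtain ⟨Q, hQ⟩ := MvPolynomial.exists_rename_eq_of_vars_subset_range P
        (Subtype.val : {s // s ∈ P.vars} → {ℓ // G ℓ}) Subtype.val_injective
        fun s hs => ⟨⟨s, hs⟩, rfl⟩
      have key := aeval_apply_of_eigen φ (t ∘ Subtype.val) (a' ∘ Subtype.val)
        (fun s => hzT s.1.1 s.1.2 (Finset.mem_image_of_mem _ s.2)) Q
      rw [← MvPolynomial.aeval_rename, ← MvPolynomial.eval_rename, hQ] at key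
      rw [← key]
      show φ (g P) z = 0
      rw [hP, map_zero]
      rfl
    · rw [Int.abs_eq_natAbs]
      exact_mod_cast Nat.lt_pow_self hp
  let A : Subring (fullHecke N) := g.range
  let χ : A →+* ℂ := (Int.castRingHom ℂ).comp
    (g.rangeRestrict.liftOfSurjective g.rangeRestrict_surjective
      ⟨MvPolynomial.eval a', by rw [RingHom.ker_rangeRestrict]; exact hker⟩)
  have : Algebra.IsIntegral A (fullHecke N) :=
    ⟨fun x => IsIntegral.tower_top (R := ℤ) (Algebra.IsIntegral.isIntegral x)⟩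
  obtain ⟨ψ, hψ⟩ := exists_ringHom_extension_of_isIntegral (A := A) (B := fullHecke N) χ
  refine ⟨formOfHom N ψ, isNormalizedEigenform_formOfHom N ψ, fun ℓ hℓ => ?_⟩
  have hq : ∀ f : CF2 N, ModularFormClass.qCoeff ((t ⟨ℓ, hℓ⟩ : Module.End ℂ (CF2 N)) f) 1 =
      ModularFormClass.qCoeff f ℓ := fun f => by
    rw [CuspForm.heckeAlgebra.coe_T, qCoeff_heckeTLin, if_neg (hG ℓ hℓ).1.not_dvd_one, one_mul,
      add_zero]
  rw [← hq, qCoeff_one_hecke_formOfHom]
  have hX : g (MvPolynomial.X ⟨ℓ, hℓ⟩) = t ⟨ℓ, hℓ⟩ := MvPolynomial.aeval_X t _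
  have hψ' := RingHom.congr_fun hψ (g.rangeRestrict (MvPolynomial.X ⟨ℓ, hℓ⟩))
  rw [RingHom.comp_apply] at hψ'
  rw [← hX]
  refine hψ'.trans ?_
  show ((g.rangeRestrict.liftOfSurjective g.rangeRestrict_surjective _
    (g.rangeRestrict (MvPolynomial.X ⟨ℓ, hℓ⟩)) : ℤ) : ℂ) = _
  rw [RingHom.liftOfRightInverse_comp_apply, MvPolynomial.eval_X]

/-- **The limit step**: congruences modulo all powers of `p` give an eigenform. -/
theorem exists_eigenform_of_eigenvectors {N : ℕ} [NeZero N] {p : ℕ} (hp : 1 < p)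
    (G : ℕ → Prop) (hG : ∀ ℓ, G ℓ → ℓ.Prime ∧ ¬ ℓ ∣ N) (a : ℕ → ℤ)
    (h : ∀ n : ℕ, ∃ (V : Type) (_ : AddCommGroup V) (φ : fullHecke N →+* Module.End ℤ V) (z : V),
      (∀ k : ℤ, k • z = 0 → (p : ℤ) ^ n ∣ k) ∧
      ∀ (ℓ : ℕ) (hℓ : G ℓ),
        φ (CuspForm.heckeAlgebra.T (hG ℓ hℓ).1 (hG ℓ hℓ).2 (Set.notMem_empty ℓ)) z = a ℓ • z) :
    ∃ f : CuspForm (Gamma0 N) 2, f.IsNormalizedEigenform ∧
      ∀ ℓ, G ℓ → ModularFormClass.qCoeff f ℓ = (a ℓ : ℂ) := by
  refine exists_eigenform_of_eigenvectors_finset hp G hG a fun n F => ?_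
  obtain ⟨V, i, φ, z, hz, hT⟩ := h n
  exact ⟨V, i, φ, z, hz, fun ℓ hℓ _ => hT ℓ hℓ⟩

end FLTA.LT2
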