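import Fermat.Agent.LT2.Defs
import Fermat.Agent.LT2.MazurLimit
import Fermat.Agent.GaloisReps.TateConstruct
import Fermat.Agent.RT.S59Match
import Fermat.Agent.Carayol.MatchMain

/-!
# Part H: the limit

Points of order `2ⁿ` on `J₀(N)` with the eigenvalues of `E` outside sets moving to infinity give
an eigenform of level `N`; the attached representations then give all good primes.
-/

set_option autoImplicit false

noncomputable section

open ModularCurve FLTA.GaloisReps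
open scoped Matrix

namespace FLTA.LT2

/-- The full Hecke algebra acting on the coordinates of `2ᵏ`-torsion. -/
def torsAction {N : ℕ} [NeZero N] (D : TateData N 2) (k : ℕ) :
    FullHecke N →+* Module.End ℤ (Fin D.r → ZMod (2 ^ k)) :=
  (Module.toModuleEnd ℤ (Fin D.r → ZMod (2 ^ k))
      (S := Matrix (Fin D.r) (Fin D.r) (ZMod (2 ^ k)))).comp
    ((Int.castRingHom (ZMod (2 ^ k))).mapMatrix.comp D.hecke)

theorem exists_module_of_torsCong {E : WeierstrassCurve ℤ} {N : ℕ} [NeZero N] {n : ℕ}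
    {S : Finset ℕ} (h : TorsCong E N n S) :
    ∃ (V : Type) (_ : AddCommGroup V) (φ : FLTA.Periods.fullHecke N →+* Module.End ℤ V) (z : V),
      (∀ k : ℤ, k • z = 0 → (2 : ℤ) ^ n ∣ k) ∧
      ∀ (ℓ : ℕ) (hℓ : ℓ.Prime) (hℓN : ¬ ℓ ∣ N), ℓ ∉ S →
        φ (CuspForm.heckeAlgebra.T hℓ hℓN (Set.notMem_empty ℓ)) z = E.apOfModel ℓ • z := by
  obtain ⟨_, x, hx, hT⟩ := h
  obtain ⟨D, hD⟩ := exists_tateData_hecke N 2
  have hmem : x ∈ Submodule.torsionBy ℤ (JZero N) ((2 : ℤ) ^ n) := by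
    have e : (2 : ℤ) ^ n = ((addOrderOf x : ℕ) : ℤ) := by rw [hx]; push_cast; rfl
    rw [Submodule.mem_torsionBy_iff, e, natCast_zsmul]
    exact addOrderOf_nsmul_eq_zero x
  obtain ⟨z, hz⟩ := (D.torsionEquiv n).surjective ⟨x, hmem⟩
  refine ⟨_, inferInstance, torsAction D n, z, fun k hk => ?_, fun ℓ hℓ hℓN hS => ?_⟩
  · have e : (2 : ℤ) ^ n = ((addOrderOf x : ℕ) : ℤ) := by rw [hx]; push_cast; rfl
    rw [e, addOrderOf_dvd_iff_zsmul_eq_zero]
    have := congrArg (D.torsionEquiv n) hk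
    rw [map_zsmul, hz, map_zero] at this
    exact congrArg Subtype.val this
  · apply (D.torsionEquiv n).injective
    rw [map_zsmul, hz]
    apply Subtype.ext
    rw [Submodule.coe_smul]
    refine (hD n ℓ hℓ hℓN z).trans ?_
    rw [hz]
    exact hT ⟨ℓ, hℓ⟩ hS

theorem isModularModel_of_torsCong {E : WeierstrassCurve ℤ} (hE : Companion E)
    (h : ∀ n : ℕ, ∃ S : Finset ℕ, TorsCong E E.conductorLevel n S ∧
      ∀ s ∈ S, s ∣ 2 * E.conductorLevel ∨ 2 ^ n ≤ s + 1) :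
    E.IsModularModelOfLevel E.conductorLevel := by
  obtain ⟨f, hf, hfa⟩ := exists_eigenform_of_eigenvectors_finset (N := E.conductorLevel)
    (p := 2) one_lt_two (fun ℓ => ℓ.Prime ∧ ¬ ℓ ∣ 2 * E.conductorLevel)
    (fun ℓ hℓ => ⟨hℓ.1, fun hd => hℓ.2 (hd.mul_left 2)⟩) E.apOfModel fun n F => by
      obtain ⟨S, hS, hsmall⟩ := h (n + F.sup id + 1)
      obtain ⟨V, i, φ, z, hz, hzT⟩ := exists_module_of_torsCong hS
      refine ⟨V, i, φ, z, fun k hk => (pow_dvd_pow (2 : ℤ) (by omega)).trans (hz k hk),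
        fun ℓ hℓ hF => hzT ℓ hℓ.1 _ fun hmem => ?_⟩
      rcases hsmall ℓ hmem with hd | hbig
      · exact hℓ.2 hd
      · have h1 : ℓ ≤ F.sup id := Finset.le_sup (f := id) hF
        have h2 := (n + F.sup id + 1).lt_two_pow_self
        omega
  refine FLTA.RT.isModularModelOfLevel_of_eq_outside E hE.Δ_ne_zero
    (fun _ hl hl2 => Carayol.hasFrobQuadratic E hE.Δ_ne_zero hl hl2) hf {2} fun ℓ hℓ h2 hN _ =>
      hfa ℓ ⟨hℓ, fun hd => ?_⟩
  rcases hℓ.dvd_mul.mp hd with h | h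
  · exact h2 (Finset.mem_singleton.mpr ((Nat.prime_dvd_prime_iff_eq hℓ Nat.prime_two).mp h))
  · exact hN h

end FLTA.LT2
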