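import Fermat.Agent.EllReducible.Basic
import Fermat.Agent.TaylorWiles.FlatLocalLayer
import Fermat.Prelude.Def_ModularCurve_HeckeModule
import Fermat.Prelude.Def_WeierstrassCurve_ModularityProps
import Fermat.Prelude.Def_WeierstrassCurve_ConductorLevel
import Fermat.Prelude.Def_EllipticCurve_FrobeniusTrace
import Fermat.Prelude.Def_CuspForm_Newforms
import Mathlib.NumberTheory.Padics.PadicVal.Basic

/-!
# Residual modularity at 3 through a 2-adic companion curve: definitions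

See docs `LT_report2`, `LT_report2_add`, `LT2_blueprint`.
-/

set_option autoImplicit false

open WeierstrassCurve WeierstrassCurve.Affine.Point

open scoped WeierstrassCurve.Affine

namespace FLTA.LT2

/-- The traces of two curves agree mod `p` at common good primes away from `p`. -/
def TraceCong (p : ℕ) (W W' : WeierstrassCurve ℤ) : Prop :=
  ∀ ℓ : ℕ, ℓ.Prime → W.IsGoodPrimeFor ℓ → W'.IsGoodPrimeFor ℓ → ℓ ≠ p →
    (p : ℤ) ∣ (W'.apOfModel ℓ - W.apOfModel ℓ)

/-- The condition at `2` under which the mod 3 representation has a good supersingular lift. -/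
def TwoOK (W : WeierstrassCurve ℤ) : Prop :=
  ¬ (2 : ℤ) ∣ W.Δ ∨ 3 ∣ padicValInt 2 W.Δ

/-- A companion curve: semistable, negative discriminant, good supersingular reduction at `2`,
discriminant of odd valuation at every bad prime. -/
structure Companion (E : WeierstrassCurve ℤ) : Prop where
  semistable : E.IsSemistableModel
  neg : E.Δ < 0
  goodTwo : ¬ (2 : ℤ) ∣ E.Δ
  supersingularTwo : (2 : ℤ) ∣ E.apOfModel 2
  oddVal : ∀ ℓ : ℕ, ℓ.Prime → (ℓ : ℤ) ∣ E.Δ → Odd (padicValInt ℓ E.Δ)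

theorem Companion.Δ_ne_zero {E : WeierstrassCurve ℤ} (h : Companion E) : E.Δ ≠ 0 := h.neg.ne

/-- A prime at which Frobenius acts on `E[2ⁿ]` as complex conjugation does. -/
structure ConjPrime (E : WeierstrassCurve ℤ) (n q : ℕ) : Prop where
  prime : q.Prime
  ne_two : q ≠ 2
  good : ¬ (q : ℤ) ∣ E.Δ
  dvd_succ : 2 ^ n ∣ q + 1
  dvd_trace : (2 : ℤ) ^ n ∣ E.apOfModel q
  nonsquare : ¬ IsSquare (E.Δ : ZMod q)

/-- A point of exact order `2ⁿ` on `J₀(M)` on which `T_ℓ` is `a_ℓ(E)` outside `S`. -/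
def TorsCong (E : WeierstrassCurve ℤ) (M : ℕ) (n : ℕ) (S : Finset ℕ) : Prop :=
  ∃ _ : NeZero M, ∃ x : ModularCurve.JZero M, addOrderOf x = 2 ^ n ∧
    ∀ ℓ : Nat.Primes, (ℓ : ℕ) ∉ S →
      ModularCurve.heckeOperatorBar M ℓ x = E.apOfModel ℓ • x

/-- The Galois group of `ℚ̄/ℚ`. -/
local notation "Γℚ" => AlgebraicClosure ℚ ≃ₐ[ℚ] AlgebraicClosure ℚ

/-- `E[2]` over `ℚ̄`. -/
noncomputable abbrev Tors2 (E : WeierstrassCurve ℤ) :=
  EllReducible.Tors (E.map (Int.castRingHom ℚ)) 2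

/-- A continuous crossed homomorphism `Γℚ → E[2]`. -/
structure StCocycle (E : WeierstrassCurve ℤ) where
  toFun : Γℚ → Tors2 E
  map_mul : ∀ σ τ : Γℚ, toFun (σ * τ) = toFun σ + σ • toFun τ
  open_kernel : ∃ K : IntermediateField ℚ (AlgebraicClosure ℚ), FiniteDimensional ℚ K ∧
    ∀ σ ∈ K.fixingSubgroup, toFun σ = 0

/-- The local conditions of the Steinberg part for the auxiliary set `Q`: unramified away from
`2` and `Q`, the flat line at `2` (every coordinate deep of level `5` over the tame cubic field), the ramified line at the primes of `Q`. -/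
def StCond (E : WeierstrassCurve ℤ) (Q : Finset ℕ) (c : StCocycle E) : Prop :=
  (∀ ℓ : ℕ, ℓ.Prime → ℓ ≠ 2 → ℓ ∉ Q →
    ∀ A : ValuationSubring (AlgebraicClosure ℚ), A.LiesOverPrime ℓ →
      ∃ v : Tors2 E, ∀ σ ∈ A.inertiaSubgroupIn ℚ, c.toFun σ = σ • v - v) ∧
  (∀ q ∈ Q, ∀ A : ValuationSubring (AlgebraicClosure ℚ), A.LiesOverPrime q →
    ∀ σ : Γℚ, A.IsFrobeniusAt σ q → ∃ v : Tors2 E, c.toFun σ = σ • v - v) ∧
  (∀ T : FLTA.TaylorWiles.Flat.Tame ⟨2, Nat.prime_two⟩, T.e = 3 → ∀ f : Tors2 E →+ ZMod 2,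
    T.Deep (fun s => f (c.toFun (FLTA.PT.loc ⟨2, Nat.prime_two⟩ s))) 5)

/-- The Steinberg part of the tangent space vanishes. -/
def StKilled (E : WeierstrassCurve ℤ) (Q : Finset ℕ) : Prop :=
  ∀ c : StCocycle E, StCond E Q c → ∃ v : Tors2 E, ∀ σ : Γℚ, c.toFun σ = σ • v - v

end FLTA.LT2
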