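import Fermat.Agent.LT2.ImageFrob
import Fermat.Prelude.Def_GaloisRep_ComplexConjugation
import Mathlib.Tactic.LinearCombination

/-!
# Points of order two: no rational one at good supersingular `2`, and complex conjugation
-/

set_option autoImplicit false

open scoped WeierstrassCurve.Affine
open WeierstrassCurve WeierstrassCurve.Affine
open scoped Classical

namespace FLTA.LT2.Image

open FLTA.EllReduction

local notation "Qbar" => AlgebraicClosure ℚ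
local notation "Γℚ" => AlgebraicClosure ℚ ≃ₐ[ℚ] AlgebraicClosure ℚ

variable {W : WeierstrassCurve ℤ}

/-- The coordinates of a point of order two. -/
theorem exists_coords_of_two {P : GeomPoint W} (hP0 : P ≠ 0) (hP : 2 • P = 0) :
    ∃ (x y : Qbar) (h : (geomCurve W).toAffine.Nonsingular x y), P = Point.some x y h ∧
      2 * y + W.a₁ * x + W.a₃ = 0 ∧
      4 * x ^ 3 + W.b₂ * x ^ 2 + 2 * W.b₄ * x + W.b₆ = 0 := by
  rcases P with _ | ⟨x, y, h⟩
  · exact absurd rfl hP0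
  refine ⟨x, y, h, rfl, ?_, ?_⟩
  · have hneg : (Point.some x y h : GeomPoint W) = -Point.some x y h :=
      eq_neg_of_add_eq_zero_left (by rw [← two_nsmul]; exact hP)
    rw [Point.neg_some, Point.some.injEq] at hneg
    have := hneg.2
    simp [Affine.negY] at this
    linear_combination this
  · have hneg : (Point.some x y h : GeomPoint W) = -Point.some x y h :=
      eq_neg_of_add_eq_zero_left (by rw [← two_nsmul]; exact hP)
    rw [Point.neg_some, Point.some.injEq] at hneg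
    have h2 := hneg.2
    simp [Affine.negY] at h2
    have he := (Affine.equation_iff x y).mp h.1
    simp at he
    simp [WeierstrassCurve.b₂, WeierstrassCurve.b₄, WeierstrassCurve.b₆]
    linear_combination (-4 : Qbar) * he + (2 * y + W.a₁ * x + W.a₃) * h2

/-- At good supersingular reduction at `2` (`Δ` odd, `a₁` even) no point of order two is fixed by
the whole Galois group. -/
theorem exists_smul_ne_of_two (hΔ2 : ¬ (2 : ℤ) ∣ W.Δ) (ha₁ : (2 : ℤ) ∣ W.a₁) {P : GeomPoint W}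
    (hP0 : P ≠ 0) (hP : 2 • P = 0) : ∃ σ : Γℚ, σ • P ≠ P := by
  by_contra! hfix
  obtain ⟨x, y, h, rfl, -, hx⟩ := exists_coords_of_two hP0 hP
  obtain ⟨r, hr⟩ := (InfiniteGalois.mem_range_algebraMap_iff_fixed x).mpr fun σ => by
    have := hfix σ
    rw [Point.algEquiv_smul_def, Point.map_some, Point.some.injEq] at this
    exact this.1
  rw [eq_ratCast] at hr
  subst hr
  have hq : 4 * r ^ 3 + W.b₂ * r ^ 2 + 2 * W.b₄ * r + W.b₆ = 0 := by
    refine (Rat.cast_injective (α := Qbar)) ?_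
    push_cast
    exact hx
  have hden : (r.den : ℚ) ≠ 0 := Nat.cast_ne_zero.mpr r.den_ne_zero
  have hnum : r * r.den = r.num := Rat.mul_den_eq_num r
  have hz : 4 * r.num ^ 3 + W.b₂ * r.num ^ 2 * r.den + 2 * W.b₄ * r.num * (r.den : ℤ) ^ 2
      + W.b₆ * (r.den : ℤ) ^ 3 = 0 := by
    refine Int.cast_injective (α := ℚ) ?_
    push_cast
    rw [← hnum]
    linear_combination (r.den : ℚ) ^ 3 * hq
  have hcop : ¬ ((2 : ℤ) ∣ r.num ∧ (2 : ℤ) ∣ (r.den : ℤ)) := fun ⟨h1, h2⟩ => by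
    have := Nat.dvd_gcd (Int.natAbs_dvd_natAbs.mpr h1) (Int.natAbs_dvd_natAbs.mpr h2)
    rw [Int.natAbs_natCast, r.reduced.gcd_eq_one] at this
    exact absurd this (by decide)
  have hp : Prime (2 : ℤ) := Int.prime_two
  obtain ⟨α, hα⟩ := ha₁
  obtain ⟨k, hk⟩ : (4 : ℤ) ∣ W.b₂ := ⟨α ^ 2 + W.a₂, by rw [WeierstrassCurve.b₂, hα]; ring⟩
  have hb6 : ¬ (2 : ℤ) ∣ W.b₆ := fun ⟨c, hc⟩ => hΔ2 ⟨-8 * k ^ 2 * W.b₈ - 4 * W.b₄ ^ 3
    - 54 * c ^ 2 + 36 * k * W.b₄ * c, by rw [WeierstrassCurve.Δ, hk, hc]; ring⟩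
  obtain ⟨u, hu⟩ : (2 : ℤ) ∣ (r.den : ℤ) := by
    refine hp.dvd_of_dvd_pow (n := 3) ((hp.dvd_or_dvd ?_).resolve_left hb6)
    exact ⟨-(2 * r.num ^ 3 + 2 * k * r.num ^ 2 * r.den + W.b₄ * r.num * (r.den : ℤ) ^ 2), by
      rw [hk] at hz; linear_combination hz⟩
  refine hcop ⟨?_, ⟨u, hu⟩⟩
  refine hp.dvd_of_dvd_pow (n := 3) ?_
  exact ⟨-(k * r.num ^ 2 * u + W.b₄ * r.num * u ^ 2 + W.b₆ * u ^ 3), by
    rw [hk, hu] at hz; linarith [hz]⟩

/-- If `Δ < 0`, complex conjugation moves a point of order two. -/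
theorem exists_conj_smul_ne (hΔneg : W.Δ < 0) {P₁ P₂ P₃ : GeomPoint W}
    (h₁ : P₁ ≠ 0) (h₂ : P₂ ≠ 0) (h₃ : P₃ ≠ 0) (t₁ : 2 • P₁ = 0) (t₂ : 2 • P₂ = 0)
    (t₃ : 2 • P₃ = 0) (n₁₂ : P₁ ≠ P₂) (n₁₃ : P₁ ≠ P₃) (n₂₃ : P₂ ≠ P₃) :
    complexConjugation • P₁ ≠ P₁ ∨ complexConjugation • P₂ ≠ P₂ ∨
      complexConjugation • P₃ ≠ P₃ := by
  by_contra! hall
  obtain ⟨c₁, c₂, c₃⟩ := hall
  have hreal : ∀ {x y : Qbar} {h : (geomCurve W).toAffine.Nonsingular x y},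
      complexConjugation • (Point.some x y h : GeomPoint W) = Point.some x y h →
      ∃ a : ℝ, (a : ℂ) = complexEmbedding x := by
    intro x y h hc
    rw [Point.algEquiv_smul_def, Point.map_some, Point.some.injEq] at hc
    obtain ⟨a, ha⟩ := Complex.conj_eq_iff_real.mp
      ((complexEmbedding_complexConjugation x).symm.trans (congrArg complexEmbedding hc.1))
    exact ⟨a, ha.symm⟩
  obtain ⟨x₁, y₁, g₁, rfl, l₁, f₁⟩ := exists_coords_of_two h₁ t₁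
  obtain ⟨x₂, y₂, g₂, rfl, l₂, f₂⟩ := exists_coords_of_two h₂ t₂
  obtain ⟨x₃, y₃, g₃, rfl, l₃, f₃⟩ := exists_coords_of_two h₃ t₃
  have hne : ∀ {x y x' y' : Qbar} {g : (geomCurve W).toAffine.Nonsingular x y}
      {g' : (geomCurve W).toAffine.Nonsingular x' y'},
      2 * y + W.a₁ * x + W.a₃ = 0 → 2 * y' + W.a₁ * x' + W.a₃ = 0 →
      (Point.some x y g : GeomPoint W) ≠ Point.some x' y' g' → x - x' ≠ 0 := by
    intro x y x' y' g g' e e' hn hx
    rw [sub_eq_zero] at hx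
    subst hx
    refine hn ?_
    rw [Point.some.injEq]
    exact ⟨rfl, mul_left_cancel₀ (two_ne_zero (α := Qbar)) (by linear_combination e - e')⟩
  have d₁₂ := hne l₁ l₂ n₁₂
  have d₁₃ := hne l₁ l₃ n₁₃
  have d₂₃ := hne l₂ l₃ n₂₃
  obtain ⟨a₁, ha₁⟩ := hreal c₁
  obtain ⟨a₂, ha₂⟩ := hreal c₂
  obtain ⟨a₃, ha₃⟩ := hreal c₃
  have e12 : 4 * (x₁ ^ 2 + x₁ * x₂ + x₂ ^ 2) + W.b₂ * (x₁ + x₂) + 2 * W.b₄ = 0 :=
    mul_left_cancel₀ d₁₂ (by linear_combination f₁ - f₂)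
  have e13 : 4 * (x₁ ^ 2 + x₁ * x₃ + x₃ ^ 2) + W.b₂ * (x₁ + x₃) + 2 * W.b₄ = 0 :=
    mul_left_cancel₀ d₁₃ (by linear_combination f₁ - f₃)
  have eb : (W.b₂ : Qbar) = -4 * (x₁ + x₂ + x₃) :=
    mul_left_cancel₀ d₂₃ (by linear_combination e12 - e13)
  have ec : 2 * (W.b₄ : Qbar) = 4 * (x₁ * x₂ + x₁ * x₃ + x₂ * x₃) := by
    linear_combination e12 - (x₁ + x₂) * eb
  have ed : (W.b₆ : Qbar) = -4 * (x₁ * x₂ * x₃) := by
    linear_combination f₁ - x₁ ^ 2 * eb - x₁ * ec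
  have hdisc := congrArg (fun z : ℤ => (z : Qbar)) W.twoTorsionPolynomial_discr
  simp only [Cubic.discr, WeierstrassCurve.twoTorsionPolynomial, Int.cast_sub, Int.cast_add,
    Int.cast_mul, Int.cast_pow, Int.cast_ofNat] at hdisc
  rw [ec, eb, ed] at hdisc
  have hD : (W.Δ : Qbar) = 16 * ((x₁ - x₂) * (x₁ - x₃) * (x₂ - x₃)) ^ 2 := by
    linear_combination -(1 / 16 : Qbar) * hdisc
  have hC := congrArg complexEmbedding hD
  simp only [map_intCast, map_mul, map_pow, map_sub, map_ofNat, ← ha₁, ← ha₂, ← ha₃] at hC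
  have hR : (W.Δ : ℝ) = 16 * ((a₁ - a₂) * (a₁ - a₃) * (a₂ - a₃)) ^ 2 := by exact_mod_cast hC
  have hlt : (W.Δ : ℝ) < 0 := by exact_mod_cast hΔneg
  nlinarith [sq_nonneg ((a₁ - a₂) * (a₁ - a₃) * (a₂ - a₃))]

end FLTA.LT2.Image
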