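import Fermat.Agent.LT2.ImageRep
import Fermat.Agent.LT2.ImagePoints
import Fermat.Agent.Carayol.MatchRamified

/-!
# The `2`-adic image is all of `GL₂(ℤ/2ⁿ)`; inertia and complex conjugation

`W` has good supersingular reduction at `2` (`2 ∤ Δ`, `2 ∣ a₁`) and at some prime `q ∣ Δ`, `q ∤ c₄`,
the valuation of `Δ` is odd.
-/

set_option autoImplicit false

open scoped WeierstrassCurve.Affine
open WeierstrassCurve WeierstrassCurve.Affine.Point Matrix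

namespace FLTA.LT2.Image

open FLTA.EllReduction

noncomputable local instance : DecidableEq (AlgebraicClosure ℚ) := Classical.decEq _

local notation "Qbar" => AlgebraicClosure ℚ
local notation "Γℚ" => AlgebraicClosure ℚ ≃ₐ[ℚ] AlgebraicClosure ℚ

variable {W : WeierstrassCurve ℤ} (hΔ : W.Δ ≠ 0) {n : ℕ} (hn : n ≠ 0)

/-- At a semistable prime `q ≠ 2` inertia is unipotent on `E[2ⁿ]`. -/
theorem rep_inertia_sq {q : ℕ} (hq : q.Prime) (hq2 : q ≠ 2)
    (hss : ¬ (q : ℤ) ∣ W.Δ ∨ ¬ (q : ℤ) ∣ W.c₄) {A : ValuationSubring Qbar}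
    (hA : A.LiesOverPrime q) {σ : Γℚ} (hσ : σ ∈ A.inertiaSubgroupIn ℚ) :
    (rep hΔ n σ - 1) * (rep hΔ n σ - 1) = 0 := by
  refine Matrix.ext_of_mulVec_single fun i => ?_
  obtain ⟨x, hx⟩ := (torsEquiv hΔ n).surjective (Pi.single i 1)
  rw [← hx, ← Matrix.mulVec_mulVec, Matrix.sub_mulVec, Matrix.one_mulVec, Matrix.sub_mulVec,
    Matrix.one_mulVec, Matrix.zero_mulVec, ← torsEquiv_smul, ← map_sub, ← torsEquiv_smul, ← map_sub]
  refine (congrArg (torsEquiv hΔ n) (Subtype.ext ?_)).trans (_root_.map_zero _)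
  show σ • (σ • (x : GeomPoint W) - (x : GeomPoint W)) - (σ • (x : GeomPoint W) - (x : GeomPoint W))
    = 0
  exact sub_eq_zero.mpr (smul_smul_sub_eq hq hA hss hΔ
    (fun hd => hq2 ((Nat.prime_dvd_prime_iff_eq hq Nat.prime_two).mp (hq.dvd_of_dvd_pow hd)))
    hσ hσ (mem_tors.mp x.2))

/-- Every element of `(ℤ/2ⁿ)ˣ` is the cyclotomic character of a Frobenius at a large prime. -/
theorem exists_cycloMod_eq (u : (ZMod (2 ^ n))ˣ) :
    ∃ σ : Γℚ, Carayol.cycloMod 2 n σ = u := by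
  have : NeZero (2 ^ n) := ⟨pow_ne_zero _ two_ne_zero⟩
  obtain ⟨l, hl2, hl, hlu⟩ := Nat.forall_exists_prime_gt_and_eq_mod u.isUnit 2
  obtain ⟨A, σ, hA, hσ⟩ := Patching.exists_frobenius hl
  refine ⟨σ, ?_⟩
  show PadicInt.toZModPow n (((cyclotomicCharacter Qbar 2 σ.toRingEquiv : (ℤ_[2])ˣ)) : ℤ_[2]) = _
  rw [show ((cyclotomicCharacter Qbar 2 σ.toRingEquiv : ℤ_[2]ˣ) : ℤ_[2]) = l from
    Galois.cyclotomicCharacter_frobenius 2 hl hl2.ne' hA hσ, map_natCast, hlu]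

section Multiplicative

variable {q : ℕ} (hq : q.Prime) (hqΔ : (q : ℤ) ∣ W.Δ) (hc₄ : ¬ (q : ℤ) ∣ W.c₄)
  (hodd : ¬ 2 ∣ W.Δ.natAbs.factorization q) (hΔ2 : ¬ (2 : ℤ) ∣ W.Δ)

include hn hq hqΔ hc₄ hodd hΔ2

/-- At a multiplicative prime with `v_q(Δ)` odd some inertia element is a non-trivial transvection
modulo two. -/
theorem exists_inertia_transvection {A : ValuationSubring Qbar} (hA : A.LiesOverPrime q) :
    ∃ σ ∈ A.inertiaSubgroupIn ℚ, (rep hΔ n σ).map (mod2 hn) ≠ 1 ∧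
      (rep hΔ n σ - 1) * (rep hΔ n σ - 1) = 0 ∧
      ∃ P : Matrix (Fin 2) (Fin 2) (ZMod (2 ^ n)), IsUnit P ∧
        rep hΔ n σ * P = P * upperU 1 := by
  have hq2 : q ≠ 2 := fun e => hΔ2 (by subst e; exact_mod_cast hqΔ)
  obtain ⟨σ, hσ, P, hP, hne⟩ :=
    Carayol.exists_inertia_smul_ne hq hA hΔ hqΔ hc₄ Nat.prime_two hq2.symm hodd
  have h1 : (rep hΔ n σ).map (mod2 hn) ≠ 1 := fun h =>
    hne ((map_mod2_rep_eq_one_iff hΔ hn σ).mp h P hP)
  have h2 := rep_inertia_sq hΔ (n := n) hq hq2 (Or.inr hc₄) hA hσ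
  exact ⟨σ, hσ, h1, h2, exists_conj_upperU hn h2 h1⟩

/-- The determinant of the action on `E[2ⁿ]` is the cyclotomic character. -/
theorem det_rep_eq_cycloMod (σ : Γℚ) : (rep hΔ n σ).det = Carayol.cycloMod 2 n σ := by
  obtain ⟨A, hA⟩ := Galois.exists_liesOverPrime hq
  obtain ⟨τ, -, hτ, -⟩ := exists_inertia_transvection hΔ hn hq hqΔ hc₄ hodd hΔ2 hA
  exact det_rep hΔ hn ⟨τ, hτ⟩ σ

variable (ha₁ : (2 : ℤ) ∣ W.a₁)

include ha₁

/-- The image of Galois on `E[2ⁿ]` is all of `GL₂(ℤ/2ⁿ)`. -/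
theorem repGL_range_eq_top : (repGL hΔ n).range = ⊤ := by
  obtain ⟨A, hA⟩ := Galois.exists_liesOverPrime hq
  obtain ⟨τ, -, hτ, hsq, -⟩ := exists_inertia_transvection hΔ hn hq hqΔ hc₄ hodd hΔ2 hA
  refine eq_top_of_transvection hn (G := (repGL hΔ n).range) (t := repGL hΔ n τ)
    (MonoidHom.mem_range.mpr ⟨τ, rfl⟩) (by rw [coe_repGL]; exact hsq)
    (by rw [coe_repGL]; exact hτ) ?_ ?_
  · intro v hv
    by_contra! hall
    obtain ⟨P, hP0, hP, hfix⟩ := exists_fixed_point_of_fixed_vector hΔ hn hv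
      fun σ => by
        have h := hall (repGL hΔ n σ) (MonoidHom.mem_range.mpr ⟨σ, rfl⟩)
        rwa [coe_repGL] at h
    obtain ⟨σ, hσ⟩ := exists_smul_ne_of_two hΔ2 ha₁ hP0 hP
    exact hσ (hfix σ)
  · intro u
    obtain ⟨σ, hσ⟩ := exists_cycloMod_eq u
    exact ⟨repGL hΔ n σ, MonoidHom.mem_range.mpr ⟨σ, rfl⟩, by
      rw [coe_repGL, det_rep_eq_cycloMod hΔ hn hq hqΔ hc₄ hodd hΔ2 σ, hσ]⟩

/-- Every invertible matrix modulo `2ⁿ` is the image of some Galois element. -/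
theorem exists_rep_eq {M : Matrix (Fin 2) (Fin 2) (ZMod (2 ^ n))} (hM : IsUnit M.det) :
    ∃ σ : Γℚ, rep hΔ n σ = M := by
  obtain ⟨g, hg⟩ := (Matrix.isUnit_iff_isUnit_det M).mpr hM
  obtain ⟨σ, hσ⟩ := (repGL_range_eq_top hΔ hn hq hqΔ hc₄ hodd hΔ2 ha₁ ▸ Subgroup.mem_top g :
    g ∈ (repGL hΔ n).range)
  exact ⟨σ, by rw [← coe_repGL, hσ, hg]⟩

omit ha₁ in
/-- A Frobenius at a good odd prime `l` has determinant `l` and trace `a_l`. -/
theorem det_trace_rep_frobenius {l : ℕ} (hl : l.Prime) (hl2 : l ≠ 2) (hgood : W.IsGoodPrimeFor l)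
    {A : ValuationSubring Qbar} (hA : A.LiesOverPrime l) {σ : Γℚ} (hσ : A.IsFrobeniusAt σ l) :
    (rep hΔ n σ).det = (l : ZMod (2 ^ n)) ∧
      (rep hΔ n σ).trace = (W.apOfModel l : ZMod (2 ^ n)) := by
  have hdet : (rep hΔ n σ).det = (l : ZMod (2 ^ n)) := by
    rw [det_rep_eq_cycloMod hΔ hn hq hqΔ hc₄ hodd hΔ2 σ]
    show PadicInt.toZModPow n (((cyclotomicCharacter Qbar 2 σ.toRingEquiv : (ℤ_[2])ˣ)) : ℤ_[2]) = _
    rw [show ((cyclotomicCharacter Qbar 2 σ.toRingEquiv : ℤ_[2]ˣ) : ℤ_[2]) = l from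
      Galois.cyclotomicCharacter_frobenius 2 hl hl2 hA hσ, map_natCast]
  have hu := isUnit_det_rep hΔ n σ
  have h := rep_frobenius_quadratic hΔ n hl hl2 hgood hA hσ
  rw [← Int.cast_smul_eq_zsmul (ZMod (2 ^ n)), ← Int.cast_smul_eq_zsmul (ZMod (2 ^ n)),
    Int.cast_natCast] at h
  refine ⟨hdet, ?_⟩
  generalize rep hΔ n σ = M at hdet hu h
  have e : (M.trace - (W.apOfModel l : ZMod (2 ^ n))) • M = 0 := by
    ext i j
    have h' := congrFun (congrFun h i) j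
    rw [Matrix.det_fin_two] at hdet
    fin_cases i <;> fin_cases j <;>
      simp [Matrix.mul_apply, Matrix.trace_fin_two] at h' ⊢ <;>
      first
        | linear_combination h'
        | linear_combination h' + hdet
  obtain ⟨u, hu'⟩ := (Matrix.isUnit_iff_isUnit_det M).mpr hu
  have e' := congrArg (· * (↑u⁻¹ : Matrix (Fin 2) (Fin 2) (ZMod (2 ^ n)))) e
  simp only [smul_mul_assoc, zero_mul, ← hu', Units.mul_inv] at e'
  have e00 := congrFun (congrFun e' 0) 0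
  rw [hu'] at e00
  simpa [sub_eq_zero] using e00

end Multiplicative

include hΔ in
/-- Three points of order two. -/
theorem exists_three_points :
    ∃ P₁ P₂ P₃ : GeomPoint W, P₁ ≠ 0 ∧ P₂ ≠ 0 ∧ P₃ ≠ 0 ∧ 2 • P₁ = 0 ∧ 2 • P₂ = 0 ∧ 2 • P₃ = 0 ∧
      P₁ ≠ P₂ ∧ P₁ ≠ P₃ ∧ P₂ ≠ P₃ := by
  have h2 : ∀ x : Tors W 1, 2 • (x : GeomPoint W) = 0 := fun x => by
    have h := mem_tors.mp x.2
    rwa [pow_one] at h
  refine ⟨((torsEquiv hΔ 1).symm ![1, 0] : Tors W 1), ((torsEquiv hΔ 1).symm ![0, 1] : Tors W 1),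
    ((torsEquiv hΔ 1).symm ![1, 1] : Tors W 1), ?_, ?_, ?_, h2 _, h2 _, h2 _, ?_, ?_, ?_⟩
  all_goals
    first
      | exact fun h => absurd ((LinearEquiv.map_eq_zero_iff _).mp (Subtype.ext h)) (by decide)
      | exact fun h => absurd ((torsEquiv hΔ 1).symm.injective (Subtype.ext h)) (by decide)

include hn in
/-- If `Δ < 0`, complex conjugation exchanges the two vectors of a basis of `E[2ⁿ]`. -/
theorem exists_conj_swap (hΔneg : W.Δ < 0) :
    (rep hΔ n complexConjugation).map (mod2 hn) ≠ 1 ∧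
      ∃ P : Matrix (Fin 2) (Fin 2) (ZMod (2 ^ n)), IsUnit P ∧
        rep hΔ n complexConjugation * P = P * !![0, 1; 1, 0] := by
  set M := rep hΔ n complexConjugation with hM
  have h1 : M.map (mod2 hn) ≠ 1 := fun h => by
    obtain ⟨P₁, P₂, P₃, a₁, a₂, a₃, b₁, b₂, b₃, c₁, c₂, c₃⟩ := exists_three_points hΔ
    have hall := (map_mod2_rep_eq_one_iff hΔ hn _).mp h
    rcases exists_conj_smul_ne hΔneg a₁ a₂ a₃ b₁ b₂ b₃ c₁ c₂ c₃ with e | e | e
    · exact e (hall _ b₁)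
    · exact e (hall _ b₂)
    · exact e (hall _ b₃)
  have hsq : M * M = 1 := by rw [hM, ← map_mul, complexConjugation_mul_self, map_one]
  refine ⟨h1, ?_⟩
  have hsq' : M.map (mod2 hn) * M.map (mod2 hn) = 1 := by
    rw [← Matrix.map_mul, hsq, Matrix.map_one _ (_root_.map_zero _) (map_one _)]
  obtain ⟨j, hj⟩ : ∃ j : Fin 2, (!![(1 : Matrix (Fin 2) (Fin 2) (ZMod 2)) 0 j, M.map (mod2 hn) 0 j;
      (1 : Matrix (Fin 2) (Fin 2) (ZMod 2)) 1 j, M.map (mod2 hn) 1 j]).det = 1 := by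
    revert h1 hsq'
    generalize M.map (mod2 hn) = B
    revert B
    decide
  refine ⟨!![(1 : Matrix (Fin 2) (Fin 2) (ZMod (2 ^ n))) 0 j, M 0 j;
    (1 : Matrix (Fin 2) (Fin 2) (ZMod (2 ^ n))) 1 j, M 1 j], ?_, ?_⟩
  · refine (Matrix.isUnit_iff_isUnit_det _).mpr (isUnit_of_mod2 hn _ ?_)
    rw [RingHom.map_det, RingHom.mapMatrix_apply]
    refine Eq.trans (congrArg Matrix.det ?_) hj
    have e : ∀ i, mod2 hn ((1 : Matrix (Fin 2) (Fin 2) (ZMod (2 ^ n))) i j) =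
        (1 : Matrix (Fin 2) (Fin 2) (ZMod 2)) i j := fun i => by
      rw [Matrix.one_apply, Matrix.one_apply, apply_ite (mod2 hn), map_one, _root_.map_zero]
    ext a b; fin_cases a <;> fin_cases b <;> simp [e]
  · have h0 := congrFun (congrFun hsq 0) j
    have h1 := congrFun (congrFun hsq 1) j
    rw [Matrix.mul_apply, Fin.sum_univ_two] at h0 h1
    rcases ((by decide : ∀ i : Fin 2, i = 0 ∨ i = 1) j) with rfl | rfl <;> ext a b <;>
      fin_cases a <;> fin_cases b <;>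
      simp [Matrix.mul_apply] at h0 h1 ⊢ <;>
      first
        | linear_combination h0
        | linear_combination h1

end FLTA.LT2.Image
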