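import Fermat.Agent.LT2.Defs
import Fermat.Agent.LT2.ImageFull
import Fermat.Agent.EllTorsion.FrobTwo

/-!
# Image facts for a companion curve
-/

set_option autoImplicit false

open scoped WeierstrassCurve.Affine
open WeierstrassCurve WeierstrassCurve.Affine.Point Matrix

namespace FLTA.LT2.Companion

open FLTA.EllReduction FLTA.LT2.Image

noncomputable local instance : DecidableEq (AlgebraicClosure ℚ) := Classical.decEq _

local notation "Qbar" => AlgebraicClosure ℚ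
local notation "Γℚ" => AlgebraicClosure ℚ ≃ₐ[ℚ] AlgebraicClosure ℚ

variable {E : WeierstrassCurve ℤ} (hE : Companion E)

include hE

/-- Good supersingular reduction at two forces `a₁` even. -/
theorem two_dvd_a₁ : (2 : ℤ) ∣ E.a₁ := by
  have hΔ : (E.reductionMod 2).Δ ≠ 0 := by
    rw [reductionMod, WeierstrassCurve.map_Δ, eq_intCast]
    exact fun h => hE.goodTwo ((ZMod.intCast_zmod_eq_zero_iff_dvd _ 2).mp h)
  have : Fact (Nat.Prime 2) := ⟨Nat.prime_two⟩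
  have hn := EllTorsion.FrobTwo.natCard_point_eq (E.reductionMod 2).toAffine hΔ
  rw [Nat.card_eq_fintype_card (α := Option _)] at hn
  have hcard : (E.reductionMod 2).card = Fintype.card (Option {p : ZMod 2 × ZMod 2 //
      p.2 ^ 2 + (E.a₁ : ZMod 2) * p.1 * p.2 + (E.a₃ : ZMod 2) * p.2
        = p.1 ^ 3 + (E.a₂ : ZMod 2) * p.1 ^ 2 + (E.a₄ : ZMod 2) * p.1 + (E.a₆ : ZMod 2)}) := by
    rw [WeierstrassCurve.card, hn]
    exact Fintype.card_congr (Equiv.refl _)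
  have hc := EllTorsion.FrobTwo.cases_two (E.a₁ : ZMod 2) E.a₂ E.a₃ E.a₄ E.a₆ hΔ
  dsimp only at hc
  rw [← hcard] at hc
  have ha := hE.supersingularTwo
  rw [show E.apOfModel 2 = 3 - ((E.reductionMod 2).card : ℤ) by
    rw [apOfModel, traceOfFrobenius, Nat.card_zmod]; norm_num] at ha
  rcases hc with ⟨h1, -⟩ | ⟨-, -, ⟨-, h⟩ | ⟨-, h⟩⟩
  · exact (ZMod.intCast_zmod_eq_zero_iff_dvd _ 2).mp h1
  · rw [h] at ha; norm_num at ha
  · rw [h] at ha; norm_num at ha

/-- The discriminant is `5` modulo `8`; in particular some prime divides it. -/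
theorem exists_bad_prime : ∃ q : ℕ, q.Prime ∧ (q : ℤ) ∣ E.Δ := by
  refine Nat.exists_prime_and_dvd (n := E.Δ.natAbs) (fun h1 => ?_) |>.imp
    fun q hq => ⟨hq.1, Int.natCast_dvd.mpr hq.2⟩
  obtain ⟨α, hα⟩ := two_dvd_a₁ hE
  obtain ⟨k, hk⟩ : (4 : ℤ) ∣ E.b₂ := ⟨α ^ 2 + E.a₂, by rw [WeierstrassCurve.b₂, hα]; ring⟩
  obtain ⟨β, hβ⟩ : (2 : ℤ) ∣ E.b₄ := ⟨E.a₄ + α * E.a₃, by rw [WeierstrassCurve.b₄, hα]; ring⟩
  have hΔ : E.Δ = -16 * k ^ 2 * E.b₈ - 64 * β ^ 3 - 27 * E.b₆ ^ 2 + 72 * k * β * E.b₆ := by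
    rw [WeierstrassCurve.Δ, hk, hβ]; ring
  have h8 : (E.Δ : ZMod 8) = 5 * (E.b₆ : ZMod 8) ^ 2 := by
    rw [hΔ]
    push_cast
    generalize (k : ZMod 8) = a
    generalize (E.b₈ : ZMod 8) = b
    generalize (β : ZMod 8) = c
    generalize (E.b₆ : ZMod 8) = d
    rw [show (16 : ZMod 8) = 0 from rfl, show (64 : ZMod 8) = 0 from rfl,
      show (72 : ZMod 8) = 0 from rfl, show (27 : ZMod 8) = 3 from rfl]
    have h80 : (8 : ZMod 8) = 0 := rfl
    linear_combination -(d ^ 2) * h80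
  rcases Int.natAbs_eq E.Δ with h | h <;> rw [h1] at h <;> rw [h] at h8 <;> push_cast at h8 <;>
    revert h8 <;> generalize (E.b₆ : ZMod 8) = d <;> revert d <;> decide

/-- At a bad prime: multiplicative reduction, `q ≠ 2`, odd valuation. -/
theorem bad_prime_spec {q : ℕ} (hq : q.Prime) (hqΔ : (q : ℤ) ∣ E.Δ) :
    ¬ (q : ℤ) ∣ E.c₄ ∧ q ≠ 2 ∧ ¬ 2 ∣ E.Δ.natAbs.factorization q := by
  refine ⟨hE.semistable q hq hqΔ, fun e => hE.goodTwo (by subst e; exact_mod_cast hqΔ), ?_⟩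
  have h := hE.oddVal q hq hqΔ
  rw [padicValInt, ← Nat.factorization_def _ hq] at h
  exact fun hd => Nat.not_even_iff_odd.mpr h (even_iff_two_dvd.mpr hd)

variable {n : ℕ} (hn : n ≠ 0)

include hn

/-- Every matrix in `GL₂(ℤ/2ⁿ)` is the action of some `σ` on `E[2ⁿ]`. -/
theorem exists_rep_eq {M : Matrix (Fin 2) (Fin 2) (ZMod (2 ^ n))} (hM : IsUnit M.det) :
    ∃ σ : Γℚ, rep hE.Δ_ne_zero n σ = M := by
  obtain ⟨q, hq, hqΔ⟩ := exists_bad_prime hE
  obtain ⟨hc, -, ho⟩ := bad_prime_spec hE hq hqΔ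
  exact Image.exists_rep_eq _ hn hq hqΔ hc ho hE.goodTwo (two_dvd_a₁ hE) hM

theorem repGL_range_eq_top : (repGL hE.Δ_ne_zero n).range = ⊤ := by
  obtain ⟨q, hq, hqΔ⟩ := exists_bad_prime hE
  obtain ⟨hc, -, ho⟩ := bad_prime_spec hE hq hqΔ
  exact Image.repGL_range_eq_top _ hn hq hqΔ hc ho hE.goodTwo (two_dvd_a₁ hE)

theorem repGL_surjective : Function.Surjective (repGL hE.Δ_ne_zero n) :=
  MonoidHom.range_eq_top.mp (repGL_range_eq_top hE hn)

theorem det_rep_eq_cycloMod (σ : Γℚ) :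
    (rep hE.Δ_ne_zero n σ).det = Carayol.cycloMod 2 n σ := by
  obtain ⟨q, hq, hqΔ⟩ := exists_bad_prime hE
  obtain ⟨hc, -, ho⟩ := bad_prime_spec hE hq hqΔ
  exact Image.det_rep_eq_cycloMod _ hn hq hqΔ hc ho hE.goodTwo σ

theorem det_trace_rep_frobenius {l : ℕ} (hl : l.Prime) (hl2 : l ≠ 2) (hgood : ¬ (l : ℤ) ∣ E.Δ)
    {A : ValuationSubring Qbar} (hA : A.LiesOverPrime l) {σ : Γℚ} (hσ : A.IsFrobeniusAt σ l) :
    (rep hE.Δ_ne_zero n σ).det = (l : ZMod (2 ^ n)) ∧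
      (rep hE.Δ_ne_zero n σ).trace = (E.apOfModel l : ZMod (2 ^ n)) := by
  obtain ⟨q, hq, hqΔ⟩ := exists_bad_prime hE
  obtain ⟨hc, -, ho⟩ := bad_prime_spec hE hq hqΔ
  exact Image.det_trace_rep_frobenius _ hn hq hqΔ hc ho hE.goodTwo hl hl2 hgood hA hσ

/-- Some inertia element at a bad prime is a non-trivial transvection modulo two. -/
theorem exists_inertia_transvection {q : ℕ} (hq : q.Prime) (hqΔ : (q : ℤ) ∣ E.Δ)
    {A : ValuationSubring Qbar} (hA : A.LiesOverPrime q) :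
    ∃ σ ∈ A.inertiaSubgroupIn ℚ, (rep hE.Δ_ne_zero n σ).map (mod2 hn) ≠ 1 ∧
      (rep hE.Δ_ne_zero n σ - 1) * (rep hE.Δ_ne_zero n σ - 1) = 0 ∧
      ∃ P : Matrix (Fin 2) (Fin 2) (ZMod (2 ^ n)), IsUnit P ∧
        rep hE.Δ_ne_zero n σ * P = P * upperU 1 := by
  obtain ⟨hc, -, ho⟩ := bad_prime_spec hE hq hqΔ
  exact Image.exists_inertia_transvection _ hn hq hqΔ hc ho hE.goodTwo hA

/-- Complex conjugation exchanges the two vectors of a basis. -/
theorem exists_conj_swap :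
    (rep hE.Δ_ne_zero n complexConjugation).map (mod2 hn) ≠ 1 ∧
      ∃ P : Matrix (Fin 2) (Fin 2) (ZMod (2 ^ n)), IsUnit P ∧
        rep hE.Δ_ne_zero n complexConjugation * P = P * !![0, 1; 1, 0] :=
  Image.exists_conj_swap _ hn hE.neg

omit hn

/-- No point of `E[2]` other than zero is fixed by all of Galois. -/
theorem exists_smul_ne_tors2 {x : Tors2 E} (hx : x ≠ 0) : ∃ σ : Γℚ, σ • x ≠ x := by
  obtain ⟨σ, hσ⟩ := Image.exists_smul_ne_of_two hE.goodTwo (two_dvd_a₁ hE)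
    (P := x.1) (fun h => hx (Subtype.ext h)) (by
      have h := (Submodule.mem_torsionBy_iff _ _).mp x.2
      rwa [natCast_zsmul] at h)
  exact ⟨σ, fun h => hσ (congrArg Subtype.val h)⟩

/-- Inertia at a bad prime moves a point of `E[2]`. -/
theorem exists_inertia_smul_ne_tors2 {q : ℕ} (hq : q.Prime) (hqΔ : (q : ℤ) ∣ E.Δ)
    {A : ValuationSubring Qbar} (hA : A.LiesOverPrime q) :
    ∃ σ ∈ A.inertiaSubgroupIn ℚ, ∃ x : Tors2 E, σ • x ≠ x := by
  obtain ⟨hc, hq2, ho⟩ := bad_prime_spec hE hq hqΔ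
  obtain ⟨σ, hσ, P, hP, hne⟩ :=
    Carayol.exists_inertia_smul_ne hq hA hE.Δ_ne_zero hqΔ hc Nat.prime_two hq2.symm ho
  exact ⟨σ, hσ, ⟨P, (Submodule.mem_torsionBy_iff _ _).mpr ((natCast_zsmul P 2).trans hP)⟩,
    fun h => hne (congrArg Subtype.val h)⟩

/-- Every additive endomorphism of `E[2]` commuting with Galois is `0` or `1`: the representation
is absolutely irreducible. -/
theorem eq_zero_or_one_of_commute (f : Tors2 E →+ Tors2 E)
    (hf : ∀ (σ : Γℚ) (x : Tors2 E), f (σ • x) = σ • f x) :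
    (∀ x, f x = 0) ∨ ∀ x, f x = x := by
  let e := torsEquiv hE.Δ_ne_zero 1
  have hmem : ∀ P : GeomPoint E, P ∈ Tors E 1 ↔ P ∈ Tors2 E := fun P => by
    show P ∈ Submodule.torsionBy ℤ (GeomPoint E) ((2 ^ 1 : ℕ) : ℤ) ↔
      P ∈ Submodule.torsionBy ℤ (GeomPoint E) ((2 : ℕ) : ℤ)
    rw [pow_one]
  let i : Tors E 1 → Tors2 E := fun x => ⟨x.1, (hmem _).mp x.2⟩
  let j : Tors2 E → Tors E 1 := fun x => ⟨x.1, (hmem _).mpr x.2⟩
  let g : (Fin 2 → ZMod (2 ^ 1)) →+ (Fin 2 → ZMod (2 ^ 1)) :=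
    { toFun := fun v => e (j (f (i (e.symm v))))
      map_zero' := by
        rw [LinearEquiv.map_eq_zero_iff]
        refine Subtype.ext ?_
        rw [show i (e.symm 0) = 0 from Subtype.ext (by rw [_root_.map_zero]; rfl),
          _root_.map_zero]
        rfl
      map_add' := fun v w => by
        rw [← map_add e]
        refine congrArg e (Subtype.ext ?_)
        rw [show i (e.symm (v + w)) = i (e.symm v) + i (e.symm w) from
          Subtype.ext (by rw [map_add]; rfl), map_add]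
        rfl }
  have hcomm : ∀ (M : Matrix (Fin 2) (Fin 2) (ZMod (2 ^ 1))), IsUnit M.det →
      ∀ v, g (M *ᵥ v) = M *ᵥ g v := by
    intro M hM v
    obtain ⟨σ, rfl⟩ := exists_rep_eq hE one_ne_zero hM
    show e (j (f (i (e.symm _)))) = _ *ᵥ e (j (f (i (e.symm v))))
    rw [← torsEquiv_smul]
    refine congrArg e ?_
    have : i (e.symm (rep hE.Δ_ne_zero 1 σ *ᵥ v)) = σ • i (e.symm v) := by
      refine Subtype.ext (congrArg Subtype.val (?_ : e.symm _ = σ • e.symm v))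
      rw [LinearEquiv.symm_apply_eq, torsEquiv_smul, LinearEquiv.apply_symm_apply]
    rw [this, hf]
    rfl
  have hfg : ∀ x, f x = i (e.symm (g (e (j x)))) := fun x => by
    show f x = i (e.symm (e (j (f (i (e.symm (e (j x))))))))
    rw [LinearEquiv.symm_apply_apply, LinearEquiv.symm_apply_apply]
  have key : ∀ g' : (Fin 2 → ZMod 2) → (Fin 2 → ZMod 2),
      (∀ M : Matrix (Fin 2) (Fin 2) (ZMod 2), M.det = 1 → ∀ v, g' (M *ᵥ v) = M *ᵥ g' v) →
      (g' 0 = 0) → (∀ v, g' v = 0) ∨ ∀ v, g' v = v := by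
    intro g' hg' h0
    have hu := hg' !![1, 1; 0, 1] (by decide) ![1, 0]
    rw [show !![(1 : ZMod 2), 1; 0, 1] *ᵥ ![1, 0] = ![1, 0] by decide] at hu
    have h1 := hg' !![0, 1; 1, 0] (by decide) ![1, 0]
    rw [show !![(0 : ZMod 2), 1; 1, 0] *ᵥ ![1, 0] = ![0, 1] by decide] at h1
    have h3 := hg' !![1, 0; 1, 1] (by decide) ![1, 0]
    rw [show !![(1 : ZMod 2), 0; 1, 1] *ᵥ ![1, 0] = ![1, 1] by decide] at h3
    have hcases : ∀ v : Fin 2 → ZMod 2, v = 0 ∨ v = ![1, 0] ∨ v = ![0, 1] ∨ v = ![1, 1] := by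
      decide
    rcases (by revert hu; generalize g' ![1, 0] = a; revert a; decide :
      g' ![1, 0] = 0 ∨ g' ![1, 0] = ![1, 0]) with ha | ha <;> rw [ha] at h1 h3
    · refine Or.inl fun v => ?_
      rcases hcases v with rfl | rfl | rfl | rfl
      · exact h0
      · exact ha
      · rw [h1]; decide
      · rw [h3]; decide
    · refine Or.inr fun v => ?_
      rcases hcases v with rfl | rfl | rfl | rfl
      · exact h0
      · exact ha
      · rw [h1]; decide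
      · rw [h3]; decide
  rcases key (fun v => g v) (fun M hM v => hcomm M (by rw [show M.det = 1 from hM]; exact isUnit_one) v)
    (_root_.map_zero g) with h | h
  · refine Or.inl fun x => ?_
    rw [hfg, show g (e (j x)) = 0 from h _, _root_.map_zero]
    rfl
  · refine Or.inr fun x => ?_
    rw [hfg, show g (e (j x)) = e (j x) from h _, LinearEquiv.symm_apply_apply]

end FLTA.LT2.Companion
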