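import Fermat.Agent.LT2.PrimesDefs
import Fermat.Agent.EllTorsion.FiniteLevel
import Fermat.Agent.EllReduction.Api
import Fermat.Agent.EllPoints.TwoTorsion
import Fermat.Agent.Galois.Cyclotomic
import Mathlib.NumberTheory.LegendreSymbol.Basic

/-!
# `E[2]` at good odd primes

Inertia fixes `E[2]`; a Frobenius element at a prime modulo which the discriminant is a nonsquare
moves it, as it moves the square root of the discriminant.
-/

set_option autoImplicit false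

open WeierstrassCurve WeierstrassCurve.Affine
open scoped WeierstrassCurve.Affine
open scoped Classical

noncomputable section

namespace FLTA.LT2

local notation "Qbar" => AlgebraicClosure ℚ
local notation "Γℚ" => AlgebraicClosure ℚ ≃ₐ[ℚ] AlgebraicClosure ℚ

variable {E : WeierstrassCurve ℤ}

theorem two_nsmul_tors2 (P : Tors2 E) : (2 : ℕ) • P = 0 := by
  refine Subtype.ext ?_
  have h := (Submodule.mem_torsionBy_iff _ _).mp P.2
  rw [natCast_zsmul] at h
  exact h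

theorem natCard_tors2 (hE : Companion E) : Nat.card (Tors2 E) = 4 :=
  (EllTorsion.natCard_torsionBy_intModel E hE.Δ_ne_zero two_ne_zero).trans (by norm_num)

theorem finite_tors2 (hE : Companion E) : Finite (Tors2 E) :=
  Nat.finite_of_card_ne_zero (by rw [natCard_tors2 hE]; norm_num)

/-- At a good odd prime inertia fixes `E[2]`. -/
theorem smul_eq_self_of_inertia_two {q : ℕ} (hq : q.Prime) (hq2 : q ≠ 2)
    (hgood : ¬ (q : ℤ) ∣ E.Δ) {A : ValuationSubring Qbar} (hA : A.LiesOverPrime q) {σ : Γℚ}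
    (hσ : σ ∈ A.inertiaSubgroupIn ℚ) (P : Tors2 E) : σ • P = P :=
  Subtype.ext (EllReduction.smul_eq_of_good hq hA hgood
    (fun h => hq2 ((Nat.prime_dvd_prime_iff_eq hq Nat.prime_two).mp h)) hσ
    (congrArg Subtype.val (two_nsmul_tors2 P)))

/-- The square root of the discriminant in terms of two roots of the `2`-division polynomial. -/
theorem sq_prod_eq_disc {F : Type*} [Field F] [CharZero F] {W : WeierstrassCurve F} {x₁ x₂ : F}
    (hx : x₁ ≠ x₂) (r₁ : 4 * x₁ ^ 3 + W.b₂ * x₁ ^ 2 + 2 * W.b₄ * x₁ + W.b₆ = 0)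
    (r₂ : 4 * x₂ ^ 3 + W.b₂ * x₂ ^ 2 + 2 * W.b₄ * x₂ + W.b₆ = 0) :
    (4 * ((x₁ - x₂) * (x₁ - (-W.b₂ / 4 - x₁ - x₂)) * (x₂ - (-W.b₂ / 4 - x₁ - x₂)))) ^ 2 = W.Δ := by
  obtain ⟨x₃, h₃⟩ : ∃ x₃, -W.b₂ / 4 - x₁ - x₂ = x₃ := ⟨_, rfl⟩
  rw [h₃]
  have hb2 : W.b₂ = -4 * (x₁ + x₂ + x₃) := by rw [← h₃]; field_simp; ring
  have hb4 : W.b₄ = 2 * (x₁ * x₂ + x₁ * x₃ + x₂ * x₃) := by
    refine mul_left_cancel₀ (mul_ne_zero two_ne_zero (sub_ne_zero.2 hx)) ?_
    linear_combination r₁ - r₂ - (x₁ ^ 2 - x₂ ^ 2) * hb2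
  have hb6 : W.b₆ = -4 * (x₁ * x₂ * x₃) := by
    linear_combination r₁ - x₁ ^ 2 * hb2 - 2 * x₁ * hb4
  have h8 := W.b_relation
  refine mul_left_cancel₀ (OfNat.ofNat_ne_zero 4 : (4 : F) ≠ 0) ?_
  have hD : 4 * W.Δ = -W.b₂ ^ 2 * (W.b₂ * W.b₆ - W.b₄ ^ 2) - 32 * W.b₄ ^ 3 - 108 * W.b₆ ^ 2
      + 36 * W.b₂ * W.b₄ * W.b₆ := by
    simp only [WeierstrassCurve.Δ]; linear_combination -W.b₂ ^ 2 * h8
  rw [hD, hb2, hb4, hb6]
  ring

/-- An element fixing all of `E[2]` fixes a square root of the discriminant. -/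
theorem exists_sqrt_disc_fixed (hE : Companion E) {σ : Γℚ} (hσ : ∀ P : Tors2 E, σ • P = P) :
    ∃ δ : Qbar, δ ^ 2 = ((E.Δ : ℤ) : Qbar) ∧ σ δ = δ := by
  have := finite_tors2 hE
  have := Fintype.ofFinite (Tors2 E)
  have hc : 1 < ((Finset.univ : Finset (Tors2 E)).erase 0).card := by
    rw [Finset.card_erase_of_mem (Finset.mem_univ _), Finset.card_univ, ← Nat.card_eq_fintype_card,
      natCard_tors2 hE]
    norm_num
  obtain ⟨P, hP, Q, hQ, hne⟩ := Finset.one_lt_card.mp hc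
  have hord : ∀ R : Tors2 E, R ≠ 0 →
      addOrderOf R.1 = 2 := fun R hR =>
    addOrderOf_eq_prime (congrArg Subtype.val (two_nsmul_tors2 R))
      (fun h => hR (Subtype.ext h))
  obtain ⟨x₁, y₁, n₁, e₁, l₁, r₁⟩ :=
    EllPoints.exists_coords_of_addOrderOf_two (hord P (Finset.ne_of_mem_erase hP))
  obtain ⟨x₂, y₂, n₂, e₂, l₂, r₂⟩ :=
    EllPoints.exists_coords_of_addOrderOf_two (hord Q (Finset.ne_of_mem_erase hQ))
  have hfix : ∀ (R : Tors2 E) (x y : Qbar) (n : _), R.1 =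
      Affine.Point.some x y n → σ x = x := by
    intro R x y n e
    have h := congrArg Subtype.val (hσ R)
    change σ • R.1 = R at h
    rw [e, Affine.Point.algEquiv_smul_def, Affine.Point.map_some,
      Affine.Point.some.injEq] at h
    exact h.1
  have h1 : σ x₁ = x₁ := hfix P x₁ y₁ n₁ e₁
  have h2 : σ x₂ = x₂ := hfix Q x₂ y₂ n₂ e₂
  have hx : x₁ ≠ x₂ := fun hx => hne <| by
    subst hx
    have : (2 : Qbar) * (y₁ - y₂) = 0 := by linear_combination l₁ - l₂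
    obtain rfl : y₁ = y₂ := sub_eq_zero.1 ((mul_eq_zero.1 this).resolve_left two_ne_zero)
    exact Subtype.ext (e₁.trans e₂.symm)
  refine ⟨_, (sq_prod_eq_disc hx r₁ r₂).trans ?_, ?_⟩
  · rw [WeierstrassCurve.baseChange, WeierstrassCurve.map_Δ, WeierstrassCurve.map_Δ]
    simp
  · simp only [WeierstrassCurve.baseChange, WeierstrassCurve.map_b₂, map_mul, map_sub, map_div₀,
      map_neg, map_ofNat, eq_intCast, map_intCast, h1, h2]

/-- Frobenius at a prime modulo which the discriminant is a nonsquare moves `E[2]`. -/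
theorem exists_frobenius_smul_ne_two (hE : Companion E) {q : ℕ} (hq : q.Prime) (hq2 : q ≠ 2)
    (hgood : ¬ (q : ℤ) ∣ E.Δ) (hns : ¬ IsSquare (E.Δ : ZMod q))
    {A : ValuationSubring Qbar} (hA : A.LiesOverPrime q) {σ : Γℚ} (hσ : A.IsFrobeniusAt σ q) :
    ∃ P : Tors2 E, σ • P ≠ P := by
  by_contra hall
  push Not at hall
  obtain ⟨δ, hδ, hσδ⟩ := exists_sqrt_disc_fixed hE hall
  have : Fact q.Prime := ⟨hq⟩
  have : CharP (IsLocalRing.ResidueField A) q := FLTA.Galois.charP_residueField hq hA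
  have hint : IsIntegral ℤ δ := IsIntegral.of_pow two_pos (by rw [hδ]; exact isIntegral_algebraMap)
  have hmem : δ ∈ A := FLTA.Galois.mem_of_isIntegral hint
  obtain ⟨hd, hF⟩ := hσ
  set r := IsLocalRing.residue A ⟨δ, hmem⟩ with hr
  have hmem' : σ δ ∈ A := by rw [hσδ]; exact hmem
  have hfr : IsLocalRing.residue A ⟨σ δ, hmem'⟩ = r ^ q := hF r
  rw [show (⟨σ δ, hmem'⟩ : A) = ⟨δ, hmem⟩ from Subtype.ext hσδ, ← hr] at hfr
  have hr2 : r ^ 2 = ((E.Δ : ℤ) : IsLocalRing.ResidueField A) := by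
    rw [hr, ← map_pow, ← map_intCast (IsLocalRing.residue A)]
    congr 1
    exact Subtype.ext (hδ.trans (map_intCast A.subtype _).symm)
  have hΔ0 : ((E.Δ : ℤ) : IsLocalRing.ResidueField A) ≠ 0 :=
    fun h => hgood ((CharP.intCast_eq_zero_iff _ q _).mp h)
  have hr0 : r ≠ 0 := fun h => hΔ0 (by rw [← hr2, h, zero_pow two_ne_zero])
  obtain ⟨m, hm⟩ := hq.odd_of_ne_two hq2
  have h1 : r ^ (2 * m) = 1 := by
    refine mul_right_cancel₀ hr0 ?_
    rw [← pow_succ, one_mul, ← hm, ← hfr]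
  rw [pow_mul, hr2] at h1
  refine hns ((ZMod.euler_criterion q
    (fun h => hgood ((ZMod.intCast_zmod_eq_zero_iff_dvd _ _).mp h))).mpr ?_)
  rw [show q / 2 = m by omega]
  refine (ZMod.castHom (dvd_refl q) (IsLocalRing.ResidueField A)).injective ?_
  rw [map_pow, map_intCast, map_one, h1]

end FLTA.LT2
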