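import Fermat.Agent.LT2.MazurAlg
import Fermat.Agent.LT2.Defs
import Fermat.Agent.LT2.ImageCompanion
import Fermat.Agent.LT2.PrimesTwoTorsion
import Fermat.Agent.BadRed.Toric
import Fermat.Agent.BadRed.ModularSym
import Fermat.Agent.RT.MazurEnd
import Fermat.Agent.Congruence.Torsion
import Fermat.Agent.GaloisReps.TateConstructTorsion
import Fermat.Agent.GaloisReps.TateConstructCommute
import Fermat.Agent.Density.Frobenius

/-!
# Part H: the Galois orbit of an eigenclass of order `2ⁿ`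

On the eigenclasses of `J₀(N)[2ⁿ]` Galois satisfies the relations of `E[2ⁿ]`.  So inertia at a good
prime fixes them, and a class of order `2ⁿ` has a conjugate whose multiple of order `2` is not
toric at a conjugation prime: Frobenius there is not scalar on `E[2]`, while on toric classes it is
the Atkin-Lehner involution, which commutes with Galois.
-/

set_option autoImplicit false
set_option synthInstance.maxHeartbeats 400000
set_option maxHeartbeats 1000000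

noncomputable section

open ModularCurve AlgebraicCurve IsLocalRing Matrix
open FLTA.Kummer (JTors)
open FLTA.LT2.Image FLTA.LT2.MazurAlg

namespace FLTA.LT2

local notation "Qb" => AlgebraicClosure ℚ
local notation "Γℚ" => AlgebraicClosure ℚ ≃ₐ[ℚ] AlgebraicClosure ℚ

variable (N : ℕ) [NeZero N] (E : WeierstrassCurve ℤ) (n : ℕ) (S : Finset ℕ)

/-- The eigenclasses of `E` killed by `2ⁿ`. -/
def eigTwoPow : Submodule (ZMod (2 ^ n)) (JTors N (2 ^ n)) where
  carrier := {x | ∀ ℓ : Nat.Primes, (ℓ : ℕ) ∉ S →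
    heckeOperatorBar N ℓ (x : JZero N) = E.apOfModel ℓ • (x : JZero N)}
  add_mem' {x y} hx hy ℓ hℓ := by
    rw [show ((x + y : JTors N (2 ^ n)) : JZero N) = x + y from rfl, map_add, hx ℓ hℓ, hy ℓ hℓ]
    exact (smul_add (E.apOfModel ℓ : ℤ) (x : JZero N) (y : JZero N)).symm
  zero_mem' ℓ _ := by
    rw [show ((0 : JTors N (2 ^ n)) : JZero N) = 0 from rfl, map_zero, smul_zero]
  smul_mem' c x hx ℓ hℓ := by
    have : NeZero (2 ^ n) := ⟨pow_ne_zero _ two_ne_zero⟩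
    have e : ((c • x : JTors N (2 ^ n)) : JZero N) = (c.val : ℤ) • (x : JZero N) := by
      rw [show c • x = (c.val : ℤ) • x by
        rw [← Int.cast_smul_eq_zsmul (ZMod (2 ^ n)), Int.cast_natCast, ZMod.natCast_zmod_val]]
      exact AddSubgroupClass.coe_zsmul x _
    rw [e, map_zsmul, hx ℓ hℓ, smul_comm]

/-- Galois on the eigenclasses. -/
def eigTwoPowRep : Γℚ →* Module.End (ZMod (2 ^ n)) (eigTwoPow N E n S) where
  toFun σ := LinearMap.restrict (p := eigTwoPow N E n S) (q := eigTwoPow N E n S)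
    (JZero.torsionGaloisRep N (2 ^ n) σ) fun x hx ℓ hℓ => by
      rw [JZero.coe_torsionGaloisRep_apply, ← FLTA.GaloisReps.heckeOperatorBar_galois, hx ℓ hℓ]
      exact map_zsmul (DistribSMul.toAddMonoidHom (JZero N) σ) _ _
  map_one' := by
    refine LinearMap.ext fun x => Subtype.ext ?_
    show JZero.torsionGaloisRep N (2 ^ n) 1 x = x
    rw [map_one]; rfl
  map_mul' σ τ := by
    refine LinearMap.ext fun x => Subtype.ext ?_
    show JZero.torsionGaloisRep N (2 ^ n) (σ * τ) x = _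
    rw [map_mul]; rfl

theorem coe_eigTwoPowRep (σ : Γℚ) (x : eigTwoPow N E n S) :
    (((eigTwoPowRep N E n S σ x : eigTwoPow N E n S) : JTors N (2 ^ n)) : JZero N) =
      σ • ((x : JTors N (2 ^ n)) : JZero N) :=
  rfl

theorem eigTwoPowRep_factors : GaloisFactorsThroughFiniteLevel (eigTwoPowRep N E n S) := by
  have : NeZero (2 ^ n) := ⟨pow_ne_zero _ two_ne_zero⟩
  obtain ⟨L, hL, h⟩ := FLTA.GaloisReps.exists_level_galMat N (2 ^ n)
  exact ⟨L, hL, fun σ hσ => LinearMap.ext fun x => Subtype.ext (Subtype.ext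
    (((FLTA.GaloisReps.galMat_eq_one_iff N (2 ^ n) σ).1 (h σ hσ) x.1)))⟩

variable {N E n S}

/-- Galois on eigenclasses satisfies the relations of `E[2ⁿ]`. -/
theorem relAt_eigTwoPowRep (hE : Companion E) (hn : n ≠ 0)
    (hS : ∀ ℓ : ℕ, ℓ.Prime → ℓ ∣ 2 * N → ℓ ∈ S) (g : Γℚ) :
    RelAt (rep hE.Δ_ne_zero n g, eigTwoPowRep N E n S g) := by
  refine Density.forall_of_frobenius ((rep hE.Δ_ne_zero n).prod (eigTwoPowRep N E n S))
    (Density.galoisFactorsThroughFiniteLevel_prod (rep_finiteLevel hE.Δ_ne_zero n)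
      (eigTwoPowRep_factors N E n S)) (S ∪ E.Δ.natAbs.primeFactors) RelAt (fun m k h => h.pow k)
    ?_ g
  intro ℓ hℓ hℓS A hA τ hτ
  rw [Finset.mem_union, not_or, Nat.mem_primeFactors] at hℓS
  have hgood : ¬ (ℓ : ℤ) ∣ E.Δ := fun hd =>
    hℓS.2 ⟨hℓ, Int.natCast_dvd.mp hd, Int.natAbs_ne_zero.mpr hE.Δ_ne_zero⟩
  have hℓ2 : ℓ ≠ 2 := fun h => hℓS.1 (hS ℓ hℓ (h ▸ dvd_mul_right 2 N))
  have hℓN : ¬ ℓ ∣ N := fun h => hℓS.1 (hS ℓ hℓ (h.trans (dvd_mul_left N 2)))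
  have hℓp : ¬ ℓ ∣ 2 ^ n := fun h =>
    hℓ2 ((Nat.prime_dvd_prime_iff_eq hℓ Nat.prime_two).mp (hℓ.dvd_of_dvd_pow h))
  obtain ⟨hdet, htr⟩ := hE.det_trace_rep_frobenius hn hℓ hℓ2 hgood hA hτ
  show eigTwoPowRep N E n S τ * eigTwoPowRep N E n S τ -
    (rep hE.Δ_ne_zero n τ).trace • eigTwoPowRep N E n S τ +
      (rep hE.Δ_ne_zero n τ).det • (1 : Module.End (ZMod (2 ^ n)) (eigTwoPow N E n S)) = 0
  rw [hdet, htr]
  refine LinearMap.ext fun x => ?_
  have hx : (2 ^ n) • ((x : JTors N (2 ^ n)) : JZero N) = 0 := by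
    have := Pic0.mem_torsion.1 (x : JTors N (2 ^ n)).2
    rwa [natCast_zsmul] at this
  have h := FLTA.Congruence.frobenius_quadratic_torsion hℓ hℓN hA hℓp hτ hx
  rw [← coe_eigTwoPowRep, (eigTwoPowRep N E n S τ x).2 ⟨ℓ, hℓ⟩ hℓS.1] at h
  have key : eigTwoPowRep N E n S τ (eigTwoPowRep N E n S τ x) -
      (E.apOfModel ℓ : ℤ) • eigTwoPowRep N E n S τ x + (ℓ : ℤ) • x = 0 :=
    Subtype.ext (Subtype.ext h)
  simpa only [LinearMap.add_apply, LinearMap.sub_apply, Module.End.mul_apply, LinearMap.smul_apply,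
    Module.End.one_apply, LinearMap.zero_apply, Int.cast_smul_eq_zsmul, Nat.cast_smul_eq_nsmul,
    natCast_zsmul] using key

/-- A commutator of transvections. -/
theorem exists_commutator (hE : Companion E) (hn : n ≠ 0) :
    ∃ g h : Γℚ, IsUnit ((rep hE.Δ_ne_zero n (g * h * g⁻¹ * h⁻¹)).trace - 2) ∧
      rep hE.Δ_ne_zero n g = !![1, 1; 0, 1] ∧ rep hE.Δ_ne_zero n h = !![1, 0; 1, 1] := by
  obtain ⟨g, hg⟩ := hE.exists_rep_eq hn (M := !![1, 1; 0, 1]) (by simp [Matrix.det_fin_two])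
  obtain ⟨h, hh⟩ := hE.exists_rep_eq hn (M := !![1, 0; 1, 1]) (by simp [Matrix.det_fin_two])
  have hinv : ∀ (u : Γℚ) (V : Matrix (Fin 2) (Fin 2) (ZMod (2 ^ n))),
      rep hE.Δ_ne_zero n u * V = 1 → rep hE.Δ_ne_zero n u⁻¹ = V := fun u V huV =>
    left_inv_eq_right_inv (by rw [← map_mul, inv_mul_cancel, map_one]) huV
  have hg' : rep hE.Δ_ne_zero n g⁻¹ = !![1, -1; 0, 1] := hinv g _ (by
    rw [hg]; ext i j; fin_cases i <;> fin_cases j <;> simp)
  have hh' : rep hE.Δ_ne_zero n h⁻¹ = !![1, 0; -1, 1] := hinv h _ (by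
    rw [hh]; ext i j; fin_cases i <;> fin_cases j <;> simp)
  refine ⟨g, h, ?_, hg, hh⟩
  rw [map_mul, map_mul, map_mul, hg, hh, hg', hh',
    show (!![1, 1; 0, 1] * !![1, 0; 1, 1] * !![1, -1; 0, 1] * !![1, 0; -1, 1] :
      Matrix (Fin 2) (Fin 2) (ZMod (2 ^ n))).trace - 2 = 1 by
      simp [Matrix.trace_fin_two, Matrix.mul_apply]; ring]
  exact isUnit_one

/-- Every matrix is the first component of a pair. -/
theorem exists_mem_pairs (hE : Companion E) (hn : n ≠ 0) {B : Type*} [Ring B]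
    [Algebra (ZMod (2 ^ n)) B] (τ : Γℚ →* B) (P : Matrix (Fin 2) (Fin 2) (ZMod (2 ^ n))) :
    ∃ b : B, (P, b) ∈ pairs (rep hE.Δ_ne_zero n) τ := by
  obtain ⟨g, h, -, hg, hh⟩ := exists_commutator hE hn
  set V := pairs (rep hE.Δ_ne_zero n) τ
  let V₁ : Submodule (ZMod (2 ^ n)) (Matrix (Fin 2) (Fin 2) (ZMod (2 ^ n))) :=
    V.map (LinearMap.fst _ _ B)
  suffices hP : P ∈ V₁ by
    obtain ⟨⟨P', b⟩, hb, rfl⟩ := hP
    exact ⟨b, hb⟩
  have hrep : ∀ u, rep hE.Δ_ne_zero n u ∈ V₁ := fun u => ⟨_, mem_pairs u, rfl⟩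
  have hmul : ∀ x ∈ V₁, ∀ y ∈ V₁, x * y ∈ V₁ := by
    rintro _ ⟨x, hx, rfl⟩ _ ⟨y, hy, rfl⟩
    exact ⟨x * y, mul_mem_pairs hx hy, rfl⟩
  have h1 : (1 : Matrix (Fin 2) (Fin 2) (ZMod (2 ^ n))) ∈ V₁ :=
    map_one (rep hE.Δ_ne_zero n) ▸ hrep 1
  have h01 : !![0, 1; 0, 0] ∈ V₁ := by
    have := V₁.sub_mem (hrep g) h1
    rwa [hg, Matrix.one_fin_two, show (!![1, 1; 0, 1] - !![1, 0; 0, 1] :
      Matrix (Fin 2) (Fin 2) (ZMod (2 ^ n))) = !![0, 1; 0, 0] by
        ext i j; fin_cases i <;> fin_cases j <;> simp] at this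
  have h10 : !![0, 0; 1, 0] ∈ V₁ := by
    have := V₁.sub_mem (hrep h) h1
    rwa [hh, Matrix.one_fin_two, show (!![1, 0; 1, 1] - !![1, 0; 0, 1] :
      Matrix (Fin 2) (Fin 2) (ZMod (2 ^ n))) = !![0, 0; 1, 0] by
        ext i j; fin_cases i <;> fin_cases j <;> simp] at this
  have e : P = P 0 0 • (!![0, 1; 0, 0] * !![0, 0; 1, 0]) + P 0 1 • !![0, 1; 0, 0] +
      P 1 0 • !![0, 0; 1, 0] + P 1 1 • (!![0, 0; 1, 0] * !![0, 1; 0, 0]) := by
    ext i j; fin_cases i <;> fin_cases j <;> simp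
  rw [e]
  exact add_mem (add_mem (add_mem (V₁.smul_mem _ (hmul _ h01 _ h10)) (V₁.smul_mem _ h01))
    (V₁.smul_mem _ h10)) (V₁.smul_mem _ (hmul _ h10 _ h01))

/-- A matrix of unit determinant which is not `1` mod `2` has a commutator spreading to a unit
scalar. -/
theorem exists_unit_commutator (hn : n ≠ 0) {P : Matrix (Fin 2) (Fin 2) (ZMod (2 ^ n))}
    (hdet : IsUnit P.det) (hP : P.map (mod2 hn) ≠ 1) :
    ∃ (d : ZMod (2 ^ n)) (X Y : Matrix (Fin 2) (Fin 2) (ZMod (2 ^ n))), IsUnit d ∧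
      X * (P * Y - Y * P) + (P * Y - Y * P) * X = d • 1 := by
  have hunit : ∀ x : ZMod (2 ^ n), mod2 hn x ≠ 0 → IsUnit x := fun x hx =>
    isUnit_of_mod2 hn x (by
      generalize mod2 hn x = y at hx
      revert hx; revert y; decide)
  by_cases h01 : mod2 hn (P 0 1) = 0
  swap
  · refine ⟨-P 0 1, !![0, 0; 1, 0], !![1, 0; 0, 0], (hunit _ h01).neg, ?_⟩
    rw [Matrix.eta_fin_two P]
    ext i j; fin_cases i <;> fin_cases j <;> simp
  by_cases h10 : mod2 hn (P 1 0) = 0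
  swap
  · refine ⟨P 1 0, !![0, 1; 0, 0], !![1, 0; 0, 0], hunit _ h10, ?_⟩
    rw [Matrix.eta_fin_two P]
    ext i j; fin_cases i <;> fin_cases j <;> simp
  refine absurd ?_ hP
  have hd : mod2 hn (P 0 0) * mod2 hn (P 1 1) = 1 := by
    have h := hdet.map (mod2 hn)
    rw [Matrix.det_fin_two, map_sub, map_mul, map_mul, h01, zero_mul, sub_zero] at h
    generalize mod2 hn (P 0 0) * mod2 hn (P 1 1) = y at h ⊢
    revert h; revert y; decide
  have key : ∀ a b : ZMod 2, a * b = 1 → a = 1 ∧ b = 1 := by decide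
  obtain ⟨ha, hb⟩ := key _ _ hd
  ext i j; fin_cases i <;> fin_cases j <;> simp [h01, h10, ha, hb]

variable {M q : ℕ} [NeZero M] [NeZero q] [hq : Fact q.Prime]
  {A : ValuationSubring (AlgebraicClosure ℚ)}

/-- An eigenclass of order `2ⁿ` has an inertia-fixed conjugate whose multiple of order two is not
toric. -/
theorem exists_fixed_nontoric (hE : Companion E) (hn : n ≠ 0) (hcq : ConjPrime E n q)
    (hA : A.LiesOverPrime q) (hqM : ¬ q ∣ M)
    [CharP (ResidueField A) q] [PerfectRing (ResidueField A) q]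
    (hS : ∀ ℓ : ℕ, ℓ.Prime → ℓ ∣ 2 * (M * q) → ℓ ∈ S) {x : JZero (M * q)} (hx : 2 ^ n • x = 0)
    (hx1 : 2 ^ (n - 1) • x ≠ 0)
    (heig : ∀ ℓ : Nat.Primes, (ℓ : ℕ) ∉ S →
      heckeOperatorBar (M * q) ℓ x = E.apOfModel ℓ • x) :
    ∃ σ : Γℚ, (∀ g ∈ A.inertiaSubgroupIn ℚ, g • σ • x = σ • x) ∧
      ¬ (BadRed.badFibre M q A hA hqM).IsToric 2 (2 ^ (n - 1) • σ • x) := by
  classical
  haveI := FLTA.Galois.isAlgClosed_residueField A
  set ρ := rep hE.Δ_ne_zero n with hρdef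
  obtain ⟨τ, hτdef⟩ : ∃ t : Γℚ →* Module.End (ZMod (2 ^ n)) (eigTwoPow (M * q) E n S),
      t = eigTwoPowRep (M * q) E n S := ⟨_, rfl⟩
  have hrel : ∀ g, RelAt (ρ g, τ g) := hτdef ▸ relAt_eigTwoPowRep hE hn hS
  obtain ⟨g₀, h₀, hu, -, -⟩ := exists_commutator hE hn
  let X : eigTwoPow (M * q) E n S :=
    ⟨⟨x, Pic0.mem_torsion.2 (by rw [natCast_zsmul]; exact hx)⟩, heig⟩
  let J : eigTwoPow (M * q) E n S →+ JZero (M * q) :=
    { toFun := fun y => ((y : JTors (M * q) (2 ^ n)) : JZero (M * q))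
      map_zero' := rfl
      map_add' := fun _ _ => rfl }
  have hJ : ∀ g y, J (τ g y) = g • J y := by subst hτdef; exact fun g y => rfl
  -- inertia fixes every eigenclass
  have hinert : ∀ g ∈ A.inertiaSubgroupIn ℚ, ∀ y, τ g y = y := by
    intro g hg y
    have h1 : ρ g = 1 := by
      refine Matrix.ext_of_mulVec_single fun i => ?_
      obtain ⟨P, hP⟩ := (torsEquiv hE.Δ_ne_zero n).surjective (Pi.single i 1)
      rw [← hP, Matrix.one_mulVec, ← torsEquiv_smul]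
      refine congrArg _ (Subtype.ext ?_)
      exact FLTA.EllReduction.smul_eq_of_good hq.out hA hcq.good
        (fun h => hcq.ne_two ((Nat.prime_dvd_prime_iff_eq hq.out Nat.prime_two).mp
          (hq.out.dvd_of_dvd_pow h))) hg (mem_tors.mp P.2)
    have h2 := eq_of_mem_pairs hrel hu (mem_pairs g) (mem_pairs (1 : Γℚ))
      (by show ρ g = ρ 1; rw [h1, map_one])
    exact (LinearMap.congr_fun h2 y).trans (LinearMap.congr_fun (map_one τ) y)
  suffices h : ∃ σ : Γℚ, ¬ (BadRed.badFibre M q A hA hqM).IsToric 2 (2 ^ (n - 1) • σ • x) by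
    obtain ⟨σ, hσ⟩ := h
    refine ⟨σ, fun g hg => ?_, hσ⟩
    have h := congrArg J (hinert g hg (τ σ X))
    rw [hJ, hJ] at h
    exact h
  by_contra! hall
  obtain ⟨φ, hφ⟩ := FLTA.Galois.exists_isFrobeniusAt hq.out hA
  obtain ⟨s, hs, hsF⟩ := BadRed.exists_frobSym M q A hA hqM hφ
  set w := (BadRed.badFibre M q A hA hqM).wAut with hwdef
  have hq2 : ((2 : ℕ) : ResidueField A) ≠ 0 := by
    rw [Ne, CharP.cast_eq_zero_iff (ResidueField A) q, Nat.prime_dvd_prime_iff_eq hq.out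
      Nat.prime_two]
    exact hcq.ne_two
  set Z := 2 ^ (n - 1) • X with hZdef
  have hZ : ∀ g, J (τ g Z) = 2 ^ (n - 1) • g • x := fun g => by
    rw [hZdef, map_nsmul, map_nsmul, hJ]; rfl
  have htwo : ∀ g : Γℚ, 2 • (2 ^ (n - 1) • g • x) = 0 := fun g => by
    rw [← mul_nsmul', ← pow_succ', Nat.sub_add_cancel (Nat.pos_of_ne_zero hn)]
    exact Congruence.nsmul_smul_eq_zero hx
  have hkey : ∀ g : Γℚ, φ • J (τ g Z) = w • J (τ g Z) := fun g => by
    rw [hZ]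
    have h := (BadRed.badFibre M q A hA hqM).frob_smul_of_isToric hq2 s hsF (hall g)
    rw [hs, ← galois_smul_pic0_def] at h
    rw [h]
    have h2 : 2 • (w • (2 ^ (n - 1) • g • x)) = 0 :=
      (map_nsmul (DistribSMul.toAddMonoidHom (Pic0 Qb (modularFunctionFieldBar (M * q))) w) 2
        _).symm.trans ((congrArg (w • ·) (htwo g)).trans
          (smul_zero (A := Pic0 Qb (modularFunctionFieldBar (M * q))) w))
    have h3 : q • (w • (2 ^ (n - 1) • g • x)) = w • (2 ^ (n - 1) • g • x) := by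
      obtain ⟨k, hk⟩ := hq.out.odd_of_ne_two hcq.ne_two
      refine (congrArg (fun m : ℕ => m • (w • (2 ^ (n - 1) • g • x))) hk).trans ?_
      show (2 * k + 1) • _ = _
      rw [add_nsmul, one_nsmul, mul_comm 2 k, mul_nsmul', h2, nsmul_zero, zero_add]
    rw [h3, neg_eq_iff_add_eq_zero, ← two_nsmul]
    exact h2
  -- `φ` commutes with Galois on the orbit of `Z`
  have hinj : Function.Injective J := fun y z h => Subtype.ext (Subtype.ext h)
  have hcomm := comm_of_orbit (τ := τ) (⇑J) hinj hJ (fun z => w • z)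
    (fun g z => RT.wAut_smul_galois hA hqM g z) hkey
  have hne : (ρ φ).map (mod2 hn) ≠ 1 := fun h => by
    obtain ⟨P, hP⟩ := exists_frobenius_smul_ne_two hE hq.out hcq.ne_two hcq.good hcq.nonsquare hA hφ
    exact hP (Subtype.ext ((map_mod2_rep_eq_one_iff hE.Δ_ne_zero hn φ).mp h P.1
      (congrArg Subtype.val (two_nsmul_tors2 P))))
  obtain ⟨d, PX, PY, hd, hdXY⟩ := exists_unit_commutator hn (isUnit_det_rep hE.Δ_ne_zero n φ) hne
  obtain ⟨bX, hbX⟩ := exists_mem_pairs hE hn τ PX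
  obtain ⟨bY, hbY⟩ := exists_mem_pairs hE hn τ PY
  have e := hd.smul_eq_zero.mp (smul_eq_zero_of_commute hrel hu hcomm hbX hbY hdXY)
  refine hx1 ((map_nsmul J _ X).symm.trans ?_)
  exact (congrArg J e).trans (map_zero J)

end FLTA.LT2

end
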