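import Fermat.Agent.LT2.MazurNodeLoss
import Fermat.Agent.RT.MazurEta

/-!
# Reduced orders modulo `2 ^ n` for the fibres of squarefree odd level, `q ≡ 3 (mod 4)`

The eta quotient has valuation difference `-12` and orders `± (q - 1) B`, `B ∣ M` odd, at the
unglued cusps: the loss is `4`.
-/

set_option autoImplicit false
set_option synthInstance.maxHeartbeats 400000
set_option maxHeartbeats 800000

noncomputable section

open AlgebraicCurve ModularCurve IsLocalRing

namespace FLTA.LT2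

theorem gcd_two_pow_dvd_two {a : ℤ} (ha : Odd a) (n : ℕ) :
    (Int.gcd (2 * a) ((2 ^ n : ℕ) : ℤ) : ℤ) ∣ 2 := by
  obtain ⟨b, rfl⟩ := ha
  have hcop : IsCoprime (((2 ^ n : ℕ) : ℤ)) (2 * b + 1) := by
    push_cast
    exact IsCoprime.pow_left ⟨-b, 1, by ring⟩
  have h := Int.gcd_dvd_left (2 * (2 * b + 1)) ((2 ^ n : ℕ) : ℤ)
  exact (hcop.of_isCoprime_of_dvd_left (Int.gcd_dvd_right _ _)).dvd_of_dvd_mul_right h

variable (M q : ℕ) [NeZero M] [NeZero q] [hq : Fact q.Prime]
  (A : ValuationSubring (AlgebraicClosure ℚ)) (hA : A.LiesOverPrime q) (hqM : ¬ q ∣ M)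
  [CharP (ResidueField A) q] [PerfectRing (ResidueField A) q]

/-- The eta quotient as input modulo `2 ^ n`, with loss `4`. -/
theorem exists_etaLoss (hsq : Squarefree (M * q)) (hM : Odd M) (hq4 : q % 4 = 3) (n : ℕ) :
    Nonempty (EtaLoss (BadRed.badFibre M q A hA hqM) (RT.inertiaSys M q A hA hqM) (2 ^ n) 4) := by
  classical
  obtain ⟨T⟩ := RT.nonempty_etaCusps M q A hA hqM hsq
  refine ⟨⟨RT.etaH M q, -12, RT.fixed_etaH M q A hA hqM,
    (Finset.univ ×ˢ M.divisors.erase 1).image fun x : Fin 2 × ℕ => T.v x.1 x.2,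
    fun w h0 h1 hw => ?_, RT.diffVal_etaH M q A hA hqM,
    fun _ => (M.divisors.erase 1).image T.u, ?_, fun i u hu => ?_, ?_, ?_, fun dH i u hu => ?_⟩⟩
  · rw [T.ord_eq_zero w h0 h1 fun i B hB h => hw (Finset.mem_image.mpr
      ⟨(i, B), Finset.mem_product.mpr ⟨Finset.mem_univ i, hB⟩, h.symm⟩)]
    exact dvd_zero _
  · refine Finset.card_image_le.trans ?_
    rw [Finset.card_product, Finset.card_univ, Fintype.card_fin, two_mul,
      Finset.card_image_of_injOn fun B hB B' hB' h => T.u_inj B hB B' hB' h]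
  · obtain ⟨B, hB, rfl⟩ := Finset.mem_image.mp hu
    exact T.ne_infk B hB
  · intro S m₀ hS i u hu
    obtain ⟨B, hB, rfl⟩ := Finset.mem_image.mp hu
    exact T.not_node S m₀ hS i B hB
  · have h : IsCoprime (((2 ^ n : ℕ) : ℤ)) 3 := by
      push_cast
      exact IsCoprime.pow_left ⟨-1, 1, by norm_num⟩
    have h1 : (Int.gcd (-12) ((2 ^ n : ℕ) : ℤ) : ℤ) ∣ 3 * 4 := by
      rw [show (3 : ℤ) * 4 = -(-12) by norm_num, dvd_neg]
      exact Int.gcd_dvd_left _ _
    exact (h.of_isCoprime_of_dvd_left (Int.gcd_dvd_right _ _)).dvd_of_dvd_mul_left h1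
  · obtain ⟨B, hB, rfl⟩ := Finset.mem_image.mp hu
    have hBodd : Odd (B : ℤ) := (Int.odd_coe_nat B).mpr
      (hM.of_dvd_nat (Nat.dvd_of_mem_divisors (Finset.mem_of_mem_erase hB)))
    have hq1 : Odd (((q / 2 : ℕ) : ℤ)) := (Int.odd_coe_nat _).mpr (Nat.odd_iff.mpr (by omega))
    have hval : ((q : ℤ) - 1) * B = 2 * (((q / 2 : ℕ) : ℤ) * B) := by
      rw [← mul_assoc]
      congr 1
      omega
    have key := gcd_two_pow_dvd_two (hq1.mul hBodd) n
    rw [← hval] at key
    refine Dvd.dvd.trans ?_ (show (2 : ℤ) ∣ 4 by norm_num)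
    rcases abs_choice (Place.ord (T.u B) (dH.p i)) with h | h <;>
      rw [T.ord_u dH i B hB] at h
    · rwa [← h]
    · rw [show Place.ord (T.u B) (dH.p i) = -(((q : ℤ) - 1) * B) by rw [h, neg_neg],
        Int.neg_gcd]
      exact key

omit hq [NeZero M] [NeZero q] A hA hqM [CharP (ResidueField A) q]
  [PerfectRing (ResidueField A) q] in
/-- **Reduced orders modulo `2 ^ n` with bounded loss.** -/
theorem exists_redDvd_loss : ∃ c₀ : ℕ, ∀ (M q : ℕ) [NeZero M] [NeZero q] [Fact q.Prime],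
    Squarefree M → Odd M → q % 4 = 3 →
    ∀ (A : ValuationSubring (AlgebraicClosure ℚ)) (hA : A.LiesOverPrime q) (hqM : ¬ q ∣ M)
      [CharP (ResidueField A) q] [PerfectRing (ResidueField A) q] (n : ℕ)
      (f : modularFunctionFieldBar (M * q)), (RT.inertiaSys M q A hA hqM).Fixed f →
      (∀ v : Place (AlgebraicClosure ℚ) (modularFunctionFieldBar (M * q)),
        (2 : ℤ) ^ n ∣ v.ord f) →
      ∀ (d : (BadRed.badFibre M q A hA hqM).ScaledRed f) (vf : ℤ),
        (BadRed.badFibre M q A hA hqM).DiffVal f vf → (2 : ℤ) ^ n ∣ vf →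
        ∀ (i : Fin 2) (v : Place (ResidueField A) (modularFunctionFieldFullC (ResidueField A) M)),
          (2 : ℤ) ^ n ∣ 2 ^ c₀ * v.ord (d.p i) := by
  refine ⟨2, fun M q _ _ _ hsqM hM hq4 A hA hqM _ _ n f hfix hdvd d vf hvf hnvf i v => ?_⟩
  have hsq : Squarefree (M * q) := (Nat.squarefree_mul
    ((Fact.out : q.Prime).coprime_iff_not_dvd.mpr hqM).symm).mpr
      ⟨hsqM, (Fact.out : q.Prime).squarefree⟩
  have : IsAlgClosed (ResidueField A) := FLTA.Galois.isAlgClosed_residueField A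
  obtain ⟨E⟩ := exists_etaLoss M q A hA hqM hsq hM hq4 n
  obtain ⟨S, m₀, hS⟩ := (BadRed.badFibre M q A hA hqM).exists_isGluing
  have hnk : ((2 ^ n : ℕ) : ResidueField A) ≠ 0 := by
    rw [Ne, CharP.cast_eq_zero_iff (ResidueField A) q]
    intro h
    have h2 := (Nat.prime_dvd_prime_iff_eq (Fact.out : q.Prime) Nat.prime_two).mp
      ((Fact.out : q.Prime).dvd_of_dvd_pow h)
    omega
  have h := dvd_mul_ord_red hS hnk E hfix (fun w => by exact_mod_cast hdvd w) d hvf
    (by exact_mod_cast hnvf) i v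
  norm_num at h ⊢
  exact h

end FLTA.LT2
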