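import Fermat.Agent.LT2.MazurStepFixed
import Fermat.Agent.LT2.MazurRedLoss
import Fermat.Agent.LT2.MazurOrbit
import Fermat.Agent.Congruence.Frobenius

/-! # Part H: Mazur's principle mod `2ⁿ` -/

set_option autoImplicit false
set_option synthInstance.maxHeartbeats 400000

open AlgebraicCurve ModularCurve IsLocalRing FLTA.LT2.Image

namespace FLTA.LT2

variable {E : WeierstrassCurve ℤ}

/-- Some prime outside any finite set has odd trace. -/
theorem exists_odd_trace (hE : Companion E) (S : Finset ℕ) :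
    ∃ l : ℕ, l.Prime ∧ l ≠ 2 ∧ l ∉ S ∧ Odd (E.apOfModel l) := by
  by_contra! hall
  obtain ⟨g, hg⟩ := hE.exists_rep_eq one_ne_zero (M := !![0, -1; 1, -1])
    (by simp [Matrix.det_fin_two])
  have h := Density.forall_of_frobenius (rep hE.Δ_ne_zero 1) (rep_finiteLevel hE.Δ_ne_zero 1)
    (S ∪ insert 2 E.Δ.natAbs.primeFactors) (fun m => ∀ k, (m ^ k).trace = 0)
    (fun m k h j => by rw [← pow_mul]; exact h _) ?_ g 1
  · rw [pow_one (rep hE.Δ_ne_zero 1 g), hg] at h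
    revert h
    decide
  intro ℓ hℓ hℓS A hA τ hτ
  rw [Finset.mem_union, Finset.mem_insert, not_or, not_or, Nat.mem_primeFactors] at hℓS
  have hgood : ¬ (ℓ : ℤ) ∣ E.Δ := fun hd =>
    hℓS.2.2 ⟨hℓ, Int.natCast_dvd.mp hd, Int.natAbs_ne_zero.mpr hE.Δ_ne_zero⟩
  obtain ⟨-, htr⟩ := hE.det_trace_rep_frobenius one_ne_zero hℓ hℓS.2.1 hgood hA hτ
  have hev : (E.apOfModel ℓ : ZMod (2 ^ 1)) = 0 := by
    refine (ZMod.intCast_zmod_eq_zero_iff_dvd _ _).mpr ?_
    simpa using (Int.not_odd_iff_even.mp (hall ℓ hℓ hℓS.2.1 hℓS.1)).two_dvd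
  have h0 : (rep hE.Δ_ne_zero 1 τ).trace = 0 := htr.trans hev
  generalize rep hE.Δ_ne_zero 1 τ = P at h0
  have hrec : ∀ P : Matrix (Fin 2) (Fin 2) (ZMod 2), P.trace = 0 → ∀ k : ℕ,
      P ^ k = 1 ∨ P ^ k = P ∨ P ^ k = 0 := by
    intro P hP
    have hcases : ∀ P : Matrix (Fin 2) (Fin 2) (ZMod 2), P.trace = 0 →
        P * P = 1 ∨ P * P = 0 := by decide
    intro k
    induction k with
    | zero => exact Or.inl (pow_zero _)
    | succ k ih =>
      rcases ih with e | e | e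
      · exact Or.inr (Or.inl (by rw [pow_succ, e, one_mul]))
      · rcases hcases P hP with e' | e'
        · exact Or.inl (by rw [pow_succ, e, e'])
        · exact Or.inr (Or.inr (by rw [pow_succ, e, e']))
      · exact Or.inr (Or.inr (by rw [pow_succ, e, zero_mul]))
  intro k
  rcases hrec P h0 k with e | e | e <;> erw [e]
  · decide
  · exact h0
  · exact Matrix.trace_zero _ _

theorem exists_mazur_step {E : WeierstrassCurve ℤ} (hE : Companion E) :
    ∃ c : ℕ, ∀ (n M q : ℕ) (S : Finset ℕ), Squarefree (M * q) → E.conductorLevel ∣ M →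
      Odd (M * q) → ConjPrime E n q → (2 * (M * q)).primeFactors ⊆ S →
      TorsCong E (M * q) n S → TorsCong E M (n - c) S := by
  obtain ⟨c₀, hc₀⟩ := exists_redDvd_loss
  refine ⟨c₀ + 2, fun n M q S hsq _ hodd hcq hS ⟨hne, x, hx, hT⟩ => ?_⟩
  have hMq : M * q ≠ 0 := hne.out
  haveI : NeZero M := ⟨left_ne_zero_of_mul hMq⟩
  haveI : NeZero q := ⟨right_ne_zero_of_mul hMq⟩
  haveI : Fact q.Prime := ⟨hcq.prime⟩
  rcases lt_or_ge n 2 with hn | hn
  · rw [Nat.sub_eq_zero_of_le (by omega)]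
    exact torsCong_zero S
  obtain ⟨hco, hsqM, -⟩ := Nat.squarefree_mul_iff.mp hsq
  have hqM : ¬ q ∣ M := hcq.prime.coprime_iff_not_dvd.mp hco.symm
  have hq4 : q % 4 = 3 := by
    have h4 : 2 ^ 2 ∣ q + 1 := (pow_dvd_pow 2 hn).trans hcq.dvd_succ
    omega
  obtain ⟨A, hA⟩ := Galois.exists_liesOverPrime hcq.prime
  haveI := FLTA.Galois.charP_residueField hcq.prime hA
  haveI := FLTA.Congruence.perfectRing_residueField hcq.prime hA
  have hS' : ∀ ℓ : ℕ, ℓ.Prime → ℓ ∣ 2 * (M * q) → ℓ ∈ S := fun ℓ hℓ h =>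
    hS (Nat.mem_primeFactors.mpr ⟨hℓ, h, mul_ne_zero two_ne_zero hMq⟩)
  have hxn : 2 ^ n • x = 0 := by rw [← hx]; exact addOrderOf_nsmul_eq_zero x
  have hx1 : 2 ^ (n - 1) • x ≠ 0 := fun h => by
    have h' := addOrderOf_dvd_of_nsmul_eq_zero h
    rw [hx, Nat.pow_dvd_pow_iff_le_right one_lt_two] at h'
    omega
  obtain ⟨σ, hfix, hnt⟩ := exists_fixed_nontoric hE (by omega) hcq hA hqM hS' hxn hx1 hT
  have h := torsCong_of_fixed hA hqM
    (hc₀ M q hsqM (hodd.of_dvd_nat (dvd_mul_right M q)) hq4 A hA hqM) hcq.ne_two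
    (fun ℓ hℓ h => hS' ℓ hℓ (h.trans (dvd_mul_left _ 2))) (exists_odd_trace hE S)
    (Congruence.nsmul_smul_eq_zero hxn) hfix
    (fun ℓ hℓ => by
      rw [← FLTA.GaloisReps.heckeOperatorBar_galois, hT ℓ hℓ]
      exact map_zsmul (DistribSMul.toAddMonoidHom (JZero (M * q)) σ) _ _) hnt
  obtain ⟨hM, y, hy, hyT⟩ := h
  refine ⟨hM, 2 ^ (n - c₀ - (n - (c₀ + 2))) • y, ?_, fun ℓ hℓ => ?_⟩
  · rw [addOrderOf_nsmul' _ (pow_ne_zero _ two_ne_zero), hy,
      Nat.gcd_eq_right (pow_dvd_pow 2 (Nat.sub_le _ _)),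
      Nat.pow_div (Nat.sub_le _ _) Nat.zero_lt_two, Nat.sub_sub_self (by omega)]
  · rw [map_nsmul, hyT ℓ hℓ]
    exact smul_comm _ _ _

end FLTA.LT2
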