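import Fermat.Agent.RepTheory.DVRExtension
import Mathlib.Algebra.QuadraticAlgebra.Basic
import Mathlib.Algebra.CharP.Two
import Mathlib.Algebra.Field.ZMod

/-!
# The coefficients of part G: the unramified quadratic extension of `ℤ_[2]`
-/

set_option autoImplicit false

noncomputable section

open IsLocalRing

namespace FLTA.LT2.PatchG

/-- `ℤ_[2][ω]` with `ω ^ 2 + ω + 1 = 0`. -/
abbrev coeffRing : Type := QuadraticAlgebra ℤ_[2] (-1) (-1)

theorem toZMod_eq_zero_iff (r : ℤ_[2]) : PadicInt.toZMod r = 0 ↔ (2 : ℤ_[2]) ∣ r := by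
  rw [← RingHom.mem_ker, PadicInt.ker_toZMod, PadicInt.maximalIdeal_eq_span_p,
    Ideal.mem_span_singleton]
  norm_num

theorem two_dvd_of_toZMod_norm {z : coeffRing} (h : PadicInt.toZMod (QuadraticAlgebra.norm z) = 0) :
    (2 : ℤ_[2]) ∣ z.re ∧ (2 : ℤ_[2]) ∣ z.im := by
  simp only [← toZMod_eq_zero_iff]
  simp only [QuadraticAlgebra.norm_def, map_add, map_sub, map_mul, map_neg, map_one] at h
  revert h
  generalize (PadicInt.toZMod z.re : ZMod 2) = a, (PadicInt.toZMod z.im : ZMod 2) = b
  revert a b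
  decide

theorem two_pow_dvd_of_norm_eq_zero : ∀ (n : ℕ) (z : coeffRing), QuadraticAlgebra.norm z = 0 →
    (2 : ℤ_[2]) ^ n ∣ z.re ∧ (2 : ℤ_[2]) ^ n ∣ z.im := by
  intro n
  induction n with
  | zero => intro z _; simp
  | succ n ih =>
    intro z hz
    obtain ⟨⟨r, hr⟩, ⟨i, hi⟩⟩ := two_dvd_of_toZMod_norm (by rw [hz, map_zero])
    have h0 : QuadraticAlgebra.norm (⟨r, i⟩ : coeffRing) = 0 := by
      rw [QuadraticAlgebra.norm_def, hr, hi] at hz
      rw [QuadraticAlgebra.norm_def]
      have h4 : (4 : ℤ_[2]) * (r * r + (-1) * r * i - (-1) * i * i) = 0 := by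
        linear_combination hz
      exact (mul_eq_zero.mp h4).resolve_left (by norm_num)
    obtain ⟨h1, h2⟩ := ih ⟨r, i⟩ h0
    rw [hr, hi, pow_succ']
    exact ⟨mul_dvd_mul_left 2 h1, mul_dvd_mul_left 2 h2⟩

theorem eq_zero_of_norm_eq_zero {z : coeffRing} (hz : QuadraticAlgebra.norm z = 0) : z = 0 := by
  have key : ∀ x : ℤ_[2], (∀ n : ℕ, (2 : ℤ_[2]) ^ n ∣ x) → x = 0 := fun x hx => by
    refine PadicInt.ext_of_toZModPow.mp fun n => ?_
    rw [map_zero, ← RingHom.mem_ker, PadicInt.ker_toZModPow, Ideal.mem_span_singleton]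
    exact_mod_cast hx n
  refine QuadraticAlgebra.ext ?_ ?_
  · exact key _ fun n => (two_pow_dvd_of_norm_eq_zero n z hz).1
  · exact key _ fun n => (two_pow_dvd_of_norm_eq_zero n z hz).2

instance isDomain_coeffRing : IsDomain coeffRing :=
  have : NoZeroDivisors coeffRing := ⟨fun {x y} h => by
    have h0 : QuadraticAlgebra.norm x * QuadraticAlgebra.norm y = 0 := by
      rw [← map_mul, h, QuadraticAlgebra.norm_zero]
    exact (mul_eq_zero.mp h0).imp eq_zero_of_norm_eq_zero eq_zero_of_norm_eq_zero⟩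
  NoZeroDivisors.to_isDomain _

instance isLocalRing_coeffRing : IsLocalRing coeffRing :=
  have := RepTheory.finite_residueField_padicInt 2
  RepTheory.isLocalRing_of_domain_finite ℤ_[2] coeffRing

theorem algebraMap_coeffRing_injective : Function.Injective (algebraMap ℤ_[2] coeffRing) :=
  fun _ _ h => congrArg QuadraticAlgebra.re h

theorem charZero_coeffRing : CharZero coeffRing :=
  charZero_of_injective_algebraMap algebraMap_coeffRing_injective

theorem two_eq_mk : (2 : coeffRing) = ⟨2, 0⟩ := by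
  rw [← QuadraticAlgebra.algebraMap_eq, map_ofNat]

theorem omega_relation :
    (QuadraticAlgebra.omega : coeffRing) ^ 2 + QuadraticAlgebra.omega + 1 = 0 := by
  rw [sq, QuadraticAlgebra.omega_mul_omega_eq_mk]
  rw [show (1 : coeffRing) = ⟨1, 0⟩ from rfl]
  ext <;> simp

theorem maximalIdeal_coeffRing : maximalIdeal coeffRing = Ideal.span {2} := by
  refine le_antisymm (fun z hz => ?_) ?_
  · rw [mem_maximalIdeal, mem_nonunits_iff, QuadraticAlgebra.isUnit_iff_norm_isUnit] at hz
    have h0 : PadicInt.toZMod (QuadraticAlgebra.norm z) = 0 := by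
      rwa [← RingHom.mem_ker, PadicInt.ker_toZMod, mem_maximalIdeal, mem_nonunits_iff]
    obtain ⟨⟨r, hr⟩, ⟨i, hi⟩⟩ := two_dvd_of_toZMod_norm h0
    rw [Ideal.mem_span_singleton]
    exact ⟨⟨r, i⟩, QuadraticAlgebra.ext (by simp [hr, two_eq_mk]) (by simp [hi, two_eq_mk])⟩
  · rw [Ideal.span_singleton_le_iff_mem, mem_maximalIdeal, mem_nonunits_iff,
      QuadraticAlgebra.isUnit_iff_norm_isUnit]
    intro h
    have := h.map PadicInt.toZMod
    simp [QuadraticAlgebra.norm_def, two_eq_mk, map_ofNat] at this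
    exact absurd this (by decide)

theorem isDiscreteValuationRing_coeffRing : IsDiscreteValuationRing coeffRing := by
  have := charZero_coeffRing
  have : IsNoetherianRing coeffRing := isNoetherian_of_tower ℤ_[2] inferInstance
  have hnf : ¬ IsField coeffRing := by
    rw [IsLocalRing.isField_iff_maximalIdeal_eq, maximalIdeal_coeffRing,
      Ideal.span_singleton_eq_bot]
    exact two_ne_zero
  refine ((IsDiscreteValuationRing.TFAE coeffRing hnf).out 0 4).mpr ?_
  rw [maximalIdeal_coeffRing]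
  exact ⟨⟨2, rfl⟩⟩

/-- The coefficient ring of part G as a finite extension of `ℤ_[2]`. -/
def coeffExt : RepTheory.FiniteDVRExt ℤ_[2] :=
  have := RepTheory.finite_residueField_padicInt 2
  @RepTheory.FiniteDVRExt.mk ℤ_[2] _ _ coeffRing _ _ isDiscreteValuationRing_coeffRing
    (RepTheory.isAdicComplete_maximalIdeal_of_finite ℤ_[2] coeffRing)
    (RepTheory.finite_residueField_of_finite ℤ_[2] coeffRing) charZero_coeffRing _ _
    (RepTheory.isLocalHom_algebraMap_of_finite ℤ_[2] coeffRing) algebraMap_coeffRing_injective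

/-- The coefficients: an unramified extension of `ℤ_[2]` with a cube root of unity. -/
theorem exists_coeff :
    ∃ O : RepTheory.FiniteDVRExt ℤ_[2], maximalIdeal O.R = Ideal.span {2} ∧
      Nonempty (ZMod 2 →+* ResidueField O.R) ∧ ∃ ω : O.R, ω ^ 2 + ω + 1 = 0 := by
  refine ⟨coeffExt, maximalIdeal_coeffRing, ?_, QuadraticAlgebra.omega, ?_⟩
  · have h2 : residue coeffRing 2 = 0 := by
      rw [residue_eq_zero_iff, maximalIdeal_coeffRing]
      exact Ideal.mem_span_singleton_self 2
    have : CharP (ResidueField coeffRing) 2 :=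
      CharTwo.of_one_ne_zero_of_two_eq_zero one_ne_zero (by rwa [map_ofNat] at h2)
    exact ⟨ZMod.castHom (dvd_refl 2) (ResidueField coeffRing)⟩
  · exact omega_relation

end FLTA.LT2.PatchG
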