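import Fermat.Agent.RT.DeformConditions
import Fermat.Agent.RT.DeformRing

/-!
# Part G, ring side: deformation conditions at `2` with signs

`SignEqAt ρ j s` says by equations that on a decomposition group at `j` the representation is an
extension of the unramified character of sign `s` by that of value `s j`.  Together with
cyclotomic determinant, flat at `2` and unramified outside a finite set it is a deformation
condition, its universal ring exists and is generated by traces of Frobenius.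
-/

set_option autoImplicit false

noncomputable section

namespace FLTA.LT2

open IsLocalRing GaloisRep FLTA.Deformation FLTA.RT

section ProdEnd

variable {A : Type} [CommRing A] [IsLocalRing A]

/-- The product `(ρ σ - a) (ρ τ - b)`. -/
def prodEnd (ρ : GaloisRepAdic A) (σ τ : GalQ) (a b : ℤ) : Module.End A ρ.V :=
  (ρ.ρ σ - (a : A) • 1) * (ρ.ρ τ - (b : A) • 1)

theorem bcEnd_prodEnd {B : Type} [CommRing B] [IsLocalRing B] (φ : A →+* B) (hφ : IsLocalHom φ)
    (ρ : GaloisRepAdic A) (σ τ : GalQ) (a b : ℤ) :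
    bcEnd φ hφ ρ (prodEnd ρ σ τ a b) = prodEnd (ρ.baseChangeAlong φ hφ) σ τ a b := by
  simp only [prodEnd, map_mul, map_sub, bcEnd_smul, map_one, bcEnd_rho, map_intCast]

theorem prodEnd_eq_zero_of_isEquiv {ρ ρ' : GaloisRepAdic A} (h : ρ.IsEquiv ρ') {σ τ : GalQ}
    {a b : ℤ} (h0 : prodEnd ρ σ τ a b = 0) : prodEnd ρ' σ τ a b = 0 := by
  obtain ⟨e⟩ := h
  have hs : ∀ c : A, e.toLinearEquiv.conjRingEquiv (c • 1) = c • 1 := fun c =>
    LinearMap.ext fun x => by
      show e.toLinearEquiv (c • e.toLinearEquiv.symm x) = c • x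
      rw [map_smul, LinearEquiv.apply_symm_apply]
  have := congrArg e.toLinearEquiv.conjRingEquiv h0
  rw [map_zero, prodEnd, map_mul, map_sub, map_sub, trace_mul_eq_of_isEquiv,
    trace_mul_eq_of_isEquiv, hs, hs] at this
  exact this

/-- The matrix form of an equation. -/
theorem prodEnd_eq_zero_iff {ι : Type} [Fintype ι] [DecidableEq ι] (ρ : GaloisRepAdic A)
    (bas : Module.Basis ι A ρ.V) (σ τ : GalQ) (a b : ℤ) :
    prodEnd ρ σ τ a b = 0 ↔
      (LinearMap.toMatrixAlgEquiv bas (ρ.ρ σ) - (a : A) • 1) *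
        (LinearMap.toMatrixAlgEquiv bas (ρ.ρ τ) - (b : A) • 1) = 0 := by
  rw [← (LinearMap.toMatrixAlgEquiv bas).injective.eq_iff, prodEnd, map_mul, map_sub, map_sub,
    map_smul, map_smul, map_one, map_zero]

end ProdEnd

/-- An equation `(ρ σ - a) (ρ τ - b) = 0` is a closed condition. -/
theorem isClosed_prodEnd {𝒪 : Type} [CommRing 𝒪] [IsLocalRing 𝒪] [Finite (ResidueField 𝒪)]
    (σ τ : GalQ) (a b : ℤ) :
    IsClosedCond 𝒪 fun _A _ _ _ ρ => prodEnd ρ σ τ a b = 0 where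
  of_isEquiv _ _ _ _ _ _ h h0 := prodEnd_eq_zero_of_isEquiv h h0
  baseChange _ _ _ _ _ _ _ _ _ _ φ hφ ρ h := by rw [← bcEnd_prodEnd, h, map_zero]
  descend _ _ _ _ _ _ _ _ _ _ _ _ _ _ _ f g hf hg hi ρ h h' :=
    eq_zero_of_pair (hf := hf) (hg := hg) hi ρ _ (by rw [bcEnd_prodEnd]; exact h)
      (by rw [bcEnd_prodEnd]; exact h')
  limit A _ _ _ _ _ hl hs ρ h := eq_zero_of_forall_modPow ρ _ fun k => by
    haveI := isLocalRing_modPow A k
    rw [bcEnd_prodEnd]
    exact forall_modPow (P := fun _ _ _ _ r => prodEnd r σ τ a b = 0) hl hs h k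

section SignEq

variable {A : Type} [CommRing A] [IsLocalRing A]

/-- The equations at `j` of sign `s`: inertia is unipotent with image in a line on which Frobenius
is `s j`, and Frobenius is `s` on the quotient. -/
structure SignEqAt (ρ : GaloisRepAdic A) (j : ℕ) (s : ℤ) : Prop where
  inertia_inertia : ∀ P : ValuationSubring (AlgebraicClosure ℚ), P.LiesOverPrime j →
    ∀ τ ∈ P.inertiaSubgroupIn ℚ, ∀ τ' ∈ P.inertiaSubgroupIn ℚ, prodEnd ρ τ τ' 1 1 = 0
  frob_inertia : ∀ P : ValuationSubring (AlgebraicClosure ℚ), P.LiesOverPrime j →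
    ∀ σ : GalQ, P.IsFrobeniusAt σ j → ∀ τ ∈ P.inertiaSubgroupIn ℚ,
      prodEnd ρ σ τ (s * j) 1 = 0
  inertia_frob : ∀ P : ValuationSubring (AlgebraicClosure ℚ), P.LiesOverPrime j →
    ∀ σ : GalQ, P.IsFrobeniusAt σ j → ∀ τ ∈ P.inertiaSubgroupIn ℚ, prodEnd ρ τ σ 1 s = 0
  frob_frob : ∀ P : ValuationSubring (AlgebraicClosure ℚ), P.LiesOverPrime j →
    ∀ σ : GalQ, P.IsFrobeniusAt σ j → ∀ σ' : GalQ, P.IsFrobeniusAt σ' j →
      prodEnd ρ σ σ' (s * j) s = 0

variable {ρ : GaloisRepAdic A} {j : ℕ} {s : ℤ} {P : ValuationSubring (AlgebraicClosure ℚ)}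

theorem SignEqAt.of_baseChange {B : Type} [CommRing B] [IsLocalRing B] (h : SignEqAt ρ j s)
    (φ : A →+* B) (hφ : IsLocalHom φ) : SignEqAt (ρ.baseChangeAlong φ hφ) j s := by
  constructor
  · intro P hP τ hτ τ' hτ'
    rw [← bcEnd_prodEnd, h.inertia_inertia P hP τ hτ τ' hτ', map_zero]
  · intro P hP σ hσ τ hτ
    rw [← bcEnd_prodEnd, h.frob_inertia P hP σ hσ τ hτ, map_zero]
  · intro P hP σ hσ τ hτ
    rw [← bcEnd_prodEnd, h.inertia_frob P hP σ hσ τ hτ, map_zero]
  · intro P hP σ hσ σ' hσ'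
    rw [← bcEnd_prodEnd, h.frob_frob P hP σ hσ σ' hσ', map_zero]

end SignEq

variable (𝒪 : Type) [CommRing 𝒪] [IsLocalRing 𝒪] [Finite (ResidueField 𝒪)]

theorem isClosed_signEqAt (j : ℕ) (s : ℤ) :
    IsClosedCond 𝒪 fun _A _ _ _ ρ => SignEqAt ρ j s := by
  refine (((IsClosedCond.all fun P => IsClosedCond.imp (IsClosedCond.all fun τ =>
      IsClosedCond.imp (IsClosedCond.all fun τ' => IsClosedCond.imp
        (isClosed_prodEnd τ τ' 1 1)))).and
    (IsClosedCond.all fun P => IsClosedCond.imp (IsClosedCond.all fun σ =>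
      IsClosedCond.imp (IsClosedCond.all fun τ => IsClosedCond.imp
        (isClosed_prodEnd σ τ (s * j) 1))))).and
    ((IsClosedCond.all fun P => IsClosedCond.imp (IsClosedCond.all fun σ =>
      IsClosedCond.imp (IsClosedCond.all fun τ => IsClosedCond.imp
        (isClosed_prodEnd τ σ 1 s)))).and
    (IsClosedCond.all fun P => IsClosedCond.imp (IsClosedCond.all fun σ =>
      IsClosedCond.imp (IsClosedCond.all fun σ' => IsClosedCond.imp
        (isClosed_prodEnd σ σ' (s * j) s)))))).congr fun _ _ _ _ ρ =>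
    ⟨fun h => ⟨h.1.1, h.1.2, h.2.1, h.2.2⟩, fun h => ⟨⟨h.1, h.2⟩, h.3, h.4⟩⟩

/-- Cyclotomic determinant, flat at `2`, unramified outside `S`, the equations of sign `s` at the
primes of `T`. -/
abbrev signCond (S T : Finset ℕ) (s : ℕ → ℤ) : RepPred 𝒪 :=
  fun _A _ _ _ ρ => GaloisRep.flatCondition 𝒪 2 S ρ ∧ ∀ j ∈ T, SignEqAt ρ j (s j)

theorem isClosed_signCond (S T : Finset ℕ) (s : ℕ → ℤ) :
    IsClosedCond 𝒪 (signCond 𝒪 S T s) :=
  haveI : Fact (Nat.Prime 2) := ⟨Nat.prime_two⟩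
  ((isClosed_detCyclotomic 2).and
      ((isClosed_flat Nat.prime_two).and (isClosed_unramifiedOutside 𝒪 S))).and
    (IsClosedCond.all fun j => IsClosedCond.imp (isClosed_signEqAt 𝒪 j (s j)))

theorem isDeformationCondition_signCond (S T : Finset ℕ) (s : ℕ → ℤ) :
    IsDeformationCondition 𝒪 (signCond 𝒪 S T s) :=
  (isClosed_signCond 𝒪 S T s).isDeformationCondition

variable {𝒪}

theorem tangentFinite_signCond (ρbar : ResidualGaloisRep (ResidueField 𝒪)) (S T : Finset ℕ)
    (s : ℕ → ℤ) : GaloisRep.TangentFinite 𝒪 ρbar (signCond 𝒪 S T s) :=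
  tangentFinite_of_unramified ρbar S _ fun _ _ _ _ _ h => h.1.2.2

end FLTA.LT2
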