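import Fermat.Agent.LT2.ImageRep
import Fermat.Agent.RT.DeformClosed

/-!
# Part G, ring side: the residual representation `E[2] ⊗ k`
-/

set_option autoImplicit false

noncomputable section

namespace FLTA.LT2

open FLTA.Deformation

variable {E : WeierstrassCurve ℤ} (hΔ : E.Δ ≠ 0)

/-- The matrices of `E[2]`. -/
def mat2 : GalQ →* Matrix (Fin 2) (Fin 2) (ZMod 2) :=
  (Image.mod2 one_ne_zero).mapMatrix.toMonoidHom.comp (Image.rep hΔ 1)

theorem mat2_finiteLevel : GaloisFactorsThroughFiniteLevel (mat2 hΔ) := by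
  obtain ⟨L, hL, h⟩ := Image.rep_finiteLevel hΔ 1
  exact ⟨L, hL, fun σ hσ => by simp [mat2, h σ hσ]⟩

variable (k : Type) [Field k] [Algebra (ZMod 2) k]

/-- The matrices of `E[2] ⊗ k`. -/
def resMat : GalQ →* Matrix (Fin 2) (Fin 2) k :=
  (algebraMap (ZMod 2) k).mapMatrix.toMonoidHom.comp (mat2 hΔ)

/-- The residual representation `E[2] ⊗ k`. -/
def resRep : ResidualGaloisRep k where
  V := Fin 2 → k
  finrank_eq := by simp
  ρ := (Matrix.toLinAlgEquiv' (R := k) (n := Fin 2)).toMonoidHom.comp (resMat hΔ k)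
  factorsThroughFiniteLevel := by
    obtain ⟨L, hL, h⟩ := Image.rep_finiteLevel hΔ 1
    refine ⟨L, hL, fun σ hσ => ?_⟩
    simp [resMat, mat2, h σ hσ]

theorem trace_resRep (σ : GalQ) :
    LinearMap.trace k _ ((resRep hΔ k).ρ σ) = algebraMap (ZMod 2) k (mat2 hΔ σ).trace := by
  show LinearMap.trace k (Fin 2 → k) (Matrix.toLin' (resMat hΔ k σ)) = _
  rw [Matrix.trace_toLin'_eq, AddMonoidHom.map_trace]
  rfl

end FLTA.LT2

end
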