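import Fermat.Agent.LT2.PatchedInterface
import Fermat.Agent.LT2.PatchedRingCond
import Fermat.Agent.LT2.PatchedRingResidual

/-!
# Part G: the predicate cutting out the points of the rings `R^s`
-/

set_option autoImplicit false

noncomputable section

namespace FLTA.LT2.PatchG

open IsLocalRing

variable (O : RepTheory.FiniteDVRExt ℤ_[2]) {E : WeierstrassCurve ℤ}

/-- The primes where ramification is allowed. -/
def ringSet (E : WeierstrassCurve ℤ) (Q : Finset ℕ) {k : ℕ} (qt : Fin k → ℕ) : Finset ℕ :=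
  insert 2 (badPrimes E ∪ Q ∪ Finset.univ.image qt)

/-- A representation over an extension of the coefficients is a point of sign `s`: the signed
conditions, and traces congruent to those of `E[2]`. -/
def ringPt (hΔ : E.Δ ≠ 0) (Q : Finset ℕ) {k : ℕ} (qt : Fin k → ℕ) : PointPred O :=
  fun s A ρ => signCond O.R (ringSet E Q qt) (badPrimes E ∪ Q) s ρ ∧
    ∀ σ, ρ.trace σ - (((mat2 hΔ σ).trace.val : ℕ) : A.R) ∈ maximalIdeal A.R

/-- The primes of the conductor level are the bad primes. -/
theorem primeFactors_conductor_eq_badPrimes (hΔ : E.Δ ≠ 0) :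
    E.conductorLevel.primeFactors = badPrimes E := by
  ext q
  rw [badPrimes, Nat.mem_primeFactors, Nat.mem_primeFactors, Int.natAbs_ne_zero]
  exact ⟨fun ⟨hq, h, _⟩ =>
      ⟨hq, Int.natCast_dvd.mp ((E.prime_dvd_conductorLevel_iff hΔ hq).mp h), hΔ⟩,
    fun ⟨hq, h, _⟩ =>
      ⟨hq, (E.prime_dvd_conductorLevel_iff hΔ hq).mpr (Int.natCast_dvd.mpr h),
        E.conductorLevel_pos.ne'⟩⟩

theorem signPrimes_eq (hΔ : E.Δ ≠ 0) (Q : Finset ℕ) : signPrimes E Q = badPrimes E ∪ Q := by
  rw [signPrimes, primeFactors_conductor_eq_badPrimes hΔ]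

end FLTA.LT2.PatchG

end
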