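import Fermat.Agent.LT2.PatchedRingUniversal
import Fermat.Agent.TaylorWiles.Tangent

/-!
# Part G, ring side: generators of `R^s` from the tangent bound

A push of the universal representation to the dual numbers satisfies the conditions and has a frame
reducing to the matrices of `E[2]`.  If traces at `σᵢ` detect these deformations, the elements
`tr ρ(σᵢ) - cᵢ` give a surjection from the power series.
-/

set_option autoImplicit false

noncomputable section

namespace FLTA.LT2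

open IsLocalRing FLTA.Deformation FLTA.RT

variable {𝒪 : Type} [CommRing 𝒪] [IsDomain 𝒪] [IsDiscreteValuationRing 𝒪]
  [IsAdicComplete (maximalIdeal 𝒪) 𝒪] [Finite (ResidueField 𝒪)]
variable {ρbar : ResidualGaloisRep (ResidueField 𝒪)} {S T : Finset ℕ} {s : ℕ → ℤ}
variable (D : GaloisRep.DeformationRingData 𝒪 ρbar (signCond 𝒪 S T s))

/-- A push of the universal representation to the dual numbers satisfies the conditions. -/
theorem signCond_push (φ : letI := dualAlgebra 𝒪; D.R →ₐ[𝒪] DualNumber (ResidueField 𝒪))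
    (hφ : IsLocalHom (φ : D.R →+* DualNumber (ResidueField 𝒪))) :
    letI := dualAlgebra 𝒪
    signCond 𝒪 S T s (D.ρ.baseChangeAlong (φ : D.R →+* DualNumber (ResidueField 𝒪)) hφ) := by
  letI := dualAlgebra 𝒪
  exact (isClosed_signCond 𝒪 S T s).baseChange D.residue_surjective (test_dual) φ hφ
    D.isOfType

/-- Two pushes with the same traces agree. -/
theorem push_ext (φ ψ : letI := dualAlgebra 𝒪; D.R →ₐ[𝒪] DualNumber (ResidueField 𝒪))
    (hφ : IsLocalHom (φ : D.R →+* DualNumber (ResidueField 𝒪)))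
    (hψ : IsLocalHom (ψ : D.R →+* DualNumber (ResidueField 𝒪)))
    (h : ∀ g, (φ : D.R →+* DualNumber (ResidueField 𝒪)) (D.ρ.trace g) =
      (ψ : D.R →+* DualNumber (ResidueField 𝒪)) (D.ρ.trace g)) : φ = ψ := by
  letI := dualAlgebra 𝒪
  have hsq : ∀ (χ : D.R →ₐ[𝒪] DualNumber (ResidueField 𝒪)),
      IsLocalHom (χ : D.R →+* DualNumber (ResidueField 𝒪)) →
        ∀ z ∈ maximalIdeal D.R ^ 2, χ z = 0 := by
    intro χ hχ z hz
    have hm : ∀ w ∈ maximalIdeal D.R, TrivSqZeroExt.fst (χ w) = 0 := fun w hw =>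
      (mem_maximalIdeal_dual _).mp (map_nonunit (χ : D.R →+* DualNumber (ResidueField 𝒪)) w hw)
    rw [pow_two] at hz
    refine Submodule.mul_induction_on hz (fun a ha b hb => ?_)
      fun a b ha hb => by rw [map_add, ha, hb, add_zero]
    rw [map_mul]
    exact TrivSqZeroExt.ext (by simp [hm a ha]) (by simp [hm a ha, hm b hb])
  refine AlgHom.ext fun x => ?_
  obtain ⟨y, hy, hxy⟩ := adjoin_trace_dense (isDeformationCondition_signCond 𝒪 S T s) D 1 x
  have hy' : φ y = ψ y := by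
    refine (Algebra.adjoin_le (S := AlgHom.equalizer φ ψ) ?_) hy
    rintro _ ⟨g, rfl⟩
    exact h g
  have h1 := hsq φ hφ _ hxy
  have h2 := hsq ψ hψ _ hxy
  rw [map_sub, sub_eq_zero] at h1 h2
  rw [h1, h2, hy']

/-- **Generators**: if the traces at `σᵢ` detect every push to the dual numbers then the elements
`tr ρ(σᵢ) - cᵢ` generate. -/
theorem exists_surjective_of_dual {r : ℕ} (σ : Fin r → GalQ) (c : Fin r → 𝒪)
    (hc : ∀ i, D.ρ.trace (σ i) - algebraMap 𝒪 D.R (c i) ∈ maximalIdeal D.R)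
    (h : letI := dualAlgebra 𝒪
      ∀ (φ : D.R →ₐ[𝒪] DualNumber (ResidueField 𝒪))
        (hφ : IsLocalHom (φ : D.R →+* DualNumber (ResidueField 𝒪))),
        (∀ i, TrivSqZeroExt.snd
          ((D.ρ.baseChangeAlong (φ : D.R →+* DualNumber (ResidueField 𝒪)) hφ).trace (σ i)) = 0) →
        ∀ g, TrivSqZeroExt.snd
          ((D.ρ.baseChangeAlong (φ : D.R →+* DualNumber (ResidueField 𝒪)) hφ).trace g) = 0) :
    ∃ γ : MvPowerSeries (Fin r) 𝒪 →ₐ[𝒪] D.R, Function.Surjective γ ∧
      ∀ i, γ (MvPowerSeries.X i) = D.ρ.trace (σ i) - algebraMap 𝒪 D.R (c i) := by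
  letI := dualAlgebra 𝒪
  set a : Fin r → D.R := fun i => D.ρ.trace (σ i) - algebraMap 𝒪 D.R (c i)
  have ha : Set.range a ⊆ maximalIdeal D.R := by
    rintro _ ⟨i, rfl⟩
    exact hc i
  have hfst : ∀ (φ : D.R →ₐ[𝒪] DualNumber (ResidueField 𝒪)),
      IsLocalHom (φ : D.R →+* DualNumber (ResidueField 𝒪)) → ∀ g,
        TrivSqZeroExt.fst (φ (D.ρ.trace g)) = residue 𝒪 (traceLift 𝒪 ρbar g) := by
    intro φ hφ g
    have h1 := (mem_maximalIdeal_dual _).mp
      (map_nonunit (φ : D.R →+* DualNumber (ResidueField 𝒪)) _ (resCond_universal D g))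
    rw [RingHom.coe_coe, map_sub, AlgHom.commutes, TrivSqZeroExt.fst_sub, sub_eq_zero] at h1
    exact h1
  have hsnd : ∀ (φ : {φ : D.R →ₐ[𝒪] DualNumber (ResidueField 𝒪) //
      IsLocalHom (φ : D.R →+* DualNumber (ResidueField 𝒪)) ∧ ∀ e ∈ Set.range a, φ e = 0}) g,
      TrivSqZeroExt.snd (φ.1 (D.ρ.trace g)) = 0 := by
    intro φ g
    have := h φ.1 φ.2.1 (fun i => by
      rw [trace_baseChangeAlong]
      have h2 := φ.2.2 _ ⟨i, rfl⟩
      rw [map_sub, sub_eq_zero, AlgHom.commutes] at h2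
      rw [RingHom.coe_coe, h2]
      exact TrivSqZeroExt.snd_inl _ _) g
    rwa [trace_baseChangeAlong] at this
  obtain ⟨b, -, hgen⟩ := FLTA.TW.exists_generators_of_injective (g := 0) D.residue_surjective
    (Set.range a) ha (Z := Unit) (by simp) (fun _ => ())
    fun φ ψ _ => Subtype.ext (push_ext D φ.1 ψ.1 φ.2.1 ψ.2.1 fun g =>
      TrivSqZeroExt.ext ((hfst φ.1 φ.2.1 g).trans (hfst ψ.1 ψ.2.1 g).symm)
        ((hsnd φ g).trans (hsnd ψ g).symm))
  refine exists_surjective_powerSeries D.residue_surjective a hc (hgen.le.trans ?_)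
  refine sup_le ?_ (sup_le le_sup_right le_sup_left)
  rw [Ideal.span_le]
  rintro _ ⟨i, -⟩
  exact i.elim0

set_option maxRecDepth 4000 in
/-- A push to the dual numbers has a frame reducing to the matrices of `E[2]`. -/
theorem exists_resMat_frame [Algebra (ZMod 2) (ResidueField 𝒪)] {E : WeierstrassCurve ℤ}
    {hΔ : E.Δ ≠ 0}
    (D : GaloisRep.DeformationRingData 𝒪 (resRep hΔ (ResidueField 𝒪)) (signCond 𝒪 S T s))
    (φ : letI := dualAlgebra 𝒪; D.R →ₐ[𝒪] DualNumber (ResidueField 𝒪))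
    (hφ : IsLocalHom (φ : D.R →+* DualNumber (ResidueField 𝒪))) :
    letI := dualAlgebra 𝒪
    ∃ b : Module.Basis (Fin 2) (DualNumber (ResidueField 𝒪))
      (D.ρ.baseChangeAlong (φ : D.R →+* DualNumber (ResidueField 𝒪)) hφ).V,
      ∀ g, (LinearMap.toMatrix b b
        ((D.ρ.baseChangeAlong (φ : D.R →+* DualNumber (ResidueField 𝒪)) hφ).ρ g)).map
          TrivSqZeroExt.fst = resMat hΔ (ResidueField 𝒪) g := by
  letI := dualAlgebra 𝒪
  obtain ⟨b₀, hb₀⟩ := FLTA.TW.exists_frame (resRep hΔ (ResidueField 𝒪)) D.ρ D.residual_isEquiv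
  let k := ResidueField 𝒪
  let ρbar := resRep hΔ (ResidueField 𝒪)
  let φ' : D.R →+* DualNumber k := φ
  let _ : Algebra D.R (DualNumber k) := φ'.toAlgebra
  let ρ' := D.ρ.baseChangeAlong φ' hφ
  let b : Module.Basis (Fin 2) (DualNumber k) ρ'.V := Algebra.TensorProduct.basis (DualNumber k) b₀
  have hb : ∀ g, (LinearMap.toMatrix b b (ρ'.ρ g)).map TrivSqZeroExt.fst = barMat ρbar g := fun g => by
    ext i j
    rw [show LinearMap.toMatrix b b (ρ'.ρ g) = (LinearMap.toMatrix b₀ b₀ (D.ρ.ρ g)).map φ' from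
      LinearMap.toMatrix_baseChange (A := DualNumber k) (D.ρ.ρ g) b₀ b₀]
    exact FLTA.TW.fst_apply_eq D.residue_surjective φ hφ (congrFun₂ (hb₀ g) i j)
  let std : Module.Basis (Fin 2) k ρbar.V := Pi.basisFun k (Fin 2)
  let C : Matrix (Fin 2) (Fin 2) k := (barBasis ρbar).toMatrix std
  have hC : IsUnit C.det :=
    Matrix.isUnit_det_of_left_inverse (B := std.toMatrix (barBasis ρbar))
      (Module.Basis.toMatrix_mul_toMatrix_flip std (barBasis ρbar))
  have hCσ : ∀ g, C * resMat hΔ k g = barMat ρbar g * C := fun g => by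
    have h1 : resMat hΔ k g = LinearMap.toMatrix std std (ρbar.ρ g) := by
      refine Eq.symm ?_
      show LinearMap.toMatrix (Pi.basisFun k (Fin 2)) (Pi.basisFun k (Fin 2))
        (Matrix.toLin' (resMat hΔ k g)) = resMat hΔ k g
      rw [LinearMap.toMatrix_eq_toMatrix']
      exact LinearMap.toMatrix'_toLin' (resMat hΔ k g)
    rw [h1]
    show (barBasis ρbar).toMatrix std * LinearMap.toMatrix std std (ρbar.ρ g) =
      LinearMap.toMatrix (barBasis ρbar) (barBasis ρbar) (ρbar.ρ g) * (barBasis ρbar).toMatrix std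
    rw [basis_toMatrix_mul_linearMap_toMatrix, linearMap_toMatrix_mul_basis_toMatrix]
  let inlHom : k →+* DualNumber k := algebraMap k (DualNumber k)
  have hdet : IsUnit (C.map inlHom).det := by
    rw [← RingHom.mapMatrix_apply, ← RingHom.map_det]
    exact hC.map inlHom
  let u := Matrix.toLinearEquiv b (C.map inlHom) hdet
  let b' : Module.Basis (Fin 2) (DualNumber k) ρ'.V := b.map u
  have hbb : b.toMatrix b' = C.map inlHom := by
    refine Matrix.ext fun i j => ?_
    simp [Module.Basis.toMatrix_apply, b', u, Matrix.toLinearEquiv, Matrix.toLin_self,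
      Finsupp.single_apply]
    fin_cases i <;> simp
  refine ⟨b', fun g => ?_⟩
  have e1 : b.toMatrix b' * LinearMap.toMatrix b' b' (ρ'.ρ g) =
      LinearMap.toMatrix b b (ρ'.ρ g) * b.toMatrix b' := by
    rw [basis_toMatrix_mul_linearMap_toMatrix, linearMap_toMatrix_mul_basis_toMatrix]
  have e2 := congrArg
    (TrivSqZeroExt.fstHom k k k).toRingHom.mapMatrix e1
  rw [map_mul, map_mul, hbb] at e2
  have hfst : ∀ X : Matrix (Fin 2) (Fin 2) (DualNumber k),
      (TrivSqZeroExt.fstHom k k k).toRingHom.mapMatrix X = X.map TrivSqZeroExt.fst := fun _ => rfl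
  have hCinl : (C.map inlHom).map TrivSqZeroExt.fst = C :=
    Matrix.ext fun i j => TrivSqZeroExt.fst_inl k (C i j)
  rw [hfst, hfst, hfst, hCinl, hb g, ← hCσ g] at e2
  exact IsUnit.mul_left_cancel (M := Matrix (Fin 2) (Fin 2) k)
    ((Matrix.isUnit_iff_isUnit_det C).mpr hC) e2

end FLTA.LT2

end
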