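import Fermat.Agent.LT2.PatchedTangentPrimes
import Fermat.Agent.LT2.PatchedRingGen

/-!
# Part G: R1, the common coordinates of the rings `R^s`

`k = #qv` Frobenius elements `σᵢ`, chosen from `E`, `Q` and `qv` only, give for every sign vector
and every lift `cᵢ` of their residual traces a surjection of `O[[X₁, …, X_k]]` onto `R^s` sending
`Xᵢ` to `tr ρ(σᵢ) - cᵢ`.
-/

set_option autoImplicit false

noncomputable section

namespace FLTA.LT2

open IsLocalRing FLTA.Deformation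

local notation "Qbar" => AlgebraicClosure ℚ

variable {𝒪 : Type} [CommRing 𝒪] [IsDomain 𝒪] [IsDiscreteValuationRing 𝒪]
  [IsAdicComplete (maximalIdeal 𝒪) 𝒪] [Finite (ResidueField 𝒪)]
  [Algebra (ZMod 2) (ResidueField 𝒪)]

/-- **R1.** -/
theorem exists_signRing_generators {E : WeierstrassCurve ℤ} (hE : Companion E) {n m : ℕ}
    {Q qv : Finset ℕ} (hQ : ∀ q ∈ Q, ConjPrime E n q) (hkill : StKilled E Q)
    (hqv : ∀ q ∈ qv, TWPrime E m q) (hcard : qv.card + 1 = (badPrimes E).card)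
    (hsep : Separating E qv) (avoid : Finset ℕ) :
    ∃ (lv : Fin qv.card → ℕ) (σ : Fin qv.card → GalQ),
      (∀ i, (lv i).Prime ∧ lv i ∉ avoid ∧ ∃ A : ValuationSubring Qbar, A.LiesOverPrime (lv i) ∧
        A.IsFrobeniusAt (σ i) (lv i)) ∧
      ∀ (S T : Finset ℕ) (s : ℕ → ℤ), S ⊆ insert 2 (badPrimes E ∪ Q ∪ qv) →
        badPrimes E ∪ Q ⊆ T → (∀ j ∈ badPrimes E ∪ Q, Odd (s j)) →
        ∀ (D : GaloisRep.DeformationRingData 𝒪 (resRep hE.Δ_ne_zero (ResidueField 𝒪))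
          (signCond 𝒪 S T s)) (c : Fin qv.card → 𝒪),
          (∀ i, D.ρ.trace (σ i) - algebraMap 𝒪 D.R (c i) ∈ maximalIdeal D.R) →
            ∃ γ : MvPowerSeries (Fin qv.card) 𝒪 →ₐ[𝒪] D.R, Function.Surjective γ ∧
              ∀ i, γ (MvPowerSeries.X i) = D.ρ.trace (σ i) - algebraMap 𝒪 D.R (c i) := by
  obtain ⟨lv, σ, hlv, h⟩ :=
    Tangent.exists_trace_primes hE hQ hkill hqv hcard hsep avoid
  refine ⟨lv, σ, hlv, fun S T s hS hT hs D c hc =>
    exists_surjective_of_dual D σ c hc fun φ hφ h0 => ?_⟩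
  letI := dualAlgebra 𝒪
  obtain ⟨⟨hdet, hflat, hun⟩, hsgn⟩ := signCond_push D φ hφ
  obtain ⟨b, hb⟩ := exists_resMat_frame D φ hφ
  exact h _ _ b hb hdet hflat (fun ℓ hℓ hℓS => hun ℓ hℓ fun h' => hℓS (hS h'))
    (fun j hj => ⟨s j, hs j hj, hsgn j (hT hj)⟩) h0

end FLTA.LT2

end
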