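import Fermat.Agent.LT2.PatchedRingPoint
import Fermat.Agent.LT2.PatchedRingPt
import Fermat.Agent.LT2.PatchedTangentSignCond

/-!
# Part G: traces as functions of the coordinates, the fields `frob` and `inert` of `GalSide`

For each sign vector the trace of an element is a power series in the coordinates
`tr ρ(σᵢ) - a_{lᵢ}`: its constant term is the trace on the curve modulo `2`, and modulo `2 ^ n`
when the signs are those of the curve.
-/

set_option autoImplicit false

open scoped Classical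
open WeierstrassCurve
open scoped WeierstrassCurve.Affine

noncomputable section

namespace FLTA.LT2.PatchG

open IsLocalRing FLTA.EllTate FLTA.Deformation

local notation "Qbar" => AlgebraicClosure ℚ

/-- Algebra maps out of power series with the variables sent into the maximal ideal are determined
by the images of the variables (the residue field may grow). -/
theorem algHom_ext_of_X {R A : Type} [CommRing R] [IsLocalRing R] [CommRing A] [IsLocalRing A]
    [Algebra R A] [IsLocalHom (algebraMap R A)] [IsHausdorff (maximalIdeal A) A] {r : ℕ}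
    {φ ψ : MvPowerSeries (Fin r) R →ₐ[R] A}
    (hX : ∀ i, φ (MvPowerSeries.X i) ∈ maximalIdeal A)
    (h : ∀ i, φ (MvPowerSeries.X i) = ψ (MvPowerSeries.X i)) : φ = ψ := by
  have hle : ∀ χ : MvPowerSeries (Fin r) R →ₐ[R] A,
      (∀ i, χ (MvPowerSeries.X i) ∈ maximalIdeal A) → ∀ n, ∀ x ∈ varIdeal R r ^ n,
        χ x ∈ maximalIdeal A ^ n := by
    intro χ hχ n x hx
    have h1 : (varIdeal R r).map χ.toRingHom ≤ maximalIdeal A := by
      rw [varIdeal, Ideal.map_span, Ideal.span_le]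
      rintro _ ⟨_, ⟨i, rfl⟩, rfl⟩
      exact hχ i
    have h2 := Ideal.mem_map_of_mem χ.toRingHom hx
    rw [Ideal.map_pow] at h2
    exact Ideal.pow_right_mono h1 n h2
  refine AlgHom.ext fun x => sub_eq_zero.mp
    (IsHausdorff.haus (I := maximalIdeal A) inferInstance _ fun n => ?_)
  rw [SModEq.zero, smul_eq_mul, Ideal.mul_top]
  have hp : ∀ p : MvPolynomial (Fin r) R, φ (p : MvPowerSeries (Fin r) R) = ψ p := fun p => by
    have : φ.comp (MvPolynomial.coeToMvPowerSeries.algHom R) =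
        ψ.comp (MvPolynomial.coeToMvPowerSeries.algHom R) :=
      MvPolynomial.algHom_ext fun i => by simpa using h i
    simpa using AlgHom.congr_fun this p
  have h1 := hle φ hX n _ (sub_trunc_mem_pow x n)
  have h2 := hle ψ (fun i => h i ▸ hX i) n _ (sub_trunc_mem_pow x n)
  rw [map_sub] at h1 h2
  have := sub_mem h1 h2
  rwa [hp, sub_sub_sub_cancel_right] at this

variable {O : RepTheory.FiniteDVRExt ℤ_[2]} [Algebra (ZMod 2) (ResidueField O.R)]
  {E : WeierstrassCurve ℤ} (hE : Companion E)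

include hE

omit [Algebra (ZMod 2) (ResidueField O.R)] in
/-- The trace modulo `2` of an element with trace `a` on the Tate module. -/
theorem mat2_trace_of_tate {τ : GalQ} {a : ℤ}
    (ha : (tateRep E hE.Δ_ne_zero 2).trace τ = (a : ℤ_[2])) :
    (mat2 hE.Δ_ne_zero τ).trace = (a : ZMod 2) := by
  rw [← trace_tateMatTwo hE.Δ_ne_zero τ, show (tateMatTwo E hE.Δ_ne_zero τ).trace =
      PadicInt.toZMod (tateMat E hE.Δ_ne_zero 2 τ).trace
      from (AddMonoidHom.map_trace (PadicInt.toZMod (p := 2)) _).symm,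
    ← trace_eq_trace_tateMat, ha, map_intCast]

/-- In a deformation ring of `E[2] ⊗ k` the trace is `a` modulo the maximal ideal. -/
theorem residue_traceLift_eq {τ : GalQ} {a : ℤ}
    (ha : (tateRep E hE.Δ_ne_zero 2).trace τ = (a : ℤ_[2])) :
    residue O.R (traceLift O.R (resRep hE.Δ_ne_zero (ResidueField O.R)) τ) =
      residue O.R (a : O.R) := by
  rw [residue_traceLift, map_intCast]
  refine ((LinearMap.trace_eq_matrix_trace _ (barBasis _) _).symm.trans (trace_resRep _ _ τ)).trans ?_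
  rw [mat2_trace_of_tate hE ha, map_intCast]

/-- **Traces as functions of the coordinates.** -/
theorem exists_coord (hO : maximalIdeal O.R = Ideal.span {2}) {ω : O.R}
    (hω : ω ^ 2 + ω + 1 = 0) {n : ℕ} (hn : n ≠ 0) {Q : Finset ℕ}
    (hQ : ∀ q ∈ Q, ConjPrime E n q) {k : ℕ} (qt : Fin k → ℕ) (lv : Fin k → ℕ)
    (σ : Fin k → GalQ)
    (hσ : ∀ i, (tateRep E hE.Δ_ne_zero 2).trace (σ i) = (E.apOfModel (lv i) : ℤ_[2]))
    (hgen : ∀ (s : ℕ → ℤ), (∀ j ∈ badPrimes E ∪ Q, Odd (s j)) →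
      ∀ (D : GaloisRep.DeformationRingData O.R (resRep hE.Δ_ne_zero (ResidueField O.R))
        (signCond O.R (ringSet E Q qt) (badPrimes E ∪ Q) s)) (c : Fin k → O.R),
        (∀ i, D.ρ.trace (σ i) - algebraMap O.R D.R (c i) ∈ maximalIdeal D.R) →
          ∃ γ : MvPowerSeries (Fin k) O.R →ₐ[O.R] D.R, Function.Surjective γ ∧
            ∀ i, γ (MvPowerSeries.X i) = D.ρ.trace (σ i) - algebraMap O.R D.R (c i))
    {s : ℕ → ℤ} (hs : IsSign E Q s) (τ : GalQ) {a : ℤ}
    (ha : (tateRep E hE.Δ_ne_zero 2).trace τ = (a : ℤ_[2])) :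
    ∃ f : PS O k, (2 : O.R) ∣ MvPowerSeries.constantCoeff f - (a : O.R) ∧
      (HasCurveSigns E s → (2 : O.R) ^ n ∣ MvPowerSeries.constantCoeff f - (a : O.R)) ∧
      ∀ (A : RepTheory.FiniteDVRExt O.R) (ρ : GaloisRepAdic A.R),
        ringPt O hE.Δ_ne_zero Q qt s A ρ → ∀ γ, IsPoint E lv σ ρ γ → γ f = ρ.trace τ := by
  have hsign : ∀ j ∈ badPrimes E ∪ Q, s j = 1 ∨ s j = -1 := fun j hj =>
    hs j (by rwa [signPrimes_eq hE.Δ_ne_zero])
  have hodd : ∀ j ∈ badPrimes E ∪ Q, Odd (s j) := fun j hj => by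
    rcases hsign j hj with h | h <;> rw [h]
    · exact odd_one
    · exact odd_neg_one
  have hS : ∀ ℓ : ℕ, ℓ.Prime → (ℓ : ℤ) ∣ E.Δ → ℓ ∈ ringSet E Q qt := fun ℓ hℓ hd =>
    Finset.mem_insert_of_mem (Finset.mem_union_left _ (Finset.mem_union_left _
      ((mem_badPrimes hE.Δ_ne_zero).2 ⟨hℓ, hd⟩)))
  have h2S : 2 ∈ ringSet E Q qt := Finset.mem_insert_self _ _
  obtain ⟨D⟩ := hE.nonempty_signRing (𝒪 := O.R) h2S hS hsign hn fun j hj =>
    (Finset.mem_union.1 hj).imp (fun h => (mem_badPrimes hE.Δ_ne_zero).1 h) (hQ j)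
  -- the coordinates
  have hres : ∀ (g : GalQ) (b : ℤ), (tateRep E hE.Δ_ne_zero 2).trace g = (b : ℤ_[2]) →
      residue D.R (D.ρ.trace g) = residue D.R (algebraMap O.R D.R (b : O.R)) := fun g b hb => by
    have h1 : residue D.R (D.ρ.trace g) =
        residue D.R (algebraMap O.R D.R (traceLift O.R _ g)) :=
      Ideal.Quotient.eq.mpr (RT.resCond_universal D g)
    rw [h1, ← ResidueField.map_residue, ← ResidueField.map_residue, residue_traceLift_eq hE hb]
  obtain ⟨γ₀, hγ₀, hγX⟩ := hgen s hodd D (fun i => (E.apOfModel (lv i) : O.R)) fun i =>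
    Ideal.Quotient.eq.mp (hres _ _ (hσ i))
  obtain ⟨f, hf⟩ := hγ₀ (D.ρ.trace τ)
  refine ⟨f, ?_, fun hcurve => ?_, fun A ρ hρ γ hγ => ?_⟩
  · let π : MvPowerSeries (Fin k) O.R →ₐ[O.R] D.R ⧸ maximalIdeal D.R :=
      (Ideal.Quotient.mkₐ O.R (maximalIdeal D.R)).comp γ₀
    let _ : Field (D.R ⧸ maximalIdeal D.R) := Ideal.Quotient.field _
    have : IsHausdorff (maximalIdeal (D.R ⧸ maximalIdeal D.R)) (D.R ⧸ maximalIdeal D.R) := by
      rw [maximalIdeal_eq_bot]; infer_instance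
    have hsurj : Function.Surjective (residue (D.R ⧸ maximalIdeal D.R) ∘
        algebraMap O.R (D.R ⧸ maximalIdeal D.R)) :=
      Function.Surjective.comp residue_surjective fun y => by
        obtain ⟨z, rfl⟩ := Ideal.Quotient.mk_surjective y
        obtain ⟨c, hc⟩ := D.residue_surjective (residue D.R z)
        exact ⟨c, hc⟩
    have h1 := eq_constantCoeff_of_X hsurj π (fun i => Ideal.Quotient.eq_zero_iff_mem.mpr (by
      show γ₀ (MvPowerSeries.X i) ∈ maximalIdeal D.R
      rw [hγX]; exact Ideal.Quotient.eq.mp (hres _ _ (hσ i)))) f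
    have h2 : residue D.R (algebraMap O.R D.R (MvPowerSeries.constantCoeff f)) =
        residue D.R (algebraMap O.R D.R (a : O.R)) := by
      rw [← hres τ a ha, ← hf]
      exact h1.symm
    rw [← ResidueField.map_residue (algebraMap O.R D.R),
      ← ResidueField.map_residue (algebraMap O.R D.R)] at h2
    have h3 := Ideal.Quotient.eq.mp ((ResidueField.map _).injective h2)
    rwa [hO, Ideal.mem_span_singleton] at h3
  · set I : Ideal O.R := Ideal.span {(2 : O.R) ^ n}
    have hI : I = maximalIdeal O.R ^ n := by rw [hO, Ideal.span_singleton_pow]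
    have hIle : I ≤ maximalIdeal O.R := hI.le.trans (Ideal.pow_le_self hn)
    have : Nontrivial (O.R ⧸ I) := Ideal.Quotient.nontrivial_iff.mpr fun h =>
      (maximalIdeal.isMaximal O.R).ne_top (top_le_iff.mp (h ▸ hIle))
    have : IsLocalRing (O.R ⧸ I) :=
      IsLocalRing.of_surjective' (Ideal.Quotient.mk I) Ideal.Quotient.mk_surjective
    have hloc : IsLocalHom (algebraMap O.R (O.R ⧸ I)) := ⟨fun c hc => by
      by_contra h
      obtain ⟨b, hb⟩ := hc.exists_right_inv
      obtain ⟨b, rfl⟩ := Ideal.Quotient.mk_surjective b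
      have h1 : c * b - 1 ∈ maximalIdeal O.R := hIle (Ideal.Quotient.eq.mp hb)
      refine (maximalIdeal.isMaximal O.R).ne_top ((Ideal.eq_top_iff_one _).2 ?_)
      simpa using sub_mem (Ideal.mul_mem_right b _ (show c ∈ maximalIdeal O.R from h)) h1⟩
    have : Finite (O.R ⧸ maximalIdeal O.R) := inferInstanceAs (Finite (ResidueField O.R))
    have : Finite (O.R ⧸ I) := by
      rw [hI]; exact Ideal.finite_quotient_pow (IsNoetherian.noetherian _) n
    let φ : ℤ_[2] →+* O.R ⧸ I := (Ideal.Quotient.mk I).comp (algebraMap ℤ_[2] O.R)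
    have hφ : IsLocalHom φ := ⟨fun c hc =>
      IsUnit.of_map (algebraMap ℤ_[2] O.R) c (hloc.map_nonunit _ hc)⟩
    have h2 : (2 : O.R ⧸ I) ^ n = 0 := by
      have : Ideal.Quotient.mk I ((2 : O.R) ^ n) = 0 :=
        Ideal.Quotient.eq_zero_iff_mem.mpr (Ideal.mem_span_singleton_self _)
      rwa [map_pow, map_ofNat] at this
    have hsurj : Function.Surjective (residue (O.R ⧸ I) ∘ algebraMap O.R (O.R ⧸ I)) :=
      residue_surjective.comp Ideal.Quotient.mk_surjective
    obtain ⟨ψ, -, hψ⟩ := hE.exists_signRing_point D hsurj φ hφ h2 h2S hS fun j hj =>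
      (Finset.mem_union.1 hj).imp
        (fun h => ⟨((mem_badPrimes hE.Δ_ne_zero).1 h).1, ((mem_badPrimes hE.Δ_ne_zero).1 h).2, by
          rw [hcurve j (by rwa [primeFactors_conductor_eq_badPrimes hE.Δ_ne_zero])]⟩)
        fun h => ⟨hQ j h, by
          rcases hsign j hj with h' | h' <;> rw [h'] <;> norm_num⟩
    have hval : ∀ (g : GalQ) (b : ℤ), (tateRep E hE.Δ_ne_zero 2).trace g = (b : ℤ_[2]) →
        ψ (D.ρ.trace g) = (b : O.R ⧸ I) := fun g b hb => by
      rw [hψ, trace_baseChangeAlong, hb, map_intCast]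
    have h1 := eq_constantCoeff_of_X hsurj (ψ.comp γ₀) (fun i => by
      rw [AlgHom.comp_apply, hγX, map_sub, hval _ _ (hσ i), AlgHom.commutes, map_intCast,
        sub_self]) f
    rw [AlgHom.comp_apply, hf, hval τ a ha] at h1
    have h3 : Ideal.Quotient.mk I (MvPowerSeries.constantCoeff f - (a : O.R)) = 0 := by
      rw [map_sub, map_intCast, sub_eq_zero]
      exact h1.symm
    exact Ideal.mem_span_singleton.mp (Ideal.Quotient.eq_zero_iff_mem.mp h3)
  · obtain ⟨hP, hPres⟩ := hρ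
    obtain ⟨ψ, hψl, hψ⟩ := hE.exists_signRing_hom hω D A ρ hP hPres
    have hX : ∀ i, γ (MvPowerSeries.X i) ∈ maximalIdeal A.R := fun i => by
      rw [hγ i]
      have h2A : (2 : A.R) ∈ maximalIdeal A.R := by
        rw [← map_ofNat (algebraMap O.R A.R) 2]
        exact map_nonunit (algebraMap O.R A.R) _ (by rw [hO]; exact Ideal.mem_span_singleton_self 2)
      have h2 : ((mat2 hE.Δ_ne_zero (σ i)).trace.val : A.R) - (E.apOfModel (lv i) : A.R) ∈
          maximalIdeal A.R := by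
        have hd : ((2 : ℕ) : ℤ) ∣ ((mat2 hE.Δ_ne_zero (σ i)).trace.val : ℤ) - E.apOfModel (lv i) := by
          rw [← ZMod.intCast_zmod_eq_zero_iff_dvd]
          push_cast
          rw [ZMod.natCast_zmod_val, mat2_trace_of_tate hE (hσ i), sub_self]
        obtain ⟨c, hc⟩ := hd
        have := congrArg (fun z : ℤ => (z : A.R)) hc
        push_cast at this
        rw [this]
        exact Ideal.mul_mem_right _ _ h2A
      simpa using add_mem (hPres (σ i)) h2
    have key : γ = ψ.comp γ₀ := algHom_ext_of_X hX fun i => by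
      rw [AlgHom.comp_apply, hγX, hγ i, map_sub, hψ, AlgHom.commutes, map_intCast]
    rw [key, AlgHom.comp_apply, hf, hψ]

/-- The fields `frob` and `inert` of `GalSide`. -/
theorem exists_frob_inert (hO : maximalIdeal O.R = Ideal.span {2}) {ω : O.R}
    (hω : ω ^ 2 + ω + 1 = 0) {n m : ℕ} (hn : n ≠ 0) {Q : Finset ℕ}
    (hQ : ∀ q ∈ Q, ConjPrime E n q) {k : ℕ} (qt : Fin k → ℕ) (hqt : ∀ i, TWPrime E m (qt i))
    (lv : Fin k → ℕ) (σ : Fin k → GalQ)
    (hlv : ∀ i, (lv i).Prime ∧ lv i ∉ badSet E Q qt ∧ ∃ P : ValuationSubring Qbar,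
      P.LiesOverPrime (lv i) ∧ P.IsFrobeniusAt (σ i) (lv i))
    (hgen : ∀ (s : ℕ → ℤ), (∀ j ∈ badPrimes E ∪ Q, Odd (s j)) →
      ∀ (D : GaloisRep.DeformationRingData O.R (resRep hE.Δ_ne_zero (ResidueField O.R))
        (signCond O.R (ringSet E Q qt) (badPrimes E ∪ Q) s)) (c : Fin k → O.R),
        (∀ i, D.ρ.trace (σ i) - algebraMap O.R D.R (c i) ∈ maximalIdeal D.R) →
          ∃ γ : MvPowerSeries (Fin k) O.R →ₐ[O.R] D.R, Function.Surjective γ ∧
            ∀ i, γ (MvPowerSeries.X i) = D.ρ.trace (σ i) - algebraMap O.R D.R (c i)) :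
    (∀ s, IsSign E Q s → ∀ l : ℕ, l.Prime → l ∉ badSet E Q qt →
      ∀ P : ValuationSubring Qbar, P.LiesOverPrime l →
        ∀ τ : GalQ, P.IsFrobeniusAt τ l →
          ∃ f : PS O k, (2 : O.R) ∣ MvPowerSeries.constantCoeff f - (E.apOfModel l : O.R) ∧
            (HasCurveSigns E s →
              (2 : O.R) ^ n ∣ MvPowerSeries.constantCoeff f - (E.apOfModel l : O.R)) ∧
            ∀ (A : RepTheory.FiniteDVRExt O.R) (ρ : GaloisRepAdic A.R),
              ringPt O hE.Δ_ne_zero Q qt s A ρ → ∀ γ, IsPoint E lv σ ρ γ → γ f = ρ.trace τ) ∧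
    ∀ s, IsSign E Q s → ∀ i, ∀ P : ValuationSubring Qbar, P.LiesOverPrime (qt i) →
      ∀ τ ∈ P.inertiaSubgroupIn ℚ,
        ∃ f : PS O k, (2 : O.R) ∣ MvPowerSeries.constantCoeff f - 2 ∧
          (HasCurveSigns E s → (2 : O.R) ^ n ∣ MvPowerSeries.constantCoeff f - 2) ∧
          ∀ (A : RepTheory.FiniteDVRExt O.R) (ρ : GaloisRepAdic A.R),
            ringPt O hE.Δ_ne_zero Q qt s A ρ → ∀ γ, IsPoint E lv σ ρ γ → γ f = ρ.trace τ := by
  have hgood : ∀ l : ℕ, l.Prime → l ∉ badSet E Q qt → l ≠ 2 ∧ ¬ (l : ℤ) ∣ E.Δ := by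
    intro l hl hmem
    have h0 : 2 * (E.conductorLevel * ∏ q ∈ Q, q) ≠ 0 :=
      mul_ne_zero two_ne_zero (mul_ne_zero E.conductorLevel_pos.ne'
        (Finset.prod_ne_zero_iff.2 fun q hq => (hQ q hq).prime.ne_zero))
    have hnd : ¬ l ∣ 2 * (E.conductorLevel * ∏ q ∈ Q, q) := fun h =>
      hmem (Finset.mem_union_left _ (Nat.mem_primeFactors.2 ⟨hl, h, h0⟩))
    exact ⟨fun h => hnd (by rw [h]; exact dvd_mul_right 2 _), fun h =>
      hnd (dvd_mul_of_dvd_right (dvd_mul_of_dvd_left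
        ((E.prime_dvd_conductorLevel_iff hE.Δ_ne_zero hl).2 h) _) _)⟩
  have hfrob : ∀ (l : ℕ) (P : ValuationSubring Qbar) (τ : GalQ), l.Prime → l ∉ badSet E Q qt →
      P.LiesOverPrime l → P.IsFrobeniusAt τ l →
        (tateRep E hE.Δ_ne_zero 2).trace τ = (E.apOfModel l : ℤ_[2]) := fun l P τ hl hmem hP hτ =>
    (trace_det_frobenius_all (hΔ := hE.Δ_ne_zero) hE.modRepIsIrreducible_two hl (hgood l hl hmem).1
      (hgood l hl hmem).1 (hgood l hl hmem).2 hP hτ).1
  have hσ : ∀ i, (tateRep E hE.Δ_ne_zero 2).trace (σ i) = (E.apOfModel (lv i) : ℤ_[2]) := fun i => by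
    obtain ⟨hp, hmem, P, hP, hτ⟩ := hlv i
    exact hfrob _ P _ hp hmem hP hτ
  refine ⟨fun s hs l hl hmem P hP τ hτ =>
    exists_coord hE hO hω hn hQ qt lv σ hσ hgen hs τ (hfrob l P τ hl hmem hP hτ),
    fun s hs i P hP τ hτ => ?_⟩
  have h2 : (tateRep E hE.Δ_ne_zero 2).trace τ = ((2 : ℤ) : ℤ_[2]) := by
    rw [GaloisRepAdic.trace,
      isUnramifiedAt_of_good (hqt i).prime (hqt i).ne_two (hqt i).good P hP τ hτ,
      LinearMap.trace_one, (tateRep E hE.Δ_ne_zero 2).finrank_eq]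
    norm_num
  simpa using exists_coord hE hO hω hn hQ qt lv σ hσ hgen hs τ h2

end FLTA.LT2.PatchG

end
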