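import Fermat.Agent.LT2.PatchedParityTwo
import Fermat.Agent.LT2.PrimesTwoTorsion
import Fermat.Agent.RT.TWCount
import Mathlib.NumberTheory.LegendreSymbol.QuadraticReciprocity

/-!
# Part G, ring side: parity

A quadratic character unramified at the good primes outside `qv` which at each bad prime `l` is a
multiple of the sign character moved by `f l` times the unramified character has `∑ f l = 0`:
write both characters in the quadratic characters of prime conductor and use quadratic
reciprocity; the number of bad primes which are `3` modulo `4` is odd as complex conjugation acts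
on `E[2]` by a transposition.
-/

set_option autoImplicit false

open FLTA.Galois

noncomputable section

namespace FLTA.LT2

open FLTA.Deformation

local notation "Qb" => AlgebraicClosure ℚ

variable {E : WeierstrassCurve ℤ} {m : ℕ} {qv : Finset ℕ}

/-- `1` when the prime is `3` modulo `4`. -/
def negOneSign (l : ℕ) : ZMod 2 := if l % 4 = 3 then 1 else 0

open Classical in
/-- `1` when `l` is a nonsquare modulo `j`. -/
def legendreBit (j l : ℕ) : ZMod 2 := if IsSquare (l : ZMod j) then 0 else 1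

theorem qChar_complexConjugation {l : ℕ} (hl : l.Prime) :
    qChar l complexConjugation = negOneSign l := by
  classical
  have := Fact.mk hl
  rw [qChar_def, RT.cycloChar_complexConjugation, negOneSign]
  simp only [ZMod.exists_sq_eq_neg_one_iff]
  split_ifs <;> simp_all

/-- Quadratic reciprocity. -/
theorem legendreBit_add_swap {j l : ℕ} (hj : j.Prime) (hl : l.Prime) (hj2 : j ≠ 2) (hl2 : l ≠ 2)
    (hne : j ≠ l) : legendreBit j l + legendreBit l j = negOneSign j * negOneSign l := by
  classical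
  have := Fact.mk hj
  have := Fact.mk hl
  have hj4 : j % 4 = 1 ∨ j % 4 = 3 := by
    have := Nat.odd_iff.1 (hj.odd_of_ne_two hj2); omega
  have hl4 : l % 4 = 1 ∨ l % 4 = 3 := by
    have := Nat.odd_iff.1 (hl.odd_of_ne_two hl2); omega
  rcases hj4 with h | h
  · have e := ZMod.exists_sq_eq_prime_iff_of_mod_four_eq_one h hl2
    simp only [legendreBit, e, negOneSign, h]
    split_ifs <;> simp_all <;> decide
  rcases hl4 with h' | h'
  · have e := ZMod.exists_sq_eq_prime_iff_of_mod_four_eq_one h' hj2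
    simp only [legendreBit, e, negOneSign, h']
    split_ifs <;> simp_all <;> decide
  · have e := ZMod.exists_sq_eq_prime_iff_of_mod_four_eq_three h h' hne
    simp only [legendreBit, e, negOneSign, h, h']
    split_ifs <;> simp_all

theorem legendreBit_self {l : ℕ} : legendreBit l l = 0 := by
  classical
  simp [legendreBit]

/-- A character unramified outside the odd primes of `T` is their combination. -/
theorem IsCharTwo.eq_sum_qChar {χ : GalQ → ZMod 2} (hχ : IsCharTwo χ) (T : Finset ℕ)
    (hT : ∀ j ∈ T, j.Prime ∧ j ≠ 2)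
    (hun : ∀ ℓ : ℕ, ℓ.Prime → ℓ ∉ T → CharUnramAt ℓ χ) :
    ∃ x : ℕ → ZMod 2, ∀ σ, χ σ = ∑ j ∈ T, x j * qChar j σ := by
  classical
  have hx : ∀ q, ∃ x : ZMod 2, q ∈ T → CharUnramAt q (fun σ => χ σ + x * qChar q σ) := fun q => by
    by_cases hq : q ∈ T
    · have := Fact.mk (hT q hq).1
      obtain ⟨x, hx⟩ := hχ.exists_unram_add_qChar q (hT q hq).2
      exact ⟨x, fun _ => hx⟩
    · exact ⟨0, fun h => absurd h hq⟩
  choose x hx using hx
  refine ⟨x, fun σ => ?_⟩
  have hc : ∀ q ∈ T, IsCharTwo (fun σ => x q * qChar q σ) := fun q hq =>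
    have := Fact.mk (hT q hq).1
    (qChar_isChar q (hT q hq).2).const_mul _
  have hzero : χ σ + ∑ q ∈ T, x q * qChar q σ = 0 := by
    refine (hχ.add (isCharTwo_sum T hc)).eq_zero_of_unramified (fun ℓ hℓ A hA τ hτ => ?_) σ
    show χ τ + ∑ q ∈ T, x q * qChar q τ = 0
    have hothers : ∀ q ∈ T, q ≠ ℓ → x q * qChar q τ = 0 := fun q hq hne => by
      have := Fact.mk (hT q hq).1
      rw [qChar_unramified q hℓ hne.symm A hA τ hτ, mul_zero]
    by_cases hℓT : ℓ ∈ T
    · rw [← Finset.add_sum_erase _ _ hℓT, Finset.sum_eq_zero (fun q hq => hothers q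
        (Finset.mem_of_mem_erase hq) (Finset.ne_of_mem_erase hq)), add_zero]
      exact hx ℓ hℓT A hA τ hτ
    · rw [Finset.sum_eq_zero (fun q hq => hothers q hq fun e => hℓT (e ▸ hq)),
        hun ℓ hℓ hℓT A hA τ hτ, add_zero]
  exact (by decide : ∀ a b : ZMod 2, a + b = 0 → a = b) _ _ hzero

theorem badPrime_prime_odd (hE : Companion E) : ∀ l ∈ badPrimes E, l.Prime ∧ l ≠ 2 := fun l hl => by
  obtain ⟨hlp, hlΔ⟩ := (mem_badPrimes hE.Δ_ne_zero).1 hl
  exact ⟨hlp, (Companion.bad_prime_spec hE hlp hlΔ).2.1⟩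

/-- The sign character is the sum of the quadratic characters of the bad primes. -/
theorem sgnChar_eq_sum (hE : Companion E) (σ : GalQ) :
    TW.sgnChar hE σ = ∑ l ∈ badPrimes E, qChar l σ := by
  classical
  obtain ⟨x, hx⟩ := (TW.sgnChar_isChar hE).eq_sum_qChar (badPrimes E) (badPrime_prime_odd hE)
    fun ℓ hℓ hℓB => by
      rcases eq_or_ne ℓ 2 with rfl | h2
      · exact sgnChar_unram_two hE
      intro A hA τ hτ
      have hgood : ¬ (ℓ : ℤ) ∣ E.Δ := fun h => hℓB ((mem_badPrimes hE.Δ_ne_zero).2 ⟨hℓ, h⟩)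
      obtain ⟨e, he⟩ := exists_coords_mat2 hE.Δ_ne_zero
      have h1 : mat2 hE.Δ_ne_zero τ = 1 :=
        intertwine_eq_one he fun P => smul_eq_self_of_inertia_two hℓ h2 hgood hA hτ P
      exact sgn_of_cube _ (by
        have h : TW.rho hE τ = 1 := Matrix.map_injective (f := Image.mod2 one_ne_zero)
          (by decide) (h1.trans (Matrix.map_one _ (map_zero _) (map_one _)).symm)
        rw [h, mul_one, mul_one])
  rw [hx]
  refine Finset.sum_congr rfl fun l hl => ?_
  obtain ⟨A, hA, τ, hτ, hs, hq⟩ := TW.exists_sgn_qChar_one hE hl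
  have h := hx τ
  rw [hs, Finset.sum_eq_single_of_mem l hl fun j hj hne => by
    have := Fact.mk (badPrime_prime_odd hE j hj).1
    rw [qChar_unramified j (badPrime_prime_odd hE l hl).1 hne.symm A hA τ hτ, mul_zero],
    hq, mul_one] at h
  rw [← h, one_mul]

/-- An odd number of bad primes are `3` modulo `4`. -/
theorem sum_negOneSign (hE : Companion E) : ∑ l ∈ badPrimes E, negOneSign l = 1 := by
  rw [← Finset.sum_congr rfl fun l hl => qChar_complexConjugation (badPrime_prime_odd hE l hl).1,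
    ← sgnChar_eq_sum hE]
  obtain ⟨hne, -⟩ := Companion.exists_conj_swap hE one_ne_zero
  refine (by decide : ∀ X : TW.M2F, X * X = 1 → X ≠ 1 → TW.sgn X = 1) _ ?_ fun h => hne ?_
  · rw [← map_mul, complexConjugation_mul_self, map_one]
  · rw [show Image.rep hE.Δ_ne_zero 1 complexConjugation = 1 from h,
      Matrix.map_one _ (map_zero _) (map_one _)]

/-- The bad primes have product a square at a Taylor–Wiles prime. -/
theorem sum_legendreBit_eq_zero (hE : Companion E) {q : ℕ} (hq : TWPrime E m q) :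
    ∑ l ∈ badPrimes E, legendreBit q l = 0 := by
  classical
  have := Fact.mk hq.prime
  obtain ⟨A, hA⟩ := exists_liesOverPrime hq.prime
  obtain ⟨F, hF⟩ := exists_isFrobeniusAt hq.prime hA
  have hq4 : q % 4 = 1 := by have := hq.four_dvd; have := hq.prime.two_le; omega
  have hterm : ∀ l ∈ badPrimes E, legendreBit q l = qChar l F := fun l hl => by
    obtain ⟨hlp, hl2⟩ := badPrime_prime_odd hE l hl
    have := Fact.mk hlp
    have hne : q ≠ l := fun e => hq.good (e ▸ ((mem_badPrimes hE.Δ_ne_zero).1 hl).2)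
    rw [qChar_frobenius l hq.prime hne hA hF, legendreBit]
    simp only [ZMod.exists_sq_eq_prime_iff_of_mod_four_eq_one hq4 hl2]
  rw [Finset.sum_congr rfl hterm, ← sgnChar_eq_sum hE]
  have htr := (Companion.det_trace_rep_frobenius hE one_ne_zero hq.prime hq.ne_two hq.good hA hF).2
  refine (by decide : ∀ X : TW.M2F, X.trace ≠ 0 → TW.sgn X = 0) _ ?_
  rw [htr, Ne, ZMod.intCast_zmod_eq_zero_iff_dvd, pow_one]
  exact_mod_cast hq.odd_trace

/-- **Parity.** -/
theorem sum_eq_zero_of_local (hE : Companion E) (hqv : ∀ q ∈ qv, TWPrime E m q)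
    {χ : GalQ → ZMod 2} (hχ : IsCharTwo χ)
    (hun : ∀ ℓ : ℕ, ℓ.Prime → ¬ (ℓ : ℤ) ∣ E.Δ → ℓ ∉ qv → CharUnramAt ℓ χ) (f : ℕ → ZMod 2)
    (hbad : ∀ l ∈ badPrimes E, ∀ A : ValuationSubring Qb, A.LiesOverPrime l →
      ∃ x : ZMod 2, (∀ τ ∈ A.inertiaSubgroupIn ℚ, χ τ = x * TW.sgnChar hE τ) ∧
        ∀ σ : GalQ, A.IsFrobeniusAt σ l → χ σ = x * TW.sgnChar hE σ + f l) :
    ∑ l ∈ badPrimes E, f l = 0 := by
  classical
  set B := badPrimes E with hB
  have hdisj : Disjoint B qv := Finset.disjoint_left.2 fun j hj hj' =>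
    (hqv j hj').good ((mem_badPrimes hE.Δ_ne_zero).1 hj).2
  have hT : ∀ j ∈ B ∪ qv, j.Prime ∧ j ≠ 2 := fun j hj => by
    rcases Finset.mem_union.1 hj with h | h
    · exact badPrime_prime_odd hE j h
    · exact ⟨(hqv j h).prime, (hqv j h).ne_two⟩
  obtain ⟨x, hx⟩ := hχ.eq_sum_qChar (B ∪ qv) hT fun ℓ hℓ hℓT => by
    rw [Finset.mem_union, not_or] at hℓT
    exact hun ℓ hℓ (fun h => hℓT.1 ((mem_badPrimes hE.Δ_ne_zero).2 ⟨hℓ, h⟩)) hℓT.2
  have hf : ∀ l ∈ B, f l =
      ∑ j ∈ B, (x j + x l) * legendreBit j l + ∑ j ∈ qv, x j * legendreBit j l := by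
    intro l hl
    obtain ⟨hlp, hl2⟩ := badPrime_prime_odd hE l hl
    have := Fact.mk hlp
    obtain ⟨A, hA⟩ := exists_liesOverPrime hlp
    obtain ⟨y, hyI, hyF⟩ := hbad l hl A hA
    obtain ⟨ι, hι, hιl⟩ := exists_inertia_qChar_one l hl2 hA
    have hothers : ∀ j ∈ B ∪ qv, j ≠ l → qChar j ι = 0 := fun j hj hne => by
      have := Fact.mk (hT j hj).1
      exact qChar_unramified j hlp hne.symm A hA ι hι
    have hy : y = x l := by
      have h := hyI ι hι
      rw [hx ι, sgnChar_eq_sum hE, Finset.sum_eq_single_of_mem l (Finset.mem_union_left _ hl)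
        fun j hj hne => by rw [hothers j hj hne, mul_zero],
        Finset.sum_eq_single_of_mem (s := B) l hl
          fun j hj hne => hothers j (Finset.mem_union_left _ hj) hne, hιl, mul_one, mul_one] at h
      exact h.symm
    obtain ⟨F, hF⟩ := exists_isFrobeniusAt hlp hA
    have hL : ∀ j ∈ B ∪ qv, j ≠ l → qChar j F = legendreBit j l := fun j hj hne => by
      have := Fact.mk (hT j hj).1
      rw [qChar_frobenius j hlp hne.symm hA hF, legendreBit]
      congr 1
    have h := hyF F hF
    rw [hx F, sgnChar_eq_sum hE, hy, Finset.sum_union hdisj] at h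
    rw [Finset.sum_congr rfl (g := fun j => x j * legendreBit j l) (s₁ := qv) fun j hj => by
      rw [hL j (Finset.mem_union_right _ hj)
        fun e => Finset.disjoint_left.1 hdisj hl (e ▸ hj)]] at h
    have hterm : ∀ j ∈ B, (x j + x l) * legendreBit j l = x j * qChar j F + x l * qChar j F := by
      intro j hj
      rcases eq_or_ne j l with rfl | hne
      · rw [CharTwo.add_self_eq_zero, zero_mul, CharTwo.add_self_eq_zero]
      · rw [hL j (Finset.mem_union_left _ hj) hne, add_mul]
    rw [Finset.sum_congr rfl hterm, Finset.sum_add_distrib, ← Finset.mul_sum]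
    linear_combination (norm := ring_nf) (-1 : ZMod 2) * h
    simp [hB, ZMod.neg_eq_self_mod_two, CharTwo.two_eq_zero]
  rw [Finset.sum_congr rfl hf, Finset.sum_add_distrib]
  have hq0 : ∑ l ∈ B, ∑ j ∈ qv, x j * legendreBit j l = 0 := by
    rw [Finset.sum_comm]
    exact Finset.sum_eq_zero fun j hj => by
      rw [← Finset.mul_sum, sum_legendreBit_eq_zero hE (hqv j hj), mul_zero]
  have hswap : ∑ l ∈ B, ∑ j ∈ B, (x j + x l) * legendreBit j l =
      ∑ j ∈ B, ∑ l ∈ B, x j * (legendreBit j l + legendreBit l j) := by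
    simp only [add_mul, mul_add, Finset.sum_add_distrib]
    rw [Finset.sum_comm (f := fun l j => x j * legendreBit j l)]
  have hinner : ∀ j ∈ B, ∑ l ∈ B, x j * (legendreBit j l + legendreBit l j) = 0 := by
    intro j hj
    obtain ⟨hjp, hj2⟩ := badPrime_prime_odd hE j hj
    have hsum : ∀ l ∈ B, legendreBit j l + legendreBit l j =
        negOneSign j * negOneSign l + if l = j then negOneSign j * negOneSign l else 0 := by
      intro l hl
      rcases eq_or_ne l j with rfl | hne
      · rw [if_pos rfl, legendreBit_self, add_zero, CharTwo.add_self_eq_zero]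
      · obtain ⟨hlp, hl2⟩ := badPrime_prime_odd hE l hl
        rw [if_neg hne, add_zero, legendreBit_add_swap hjp hlp hj2 hl2 hne.symm]
    rw [← Finset.mul_sum, Finset.sum_congr rfl hsum, Finset.sum_add_distrib, ← Finset.mul_sum,
      Finset.sum_ite_eq' B j, if_pos hj, sum_negOneSign hE, mul_one]
    exact mul_eq_zero_of_right _ ((by decide : ∀ a : ZMod 2, a + a * a = 0) _)
  rw [hswap, Finset.sum_eq_zero hinner, hq0, add_zero]

end FLTA.LT2

end
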