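import Fermat.Agent.LT2.PatchedRingCurve
import Fermat.Agent.RT.DeformUniversal

/-!
# Part G, ring side: the rings `R^s` and their point from the curve
-/

set_option autoImplicit false

open scoped Classical
open WeierstrassCurve
open scoped WeierstrassCurve.Affine

noncomputable section

namespace FLTA.LT2

open IsLocalRing FLTA.EllTate FLTA.Deformation FLTA.RT

variable {𝒪 : Type} [CommRing 𝒪] [IsDomain 𝒪] [IsDiscreteValuationRing 𝒪]
  [IsAdicComplete (maximalIdeal 𝒪) 𝒪] [Finite (ResidueField 𝒪)]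
  [Algebra (ZMod 2) (ResidueField 𝒪)]

variable {E : WeierstrassCurve ℤ} (hE : Companion E)

include hE

omit [IsAdicComplete (maximalIdeal 𝒪) 𝒪] [Finite (ResidueField 𝒪)] in
/-- The Tate module in a local algebra lifts `E[2] ⊗ k`. -/
theorem Companion.resCond_point {A : Type} [CommRing A] [IsLocalRing A]
    [Algebra 𝒪 A] [IsLocalHom (algebraMap 𝒪 A)] (φ : ℤ_[2] →+* A) (hφ : IsLocalHom φ) :
    ResCond (resRep hE.Δ_ne_zero (ResidueField 𝒪))
      ((tateRep E hE.Δ_ne_zero 2).baseChangeAlong φ hφ).trace := by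
  refine (resCond_iff _ _).mpr fun σ => ?_
  have hbar : (barMat (resRep hE.Δ_ne_zero (ResidueField 𝒪)) σ).trace =
      algebraMap (ZMod 2) (ResidueField 𝒪) (mat2 hE.Δ_ne_zero σ).trace :=
    (LinearMap.trace_eq_matrix_trace _ (barBasis _) _).symm.trans (trace_resRep _ _ σ)
  rw [hbar, ← trace_tateMatTwo, trace_baseChangeAlong, trace_eq_trace_tateMat,
    show (tateMatTwo E hE.Δ_ne_zero σ).trace = PadicInt.toZMod (tateMat E hE.Δ_ne_zero 2 σ).trace
      from (AddMonoidHom.map_trace (PadicInt.toZMod (p := 2)) _).symm]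
  generalize (tateMat E hE.Δ_ne_zero 2 σ).trace = x
  have hx : x - ((PadicInt.toZMod x).val : ℕ) ∈ maximalIdeal ℤ_[2] := by
    rw [← PadicInt.ker_toZMod, RingHom.mem_ker, map_sub, map_natCast, ZMod.natCast_zmod_val,
      sub_self]
  have h1 : residue A (φ (x - ((PadicInt.toZMod x).val : ℕ))) = 0 :=
    (residue_eq_zero_iff _).mpr (by
      have := hφ
      exact map_nonunit φ _ hx)
  rw [map_sub, map_natCast, map_sub, map_natCast, sub_eq_zero] at h1
  rw [h1]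
  conv_rhs => rw [← ZMod.natCast_zmod_val (PadicInt.toZMod x), map_natCast, map_natCast]

omit [IsAdicComplete (maximalIdeal 𝒪) 𝒪] in
/-- `E[2] ⊗ k` satisfies the conditions, for every sign vector. -/
theorem Companion.signCond_resRep {S T : Finset ℕ} {s : ℕ → ℤ} (h2S : 2 ∈ S)
    (hS : ∀ ℓ : ℕ, ℓ.Prime → (ℓ : ℤ) ∣ E.Δ → ℓ ∈ S) (hs : ∀ j ∈ T, s j = 1 ∨ s j = -1)
    {n : ℕ} (hn : n ≠ 0)
    (hT : ∀ j ∈ T, (j.Prime ∧ (j : ℤ) ∣ E.Δ) ∨ ConjPrime E n j) :
    signCond 𝒪 S T s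
      (GaloisRepAdic.ofResidualGaloisRep (resRep hE.Δ_ne_zero (ResidueField 𝒪))) := by
  let φ : ℤ_[2] →+* ResidueField 𝒪 :=
    (algebraMap (ZMod 2) (ResidueField 𝒪)).comp PadicInt.toZMod
  have hφ : IsLocalHom φ := ⟨fun a ha => by
    by_contra h
    have h0 : PadicInt.toZMod a = 0 := by
      rw [← RingHom.mem_ker, PadicInt.ker_toZMod]
      exact h
    exact not_isUnit_zero (show IsUnit (0 : ResidueField 𝒪) by
      simpa [φ, h0] using ha)⟩
  have h2 : (2 : ResidueField 𝒪) = 0 := by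
    rw [← map_ofNat (algebraMap (ZMod 2) (ResidueField 𝒪)) 2, show (2 : ZMod 2) = 0 from rfl,
      map_zero]
  have hp : ∀ t : ℤ, t = 1 ∨ t = -1 → (t : ResidueField 𝒪) = 1 := by
    rintro t (rfl | rfl)
    · exact Int.cast_one
    · push_cast
      linear_combination -h2
  have hnode : ∀ j, (nodeSign E j : ResidueField 𝒪) = 1 := fun j =>
    hp _ (sq_eq_one_iff.mp (nodeSign_sq E j))
  have hfin : Finite (ResidueField 𝒪) := inferInstance
  have hA := hE.signCond_tateRep φ hφ (𝒪 := 𝒪) (n := n) (by rw [h2, zero_pow hn]) h2S hS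
    (T := T) (s := s) fun j hj => (hT j hj).imp
      (fun h => ⟨h.1, h.2, (hp _ (hs j hj)).trans (hnode j).symm⟩)
      fun h => ⟨h, sq_eq_one_iff.mpr (hs j hj)⟩
  haveI : IsLocalHom (algebraMap 𝒪 (ResidueField 𝒪)) :=
    inferInstanceAs (IsLocalHom (residue 𝒪))
  haveI : IsArtinianRing (ResidueField 𝒪) := inferInstance
  haveI := henselianLocalRing_of_artinian (ResidueField 𝒪)
  refine (isClosed_signCond 𝒪 S T s).of_isEquiv ?_ hA
  refine isEquiv_of_trace_eq _ hE.isAbsolutelyIrreducible_resRep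
    (residue_surjective.comp residue_surjective) (hE.resCond_point φ hφ) fun σ => ?_
  rw [trace_baseChangeAlong, trace_eq_trace_tateMat]
  refine Eq.trans ?_ (trace_resRep hE.Δ_ne_zero (ResidueField 𝒪) σ).symm
  rw [← trace_tateMatTwo]
  exact congrArg (algebraMap (ZMod 2) (ResidueField 𝒪))
    (AddMonoidHom.map_trace (PadicInt.toZMod (p := 2)) _)

/-- **The rings `R^s` exist.** -/
theorem Companion.nonempty_signRing {S T : Finset ℕ} {s : ℕ → ℤ} (h2S : 2 ∈ S)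
    (hS : ∀ ℓ : ℕ, ℓ.Prime → (ℓ : ℤ) ∣ E.Δ → ℓ ∈ S) (hs : ∀ j ∈ T, s j = 1 ∨ s j = -1)
    {n : ℕ} (hn : n ≠ 0)
    (hT : ∀ j ∈ T, (j.Prime ∧ (j : ℤ) ∣ E.Δ) ∨ ConjPrime E n j) :
    Nonempty (GaloisRep.DeformationRingData 𝒪 (resRep hE.Δ_ne_zero (ResidueField 𝒪))
      (signCond 𝒪 S T s)) :=
  nonempty_deformationRingData hE.isAbsolutelyIrreducible_resRep
    (isDeformationCondition_signCond 𝒪 S T s) (hE.signCond_resRep h2S hS hs hn hT)
    (tangentFinite_signCond _ S T s)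

/-- **The point of `R^s` given by the curve**, in a finite local ring in which `2 ^ n = 0`. -/
theorem Companion.exists_signRing_point {S T : Finset ℕ} {s : ℕ → ℤ}
    (D : GaloisRep.DeformationRingData 𝒪 (resRep hE.Δ_ne_zero (ResidueField 𝒪))
      (signCond 𝒪 S T s))
    {A : Type} [CommRing A] [IsLocalRing A] [Finite A] [Algebra 𝒪 A]
    [IsLocalHom (algebraMap 𝒪 A)] (hA : Function.Surjective (residue A ∘ algebraMap 𝒪 A))
    (φ : ℤ_[2] →+* A) (hφ : IsLocalHom φ) {n : ℕ} (h2 : (2 : A) ^ n = 0) (h2S : 2 ∈ S)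
    (hS : ∀ ℓ : ℕ, ℓ.Prime → (ℓ : ℤ) ∣ E.Δ → ℓ ∈ S)
    (hT : ∀ j ∈ T, (j.Prime ∧ (j : ℤ) ∣ E.Δ ∧ (s j : A) = (nodeSign E j : A)) ∨
      (ConjPrime E n j ∧ s j ^ 2 = 1)) :
    ∃ ψ : D.R →ₐ[𝒪] A, IsLocalHom (ψ : D.R →+* A) ∧
      ∀ σ, ψ (D.ρ.trace σ) = ((tateRep E hE.Δ_ne_zero 2).baseChangeAlong φ hφ).trace σ := by
  haveI : IsArtinianRing A := isArtinian_of_finite
  obtain ⟨ψ, h1, h3, -⟩ := existsUnique_map_trace D A hA _
    (hE.signCond_tateRep φ hφ (𝒪 := 𝒪) h2 h2S hS hT) (hE.resCond_point φ hφ)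
  exact ⟨ψ, h1, h3⟩

omit hE [Algebra (ZMod 2) (ResidueField 𝒪)] in
/-- Frobenius traces outside any finite set containing `2` generate `R^s`. -/
theorem adjoin_frobTrace_dense_signRing {ρbar : ResidualGaloisRep (ResidueField 𝒪)}
    {S T : Finset ℕ} {s : ℕ → ℤ}
    (D : GaloisRep.DeformationRingData 𝒪 ρbar (signCond 𝒪 S T s)) (S' : Finset ℕ) (h2 : 2 ∈ S')
    (m : ℕ) (x : D.R) :
    ∃ y ∈ Algebra.adjoin 𝒪 (frobTraces D.ρ S'), x - y ∈ maximalIdeal D.R ^ (m + 1) :=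
  adjoin_frobTrace_dense (isDeformationCondition_signCond 𝒪 S T s) D D.isOfType.1.1 S' h2 m x

omit hE [IsAdicComplete (maximalIdeal 𝒪) 𝒪] [Algebra (ZMod 2) (ResidueField 𝒪)] in
/-- A point killing the coordinates is evaluation at the constant coefficient. -/
theorem eq_constantCoeff_of_X {A : Type} [CommRing A] [IsLocalRing A]
    [Algebra 𝒪 A] [IsHausdorff (maximalIdeal A) A]
    (hA : Function.Surjective (residue A ∘ algebraMap 𝒪 A)) {r : ℕ}
    (γ : MvPowerSeries (Fin r) 𝒪 →ₐ[𝒪] A) (h : ∀ i, γ (MvPowerSeries.X i) = 0)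
    (f : MvPowerSeries (Fin r) 𝒪) : γ f = algebraMap 𝒪 A (MvPowerSeries.constantCoeff f) := by
  let c : MvPowerSeries (Fin r) 𝒪 →ₐ[𝒪] 𝒪 :=
    { (MvPowerSeries.constantCoeff : MvPowerSeries (Fin r) 𝒪 →+* 𝒪) with
      commutes' := fun a => by
        show MvPowerSeries.constantCoeff (algebraMap 𝒪 (MvPowerSeries (Fin r) 𝒪) a) = a
        rw [MvPowerSeries.algebraMap_apply, MvPowerSeries.constantCoeff_C]
        rfl }
  have e : γ = (Algebra.ofId 𝒪 A).comp c := by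
    refine powerSeries_algHom_ext hA fun i => ?_
    rw [h i, AlgHom.comp_apply]
    show 0 = algebraMap 𝒪 A (MvPowerSeries.constantCoeff (MvPowerSeries.X i))
    rw [MvPowerSeries.constantCoeff_X, map_zero]
  rw [e]
  rfl

end FLTA.LT2

end
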