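import Fermat.Agent.LT2.PatchedTangentComponent
import Fermat.Agent.LT2.LocalFlatBridge
import Fermat.Agent.LT2.PatchedRingResidual
import Fermat.Agent.LT2.PatchedRingCond
import Fermat.Agent.TaylorWiles.Defo

/-!
# Part G, tangent side: deformations to the dual numbers give tangent vectors

Every functional on the coefficient field turns a deformation with the signed conditions (signs at
bad primes moved by `1 + ε f`) into a tangent vector over `𝔽₂`.
-/

set_option autoImplicit false

open scoped Matrix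

noncomputable section

namespace FLTA.LT2.Tangent

open FLTA.TaylorWiles.Flat (M2 inerG)
open FLTA.PT (GQ Qb Gl lvlLoc lvlQ loc)
open FLTA.TW (Ad0 IsDefoOf defoMat)

attribute [local instance] FLTA.PT.factPrime

variable {E : WeierstrassCurve ℤ} (hE : Companion E)

theorem mat2_eq (σ : GQ) : mat2 hE.Δ_ne_zero σ = mat hE σ := by
  have key : ∀ a : ZMod (2 ^ 1), Image.mod2 one_ne_zero a = a := by decide
  exact Matrix.ext fun i j => key _

variable {k : Type} [Field k] [Finite k] [Algebra (ZMod 2) k]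

omit [Finite k] in
theorem two_eq_zero_dual : (2 : DualNumber k) = 0 := by
  have : CharP k 2 := charP_of_injective_algebraMap (algebraMap (ZMod 2) k).injective 2
  refine TrivSqZeroExt.ext ?_ ?_
  · rw [show (2 : DualNumber k) = ((2 : ℕ) : DualNumber k) from (Nat.cast_ofNat).symm,
      TrivSqZeroExt.fst_natCast, CharP.cast_eq_zero, TrivSqZeroExt.fst_zero]
  · rw [show (2 : DualNumber k) = ((2 : ℕ) : DualNumber k) from (Nat.cast_ofNat).symm,
      TrivSqZeroExt.snd_natCast, TrivSqZeroExt.snd_zero]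

omit [Finite k] in
theorem intCast_odd_dual {s : ℤ} (hs : Odd s) : (s : DualNumber k) = 1 := by
  obtain ⟨r, rfl⟩ := hs
  push_cast
  rw [two_eq_zero_dual, zero_mul, zero_add]

/-- The unit `1 + ε c`. -/
def oneEps (c : k) : DualNumber k := TrivSqZeroExt.inl 1 + TrivSqZeroExt.inr c

omit [Finite k] [Algebra (ZMod 2) k] in
theorem oneEps_mul (a c : k) : oneEps a * oneEps c = oneEps (a + c) :=
  TrivSqZeroExt.ext (by simp [oneEps]) (by simp [oneEps, add_comm])

omit [Finite k] in
theorem oneEps_sq (c : k) : oneEps c * oneEps c = 1 := by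
  have : CharP k 2 := charP_of_injective_algebraMap (algebraMap (ZMod 2) k).injective 2
  rw [oneEps_mul, CharTwo.add_self_eq_zero]
  exact TrivSqZeroExt.ext (by simp [oneEps]) (by simp [oneEps])

variable (ρ : GaloisRepAdic (DualNumber k))

omit [Finite k] in
/-- Cyclotomic determinant is `1` in characteristic two. -/
theorem det_eq_one_of_cyclotomic (hdet : ρ.DetIsCyclotomic 2) (g : GQ) :
    LinearMap.det (ρ.ρ g) = 1 := by
  have h := hdet.2 1 g 1 fun μ hμ => by
    rw [pow_one] at hμ
    rcases sq_eq_one_iff.1 hμ with rfl | rfl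
    · rw [map_one, one_pow]
    · rw [map_neg, map_one, pow_one]
  rw [pow_one, Nat.cast_one, Nat.cast_ofNat, two_eq_zero_dual, Ideal.span_singleton_eq_bot.2 rfl,
    Ideal.mem_bot, sub_eq_zero] at h
  exact h

variable {ρ}

omit [Finite k] in
/-- An element acting trivially has trivial matrix and class. -/
theorem defo_eq_zero {x : GQ → Ad0 k}
    (hx : IsDefoOf (resMat hE.Δ_ne_zero k) x ρ) {σ : GQ} (hσ : ρ.ρ σ = 1) : (x σ).1 = 0 := by
  obtain ⟨b, hb⟩ := hx
  have h := hb σ
  rw [hσ, LinearMap.toMatrix_one] at h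
  have h1 : resMat hE.Δ_ne_zero k σ = 1 := by
    have := congrArg (fun A : Matrix (Fin 2) (Fin 2) (DualNumber k) => A.map TrivSqZeroExt.fst) h
    refine (Eq.trans ?_ this.symm).trans (Matrix.map_one _ (by simp) (by simp))
    ext i j; simp [defoMat]
  have h2 := congrArg (fun A : Matrix (Fin 2) (Fin 2) (DualNumber k) => A.map TrivSqZeroExt.snd) h
  have h3 : (defoMat (resMat hE.Δ_ne_zero k) x σ).map TrivSqZeroExt.snd = (x σ).1 := by
    ext i j; by_cases hij : i = j <;> simp [defoMat, h1, hij]
  rw [h3] at h2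
  rw [← h2]
  ext i j
  by_cases hij : i = j <;> simp [hij]

/-- **Components of a deformation are tangent vectors.** -/
theorem isClass_of_defo {Q Qt : Finset ℕ} {n : ℕ} (hQ : ∀ q ∈ Q, ConjPrime E n q)
    (f : ℕ → k) {x : GQ → Ad0 k} (hx : IsDefoOf (resMat hE.Δ_ne_zero k) x ρ)
    (hdet : ρ.DetIsCyclotomic 2) (hflat : ρ.IsFlatAt 2)
    (hun : ∀ ℓ : ℕ, ℓ.Prime → ℓ ≠ 2 → ¬ (ℓ : ℤ) ∣ E.Δ → ℓ ∉ Q → ℓ ∉ Qt → ρ.IsUnramifiedAt ℓ)
    (hbad : ∀ j ∈ badPrimes E, ∀ P : ValuationSubring Qb, P.LiesOverPrime j →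
      ∀ τ ∈ P.inertiaSubgroupIn ℚ,
        (∀ τ' ∈ P.inertiaSubgroupIn ℚ, (ρ.ρ τ - 1) * (ρ.ρ τ' - 1) = 0) ∧
        ∀ σ : GQ, P.IsFrobeniusAt σ j → (ρ.ρ σ - oneEps (f j) • 1) * (ρ.ρ τ - 1) = 0)
    (hQl : ∀ q ∈ Q, ∃ s : ℤ, Odd s ∧ SignEqAt ρ q s) (l : k →ₗ[ZMod 2] ZMod 2) :
    IsClass hE Q Qt (fun j => l (f j)) fun g => mapFun l (x g).1 := by
  have : Finite (DualNumber k) := inferInstanceAs (Finite (k × k))
  have : IsArtinianRing (DualNumber k) := isArtinian_of_finite
  obtain ⟨b, hb⟩ := id hx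
  let N : GQ →* Matrix (Fin 2) (Fin 2) (DualNumber k) :=
    (LinearMap.toMatrixAlgEquiv b).toMonoidHom.comp ρ.ρ
  have hN : ∀ g, N g = defoMat (resMat hE.Δ_ne_zero k) x g := hb
  have hbase : ∀ g, resMat hE.Δ_ne_zero k g = baseMat (mat hE g) := fun g => by
    show (mat2 hE.Δ_ne_zero g).map _ = _
    rw [mat2_eq]
    rfl
  have hfst : ∀ g, (N g).map TrivSqZeroExt.fst = baseMat (mat hE g) := fun g => by
    rw [hN, ← hbase]; ext i j; simp [defoMat]
  have hsnd : ∀ g, (N g).map TrivSqZeroExt.snd = (x g).1 * baseMat (mat hE g) := fun g => by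
    rw [hN, ← hbase]; ext i j; simp [defoMat]
  have hNdet : ∀ g, (N g).det = 1 := fun g =>
    (LinearMap.det_toMatrix b (ρ.ρ g)).trans (det_eq_one_of_cyclotomic ρ hdet g)
  have hbm : ∀ A B : M2 (ZMod 2), (baseMat A : M2 k) * baseMat B = baseMat (A * B) :=
    fun A B => (Matrix.map_mul).symm
  have hb1 : (baseMat 1 : M2 k) = 1 := Matrix.map_one _ (map_zero _) (map_one _)
  have hcl : ∀ g, (N g).map TrivSqZeroExt.snd * baseMat (mat hE g⁻¹) = (x g).1 := fun g => by
    rw [hsnd, mul_assoc, hbm, ← map_mul, mul_inv_cancel, map_one, hb1, mul_one]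
  have hsm : ∀ X Y : Matrix (Fin 2) (Fin 2) (DualNumber k), (X * Y).map TrivSqZeroExt.snd =
      X.map TrivSqZeroExt.fst * Y.map TrivSqZeroExt.snd +
        X.map TrivSqZeroExt.snd * Y.map TrivSqZeroExt.fst := fun X Y => by
    ext i j
    simp [Matrix.mul_apply, Fin.sum_univ_two]
    ring
  -- equations in matrices
  have heq : ∀ {σ τ : GQ} {a c : DualNumber k}, (ρ.ρ σ - a • 1) * (ρ.ρ τ - c • 1) = 0 →
      (N σ - a • 1) * (N τ - c • 1) = 0 := fun {σ τ a c} h => by
    have := congrArg (LinearMap.toMatrixAlgEquiv b) h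
    rwa [map_mul, map_sub, map_sub, map_smul, map_smul, map_one, map_zero] at this
  have hlevN : ∀ q : Nat.Primes, ∃ U ∈ lvlLoc q, ∀ u ∈ U, N (loc q u) = 1 := fun q => by
    obtain ⟨L, hL, hlvl⟩ := Deformation.exists_level_eq_one_of_artinian ρ
    refine ⟨ρ.ρ.toHomUnits.ker.comap (loc q),
      ⟨_, ⟨inferInstance, L, hL, fun s hs => Units.ext ?_⟩, rfl⟩, fun u hu => ?_⟩
    · have h1 := hlvl s fun y hy => (IntermediateField.mem_fixingSubgroup_iff L s).mp hs y hy
      rw [Deformation.toMat_apply, ← LinearMap.toMatrix_one (Deformation.repBasis ρ)] at h1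
      exact (LinearMap.toMatrix _ _).injective h1
    · have hρ : ρ.ρ (loc q u) = 1 := congrArg Units.val (MonoidHom.mem_ker.mp hu)
      show LinearMap.toMatrixAlgEquiv b (ρ.ρ (loc q u)) = 1
      rw [hρ, map_one]
  refine ⟨fun g => ?_, fun g h => ?_, ?_, fun ℓ hℓ h2 hg hℓQ hℓt A hA σ hσ => ?_,
    fun q hq => ?_, fun q hq => ?_, ?_, fun hst => ?_⟩
  · have h : (x g).1.trace = 0 := LinearMap.mem_ker.mp (x g).2
    show ((x g).1.map l).trace = 0
    rw [trace_map_functional, h, map_zero]
  · have e : (x (g * h)).1 =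
        baseMat (mat hE g) * (x h).1 * baseMat (mat hE g⁻¹) + (x g).1 := by
      conv_lhs => rw [← hcl, map_mul N, hsm, hfst, hfst, hsnd, hsnd,
        mul_inv_rev, map_mul (mat hE), ← hbm, add_mul]
      congr 1
      · simp only [mul_assoc]
        rw [← mul_assoc (baseMat (mat hE h)), hbm (mat hE h), ← map_mul (mat hE), mul_inv_cancel,
          map_one, hb1, one_mul]
      · simp only [mul_assoc]
        rw [← mul_assoc (baseMat (mat hE h)), hbm (mat hE h), ← map_mul (mat hE), mul_inv_cancel,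
          map_one, hb1, one_mul, hbm, ← map_mul, mul_inv_cancel, map_one, hb1, mul_one]
    show mapFun l (x (g * h)).1 = _
    rw [e, mapFun_add, mapFun_mul_baseMat, mapFun_baseMat_mul]
  · obtain ⟨L, hL, hlvl⟩ := Deformation.exists_level_eq_one_of_artinian ρ
    refine ⟨L, hL, fun s hs => ?_⟩
    have h1 := hlvl s fun y hy => (IntermediateField.mem_fixingSubgroup_iff L s).mp hs y hy
    rw [Deformation.toMat_apply, ← LinearMap.toMatrix_one (Deformation.repBasis ρ)] at h1
    show mapFun l (x s).1 = 0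
    rw [defo_eq_zero hE hx ((LinearMap.toMatrix _ _).injective h1)]
    exact Matrix.map_zero _ (map_zero l)
  · show mapFun l (x σ).1 = 0
    rw [defo_eq_zero hE hx (hun ℓ hℓ h2 hg hℓQ hℓt A hA σ hσ)]
    exact Matrix.map_zero _ (map_zero l)
  · -- a bad prime: twist by the unramified character
    obtain ⟨hlp, hld⟩ := (mem_badPrimes hE.Δ_ne_zero).1 hq
    have hP := FLTA.PT.primeLocalPlace_liesOverPrime q
    obtain ⟨u, hu⟩ := exists_isUnrChar q (Companion.bad_prime_spec hE hlp hld).2.1
    refine ⟨u, hu, ?_⟩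
    obtain ⟨F, hF, hFP⟩ := exists_frobenius_loc q
    obtain ⟨τ, hτ, P, hne⟩ := Companion.exists_inertia_smul_ne_tors2 hE hlp hld hP
    obtain ⟨t, ht, rfl⟩ := FLTA.TW.exists_inertiaG_eq q hτ
    have hut : u t = 0 := hu.inertia t (mem_inerG_of_mem_inertiaG ht)
    set c : Gl q → k := fun g => f q * algebraMap (ZMod 2) k (u g)
    have hc : ∀ g h, c (g * h) = c g + c h := fun g h => by
      simp only [c, hu.map_mul, map_add, mul_add]
    let R : Gl q →* Matrix (Fin 2) (Fin 2) (DualNumber k) :=
      { toFun := fun g => oneEps (c g) • N (loc q g)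
        map_one' := by
          have h1 := hc 1 1
          rw [mul_one, right_eq_add] at h1
          rw [map_one, map_one, h1, oneEps, TrivSqZeroExt.inl_one, TrivSqZeroExt.inr_zero,
            add_zero, one_smul]
        map_mul' := fun g h => by
          rw [hc, ← oneEps_mul, map_mul, map_mul, smul_mul_smul_comm] }
    have hR : ∀ g, R g = oneEps (c g) • N (loc q g) := fun _ => rfl
    have hRf : ∀ g, (R g).map TrivSqZeroExt.fst = baseMat (((mat hE).comp (loc q)) g) := fun g => by
      show _ = baseMat (mat hE (loc q g))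
      rw [hR, ← hfst]
      ext i j; simp [oneEps]
    have hRs : ∀ g, defoClass R ((mat hE).comp (loc q)) g = (x (loc q g)).1 + c g • 1 := fun g => by
      have e : (R g).map TrivSqZeroExt.snd =
          (N (loc q g)).map TrivSqZeroExt.snd + c g • baseMat (mat hE (loc q g)) := by
        rw [hR, ← hfst]
        ext i j
        simp [oneEps]
      rw [defoClass, MonoidHom.comp_apply, map_inv (loc q), e, add_mul, hcl, smul_mul_assoc, hbm,
        ← map_mul, mul_inv_cancel, map_one, hb1]
    have hRt : ∀ s : Gl q, u s = 0 → R s = N (loc q s) := fun s hs => by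
      rw [hR, show c s = 0 by simp [c, hs], oneEps, TrivSqZeroExt.inl_one, TrivSqZeroExt.inr_zero,
        add_zero, one_smul]
    have hti := FLTA.TW.mem_inertiaG.1 ht
    have hone : ∀ σ ∈ (ExtCitation.primeLocalPlace q).inertiaSubgroupIn ℚ,
        (N σ - 1) * (N (loc q t) - 1) = 0 := fun σ hσ => by
      have := heq (σ := σ) (τ := loc q t) (a := 1) (c := 1)
        (by rw [one_smul]; exact (hbad q hq _ hP σ hσ).1 _ hti)
      rwa [one_smul] at this
    have key := lineFixed_of_defo (ρ := R) (M := (mat hE).comp (loc q)) hRf l (fun g => ?_) ?_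
      (mat_level hE q) hF (g₀ := t) ?_ ?_ ?_ ?_
    · have e : (fun g => mapFun l (defoClass R ((mat hE).comp (loc q)) g)) =
          fun g => mapFun l (x (loc q g)).1 + (l (f q) * u g) • (1 : M2 (ZMod 2)) :=
        funext fun g => by
          rw [hRs, mapFun_add]
          congr 1
          ext i j
          by_cases hij : i = j
          · subst hij
            simp only [mapFun, Matrix.map_apply, Matrix.smul_apply, Matrix.one_apply_eq,
              smul_eq_mul, mul_one, c]
            exact functional_mul_algebraMap l _ _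
          · simp [mapFun, hij]
      exact e ▸ key
    · rw [hR, Matrix.det_smul, Fintype.card_fin, hNdet, mul_one, pow_two, oneEps_sq]
    · obtain ⟨U, hU, h1⟩ := hlevN q
      obtain ⟨W, hW, h2⟩ := hu.level
      exact ⟨U ⊓ W, (lvlLoc q).inf_mem U hU W hW, fun y hy => by
        rw [hRt y (h2 y hy.2), h1 y hy.1]⟩
    · exact intertwine_ne_one (coord_smul hE) hne
    · rw [hRt t hut]; exact hone _ hti
    · have h1 := heq (σ := loc q F) (τ := loc q t) (a := oneEps (f q)) (c := 1)
        (by rw [one_smul]; exact (hbad q hq _ hP _ hti).2 _ hFP)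
      rw [one_smul] at h1
      have hcF : c F = f q := by simp [c, hu.frobenius F hFP]
      have h2 := congrArg (fun X => oneEps (f q) • X) h1
      simp only [smul_zero] at h2
      rw [← smul_mul_assoc, smul_sub, smul_smul, oneEps_sq, one_smul] at h2
      rw [hRt t hut, hR, hcF]
      exact h2
    · intro s hs
      rw [hRt s (hu.inertia s hs), hRt t hut]
      exact hone _ (loc_mem_inertia hs)
  · -- a conjugation prime
    have hP := FLTA.PT.primeLocalPlace_liesOverPrime q
    obtain ⟨F, hF, hFP⟩ := exists_frobenius_loc q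
    obtain ⟨s, hs, hsq⟩ := hQl q hq
    have hc := hQ q hq
    have hj : ((q : ℕ) : ℤ) % 2 = 1 := by
      have := hc.prime.odd_of_ne_two hc.ne_two
      rw [Nat.odd_iff] at this
      omega
    have hsj : ((s * (q : ℕ) : ℤ) : DualNumber k) = 1 :=
      intCast_odd_dual (hs.mul (Int.odd_iff.2 hj))
    have h00 : (N (loc q F) - 1) * (N (loc q F) - 1) = 0 := by
      have h1 := hsq.frob_frob _ hP _ hFP _ hFP
      rw [prodEnd, hsj, intCast_odd_dual hs] at h1
      have := heq (σ := loc q F) (τ := loc q F) (a := 1) (c := 1) h1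
      rwa [one_smul] at this
    obtain ⟨P, hne⟩ := exists_frobenius_smul_ne_two hE hc.prime hc.ne_two hc.good hc.nonsquare
      hP hFP
    have key := lineFixed_of_defo (ρ := N.comp (loc q)) (M := (mat hE).comp (loc q))
      (fun g => hfst _) l (fun g => hNdet _) (hlevN q) (mat_level hE q) hF (g₀ := F)
      (intertwine_ne_one (coord_smul hE) hne) h00 h00 fun i hi => by
        have h1 := hsq.inertia_frob _ hP _ hFP _ (loc_mem_inertia hi)
        rw [prodEnd, intCast_odd_dual hs, Int.cast_one] at h1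
        have := heq (σ := loc q i) (τ := loc q F) (a := 1) (c := 1) h1
        rwa [one_smul] at this
    have e : ∀ g, defoClass (N.comp (loc q)) ((mat hE).comp (loc q)) g = (x (loc q g)).1 :=
      fun g => by
        show (N (loc q g)).map TrivSqZeroExt.snd * baseMat (mat hE (loc q g⁻¹)) = _
        rw [map_inv (loc q), hcl]
    simp only [e] at key
    exact key
  · exact low_of_isFlatAt (res2_loc hE) (fun g => hbase _) hx hflat l
  · exact unramified_of_flatExt (res2_loc hE)
      (flatExt_of_isFlatAt (M₀ := (mat hE).comp (loc twoP)) (fun g => hbase _) hx hflat l) hst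

end FLTA.LT2.Tangent

end
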