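import Fermat.Agent.Density.Frobenius

/-!
# Frobenius elements generating a prescribed cyclic group
-/

set_option autoImplicit false

noncomputable section

namespace FLTA.LT2

local notation "Qb" => AlgebraicClosure ℚ
local notation "GQ" => (Qb ≃ₐ[ℚ] Qb)

/-- For a hom of finite level and `g`, some Frobenius element outside `S` has a value generating
the same cyclic group as the value of `g`. -/
theorem exists_frobenius_map_pow {M : Type} [Monoid M] (φ : GQ →* M)
    (hφ : GaloisFactorsThroughFiniteLevel φ) (S : Finset ℕ) (g : GQ) :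
    ∃ ℓ : ℕ, ℓ.Prime ∧ ℓ ∉ S ∧ ∃ A : ValuationSubring Qb, A.LiesOverPrime ℓ ∧
      ∃ τ : GQ, A.IsFrobeniusAt τ ℓ ∧ ∃ j k : ℕ, φ τ = φ g ^ j ∧ φ τ ^ k = φ g := by
  obtain ⟨L, hL, h1⟩ := hφ
  obtain ⟨ℓ, hℓ, hS, A, hA, τ, hτ, j, k, hk, hj⟩ := Density.exists_frobenius_generator L S g
  have hkey : ∀ a b : GQ, (∀ x ∈ L, a x = b x) → φ a = φ b := fun a b hab => by
    have h := h1 (b⁻¹ * a) fun x hx => by
      show b⁻¹ (a x) = x
      rw [hab x hx]
      exact b.symm_apply_apply x
    calc φ a = φ b * φ (b⁻¹ * a) := by rw [← map_mul, mul_inv_cancel_left]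
      _ = φ b := by rw [h, mul_one]
  exact ⟨ℓ, hℓ, hS, A, hA, τ, hτ, j, k, by rw [← hkey _ _ hj, map_pow],
    by rw [← hkey _ _ hk, map_pow]⟩

/-- For an element of order dividing `m`, the exponent is prime to `m`. -/
theorem coprime_of_pow_pow_eq {M : Type} [Monoid M] {x : M} {j k : ℕ}
    (h : (x ^ j) ^ k = x) (hfin : IsOfFinOrder x) : j.Coprime (orderOf x) := by
  rw [← pow_mul] at h
  have h' : j * k ≡ 1 [MOD orderOf x] := by
    rw [← hfin.pow_eq_pow_iff_modEq, h, pow_one]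
  exact Nat.coprime_of_mul_modEq_one k h'

end FLTA.LT2
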