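import Fermat.Agent.LT2.ImageGroup

/-!
# Part F: elements of order three and the sign on `GL₂(𝔽₂) = S₃`
-/

set_option autoImplicit false

open Matrix

namespace FLTA.LT2.TW

/-- Matrices over `𝔽₂`, in the shape `ZMod (2 ^ 1)` used by `Image.rep`. -/
abbrev M2F : Type := Matrix (Fin 2) (Fin 2) (ZMod (2 ^ 1))

/-- The sign of the permutation of the three nonzero vectors: `1` on transvections. -/
def sgn (X : M2F) : ZMod 2 := if X ≠ 1 ∧ X.trace = 0 then 1 else 0

theorem sgn_mul : ∀ X Y : M2F, X.det = 1 → Y.det = 1 → sgn (X * Y) = sgn X + sgn Y := by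
  decide

theorem sgn_one : sgn 1 = 0 := by decide

theorem eq_one_or_trace_of_sgn : ∀ X : M2F, X.det = 1 → sgn X = 0 → X = 1 ∨ X.trace = 1 := by
  decide

theorem cube_of_trace : ∀ X : M2F, X.det = 1 → X.trace = 1 →
    X ^ 3 = 1 ∧ (X ^ 2).trace = 1 ∧ X ≠ 1 := by
  decide

theorem commutator_trace : ∀ A B A' B' : M2F, A = !![0, 1; 1, 0] → B = !![1, 1; 0, 1] →
    A * A' = 1 → B * B' = 1 → (A * B * A' * B').trace = 1 := by
  rintro A B A' B' rfl rfl
  revert A' B'
  decide

theorem sgn_eq_one_of_unipotent : ∀ X : M2F, X ≠ 1 → (X - 1) * (X - 1) = 0 → sgn X = 1 := by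
  decide

/-- A power of an element of order three generating the same group has order three. -/
theorem trace_pow_of_trace {X : M2F} (hd : X.det = 1) (ht : X.trace = 1) {j k : ℕ}
    (h : (X ^ j) ^ k = X) : (X ^ j).trace = 1 := by
  obtain ⟨h3, h2, h1⟩ := cube_of_trace X hd ht
  have e : X ^ j = X ^ (j % 3) := pow_eq_pow_mod j h3
  rcases (by omega : j % 3 = 0 ∨ j % 3 = 1 ∨ j % 3 = 2) with h0 | h0 | h0 <;> rw [h0] at e
  · rw [e, pow_zero, one_pow] at h
    exact absurd h.symm h1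
  · rw [e, show X ^ 1 = X from pow_one X, ht]
  · rw [e, h2]

end FLTA.LT2.TW
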