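import Fermat.Agent.LT2.PrimesScalar
import Fermat.Agent.LT2.PrimesScalarMat
import Fermat.Agent.LT2.PrimesFrobenius
import Fermat.Agent.LT2.ImageCompanion

/-!
# Part F: existence of Taylor–Wiles primes at `2`
-/

set_option autoImplicit false

open FLTA.Galois Matrix

noncomputable section

namespace FLTA.LT2

local notation "Qb" => AlgebraicClosure ℚ
local notation "Γℚ" => (Qb ≃ₐ[ℚ] Qb)

namespace TW

variable {E : WeierstrassCurve ℤ} (hE : Companion E)

/-- The representation on `E[2]`. -/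
abbrev rho : Γℚ →* M2F := Image.rep hE.Δ_ne_zero 1

theorem det_rho (σ : Γℚ) : (rho hE σ).det = 1 :=
  (by decide : ∀ x : ZMod (2 ^ 1), x * x = x → x ≠ 0 → x = 1) _
    ((by decide : ∀ x : ZMod (2 ^ 1), x * x = x) _) fun h0 => by
      have h := Image.isUnit_det_rep hE.Δ_ne_zero 1 σ
      rw [show (Image.rep hE.Δ_ne_zero 1 σ).det = 0 from h0] at h
      exact (by decide : ¬ (0 : ZMod (2 ^ 1)) = 1) (isUnit_zero_iff.1 h)

/-- The sign character of `E[2]`. -/
def sgnChar (σ : Γℚ) : ZMod 2 := sgn (rho hE σ)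

theorem sgnChar_isChar : IsCharTwo (sgnChar hE) := by
  refine ⟨fun σ τ => ?_, ?_⟩
  · rw [sgnChar, map_mul, sgn_mul _ _ (det_rho hE σ) (det_rho hE τ)]; rfl
  · obtain ⟨L, hL, h⟩ := Image.rep_finiteLevel hE.Δ_ne_zero 1
    exact ⟨L, hL, fun σ hσ => by
      rw [sgnChar, show rho hE σ = 1 from
        h σ ((IntermediateField.mem_fixingSubgroup_iff _ _).1 hσ), sgn_one]⟩

theorem exists_sgn_qChar_one {l : ℕ} (hl : l ∈ badPrimes E) :
    ∃ A : ValuationSubring Qb, A.LiesOverPrime l ∧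
      ∃ σ ∈ A.inertiaSubgroupIn ℚ, sgnChar hE σ = 1 ∧ qChar l σ = 1 := by
  obtain ⟨hlp, hlΔ⟩ := (mem_badPrimes hE.Δ_ne_zero).1 hl
  obtain ⟨-, hl2, -⟩ := Companion.bad_prime_spec hE hlp hlΔ
  obtain ⟨A, hA⟩ := exists_liesOverPrime hlp
  obtain ⟨σ, hσ, hne, hsq, -⟩ :=
    Companion.exists_inertia_transvection hE one_ne_zero hlp hlΔ hA
  have hs : sgnChar hE σ = 1 := sgn_eq_one_of_unipotent _
    (fun h => hne (by rw [show Image.rep hE.Δ_ne_zero 1 σ = 1 from h,
      Matrix.map_one _ (map_zero _) (map_one _)])) hsq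
  refine ⟨A, hA, σ, hσ, hs, ?_⟩
  have := Fact.mk hlp
  obtain ⟨x, hx⟩ := (sgnChar_isChar hE).exists_unram_add_qChar l hl2
  have h := hx A hA σ hσ
  simp only [hs] at h
  exact (by decide : ∀ a b : ZMod 2, 1 + a * b = 0 → b = 1) _ _ h

theorem cycloMod_eq_one_of_inertia {l : ℕ} (hl : l.Prime) (hl2 : l ≠ 2) {A : ValuationSubring Qb}
    (hA : A.LiesOverPrime l) {σ : Γℚ} (hσ : σ ∈ A.inertiaSubgroupIn ℚ) (m : ℕ) :
    Carayol.cycloMod 2 m σ = 1 := by
  show PadicInt.toZModPow m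
    (((cyclotomicCharacter Qb 2 σ.toRingEquiv : (ℤ_[2])ˣ)) : ℤ_[2]) = 1
  rw [show cyclotomicCharacter Qb 2 σ.toRingEquiv = 1 from
    Galois.cyclotomicCharacter_inertia 2 hl hl2 hA hσ, Units.val_one, map_one]

theorem exists_commutator_order_three (m : ℕ) :
    ∃ τ : Γℚ, (rho hE τ).trace = 1 ∧ Carayol.cycloMod 2 m τ = 1 ∧
      ∀ χ : Γℚ → ZMod 2, IsCharTwo χ → χ τ = 0 := by
  obtain ⟨a, ha⟩ := Companion.exists_rep_eq hE one_ne_zero
    (M := !![0, 1; 1, 0]) (by rw [Matrix.det_fin_two_of]; decide)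
  obtain ⟨b, hb⟩ := Companion.exists_rep_eq hE one_ne_zero
    (M := !![1, 1; 0, 1]) (by rw [Matrix.det_fin_two_of]; decide)
  refine ⟨a * b * a⁻¹ * b⁻¹, ?_, ?_, fun χ hχ => ?_⟩
  · rw [map_mul, map_mul, map_mul]
    exact commutator_trace _ _ _ _ ha hb (by rw [← map_mul, mul_inv_cancel, map_one])
      (by rw [← map_mul, mul_inv_cancel, map_one])
  · rw [map_mul, map_mul, map_mul, mul_right_comm (Carayol.cycloMod 2 m a), ← map_mul,
      mul_inv_cancel, map_one, one_mul, ← map_mul, mul_inv_cancel, map_one]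
  · rw [hχ.map_mul, hχ.apply_conj, ← hχ.map_mul, mul_inv_cancel, hχ.map_one]

theorem exists_level_forall (s : Finset ℕ) {f : ℕ → Γℚ → ZMod 2}
    (h : ∀ i ∈ s, IsCharTwo (f i)) :
    ∃ L : IntermediateField ℚ Qb, FiniteDimensional ℚ L ∧
      ∀ σ : Γℚ, (∀ x ∈ L, σ x = x) → ∀ i ∈ s, f i σ = 0 := by
  classical
  induction s using Finset.induction with
  | empty => exact ⟨⊥, inferInstance, fun _ _ i hi => absurd hi (Finset.notMem_empty i)⟩
  | insert a s ha ih =>
    obtain ⟨L, hL, hL'⟩ := ih fun i hi => h i (Finset.mem_insert_of_mem hi)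
    obtain ⟨K, hK, hK'⟩ := (h a (Finset.mem_insert_self a s)).open_kernel
    refine ⟨L ⊔ K, IntermediateField.finiteDimensional_sup L K, fun σ hσ i hi => ?_⟩
    rcases Finset.mem_insert.1 hi with rfl | hi
    · exact hK' σ ((IntermediateField.mem_fixingSubgroup_iff _ _).2
        fun x hx => hσ x (le_sup_right (a := L) hx))
    · exact hL' σ (fun x hx => hσ x (le_sup_left (b := K) hx)) i hi

/-- The product of the quadratic characters at the bad primes. -/
def badChars (hΔ : ∀ l ∈ badPrimes E, l.Prime ∧ l ≠ 2) :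
    Γℚ →* (badPrimes E → Multiplicative (ZMod 2)) :=
  MonoidHom.pi fun l =>
    haveI := Fact.mk (hΔ l l.2).1
    (qChar_isChar (l : ℕ) (hΔ l l.2).2).toHom

theorem exists_element (v : ℕ → ZMod 2) (hv : ∑ l ∈ badPrimes E, v l = 0) (m : ℕ) :
    ∃ g : Γℚ, (rho hE g).trace = 1 ∧ Carayol.cycloMod 2 m g = 1 ∧
      ∀ l ∈ badPrimes E, qChar l g = v l := by
  classical
  have key : ∀ s ⊆ badPrimes E, ∃ g : Γℚ, Carayol.cycloMod 2 m g = 1 ∧
      sgnChar hE g = ∑ l ∈ s, v l ∧
      ∀ l ∈ badPrimes E, qChar l g = if l ∈ s then v l else 0 := by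
    intro s
    induction s using Finset.induction with
    | empty =>
      refine fun _ => ⟨1, map_one _, by rw [sgnChar, map_one, sgn_one, Finset.sum_empty],
        fun l hl => ?_⟩
      obtain ⟨hlp, hlΔ⟩ := (mem_badPrimes hE.Δ_ne_zero).1 hl
      have := Fact.mk hlp
      rw [(qChar_isChar l (Companion.bad_prime_spec hE hlp hlΔ).2.1).map_one,
        if_neg (Finset.notMem_empty l)]
    | insert a s ha ih =>
      intro hs
      obtain ⟨g, hg1, hg2, hg3⟩ := ih fun x hx => hs (Finset.mem_insert_of_mem hx)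
      have haB := hs (Finset.mem_insert_self a s)
      obtain ⟨hap, haΔ⟩ := (mem_badPrimes hE.Δ_ne_zero).1 haB
      have ha2 := (Companion.bad_prime_spec hE hap haΔ).2.1
      obtain ⟨A, hA, σ, hσ, hσs, hσq⟩ := exists_sgn_qChar_one hE haB
      rcases (by decide : ∀ z : ZMod 2, z = 0 ∨ z = 1) (v a) with h0 | h1
      · refine ⟨g, hg1, by rw [Finset.sum_insert ha, h0, zero_add, hg2], fun l hl => ?_⟩
        rw [hg3 l hl]
        rcases eq_or_ne l a with rfl | hne
        · rw [if_neg ha, if_pos (Finset.mem_insert_self _ _), h0]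
        · simp [Finset.mem_insert, hne]
      · refine ⟨g * σ, by rw [map_mul, hg1, one_mul, cycloMod_eq_one_of_inertia hap ha2 hA hσ],
          by rw [(sgnChar_isChar hE).map_mul, hg2, hσs, Finset.sum_insert ha, h1, add_comm],
          fun l hl => ?_⟩
        obtain ⟨hlp, hlΔ⟩ := (mem_badPrimes hE.Δ_ne_zero).1 hl
        have := Fact.mk hlp
        rw [(qChar_isChar l (Companion.bad_prime_spec hE hlp hlΔ).2.1).map_mul, hg3 l hl]
        rcases eq_or_ne l a with rfl | hne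
        · rw [if_neg ha, if_pos (Finset.mem_insert_self _ _), hσq, zero_add, h1]
        · rw [qChar_unramified l hap hne.symm A hA σ hσ, add_zero]
          simp [Finset.mem_insert, hne]
  obtain ⟨g, hg1, hg2, hg3⟩ := key _ subset_rfl
  have hg3' : ∀ l ∈ badPrimes E, qChar l g = v l := fun l hl => by rw [hg3 l hl, if_pos hl]
  rcases eq_one_or_trace_of_sgn (rho hE g) (det_rho hE g) (hg2.trans hv) with h1 | h1
  · obtain ⟨τ, hτ1, hτ2, hτ3⟩ := exists_commutator_order_three hE m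
    refine ⟨g * τ, by rw [map_mul, h1, one_mul, hτ1], by rw [map_mul, hg1, hτ2, one_mul],
      fun l hl => ?_⟩
    obtain ⟨hlp, hlΔ⟩ := (mem_badPrimes hE.Δ_ne_zero).1 hl
    have := Fact.mk hlp
    have hc := qChar_isChar l (Companion.bad_prime_spec hE hlp hlΔ).2.1
    rw [hc.map_mul, hτ3 _ hc, add_zero, hg3' l hl]
  · exact ⟨g, h1, hg1, hg3'⟩

end TW

open TW

variable {E : WeierstrassCurve ℤ}

/-- A Taylor–Wiles prime with prescribed squareclasses of the bad primes. -/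
theorem exists_twPrime (hE : Companion E) (m : ℕ) (S : Finset ℕ) (v : ℕ → ZMod 2)
    (hv : ∑ l ∈ badPrimes E, v l = 0) :
    ∃ q : ℕ, q ∉ S ∧ TWPrime E m q ∧ ∀ l ∈ badPrimes E, (IsSquare (l : ZMod q) ↔ v l = 0) := by
  classical
  have hbad : ∀ l ∈ badPrimes E, l.Prime ∧ l ≠ 2 := fun l hl => by
    obtain ⟨hlp, hlΔ⟩ := (mem_badPrimes hE.Δ_ne_zero).1 hl
    exact ⟨hlp, (Companion.bad_prime_spec hE hlp hlΔ).2.1⟩
  obtain ⟨g, hg1, hg2, hg3⟩ := exists_element hE v hv (m + 2)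
  obtain ⟨L, hL, hLq⟩ := exists_level_forall (badPrimes E) (f := qChar) fun l hl =>
    haveI := Fact.mk (hbad l hl).1
    qChar_isChar l (hbad l hl).2
  have hQfin : GaloisFactorsThroughFiniteLevel (badChars hbad) :=
    ⟨L, hL, fun σ hσ => funext fun l =>
      haveI := Fact.mk (hbad l l.2).1
      ((qChar_isChar (l : ℕ) (hbad l l.2).2).toHom_eq_one_iff σ).2 (hLq σ hσ l l.2)⟩
  let φ := ((rho hE).prod (Carayol.cycloMod 2 (m + 2))).prod (badChars hbad)
  have hφ : GaloisFactorsThroughFiniteLevel φ := Density.galoisFactorsThroughFiniteLevel_prod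
    (Density.galoisFactorsThroughFiniteLevel_prod (Image.rep_finiteLevel hE.Δ_ne_zero 1)
      (Carayol.cycloMod_finiteLevel 2 (m + 2))) hQfin
  obtain ⟨q, hq, hqS, A, hA, τ, hτ, j, k, hj, hk⟩ :=
    exists_frobenius_map_pow φ hφ (S ∪ insert 2 (badPrimes E)) g
  simp only [Finset.mem_union, Finset.mem_insert, not_or] at hqS
  obtain ⟨hqS, hq2, hqB⟩ := hqS
  have hgood : ¬ (q : ℤ) ∣ E.Δ := fun h => hqB ((mem_badPrimes hE.Δ_ne_zero).2 ⟨hq, h⟩)
  have hk' : (φ g ^ j) ^ k = φ g := by rw [← hj, hk]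
  have hρ : rho hE τ = rho hE g ^ j := congrArg (fun z => z.1.1) hj
  have hρk : (rho hE g ^ j) ^ k = rho hE g := congrArg (fun z => z.1.1) hk'
  have hc : Carayol.cycloMod 2 (m + 2) τ = 1 := by
    have := congrArg (fun z => z.1.2) hj
    rw [show Carayol.cycloMod 2 (m + 2) τ = Carayol.cycloMod 2 (m + 2) g ^ j from this, hg2,
      one_pow]
  have hdvd : 2 ^ (m + 2) ∣ q - 1 := by
    have h : (q : ZMod (2 ^ (m + 2))) = 1 := by
      rw [← hc]
      show _ = PadicInt.toZModPow (m + 2)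
        (((cyclotomicCharacter Qb 2 τ.toRingEquiv : (ℤ_[2])ˣ)) : ℤ_[2])
      rw [show ((cyclotomicCharacter Qb 2 τ.toRingEquiv : ℤ_[2]ˣ) : ℤ_[2]) = q from
        Galois.cyclotomicCharacter_frobenius 2 hq hq2 hA hτ, map_natCast]
    rw [← Nat.cast_one, ZMod.natCast_eq_natCast_iff] at h
    exact (Nat.modEq_iff_dvd' hq.one_le).1 h.symm
  have hfour : 4 ∣ q - 1 := (by rw [show (4 : ℕ) = 2 ^ 2 by norm_num]
                                exact pow_dvd_pow 2 (by omega) : 4 ∣ 2 ^ (m + 2)).trans hdvd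
  refine ⟨q, hqS, ⟨hq, hq2, hgood, hfour,
    (pow_dvd_pow 2 (Nat.le_add_right m 2)).trans hdvd, fun h2 => ?_⟩, fun l hl => ?_⟩
  · have ht : (rho hE τ).trace = 1 := by
      rw [hρ]; exact trace_pow_of_trace (det_rho hE g) hg1 hρk
    rw [(Companion.det_trace_rep_frobenius hE one_ne_zero hq hq2 hgood hA hτ).2,
      (ZMod.intCast_zmod_eq_zero_iff_dvd _ _).2 (by rw [pow_one]; exact_mod_cast h2)] at ht
    exact absurd ht (by decide)
  · obtain ⟨hlp, hl2⟩ := hbad l hl
    have := Fact.mk hlp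
    have := Fact.mk hq
    have hcl := qChar_isChar l hl2
    have h1 : qChar l τ = j • v l := by
      have h := congrArg (fun z => Multiplicative.toAdd (z.2 ⟨l, hl⟩)) hj
      simpa [φ, badChars, IsCharTwo.toHom, toAdd_pow, hg3 l hl] using h
    have h2 : k • (j • v l) = v l := by
      have h := congrArg (fun z => Multiplicative.toAdd (z.2 ⟨l, hl⟩)) hk'
      simpa [φ, badChars, IsCharTwo.toHom, toAdd_pow, hg3 l hl] using h
    have hql : q ≠ l := fun e => hqB (e ▸ hl)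
    have hq4 : q % 4 = 1 := by have := hq.two_le; omega
    rw [ZMod.exists_sq_eq_prime_iff_of_mod_four_eq_one hq4 hl2]
    rw [qChar_frobenius l hq hql hA hτ] at h1
    rcases (by decide : ∀ z : ZMod 2, z = 0 ∨ z = 1) (v l) with h0 | h0
    · rw [h0, smul_zero] at h1
      refine iff_of_true ?_ h0
      by_contra hns
      rw [if_neg hns] at h1
      exact one_ne_zero h1
    · refine iff_of_false (fun hs => ?_) (by rw [h0]; exact one_ne_zero)
      rw [if_pos hs] at h1
      rw [← h1, smul_zero, h0] at h2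
      exact zero_ne_one h2

/-- Taylor–Wiles primes at `2`: one fewer than bad primes, forming a separating set. -/
theorem exists_twPrimes (hE : Companion E) (m : ℕ) (S : Finset ℕ) :
    ∃ Q : Finset ℕ, Q.card + 1 = (badPrimes E).card ∧ (∀ q ∈ Q, q ∉ S ∧ TWPrime E m q) ∧
      Separating E Q := by
  classical
  obtain ⟨l₀, hp₀, hd₀⟩ := Companion.exists_bad_prime hE
  have hl₀ : l₀ ∈ badPrimes E := (mem_badPrimes hE.Δ_ne_zero).2 ⟨hp₀, hd₀⟩
  let v : ℕ → ℕ → ZMod 2 := fun a x => (if x = a then 1 else 0) + if x = l₀ then 1 else 0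
  have key : ∀ s ⊆ (badPrimes E).erase l₀, ∃ Q : Finset ℕ, Q.card = s.card ∧
      (∀ q ∈ Q, q ∉ S ∧ TWPrime E m q ∧
        ∃ a ∈ s, ∀ l ∈ badPrimes E, (IsSquare (l : ZMod q) ↔ v a l = 0)) ∧
      ∀ q ∈ Q, ∀ q' ∈ Q, ∀ a ∈ s,
        ¬ IsSquare (a : ZMod q) → ¬ IsSquare (a : ZMod q') → q = q' := by
    intro s
    induction s using Finset.induction with
    | empty => exact fun _ => ⟨∅, rfl, by simp, by simp⟩
    | insert a s ha ih =>
      intro hs
      obtain ⟨Q, hQ1, hQ2, hQ3⟩ := ih fun x hx => hs (Finset.mem_insert_of_mem hx)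
      obtain ⟨haB0, haB⟩ := Finset.mem_erase.1 (hs (Finset.mem_insert_self a s))
      have hsum : ∑ l ∈ badPrimes E, v a l = 0 := by
        rw [Finset.sum_add_distrib, Finset.sum_ite_eq', Finset.sum_ite_eq', if_pos haB, if_pos hl₀]
        decide
      obtain ⟨q, hqS, hq, hsq⟩ := exists_twPrime hE m (S ∪ Q) (v a) hsum
      rw [Finset.mem_union, not_or] at hqS
      have hva : ∀ b ∈ insert a s, (v a b = 0 ↔ b ≠ a) := fun b hb => by
        have hb0 : b ≠ l₀ := (Finset.mem_erase.1 (hs hb)).1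
        show (if b = a then (1 : ZMod 2) else 0) + (if b = l₀ then 1 else 0) = 0 ↔ b ≠ a
        rcases eq_or_ne b a with rfl | hne
        · simp [hb0]
        · simp [hne, hb0]
      refine ⟨insert q Q, ?_, fun q' hq' => ?_, ?_⟩
      · rw [Finset.card_insert_of_notMem hqS.2, Finset.card_insert_of_notMem ha, hQ1]
      · rcases Finset.mem_insert.1 hq' with rfl | hq'
        · exact ⟨hqS.1, hq, a, Finset.mem_insert_self a s, hsq⟩
        · obtain ⟨h1, h2, b, hb, hb'⟩ := hQ2 q' hq'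
          exact ⟨h1, h2, b, Finset.mem_insert_of_mem hb, hb'⟩
      · have hnew : ∀ q' ∈ Q, IsSquare (a : ZMod q') := fun q' hq' => by
          obtain ⟨-, -, b, hb, hb'⟩ := hQ2 q' hq'
          rw [hb' a haB]
          show (if a = b then (1 : ZMod 2) else 0) + (if a = l₀ then 1 else 0) = 0
          simp [haB0, show a ≠ b from fun e => ha (e ▸ hb)]
        have hold : ∀ b ∈ s, IsSquare (b : ZMod q) := fun b hb => by
          rw [hsq b (Finset.mem_of_mem_erase (hs (Finset.mem_insert_of_mem hb))),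
            hva b (Finset.mem_insert_of_mem hb)]
          exact fun e => ha (e ▸ hb)
        intro q₁ h₁ q₂ h₂ b hb hn₁ hn₂
        rcases Finset.mem_insert.1 hb with rfl | hb
        · rcases Finset.mem_insert.1 h₁ with rfl | h₁
          · rcases Finset.mem_insert.1 h₂ with rfl | h₂
            · rfl
            · exact absurd (hnew q₂ h₂) hn₂
          · exact absurd (hnew q₁ h₁) hn₁
        · rcases Finset.mem_insert.1 h₁ with rfl | h₁
          · exact absurd (hold b hb) hn₁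
          · rcases Finset.mem_insert.1 h₂ with rfl | h₂
            · exact absurd (hold b hb) hn₂
            · exact hQ3 q₁ h₁ q₂ h₂ b hb hn₁ hn₂
  obtain ⟨Q, hQ1, hQ2, hQ3⟩ := key _ subset_rfl
  refine ⟨Q, ?_, fun q hq => ⟨(hQ2 q hq).1, (hQ2 q hq).2.1⟩,
    separating_of_pattern (fun q hq => ⟨(hQ2 q hq).2.1.prime, (hQ2 q hq).2.1.ne_two⟩)
      fun q hq => ?_⟩
  · rw [hQ1, Finset.card_erase_add_one hl₀]
  · obtain ⟨-, -, a, ha, hiff⟩ := hQ2 q hq
    obtain ⟨ha0, haB⟩ := Finset.mem_erase.1 ha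
    have hns : ¬ IsSquare (a : ZMod q) := fun h => by
      have h' := (hiff a haB).1 h
      change (if a = a then (1 : ZMod 2) else 0) + (if a = l₀ then 1 else 0) = 0 at h'
      rw [if_pos rfl, if_neg ha0, add_zero] at h'
      exact one_ne_zero h'
    refine ⟨a, haB, fun haQ => (hQ2 a haQ).2.1.good ((mem_badPrimes hE.Δ_ne_zero).1 haB).2, hns,
      fun q' hq' hne => ?_⟩
    by_contra h'
    exact hne (hQ3 q hq q' hq' a ha hns h').symm

end FLTA.LT2

end
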