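import Fermat.Agent.LT2.PatchedRingResidual
import Fermat.Agent.LT2.PatchedRingCond
import Fermat.Agent.LT2.PrimesScalarExists
import Fermat.Agent.LT2.PatchedTangentDual

/-!
# Part G, ring side: deformations to the dual numbers are scalar

When `Q` kills the Steinberg part, a deformation to `k[ε]` with the signed conditions, the sign at
a bad prime `j` moved by `1 + ε f j`, has trace `tr M (1 + ε χ)` with `χ` a character whose
restriction at a bad prime is `x ψ + f j · unr`.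
-/

set_option autoImplicit false

noncomputable section

namespace FLTA.LT2

open FLTA.Deformation

open scoped Pointwise

local notation "Qbar" => AlgebraicClosure ℚ

/-- Inertia at `j` is unipotent and Frobenius acts by `a` on the fixed line and on the quotient. -/
def LineAt {A : Type} [CommRing A] [IsLocalRing A] (ρ : GaloisRepAdic A) (j : ℕ) (a : A) : Prop :=
  ∀ P : ValuationSubring Qbar, P.LiesOverPrime j → ∀ τ ∈ P.inertiaSubgroupIn ℚ,
    (∀ τ' ∈ P.inertiaSubgroupIn ℚ, (ρ.ρ τ - 1) * (ρ.ρ τ' - 1) = 0) ∧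
    ∀ σ : GalQ, P.IsFrobeniusAt σ j →
      (ρ.ρ σ - a • 1) * (ρ.ρ τ - 1) = 0 ∧ (ρ.ρ τ - 1) * (ρ.ρ σ - a • 1) = 0

variable {E : WeierstrassCurve ℤ} (hE : Companion E)
variable {k : Type} [Field k] [Finite k] [Algebra (ZMod 2) k]

include hE

theorem exists_scalar_of_dual {n : ℕ} (_hn : n ≠ 0) {Q : Finset ℕ}
    (hQ : ∀ q ∈ Q, ConjPrime E n q) (hkill : StKilled E Q) {m : ℕ} {qv : Finset ℕ}
    (hqv : ∀ q ∈ qv, TWPrime E m q) (f : ℕ → k) (ρ : GaloisRepAdic (DualNumber k))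
    (b : Module.Basis (Fin 2) (DualNumber k) ρ.V)
    (hb : ∀ g, (LinearMap.toMatrix b b (ρ.ρ g)).map TrivSqZeroExt.fst =
      resMat hE.Δ_ne_zero k g)
    (hdet : ρ.DetIsCyclotomic 2) (hflat : ρ.IsFlatAt 2)
    (hun : ∀ ℓ : ℕ, ℓ.Prime → ℓ ∉ insert 2 (badPrimes E ∪ Q ∪ qv) → ρ.IsUnramifiedAt ℓ)
    (hN : ∀ j ∈ badPrimes E,
      LineAt ρ j (TrivSqZeroExt.inl 1 + TrivSqZeroExt.inr (f j)))
    (hQl : ∀ q ∈ Q, ∃ s : ℤ, Odd s ∧ SignEqAt ρ q s) :
    ∃ χ : GalQ → k, (∀ σ τ, χ (σ * τ) = χ σ + χ τ) ∧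
      (∃ K : IntermediateField ℚ Qbar, FiniteDimensional ℚ K ∧
        ∀ σ ∈ K.fixingSubgroup, χ σ = 0) ∧
      (∀ σ, TrivSqZeroExt.snd (ρ.trace σ) =
        algebraMap (ZMod 2) k (mat2 hE.Δ_ne_zero σ).trace * χ σ) ∧
      (∀ ℓ : ℕ, ℓ.Prime → ¬ (ℓ : ℤ) ∣ E.Δ → ℓ ∉ qv →
        ∀ A : ValuationSubring Qbar, A.LiesOverPrime ℓ →
          ∀ τ ∈ A.inertiaSubgroupIn ℚ, χ τ = 0) ∧
      ∀ l ∈ badPrimes E, ∀ A : ValuationSubring Qbar, A.LiesOverPrime l →
        ∃ x : k, (∀ τ ∈ A.inertiaSubgroupIn ℚ,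
            χ τ = x * algebraMap (ZMod 2) k (TW.sgnChar hE τ)) ∧
          ∀ σ : GalQ, A.IsFrobeniusAt σ l →
            χ σ = x * algebraMap (ZMod 2) k (TW.sgnChar hE σ) + f l := by
  classical
  have : Fact (Nat.Prime 2) := ⟨Nat.prime_two⟩
  obtain ⟨x, hx⟩ := TW.exists_cocycle_of_defo 2 (resMat hE.Δ_ne_zero k) ρ b hb fun g => by
    rw [Tangent.det_eq_one_of_cyclotomic ρ hdet g, TrivSqZeroExt.snd_one]
  have hcls : ∀ l : k →ₗ[ZMod 2] ZMod 2,
      Tangent.IsClass hE Q qv (fun j => l (f j)) fun g => mapFun l (x.1 g).1 :=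
    Tangent.isClass_of_defo hE hQ f hx hdet hflat
      (fun ℓ hℓ h2 hg hℓQ hℓv => hun ℓ hℓ fun hmem => by
        simp only [Finset.mem_insert, Finset.mem_union] at hmem
        rcases hmem with h | ((h | h) | h)
        · exact h2 h
        · exact hg ((mem_badPrimes hE.Δ_ne_zero).1 h).2
        · exact hℓQ h
        · exact hℓv h)
      (fun j hj P hP τ hτ =>
        ⟨(hN j hj P hP τ hτ).1, fun σ hσ => ((hN j hj P hP τ hτ).2 σ hσ).1⟩) hQl
  have : Module.Finite (ZMod 2) k := Module.Finite.of_finite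
  let B := Module.finBasis (ZMod 2) k
  choose ψ hψ htr hur hbad using fun i => (hcls (B.coord i)).exists_scalar hQ hqv hkill
  let χ : GalQ → k := fun g => ∑ i, ψ i g • B i
  have hχ : ∀ g i, B.coord i (χ g) = ψ i g := fun g i => by
    rw [map_sum, Finset.sum_eq_single i]
    · simp
    · intro j _ hji; simp [hji]
    · simp
  have hext : ∀ a c : k, (∀ i, B.coord i a = B.coord i c) → a = c := fun a c h => B.ext_elem h
  obtain ⟨K, hK, hKψ⟩ : ∃ K : IntermediateField ℚ Qbar, FiniteDimensional ℚ K ∧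
      ∀ σ ∈ K.fixingSubgroup, ∀ i, ψ i σ = 0 := by
    choose L hL hL' using fun i => (hψ i).open_kernel
    have := hL
    exact ⟨⨆ i, L i, IntermediateField.finiteDimensional_iSup_of_finite, fun σ hσ i =>
      hL' i σ (IntermediateField.fixingSubgroup_antitone (le_iSup L i) hσ)⟩
  refine ⟨χ, fun σ τ => ?_, ⟨K, hK, fun σ hσ => ?_⟩, fun σ => ?_,
    fun ℓ hℓ hg hℓv A hA τ hτ => ?_, fun l hl A hA => ?_⟩
  · simp only [χ, (hψ _).map_mul, add_smul, Finset.sum_add_distrib]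
  · simp only [χ, hKψ σ hσ, zero_smul, Finset.sum_const_zero]
  · refine hext _ _ fun i => ?_
    obtain ⟨b', hb'⟩ := hx
    have e1 : TrivSqZeroExt.snd (ρ.trace σ) =
        ((x.1 σ).1 * baseMat (Tangent.mat hE σ)).trace := by
      rw [show ρ.trace σ = (TW.defoMat (resMat hE.Δ_ne_zero k) x.1 σ).trace from
        (LinearMap.trace_eq_matrix_trace _ b' (ρ.ρ σ)).trans (congrArg Matrix.trace (hb' σ))]
      have e2 : resMat hE.Δ_ne_zero k σ = baseMat (Tangent.mat hE σ) := by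
        show (mat2 hE.Δ_ne_zero σ).map _ = _
        rw [Tangent.mat2_eq]
        rfl
      simp [TW.defoMat, e2, Matrix.trace_fin_two]
    rw [e1, ← trace_map_functional, show Matrix.map _ (B.coord i) = mapFun (B.coord i) _ from rfl,
      mapFun_mul_baseMat, htr i σ, ← Algebra.smul_def, map_smul, smul_eq_mul, hχ, mul_comm,
      Tangent.mat2_eq]
  · refine hext _ _ fun i => ?_
    rw [hχ, hur i ℓ hℓ hg hℓv A hA τ hτ, map_zero]
  · obtain ⟨hlp, hld⟩ := (mem_badPrimes hE.Δ_ne_zero).1 hl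
    have hP := PT.primeLocalPlace_liesOverPrime (⟨l, hlp⟩ : Nat.Primes)
    obtain ⟨g, hg⟩ := Galois.exists_smul_eq hlp hP hA
    choose c u hu hc using fun i => hbad i ⟨l, hlp⟩ hl
    have hsg := TW.sgnChar_isChar hE
    have hconj : ∀ (σ : GalQ) i, ψ i (g⁻¹ * σ * g) = ψ i σ ∧
        TW.sgnChar hE (g⁻¹ * σ * g) = TW.sgnChar hE σ := fun σ i =>
      ⟨by simpa using (hψ i).apply_conj g⁻¹ σ, by simpa using hsg.apply_conj g⁻¹ σ⟩
    have hx' : ∀ σ i, B.coord i ((∑ i, c i • B i) * algebraMap (ZMod 2) k (TW.sgnChar hE σ)) =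
        c i * TW.sgnChar hE σ := fun σ i => by
      rw [functional_mul_algebraMap]
      congr 1
      rw [map_sum, Finset.sum_eq_single i]
      · simp
      · intro j _ hji; simp [hji]
      · simp
    refine ⟨∑ i, c i • B i, fun τ hτ => hext _ _ fun i => ?_, fun σ hσ => hext _ _ fun i => ?_⟩
    · rw [hχ, hx']
      rw [← hg, Galois.inertiaSubgroupIn_smul_iff] at hτ
      obtain ⟨t, ht, htτ⟩ := TW.exists_inertiaG_eq ⟨l, hlp⟩ hτ
      have h1 := hc i t
      rw [htτ, (hconj τ i).1, (hconj τ i).2, (hu i).inertia t (mem_inerG_of_mem_inertiaG ht),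
        mul_zero, add_zero] at h1
      exact h1
    · rw [hχ, map_add, hx']
      have hσ' := Galois.isFrobeniusAt_smul g⁻¹ hσ
      rw [show g⁻¹ • A = ExtCitation.primeLocalPlace ⟨l, hlp⟩ by rw [← hg, inv_smul_smul],
        inv_inv] at hσ'
      obtain ⟨F, hF⟩ := TaylorWiles.exists_loc_eq ⟨l, hlp⟩ hσ'.mem_decompositionSubgroup
      have h1 := hc i F
      rw [(hu i).frobenius F (hF.symm ▸ hσ'), mul_one, hF, (hconj σ i).1, (hconj σ i).2] at h1
      exact h1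

end FLTA.LT2

end
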