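import Fermat.Agent.LT2.PatchedParityPair
import Fermat.Agent.LT2.PatchedParity
import Fermat.Agent.LT2.PatchedTangentScalar
import Fermat.Agent.LT2.PatchedRingUniversal

/-!
# Part G, ring side: with an odd number of flips there is no point modulo `4` at `X = 0`

Such a point and the curve modulo `4` make a deformation to the dual numbers with the sign at the
flipped primes moved by `1 + ε`; it is scalar, and its character contradicts quadratic reciprocity.
-/

set_option autoImplicit false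

noncomputable section

namespace FLTA.LT2

open IsLocalRing GaloisRep FLTA.Deformation FLTA.RT FLTA.EllTate

local notation "Qbar" => AlgebraicClosure ℚ

namespace Parity

/-- A frame reducing to `barMat` can be changed into one reducing to `resMat`. -/
theorem exists_basis_resMat {k : Type} [Field k] [Algebra (ZMod 2) k]
    {E : WeierstrassCurve ℤ} (hΔ : E.Δ ≠ 0) (ρ' : GaloisRepAdic (DualNumber k))
    (b : Module.Basis (Fin 2) (DualNumber k) ρ'.V)
    (hb : ∀ g, (LinearMap.toMatrix b b (ρ'.ρ g)).map TrivSqZeroExt.fst =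
      barMat (resRep hΔ k) g) :
    ∃ b' : Module.Basis (Fin 2) (DualNumber k) ρ'.V,
      ∀ g, (LinearMap.toMatrix b' b' (ρ'.ρ g)).map TrivSqZeroExt.fst = resMat hΔ k g := by
  let ρbar := resRep hΔ k
  let std : Module.Basis (Fin 2) k ρbar.V := Pi.basisFun k (Fin 2)
  let C : Matrix (Fin 2) (Fin 2) k := (barBasis ρbar).toMatrix std
  have hC : IsUnit C.det :=
    Matrix.isUnit_det_of_left_inverse (B := std.toMatrix (barBasis ρbar))
      (Module.Basis.toMatrix_mul_toMatrix_flip std (barBasis ρbar))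
  have hCσ : ∀ g, C * resMat hΔ k g = barMat ρbar g * C := fun g => by
    have h1 : resMat hΔ k g = LinearMap.toMatrix std std (ρbar.ρ g) := by
      refine Eq.symm ?_
      show LinearMap.toMatrix (Pi.basisFun k (Fin 2)) (Pi.basisFun k (Fin 2))
        (Matrix.toLin' (resMat hΔ k g)) = resMat hΔ k g
      rw [LinearMap.toMatrix_eq_toMatrix']
      exact LinearMap.toMatrix'_toLin' (resMat hΔ k g)
    rw [h1]
    show (barBasis ρbar).toMatrix std * LinearMap.toMatrix std std (ρbar.ρ g) =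
      LinearMap.toMatrix (barBasis ρbar) (barBasis ρbar) (ρbar.ρ g) * (barBasis ρbar).toMatrix std
    rw [basis_toMatrix_mul_linearMap_toMatrix, linearMap_toMatrix_mul_basis_toMatrix]
  let inlHom : k →+* DualNumber k := algebraMap k (DualNumber k)
  have hdet : IsUnit (C.map inlHom).det := by
    rw [← RingHom.mapMatrix_apply, ← RingHom.map_det]
    exact hC.map inlHom
  let u := Matrix.toLinearEquiv b (C.map inlHom) hdet
  let b' : Module.Basis (Fin 2) (DualNumber k) ρ'.V := b.map u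
  have hbb : b.toMatrix b' = C.map inlHom := by
    refine Matrix.ext fun i j => ?_
    simp [Module.Basis.toMatrix_apply, b', u, Matrix.toLinearEquiv, Matrix.toLin_self,
      Finsupp.single_apply]
    fin_cases i <;> simp
  refine ⟨b', fun g => ?_⟩
  have e1 : b.toMatrix b' * LinearMap.toMatrix b' b' (ρ'.ρ g) =
      LinearMap.toMatrix b b (ρ'.ρ g) * b.toMatrix b' := by
    rw [basis_toMatrix_mul_linearMap_toMatrix, linearMap_toMatrix_mul_basis_toMatrix]
  have e2 := congrArg (TrivSqZeroExt.fstHom k k k).toRingHom.mapMatrix e1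
  rw [map_mul, map_mul, hbb] at e2
  have hfst : ∀ X : Matrix (Fin 2) (Fin 2) (DualNumber k),
      (TrivSqZeroExt.fstHom k k k).toRingHom.mapMatrix X = X.map TrivSqZeroExt.fst := fun _ => rfl
  have hCinl : (C.map inlHom).map TrivSqZeroExt.fst = C :=
    Matrix.ext fun i j => TrivSqZeroExt.fst_inl k (C i j)
  rw [hfst, hfst, hfst, hCinl, hb g, ← hCσ g] at e2
  exact IsUnit.mul_left_cancel (M := Matrix (Fin 2) (Fin 2) k)
    ((Matrix.isUnit_iff_isUnit_det C).mpr hC) e2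

/-- `1` when the signs differ. -/
def flip (E : WeierstrassCurve ℤ) (s : ℕ → ℤ) (j : ℕ) : ZMod 2 :=
  if s j = nodeSign E j then 0 else 1

theorem exists_half_sub {s t : ℤ} (hs : s = 1 ∨ s = -1) (ht : t = 1 ∨ t = -1) :
    ∃ z : ℤ, s - t = 2 * z ∧ (z : ZMod 2) = if s = t then 0 else 1 := by
  rcases hs with rfl | rfl <;> rcases ht with rfl | rfl
  exacts [⟨0, by norm_num, by simp⟩, ⟨1, by norm_num, by simp⟩,
    ⟨-1, by norm_num, by simp⟩, ⟨0, by norm_num, by simp⟩]

variable {O : RepTheory.FiniteDVRExt ℤ_[2]} [Algebra (ZMod 2) (ResidueField O.R)]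

theorem residue_intCast (t : ℤ) :
    residue O.R (t : O.R) = algebraMap (ZMod 2) (ResidueField O.R) (t : ZMod 2) := by
  rw [map_intCast, map_intCast]

variable {E : WeierstrassCurve ℤ}

/-- **The deformation to the dual numbers** made by a deformation modulo `4` of signs `s` and the
curve modulo `4`. -/
theorem exists_dual [IsLocalRing (O.R ⧸ Ideal.span {(4 : O.R)})]
    [Finite (O.R ⧸ Ideal.span {(4 : O.R)})] (hE : Companion E)
    (hO : maximalIdeal O.R = Ideal.span {(2 : O.R)})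
    (hB : IsArtinianTestAlgebra O.R (O.R ⧸ Ideal.span {(4 : O.R)}))
    (habs : (resRep hE.Δ_ne_zero (ResidueField O.R)).IsAbsolutelyIrreducible)
    {S T Q : Finset ℕ} {s s₂ : ℕ → ℤ} (hT : badPrimes E ∪ Q ⊆ T)
    (hs : ∀ j ∈ badPrimes E, s j = 1 ∨ s j = -1)
    (hs₂ : ∀ j ∈ badPrimes E, s₂ j = nodeSign E j) (hsQ : ∀ q ∈ Q, s₂ q = s q)
    (ρ₁ ρ₂ : GaloisRepAdic (O.R ⧸ Ideal.span {(4 : O.R)}))
    (h₁ : signCond O.R S T s ρ₁) (h₂ : signCond O.R S T s₂ ρ₂)
    (r₁ : ResCond (resRep hE.Δ_ne_zero (ResidueField O.R)) ρ₁.trace)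
    (r₂ : ResCond (resRep hE.Δ_ne_zero (ResidueField O.R)) ρ₂.trace) :
    letI := dualAlgebra O.R
    ∃ (ρ : GaloisRepAdic (DualNumber (ResidueField O.R)))
      (b : Module.Basis (Fin 2) (DualNumber (ResidueField O.R)) ρ.V),
      (∀ g, (LinearMap.toMatrix b b (ρ.ρ g)).map TrivSqZeroExt.fst =
        resMat hE.Δ_ne_zero (ResidueField O.R) g) ∧
      signCond O.R S Q s ρ ∧
      ∀ j ∈ badPrimes E, LineAt ρ j (TrivSqZeroExt.inl 1 +
        TrivSqZeroExt.inr (algebraMap (ZMod 2) (ResidueField O.R) (flip E s j))) := by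
  letI := dualAlgebra O.R
  haveI : IsArtinianRing (O.R ⧸ Ideal.span {(4 : O.R)}) := hB.isArtinian
  obtain ⟨ρ', b, e₁, e₂, hfst⟩ := exists_pairRep hB habs ρ₁ ρ₂ r₁ r₂
  obtain ⟨θ, hθl, hθ⟩ := exists_theta hO two_ne_zero
  have hA := test_pair hB
  have hQT : ∀ q ∈ Q, q ∈ T := fun q hq => hT (Finset.mem_union_right _ hq)
  have hbT : ∀ j ∈ badPrimes E, j ∈ T := fun j hj => hT (Finset.mem_union_left _ hj)
  have g₁ := (isClosed_signCond O.R S T s).of_isEquiv e₁ h₁
  have g₂ := (isClosed_signCond O.R S T s₂).of_isEquiv e₂ h₂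
  have hP : signCond O.R S Q s ρ' :=
    (isClosed_signCond O.R S Q s).descend hA hB hB pr₁ pr₂ isLocalHom_pr₁ isLocalHom_pr₂
      pr_injective ⟨g₁.1, fun q hq => g₁.2 q (hQT q hq)⟩
      ⟨g₂.1, fun q hq => hsQ q hq ▸ g₂.2 q (hQT q hq)⟩
  let ρ := ρ'.baseChangeAlong _ hθl
  let φ : pairAlg O.R (O.R ⧸ Ideal.span {(4 : O.R)}) →+* DualNumber (ResidueField O.R) := θ
  let _ : Algebra (pairAlg O.R (O.R ⧸ Ideal.span {(4 : O.R)})) (DualNumber (ResidueField O.R)) :=
    φ.toAlgebra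
  let b₀ : Module.Basis (Fin 2) (DualNumber (ResidueField O.R)) ρ.V :=
    Algebra.TensorProduct.basis (DualNumber (ResidueField O.R)) b
  have hb₀ : ∀ g, (LinearMap.toMatrix b₀ b₀ (ρ.ρ g)).map TrivSqZeroExt.fst =
      barMat (resRep hE.Δ_ne_zero (ResidueField O.R)) g := fun g => by
    ext i j
    rw [show LinearMap.toMatrix b₀ b₀ (ρ.ρ g) = (LinearMap.toMatrix b b (ρ'.ρ g)).map φ from
      LinearMap.toMatrix_baseChange (A := DualNumber (ResidueField O.R)) (ρ'.ρ g) b b]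
    set p := LinearMap.toMatrix b b (ρ'.ρ g) i j
    obtain ⟨x, y, z, hx, hy, hz⟩ := exists_lift_pair hO p
    show TrivSqZeroExt.fst (θ p) = _
    rw [hθ p x y z hx hy hz]
    simp only [TrivSqZeroExt.fst_add, TrivSqZeroExt.fst_inl, TrivSqZeroExt.fst_inr, add_zero]
    haveI := hB.isLocalHom
    refine (ResidueField.map (algebraMap O.R (O.R ⧸ Ideal.span {(4 : O.R)}))).injective ?_
    rw [ResidueField.map_residue, ← hfst g i j]
    exact congrArg (residue _) hx
  obtain ⟨b', hb'⟩ := exists_basis_resMat hE.Δ_ne_zero ρ b₀ hb₀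
  refine ⟨ρ, b', hb', (isClosed_signCond O.R S Q s).baseChange hA.residue_surjective test_dual θ
    hθl hP, fun j hj P hPj τ hτ => ?_⟩
  -- the scalar of the pair
  obtain ⟨hjp, hj2⟩ := badPrime_prime_odd hE j hj
  have hns : nodeSign E j = 1 ∨ nodeSign E j = -1 := sq_eq_one_iff.mp (nodeSign_sq E j)
  obtain ⟨z, hz, hzf⟩ := exists_half_sub (hs j hj) hns
  have h2r : residue O.R 2 = 0 := (residue_eq_zero_iff _).mpr (by
    rw [hO]; exact Ideal.subset_span rfl)
  let mk := Ideal.Quotient.mk (Ideal.span {(4 : O.R)})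
  have hm : residue (O.R ⧸ Ideal.span {(4 : O.R)}) (mk (s j : O.R)) =
      residue (O.R ⧸ Ideal.span {(4 : O.R)}) (mk (nodeSign E j : O.R)) := by
    rw [← sub_eq_zero, ← map_sub, ← map_sub, residue_eq_zero_iff, mem_maximalIdeal_quot, hO,
      Ideal.mem_span_singleton']
    exact ⟨(z : O.R), by rw [mul_comm]; exact_mod_cast congrArg (Int.cast (R := O.R)) hz.symm⟩
  let a : pairAlg O.R (O.R ⧸ Ideal.span {(4 : O.R)}) :=
    ⟨(mk (s j : O.R), mk (nodeSign E j : O.R)), hm⟩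
  have hone : algebraMap (ZMod 2) (ResidueField O.R) ((j : ℤ) : ZMod 2) = 1 := by
    rw [Int.cast_natCast, ZMod.natCast_eq_one_iff_odd.mpr (hjp.odd_of_ne_two hj2), map_one]
  have hθa : θ a = TrivSqZeroExt.inl 1 + TrivSqZeroExt.inr
      (algebraMap (ZMod 2) (ResidueField O.R) (flip E s j)) := by
    rw [hθ a _ _ (z : O.R) rfl rfl
      (by exact_mod_cast congrArg (Int.cast (R := O.R)) hz), residue_intCast, residue_intCast,
      hzf]
    congr
    rcases hs j hj with h | h <;> simp [h, (by decide : (-1 : ZMod 2) = 1)]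
  have hθj : θ ((j : ℕ) : pairAlg O.R (O.R ⧸ Ideal.span {(4 : O.R)})) = 1 := by
    rw [map_natCast, ← map_natCast (algebraMap (ResidueField O.R) (DualNumber (ResidueField O.R))),
      ← Int.cast_natCast, ← map_intCast (residue O.R), residue_intCast, hone, map_one]
  -- the equations over the pair
  have key : ∀ (σ τ : GalQ) (u v : pairAlg O.R (O.R ⧸ Ideal.span {(4 : O.R)})) (u₁ v₁ u₂ v₂ : ℤ),
      pr₁ u = (u₁ : O.R ⧸ Ideal.span {(4 : O.R)}) → pr₁ v = (v₁ : O.R ⧸ Ideal.span {(4 : O.R)}) →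
      pr₂ u = (u₂ : O.R ⧸ Ideal.span {(4 : O.R)}) → pr₂ v = (v₂ : O.R ⧸ Ideal.span {(4 : O.R)}) →
      prodEnd (ρ'.baseChangeAlong _ isLocalHom_pr₁) σ τ u₁ v₁ = 0 →
      prodEnd (ρ'.baseChangeAlong _ isLocalHom_pr₂) σ τ u₂ v₂ = 0 →
      (ρ.ρ σ - θ u • 1) * (ρ.ρ τ - θ v • 1) = 0 := by
    intro σ τ u v u₁ v₁ u₂ v₂ hu₁ hv₁ hu₂ hv₂ z₁ z₂
    have h : (ρ'.ρ σ - u • 1) * (ρ'.ρ τ - v • 1) = 0 :=
      eq_zero_of_pair (hf := isLocalHom_pr₁) (hg := isLocalHom_pr₂) pr_injective ρ' _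
        (by simp only [map_mul, map_sub, RT.bcEnd_smul, map_one, RT.bcEnd_rho, RingHom.coe_coe,
          hu₁, hv₁]; exact z₁)
        (by simp only [map_mul, map_sub, RT.bcEnd_smul, map_one, RT.bcEnd_rho, RingHom.coe_coe,
          hu₂, hv₂]; exact z₂)
    have h' := congrArg (bcEnd _ hθl ρ') h
    simp only [map_mul, map_sub, RT.bcEnd_smul, map_one, RT.bcEnd_rho, map_zero,
      RingHom.coe_coe] at h'
    exact h'
  have s₁ := g₁.2 j (hbT j hj)
  have s₂' := hs₂ j hj ▸ g₂.2 j (hbT j hj)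
  refine ⟨fun τ' hτ' => ?_, fun σ hσ => ⟨?_, ?_⟩⟩
  · have h := key τ τ' 1 1 1 1 1 1 (by simp) (by simp) (by simp) (by simp)
      (s₁.inertia_inertia P hPj τ hτ τ' hτ') (s₂'.inertia_inertia P hPj τ hτ τ' hτ')
    simpa using h
  · have h := key σ τ (a * (j : ℕ)) 1 (s j * j) 1 (nodeSign E j * j) 1
      (by simp [a, mk]) (by simp) (by simp [a, mk]) (by simp)
      (s₁.frob_inertia P hPj σ hσ τ hτ) (s₂'.frob_inertia P hPj σ hσ τ hτ)
    simpa [hθj, hθa] using h
  · have h := key τ σ 1 a 1 (s j) 1 (nodeSign E j)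
      (by simp) (by simp [a, mk]) (by simp) (by simp [a, mk])
      (s₁.inertia_frob P hPj σ hσ τ hτ) (s₂'.inertia_frob P hPj σ hσ τ hτ)
    simpa [hθa] using h

end Parity

variable {O : RepTheory.FiniteDVRExt ℤ_[2]} [Algebra (ZMod 2) (ResidueField O.R)]
  {E : WeierstrassCurve ℤ}

/-- **The parity relation in `R^s`.** -/
theorem Companion.exists_parity (hE : Companion E) (hO : maximalIdeal O.R = Ideal.span {(2 : O.R)})
    {n : ℕ} (hn : 2 ≤ n) {Q qv : Finset ℕ} (hQ : ∀ q ∈ Q, ConjPrime E n q)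
    (hkill : StKilled E Q) {m : ℕ} (hqv : ∀ q ∈ qv, TWPrime E m q) {S : Finset ℕ}
    (hS : S = insert 2 (badPrimes E ∪ Q ∪ qv)) {s : ℕ → ℤ}
    (hs : ∀ v ∈ badPrimes E ∪ Q, s v = 1 ∨ s v = -1)
    (hodd : Odd ((badPrimes E).filter fun l => s l ≠ nodeSign E l).card)
    (D : DeformationRingData O.R (resRep hE.Δ_ne_zero (ResidueField O.R))
      (signCond O.R S (badPrimes E ∪ Q) s))
    {r : ℕ} (γ : MvPowerSeries (Fin r) O.R →ₐ[O.R] D.R) (hγ : Function.Surjective γ) :
    ∃ f, γ f = 0 ∧ ¬ (4 : O.R) ∣ MvPowerSeries.constantCoeff f := by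
  classical
  by_contra! hcon
  -- the point of `R^s` modulo `4`
  let I : Ideal O.R := Ideal.span {(4 : O.R)}
  have hI : I ≤ maximalIdeal O.R := by
    rw [hO, Ideal.span_singleton_le_span_singleton]
    exact ⟨2, by norm_num⟩
  haveI : IsLocalRing (O.R ⧸ Ideal.span {(4 : O.R)}) :=
    isLocalRing_quotient (ne_top_of_le_ne_top (maximalIdeal.isMaximal O.R).ne_top hI)
  haveI : Finite (O.R ⧸ Ideal.span {(4 : O.R)}) := by
    haveI : Finite (O.R ⧸ maximalIdeal O.R) := inferInstanceAs (Finite (ResidueField O.R))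
    have h := Ideal.finite_quotient_pow (IsNoetherian.noetherian (maximalIdeal O.R)) 2
    rw [hO, Ideal.span_singleton_pow] at h
    norm_num at h
    exact h
  have hB : IsArtinianTestAlgebra O.R (O.R ⧸ Ideal.span {(4 : O.R)}) :=
    test_finiteQuotient (𝒪 := O.R) (A := O.R) ⟨fun _ h => h⟩ (fun y => residue_surjective y) I
  haveI := hB.isLocalHom
  haveI : IsArtinianRing (O.R ⧸ Ideal.span {(4 : O.R)}) := hB.isArtinian
  let mk : O.R →+* O.R ⧸ Ideal.span {(4 : O.R)} := Ideal.Quotient.mk I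
  let g₀ : MvPowerSeries (Fin r) O.R →+* O.R ⧸ Ideal.span {(4 : O.R)} :=
    mk.comp MvPowerSeries.constantCoeff
  have hker : RingHom.ker (γ : MvPowerSeries (Fin r) O.R →+* D.R) ≤ RingHom.ker g₀ := fun f hf =>
    (Ideal.Quotient.eq_zero_iff_dvd _ _).mpr (hcon f hf)
  let ψ₀ : D.R →+* O.R ⧸ Ideal.span {(4 : O.R)} :=
    (γ : MvPowerSeries (Fin r) O.R →+* D.R).liftOfSurjective hγ ⟨g₀, hker⟩
  have hψ₀ : ∀ f, ψ₀ (γ f) = g₀ f := fun f =>
    RingHom.liftOfSurjective_comp_apply (γ : MvPowerSeries (Fin r) O.R →+* D.R) hγ ⟨g₀, hker⟩ f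
  let ψ : D.R →ₐ[O.R] O.R ⧸ Ideal.span {(4 : O.R)} :=
    { ψ₀ with
      commutes' := fun c => by
        show ψ₀ (algebraMap O.R D.R c) = _
        rw [← γ.commutes, hψ₀]
        show mk _ = mk c
        rw [MvPowerSeries.algebraMap_apply, MvPowerSeries.constantCoeff_C]
        rfl }
  have hψ : IsLocalHom (ψ : D.R →+* O.R ⧸ Ideal.span {(4 : O.R)}) :=
    IsLocalHom.of_surjective _ fun y => by
      obtain ⟨c, rfl⟩ := Ideal.Quotient.mk_surjective y
      exact ⟨algebraMap O.R D.R c, ψ.commutes c⟩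
  have r₁ : ResCond (resRep hE.Δ_ne_zero (ResidueField O.R))
      (D.ρ.baseChangeAlong _ hψ).trace := fun σ => by
    rw [trace_baseChangeAlong]
    exact resCond_map _ ψ (resCond_universal D) σ
  have h₁ := (isClosed_signCond O.R S (badPrimes E ∪ Q) s).baseChange D.residue_surjective hB ψ hψ
    D.isOfType
  -- the curve modulo `4`
  let φ : ℤ_[2] →+* O.R ⧸ Ideal.span {(4 : O.R)} := mk.comp (algebraMap ℤ_[2] O.R)
  have hφ : IsLocalHom φ := ⟨fun x hx => (isUnit_map_iff (algebraMap ℤ_[2] O.R) x).mp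
    ((isLocalHom_mk I).map_nonunit _ hx)⟩
  have h2n : (2 : O.R ⧸ Ideal.span {(4 : O.R)}) ^ n = 0 := by
    rw [← map_ofNat mk 2, ← map_pow, Ideal.Quotient.eq_zero_iff_dvd]
    exact (show (4 : O.R) = 2 ^ 2 by norm_num) ▸ pow_dvd_pow 2 hn
  let s₂ : ℕ → ℤ := fun j => if j ∈ badPrimes E then nodeSign E j else s j
  have hnot : ∀ q ∈ Q, q ∉ badPrimes E := fun q hq h =>
    (hQ q hq).good ((mem_badPrimes hE.Δ_ne_zero).1 h).2
  have h₂ := hE.signCond_tateRep φ hφ (𝒪 := O.R) (S := S) (T := badPrimes E ∪ Q) (s := s₂) h2n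
    (hS ▸ Finset.mem_insert_self _ _)
    (fun ℓ hℓ hd => by
      rw [hS, Finset.mem_insert]
      exact Or.inr (Finset.mem_union_left _ (Finset.mem_union_left _
        ((mem_badPrimes hE.Δ_ne_zero).2 ⟨hℓ, hd⟩))))
    (fun j hj => by
      by_cases hjb : j ∈ badPrimes E
      · obtain ⟨hp, hd⟩ := (mem_badPrimes hE.Δ_ne_zero).1 hjb
        exact Or.inl ⟨hp, hd, by simp only [s₂, if_pos hjb]⟩
      · exact Or.inr ⟨hQ j ((Finset.mem_union.1 hj).resolve_left hjb),
          by simp only [s₂, if_neg hjb]; exact sq_eq_one_iff.mpr (hs j hj)⟩)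
  obtain ⟨ρ, b, hb, hP, hN⟩ := Parity.exists_dual hE hO hB D.absIrr (Q := Q) subset_rfl
    (fun j hj => hs j (Finset.mem_union_left _ hj)) (fun j hj => by simp only [s₂, if_pos hj])
    (fun q hq => by simp only [s₂, if_neg (hnot q hq)]) _ _ h₁ h₂ r₁ (hE.resCond_point φ hφ)
  -- the character and reciprocity
  letI := dualAlgebra O.R
  obtain ⟨χ, hχ, ⟨K, hK, hK0⟩, -, hun, hbad⟩ := exists_scalar_of_dual hE (n := n) (by omega) hQ
    hkill hqv _ ρ b hb hP.1.1 hP.1.2.1 (fun ℓ hℓ hℓS => hP.1.2.2 ℓ hℓ (hS ▸ hℓS)) hN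
    fun q hq => ⟨s q, by
      rcases hs q (Finset.mem_union_right _ hq) with h | h <;> simp [h], hP.2 q hq⟩
  obtain ⟨l, hl⟩ := LinearMap.exists_leftInverse_of_injective
    (Algebra.linearMap (ZMod 2) (ResidueField O.R))
    (LinearMap.ker_eq_bot.mpr (algebraMap (ZMod 2) (ResidueField O.R)).injective)
  have hl' : ∀ z, l (algebraMap (ZMod 2) (ResidueField O.R) z) = z := fun z =>
    LinearMap.congr_fun hl z
  have hlmul : ∀ x z, l (x * algebraMap (ZMod 2) (ResidueField O.R) z) = l x * z := fun x z => by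
    rw [mul_comm, ← Algebra.smul_def, map_smul, smul_eq_mul, mul_comm]
  have h0 := sum_eq_zero_of_local hE hqv (χ := fun g => l (χ g))
    ⟨fun σ τ => by simp only [hχ, map_add], K, hK, fun σ hσ => by simp only [hK0 σ hσ, map_zero]⟩
    (fun ℓ hℓ hg hv A hA τ hτ => by simp only [hun ℓ hℓ hg hv A hA τ hτ, map_zero])
    (Parity.flip E s) fun j hj A hA => by
      obtain ⟨x, hx, hx'⟩ := hbad j hj A hA
      exact ⟨l x, fun τ hτ => by simp only [hx τ hτ, hlmul],
        fun σ hσ => by simp only [hx' σ hσ, map_add, hlmul, hl']⟩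
  simp only [Parity.flip] at h0
  rw [Finset.sum_ite, Finset.sum_const_zero, zero_add, Finset.sum_const, nsmul_eq_mul, mul_one,
    ZMod.natCast_eq_zero_iff_even] at h0
  exact Nat.not_even_iff_odd.mpr hodd h0

end FLTA.LT2

end
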