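import Fermat.Agent.LT2.PatchedPointDefs
import Fermat.Agent.LT2.PatchedGalFrob
import Fermat.Agent.LT2.PatchedParityRing

/-!
# Part G, ring side: the deformation rings at one Taylor–Wiles tuple
-/

set_option autoImplicit false

noncomputable section

open IsLocalRing

namespace FLTA.LT2.PatchG

open FLTA.EllTate FLTA.Deformation

local notation "Γℚ" => AlgebraicClosure ℚ ≃ₐ[ℚ] AlgebraicClosure ℚ

variable {O : RepTheory.FiniteDVRExt ℤ_[2]} [Algebra (ZMod 2) (ResidueField O.R)]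
  {E : WeierstrassCurve ℤ} (hE : Companion E)

include hE

/-- The common coordinates, indexed by the tuple. -/
theorem exists_coordinates {n m : ℕ} {Q : Finset ℕ} (hQ : ∀ q ∈ Q, ConjPrime E n q)
    (hkill : StKilled E Q) {k : ℕ} (hk : k + 1 = (badPrimes E).card) {qv : Finset ℕ}
    (hqv : qv.card = k) (htw : ∀ q ∈ qv, TWPrime E m q) (hsep : Separating E qv)
    (avoid : Finset ℕ) :
    ∃ (lv : Fin k → ℕ) (σ : Fin k → Γℚ),
      (∀ i, (lv i).Prime ∧ lv i ∉ avoid ∧ ∃ A : ValuationSubring (AlgebraicClosure ℚ),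
        A.LiesOverPrime (lv i) ∧ A.IsFrobeniusAt (σ i) (lv i)) ∧
      ∀ (S T : Finset ℕ) (s : ℕ → ℤ), S ⊆ insert 2 (badPrimes E ∪ Q ∪ qv) →
        badPrimes E ∪ Q ⊆ T → (∀ j ∈ badPrimes E ∪ Q, Odd (s j)) →
        ∀ (D : GaloisRep.DeformationRingData O.R (resRep hE.Δ_ne_zero (ResidueField O.R))
          (signCond O.R S T s)) (c : Fin k → O.R),
          (∀ i, D.ρ.trace (σ i) - algebraMap O.R D.R (c i) ∈ maximalIdeal D.R) →
            ∃ γ : MvPowerSeries (Fin k) O.R →ₐ[O.R] D.R, Function.Surjective γ ∧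
              ∀ i, γ (MvPowerSeries.X i) = D.ρ.trace (σ i) - algebraMap O.R D.R (c i) := by
  subst hqv
  exact exists_signRing_generators hE hQ hkill htw hk hsep avoid

/-- The field `parity` of `GalSide`. -/
theorem exists_parity_field (hO : maximalIdeal O.R = Ideal.span {2}) {ω : O.R}
    (hω : ω ^ 2 + ω + 1 = 0) {n m : ℕ} (hn : 2 ≤ n) {Q : Finset ℕ}
    (hQ : ∀ q ∈ Q, ConjPrime E n q) (hkill : StKilled E Q) {k : ℕ} (qt : Fin k → ℕ)
    (hqt : ∀ i, TWPrime E m (qt i)) (lv : Fin k → ℕ) (σ : Fin k → Γℚ)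
    (hσ : ∀ i, (tateRep E hE.Δ_ne_zero 2).trace (σ i) = (E.apOfModel (lv i) : ℤ_[2]))
    (hgen : ∀ (s : ℕ → ℤ), (∀ j ∈ badPrimes E ∪ Q, Odd (s j)) →
      ∀ (D : GaloisRep.DeformationRingData O.R (resRep hE.Δ_ne_zero (ResidueField O.R))
        (signCond O.R (ringSet E Q qt) (badPrimes E ∪ Q) s)) (c : Fin k → O.R),
        (∀ i, D.ρ.trace (σ i) - algebraMap O.R D.R (c i) ∈ maximalIdeal D.R) →
          ∃ γ : MvPowerSeries (Fin k) O.R →ₐ[O.R] D.R, Function.Surjective γ ∧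
            ∀ i, γ (MvPowerSeries.X i) = D.ρ.trace (σ i) - algebraMap O.R D.R (c i))
    {s : ℕ → ℤ} (hs : IsSign E Q s) (hodd : OddFlips E s) :
    ∃ f : PS O k, ¬ (4 : O.R) ∣ MvPowerSeries.constantCoeff f ∧
      ∀ (A : RepTheory.FiniteDVRExt O.R) (ρ : GaloisRepAdic A.R),
        ringPt O hE.Δ_ne_zero Q qt s A ρ → ∀ γ, IsPoint E lv σ ρ γ → γ f = 0 := by
  have hsign : ∀ j ∈ badPrimes E ∪ Q, s j = 1 ∨ s j = -1 := fun j hj =>
    hs j (by rwa [signPrimes_eq hE.Δ_ne_zero])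
  have hodd' : ∀ j ∈ badPrimes E ∪ Q, Odd (s j) := fun j hj => by
    rcases hsign j hj with h | h <;> rw [h]
    · exact odd_one
    · exact odd_neg_one
  obtain ⟨D⟩ := hE.nonempty_signRing (𝒪 := O.R) (S := ringSet E Q qt)
    (Finset.mem_insert_self _ _)
    (fun ℓ hℓ hd => Finset.mem_insert_of_mem (Finset.mem_union_left _ (Finset.mem_union_left _
      ((mem_badPrimes hE.Δ_ne_zero).2 ⟨hℓ, hd⟩))))
    hsign (n := n) (by omega) fun j hj =>
      (Finset.mem_union.1 hj).imp (fun h => (mem_badPrimes hE.Δ_ne_zero).1 h) (hQ j)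
  have hm : ∀ i, D.ρ.trace (σ i) - algebraMap O.R D.R (E.apOfModel (lv i) : O.R) ∈
      maximalIdeal D.R := fun i => Ideal.Quotient.eq.mp <| by
    have h1 : residue D.R (D.ρ.trace (σ i)) =
        residue D.R (algebraMap O.R D.R (traceLift O.R _ (σ i))) :=
      Ideal.Quotient.eq.mpr (RT.resCond_universal D (σ i))
    show residue D.R _ = residue D.R _
    rw [h1, ← ResidueField.map_residue (algebraMap O.R D.R),
      ← ResidueField.map_residue (algebraMap O.R D.R),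
      residue_traceLift_eq hE (hσ i)]
  obtain ⟨γ₀, hγ₀, hγX⟩ := hgen s hodd' D _ hm
  have hflips : Odd ((badPrimes E).filter fun l => s l ≠ nodeSign E l).card := by
    rw [← primeFactors_conductor_eq_badPrimes hE.Δ_ne_zero]
    exact hodd
  obtain ⟨f, hf, h4⟩ := hE.exists_parity hO hn (qv := Finset.univ.image qt) hQ hkill
    (fun q hq => by
      obtain ⟨i, -, rfl⟩ := Finset.mem_image.1 hq
      exact hqt i)
    rfl hsign hflips D γ₀ hγ₀
  refine ⟨f, h4, fun A ρ hρ γ hγ => ?_⟩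
  obtain ⟨ψ, hψl, hψ⟩ := hE.exists_signRing_hom hω D A ρ hρ.1 hρ.2
  have key : ψ.comp γ₀ = γ := algHom_ext_of_X
    (fun i => by
      rw [AlgHom.comp_apply, hγX]
      exact map_nonunit (ψ : D.R →+* A.R) _ (hm i))
    fun i => by rw [AlgHom.comp_apply, hγX, hγ i, map_sub, hψ, AlgHom.commutes, map_intCast]
  rw [← key, AlgHom.comp_apply, hf, map_zero]

omit [Algebra (ZMod 2) (ResidueField O.R)] in
/-- **The ring side**: at every Taylor–Wiles tuple of length `#bad - 1` the rings `R^s` are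
quotients of power series in that many variables, with the point of `E[2 ^ n]` and parity. -/
theorem exists_galSide (O : RepTheory.FiniteDVRExt ℤ_[2])
    (hO : maximalIdeal O.R = Ideal.span {2}) (j : ZMod 2 →+* ResidueField O.R) {ω : O.R}
    (hω : ω ^ 2 + ω + 1 = 0) {n : ℕ} (hn : 2 ≤ n) {Q : Finset ℕ}
    (hQ : ∀ q ∈ Q, ConjPrime E n q) (hkill : StKilled E Q) {k : ℕ}
    (hk : k + 1 = (badPrimes E).card) {m : ℕ} {qt : Fin k → ℕ}
    (hqt : IsTWTuple E Q m qt) :
    Nonempty (GalSide O E Q (ringPt O hE.Δ_ne_zero Q qt) n qt) := by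
  letI : Algebra (ZMod 2) (ResidueField O.R) := j.toAlgebra
  obtain ⟨lv, σ, hlv, hgen⟩ := exists_coordinates (O := O) hE hQ hkill hk
    (qv := Finset.univ.image qt)
    (by rw [Finset.card_image_of_injective _ hqt.injective, Finset.card_univ, Fintype.card_fin])
    (fun q hq => by
      obtain ⟨i, -, rfl⟩ := Finset.mem_image.1 hq
      exact hqt.twPrime i)
    hqt.separating (badSet E Q qt)
  have hgen' := fun (s : ℕ → ℤ) hs D c hc =>
    hgen (ringSet E Q qt) (badPrimes E ∪ Q) s Finset.Subset.rfl Finset.Subset.rfl hs D c hc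
  obtain ⟨hfrob, hinert⟩ := exists_frob_inert hE hO hω (n := n) (by omega) hQ qt hqt.twPrime lv σ
    hlv hgen'
  have h0 : 2 * (E.conductorLevel * ∏ q ∈ Q, q) ≠ 0 :=
    mul_ne_zero two_ne_zero (mul_ne_zero E.conductorLevel_pos.ne'
      (Finset.prod_ne_zero_iff.2 fun q hq => (hQ q hq).prime.ne_zero))
  have hσ : ∀ i, (tateRep E hE.Δ_ne_zero 2).trace (σ i) = (E.apOfModel (lv i) : ℤ_[2]) := fun i => by
    obtain ⟨hp, hmem, P, hP, hτ⟩ := hlv i
    have hnd : ¬ lv i ∣ 2 * (E.conductorLevel * ∏ q ∈ Q, q) := fun h =>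
      hmem (Finset.mem_union_left _ (Nat.mem_primeFactors.2 ⟨hp, h, h0⟩))
    have h2 : lv i ≠ 2 := fun h => hnd (by rw [h]; exact dvd_mul_right 2 _)
    exact (trace_det_frobenius_all (hΔ := hE.Δ_ne_zero) hE.modRepIsIrreducible_two hp h2 h2
      (fun h => hnd (dvd_mul_of_dvd_right (dvd_mul_of_dvd_left
        ((E.prime_dvd_conductorLevel_iff hE.Δ_ne_zero hp).2 h) _) _)) hP hτ).1
  exact ⟨{
    lv := lv
    lv_prime := fun i => (hlv i).1
    lv_notMem := fun i => (hlv i).2.1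
    σ := σ
    σ_frob := fun i => (hlv i).2.2
    frob := hfrob
    inert := hinert
    parity := fun s hs hodd =>
      exists_parity_field hE hO hω hn hQ hkill qt hqt.twPrime lv σ hσ hgen' hs hodd }⟩

end FLTA.LT2.PatchG
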