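import Mathlib.Analysis.Complex.UpperHalfPlane.Basic


/-!
# The `l + 1` neighbours of a point of the upper half plane
-/

set_option autoImplicit false

noncomputable section

open scoped UpperHalfPlane

namespace FLTA.LT2

/-- `(τ + i) / l` for `i < l`, and `l τ` for `i = l`. -/
def heckePt (l : ℕ) [NeZero l] (τ : ℍ) (i : Fin (l + 1)) : ℍ :=
  if (i : ℕ) < l then
    ⟨((τ : ℂ) + (i : ℕ)) / (l : ℂ), by
      rw [Complex.div_natCast_im]
      exact div_pos (by simpa using τ.im_pos) (Nat.cast_pos.2 (NeZero.pos l))⟩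
  else
    ⟨(l : ℂ) * τ, by
      simpa using mul_pos (Nat.cast_pos (α := ℝ).2 (NeZero.pos l)) τ.im_pos⟩

theorem coe_heckePt_of_lt {l : ℕ} [NeZero l] (τ : ℍ) {i : Fin (l + 1)} (h : (i : ℕ) < l) :
    (heckePt l τ i : ℂ) = ((τ : ℂ) + (i : ℕ)) / (l : ℂ) := by
  rw [heckePt, if_pos h]

theorem coe_heckePt_last (l : ℕ) [NeZero l] (τ : ℍ) :
    (heckePt l τ (Fin.last l) : ℂ) = (l : ℂ) * τ := by
  rw [heckePt, if_neg (by simp)]

end FLTA.LT2
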