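import Fermat.Agent.LT2.FixedForms
import Fermat.Agent.LT2.FixedPoints

/-!
# The Fricke involution permutes the neighbours of a fixed point through `ℙ¹(𝔽ₗ)`
-/

set_option autoImplicit false

noncomputable section

namespace FLTA.LT2

open BinForm

/-- The image of the `i`th line under the matrix of the form: first coordinate. -/
def lineU (Q : BinForm) (l : ℕ) (i : Fin (l + 1)) : ℤ :=
  if (i : ℕ) < l then -Q.b + (i : ℕ) * Q.a else Q.a

/-- The image of the `i`th line under the matrix of the form: second coordinate. -/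
def lineV (Q : BinForm) (l : ℕ) (i : Fin (l + 1)) : ℤ :=
  if (i : ℕ) < l then -Q.c + (i : ℕ) * Q.b else Q.b

/-- The `j`th line is spanned by the image of the `i`th. -/
def LineRel (Q : BinForm) (l : ℕ) (i j : Fin (l + 1)) : Prop :=
  if (j : ℕ) < l then (l : ℤ) ∣ lineV Q l i - (j : ℕ) * lineU Q l i else (l : ℤ) ∣ lineU Q l i

variable {N l : ℕ} {Q : BinForm}

theorem lineU_ne_or_lineV_ne (hl : l.Prime) (hlN : ¬ l ∣ N) (hQ : Q.det = N)
    (ha : ¬ (l : ℤ) ∣ Q.a) (i : Fin (l + 1)) :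
    ¬ ((l : ℤ) ∣ lineU Q l i ∧ (l : ℤ) ∣ lineV Q l i) := by
  have := hl.pos
  rintro ⟨hu, hv⟩
  simp only [lineU, lineV] at hu hv
  split_ifs at hu hv with h
  · refine hlN (Int.natCast_dvd_natCast.1 ?_)
    rw [← hQ]
    exact (dvd_sub (hu.mul_left Q.b) (hv.mul_left Q.a)).trans
      (dvd_of_eq (by rw [BinForm.det]; ring))
  · exact ha hu

theorem existsUnique_lineRel (hl : l.Prime) (hlN : ¬ l ∣ N) (hQ : Q.det = N)
    (ha : ¬ (l : ℤ) ∣ Q.a) (i : Fin (l + 1)) : ∃! j, LineRel Q l i j := by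
  have hne := lineU_ne_or_lineV_ne hl hlN hQ ha i
  have hlp := Nat.prime_iff_prime_int.1 hl
  set u := lineU Q l i
  set v := lineV Q l i
  by_cases hu : (l : ℤ) ∣ u
  · refine ⟨Fin.last l, ?_, fun j hj => ?_⟩
    · simp only [LineRel, Fin.val_last, lt_irrefl, if_false]; exact hu
    · simp only [LineRel] at hj
      split_ifs at hj with h
      · exact absurd ⟨hu, (dvd_add hj (hu.mul_left ((j : ℕ) : ℤ))).trans (dvd_of_eq (by ring))⟩ hne
      · exact Fin.ext (by have := j.2; simp; omega)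
  · obtain ⟨x, y, hxy⟩ := ((hlp.coprime_iff_not_dvd).2 hu).symm
    have hl0 : (0 : ℤ) < l := by exact_mod_cast hl.pos
    obtain ⟨k, hk⟩ : ∃ k : ℕ, (v * x) % (l : ℤ) = k :=
      ⟨_, (Int.toNat_of_nonneg (Int.emod_nonneg _ hl0.ne')).symm⟩
    have hkl : k < l := by
      have := Int.emod_lt_of_pos (v * x) hl0
      omega
    have hroot : (l : ℤ) ∣ v - k * u := ⟨(v * x) / l * u + v * y, by
      have h := Int.emod_add_mul_ediv (v * x) l
      rw [hk] at h
      linear_combination (-v) * hxy - u * h⟩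
    refine ⟨⟨k, by omega⟩, ?_, fun j hj => ?_⟩
    · simp only [LineRel, hkl, if_true]; exact hroot
    · simp only [LineRel] at hj
      split_ifs at hj with h
      · have hd : (l : ℤ) ∣ ((k : ℤ) - (j : ℕ)) * u :=
          (dvd_sub hj hroot).trans (dvd_of_eq (by ring))
        have := (hlp.dvd_or_dvd hd).resolve_right hu
        have hz := Int.eq_zero_of_abs_lt_dvd this (by rw [abs_lt]; constructor <;> omega)
        exact Fin.ext (by simp; omega)
      · exact absurd hj hu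

theorem lineRel_symm (hl : l.Prime) (hlN : ¬ l ∣ N) (hQ : Q.det = N)
    (ha : ¬ (l : ℤ) ∣ Q.a) {i j : Fin (l + 1)} (h : LineRel Q l i j) : LineRel Q l j i := by
  have hne := lineU_ne_or_lineV_ne hl hlN hQ ha i
  simp only [LineRel, lineU, lineV] at h hne ⊢
  split_ifs at h hne ⊢ with hj hi hi
  · exact h.trans (dvd_of_eq (by ring))
  · exact (dvd_neg.2 h).trans (dvd_of_eq (by ring))
  · exact (dvd_neg.2 h).trans (dvd_of_eq (by ring))
  · exact absurd h ha

theorem lineRel_self_iff (ha : ¬ (l : ℤ) ∣ Q.a) (i : Fin (l + 1)) :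
    LineRel Q l i i ↔ (i : ℕ) < l ∧ (l : ℤ) ∣ Q.eval (-((i : ℕ) : ℤ)) 1 := by
  simp only [LineRel, lineU, lineV]
  split_ifs with h
  · rw [eval_int, ← dvd_neg]
    constructor
    · exact fun hd => ⟨h, hd.trans (dvd_of_eq (by ring))⟩
    · exact fun hd => hd.2.trans (dvd_of_eq (by ring))
  · simp [h, ha]

theorem frickeRel_of_lineRel [NeZero l] (hN : 0 < N) (hlN : Nat.Coprime l N) (hQ : Q.Adapted N)
    (ha : ¬ (l : ℤ) ∣ Q.a) {i j : Fin (l + 1)} (h : LineRel Q l i j) :
    FrickeRel N (heckePt l Q.root j) (heckePt l Q.root i) := by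
  obtain ⟨hd, ⟨a', ha'⟩, ⟨b', hb'⟩⟩ := hQ
  have hroot := Q.root_eq_zero
  simp only [BinForm.det] at hd
  have hN' : (N : ℤ) ≠ 0 := by exact_mod_cast hN.ne'
  have hl' : (l : ℤ) ≠ 0 := by exact_mod_cast NeZero.ne l
  have hlC : (l : ℂ) ≠ 0 := Nat.cast_ne_zero.2 (NeZero.ne l)
  have hlast : ∀ k : Fin (l + 1), ¬ (k : ℕ) < l → k = Fin.last l := fun k hk =>
    Fin.ext (by have := k.2; simp; omega)
  simp only [LineRel, lineU, lineV] at h
  split_ifs at h with hj hi hi
  · obtain ⟨y, hy⟩ := h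
    refine ⟨-b' + (i : ℕ) * a', y, l * a', b' - a' * (j : ℕ), mul_left_cancel₀ hN' ?_, ?_⟩
    · rw [ha', hb'] at hd hy
      linear_combination hd + (N : ℤ) * a' * hy
    · have e := congrArg (fun z : ℤ => (z : ℂ)) hy
      rw [ha', hb'] at hroot
      rw [ha', hb'] at e
      rw [coe_heckePt_of_lt _ hi, coe_heckePt_of_lt _ hj]
      push_cast at e hroot ⊢
      field_simp
      linear_combination hroot + e
  · obtain ⟨y, hy⟩ := h
    rw [hlast i hi]
    unfold FrickeRel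
    rw [coe_heckePt_last, coe_heckePt_of_lt _ hj]
    refine ⟨-(l : ℤ) * b', (j : ℕ) * Q.b - Q.c, a', ?_⟩
    obtain ⟨t, ht⟩ : (l : ℤ) ∣ b' - a' * (j : ℕ) := by
      refine IsCoprime.dvd_of_dvd_mul_left (y := (N : ℤ))
        (Nat.isCoprime_iff_coprime.2 hlN) ⟨y, ?_⟩
      rw [ha', hb'] at hy
      linear_combination hy
    refine ⟨t, mul_left_cancel₀ hN' ?_, ?_⟩
    · rw [ha', hb'] at hd
      rw [hb']
      linear_combination hd + (N : ℤ) ^ 2 * b' * ht
    · have e := congrArg (fun z : ℤ => (z : ℂ)) ht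
      rw [ha', hb'] at hroot
      rw [hb']
      push_cast at e hroot ⊢
      field_simp
      linear_combination hroot - (N : ℂ) * (Q.root : ℂ) * e
  · obtain ⟨x, hx⟩ : (l : ℤ) ∣ -b' + (i : ℕ) * a' := by
      refine IsCoprime.dvd_of_dvd_mul_left (y := (N : ℤ))
        (Nat.isCoprime_iff_coprime.2 hlN) (h.trans (dvd_of_eq ?_))
      rw [ha', hb']; ring
    rw [hlast j hj]
    unfold FrickeRel
    rw [coe_heckePt_last, coe_heckePt_of_lt _ hi]
    refine ⟨x, -Q.c + (i : ℕ) * Q.b, a', l * b', mul_left_cancel₀ hN' ?_, ?_⟩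
    · rw [ha', hb'] at hd
      rw [hb']
      linear_combination hd - (N : ℤ) ^ 2 * b' * hx
    · have e := congrArg (fun z : ℤ => (z : ℂ)) hx
      rw [ha', hb'] at hroot
      rw [hb']
      push_cast at e hroot ⊢
      field_simp
      linear_combination hroot + (N : ℂ) * (Q.root : ℂ) * e
  · exact absurd h ha

/-- The involution of the neighbours. -/
theorem exists_hecke_invol [NeZero l] (hN : 0 < N) (hl : l.Prime) (hlN : ¬ l ∣ N)
    (hQ : Q.Adapted N) (ha : ¬ (l : ℤ) ∣ Q.a) :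
    ∃ σ : Fin (l + 1) → Fin (l + 1), Function.Involutive σ ∧
      (∀ i, σ i = i ↔ ((i : ℕ) < l ∧ (l : ℤ) ∣ Q.eval (-((i : ℕ) : ℤ)) 1)) ∧
      ∀ i, FrickeRel N (heckePt l Q.root i) (heckePt l Q.root (σ i)) := by
  have H := fun i => existsUnique_lineRel hl hlN hQ.1 ha i
  choose σ hσ huniq using H
  refine ⟨σ, fun i => (huniq (σ i) i (lineRel_symm hl hlN hQ.1 ha (hσ i))).symm, fun i => ?_,
    fun i => frickeRel_of_lineRel hN ((hl.coprime_iff_not_dvd).2 hlN) hQ ha
      (lineRel_symm hl hlN hQ.1 ha (hσ i))⟩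
  rw [← lineRel_self_iff ha]
  exact ⟨fun h => by simpa only [h] using hσ i, fun h => (huniq i i h).symm⟩

end FLTA.LT2
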