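import Fermat.Agent.LT2.ThetaClasses

/-!
# Classes of forms of determinant `N` as points of the upper half plane fixed by the Fricke
involution modulo `Γ₀(N)`
-/

set_option autoImplicit false

noncomputable section

open UpperHalfPlane hiding I
open Complex CongruenceSubgroup
open scoped MatrixGroups

namespace FLTA.LT2

open BinForm

namespace BinForm

variable (Q : BinForm)

/-- The root in the upper half plane. -/
def root : ℍ :=
  ⟨⟨-(Q.b : ℝ) / Q.a, Real.sqrt Q.det / Q.a⟩, by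
    have ha : (0 : ℝ) < Q.a := by exact_mod_cast Q.a_pos
    have hd : (0 : ℝ) < Q.det := by exact_mod_cast Q.det_pos
    exact div_pos (Real.sqrt_pos.2 hd) ha⟩

theorem root_eq_zero :
    (Q.a : ℂ) * (Q.root : ℂ) ^ 2 + 2 * (Q.b : ℂ) * (Q.root : ℂ) + (Q.c : ℂ) = 0 := by
  have ha : (Q.a : ℝ) ≠ 0 := by exact_mod_cast Q.a_pos.ne'
  have hd : (Q.det : ℝ) = Q.a * Q.c - (Q.b : ℝ) ^ 2 := by simp [det]
  have hsq : Real.sqrt Q.det * Real.sqrt Q.det = Q.det :=
    Real.mul_self_sqrt (by exact_mod_cast Q.det_pos.le)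
  apply Complex.ext <;> simp [root, pow_two, Complex.mul_re, Complex.mul_im]
  · field_simp
    linear_combination -hsq - hd
  · field_simp
    ring

theorem eq_root {z : ℍ} (h : (Q.a : ℂ) * (z : ℂ) ^ 2 + 2 * (Q.b : ℂ) * (z : ℂ) + (Q.c : ℂ) = 0) :
    z = Q.root := by
  have h' : ((z : ℂ) - Q.root) * ((Q.a : ℂ) * ((z : ℂ) + Q.root) + 2 * Q.b) = 0 := by
    linear_combination h - Q.root_eq_zero
  rcases mul_eq_zero.1 h' with e | e
  · exact UpperHalfPlane.ext (sub_eq_zero.1 e)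
  · exfalso
    have e' := congrArg Complex.im e
    simp [Complex.mul_im] at e'
    have := z.im_pos
    have := Q.root.im_pos
    rcases e' with hQ | hi
    · exact Q.a_pos.ne' hQ
    · linarith

theorem root_injective {Q Q' : BinForm} (hd : Q.det = Q'.det) (h : Q.root = Q'.root) : Q = Q' := by
  have h1 := congrArg (fun z : ℍ => (z : ℂ).re) h
  have h2 := congrArg (fun z : ℍ => (z : ℂ).im) h
  simp only [root] at h1 h2
  have hQ : (0 : ℝ) < Q.a := by exact_mod_cast Q.a_pos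
  have hQ' : (0 : ℝ) < Q'.a := by exact_mod_cast Q'.a_pos
  have hdd : (0 : ℝ) < Real.sqrt Q'.det := Real.sqrt_pos.2 (by exact_mod_cast Q'.det_pos)
  rw [hd, div_eq_div_iff hQ.ne' hQ'.ne'] at h2
  have ea : (Q.a : ℝ) = Q'.a := (mul_left_cancel₀ hdd.ne' h2).symm
  rw [ea, div_left_inj' hQ'.ne', neg_inj] at h1
  exact eq_of_det_eq (by exact_mod_cast ea) (by exact_mod_cast h1) hd

/-- The root of a pull back. -/
theorem Pull.root_eq {m p q s t : ℤ} {Q R : BinForm} (h : Pull m p q s t Q R)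
    (hd : 0 < p * t - q * s) :
    ((Q.root : ℂ)) * ((s : ℂ) * R.root + t) = (p : ℂ) * R.root + q := by
  have him : ∀ z : ℍ, (s : ℂ) * z + t ≠ 0 := by
    intro z hz
    have h1 := congrArg Complex.im hz
    have h2 := congrArg Complex.re hz
    simp [z.im_pos.ne'] at h1 h2
    subst h1
    simp at h2
    subst h2
    simp at hd
  have hden := him R.root
  have hpos : 0 < (((p : ℂ) * R.root + q) / ((s : ℂ) * R.root + t)).im := by
    rw [Complex.div_im, ← sub_div]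
    refine div_pos ?_ (Complex.normSq_pos.2 hden)
    have e : ((p : ℂ) * R.root + q).im * ((s : ℂ) * R.root + t).re -
        ((p : ℂ) * R.root + q).re * ((s : ℂ) * R.root + t).im =
        ((p * t - q * s : ℤ) : ℝ) * (R.root : ℂ).im := by
      simp [Complex.mul_im, Complex.mul_re]
      ring
    rw [e]
    exact mul_pos (by exact_mod_cast hd) R.root.im_pos
  have key : (Q.a : ℂ) * (((p : ℂ) * R.root + q) / ((s : ℂ) * R.root + t)) ^ 2 +
      2 * Q.b * (((p : ℂ) * R.root + q) / ((s : ℂ) * R.root + t)) + Q.c = 0 := by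
    obtain ⟨ha, hb, hc⟩ := h
    simp only [eval_int] at ha hc
    have e := congrArg (fun z : ℂ => (m : ℂ) * z) R.root_eq_zero
    have ha' := congrArg (fun z : ℤ => (z : ℂ)) ha
    have hb' := congrArg (fun z : ℤ => (z : ℂ)) hb
    have hc' := congrArg (fun z : ℤ => (z : ℂ)) hc
    push_cast at ha' hb' hc'
    simp only [mul_zero] at e
    have num : (Q.a : ℂ) * ((p : ℂ) * R.root + q) ^ 2 +
        2 * Q.b * ((p : ℂ) * R.root + q) * ((s : ℂ) * R.root + t) +
        Q.c * ((s : ℂ) * R.root + t) ^ 2 = 0 := by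
      linear_combination e - (R.root : ℂ) ^ 2 * ha' - 2 * (R.root : ℂ) * hb' - hc'
    rw [← zero_div (((s : ℂ) * R.root + t) ^ 2), ← num]
    generalize (s : ℂ) * R.root + t = d at hden ⊢
    field_simp
  have h1 : (Q.root : ℂ) = ((p : ℂ) * R.root + q) / ((s : ℂ) * R.root + t) :=
    (congrArg (fun z : ℍ => (z : ℂ)) (Q.eq_root (z := ⟨_, hpos⟩) key)).symm
  rw [h1, div_mul_cancel₀ _ hden]

end BinForm

/-- `τ'` is the image of `τ` by a matrix `(N x, y; N z, N t)` of determinant `N`. -/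
def FrickeRel (N : ℕ) (τ τ' : ℍ) : Prop :=
  ∃ x y z t : ℤ, (N : ℤ) * x * t - y * z = 1 ∧
    (τ' : ℂ) * ((N : ℂ) * z * τ + (N : ℂ) * t) = (N : ℂ) * x * τ + y

/-- A form adapted to `Γ₀(N)`. -/
def BinForm.Adapted (Q : BinForm) (N : ℕ) : Prop :=
  Q.det = N ∧ (N : ℤ) ∣ Q.a ∧ (N : ℤ) ∣ Q.b

theorem BinForm.Adapted.frickeRel {Q : BinForm} {N : ℕ} (h : Q.Adapted N) (hN : 0 < N) :
    FrickeRel N Q.root Q.root := by
  obtain ⟨hd, ⟨a', ha⟩, ⟨b', hb⟩⟩ := h
  have hN' : (N : ℤ) ≠ 0 := by exact_mod_cast hN.ne'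
  refine ⟨-b', -Q.c, a', b', mul_left_cancel₀ hN' ?_, ?_⟩
  · simp only [BinForm.det, ha, hb] at hd
    linear_combination hd
  · have h := Q.root_eq_zero
    rw [ha, hb] at h
    push_cast at h ⊢
    linear_combination h

theorem BinForm.Adapted.coprime_c {Q : BinForm} {N : ℕ} (hN : Squarefree N) (h : Q.Adapted N) :
    IsCoprime (N : ℤ) Q.c := by
  obtain ⟨hd, ha, hb⟩ := h
  rw [Int.isCoprime_iff_nat_coprime, Int.natAbs_natCast]
  refine Nat.coprime_of_dvd fun r hr h1 h2 => hr.not_isUnit (hN r ?_)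
  have h1' : (r : ℤ) ∣ N := Int.natCast_dvd_natCast.2 h1
  have : ((r * r : ℕ) : ℤ) ∣ (N : ℤ) := by
    rw [← hd, BinForm.det, Nat.cast_mul, sq]
    exact dvd_sub (mul_dvd_mul (h1'.trans ha) (Int.natCast_dvd.2 h2))
      (mul_dvd_mul (h1'.trans hb) (h1'.trans hb))
  exact Int.natCast_dvd_natCast.1 this

/-- An equivalence of adapted forms is by `Γ₀(N)`. -/
theorem adapted_gamma0 {N : ℕ} (hN : Squarefree N) {Q R : BinForm} (hQ : Q.Adapted N)
    (hR : R.Adapted N) {p q s t : ℤ} (h : Pull 1 p q s t Q R) : (N : ℤ) ∣ s := by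
  obtain ⟨ha, -, -⟩ := h
  simp only [BinForm.eval_int, one_mul] at ha
  have hcs : (N : ℤ) ∣ s ^ 2 * Q.c :=
    (dvd_sub hR.2.1 (dvd_add (hQ.2.1.mul_right (p ^ 2)) (hQ.2.2.mul_right (2 * p * s)))).trans
      (dvd_of_eq (by rw [ha]; ring))
  have h2 := (hQ.coprime_c hN).dvd_of_dvd_mul_right hcs
  rw [Int.natCast_dvd, Int.natAbs_pow] at h2
  rw [Int.natCast_dvd]
  exact (hN.dvd_pow_iff_dvd two_ne_zero).1 h2

/-- Every primitive form is equivalent to an adapted one. -/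
theorem exists_adapted {N : ℕ} (hN : Squarefree N) {Q : BinForm} (hQ : Q.det = N) (hp : Q.Prim) :
    ∃ R, FormEquiv Q R ∧ R.Adapted N := by
  obtain ⟨T, hT, hTc⟩ := exists_equiv_a_coprime hN hQ hp (M := (N : ℤ))
    (by exact_mod_cast hN.ne_zero)
  obtain ⟨u, v, huv⟩ := hTc
  obtain ⟨S, hS, hSa, hSb⟩ := exists_shift T (-T.b * u)
  have hb : (N : ℤ) ∣ S.b := ⟨T.b * v, by rw [hSb]; linear_combination -T.b * huv⟩
  have hd : S.det = N := ((hT.trans hS).det_eq).trans hQ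
  have hc : (N : ℤ) ∣ S.c := by
    have h1 : (N : ℤ) ∣ S.a * S.c := by
      have e : S.a * S.c = N + S.b * S.b := by rw [← hd, BinForm.det]; ring
      rw [e]
      exact dvd_add dvd_rfl (dvd_mul_of_dvd_left hb _)
    refine IsCoprime.dvd_of_dvd_mul_left ?_ h1
    rw [hSa]
    exact ⟨v, u, by linear_combination huv⟩
  refine ⟨⟨S.c, -S.b, S.a, S.c_pos, by have := S.det_pos; linear_combination this⟩,
    (hT.trans hS).trans ⟨0, -1, 1, 0, by norm_num, by simp [BinForm.eval], by ring,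
      by simp [BinForm.eval]⟩, ?_, hc, hb.neg_right⟩
  rw [← hd, BinForm.det, BinForm.det]; ring

/-- An adapted form may be chosen with first coefficient prime to a given prime. -/
theorem exists_adapted_not_dvd {N : ℕ} (hN : Squarefree N) {Q : BinForm} (hQ : Q.det = N)
    (hp : Q.Prim) {l : ℕ} (hl : l.Prime) (hl2 : l ≠ 2) (hlN : ¬ l ∣ N) :
    ∃ R, FormEquiv Q R ∧ R.Adapted N ∧ ¬ (l : ℤ) ∣ R.a := by
  obtain ⟨T, hT, hA⟩ := exists_adapted hN hQ hp
  obtain ⟨hd, ha, hb⟩ := hA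
  have hlp := Nat.prime_iff_prime_int.1 hl
  have hlN' : ¬ (l : ℤ) ∣ N := fun h => hlN (Int.natCast_dvd_natCast.1 h)
  have key : ∃ m : ℤ, ¬ (l : ℤ) ∣ T.eval 1 (N * m) := by
    by_contra! hcon
    have h0 := hcon 0
    have h1 := hcon 1
    have h2 := hcon (-1)
    simp only [BinForm.eval_int] at h0 h1 h2
    have ha0 : (l : ℤ) ∣ T.a := h0.trans (dvd_of_eq (by ring))
    have hb4 : (l : ℤ) ∣ 4 * (T.b * N) := (dvd_sub h1 h2).trans (dvd_of_eq (by ring))
    have h4 : ¬ (l : ℤ) ∣ (4 : ℤ) := fun h => hl2 ((Nat.prime_dvd_prime_iff_eq hl Nat.prime_two).1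
      (hl.dvd_of_dvd_pow (n := 2) (by exact_mod_cast h)))
    have hb0 : (l : ℤ) ∣ T.b :=
      (hlp.dvd_or_dvd ((hlp.dvd_or_dvd hb4).resolve_left h4)).resolve_right hlN'
    refine hlN' (dvd_trans (dvd_sub (ha0.mul_right T.c) (hb0.mul_right T.b)) (dvd_of_eq ?_))
    rw [← hd, BinForm.det]; ring
  obtain ⟨m, hm⟩ := key
  have hpos : 0 < T.eval 1 (N * m) := by
    rcases (T.eval_int_nonneg (1, N * m)).lt_or_eq with hlt | heq
    · exact hlt
    · exact absurd (heq ▸ dvd_zero _) hm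
  set R : BinForm := ⟨T.eval 1 (N * m), T.b + T.c * (N * m), T.c, hpos, by
    have := T.det_pos
    simp only [BinForm.eval_int]
    linear_combination this⟩
  have hTR : FormEquiv T R :=
    ⟨1, 0, N * m, 1, by ring, rfl, by simp [R], by simp [R, BinForm.eval]⟩
  refine ⟨R, hT.trans hTR, ⟨hTR.det_eq.trans hd, ?_, dvd_add hb ⟨T.c * m, by ring⟩⟩, hm⟩
  show (N : ℤ) ∣ T.eval 1 (N * m)
  rw [BinForm.eval_int]
  exact dvd_add (dvd_add (ha.mul_right _) ⟨2 * T.b * m, by ring⟩) ⟨T.c * (N * m ^ 2), by ring⟩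

/-- Adapted forms with roots in one `Γ₀(N)` orbit are equivalent. -/
theorem formEquiv_of_root_smul {Q R : BinForm} (hd : Q.det = R.det) {γ : SL(2, ℤ)}
    (h : γ • R.root = Q.root) : FormEquiv Q R := by
  have hdet : γ.1 0 0 * γ.1 1 1 - γ.1 0 1 * γ.1 1 0 = 1 := by
    have := γ.2
    rw [Matrix.det_fin_two] at this
    linarith
  obtain ⟨S, hS, hSa⟩ := exists_equiv_of_coprime Q (p := γ.1 0 0) (s := γ.1 1 0)
    ⟨γ.1 1 1, -γ.1 0 1, by linear_combination hdet⟩
  -- the form obtained with exactly this matrix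
  set T : BinForm := ⟨Q.eval (γ.1 0 0) (γ.1 1 0),
    Q.a * γ.1 0 0 * γ.1 0 1 + Q.b * (γ.1 0 0 * γ.1 1 1 + γ.1 0 1 * γ.1 1 0) +
      Q.c * γ.1 1 0 * γ.1 1 1, Q.eval (γ.1 0 1) (γ.1 1 1), hSa ▸ S.a_pos, by
      have h0 := Q.det_pos
      simp only [BinForm.eval_int]
      have e : (γ.1 0 0 * γ.1 1 1 - γ.1 0 1 * γ.1 1 0) ^ 2 = 1 := by rw [hdet]; ring
      linear_combination h0 + (-(Q.a * Q.c - Q.b ^ 2)) * e⟩
  have hp : Pull 1 (γ.1 0 0) (γ.1 0 1) (γ.1 1 0) (γ.1 1 1) Q T := by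
    simp [BinForm.Pull, T]
  have hQT : FormEquiv Q T := formEquiv_iff.2 ⟨_, _, _, _, hdet, hp⟩
  have hroot := hp.root_eq (by rw [hdet]; norm_num)
  suffices T = R by rwa [this] at hQT
  refine BinForm.root_injective (hQT.det_eq.trans hd) ?_
  have hinj : γ • T.root = γ • R.root := by
    rw [h]
    refine UpperHalfPlane.ext ?_
    have hz : ((γ.1 1 0 : ℂ) * T.root + γ.1 1 1) ≠ 0 := by
      simpa [UpperHalfPlane.denom] using
        UpperHalfPlane.denom_ne_zero (γ : GL (Fin 2) ℝ) T.root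
    rw [UpperHalfPlane.coe_specialLinearGroup_apply]
    simp only [algebraMap_int_eq, eq_intCast, Complex.ofReal_intCast]
    rw [div_eq_iff hz]
    exact hroot.symm
  exact MulAction.injective γ hinj

/-- Equivalent adapted forms have roots in one `Γ₀(N)` orbit. -/
theorem exists_gamma0_smul_root {N : ℕ} (hN : Squarefree N) {Q R : BinForm} (hQ : Q.Adapted N)
    (hR : R.Adapted N) (h : FormEquiv Q R) : ∃ γ ∈ Gamma0 N, γ • R.root = Q.root := by
  obtain ⟨p, q, s, t, hd, hp⟩ := formEquiv_iff.1 h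
  set γ : SL(2, ℤ) := ⟨!![p, q; s, t], by simp [Matrix.det_fin_two]; linarith⟩
  refine ⟨γ, ?_, UpperHalfPlane.ext ?_⟩
  · rw [Gamma0_mem]
    show ((s : ℤ) : ZMod N) = 0
    exact (ZMod.intCast_zmod_eq_zero_iff_dvd _ _).2 (adapted_gamma0 hN hQ hR hp)
  · have hroot := hp.root_eq (by rw [hd]; norm_num)
    have hz : ((γ.1 1 0 : ℂ) * R.root + γ.1 1 1) ≠ 0 := by
      simpa [UpperHalfPlane.denom] using
        UpperHalfPlane.denom_ne_zero (γ : GL (Fin 2) ℝ) R.root
    rw [UpperHalfPlane.coe_specialLinearGroup_apply]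
    simp only [algebraMap_int_eq, eq_intCast, Complex.ofReal_intCast]
    rw [div_eq_iff hz]
    simpa [γ] using hroot.symm

end FLTA.LT2
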