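import Fermat.Agent.LT2.ThetaPsi
import Fermat.Agent.LT2.FixedForms
import Fermat.Agent.LT2.FixedPoints

/-!
# The support of the cubic character and the fixed neighbours of a class
-/

set_option autoImplicit false

noncomputable section

namespace FLTA.LT2

open BinForm

/-- An involution changes the number of elements with a given image by an even number outside
its fixed points. -/
theorem card_filter_involutive {α : Type*} [Fintype α] [DecidableEq α] {σ : α → α}
    (hσ : Function.Involutive σ) (p : α → Prop) [DecidablePred p] (hp : ∀ i, p i → p (σ i)) :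
    ((Finset.univ.filter p).card : ZMod 2) =
      ((Finset.univ.filter fun i => σ i = i ∧ p i).card : ZMod 2) := by
  rw [← Finset.card_filter_add_card_filter_not (s := Finset.univ.filter p) (fun i => σ i = i),
    Finset.filter_filter, Finset.filter_filter, Nat.cast_add,
    show (Finset.univ.filter fun i => p i ∧ σ i = i) = Finset.univ.filter fun i => σ i = i ∧ p i
      from Finset.filter_congr fun i _ => and_comm, add_eq_left]
  rw [Finset.card_eq_sum_ones, Nat.cast_sum]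
  refine Finset.sum_involution (fun i _ => σ i) ?_ ?_ ?_ (fun i _ => hσ i)
  · intro i _; simp; decide
  · intro i hi _; exact (Finset.mem_filter.1 hi).2.2
  · intro i hi
    simp only [Finset.mem_filter, Finset.mem_univ, true_and] at hi ⊢
    exact ⟨hp i hi.1, fun h => hi.2 (by rw [hσ] at h; exact h.symm)⟩

theorem BinForm.Adapted.up {Q : BinForm} {N : ℕ} (h : Q.Adapted N) {l : ℕ} (hl : 0 < l) {k : ℤ}
    (hk : (l : ℤ) ∣ Q.eval k 1) : (Q.up l k hl hk).Adapted N :=
  ⟨(det_up Q l k hl hk).trans h.1, h.2.1.mul_right _,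
    dvd_add h.2.2 (h.2.1.mul_left k)⟩

theorem BinForm.coe_root_up (Q : BinForm) {l : ℕ} (hl : 0 < l) {k : ℤ}
    (hk : (l : ℤ) ∣ Q.eval k 1) :
    ((Q.up l k hl hk).root : ℂ) = ((Q.root : ℂ) - k) / l := by
  have hl' : (l : ℂ) ≠ 0 := Nat.cast_ne_zero.2 hl.ne'
  have hp : Pull (l : ℤ) l k 0 1 Q (Q.up l k hl hk) := by
    refine ⟨?_, ?_, ?_⟩
    · simp [BinForm.up, eval_int]; ring
    · simp [BinForm.up]; ring
    · exact Int.mul_ediv_cancel' hk
  have h := hp.root_eq (by simp; exact_mod_cast hl)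
  push_cast at h
  rw [eq_div_iff hl']
  linear_combination -h

theorem nonempty_formClass {N : ℕ} (hN : Squarefree N) : Nonempty (FormClass N) :=
  ⟨FormClass.of ⟨⟨1, 0, N, one_pos, by simpa using pos_of_ne_zero hN.ne_zero⟩,
    by simp [BinForm.det], fun h => by simpa using Int.le_of_dvd one_pos h.1⟩⟩

namespace CubicSymbol

variable {N : ℕ} {R : ℕ → Prop} (S : CubicSymbol N R) (hN : Squarefree N)
include hN

variable {l₀ : ℕ} (hl₀ : l₀.Prime) (hlg₀ : IsCoprime (l₀ : ℤ) S.bad) {B₀ : ℤ}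
  (hB₀ : (l₀ : ℤ) ∣ B₀ ^ 2 + N) (hne : S.val l₀ B₀ ≠ 0)
include hl₀ hlg₀ hB₀ hne

theorem exists_psi_eq (k : ZMod 3) : ∃ C, S.psi hN C = k := by
  obtain ⟨C⟩ := nonempty_formClass hN
  set f := S.upClass hN hl₀ hlg₀ B₀ hB₀
  have h1 : S.psi hN (f C) = S.psi hN C + S.val l₀ B₀ := S.psi_upClass hN hl₀ hlg₀ hB₀ C
  have h2 : S.psi hN (f (f C)) = S.psi hN (f C) + S.val l₀ B₀ :=
    S.psi_upClass hN hl₀ hlg₀ hB₀ (f C)
  have key : ∀ p e : ZMod 3, e ≠ 0 → k = p ∨ k = p + e ∨ k = p + e + e := by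
    revert k; decide
  rcases key (S.psi hN C) _ hne with h | h | h
  · exact ⟨C, h.symm⟩
  · exact ⟨f C, h1.trans h.symm⟩
  · exact ⟨f (f C), by rw [h2, h1, ← h]⟩

theorem even_card_psi_ne_zero [Fintype (FormClass N)] :
    Even (Finset.univ.filter fun C => S.psi hN C ≠ 0).card := by
  classical
  set e := S.upEquiv hN hl₀ hlg₀ B₀ hB₀
  set n : ZMod 3 → ℕ := fun k => (Finset.univ.filter fun C => S.psi hN C = k).card
  have hstep : ∀ k, n (k + S.val l₀ B₀) = n k := fun k => by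
    refine (Finset.card_equiv e fun C => ?_).symm
    simp only [Finset.mem_filter, Finset.mem_univ, true_and]
    show _ ↔ S.psi hN (S.upClass hN hl₀ hlg₀ B₀ hB₀ C) = _
    rw [S.psi_upClass hN hl₀ hlg₀ hB₀, add_left_inj]
  have h12 : n 1 = n 2 := by
    have key : ∀ x : ZMod 3, x ≠ 0 → x = 1 ∨ x = 2 := by decide
    rcases key _ hne with h | h
    · have := hstep 1; rw [h] at this; exact this.symm.trans (congrArg n (by decide))
    · have := hstep 2; rw [h] at this; exact (congrArg n (by decide)).trans this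
  refine ⟨n 1, ?_⟩
  conv_rhs => arg 2; rw [h12]
  rw [← Finset.card_union_of_disjoint]
  · congr 1
    ext C
    simp only [Finset.mem_filter, Finset.mem_univ, true_and, Finset.mem_union]
    generalize S.psi hN C = x
    revert x; decide
  · exact Finset.disjoint_filter.2 fun C _ h h' => by rw [h] at h'; revert h'; decide

omit hl₀ hlg₀ hB₀ hne

variable {l : ℕ} (hl : l.Prime) (hlg : IsCoprime (l : ℤ) S.bad)
include hl hlg

theorem eigen_psi_ne_zero {B : ℤ} (hB : (l : ℤ) ∣ B ^ 2 + N) (hB' : (l : ℤ) ∣ (-B) ^ 2 + N)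
    (a : ℤ) (ha : (2 : ℤ) ∣ a ↔ R l) (C : FormClass N) :
    (if S.psi hN (S.upClass hN hl hlg B hB C) ≠ 0 then (1 : ZMod 2) else 0) +
      (if S.psi hN (S.upClass hN hl hlg (-B) hB' C) ≠ 0 then 1 else 0) =
      (a : ZMod 2) * (if S.psi hN C ≠ 0 then 1 else 0) := by
  rw [S.psi_upClass hN hl hlg hB, S.psi_upClass hN hl hlg hB',
    S.neg l B hlg hB]
  have hR : R l ↔ S.val l B = 0 := by
    refine ⟨fun h => (S.root l hl hlg).1 h B hB, fun h => (S.root l hl hlg).2 fun D hD => ?_⟩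
    have hlp := Nat.prime_iff_prime_int.1 hl
    rcases hlp.dvd_or_dvd ((dvd_sub hD hB).trans (dvd_of_eq
      (show D ^ 2 + (N : ℤ) - (B ^ 2 + N) = (D - B) * (D + B) by ring))) with h' | h'
    · rw [S.congr l D B h', h]
    · rw [S.congr l D (-B) (by simpa using h'), S.neg l B hlg hB, h, neg_zero]
  have hcast : (a : ZMod 2) = if S.val l B = 0 then 0 else 1 := by
    split_ifs with h
    · exact (ZMod.intCast_zmod_eq_zero_iff_dvd a 2).2 (by exact_mod_cast ha.2 (hR.2 h))
    · have h' : (a : ZMod 2) ≠ 0 := fun h0 => h (hR.1 (ha.1 (by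
        exact_mod_cast (ZMod.intCast_zmod_eq_zero_iff_dvd a 2).1 h0)))
      revert h'
      generalize (a : ZMod 2) = z
      revert z; decide
  rw [hcast]
  generalize S.psi hN C = x
  generalize S.val l B = e
  revert x e; decide

/-- The fixed neighbours of a class. -/
theorem exists_fixed_pair {Q : BinForm} (hQ : Q.Adapted N) (hla : ¬ (l : ℤ) ∣ Q.a)
    {C : FormClass N} (hC : FormEquiv C.rep Q) {B : ℤ} (hB : (l : ℤ) ∣ B ^ 2 + N) :
    ∃ i : Fin (l + 1), (i : ℕ) < l ∧ (l : ℤ) ∣ Q.a * (-(i : ℤ)) + Q.b - B ∧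
      ∃ hk : (l : ℤ) ∣ Q.eval (-(i : ℤ)) 1,
        FormEquiv (S.upClass hN hl hlg B hB C).rep (Q.up l (-(i : ℤ)) hl.pos hk) := by
  have hlp := Nat.prime_iff_prime_int.1 hl
  have hla' : IsCoprime Q.a (l : ℤ) := ((hlp.coprime_iff_not_dvd).2 hla).symm
  obtain ⟨k, hk⟩ := exists_dvd_mul_sub hla' (B - Q.b)
  have hl0 : (0 : ℤ) < l := by exact_mod_cast hl.pos
  obtain ⟨i, hi⟩ : ∃ i : ℕ, ((-k) % (l : ℤ)) = i :=
    ⟨_, (Int.toNat_of_nonneg (Int.emod_nonneg _ hl0.ne')).symm⟩
  have hil : i < l := by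
    have := Int.emod_lt_of_pos (-k) hl0
    omega
  have hcong : (l : ℤ) ∣ -(i : ℤ) - k := ⟨(-k) / l, by
    have h := Int.emod_add_mul_ediv (-k) l
    rw [hi] at h
    linarith⟩
  have hroot : (l : ℤ) ∣ Q.a * (-(i : ℤ)) + Q.b - B :=
    (dvd_add hk (hcong.mul_left Q.a)).trans (dvd_of_eq (by ring))
  have hk' : (l : ℤ) ∣ Q.eval (-(i : ℤ)) 1 := by
    refine hla'.symm.dvd_of_dvd_mul_left ?_
    refine (dvd_add (hroot.mul_right (Q.a * (-(i : ℤ)) + Q.b + B)) hB).trans (dvd_of_eq ?_)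
    have := hQ.1
    simp only [BinForm.det] at this
    rw [eval_int]
    linear_combination -this
  refine ⟨⟨i, by omega⟩, hil, hroot, hk', ?_⟩
  exact (S.upRel_upClass hN hl hlg hB C).unique hl
    ((upRel_up Q l _ hl.pos hk' hroot).equiv_left hl.ne_zero hC.symm)
    (S.not_dvd_two_mul hl hlg hB)

end CubicSymbol

end FLTA.LT2
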