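import Fermat.Agent.Bridge.Places
import Fermat.Agent.LT2.FixedPsi
import Fermat.Agent.LT2.FixedLines

/-!
# The eigenvector of the cubic character on the fixed places of the Fricke involution

The divisor `Δ` of the classes with `ψ ≠ 0` satisfies `T_l Δ ≡ a_l Δ (mod 2)` at every fixed place.
The action of the involution and the formula for the Hecke correspondence on places are taken as
hypotheses.
-/

set_option autoImplicit false
set_option synthInstance.maxHeartbeats 100000

noncomputable section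

open AlgebraicCurve ModularCurve CongruenceSubgroup
open UpperHalfPlane hiding I
open FLTA.Bridge (placeAt placeAt_eq_iff placeAt_eq_of_smul IsPointOver)
open scoped MatrixGroups

namespace FLTA.LT2

local notation "Qb" => AlgebraicClosure ℚ
local notation "ιbar" => AlgHom.toRingHom complexEmbedding

variable (N : ℕ) [NeZero N]

/-- The action of an involution on the places of points is the Fricke one. -/
def IsFrickeAction (w : modularFunctionFieldBar N ≃ₐ[Qb] modularFunctionFieldBar N) : Prop :=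
  ∀ (τ τ' : ℍ) (hτ : IsPointOver ιbar τ) (hτ' : IsPointOver ιbar τ'), FrickeRel N τ τ' →
    w • placeAt N ιbar τ hτ = placeAt N ιbar τ' hτ'

/-- An operator on divisors sends the place of a point to the places of its `l + 1` neighbours. -/
def IsHeckeAction (l : ℕ) [NeZero l]
    (T : Divisor Qb (modularFunctionFieldBar N) →+ Divisor Qb (modularFunctionFieldBar N)) : Prop :=
  ∀ (τ : ℍ) (hτ : IsPointOver ιbar τ), ∃ h : ∀ i, IsPointOver ιbar (heckePt l τ i),
    T (Finsupp.single (placeAt N ιbar τ hτ) 1) =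
      ∑ i, Finsupp.single (placeAt N ιbar (heckePt l τ i) (h i)) 1

section Points

variable {N}
variable (hN : Squarefree N) (hpt : ∀ τ : ℍ, FrickeRel N τ τ → IsPointOver ιbar τ)
include hN hpt

theorem exists_classPlace (C : FormClass N) :
    ∃ P : Place Qb (modularFunctionFieldBar N), ∀ (Q : BinForm) (_ : Q.Adapted N)
      (h : IsPointOver ιbar Q.root), FormEquiv C.rep Q → P = placeAt N ιbar Q.root h := by
  obtain ⟨Q₀, hQ₀, hA₀⟩ := exists_adapted hN C.det_rep (Quotient.out C).2.2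
  refine ⟨placeAt N ιbar Q₀.root (hpt _ (hA₀.frickeRel (NeZero.pos N))), fun Q hA h he => ?_⟩
  obtain ⟨γ, hγ, hγe⟩ := exists_gamma0_smul_root hN hA₀ hA (hQ₀.symm.trans he)
  exact (placeAt_eq_of_smul N ιbar h _ hγ hγe).symm

/-- The place of a class. -/
def classPlace (C : FormClass N) : Place Qb (modularFunctionFieldBar N) :=
  (exists_classPlace hN hpt C).choose

theorem classPlace_eq (C : FormClass N) {Q : BinForm} (hA : Q.Adapted N)
    (h : IsPointOver ιbar Q.root) (he : FormEquiv C.rep Q) :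
    classPlace hN hpt C = placeAt N ιbar Q.root h :=
  (exists_classPlace hN hpt C).choose_spec Q hA h he

theorem classPlace_injective : Function.Injective (classPlace hN hpt) := by
  intro C C' hCC
  obtain ⟨Q, hQ, hA⟩ := exists_adapted hN C.det_rep (Quotient.out C).2.2
  obtain ⟨Q', hQ', hA'⟩ := exists_adapted hN C'.det_rep (Quotient.out C').2.2
  rw [classPlace_eq hN hpt C hA (hpt _ (hA.frickeRel (NeZero.pos N))) hQ,
    classPlace_eq hN hpt C' hA' (hpt _ (hA'.frickeRel (NeZero.pos N))) hQ', placeAt_eq_iff] at hCC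
  obtain ⟨γ, -, hγe⟩ := hCC
  rw [← C.of_out, ← C'.of_out, FormClass.of_eq_of]
  exact hQ.trans ((formEquiv_of_root_smul (hA'.1.trans hA.1.symm) hγe).symm.trans hQ'.symm)

theorem smul_classPlace {w : modularFunctionFieldBar N ≃ₐ[Qb] modularFunctionFieldBar N}
    (hw : IsFrickeAction N w) (C : FormClass N) :
    w • classPlace hN hpt C = classPlace hN hpt C := by
  obtain ⟨Q, hQ, hA⟩ := exists_adapted hN C.det_rep (Quotient.out C).2.2
  rw [classPlace_eq hN hpt C hA (hpt _ (hA.frickeRel (NeZero.pos N))) hQ]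
  exact hw _ _ _ _ (hA.frickeRel (NeZero.pos N))

variable {R : ℕ → Prop} (S : CubicSymbol N R) {l : ℕ} [NeZero l] (hl : l.Prime)
  (hlg : IsCoprime (l : ℤ) S.bad)
include hl hlg

omit hN hpt in
open Classical in
/-- The multiplicity of a fixed place among the neighbours of a class, modulo two. -/
theorem card_neighbours {w : modularFunctionFieldBar N ≃ₐ[Qb] modularFunctionFieldBar N}
    (hw : IsFrickeAction N w) {Q : BinForm} (hA : Q.Adapted N) (hla : ¬ (l : ℤ) ∣ Q.a)
    (h : ∀ i, IsPointOver ιbar (heckePt l Q.root i))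
    (P : Place Qb (modularFunctionFieldBar N)) (hP : w • P = P) :
    (∀ B : ℤ, ¬ (l : ℤ) ∣ B ^ 2 + N) →
      ((Finset.univ.filter fun i => placeAt N ιbar (heckePt l Q.root i) (h i) = P).card : ZMod 2)
        = 0 := by
  intro hno
  obtain ⟨σ, hσ, hfix, hrel⟩ := exists_hecke_invol (NeZero.pos N) hl
    (fun hd => hl.not_isUnit (Int.ofNat_isUnit.1
      ((S.coprime_det hlg).isUnit_of_dvd' dvd_rfl (Int.natCast_dvd_natCast.2 hd)))) hA hla
  rw [card_filter_involutive hσ _ fun i hi => by rw [← hw _ _ (h i) (h (σ i)) (hrel i), hi, hP],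
    Finset.card_eq_zero.2 (Finset.filter_eq_empty_iff.2 fun i _ hi => ?_), Nat.cast_zero]
  obtain ⟨-, hk⟩ := (hfix i).1 hi.1
  refine hno (Q.a * (-((i : ℕ) : ℤ)) + Q.b) ((hk.mul_left Q.a).trans (dvd_of_eq ?_))
  have := hA.1
  simp only [BinForm.det] at this
  rw [BinForm.eval_int]
  linear_combination this

open Classical in
theorem card_neighbours_split
    {w : modularFunctionFieldBar N ≃ₐ[Qb] modularFunctionFieldBar N} (hw : IsFrickeAction N w)
    {Q : BinForm} (hA : Q.Adapted N) (hla : ¬ (l : ℤ) ∣ Q.a)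
    {C : FormClass N} (hC : FormEquiv C.rep Q)
    (h : ∀ i, IsPointOver ιbar (heckePt l Q.root i))
    (P : Place Qb (modularFunctionFieldBar N)) (hP : w • P = P) {B : ℤ}
    (hB : (l : ℤ) ∣ B ^ 2 + N) (hB' : (l : ℤ) ∣ (-B) ^ 2 + N) :
    ((Finset.univ.filter fun i => placeAt N ιbar (heckePt l Q.root i) (h i) = P).card : ZMod 2) =
      (if classPlace hN hpt (S.upClass hN hl hlg B hB C) = P then 1 else 0) +
        (if classPlace hN hpt (S.upClass hN hl hlg (-B) hB' C) = P then 1 else 0) := by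
  obtain ⟨σ, hσ, hfix, hrel⟩ := exists_hecke_invol (NeZero.pos N) hl
    (fun hd => hl.not_isUnit (Int.ofNat_isUnit.1
      ((S.coprime_det hlg).isUnit_of_dvd' dvd_rfl (Int.natCast_dvd_natCast.2 hd)))) hA hla
  have hlp := Nat.prime_iff_prime_int.1 hl
  obtain ⟨i, hil, hiroot, hik, hie⟩ := S.exists_fixed_pair hN hl hlg hA hla hC hB
  obtain ⟨j, hjl, hjroot, hjk, hje⟩ := S.exists_fixed_pair hN hl hlg hA hla hC hB'
  have hpl : ∀ (k : Fin (l + 1)) (hk : (l : ℤ) ∣ Q.eval (-((k : ℕ) : ℤ)) 1) (D : FormClass N),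
      (k : ℕ) < l → FormEquiv D.rep (Q.up l (-((k : ℕ) : ℤ)) hl.pos hk) →
      placeAt N ιbar (heckePt l Q.root k) (h k) = classPlace hN hpt D := by
    intro k hk D hkl hD
    have hAu := hA.up hl.pos hk
    rw [classPlace_eq hN hpt D hAu (hpt _ (hAu.frickeRel (NeZero.pos N))) hD]
    congr 1
    refine UpperHalfPlane.ext ?_
    rw [BinForm.coe_root_up, coe_heckePt_of_lt _ hkl]
    push_cast
    ring
  have hij : i ≠ j := by
    rintro rfl
    exact S.not_dvd_two_mul hl hlg hB ((dvd_sub hjroot hiroot).trans (dvd_of_eq (by ring)))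
  have hfixed : (Finset.univ.filter fun k => σ k = k ∧
      placeAt N ιbar (heckePt l Q.root k) (h k) = P) =
      ({i, j} : Finset (Fin (l + 1))).filter
        fun k => placeAt N ιbar (heckePt l Q.root k) (h k) = P := by
    ext k
    simp only [Finset.mem_filter, Finset.mem_univ, true_and, Finset.mem_insert,
      Finset.mem_singleton]
    refine and_congr_left fun _ => ⟨fun hk => ?_, ?_⟩
    · obtain ⟨hkl, hkQ⟩ := (hfix k).1 hk
      have hd : (l : ℤ) ∣ (Q.a * (-((k : ℕ) : ℤ)) + Q.b - B) *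
          (Q.a * (-((k : ℕ) : ℤ)) + Q.b + B) := by
        refine (dvd_sub (hkQ.mul_left Q.a) hB).trans (dvd_of_eq ?_)
        have := hA.1
        simp only [BinForm.det] at this
        rw [BinForm.eval_int]
        linear_combination this
      have huniq : ∀ k' : Fin (l + 1), (k' : ℕ) < l →
          (l : ℤ) ∣ Q.a * (((k' : ℕ) : ℤ) - (k : ℕ)) → k = k' := by
        intro k' hk' hd'
        have hz := Int.eq_zero_of_abs_lt_dvd ((hlp.dvd_or_dvd hd').resolve_left hla)
          (by rw [abs_lt]; constructor <;> omega)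
        exact Fin.ext (by omega)
      rcases hlp.dvd_or_dvd hd with hd' | hd'
      · exact Or.inl (huniq i hil ((dvd_sub hd' hiroot).trans (dvd_of_eq (by ring))))
      · exact Or.inr (huniq j hjl ((dvd_sub hd' hjroot).trans (dvd_of_eq (by ring))))
    · rintro (rfl | rfl)
      · exact (hfix _).2 ⟨hil, hik⟩
      · exact (hfix _).2 ⟨hjl, hjk⟩
  rw [card_filter_involutive hσ _ fun k hk => by rw [← hw _ _ (h k) (h (σ k)) (hrel k), hk, hP],
    hfixed, Finset.card_filter, Finset.sum_pair hij, hpl i hik _ hil hie, hpl j hjk _ hjl hje]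
  push_cast
  rfl

end Points

variable {N}

open Classical in
/-- **The eigenvector.**  There is a nonempty set of fixed places of even cardinality, not
containing every fixed place, which is modulo two an eigenvector of the Hecke correspondences. -/
theorem exists_fixed_eigenset (hN : Squarefree N)
    (hpt : ∀ τ : ℍ, FrickeRel N τ τ → IsPointOver ιbar τ)
    {w : modularFunctionFieldBar N ≃ₐ[Qb] modularFunctionFieldBar N} (hw : IsFrickeAction N w)
    {R : ℕ → Prop} (S : CubicSymbol N R)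
    (hex : ∃ l : ℕ, l.Prime ∧ IsCoprime (l : ℤ) S.bad ∧ ¬ R l) :
    ∃ Z : Finset (Place Qb (modularFunctionFieldBar N)),
      (∀ P ∈ Z, w • P = P) ∧ Even Z.card ∧ Z.Nonempty ∧ (∃ P, w • P = P ∧ P ∉ Z) ∧
      ∀ (l : ℕ) [NeZero l], l.Prime → IsCoprime (l : ℤ) S.bad → ∀ a : ℤ, ((2 : ℤ) ∣ a ↔ R l) →
        ∀ T, IsHeckeAction N l T → ∀ P, w • P = P →
          Even (T (∑ P' ∈ Z, Finsupp.single P' (1 : ℤ)) P -
            a * (∑ P' ∈ Z, Finsupp.single P' (1 : ℤ) : Divisor Qb (modularFunctionFieldBar N)) P)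
    := by
  obtain ⟨l₀, hl₀, hlg₀, hR₀⟩ := hex
  obtain ⟨B₀, hB₀, hne⟩ : ∃ B : ℤ, (l₀ : ℤ) ∣ B ^ 2 + N ∧ S.val l₀ B ≠ 0 := by
    by_contra h
    push Not at h
    exact hR₀ ((S.root l₀ hl₀ hlg₀).2 h)
  have := finite_formClass N
  let : Fintype (FormClass N) := Fintype.ofFinite _
  set pl := classPlace hN hpt
  have hinj : Function.Injective pl := classPlace_injective hN hpt
  set Zs := Finset.univ.filter fun C => S.psi hN C ≠ 0
  refine ⟨Zs.image pl, ?_, ?_, ?_, ?_, ?_⟩
  · intro P hP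
    obtain ⟨C, -, rfl⟩ := Finset.mem_image.1 hP
    exact smul_classPlace hN hpt hw C
  · rw [Finset.card_image_of_injective _ hinj]
    exact S.even_card_psi_ne_zero hN hl₀ hlg₀ hB₀ hne
  · obtain ⟨C, hC⟩ := S.exists_psi_eq hN hl₀ hlg₀ hB₀ hne 1
    exact ⟨pl C, Finset.mem_image_of_mem _ (Finset.mem_filter.2 ⟨Finset.mem_univ _, by simp [hC]⟩)⟩
  · obtain ⟨C, hC⟩ := S.exists_psi_eq hN hl₀ hlg₀ hB₀ hne 0
    refine ⟨pl C, smul_classPlace hN hpt hw C, fun h => ?_⟩
    obtain ⟨D, hD, hDC⟩ := Finset.mem_image.1 h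
    rw [hinj hDC] at hD
    exact (Finset.mem_filter.1 hD).2 hC
  intro l _ hl hlg a ha T hT P hP
  set v : FormClass N → ZMod 2 := fun C => if S.psi hN C ≠ 0 then 1 else 0
  set f : FormClass N → ZMod 2 := fun C => if pl C = P then 1 else 0
  have hΔ : ((((∑ P' ∈ Zs.image pl, Finsupp.single P' (1 : ℤ)) :
      Divisor Qb (modularFunctionFieldBar N)) P : ℤ) : ZMod 2) = ∑ C, v C * f C := by
    rw [Finset.sum_image fun x _ y _ h => hinj h, Finsupp.finsetSum_apply, Int.cast_sum,
      Finset.sum_filter]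
    refine Finset.sum_congr rfl fun C _ => ?_
    simp only [v, f, Finsupp.single_apply]
    split_ifs <;> simp
  have hTC : ∀ C : FormClass N, ∃ Q : BinForm, Q.Adapted N ∧ ¬ (l : ℤ) ∣ Q.a ∧
      FormEquiv C.rep Q ∧ ∃ h : ∀ i, IsPointOver ιbar (heckePt l Q.root i),
        ((T (Finsupp.single (pl C) 1) P : ℤ) : ZMod 2) =
          ((Finset.univ.filter fun i =>
            placeAt N ιbar (heckePt l Q.root i) (h i) = P).card : ZMod 2) := by
    intro C
    have hl2 : l ≠ 2 := fun h => S.not_two_dvd hlg (by rw [h]; exact dvd_rfl)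
    obtain ⟨Q, hQ, hA, hla⟩ := exists_adapted_not_dvd hN C.det_rep (Quotient.out C).2.2 hl hl2
      fun hd => hl.not_isUnit (Int.ofNat_isUnit.1
        ((S.coprime_det hlg).isUnit_of_dvd' dvd_rfl (Int.natCast_dvd_natCast.2 hd)))
    have hQpt := hpt _ (hA.frickeRel (NeZero.pos N))
    obtain ⟨h, hTh⟩ := hT Q.root hQpt
    refine ⟨Q, hA, hla, hQ, h, ?_⟩
    rw [show pl C = _ from classPlace_eq hN hpt C hA hQpt hQ, hTh, Finsupp.finsetSum_apply,
      Int.cast_sum, Finset.card_filter, Nat.cast_sum]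
    refine Finset.sum_congr rfl fun i _ => ?_
    rw [Finsupp.single_apply]
    split_ifs <;> simp
  suffices hmain : ∀ C : FormClass N, (∃ B, ∃ hB : (l : ℤ) ∣ B ^ 2 + N,
      ((T (Finsupp.single (pl C) 1) P : ℤ) : ZMod 2) =
        f (S.upEquiv hN hl hlg B hB C) + f ((S.upEquiv hN hl hlg B hB).symm C)) ∨
      ((∀ B, ¬ (l : ℤ) ∣ B ^ 2 + N) ∧ ((T (Finsupp.single (pl C) 1) P : ℤ) : ZMod 2) = 0) by
    rw [even_iff_two_dvd, show (2 : ℤ) = ((2 : ℕ) : ℤ) from rfl,
      ← ZMod.intCast_zmod_eq_zero_iff_dvd, Int.cast_sub, Int.cast_mul, hΔ,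
      Finset.sum_image fun x _ y _ h => hinj h, map_sum, Finsupp.finsetSum_apply, Int.cast_sum,
      Finset.sum_filter, sub_eq_zero, Finset.mul_sum]
    have hv : ∀ (C : FormClass N) (z : ZMod 2),
        (if S.psi hN C ≠ 0 then z else 0) = v C * z := fun C z => by
      simp only [v]; split_ifs <;> simp
    simp only [hv]
    by_cases hsplit : ∃ B, (l : ℤ) ∣ B ^ 2 + N
    · obtain ⟨B, hB⟩ := hsplit
      have hB' : (l : ℤ) ∣ (-B) ^ 2 + N := by rwa [neg_sq]
      have hsym : ∀ (B₁ : ℤ) (hB₁ : (l : ℤ) ∣ B₁ ^ 2 + N) (C : FormClass N),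
          f (S.upEquiv hN hl hlg B₁ hB₁ C) + f ((S.upEquiv hN hl hlg B₁ hB₁).symm C) =
            f (S.upEquiv hN hl hlg B hB C) + f ((S.upEquiv hN hl hlg B hB).symm C) := by
        intro B₁ hB₁ C
        have hlp := Nat.prime_iff_prime_int.1 hl
        have hcl : ∀ (D D' : ℤ) (hD : (l : ℤ) ∣ D ^ 2 + N) (hD' : (l : ℤ) ∣ D' ^ 2 + N),
            (l : ℤ) ∣ D - D' → S.upClass hN hl hlg D hD C = S.upClass hN hl hlg D' hD' C := by
          intro D D' hD hD' hd
          rw [← (S.upClass hN hl hlg D hD C).of_out, ← (S.upClass hN hl hlg D' hD' C).of_out,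
            FormClass.of_eq_of]
          exact ((S.upRel_upClass hN hl hlg hD C).congr_root hd).unique hl
            (S.upRel_upClass hN hl hlg hD' C) (S.not_dvd_two_mul hl hlg hD')
        rcases hlp.dvd_or_dvd ((dvd_sub hB₁ hB).trans (dvd_of_eq
          (show B₁ ^ 2 + (N : ℤ) - (B ^ 2 + N) = (B₁ - B) * (B₁ + B) by ring))) with h | h
        · exact congrArg₂ (· + ·) (congrArg f (hcl B₁ B hB₁ hB h))
            (congrArg f (hcl (-B₁) (-B) (by rwa [neg_sq]) hB'
              ((dvd_neg.2 h).trans (dvd_of_eq (by ring)))))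
        · rw [add_comm (f (S.upEquiv hN hl hlg B hB C))]
          exact congrArg₂ (· + ·)
            (congrArg f (hcl B₁ (-B) hB₁ hB' (h.trans (dvd_of_eq (by ring)))))
            (congrArg f (hcl (-B₁) B (by rwa [neg_sq]) hB
              ((dvd_neg.2 h).trans (dvd_of_eq (by ring)))))
      have hT' : ∀ C, ((T (Finsupp.single (pl C) 1) P : ℤ) : ZMod 2) =
          f (S.upEquiv hN hl hlg B hB C) + f ((S.upEquiv hN hl hlg B hB).symm C) := fun C => by
        rcases hmain C with ⟨B₁, hB₁, h⟩ | ⟨hno, -⟩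
        · rw [h, hsym B₁ hB₁ C]
        · exact absurd hB (hno B)
      simp only [hT', mul_add, Finset.sum_add_distrib]
      rw [← (S.upEquiv hN hl hlg B hB).symm.sum_comp (fun C => v C * f _)]
      nth_rewrite 2 [← (S.upEquiv hN hl hlg B hB).sum_comp]
      simp only [Equiv.apply_symm_apply, Equiv.symm_apply_apply]
      rw [← Finset.sum_add_distrib]
      refine Finset.sum_congr rfl fun C _ => ?_
      have he := S.eigen_psi_ne_zero hN hl hlg hB hB' a ha C
      rw [← add_mul, ← mul_assoc, ← he, add_comm]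
      rfl
    · push Not at hsplit
      have hT' : ∀ C, ((T (Finsupp.single (pl C) 1) P : ℤ) : ZMod 2) = 0 := fun C => by
        rcases hmain C with ⟨B₁, hB₁, -⟩ | ⟨-, h⟩
        · exact absurd hB₁ (hsplit B₁)
        · exact h
      have ha0 : (a : ZMod 2) = 0 := (ZMod.intCast_zmod_eq_zero_iff_dvd a 2).2 (by
        exact_mod_cast ha.2 ((S.root l hl hlg).2 fun B hB => absurd hB (hsplit B)))
      simp [hT', ha0]
  intro C
  obtain ⟨Q, hA, hla, hQ, h, hTQ⟩ := hTC C
  by_cases hsplit : ∃ B, (l : ℤ) ∣ B ^ 2 + N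
  · obtain ⟨B, hB⟩ := hsplit
    refine Or.inl ⟨B, hB, ?_⟩
    rw [hTQ, card_neighbours_split hN hpt S hl hlg hw hA hla hQ h P hP hB (by rwa [neg_sq])]
    rfl
  · push Not at hsplit
    exact Or.inr ⟨hsplit, hTQ.trans (card_neighbours S hl hlg hw hA hla h P hP hsplit)⟩

end FLTA.LT2
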