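import Fermat.Agent.LT2.FixedFricke
import Fermat.Agent.LT2.FixedMain

/-!
# The Fricke involution acts on points by the matrices of determinant `N`

This discharges the hypotheses of `exists_fixed_eigenset` on the involution: it sends the place of
a point to that of a related point, and a self-related point has algebraic `j`-invariant.
-/

set_option autoImplicit false
set_option synthInstance.maxHeartbeats 100000

noncomputable section

open scoped MatrixGroups Pointwise
open UpperHalfPlane hiding I
open ModularCurve AlgebraicCurve FLTA.Bridge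

namespace FLTA.LT2

variable {N : ℕ} [NeZero N] {x y z t : ℤ}

theorem frickeGL_smul_eq (h : (N : ℤ) * x * t - y * z = 1) {τ τ' : ℍ}
    (hrel : (τ' : ℂ) * ((N : ℂ) * z * τ + (N : ℂ) * t) = (N : ℂ) * x * τ + y) :
    ((frickeGL N h : GL(2, ℝ)⁺) : GL (Fin 2) ℝ) • τ = τ' := by
  have hne := denom_ne_zero ((frickeGL N h : GL(2, ℝ)⁺) : GL (Fin 2) ℝ) τ
  apply UpperHalfPlane.ext
  rw [coe_smul_of_det_pos (frickeGL N h).2, UpperHalfPlane.num, UpperHalfPlane.denom,
    div_eq_iff (by simpa [UpperHalfPlane.denom] using hne), coe_frickeGL]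
  simp only [Matrix.of_apply, Matrix.cons_val', Matrix.cons_val_zero, Matrix.cons_val_one,
    Matrix.cons_val_fin_one, Complex.ofReal_mul, Complex.ofReal_natCast, Complex.ofReal_intCast]
  exact hrel.symm

variable (N)

/-- The Fricke involution acts through `FrickeRel`. -/
theorem isFrickeAction_frickeBarEquiv : IsFrickeAction N (Kummer.frickeBarEquiv N) := by
  rintro τ τ' hτ hτ' ⟨x, y, z, t, h, hrel⟩
  obtain rfl := frickeGL_smul_eq h hrel
  exact frickeBarEquiv_smul_placeAt N h hτ hτ'

/-- A point related to itself has algebraic `j`-invariant. -/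
theorem isPointOver_of_frickeRel_self (hN : 1 < N) (τ : ℍ) (hτ : FrickeRel N τ τ) :
    IsPointOver (complexEmbedding).toRingHom τ := by
  obtain ⟨x, y, z, t, h, hrel⟩ := hτ
  obtain ⟨δ, hδ⟩ := exists_scaleTau_frickeGL_smul N h (mul_one N)
  have h1 := hδ τ
  rw [frickeGL_smul_eq h hrel] at h1
  refine isPointOver_of_jInv_scaleTau_eq N hN ?_
  rw [h1, jInv_smul, show scaleTau 1 τ = τ from UpperHalfPlane.ext (by simp [coe_scaleTau])]

end FLTA.LT2
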