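import Fermat.Agent.Kummer.FrickeField
import Fermat.Agent.BadRed.Modular
import Fermat.Agent.GaloisReps.TateConstructCommute
import Fermat.Agent.LevelLowering.HeckeNorm

/-!
# The Fricke involution commutes with the Hecke correspondences of primes not dividing the level

The Fricke symmetry of level `N * l` exchanges the two degeneracy maps up to that of level `N`,
and so does the Atkin-Lehner swap at `l`; their product intertwines the Fricke symmetry of level
`N` with itself along both maps.
-/

set_option autoImplicit false
set_option synthInstance.maxHeartbeats 400000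

noncomputable section

open AlgebraicCurve ModularCurve
open scoped Pointwise

namespace FLTA.LT2

local notation "Qb" => AlgebraicClosure ℚ

section Generic

variable {K F : Type*} [Field K] [Field F] [Algebra K F]

/-- The two actions of an automorphism on places agree. -/
theorem ofAlgAut_smul_place (σ : F ≃ₐ[K] F) (v : Place K F) :
    SemilinearAut.ofAlgAut σ • v = σ • v := by
  apply Place.ext
  ext x
  rw [SemilinearAut.smul_toValuationSubring, Place.smul_toValuationSubring,
    ValuationSubring.mem_pointwise_smul_iff_inv_smul_mem,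
    ValuationSubring.mem_pointwise_smul_iff_inv_smul_mem, ← map_inv, SemilinearAut.ofAlgAut_smul]
  rfl

/-- The two actions of an automorphism on divisors agree. -/
theorem ofAlgAut_smul_divisor (σ : F ≃ₐ[K] F) (D : Divisor K F) :
    SemilinearAut.ofAlgAut σ • D = σ • D := by
  induction D using Finsupp.induction with
  | zero => rw [smul_zero, smul_zero]
  | single_add v n D _ _ ih =>
    rw [smul_add, smul_add, ih, SemilinearAut.smul_single, Divisor.smul_single,
      ofAlgAut_smul_place]

end Generic

variable (N l : ℕ) [NeZero N] [NeZero l] [Fact l.Prime]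

omit [Fact l.Prime] in
/-- The Fricke symmetry of level `N * l` maps `β x` to `α (w x)`. -/
theorem frickeBar_beta (x : modularFunctionFieldBar N) :
    Kummer.frickeBar (N * l) (heckeBetaBar Qb N l x) =
      heckeAlphaBar Qb N l (Kummer.frickeBar N x) := by
  have h := DFunLike.congr_fun (Kummer.frickeBar_comp_alpha N l) (Kummer.frickeBar N x)
  have h1 := DFunLike.congr_fun (Kummer.frickeBar_comp_frickeBar N) x
  simp only [AlgHom.comp_apply, AlgHom.id_apply] at h h1
  rw [h1] at h
  rw [← h]
  exact DFunLike.congr_fun (Kummer.frickeBar_comp_frickeBar (N * l)) _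

/-- The Atkin-Lehner swap as an automorphism. -/
def swapBarEquiv (hlN : ¬ l ∣ N) :
    modularFunctionFieldBar (N * l) ≃ₐ[Qb] modularFunctionFieldBar (N * l) :=
  AlgEquiv.ofAlgHom (BadRed.swapBar N l hlN) (BadRed.swapBar N l hlN)
    (AlgHom.ext (BadRed.swapBar_swapBar N l hlN)) (AlgHom.ext (BadRed.swapBar_swapBar N l hlN))

/-- The automorphism of level `N * l` over the Fricke symmetry of level `N`. -/
def frickeLift (hlN : ¬ l ∣ N) :
    modularFunctionFieldBar (N * l) ≃ₐ[Qb] modularFunctionFieldBar (N * l) :=
  (Kummer.frickeBarEquiv (N * l)).trans (swapBarEquiv N l hlN)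

theorem frickeLift_alpha (hlN : ¬ l ∣ N) (x : modularFunctionFieldBar N) :
    frickeLift N l hlN (heckeAlphaBar Qb N l x) =
      heckeAlphaBar Qb N l (Kummer.frickeBarEquiv N x) := by
  show BadRed.swapBar N l hlN (Kummer.frickeBar (N * l) (heckeAlphaBar Qb N l x)) = _
  rw [show Kummer.frickeBar (N * l) (heckeAlphaBar Qb N l x) = _ from
    DFunLike.congr_fun (Kummer.frickeBar_comp_alpha N l) x]
  exact DFunLike.congr_fun (BadRed.swapBar_beta N l hlN) (Kummer.frickeBar N x)

theorem frickeLift_beta (hlN : ¬ l ∣ N) (x : modularFunctionFieldBar N) :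
    frickeLift N l hlN (heckeBetaBar Qb N l x) =
      heckeBetaBar Qb N l (Kummer.frickeBarEquiv N x) := by
  show BadRed.swapBar N l hlN (Kummer.frickeBar (N * l) (heckeBetaBar Qb N l x)) = _
  rw [frickeBar_beta]
  exact BadRed.swapBar_apply_alpha N l hlN _

/-- **`T_l` commutes with the Fricke involution on divisors.** -/
theorem heckeDiv_fricke_smul (hlN : ¬ l ∣ N) (D : Divisor Qb (modularFunctionFieldBar N)) :
    LevelLowering.heckeDiv N l (Kummer.frickeBarEquiv N • D) =
      Kummer.frickeBarEquiv N • LevelLowering.heckeDiv N l D := by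
  obtain ⟨hα, hβ, hP, -, -, -⟩ := FLTA.Curves.heckeInputsAlong N Qb l
  have := hP
  rw [← ofAlgAut_smul_divisor, ← ofAlgAut_smul_divisor]
  show Divisor.pushforwardAlong (heckeAlphaBar Qb N l) hα
      (Divisor.pullbackAlong (heckeBetaBar Qb N l) hβ
        (SemilinearAut.ofAlgAut (Kummer.frickeBarEquiv N) • D)) =
    SemilinearAut.ofAlgAut (Kummer.frickeBarEquiv N) •
      Divisor.pushforwardAlong (heckeAlphaBar Qb N l) hα
        (Divisor.pullbackAlong (heckeBetaBar Qb N l) hβ D)
  rw [GaloisReps.pullbackAlong_smul (heckeBetaBar Qb N l) hβ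
      (g := SemilinearAut.ofAlgAut (Kummer.frickeBarEquiv N))
      (g' := SemilinearAut.ofAlgAut (frickeLift N l hlN)) (frickeLift_beta N l hlN),
    GaloisReps.pushforwardAlong_smul (heckeAlphaBar Qb N l) hα
      (g := SemilinearAut.ofAlgAut (Kummer.frickeBarEquiv N))
      (g' := SemilinearAut.ofAlgAut (frickeLift N l hlN)) (frickeLift_alpha N l hlN)]

end FLTA.LT2

end
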