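import Fermat.Agent.Bridge.Places
import Fermat.Agent.Kummer.FrickeField
import Fermat.Agent.Kummer.HeckeNorm
import Fermat.Agent.Curves.BasicModular
import Fermat.Agent.Congruence.Frobenius
import Fermat.Agent.LT2.FixedPoints
import Fermat.Agent.LT2.FixedMain
import Fermat.Prelude.Def_ModularCurve_HeckeModule

/-!
# The Hecke correspondence on the points of `X₀(N)`

For a prime `l ∤ N` the correspondence `α_* β^*` sends the place of `τ` to the sum of the places of
the `l + 1` points `(τ + i) / l`, `l τ`.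
-/

set_option autoImplicit false
set_option linter.style.haveILetI false
set_option synthInstance.maxHeartbeats 100000

noncomputable section

open UpperHalfPlane hiding I
open CongruenceSubgroup ModularCurve AlgebraicCurve FLTA.Bridge FLTA.Kummer
open scoped MatrixGroups

namespace FLTA.LT2

local notation "Qb" => AlgebraicClosure ℚ

variable {N p : ℕ} [NeZero N] [NeZero p]

/-- An element of `Γ₀(N p)` conjugated by `diag(p, 1)`. -/
def upConj (h : Gamma0 (N * p)) : Gamma0 N :=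
  ⟨⟨!![gmat h 0 0, (p : ℤ) * gmat h 0 1; gmat h 1 0 / (p : ℤ), gmat h 1 1], by
      obtain ⟨c, hc⟩ := dvd_lowerLeft (N * p) h
      have hdet := (h : SL(2, ℤ)).det_coe
      rw [Matrix.det_fin_two] at hdet
      have hp : (p : ℤ) ≠ 0 := by exact_mod_cast NeZero.ne p
      rw [Matrix.det_fin_two_of, show gmat h 1 0 = (p : ℤ) * ((N : ℤ) * c) by
        rw [gmat, hc]; push_cast; ring, Int.mul_ediv_cancel_left _ hp]
      rw [hc] at hdet
      push_cast at hdet
      linear_combination hdet⟩, by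
    obtain ⟨c, hc⟩ := dvd_lowerLeft (N * p) h
    refine FLTA.Periods.mem_Gamma0_of_dvd ⟨c, ?_⟩
    show gmat h 1 0 / (p : ℤ) = (N : ℤ) * c
    rw [show gmat h 1 0 = (p : ℤ) * ((N : ℤ) * c) by rw [gmat, hc]; push_cast; ring,
      Int.mul_ediv_cancel_left _ (by exact_mod_cast NeZero.ne p)]⟩

omit [NeZero N] in
theorem gmat_upConj (h : Gamma0 (N * p)) :
    gmat (upConj h) = !![gmat h 0 0, (p : ℤ) * gmat h 0 1; gmat h 1 0 / (p : ℤ), gmat h 1 1] :=
  rfl

omit [NeZero N] [NeZero p] in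
theorem mul_upConj_lowerLeft (h : Gamma0 (N * p)) :
    (p : ℤ) * (gmat h 1 0 / (p : ℤ)) = gmat h 1 0 := by
  obtain ⟨c, hc⟩ := dvd_lowerLeft (N * p) h
  exact Int.mul_ediv_cancel' ⟨(N : ℤ) * c, by rw [gmat, hc]; push_cast; ring⟩

omit [NeZero N] in
theorem upConj_injective : Function.Injective (upConj (N := N) (p := p)) := by
  intro h h' e
  have hp : (p : ℤ) ≠ 0 := by exact_mod_cast NeZero.ne p
  have e' : ∀ i j, gmat (upConj h) i j = gmat (upConj h') i j := fun i j => by rw [e]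
  refine Subtype.ext (Subtype.ext (Matrix.ext fun i j => ?_))
  fin_cases i <;> fin_cases j
  · simpa [gmat_upConj] using e' 0 0
  · simpa [gmat_upConj, gmat, hp, NeZero.ne p] using e' 0 1
  · have := congrArg ((p : ℤ) * ·) (e' 1 0)
    simpa [gmat_upConj, mul_upConj_lowerLeft] using this
  · simpa [gmat_upConj] using e' 1 1

omit [NeZero N] in
theorem scaleTau_smul_eq (h : Gamma0 (N * p)) (σ : ℍ) :
    scaleTau p ((h : SL(2, ℤ)) • σ) = (upConj h : SL(2, ℤ)) • scaleTau p σ := by
  refine UpperHalfPlane.ext ?_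
  have hp : (p : ℂ) ≠ 0 := Nat.cast_ne_zero.2 (NeZero.ne p)
  have hc : ((p : ℤ) : ℂ) * ((gmat h 1 0 / (p : ℤ) : ℤ) : ℂ) = (gmat h 1 0 : ℂ) := by
    rw [← Int.cast_mul, mul_upConj_lowerLeft]
  push_cast at hc
  rw [coe_scaleTau, coe_smul_eq, coe_smul_eq, coe_scaleTau]
  show (p : ℂ) * (((gmat h 0 0 : ℂ) * σ + (gmat h 0 1 : ℂ)) /
      ((gmat h 1 0 : ℂ) * σ + (gmat h 1 1 : ℂ))) =
    (((gmat h 0 0 : ℤ) : ℂ) * ((p : ℂ) * σ) + (((p : ℤ) * gmat h 0 1 : ℤ) : ℂ)) /
      (((gmat h 1 0 / (p : ℤ) : ℤ) : ℂ) * ((p : ℂ) * σ) + ((gmat h 1 1 : ℤ) : ℂ))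
  rw [← hc]
  push_cast
  rw [mul_div_assoc']
  congr 1 <;> ring

/-- `τ / p`. -/
def divPt (p : ℕ) [NeZero p] (τ : ℍ) : ℍ :=
  ⟨(τ : ℂ) / p, by
    rw [Complex.div_natCast_im]
    exact div_pos τ.im_pos (Nat.cast_pos.2 (NeZero.pos p))⟩

theorem scaleTau_divPt (τ : ℍ) : scaleTau p (divPt p τ) = τ :=
  UpperHalfPlane.ext (mul_div_cancel₀ _ (Nat.cast_ne_zero.2 (NeZero.ne p)))

local notation "ιb" => AlgHom.toRingHom complexEmbedding

/-- A point whose multiple by `p` is algebraic is algebraic. -/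
theorem isPointOver_of_scaleTau (N p : ℕ) [NeZero N] [NeZero p] {σ : ℍ} (h : IsPointOver ιb (scaleTau p σ)) :
    IsPointOver ιb σ := by
  by_contra hσ
  obtain ⟨a, ha⟩ := h
  set x := jF N Qb - algebraMap Qb (modularFunctionFieldBar N) a with hx
  have h0 := ordF_eq_zero_of_not_isPointOver (N * p) ιb hσ (heckeBetaBar Qb N p x)
  have h1 : 0 < ordF N ιb (scaleTau p σ) x := by
    rw [hx, ordF_jF_sub N ιb _ a ha]
    exact_mod_cast analyticOrderNatAt_jFun_sub_pos _
  have h2 : ordF (N * p) ιb σ (heckeBetaBar Qb N p x) = ordF N ιb (scaleTau p σ) x := by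
    show meroOrd σ (evMero (N * p) ιb _) = meroOrd _ (evMero N ιb x)
    rw [evMero_heckeBetaBar, meroOrd_meroSmul, coe_diagPos_smul]
  omega

theorem ord_beta_placeAt {σ τ : ℍ} (hσ : IsPointOver ιb σ) (hτ : IsPointOver ιb τ)
    (hστ : ∃ γ ∈ Gamma0 N, γ • scaleTau p σ = τ) (x : modularFunctionFieldBar N) :
    (ellipticIndex (N * p) σ : ℤ) * (placeAt (N * p) ιb σ hσ).ord (heckeBetaBar Qb N p x) =
      ellipticIndex N τ * (placeAt N ιb τ hτ).ord x := by
  obtain ⟨γ, hγ, h⟩ := hστ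
  rw [← ordF_eq_mul_ord_placeAt, ← ordF_eq_mul_ord_placeAt, ← h, ordF_smul N ιb hγ]
  show meroOrd σ (evMero (N * p) ιb _) = meroOrd _ (evMero N ιb x)
  rw [evMero_heckeBetaBar, meroOrd_meroSmul, coe_diagPos_smul]

theorem restrictAlong_beta_placeAt (hβ : HeckeBetaBarIntegral Qb N p) {σ τ : ℍ}
    (hσ : IsPointOver ιb σ) (hτ : IsPointOver ιb τ)
    (hστ : ∃ γ ∈ Gamma0 N, γ • scaleTau p σ = τ) :
    (placeAt (N * p) ιb σ hσ).restrictAlong (heckeBetaBar Qb N p) hβ = placeAt N ιb τ hτ ∧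
      ellipticIndex (N * p) σ *
          (placeAt (N * p) ιb σ hσ).ramificationIndexAlong (heckeBetaBar Qb N p) =
        ellipticIndex N τ := by
  set W := placeAt (N * p) ιb σ hσ with hW
  set e := W.ramificationIndexAlong (heckeBetaBar Qb N p) with he
  have key : ∀ x, ((ellipticIndex (N * p) σ * e : ℕ) : ℤ) *
      (W.restrictAlong (heckeBetaBar Qb N p) hβ).ord x =
        ellipticIndex N τ * (placeAt N ιb τ hτ).ord x := fun x => by
    rw [← ord_beta_placeAt hσ hτ hστ x, ← hW, Place.ord_restrictAlong _ hβ W x, ← he]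
    push_cast
    ring
  have heq : W.restrictAlong (heckeBetaBar Qb N p) hβ = placeAt N ιb τ hτ :=
    place_eq_of_mul_ord_eq (ellipticIndex_pos N τ) key
  refine ⟨heq, ?_⟩
  obtain ⟨π, -, hπ⟩ := FLTA.Curves.exists_ord_eq_one (placeAt N ιb τ hτ)
  have := key π
  rw [heq, hπ, mul_one, mul_one] at this
  exact_mod_cast this

theorem restrictAlong_alpha_placeAt (hα : HeckeAlphaBarIntegral Qb N p) {σ : ℍ}
    (hσ : IsPointOver ιb σ) :
    (placeAt (N * p) ιb σ hσ).restrictAlong (heckeAlphaBar Qb N p) hα = placeAt N ιb σ hσ := by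
  refine place_eq_of_mul_ord_eq (d := ellipticIndex (N * p) σ *
    (placeAt (N * p) ιb σ hσ).ramificationIndexAlong (heckeAlphaBar Qb N p))
    (ellipticIndex_pos N σ) fun x => ?_
  rw [← ordF_eq_mul_ord_placeAt, Nat.cast_mul, mul_assoc,
    ← Place.ord_restrictAlong _ hα, ← ordF_eq_mul_ord_placeAt]
  show meroOrd σ (evMero (N * p) ιb _) = meroOrd σ (evMero N ιb x)
  rw [evMero_heckeAlphaBar]

theorem inertiaDegAlong_eq_one_bar {φ : modularFunctionFieldBar N →ₐ[Qb] modularFunctionFieldBar (N * p)}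
    (hφ : φ.toRingHom.IsIntegral) (W : Place Qb (modularFunctionFieldBar (N * p))) :
    W.inertiaDegAlong φ hφ = 1 := by
  letI := algebraAlong φ
  haveI := isScalarTower_along φ
  haveI := isIntegral_along φ hφ
  have h := W.deg_restrict_mul_inertiaDeg (F := modularFunctionFieldBar N)
  rw [Congruence.deg_eq_one_modularFunctionFieldBar, Congruence.deg_eq_one_modularFunctionFieldBar,
    one_mul] at h
  exact h

variable (hp : p.Prime) (hpN : ¬ p ∣ N)

/-- Representatives of the cosets of the matrices with `p` dividing the upper right entry. -/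
def heckeShift (i : Fin (p + 1)) : Gamma0 N :=
  haveI := Fact.mk hp
  if (i : ℕ) < p then
    ⟨⟨!![1, ((i : ℕ) : ℤ); 0, 1], by simp [Matrix.det_fin_two_of]⟩,
      FLTA.Periods.mem_Gamma0_of_dvd (dvd_zero _)⟩
  else
    ⟨⟨!![(p : ℤ), -(exists_bezout hpN).choose.2; (N : ℤ), (exists_bezout hpN).choose.1], by
        rw [Matrix.det_fin_two_of]
        linear_combination (exists_bezout hpN).choose_spec⟩,
      FLTA.Periods.mem_Gamma0_of_dvd dvd_rfl⟩

omit [NeZero p] in
theorem heckeShift_inj {i j : Fin (p + 1)}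
    (h : (p : ℤ) ∣ gmat (heckeShift hp hpN j * (heckeShift hp hpN i)⁻¹) 0 1) : i = j := by
  haveI := Fact.mk hp
  have hp2 : Prime (p : ℤ) := Nat.prime_iff_prime_int.1 hp
  have hv : ¬ (p : ℤ) ∣ (exists_bezout hpN).choose.2 := fun hd => hp2.not_dvd_one
    ((exists_bezout hpN).choose_spec ▸ dvd_add (dvd_mul_left _ _) (hd.mul_right _))
  rw [gmat_mul, gmat_inv, Matrix.adjugate_fin_two] at h
  rcases Nat.lt_or_ge (i : ℕ) p with hi | hi <;> rcases Nat.lt_or_ge (j : ℕ) p with hj | hj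
  · simp [heckeShift, gmat, hi, hj, Matrix.mul_apply, Fin.sum_univ_two] at h
    refine Fin.ext ?_
    have hb : |-((i : ℕ) : ℤ) + (j : ℕ)| < (p : ℤ) := by
      rw [abs_lt]; omega
    have := Int.eq_zero_of_abs_lt_dvd h hb
    omega
  · exfalso
    simp [heckeShift, gmat, hi, Nat.not_lt.2 hj, Matrix.mul_apply, Fin.sum_univ_two] at h
    exact hv (by simpa using dvd_sub h ((dvd_mul_right (p : ℤ) ((i : ℕ) : ℤ)).neg_right))
  · exfalso
    simp [heckeShift, gmat, hj, Nat.not_lt.2 hi, Matrix.mul_apply, Fin.sum_univ_two] at h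
    exact hv h
  · exact Fin.ext (by omega)

omit [NeZero N] [NeZero p] in
theorem upperRight_mul_inv (g g' : Gamma0 N) (h : (p : ℤ) ∣ gmat g 0 1)
    (h' : (p : ℤ) ∣ gmat g' 0 1) : (p : ℤ) ∣ gmat (g * g'⁻¹) 0 1 := by
  rw [gmat_mul, gmat_inv, Matrix.adjugate_fin_two, Matrix.mul_apply, Fin.sum_univ_two]
  simp only [Matrix.of_apply, Matrix.cons_val', Matrix.cons_val_zero, Matrix.cons_val_one,
    Matrix.empty_val', Matrix.cons_val_fin_one]
  exact dvd_add (h'.neg_right.mul_left _) (h.mul_right _)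

/-- The points of level `N p` above `τ` along `β`. -/
def upperPt (τ : ℍ) (i : Fin (p + 1)) : ℍ := divPt p ((heckeShift hp hpN i : SL(2, ℤ)) • τ)

theorem scaleTau_upperPt (τ : ℍ) (i : Fin (p + 1)) :
    scaleTau p (upperPt hp hpN τ i) = (heckeShift hp hpN i : SL(2, ℤ)) • τ :=
  scaleTau_divPt _

theorem isPointOver_upperPt {τ : ℍ} (hτ : IsPointOver ιb τ) (i : Fin (p + 1)) :
    IsPointOver ιb (upperPt hp hpN τ i) :=
  isPointOver_of_scaleTau N p (by rwa [scaleTau_upperPt, isPointOver_smul])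

theorem exists_upperPt_eq_smul (τ : ℍ) (i : Fin (p + 1)) :
    ∃ γ ∈ Gamma0 N, γ • heckePt p τ i = upperPt hp hpN τ i := by
  haveI := Fact.mk hp
  have hp0 : (p : ℂ) ≠ 0 := Nat.cast_ne_zero.2 (NeZero.ne p)
  by_cases hi : (i : ℕ) < p
  · refine ⟨1, one_mem _, ?_⟩
    rw [one_smul]
    refine UpperHalfPlane.ext ?_
    rw [coe_heckePt_of_lt τ hi, upperPt]
    show _ = (((heckeShift hp hpN i : SL(2, ℤ)) • τ : ℍ) : ℂ) / (p : ℂ)
    rw [coe_smul_eq]
    simp [heckeShift, hi]
  · set uv := (exists_bezout hpN).choose with huv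
    refine ⟨(⟨!![1, -uv.2; (N : ℤ), (p : ℤ) * uv.1], by
        rw [Matrix.det_fin_two_of]
        linear_combination (exists_bezout hpN).choose_spec⟩ : SL(2, ℤ)),
      FLTA.Periods.mem_Gamma0_of_dvd dvd_rfl, ?_⟩
    have hlast : i = Fin.last p := Fin.ext (by simp; omega)
    subst hlast
    refine UpperHalfPlane.ext ((coe_smul_eq _ _).trans ?_)
    rw [coe_heckePt_last, upperPt]
    show _ = (((heckeShift hp hpN (Fin.last p) : SL(2, ℤ)) • τ : ℍ) : ℂ) / (p : ℂ)
    rw [coe_smul_eq]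
    simp [heckeShift, ← huv]
    rw [div_div, show (((N : ℂ) * (τ : ℂ) + (uv.1 : ℂ)) * (p : ℂ)) =
      (N : ℂ) * ((p : ℂ) * (τ : ℂ)) + (p : ℂ) * (uv.1 : ℂ) by ring]

include hp hpN in
theorem isPointOver_heckePt {τ : ℍ} (hτ : IsPointOver ιb τ) (i : Fin (p + 1)) :
    IsPointOver ιb (heckePt p τ i) := by
  obtain ⟨γ, -, hγ⟩ := exists_upperPt_eq_smul hp hpN τ i
  exact (isPointOver_smul ιb γ _).1 (hγ ▸ isPointOver_upperPt hp hpN hτ i)

include hp hpN in
theorem finrankAlong_beta_eq_succ :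
    finrankAlong Qb (heckeBetaBar Qb N p) = p + 1 := by
  haveI := Fact.mk hp
  rw [finrankAlong_heckeBetaBar_eq]
  refine (finrankAlong_heckeAlphaBar (L := Qb) ιb (normRepsT (N := N) hpN)).trans ?_
  show Fintype.card (Option (ZMod p)) = p + 1
  rw [Fintype.card_option, ZMod.card]

open Classical in
set_option maxHeartbeats 400000 in
/-- The number of the upper points giving the same place is at most the ramification index. -/
theorem card_upperPt_le (hβ : HeckeBetaBarIntegral Qb N p) {τ : ℍ} (hτ : IsPointOver ιb τ)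
    (i : Fin (p + 1)) :
    (Finset.univ.filter fun j : Fin (p + 1) =>
        placeAt (N * p) ιb (upperPt hp hpN τ j) (isPointOver_upperPt hp hpN hτ j) =
          placeAt (N * p) ιb (upperPt hp hpN τ i) (isPointOver_upperPt hp hpN hτ i)).card ≤
      (placeAt (N * p) ιb (upperPt hp hpN τ i)
        (isPointOver_upperPt hp hpN hτ i)).ramificationIndexAlong (heckeBetaBar Qb N p) := by
  classical
  set σ := upperPt hp hpN τ i with hσdef
  set Fset := Finset.univ.filter fun j : Fin (p + 1) =>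
        placeAt (N * p) ιb (upperPt hp hpN τ j) (isPointOver_upperPt hp hpN hτ j) =
          placeAt (N * p) ιb σ (isPointOver_upperPt hp hpN hτ i)
  have hex : ∀ j : Fset, ∃ h : Gamma0 (N * p), (h : SL(2, ℤ)) • σ = upperPt hp hpN τ j := by
    rintro ⟨j, hj⟩
    obtain ⟨γ, hγ, h⟩ := (placeAt_eq_iff (N * p) ιb _ _).1 (Finset.mem_filter.1 hj).2.symm
    exact ⟨⟨γ, hγ⟩, h⟩
  choose h hh using hex
  have hupper : ∀ k : Gamma0 (N * p), (p : ℤ) ∣ gmat (upConj k) 0 1 := fun k => by
    simp [gmat_upConj]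
  let f : Fset × MulAction.stabilizer (Gamma0 (N * p)) σ → MulAction.stabilizer (Gamma0 N) τ :=
    fun jk => ⟨(heckeShift hp hpN jk.1)⁻¹ * upConj (h jk.1 * (jk.2 : Gamma0 (N * p))) * heckeShift hp hpN i, by
      show (((heckeShift hp hpN jk.1)⁻¹ * upConj (h jk.1 * (jk.2 : Gamma0 (N * p))) * heckeShift hp hpN i :
        Gamma0 N) : SL(2, ℤ)) • τ = τ
      rw [Subgroup.coe_mul, Subgroup.coe_mul, mul_smul, mul_smul, ← scaleTau_upperPt,
        ← scaleTau_smul_eq, Subgroup.coe_mul, mul_smul,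
        show ((jk.2 : Gamma0 (N * p)) : SL(2, ℤ)) • σ = σ from jk.2.2, hh, scaleTau_upperPt,
        Subgroup.coe_inv, inv_smul_smul]⟩
  have hf : Function.Injective f := by
    rintro ⟨j, k⟩ ⟨j', k'⟩ e
    have e1 : (heckeShift hp hpN (j : Fin (p + 1)))⁻¹ * upConj (h j * (k : Gamma0 (N * p))) =
        (heckeShift hp hpN (j' : Fin (p + 1)))⁻¹ * upConj (h j' * (k' : Gamma0 (N * p))) :=
      mul_right_cancel (congrArg Subtype.val e)
    have e2 : heckeShift hp hpN (j' : Fin (p + 1)) * (heckeShift hp hpN (j : Fin (p + 1)))⁻¹ =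
        upConj (h j' * (k' : Gamma0 (N * p))) * (upConj (h j * (k : Gamma0 (N * p))))⁻¹ := by
      rw [eq_mul_inv_iff_mul_eq, mul_assoc, e1, mul_inv_cancel_left]
    obtain rfl : j = j' :=
      Subtype.ext (heckeShift_inj hp hpN (e2 ▸ upperRight_mul_inv _ _ (hupper _) (hupper _)))
    exact Prod.ext rfl (Subtype.ext (mul_left_cancel (upConj_injective (mul_left_cancel e1))))
  haveI := finite_stabilizer_Gamma0 N τ
  have hcard := Nat.card_le_card_of_injective f hf
  rw [Nat.card_prod, Nat.card_eq_fintype_card, Fintype.card_coe, ← two_mul_ellipticIndex,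
    ← two_mul_ellipticIndex] at hcard
  have he := (restrictAlong_beta_placeAt (τ := τ) hβ (isPointOver_upperPt hp hpN hτ i) hτ
    ⟨((heckeShift hp hpN i)⁻¹ : Gamma0 N), ((heckeShift hp hpN i)⁻¹).2, by
      rw [scaleTau_upperPt, Subgroup.coe_inv, inv_smul_smul]⟩).2
  have hc : Fset.card * (2 * ellipticIndex (N * p) σ) ≤ 2 * (ellipticIndex (N * p) σ *
      (placeAt (N * p) ιb σ (isPointOver_upperPt hp hpN hτ i)).ramificationIndexAlong
        (heckeBetaBar Qb N p)) := hcard.trans (le_of_eq (congrArg (2 * ·) he.symm))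
  have h0 := ellipticIndex_pos (N * p) σ
  refine Nat.le_of_mul_le_mul_left ?_ (Nat.mul_pos two_pos h0)
  calc 2 * ellipticIndex (N * p) σ * Fset.card
      = Fset.card * (2 * ellipticIndex (N * p) σ) := by ring
    _ ≤ _ := hc
    _ = _ := by ring

/-- The correspondence `T_l = α_* β^*` on the place of a point. -/
theorem correspondence_placeAt
    [HasPrincipalDivisors Qb (modularFunctionFieldBar (N * p))]
    (hβ : HeckeBetaBarIntegral Qb N p) (hα : HeckeAlphaBarIntegral Qb N p)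
    {τ : ℍ} (hτ : IsPointOver ιb τ) :
    Divisor.correspondence (heckeBetaBar Qb N p) (heckeAlphaBar Qb N p) hβ hα
        (Finsupp.single (placeAt N ιb τ hτ) (1 : ℤ)) =
      ∑ i, Finsupp.single
        (placeAt N ιb (heckePt p τ i) (isPointOver_heckePt hp hpN hτ i)) (1 : ℤ) := by
  classical
  set fib := Place.fiberAlong (heckeBetaBar Qb N p) hβ (placeAt N ιb τ hτ) with hfib
  let W : Fin (p + 1) → Place Qb (modularFunctionFieldBar (N * p)) := fun i =>
    placeAt (N * p) ιb (upperPt hp hpN τ i) (isPointOver_upperPt hp hpN hτ i)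
  have hmem : ∀ i, W i ∈ fib := fun i => Place.mem_fiberAlong.2
    (restrictAlong_beta_placeAt hβ _ hτ
      ⟨((heckeShift hp hpN i)⁻¹ : Gamma0 N), ((heckeShift hp hpN i)⁻¹).2, by
        rw [scaleTau_upperPt, Subgroup.coe_inv, inv_smul_smul]⟩).1
  have hle : ∀ V ∈ fib, (Finset.univ.filter fun i => W i = V).card ≤
      V.ramificationIndexAlong (heckeBetaBar Qb N p) := by
    intro V _
    rcases (Finset.univ.filter fun i => W i = V).eq_empty_or_nonempty with h0 | ⟨i, hi⟩
    · rw [h0]; exact Nat.zero_le _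
    · obtain rfl := (Finset.mem_filter.1 hi).2
      exact card_upperPt_le hp hpN hβ hτ i
  have hsum : ∑ V ∈ fib, V.ramificationIndexAlong (heckeBetaBar Qb N p) = p + 1 := by
    haveI : CharZero Qb := algebraRat.charZero Qb
    have h := FLTA.Curves.sum_ramificationIndexAlong_mul_inertiaDegAlong
      (heckeBetaBar Qb N p) hβ (FLTA.Curves.finiteAlong _)
      (FLTA.Curves.separableAlong_of_charZero _) (placeAt N ιb τ hτ)
    have h' : ∀ V : Place Qb (modularFunctionFieldBar (N * p)),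
        (V.ramificationIndexAlong (heckeBetaBar Qb N p) : ℤ) *
          (V.inertiaDegAlong (heckeBetaBar Qb N p) hβ : ℤ) =
            V.ramificationIndexAlong (heckeBetaBar Qb N p) := fun V => by
      have e : V.inertiaDegAlong (heckeBetaBar Qb N p) hβ = 1 := inertiaDegAlong_eq_one_bar hβ V
      rw [e, Nat.cast_one, mul_one]
    rw [finrankAlong_beta_eq_succ hp hpN] at h
    replace h := (Finset.sum_congr rfl fun V _ => (h' V).symm).trans h
    exact_mod_cast h
  have heq : ∀ V ∈ fib, (Finset.univ.filter fun i => W i = V).card =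
      V.ramificationIndexAlong (heckeBetaBar Qb N p) := by
    refine (Finset.sum_eq_sum_iff_of_le hle).1 ?_
    rw [hsum, ← Finset.card_eq_sum_card_fiberwise fun i _ => hmem i, Finset.card_univ,
      Fintype.card_fin]
  have hpull : Divisor.pullbackAlong (heckeBetaBar Qb N p) hβ
      (Finsupp.single (placeAt N ιb τ hτ) (1 : ℤ)) = ∑ i, Finsupp.single (W i) (1 : ℤ) := by
    refine (Divisor.pullbackAlong_single (heckeBetaBar Qb N p) hβ _ 1).trans ?_
    rw [← hfib, ← Finset.sum_fiberwise_of_maps_to (t := fib) (g := W) fun i _ => hmem i]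
    refine Finset.sum_congr rfl fun V hV => ?_
    rw [Finset.sum_congr rfl fun i hi => by rw [(Finset.mem_filter.1 hi).2], Finset.sum_const,
      ← heq V hV, Finsupp.smul_single, one_mul, nsmul_one]
  refine ((congrArg (Divisor.pushforwardAlong (heckeAlphaBar Qb N p) hα) hpull).trans
    (map_sum _ _ _)).trans ?_
  refine Finset.sum_congr rfl fun i _ => ?_
  obtain ⟨γ, hγ, h⟩ := exists_upperPt_eq_smul hp hpN τ i
  refine (Divisor.pushforwardAlong_single (heckeAlphaBar Qb N p) hα (W i) 1).trans ?_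
  have e1 : (W i).restrictAlong (heckeAlphaBar Qb N p) hα =
      placeAt N ιb (heckePt p τ i) (isPointOver_heckePt hp hpN hτ i) :=
    (restrictAlong_alpha_placeAt hα _).trans
      (placeAt_eq_of_smul N ιb (isPointOver_heckePt hp hpN hτ i)
        (isPointOver_upperPt hp hpN hτ i) hγ h).symm
  have e2 : (W i).inertiaDegAlong (heckeAlphaBar Qb N p) hα = 1 := inertiaDegAlong_eq_one_bar hα _
  exact congrArg₂ Finsupp.single e1 (by rw [e2]; norm_num)

omit [NeZero p] in
/-- The correspondence acts on the places of points by the neighbours. -/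
theorem isHeckeAction_correspondence {l : ℕ} [NeZero l] (hl : l.Prime) (hlN : ¬ l ∣ N)
    [HasPrincipalDivisors Qb (modularFunctionFieldBar (N * l))]
    (hβ : HeckeBetaBarIntegral Qb N l) (hα : HeckeAlphaBarIntegral Qb N l) :
    IsHeckeAction N l
      (Divisor.correspondence (heckeBetaBar Qb N l) (heckeAlphaBar Qb N l) hβ hα) :=
  fun _ hτ => ⟨isPointOver_heckePt hl hlN hτ, correspondence_placeAt hl hlN hβ hα hτ⟩

/-- The Hecke operator on a class supported at points is given on divisors by the correspondence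
`correspondence_placeAt`. -/
theorem exists_heckeOperatorBar_mk (l : Nat.Primes) [NeZero (l : ℕ)]
    (D : Divisor.degZero (K := Qb) (F := modularFunctionFieldBar N)) :
    ∃ (_ : HasPrincipalDivisors Qb (modularFunctionFieldBar (N * (l : ℕ))))
      (hβ : HeckeBetaBarIntegral Qb N l) (hα : HeckeAlphaBarIntegral Qb N l)
      (D' : Divisor.degZero (K := Qb) (F := modularFunctionFieldBar N)),
      (D' : Divisor Qb (modularFunctionFieldBar N)) =
          Divisor.correspondence (heckeBetaBar Qb N l) (heckeAlphaBar Qb N l) hβ hα D ∧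
        heckeOperatorBar N l (Pic0.mk D) = Pic0.mk D' := by
  obtain ⟨hα, hβ, hP, hfin, hFI, hNF⟩ := FLTA.Curves.heckeInputsAlong N Qb (l : ℕ)
  haveI := hP
  refine ⟨hP, hβ, hα,
    Pic0.degZeroCorrespondence (heckeBetaBar Qb N l) (heckeAlphaBar Qb N l) hβ hα hFI D, rfl, ?_⟩
  rw [heckeOperatorBar_apply, heckeOperatorAlong_eq hα hβ hFI hfin hNF]
  rfl

end FLTA.LT2

end
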