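import Fermat.Agent.EllTorsion.FrobQuadratic
import Fermat.Agent.EllTorsion.Card

/-!
# The quadratic relation of Frobenius on torsion of order a power of two
-/

set_option autoImplicit false

open scoped WeierstrassCurve.Affine
open WeierstrassCurve
open scoped Classical

namespace FLTA.LT2.Image

open FLTA.EllReduction FLTA.EllTorsion

local notation "Γℚ" => AlgebraicClosure ℚ ≃ₐ[ℚ] AlgebraicClosure ℚ

/-- The action of `σ` as an additive map. -/
noncomputable def actHom (W : WeierstrassCurve ℤ) (σ : Γℚ) : GeomPoint W →+ GeomPoint W :=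
  Affine.Point.map (W' := W.map (Int.castRingHom ℚ)) σ.toAlgHom

theorem actHom_apply (W : WeierstrassCurve ℤ) (σ : Γℚ) (P : GeomPoint W) :
    actHom W σ P = σ • P := rfl

/-- At a good odd prime `l`, Frobenius satisfies `X² - a_l X + l` on the `2 ^ m`-torsion. -/
theorem frobenius_quadratic_two_pow (W : WeierstrassCurve ℤ) (hΔ : W.Δ ≠ 0) {l : ℕ} (hl : l.Prime)
    (hl2 : l ≠ 2) (hgood : W.IsGoodPrimeFor l) {A : ValuationSubring (AlgebraicClosure ℚ)}
    (hA : A.LiesOverPrime l) {σ : Γℚ} (hσ : A.IsFrobeniusAt σ l) (m : ℕ)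
    (P : GeomPoint W) (hP : (2 ^ m) • P = 0) :
    σ • σ • P - W.apOfModel l • (σ • P) + l • P = 0 := by
  have : (W.map (Int.castRingHom ℚ)).IsElliptic :=
    ⟨by rw [WeierstrassCurve.map_Δ, isUnit_iff_ne_zero]; simpa using hΔ⟩
  obtain ⟨R, hR⟩ : ∃ R : GeomPoint W, (2 : ℕ) • R = P :=
    EllTorsion.exists_nsmul_eq
      ((W.map (Int.castRingHom ℚ)).map (algebraMap ℚ (AlgebraicClosure ℚ))) (n := 2)
      (by norm_num) P
  set f : GeomPoint W →+ GeomPoint W :=
    (actHom W σ).comp (actHom W σ) - W.apOfModel l • actHom W σ + l • AddMonoidHom.id _ with hf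
  have hf' : ∀ Q, f Q = σ • σ • Q - W.apOfModel l • (σ • Q) + l • Q := fun Q => rfl
  rw [← hf', ← hR, map_nsmul]
  have : Fact l.Prime := ⟨hl⟩
  have : CharP (IsLocalRing.ResidueField A) l := FLTA.Galois.charP_residueField hl hA
  have : IsAlgClosed (IsLocalRing.ResidueField A) := FLTA.Galois.isAlgClosed_residueField A
  refine eq_zero_of_mem_E1Z hl hA (n := 2 ^ m)
    (fun hd => hl2 ((Nat.prime_dvd_prime_iff_eq hl Nat.prime_two).mp (hl.dvd_of_dvd_pow hd)))
    (FrobReduce.mem_E1Z_of_goodRed_eq_zero hl hA hgood ?_) ?_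
  · set r := FrobReduce.goodRed hl hA hgood with hr
    have e1 : r (σ • R) = Frob.frobHom W l _ (r R) := FrobReduce.goodRed_smul hl hA hgood hσ R
    have e2 : r (σ • σ • R) = Frob.frobHom W l _ (r (σ • R)) :=
      FrobReduce.goodRed_smul hl hA hgood hσ (σ • R)
    rw [hf', map_nsmul, map_add, map_sub, map_zsmul, map_nsmul, e2, e1]
    have h := Frob.two_zsmul_frobenius_quadratic W l _ hl2 hgood (r R)
    rw [show (2 : ℤ) = ((2 : ℕ) : ℤ) from rfl, natCast_zsmul] at h
    refine Eq.trans ?_ h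
    congr 2
  · rw [← map_nsmul f, hR, ← map_nsmul, hP, map_zero]

end FLTA.LT2.Image
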