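import Fermat.Agent.GaloisReps.ResidualAttach
import Fermat.Agent.Carayol.MatchResidual
import Fermat.Agent.LT2.ImageFrob
import Fermat.Prelude.Def_FLTPrelim_ModularRep

/-!
# Residual eigen systems are determined by almost all primes

An eigenform congruent to the traces of a curve modulo a prime over `2` at almost all primes is
congruent to them at every good odd prime not dividing the level.
-/

set_option autoImplicit false

noncomputable section

open Polynomial CongruenceSubgroup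
open scoped MatrixGroups

namespace FLTA.LT2

/-- **Residual systems at 2 are determined by almost all primes.** -/
theorem residual_congr_of_almost_all {E : WeierstrassCurve ℤ} (hΔ : E.Δ ≠ 0) {N : ℕ} [NeZero N]
    {f : CuspForm (Gamma0 N) 2} (hf : f.IsNormalizedEigenform)
    {𝔪 : Ideal (integralClosure ℤ ℂ)} (hmax : 𝔪.IsMaximal) (h2 : (2 : integralClosure ℤ ℂ) ∈ 𝔪)
    (S : Finset ℕ)
    (h : ∀ l : ℕ, l.Prime → l ∉ S → ¬ l ∣ 2 * N → ∃ b : integralClosure ℤ ℂ,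
      (b : ℂ) = ModularFormClass.qCoeff f l ∧
        b - ((E.apOfModel l : ℤ) : integralClosure ℤ ℂ) ∈ 𝔪)
    {l : ℕ} (hl : l.Prime) (hgood : E.IsGoodPrimeFor l) (hl2N : ¬ l ∣ 2 * N) :
    ∃ b : integralClosure ℤ ℂ, (b : ℂ) = ModularFormClass.qCoeff f l ∧
      b - ((E.apOfModel l : ℤ) : integralClosure ℤ ℂ) ∈ 𝔪 := by
  classical
  have : Fact (Nat.Prime 2) := ⟨Nat.prime_two⟩
  let : Field (integralClosure ℤ ℂ ⧸ 𝔪) := Ideal.Quotient.field 𝔪
  set φ := Ideal.Quotient.mk 𝔪 with hφ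
  have : CharP (integralClosure ℤ ℂ ⧸ 𝔪) 2 :=
    (CharP.charP_iff_prime_eq_zero Nat.prime_two).mpr (by
      rw [← map_natCast φ]
      exact Ideal.Quotient.eq_zero_iff_mem.mpr (by exact_mod_cast h2))
  obtain ⟨ρ, hρ, -⟩ := GaloisReps.exists_residual_attached hf (p := 2) φ
  have hF : Carayol.HasFrobQuadratic E 2 := fun _ hr hgr hr2 _ hA _ hσ n P hP =>
    Image.frobenius_quadratic_two_pow E hΔ hr hr2 hgr hA hσ n P hP
  have hodd : ∀ r : ℕ, r.Prime → ¬ r ∣ 2 * N → r ≠ 2 := fun r _ h h' => h (h' ▸ dvd_mul_right 2 N)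
  have hne0 : ∀ r : ℕ, r.Prime → r ≠ 2 → (r : integralClosure ℤ ℂ ⧸ 𝔪) ≠ 0 := fun r hr hr2 h0 =>
    hr2 ((Nat.prime_dvd_prime_iff_eq Nat.prime_two hr).mp
      ((CharP.cast_eq_zero_iff _ 2 r).mp h0)).symm
  have hall := Carayol.charpoly_eq_curveRepK (k := integralClosure ℤ ℂ ⧸ 𝔪) hΔ hF
    (S ∪ {2} ∪ N.primeFactors ∪ E.Δ.natAbs.primeFactors) (by simp)
    (fun r hr hS hd => by
      simp only [Finset.mem_union, not_or] at hS
      exact hS.2 (Nat.mem_primeFactors.2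
        ⟨hr, Int.natCast_dvd.1 hd, Int.natAbs_ne_zero.2 hΔ⟩))
    ρ (fun r hr hS A hA σ hσ => by
      simp only [Finset.mem_union, not_or, Finset.mem_singleton] at hS
      obtain ⟨⟨⟨hrS, hr2⟩, hrN⟩, -⟩ := hS
      have hrN' : ¬ r ∣ N := fun h' => hrN (Nat.mem_primeFactors.2 ⟨hr, h', NeZero.ne N⟩)
      obtain ⟨a, ha, hcp⟩ := hρ r hr hrN' (hne0 r hr hr2) A hA σ hσ
      obtain ⟨b, hb, hbm⟩ := h r hr hrS fun hd => (hr.dvd_mul.mp hd).elim
        (fun h' => hr2 ((Nat.prime_dvd_prime_iff_eq hr Nat.prime_two).mp h')) hrN'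
      rw [hcp, show φ a = (E.apOfModel r : integralClosure ℤ ℂ ⧸ 𝔪) by
        rw [Subtype.ext (ha.trans hb.symm), ← map_intCast φ]
        exact Ideal.Quotient.eq.mpr hbm])
  obtain ⟨A, hA⟩ := Galois.exists_liesOverPrime hl
  obtain ⟨σ, hσ⟩ := Galois.exists_isFrobeniusAt hl hA
  have hl2 := hodd l hl hl2N
  obtain ⟨a, ha, hcp⟩ := hρ l hl (fun h' => hl2N (h'.mul_left 2)) (hne0 l hl hl2) A hA σ hσ
  have he := (hcp.symm.trans (hall σ)).trans
    (Carayol.charpoly_curveRepK_frobenius hΔ hF hl hgood hl2 hA hσ)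
  refine ⟨a, ha, Ideal.Quotient.eq.mp ?_⟩
  rw [map_intCast]
  have h1 := congrArg (fun P => Polynomial.coeff P 1) he
  simpa [coeff_X_pow] using h1

end FLTA.LT2

end
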