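import Fermat.Agent.LT2.ImageCompanion
import Fermat.Agent.LT2.PrimesFrobenius
import Fermat.Agent.Galois.Cyclotomic

/-!
# Primes `l ≡ 1 (mod M)` with odd trace

A commutator of Galois elements fixes every root of unity and can act on `E[2]` by a three cycle.
-/

set_option autoImplicit false

noncomputable section

open WeierstrassCurve Matrix
open scoped WeierstrassCurve.Affine

namespace FLTA.LT2

local notation "Qbar" => AlgebraicClosure ℚ
local notation "Γℚ" => AlgebraicClosure ℚ ≃ₐ[ℚ] AlgebraicClosure ℚ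

/-- The mod `M` cyclotomic character. -/
def cycloLevel (M : ℕ) [NeZero M] : Γℚ →* (ZMod M)ˣ :=
  (modularCyclotomicCharacter Qbar (IsAlgClosed.card_rootsOfUnity_eq Qbar M)).comp
    (MulSemiringAction.toRingAut Γℚ Qbar)

theorem cycloLevel_finiteLevel (M : ℕ) [NeZero M] :
    GaloisFactorsThroughFiniteLevel (cycloLevel M) := by
  obtain ⟨ζ, hζ⟩ := HasEnoughRootsOfUnity.exists_primitiveRoot Qbar M
  have : Algebra.IsAlgebraic ℚ Qbar := AlgebraicClosure.isAlgebraic ℚ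
  refine ⟨IntermediateField.adjoin ℚ {ζ},
    IntermediateField.adjoin.finiteDimensional (Algebra.IsIntegral.isIntegral ζ), fun g hg => ?_⟩
  refine Units.ext ?_
  symm
  apply modularCyclotomicCharacter.unique
  intro t ht
  have ht' : (t : Qbar) ^ M = 1 := by
    rw [← Units.val_pow_eq_pow_val, (mem_rootsOfUnity _ t).mp ht, Units.val_one]
  obtain ⟨i, -, hi⟩ := hζ.eq_pow_of_pow_eq_one ht'
  rw [Units.val_one, ZMod.val_one_eq_one_mod, ← pow_eq_pow_mod 1 ht', pow_one, ← hi]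
  show g (ζ ^ i) = ζ ^ i
  rw [map_pow, hg ζ (IntermediateField.mem_adjoin_simple_self ℚ ζ)]

theorem trace_pow_three_cycle (R : Matrix (Fin 2) (Fin 2) (ZMod (2 ^ 1))) (j k : ℕ)
    (hR : R = !![0, 1; 1, 0] * !![1, 1; 0, 1] * !![0, 1; 1, 0] * !![1, 1; 0, 1])
    (h : (R ^ j) ^ k = R) : (R ^ j).trace = 1 := by
  have h3 : R ^ 3 = 1 := by subst hR; decide
  have hj : R ^ j = R ^ (j % 3) := by
    conv_lhs => rw [← Nat.div_add_mod j 3, pow_add, pow_mul, h3, one_pow, one_mul]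
  rw [hj] at h ⊢
  have hlt := Nat.mod_lt j (by norm_num : 3 > 0)
  interval_cases hj3 : j % 3
  · rw [pow_zero, one_pow] at h
    subst hR
    exact absurd h (by decide)
  · subst hR; decide
  · subst hR; decide

/-- A companion curve has primes `l ≡ 1 (mod M)` of odd trace outside any finite set. -/
theorem exists_prime_one_mod_odd_trace {E : WeierstrassCurve ℤ} (hE : Companion E) (M : ℕ)
    [NeZero M] (S : Finset ℕ) :
    ∃ l : ℕ, l.Prime ∧ l ∉ S ∧ l ≠ 2 ∧ E.IsGoodPrimeFor l ∧ (l : ZMod M) = 1 ∧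
      Odd (E.apOfModel l) := by
  classical
  obtain ⟨σ₁, h₁⟩ := Companion.exists_rep_eq hE (n := 1) one_ne_zero
    (M := !![0, 1; 1, 0]) (by decide)
  obtain ⟨σ₂, h₂⟩ := Companion.exists_rep_eq hE (n := 1) one_ne_zero
    (M := !![1, 1; 0, 1]) (by decide)
  set ρ := Image.rep hE.Δ_ne_zero 1 with hρ
  have hinv : ∀ (σ : Γℚ) (A : Matrix (Fin 2) (Fin 2) (ZMod (2 ^ 1))), ρ σ = A → A * A = 1 →
      ρ σ⁻¹ = A := by
    intro σ A hA hAA
    calc ρ σ⁻¹ = (A * ρ σ) * ρ σ⁻¹ := by rw [hA, hAA, one_mul]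
      _ = A * ρ (σ * σ⁻¹) := by rw [map_mul, mul_assoc]
      _ = A := by rw [mul_inv_cancel, map_one, mul_one]
  set g := σ₁ * σ₂ * σ₁⁻¹ * σ₂⁻¹ with hg
  have hρg : ρ g = !![0, 1; 1, 0] * !![1, 1; 0, 1] * !![0, 1; 1, 0] * !![1, 1; 0, 1] := by
    rw [hg, map_mul, map_mul, map_mul, hinv σ₁ _ h₁ (by decide), hinv σ₂ _ h₂ (by decide), h₁, h₂]
  have hχg : cycloLevel M g = 1 := by
    rw [hg, map_mul, map_mul, map_mul, map_inv, map_inv, mul_comm (cycloLevel M σ₁),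
      mul_inv_cancel_right, mul_inv_cancel]
  obtain ⟨l, hl, hS, A, hA, τ, hτ, j, k, hj, hk⟩ := exists_frobenius_map_pow
    (ρ.prod (cycloLevel M))
    (Density.galoisFactorsThroughFiniteLevel_prod (Image.rep_finiteLevel _ 1)
      (cycloLevel_finiteLevel M))
    (S ∪ {2} ∪ M.primeFactors ∪ E.Δ.natAbs.primeFactors) g
  simp only [Finset.mem_union, not_or, Finset.mem_singleton] at hS
  obtain ⟨⟨⟨hlS, hl2⟩, hlM⟩, hlΔ⟩ := hS
  have hlM' : ¬ l ∣ M := fun h => hlM (Nat.mem_primeFactors.2 ⟨hl, h, NeZero.ne M⟩)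
  have hgood : ¬ (l : ℤ) ∣ E.Δ := fun h => hlΔ (Nat.mem_primeFactors.2
    ⟨hl, Int.natCast_dvd.1 h, Int.natAbs_ne_zero.2 hE.Δ_ne_zero⟩)
  have hj1 : ρ τ = ρ g ^ j := congrArg Prod.fst hj
  have hk1 : ρ τ ^ k = ρ g := congrArg Prod.fst hk
  have hj2 : cycloLevel M τ = cycloLevel M g ^ j := congrArg Prod.snd hj
  rw [hχg, one_pow] at hj2
  have hlmod : (l : ZMod M) = 1 :=
    (Galois.modularCyclotomicCharacter_frobenius hl hA hτ hlM'
      (IsAlgClosed.card_rootsOfUnity_eq Qbar M)).symm.trans (congrArg Units.val hj2)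
  have htr := trace_pow_three_cycle (ρ g) j k hρg (by rw [← hj1, hk1])
  rw [← hj1, (Companion.det_trace_rep_frobenius hE one_ne_zero hl hl2 hgood hA hτ).2] at htr
  refine ⟨l, hl, hlS, hl2, hgood, hlmod, ?_⟩
  rw [← Int.not_even_iff_odd, even_iff_two_dvd]
  intro h
  obtain ⟨m, hm⟩ := h
  rw [hm] at htr
  push_cast at htr
  rw [show (2 : ZMod (2 ^ 1)) = 0 from rfl, zero_mul] at htr
  exact absurd htr (by decide)

end FLTA.LT2

end
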