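import Fermat.Agent.LT2.ThetaCubicDefs
import Fermat.Agent.LT2.Defs
import Fermat.Agent.EllTorsion.FrobTwo

/-!
# The cubic data of a companion curve
-/

set_option autoImplicit false
set_option linter.style.haveILetI false

open WeierstrassCurve

namespace FLTA.LT2

open scoped Classical

/-- A monic cubic over a field with nonzero discriminant and one root has an odd number of roots. -/
theorem odd_card_roots {F : Type*} [Field F] [Fintype F] [DecidableEq F] (a b c : F)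
    (hd : a ^ 2 * b ^ 2 - 4 * b ^ 3 - 4 * a ^ 3 * c - 27 * c ^ 2 + 18 * a * b * c ≠ 0) :
    Odd (Finset.univ.filter fun x : F => x ^ 3 + a * x ^ 2 + b * x + c = 0).card ↔
      ∃ x : F, x ^ 3 + a * x ^ 2 + b * x + c = 0 := by
  set s := Finset.univ.filter fun x : F => x ^ 3 + a * x ^ 2 + b * x + c = 0
  refine ⟨fun h => ?_, fun ⟨r, hr⟩ => ?_⟩
  · obtain ⟨x, hx⟩ := Finset.card_pos.1 h.pos
    exact ⟨x, (Finset.mem_filter.1 hx).2⟩
  by_cases h : ∃ r', r' ≠ r ∧ r' ^ 3 + a * r' ^ 2 + b * r' + c = 0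
  · obtain ⟨r', hne, hr'⟩ := h
    obtain ⟨r'', rfl⟩ : ∃ r'', a = -(r + r' + r'') := ⟨-a - r - r', by ring⟩
    have hb : b = r * r' + r * r'' + r' * r'' := by
      refine mul_right_cancel₀ (sub_ne_zero.2 hne.symm) ?_
      linear_combination hr - hr'
    subst hb
    obtain rfl : c = -(r * r' * r'') := by linear_combination hr
    have h1 : r'' ≠ r := fun e => hd (by subst e; ring)
    have h2 : r'' ≠ r' := fun e => hd (by subst e; ring)
    have : s = {r, r', r''} := by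
      ext x
      simp only [s, Finset.mem_filter, Finset.mem_univ, true_and, Finset.mem_insert,
        Finset.mem_singleton]
      rw [show x ^ 3 + -(r + r' + r'') * x ^ 2 + (r * r' + r * r'' + r' * r'') * x +
        -(r * r' * r'') = (x - r) * (x - r') * (x - r'') by ring]
      simp only [mul_eq_zero, sub_eq_zero, or_assoc]
    rw [this, Finset.card_insert_of_notMem (by simp [hne.symm, h1.symm]),
      Finset.card_insert_of_notMem (by simp [h2.symm]), Finset.card_singleton]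
    decide
  · have : s = {r} := Finset.eq_singleton_iff_unique_mem.2 ⟨Finset.mem_filter.2 ⟨Finset.mem_univ r, hr⟩,
      fun x hx => by_contra fun hne => h ⟨x, hne, (Finset.mem_filter.1 hx).2⟩⟩
    rw [this, Finset.card_singleton]
    exact odd_one

/-- A supersingular good reduction at `2` has `a₁` even and `a₃` odd. -/
theorem coeff_mod_two_of_supersingular (E : WeierstrassCurve ℤ) (hg : ¬ (2 : ℤ) ∣ E.Δ)
    (hs : (2 : ℤ) ∣ E.apOfModel 2) : 2 ∣ E.a₁ ∧ ¬ 2 ∣ E.a₃ := by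
  have hΔ : (E.reductionMod 2).Δ ≠ 0 := by
    rw [reductionMod, WeierstrassCurve.map_Δ, eq_intCast]
    exact fun h => hg ((ZMod.intCast_zmod_eq_zero_iff_dvd _ _).mp h)
  haveI : Fact (Nat.Prime 2) := ⟨Nat.prime_two⟩
  have hn := EllTorsion.FrobTwo.natCard_point_eq (E.reductionMod 2).toAffine hΔ
  have hc := EllTorsion.FrobTwo.cases_two (E.a₁ : ZMod 2) E.a₂ E.a₃ E.a₄ E.a₆ hΔ
  have ha : E.apOfModel 2 = 3 - ((E.reductionMod 2).card : ℤ) := by
    rw [apOfModel, traceOfFrobenius, Nat.card_zmod]; norm_num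
  have hcard : (E.reductionMod 2).card = Fintype.card (Option {p : ZMod 2 × ZMod 2 //
      p.2 ^ 2 + (E.a₁ : ZMod 2) * p.1 * p.2 + (E.a₃ : ZMod 2) * p.2
        = p.1 ^ 3 + (E.a₂ : ZMod 2) * p.1 ^ 2 + (E.a₄ : ZMod 2) * p.1 + (E.a₆ : ZMod 2)}) := by
    rw [WeierstrassCurve.card, hn, Nat.card_eq_fintype_card]
    exact Fintype.card_congr (Equiv.refl _)
  dsimp only at hc
  rw [← hcard] at hc
  rcases hc with ⟨h1, h3, -⟩ | ⟨-, -, ⟨-, hn⟩ | ⟨-, hn⟩⟩
  · refine ⟨(ZMod.intCast_zmod_eq_zero_iff_dvd _ 2).1 h1, fun h => ?_⟩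
    rw [(ZMod.intCast_zmod_eq_zero_iff_dvd _ 2).2 h] at h3
    exact zero_ne_one h3
  all_goals (rw [ha, hn] at hs; omega)

/-- A positive integer with all exponents odd is its radical times a square. -/
theorem exists_radical_mul_sq {m : ℕ} (hm : m ≠ 0)
    (hodd : ∀ p : ℕ, p.Prime → p ∣ m → Odd (padicValNat p m)) :
    ∃ t : ℕ, m = UniqueFactorizationMonoid.radical m * t ^ 2 := by
  obtain ⟨a, b, -, hb, hab, ha⟩ := Nat.sq_mul_squarefree_of_pos (Nat.pos_of_ne_zero hm)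
  refine ⟨b, ?_⟩
  suffices a = UniqueFactorizationMonoid.radical m by rw [← this, mul_comm, hab]
  refine (Nat.Squarefree.ext_iff ha UniqueFactorizationMonoid.squarefree_radical).2 fun p hp => ?_
  rw [UniqueFactorizationMonoid.dvd_radical_iff_of_irreducible hp.prime.irreducible hm]
  refine ⟨fun h => hab ▸ h.mul_left _, fun h => ?_⟩
  by_contra hpa
  haveI : Fact p.Prime := ⟨hp⟩
  have := hodd p hp h
  rw [← hab, padicValNat.mul (pow_ne_zero _ hb.ne') ha.ne_zero, padicValNat.pow _ _,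
    padicValNat.eq_zero_of_not_dvd hpa, add_zero] at this
  exact Nat.not_odd_iff_even.2 (even_two_mul _) this

/-- The parity of the trace at an odd good prime is that of the number of roots of the cubic. -/
theorem two_dvd_apOfModel_iff_root (E : WeierstrassCurve ℤ) {a b c : ℤ} (ha : 2 * a = E.b₂)
    (hb : b = 2 * E.b₄) (hc : c = 2 * E.b₆) {p : ℕ} (hp : p.Prime) (hp2 : p ≠ 2)
    (hgood : ¬ (p : ℤ) ∣ E.Δ) :
    (2 : ℤ) ∣ E.apOfModel p ↔
      ∃ x : ZMod p, x ^ 3 + (a : ZMod p) * x ^ 2 + (b : ZMod p) * x + (c : ZMod p) = 0 := by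
  haveI : Fact p.Prime := ⟨hp⟩
  have h2 : (2 : ZMod p) ≠ 0 := fun h => hp2 <| (Nat.prime_dvd_prime_iff_eq hp Nat.prime_two).1
    ((ZMod.natCast_eq_zero_iff 2 p).1 (by exact_mod_cast h))
  set W := E.reductionMod p
  have hΔ : W.Δ ≠ 0 := by
    rw [show W.Δ = ((E.Δ : ℤ) : ZMod p) from WeierstrassCurve.map_Δ _ _]
    exact fun h => hgood ((ZMod.intCast_zmod_eq_zero_iff_dvd _ _).mp h)
  let g : ZMod p → ZMod p := fun x => 4 * x ^ 3 + W.b₂ * x ^ 2 + 2 * W.b₄ * x + W.b₆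
  have hsq : ∀ x y : ZMod p, (2 * y + W.a₁ * x + W.a₃) ^ 2 - g x =
      4 * (y ^ 2 + W.a₁ * x * y + W.a₃ * y - (x ^ 3 + W.a₂ * x ^ 2 + W.a₄ * x + W.a₆)) :=
    fun x y => by simp only [g, WeierstrassCurve.b₂, WeierstrassCurve.b₄, WeierstrassCurve.b₆]; ring
  let e : {q : ZMod p × ZMod p // q.2 ^ 2 + W.a₁ * q.1 * q.2 + W.a₃ * q.2
      = q.1 ^ 3 + W.a₂ * q.1 ^ 2 + W.a₄ * q.1 + W.a₆} ≃ Σ x : ZMod p, {z : ZMod p // z ^ 2 = g x} :=
    { toFun := fun q => ⟨q.1.1, 2 * q.1.2 + W.a₁ * q.1.1 + W.a₃, by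
        rw [← sub_eq_zero, hsq, q.2, sub_self, mul_zero]⟩
      invFun := fun z => ⟨(z.1, (z.2.1 - W.a₁ * z.1 - W.a₃) / 2), by
        have h := hsq z.1 ((z.2.1 - W.a₁ * z.1 - W.a₃) / 2)
        rw [mul_div_cancel₀ _ h2, show z.2.1 - W.a₁ * z.1 - W.a₃ + W.a₁ * z.1 + W.a₃ = z.2.1 by ring,
          z.2.2, sub_self] at h
        exact sub_eq_zero.1 ((mul_eq_zero.1 h.symm).resolve_left
          (by rw [show (4 : ZMod p) = 2 * 2 by norm_num]; exact mul_ne_zero h2 h2))⟩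
      left_inv := fun q => Subtype.ext (Prod.ext rfl (by
        simp only []
        rw [div_eq_iff h2]; ring))
      right_inv := fun z => Sigma.subtype_ext rfl (by
        simp only []
        rw [mul_div_cancel₀ _ h2]; ring) }
  have hN : Nat.card W.toAffine.Point = (∑ x : ZMod p, Nat.card {z : ZMod p // z ^ 2 = g x}) + 1 := by
    rw [← Nat.card_sigma, ← Nat.card_congr e, ← Finite.card_option]
    exact EllTorsion.FrobTwo.natCard_point_eq W.toAffine hΔ
  -- parity of the fibres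
  have hpar : ∀ x : ZMod p, (Nat.card {z : ZMod p // z ^ 2 = g x} : ZMod 2) =
      if g x = 0 then 1 else 0 := by
    intro x
    have h := quadraticChar_card_sqrts (F := ZMod p) (by rwa [ZMod.ringChar_zmod_n]) (g x)
    have hc : Nat.card {z : ZMod p // z ^ 2 = g x} = {z : ZMod p | z ^ 2 = g x}.toFinset.card := by
      rw [Nat.card_eq_fintype_card, Set.toFinset_ofPred, Fintype.card_subtype]
    rw [hc]
    split_ifs with h0
    · rw [h0, quadraticChar_zero, zero_add] at h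
      rw [h0, show {z : ZMod p | z ^ 2 = 0}.toFinset.card = 1 by exact_mod_cast h, Nat.cast_one]
    · rcases quadraticChar_dichotomy h0 with h1 | h1 <;> rw [h1] at h
      · rw [show {z : ZMod p | z ^ 2 = g x}.toFinset.card = 2 by omega]; rfl
      · rw [show {z : ZMod p | z ^ 2 = g x}.toFinset.card = 0 by omega, Nat.cast_zero]
  have hroots : (Finset.univ.filter fun x : ZMod p => g x = 0).card =
      (Finset.univ.filter fun x : ZMod p =>
        x ^ 3 + (a : ZMod p) * x ^ 2 + (b : ZMod p) * x + (c : ZMod p) = 0).card := by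
    have hb₂ : W.b₂ = 2 * (a : ZMod p) := by
      rw [show W.b₂ = ((E.b₂ : ℤ) : ZMod p) from WeierstrassCurve.map_b₂ _ _, ← ha]
      push_cast; ring
    have hb₄ : (b : ZMod p) = 2 * W.b₄ := by
      rw [show W.b₄ = ((E.b₄ : ℤ) : ZMod p) from WeierstrassCurve.map_b₄ _ _, hb]
      push_cast; ring
    have hb₆ : (c : ZMod p) = 2 * W.b₆ := by
      rw [show W.b₆ = ((E.b₆ : ℤ) : ZMod p) from WeierstrassCurve.map_b₆ _ _, hc]
      push_cast; ring
    refine Finset.card_equiv (Equiv.mulLeft₀ 2 h2) fun x => ?_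
    simp only [Finset.mem_filter, Finset.mem_univ, true_and, Equiv.mulLeft₀_apply]
    rw [show (2 * x) ^ 3 + (a : ZMod p) * (2 * x) ^ 2 + (b : ZMod p) * (2 * x) + (c : ZMod p) =
      2 * g x by simp only [g, hb₂, hb₄, hb₆]; ring, mul_eq_zero]
    simp [h2]
  have hpodd : (p : ZMod 2) = 1 := by
    rw [ZMod.natCast_eq_one_iff_odd]; exact hp.odd_of_ne_two hp2
  have hap : ((E.apOfModel p : ℤ) : ZMod 2) = 1 + ((Finset.univ.filter fun x : ZMod p =>
      x ^ 3 + (a : ZMod p) * x ^ 2 + (b : ZMod p) * x + (c : ZMod p) = 0).card : ZMod 2) := by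
    rw [apOfModel, traceOfFrobenius, WeierstrassCurve.card, show E.reductionMod p = W from rfl, hN,
      Nat.card_zmod]
    push_cast
    rw [Finset.sum_congr rfl fun x _ => hpar x, Finset.sum_boole, hroots, hpodd]
    generalize ((Finset.univ.filter fun x : ZMod p =>
      x ^ 3 + (a : ZMod p) * x ^ 2 + (b : ZMod p) * x + (c : ZMod p) = 0).card : ZMod 2) = k
    revert k; decide
  have hd : ((a : ZMod p)) ^ 2 * (b : ZMod p) ^ 2 - 4 * (b : ZMod p) ^ 3 -
      4 * (a : ZMod p) ^ 3 * (c : ZMod p) - 27 * (c : ZMod p) ^ 2 +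
      18 * (a : ZMod p) * (b : ZMod p) * (c : ZMod p) ≠ 0 := by
    have h4 : (a ^ 2 * b ^ 2 - 4 * b ^ 3 - 4 * a ^ 3 * c - 27 * c ^ 2 + 18 * a * b * c) = 4 * E.Δ := by
      have hb8 : 4 * E.b₈ = E.b₂ * E.b₆ - E.b₄ ^ 2 := E.b_relation
      rw [hb, hc, WeierstrassCurve.Δ, ← ha] at *
      linear_combination (4 * a ^ 2) * hb8
    have h5 := congrArg (fun t : ℤ => (t : ZMod p)) h4
    push_cast at h5
    rw [h5]
    exact mul_ne_zero (by rw [show (4 : ZMod p) = 2 * 2 by norm_num]; exact mul_ne_zero h2 h2)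
      fun h => hgood ((ZMod.intCast_zmod_eq_zero_iff_dvd _ _).mp h)
  rw [← odd_card_roots _ _ _ hd, ← ZMod.natCast_eq_one_iff_odd,
    show ((2 : ℤ) ∣ E.apOfModel p) ↔ ((E.apOfModel p : ℤ) : ZMod 2) = 0 from
      (ZMod.intCast_zmod_eq_zero_iff_dvd _ 2).symm, hap]
  generalize ((Finset.univ.filter fun x : ZMod p =>
      x ^ 3 + (a : ZMod p) * x ^ 2 + (b : ZMod p) * x + (c : ZMod p) = 0).card : ZMod 2) = k
  revert k; decide

/-- The cubic data of a companion curve. -/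
theorem exists_cubicData {E : WeierstrassCurve ℤ} (hE : Companion E) :
    ∃ C : CubicData, C.D = -(E.conductorLevel : ℤ) ∧
      ∀ p : ℕ, p.Prime → ¬ (p : ℤ) ∣ C.bad * E.Δ →
        ((2 : ℤ) ∣ E.apOfModel p ↔ ∃ x : ZMod p, C.eval x = 0) := by
  obtain ⟨⟨m, hm⟩, hn3⟩ := coeff_mod_two_of_supersingular E hE.goodTwo hE.supersingularTwo
  obtain ⟨k, hk⟩ : Odd E.a₃ := Int.not_even_iff_odd.1 fun h => hn3 (even_iff_two_dvd.1 h)
  set a := 2 * m ^ 2 + 2 * E.a₂ with hadef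
  have ha : 2 * a = E.b₂ := by rw [hadef, WeierstrassCurve.b₂, hm]; ring
  have h6 : ∃ j, E.b₆ = 4 * j + 1 := ⟨k ^ 2 + k + E.a₆, by rw [WeierstrassCurve.b₆, hk]; ring⟩
  obtain ⟨j, hj⟩ := h6
  have h4 : ∃ i, E.b₄ = 2 * i := ⟨E.a₄ + m * E.a₃, by rw [WeierstrassCurve.b₄, hm]; ring⟩
  obtain ⟨i, hi⟩ := h4
  have hne : E.Δ.natAbs ≠ 0 := Int.natAbs_ne_zero.2 hE.Δ_ne_zero
  obtain ⟨t, ht⟩ := exists_radical_mul_sq hne fun p hp hd => by
    have := hE.oddVal p hp (Int.natCast_dvd.2 hd)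
    rwa [padicValInt] at this
  have htE : E.Δ = -(E.conductorLevel : ℤ) * (t : ℤ) ^ 2 := by
    have h1 : (E.Δ.natAbs : ℤ) = (E.conductorLevel : ℤ) * (t : ℤ) ^ 2 := by exact_mod_cast ht
    rw [Int.ofNat_natAbs_of_nonpos hE.neg.le] at h1
    linarith
  have hdisc : a ^ 2 * (2 * E.b₄) ^ 2 - 4 * (2 * E.b₄) ^ 3 - 4 * a ^ 3 * (2 * E.b₆) -
      27 * (2 * E.b₆) ^ 2 + 18 * a * (2 * E.b₄) * (2 * E.b₆) = 4 * E.Δ := by
    have hb8 : 4 * E.b₈ = E.b₂ * E.b₆ - E.b₄ ^ 2 := E.b_relation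
    rw [WeierstrassCurve.Δ]
    rw [← ha] at hb8 ⊢
    linear_combination (4 * a ^ 2) * hb8
  have hc4 : E.c₄ = 4 * (a ^ 2 - 3 * (2 * E.b₄)) := by
    rw [WeierstrassCurve.c₄, ← ha]; ring
  have hsq8 : ((t : ℤ)) % 2 = 1 := by
    rcases Int.emod_two_eq_zero_or_one (t : ℤ) with h | h
    · exact absurd (htE ▸ Dvd.dvd.mul_left (dvd_pow (Int.dvd_of_emod_eq_zero h) two_ne_zero) _)
        hE.goodTwo
    · exact h
  have hDmod : (-(E.conductorLevel : ℤ)) % 8 = 5 := by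
    have h1 : ∃ z, E.Δ = 8 * z + 5 := by
      refine ⟨-2 * (m ^ 2 + E.a₂) ^ 2 * E.b₈ - E.b₄ ^ 3 - 54 * j ^ 2 - 27 * j - 4 +
        9 * (m ^ 2 + E.a₂) * i * E.b₆, ?_⟩
      rw [WeierstrassCurve.Δ, ← ha, hadef]
      conv_lhs => rw [hi]
      rw [hj, hi]
      ring
    obtain ⟨z, hz⟩ := h1
    obtain ⟨w, hw⟩ : ∃ w, ((t : ℤ)) ^ 2 = 8 * w + 1 := by
      obtain ⟨u, hu⟩ : ∃ u, (t : ℤ) = 2 * u + 1 := ⟨(t : ℤ) / 2, by omega⟩
      obtain ⟨v, hv⟩ := Int.even_mul_succ_self u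
      exact ⟨v, by rw [hu]; linear_combination 4 * hv⟩
    rw [hw, hz] at htE
    have e : -(E.conductorLevel : ℤ) = 8 * (z + (E.conductorLevel : ℤ) * w) + 5 := by
      linear_combination -htE
    omega
  let C : CubicData :=
    { a := a, b := 2 * E.b₄, c := 2 * E.b₆, D := -(E.conductorLevel : ℤ), s := t
      two_dvd_a := ⟨m ^ 2 + E.a₂, by rw [hadef]; ring⟩
      two_dvd_b := dvd_mul_right 2 _
      two_dvd_c := dvd_mul_right 2 _
      not_four_dvd_c := by omega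
      D_neg := neg_lt_zero.2 (by exact_mod_cast E.conductorLevel_pos)
      D_mod := hDmod
      D_squarefree := Int.squarefree_natAbs.1 (by simpa using E.squarefree_conductorLevel)
      disc_eq := by rw [hdisc, htE]; ring
      coprime := fun r hr _ _ hd h => by
        have hΔ : (r : ℤ) ∣ E.Δ := hd.trans (htE ▸ Dvd.intro (t : ℤ) (by ring))
        exact hE.semistable r hr hΔ (hc4 ▸ dvd_mul_of_dvd_right h 4)
      three := by
        by_contra hcon
        push Not at hcon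
        obtain ⟨h1, h2⟩ := hcon
        have hΔ : ((3 : ℕ) : ℤ) ∣ E.Δ := h2.trans (htE ▸ Dvd.intro (t : ℤ) (by ring))
        exact hE.semistable 3 Nat.prime_three hΔ (hc4 ▸ dvd_mul_of_dvd_right
          (dvd_sub (dvd_pow h1 two_ne_zero) (dvd_mul_right 3 _)) 4) }
  refine ⟨C, rfl, fun p hp hbad => ?_⟩
  have hp2 : p ≠ 2 := by
    rintro rfl
    exact hbad (dvd_mul_of_dvd_left (by
      rw [CubicData.bad]; exact ⟨3 * C.D * C.s * (C.a ^ 2 - 3 * C.b), by push_cast; ring⟩) _)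
  exact two_dvd_apOfModel_iff_root E ha rfl rfl hp hp2 fun h => hbad (dvd_mul_of_dvd_right h _)

end FLTA.LT2
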