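import Mathlib

/-!
# The cubic class character on binary forms: abstract properties

`val n B` is the character on the class of the form `(n, B, (B ^ 2 + N) / n)`.
-/

set_option autoImplicit false

namespace FLTA.LT2

/-- A cubic symbol of determinant `N`, defined on `n` prime to `bad`, which vanishes at the primes
satisfying `R` exactly. -/
structure CubicSymbol (N : ℕ) (R : ℕ → Prop) where
  bad : ℤ
  six_dvd : 6 ∣ bad
  det_dvd : (N : ℤ) ∣ bad
  bad_ne : bad ≠ 0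
  val : ℕ → ℤ → ZMod 3
  congr : ∀ (n : ℕ) (B B' : ℤ), (n : ℤ) ∣ B - B' → val n B = val n B'
  mul : ∀ (n n' : ℕ) (B : ℤ), n ≠ 0 → n' ≠ 0 → val (n * n') B = val n B + val n' B
  neg : ∀ (n : ℕ) (B : ℤ), IsCoprime (n : ℤ) bad → (n : ℤ) ∣ B ^ 2 + N → val n (-B) = -val n B
  /-- Whether the law needs `3 ∤ Y` (otherwise it needs `3 ∤ X`). -/
  onY : Bool
  /-- Triviality on the principal class. -/
  law : ∀ (m : ℕ) (X Y B : ℤ), (m : ℤ) = X ^ 2 + N * Y ^ 2 → IsCoprime X Y →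
    IsCoprime (m : ℤ) bad → (if onY then ¬ 3 ∣ Y else ¬ 3 ∣ X) → (m : ℤ) ∣ B * Y - X →
    val m B = 0
  root : ∀ l : ℕ, l.Prime → IsCoprime (l : ℤ) bad →
    (R l ↔ ∀ B : ℤ, (l : ℤ) ∣ B ^ 2 + N → val l B = 0)

end FLTA.LT2
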