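import Fermat.Agent.LT2.ThetaCubicRoot
import Fermat.Agent.LT2.ThetaSymbolDefs

/-!
# The cubic class character of a companion's cubic field

`val n B = sym n (u + 3 s B √-3)` is a cubic symbol of determinant `|D|`.
-/

set_option autoImplicit false
set_option maxHeartbeats 400000

namespace FLTA.LT2

open QuadraticAlgebra

theorem symP_congr' {q : ℕ} {z z' : Eis} (hre : (q : ℤ) ∣ z.re - z'.re)
    (him : (q : ℤ) ∣ z.im - z'.im) : symP q z = symP q z' := by
  have h : ∀ (_ : Fact q.Prime) (w : Clo q) (hw : w ^ 2 + w + 1 = 0),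
      symVal q w hw z = symVal q w hw z' := by
    intro hq w hw
    have e1 : (z.re : Clo q) = z'.re := by
      rw [← sub_eq_zero, ← Int.cast_sub, CharP.intCast_eq_zero_iff (Clo q) q]; exact hre
    have e2 : (z.im : Clo q) = z'.im := by
      rw [← sub_eq_zero, ← Int.cast_sub, CharP.intCast_eq_zero_iff (Clo q) q]; exact him
    simp [symVal, eisHom_apply, e1, e2]
  have hP : (fun k : ZMod 3 => ∃ _ : Fact q.Prime,
      ∀ (w : Clo q) (hw : w ^ 2 + w + 1 = 0), symVal q w hw z = w ^ k.val) =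
      (fun k : ZMod 3 => ∃ _ : Fact q.Prime,
      ∀ (w : Clo q) (hw : w ^ 2 + w + 1 = 0), symVal q w hw z' = w ^ k.val) := by
    funext k
    refine propext (exists_congr fun hq => forall_congr' fun w => forall_congr' fun hw => ?_)
    rw [h hq w hw]
  have := congrArg (fun P : ZMod 3 → Prop =>
    @dite (ZMod 3) (∃ k, P k) (Classical.propDecidable _) (fun h => h.choose) fun _ => 0) hP
  unfold symP
  convert this

theorem sym_congr {n : ℕ} {z z' : Eis} (hre : (n : ℤ) ∣ z.re - z'.re)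
    (him : (n : ℤ) ∣ z.im - z'.im) : sym n z = sym n z' :=
  congrArg List.sum (List.map_congr_left fun q hq => by
    have hd := Int.natCast_dvd_natCast.mpr (Nat.dvd_of_mem_primeFactorsList hq)
    exact symP_congr' (hd.trans hre) (hd.trans him))

theorem symP_star {q : ℕ} [Fact q.Prime] (h3 : q ≠ 3) {z : Eis} (hz : ¬ (q : ℤ) ∣ z.norm) :
    symP q (star z) = -symP q z := by
  have hz' : ¬ (q : ℤ) ∣ (star z).norm := by rwa [QuadraticAlgebra.norm_star]
  rw [eq_neg_iff_add_eq_zero, ← symP_mul h3 hz' hz, mul_comm,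
    ← QuadraticAlgebra.algebraMap_norm_eq_mul_star,
    show algebraMap ℤ Eis z.norm = ((z.norm : ℤ) : Eis) by rfl]
  exact symP_intCast h3 hz

namespace CubicData

variable (C : CubicData)

theorem odd_u : Odd C.u := by
  have hu := C.two_mul_u
  obtain ⟨a', ha⟩ := C.two_dvd_a
  obtain ⟨b', hb⟩ := C.two_dvd_b
  obtain ⟨c', hc⟩ := C.two_dvd_c
  have hc' : ¬ 2 ∣ c' := fun ⟨e, he⟩ => C.not_four_dvd_c ⟨e, by rw [hc, he]; ring⟩
  have hu' : C.u = -8 * a' ^ 3 + 18 * a' * b' - 27 * c' := by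
    rw [ha, hb, hc] at hu; linarith
  rw [← Int.not_even_iff_odd, even_iff_two_dvd, hu']
  intro h
  apply hc'
  have h' : (2 : ℤ) ∣ 27 * c' := by
    rw [show 27 * c' = -8 * a' ^ 3 + 18 * a' * b' - (-8 * a' ^ 3 + 18 * a' * b' - 27 * c') by ring]
    exact dvd_sub (dvd_add (dvd_mul_of_dvd_left (by norm_num) _)
      (dvd_mul_of_dvd_left (dvd_mul_of_dvd_left (by norm_num) _) _)) h
  exact (Int.prime_two.dvd_or_dvd h').resolve_left (by norm_num)

theorem two_dvd_A : 2 ∣ C.a ^ 2 - 3 * C.b :=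
  dvd_sub (dvd_pow C.two_dvd_a two_ne_zero) (dvd_mul_of_dvd_right C.two_dvd_b 3)

theorem odd_s : ¬ 2 ∣ C.s := fun h => by
  have h1 : (2 : ℤ) ∣ C.u ^ 2 := by
    rw [show C.u ^ 2 = (C.a ^ 2 - 3 * C.b) ^ 3 - 27 * C.D * C.s ^ 2 by rw [← C.u_sq_add]; ring]
    exact dvd_sub (dvd_pow C.two_dvd_A three_ne_zero) (dvd_mul_of_dvd_right (dvd_pow h two_ne_zero) _)
  exact Int.not_even_iff_odd.mpr C.odd_u (even_iff_two_dvd.mpr (Int.prime_two.dvd_of_dvd_pow h1))

theorem three_cases :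
    (¬ 3 ∣ C.a ∧ ¬ 3 ∣ C.u) ∨ (3 ∣ C.a ∧ ¬ 3 ∣ C.D * C.s ∧ 27 ∣ C.u) := by
  by_cases ha : (3 : ℤ) ∣ C.a
  · refine Or.inr ⟨ha, C.three.resolve_left (not_not.mpr ha), ?_⟩
    obtain ⟨e, he⟩ := ha
    have hu := C.two_mul_u
    rw [he] at hu
    have h : (27 : ℤ) ∣ 2 * C.u := ⟨-2 * e ^ 3 + e * C.b - C.c, by rw [hu]; ring⟩
    exact (Int.isCoprime_iff_nat_coprime.mpr (by norm_num)).dvd_of_dvd_mul_left h
  · refine Or.inl ⟨ha, fun h => ha (Int.prime_three.dvd_of_dvd_pow (n := 3) ?_)⟩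
    have hu := C.two_mul_u
    have h2 : (3 : ℤ) ∣ 2 * C.a ^ 3 := by
      rw [show 2 * C.a ^ 3 = 9 * C.a * C.b - 27 * C.c - 2 * C.u by linarith]
      exact dvd_sub (dvd_sub (dvd_mul_of_dvd_left (dvd_mul_of_dvd_left (by norm_num) _) _)
        (dvd_mul_of_dvd_left (by norm_num) _)) (dvd_mul_of_dvd_right h _)
    exact (Int.prime_three.dvd_or_dvd h2).resolve_left (by norm_num)

theorem bad_ne_zero : C.bad ≠ 0 := by
  have hs : C.s ≠ 0 := fun h => C.odd_s (h ▸ dvd_zero 2)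
  have hA : C.a ^ 2 - 3 * C.b ≠ 0 := by
    intro h
    have ha : (3 : ℤ) ∣ C.a := Int.prime_three.dvd_of_dvd_pow (n := 2) ⟨C.b, by linarith⟩
    obtain ⟨-, h3, e, he⟩ := C.three_cases.resolve_left fun hh => hh.1 ha
    have h1 := C.u_sq_add
    rw [h, he] at h1
    have h2 : (3 : ℤ) ∣ C.D * C.s ^ 2 := ⟨-(9 * e ^ 2), by linarith⟩
    rcases Int.prime_three.dvd_or_dvd h2 with h' | h'
    · exact h3 (dvd_mul_of_dvd_left h' _)
    · exact h3 (dvd_mul_of_dvd_right (Int.prime_three.dvd_of_dvd_pow h') _)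
  exact mul_ne_zero (mul_ne_zero (mul_ne_zero (by norm_num) C.D_neg.ne) hs) hA

theorem not_dvd_norm_gam' {q : ℕ} (hq : q.Prime) {n : ℕ} (hqn : q ∣ n)
    (hn : IsCoprime (n : ℤ) C.bad) {B : ℤ} (hB : (n : ℤ) ∣ B ^ 2 + (C.D.natAbs : ℤ)) :
    ¬ (q : ℤ) ∣ (C.gam B).norm := by
  have hq' := Int.natCast_dvd_natCast.mpr hqn
  refine C.not_dvd_norm_gam hq (not_dvd_of_isCoprime hn hq hq') (hq'.trans ?_)
  rwa [Int.natCast_natAbs, abs_of_neg C.D_neg, ← sub_eq_add_neg] at hB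

theorem exists_case (m : ℕ) (X Y B : ℤ) (hm : (m : ℤ) = X ^ 2 + (C.D.natAbs : ℤ) * Y ^ 2)
    (hXY : IsCoprime X Y) (hbad : IsCoprime (m : ℤ) C.bad)
    (h3 : if decide (¬ 3 ∣ C.a) then ¬ 3 ∣ Y else ¬ 3 ∣ X) (hB : (m : ℤ) ∣ B * Y - X) :
    sym m (C.gam B) = 0 := by
  rw [Int.natCast_natAbs, abs_of_neg C.D_neg] at hm
  have hb : ∀ {t : ℤ}, t ∣ C.bad → IsCoprime (m : ℤ) t := fun ht => hbad.of_isCoprime_of_dvd_right ht
  have hD : IsCoprime (m : ℤ) C.D :=
    hb (dvd_mul_of_dvd_left (dvd_mul_of_dvd_left (dvd_mul_left C.D 6) _) _)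
  have hA : IsCoprime (m : ℤ) (C.a ^ 2 - 3 * C.b) := hb (dvd_mul_left _ _)
  have h6 : IsCoprime (m : ℤ) 6 :=
    hb (dvd_mul_of_dvd_left (dvd_mul_of_dvd_left (dvd_mul_right 6 C.D) _) _)
  have hm3 : ¬ (3 : ℤ) ∣ m := fun h => by
    have := Int.isUnit_iff.mp (h6.isUnit_of_dvd' h (by norm_num))
    norm_num at this
  have hm2 : ¬ (2 : ℤ) ∣ m := fun h => by
    have := Int.isUnit_iff.mp (h6.isUnit_of_dvd' h (by norm_num))
    norm_num at this
  have hodd : ¬ (2 : ℤ) ∣ X + Y := by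
    intro h
    apply hm2
    obtain ⟨f, hf⟩ : Odd C.D := Int.odd_iff.mpr (by have := C.D_mod; omega)
    obtain ⟨e, he⟩ := h
    obtain rfl : X = 2 * e - Y := by linarith
    refine ⟨2 * e ^ 2 - 2 * e * Y - f * Y ^ 2, ?_⟩
    rw [hm, hf]; ring
  have hYm : IsCoprime Y (m : ℤ) := by
    rw [hm, show X ^ 2 + -C.D * Y ^ 2 = X * X + Y * (-C.D * Y) by ring]
    exact (hXY.symm.mul_right hXY.symm).add_mul_left_right _
  obtain ⟨hu1, hs1⟩ : Odd C.u ∧ ¬ 2 ∣ C.s := ⟨C.odd_u, C.odd_s⟩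
  have hok : SymOk m (C.gam B) := by
    refine ⟨fun h => hm3 (Int.natCast_dvd_natCast.mpr h), fun q hq hqm => ?_⟩
    refine C.not_dvd_norm_gam' hq hqm hbad ?_
    rw [Int.natCast_natAbs, abs_of_neg C.D_neg]
    refine hYm.symm.dvd_of_dvd_mul_right (z := Y) ?_
    refine hYm.symm.dvd_of_dvd_mul_right (z := Y) ?_
    rw [show (B ^ 2 + -C.D) * Y * Y =
      (B * Y - X) * (B * Y + X) + (m : ℤ) by rw [hm]; ring]
    exact dvd_add (dvd_mul_of_dvd_left hB _) dvd_rfl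
  have hY : ∀ q : ℕ, q.Prime → q ∣ m → ¬ (q : ℤ) ∣ Y := fun q hq hqm h =>
    not_dvd_of_isCoprime hYm hq h (Int.natCast_dvd_natCast.mpr hqm)
  have hYok : SymOk m (Y : Eis) := ⟨hok.1, fun q hq hqm h => by
    rw [QuadraticAlgebra.norm_intCast] at h
    exact hY q hq hqm ((Nat.prime_iff_prime_int.mp hq).dvd_of_dvd_pow h)⟩
  have key : sym m (C.gam B) = sym m (eisSqrt (Y * C.u) (3 * (X * C.s))) := by
    have h1 : sym m (eisSqrt (Y * C.u) (3 * (X * C.s))) = sym m ((Y : Eis) * C.gam B) := by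
      obtain ⟨e, he⟩ := hB
      refine sym_congr ⟨-(3 * C.s * e), ?_⟩ ⟨-(6 * C.s * e), ?_⟩
      · simp [gam, eisSqrt]
        linear_combination (-3 * C.s) * he
      · simp [gam, eisSqrt]
        linear_combination (-6 * C.s) * he
    rw [h1, sym_mul hYok hok, sym_eq_zero_of (z := (Y : Eis)) fun q hq hqm => by
      have := Fact.mk hq
      exact symP_intCast (fun h => hok.1 (h ▸ hqm)) (hY q hq hqm), zero_add]
  have hcopA : ∀ r : ℕ, r.Prime → r ≠ 3 → (r : ℤ) ∣ C.s → ¬ (r : ℤ) ∣ C.a ^ 2 - 3 * C.b :=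
    fun r hr h3' hrs => C.coprime r hr (fun h2 => hs1 (by rw [h2] at hrs; exact_mod_cast hrs)) h3' (dvd_mul_of_dvd_right hrs _)
  rw [key]
  rcases C.three_cases with ⟨ha, hu⟩ | ⟨ha, hDs, hu⟩
  · rw [decide_eq_true (show ¬ 3 ∣ C.a from ha), if_pos rfl] at h3
    have hUV : IsCoprime C.u C.s := isCoprime_of_forall_prime fun r hr h1 h2 => by
      have hr3 : r ≠ 3 := fun h => hu (by rw [h] at h1; exact_mod_cast h1)
      refine hcopA r hr hr3 h2 ((Nat.prime_iff_prime_int.mp hr).dvd_of_dvd_pow (n := 3) ?_)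
      rw [← C.u_sq_add]
      exact dvd_add (dvd_pow h1 two_ne_zero) (dvd_mul_of_dvd_right (dvd_pow h2 two_ne_zero) _)
    have hn : (1 : ℤ) * X ^ 2 - C.D * Y ^ 2 = m := by rw [hm]; ring
    have h := sym_binary_form_eq_zero (X := Y) (Y := X) (U := C.u) (V := C.s)
      (A := C.a ^ 2 - 3 * C.b) (p := 1) (q := C.D) (by rw [one_mul]; exact C.u_sq_add) h3 hu
      hXY.symm hUV (by rw [hn]; exact hm3) (by rw [hn]; exact hA) (by rw [hn]; exact isCoprime_one_right)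
      (fun h => hs1 (h ▸ dvd_zero 2)) (fun h => hodd ?_)
    · rw [hn, Int.natAbs_natCast] at h
      exact h
    · obtain ⟨e, he⟩ := hu1
      obtain ⟨f, hf⟩ : Odd C.s := Int.not_even_iff_odd.mp fun hh => hs1 (even_iff_two_dvd.mp hh)
      obtain ⟨g, hg⟩ := h
      rw [he, hf] at hg
      exact ⟨g - Y * e - X * f, by linear_combination hg⟩
  · rw [decide_eq_false (show ¬ ¬ 3 ∣ C.a from not_not.mpr ha), if_neg (by simp)] at h3
    obtain ⟨w, hw⟩ := hu
    have hA3 : (3 : ℤ) ∣ C.a ^ 2 - 3 * C.b :=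
      dvd_sub (dvd_pow ha two_ne_zero) (dvd_mul_right 3 _)
    obtain ⟨A₁, hA₁⟩ := hA3
    have hrel : -C.D * C.s ^ 2 + 27 * -1 * w ^ 2 = (-A₁) ^ 3 := by
      have := C.u_sq_add
      rw [hw, hA₁] at this
      linarith
    have hs3 : ¬ 3 ∣ C.s := fun h => hDs (dvd_mul_of_dvd_right h _)
    have hUV : IsCoprime C.s w := isCoprime_of_forall_prime fun r hr h1 h2 => by
      have hr3 : r ≠ 3 := fun h => hs3 (by rw [h] at h1; exact_mod_cast h1)
      refine hcopA r hr hr3 h1 (hA₁ ▸ dvd_mul_of_dvd_right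
        (dvd_neg.mp ((Nat.prime_iff_prime_int.mp hr).dvd_of_dvd_pow (n := 3) ?_)) 3)
      rw [← hrel]
      exact dvd_add (dvd_mul_of_dvd_right (dvd_pow h1 two_ne_zero) _)
        (dvd_mul_of_dvd_right (dvd_pow h2 two_ne_zero) _)
    have hn : -C.D * (-Y) ^ 2 - (-1) * X ^ 2 = m := by rw [hm]; ring
    have hwodd : Odd w := by
      rcases Int.even_or_odd w with he | ho
      · exfalso
        exact Int.not_even_iff_odd.mpr hu1 (hw ▸ he.mul_left 27)
      · exact ho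
    have h := sym_binary_form_eq_zero (X := X) (Y := -Y) (U := C.s) (V := w)
      (A := -A₁) (p := -C.D) (q := -1) hrel h3 hs3 hXY.neg_right hUV
      (by rw [hn]; exact hm3)
      (by rw [hn]; exact (hA.of_isCoprime_of_dvd_right (hA₁ ▸ dvd_mul_left A₁ 3)).neg_right)
      (by rw [hn]; exact hD.neg_right) (fun h => Int.not_even_iff_odd.mpr hwodd (h ▸ Even.zero))
      (fun h => hodd ?_)
    · rw [hn, Int.natAbs_natCast] at h
      -- `Y u + 3 √-3 X s = 3 √-3 (X s - 3 √-3 Y w)`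
      rw [show eisSqrt (Y * C.u) (3 * (X * C.s)) =
        eisSqrt 0 3 * eisSqrt (X * C.s) (3 * (-Y * w)) by
          ext <;> simp [eisSqrt, hw] <;> ring]
      have h03 : SymOk m (eisSqrt 0 3) := ⟨hok.1, fun q hq hqm hd => by
        rw [norm_eisSqrt] at hd
        norm_num at hd
        have h27 : q ∣ 3 ^ 3 := by exact_mod_cast hd
        exact hok.1 (((Nat.prime_dvd_prime_iff_eq hq Nat.prime_three).mp
          (hq.dvd_of_dvd_pow h27)) ▸ hqm)⟩
      have hrest : SymOk m (eisSqrt (X * C.s) (3 * (-Y * w))) := ⟨hok.1, fun q hq hqm hd => by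
        rw [norm_eisSqrt] at hd
        have hp := Nat.prime_iff_prime_int.mp hq
        have hqm' := Int.natCast_dvd_natCast.mpr hqm
        have hq' : (q : ℤ) ∣ Y ^ 2 * A₁ ^ 3 := by
          rw [show Y ^ 2 * A₁ ^ 3 = ((X * C.s) ^ 2 + 3 * (3 * (-Y * w)) ^ 2) -
            C.s ^ 2 * (m : ℤ) by
              rw [hm, show A₁ ^ 3 = -(-A₁) ^ 3 by ring, ← hrel]; ring]
          exact dvd_sub hd (dvd_mul_of_dvd_right hqm' _)
        rcases hp.dvd_or_dvd hq' with h' | h'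
        · exact hY q hq hqm (hp.dvd_of_dvd_pow h')
        · exact not_dvd_of_isCoprime hA hq hqm' (hA₁ ▸ dvd_mul_of_dvd_right (hp.dvd_of_dvd_pow h') 3)⟩
      rw [sym_mul h03 hrest, h, add_zero]
      exact sym_eq_zero_of fun q hq hqm => by
        have := Fact.mk hq
        exact symP_of_star_eq_neg (fun h => hok.1 (h ▸ hqm)) (h03.2 q hq hqm)
          (by ext <;> simp [eisSqrt])
    · obtain ⟨e, he⟩ := hwodd
      obtain ⟨f, hf⟩ : Odd C.s := Int.not_even_iff_odd.mp fun hh => hs1 (even_iff_two_dvd.mp hh)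
      obtain ⟨g, hg⟩ := h
      rw [he, hf] at hg
      exact ⟨g - X * f + Y * e + Y, by linear_combination hg⟩

/-- The cubic class character. -/
theorem nonempty_cubicSymbol :
    Nonempty (CubicSymbol C.D.natAbs (fun p => ∃ x : ZMod p, C.eval x = 0)) := by
  refine ⟨⟨C.bad, ?_, ?_, C.bad_ne_zero, fun n B => sym n (C.gam B), ?_, ?_, ?_,
    decide (¬ 3 ∣ C.a), C.exists_case, ?_⟩⟩
  · exact dvd_mul_of_dvd_left (dvd_mul_of_dvd_left (dvd_mul_right 6 C.D) _) _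
  · exact dvd_mul_of_dvd_left (dvd_mul_of_dvd_left
      (dvd_mul_of_dvd_right (Int.natAbs_dvd.mpr dvd_rfl) 6) _) _
  · intro n B B' hBB
    obtain ⟨e, he⟩ := hBB
    refine sym_congr ⟨3 * C.s * e, ?_⟩ ⟨6 * C.s * e, ?_⟩
    · simp [gam, eisSqrt]; linear_combination (3 * C.s) * he
    · simp [gam, eisSqrt]; linear_combination (6 * C.s) * he
  · exact fun n n' B hn hn' => sym_mul_left hn hn' _
  · intro n B hn hB
    rw [← C.star_gam, sym, sym, eq_neg_iff_add_eq_zero, ← List.sum_map_add]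
    refine List.sum_eq_zero fun x hx => ?_
    obtain ⟨q, hq, rfl⟩ := List.mem_map.mp hx
    have hqp := Nat.prime_of_mem_primeFactorsList hq
    have hqn := Nat.dvd_of_mem_primeFactorsList hq
    have := Fact.mk hqp
    have h3 : q ≠ 3 := fun h => not_dvd_of_isCoprime hn hqp (Int.natCast_dvd_natCast.mpr hqn)
      (by rw [h]; exact dvd_mul_of_dvd_left (dvd_mul_of_dvd_left
        (dvd_mul_of_dvd_left (show ((3 : ℕ) : ℤ) ∣ 6 by norm_num) _) _) _)
    rw [symP_star h3 (C.not_dvd_norm_gam' hqp hqn hn hB), neg_add_cancel]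
  · intro l hl hbad
    have := Fact.mk hl
    have hb : ¬ (l : ℤ) ∣ C.bad := not_dvd_of_isCoprime hbad hl dvd_rfl
    have hN : ∀ B : ℤ, (l : ℤ) ∣ B ^ 2 + (C.D.natAbs : ℤ) ↔ (l : ℤ) ∣ B ^ 2 - C.D := fun B => by
      rw [Int.natCast_natAbs, abs_of_neg C.D_neg, sub_eq_add_neg]
    constructor
    · intro hroot B hB
      rw [sym_prime hl]
      exact (C.exists_root_iff_symP hb ((hN B).mp hB)).mp hroot
    · intro hall
      by_cases hsq : IsSquare (C.D : ZMod l)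
      · obtain ⟨r, hr⟩ := hsq
        obtain ⟨r', rfl⟩ := ZMod.intCast_surjective r
        have hr' : (l : ℤ) ∣ r' ^ 2 - C.D := by
          rw [← ZMod.intCast_zmod_eq_zero_iff_dvd]
          push_cast
          rw [hr, sq, sub_self]
        have h0 := hall r' ((hN r').mpr hr')
        rw [sym_prime hl] at h0
        exact (C.exists_root_iff_symP hb hr').mpr h0
      · exact C.exists_root_of_not_isSquare hb hsq

end CubicData

end FLTA.LT2
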