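import Fermat.Agent.Curves.BasicOrd
import Mathlib.GroupTheory.GroupAction.Quotient

/-!
# Norms for a list of commuting involutions

`lnorm ws` is the product of the `1 + w`, `lnormMul ws` its multiplicative version on a field.
-/

set_option autoImplicit false

noncomputable section

open AlgebraicCurve
open scoped Pointwise

namespace FLTA.LT2

/-- A list of commuting involutions. -/
structure InvolList {G : Type*} [Group G] (ws : List G) : Prop where
  comm : ∀ v ∈ ws, ∀ w ∈ ws, v * w = w * v
  sq : ∀ w ∈ ws, w * w = 1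

theorem InvolList.tail {G : Type*} [Group G] {w : G} {ws : List G} (h : InvolList (w :: ws)) :
    InvolList ws :=
  ⟨fun v hv u hu => h.comm v (List.mem_cons_of_mem _ hv) u (List.mem_cons_of_mem _ hu),
    fun v hv => h.sq v (List.mem_cons_of_mem _ hv)⟩

section Additive

variable {G : Type*} [Group G] {M : Type*} [AddCommGroup M] [DistribMulAction G M]

/-- The product of the `1 + w`. -/
def lnorm : List G → M → M
  | [], x => x
  | w :: ws, x => lnorm ws x + w • lnorm ws x

@[simp] theorem lnorm_nil (x : M) : lnorm ([] : List G) x = x := rfl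

theorem lnorm_cons (w : G) (ws : List G) (x : M) :
    lnorm (w :: ws) x = lnorm ws x + w • lnorm ws x := rfl

theorem lnorm_add (ws : List G) (x y : M) : lnorm ws (x + y) = lnorm ws x + lnorm ws y := by
  induction ws with
  | nil => rfl
  | cons w ws ih => simp only [lnorm_cons, ih, smul_add]; abel

/-- `lnorm` as an additive map. -/
def lnormHom (ws : List G) : M →+ M := AddMonoidHom.mk' (lnorm ws) (lnorm_add ws)

@[simp] theorem lnormHom_apply (ws : List G) (x : M) : lnormHom ws x = lnorm ws x := rfl

theorem lnorm_sub (ws : List G) (x y : M) : lnorm ws (x - y) = lnorm ws x - lnorm ws y :=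
  map_sub (lnormHom ws) x y

theorem lnorm_zero (ws : List G) : lnorm ws (0 : M) = 0 :=
  map_zero (lnormHom ws)

/-- Naturality. -/
theorem map_lnorm {N : Type*} [AddCommGroup N] [DistribMulAction G N] (φ : M →+ N) (ws : List G)
    (h : ∀ w ∈ ws, ∀ x, φ (w • x) = w • φ x) (x : M) : φ (lnorm ws x) = lnorm ws (φ x) := by
  induction ws with
  | nil => rfl
  | cons w ws ih =>
    have ih' := ih fun v hv => h v (List.mem_cons_of_mem _ hv)
    rw [lnorm_cons, lnorm_cons, map_add, h w List.mem_cons_self, ih']

theorem smul_lnorm_comm (g : G) (ws : List G) (h : ∀ w ∈ ws, g * w = w * g) (x : M) :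
    g • lnorm ws x = lnorm ws (g • x) := by
  induction ws with
  | nil => rfl
  | cons w ws ih =>
    rw [lnorm_cons, lnorm_cons, smul_add, smul_smul, h w List.mem_cons_self, mul_smul,
      ih fun v hv => h v (List.mem_cons_of_mem _ hv)]

/-- Norms are invariant. -/
theorem smul_lnorm {ws : List G} (hws : InvolList ws) {w : G} (hw : w ∈ ws) (x : M) :
    w • lnorm ws x = lnorm ws x := by
  induction ws generalizing x with
  | nil => simp at hw
  | cons v ws ih =>
    rcases List.mem_cons.1 hw with rfl | hw'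
    · rw [lnorm_cons, smul_add, smul_smul, hws.sq w hw, one_smul, add_comm]
    · rw [lnorm_cons, smul_add, smul_smul, hws.comm w hw v List.mem_cons_self, mul_smul,
        ih hws.tail hw']

variable (M) in
/-- The span of the `y - w • y`. -/
def augSpan (ws : List G) : AddSubgroup M :=
  AddSubgroup.closure {y | ∃ w ∈ ws, ∃ A : M, y = A - w • A}

theorem sub_smul_mem_augSpan {ws : List G} {w : G} (hw : w ∈ ws) (A : M) :
    A - w • A ∈ augSpan M ws :=
  AddSubgroup.subset_closure ⟨w, hw, A, rfl⟩

theorem lnorm_eq_zero_of_mem_augSpan {ws : List G} (hws : InvolList ws) {y : M}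
    (hy : y ∈ augSpan M ws) : lnorm ws y = 0 := by
  refine (show augSpan M ws ≤ (lnormHom ws).ker from
    (AddSubgroup.closure_le _).mpr ?_) hy
  rintro _ ⟨w, hw, A, rfl⟩
  rw [SetLike.mem_coe, AddMonoidHom.mem_ker, lnormHom_apply, lnorm_sub,
    ← smul_lnorm_comm w ws (fun v hv => hws.comm w hw v hv), smul_lnorm hws hw, sub_self]

/-- In a 2-divisible group every element of the span is twice another one. -/
theorem exists_two_nsmul_mem_augSpan (hdiv : ∀ y : M, ∃ z : M, 2 • z = y) {ws : List G} {y : M}
    (hy : y ∈ augSpan M ws) : ∃ z ∈ augSpan M ws, 2 • z = y := by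
  induction hy using AddSubgroup.closure_induction with
  | mem y hy =>
    obtain ⟨w, hw, A, rfl⟩ := hy
    obtain ⟨B, rfl⟩ := hdiv A
    exact ⟨B - w • B, sub_smul_mem_augSpan hw B, by
      rw [nsmul_sub, two_nsmul (w • B), ← smul_add, ← two_nsmul]⟩
  | zero => exact ⟨0, zero_mem _, nsmul_zero _⟩
  | add a b _ _ ha hb =>
    obtain ⟨z, hz, rfl⟩ := ha
    obtain ⟨z', hz', rfl⟩ := hb
    exact ⟨z + z', add_mem hz hz', nsmul_add _ _ _⟩
  | neg a _ ha =>
    obtain ⟨z, hz, rfl⟩ := ha
    exact ⟨-z, neg_mem hz, (neg_nsmul _ _)⟩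

end Additive

section Multiplicative

variable {K F : Type*} [Field K] [Field F] [Algebra K F]

/-- The product of the conjugates. -/
def lnormMul : List (F ≃ₐ[K] F) → F → F
  | [], x => x
  | w :: ws, x => lnormMul ws x * w (lnormMul ws x)

theorem lnormMul_cons (w : F ≃ₐ[K] F) (ws : List (F ≃ₐ[K] F)) (x : F) :
    lnormMul (w :: ws) x = lnormMul ws x * w (lnormMul ws x) := rfl

theorem lnormMul_ne_zero (ws : List (F ≃ₐ[K] F)) {x : F} (hx : x ≠ 0) : lnormMul ws x ≠ 0 := by
  induction ws with
  | nil => exact hx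
  | cons w ws ih => rw [lnormMul_cons]; exact mul_ne_zero ih ((map_ne_zero _).mpr ih)

/-- Invariance under all of the list. -/
def FixedBy (ws : List (F ≃ₐ[K] F)) (x : F) : Prop := ∀ w ∈ ws, w x = x

/-- At every step an element invariant under the list is a norm from the elements invariant
under its tail. -/
def NormSurj : List (F ≃ₐ[K] F) → Prop
  | [] => True
  | w :: ws => (∀ f : F, f ≠ 0 → FixedBy (w :: ws) f → ∃ g, FixedBy ws g ∧ g * w g = f) ∧
      NormSurj ws

/-- At every step some element invariant under the tail is negated by the head. -/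
def Separated : List (F ≃ₐ[K] F) → Prop
  | [] => True
  | w :: ws => (∃ h : F, h ≠ 0 ∧ w h = -h ∧ FixedBy ws h) ∧ Separated ws

theorem exists_lnormMul_eq {ws : List (F ≃ₐ[K] F)} (hn : NormSurj ws) {f : F} (hf : f ≠ 0)
    (hfix : FixedBy ws f) : ∃ g, g ≠ 0 ∧ lnormMul ws g = f := by
  induction ws generalizing f with
  | nil => exact ⟨f, hf, rfl⟩
  | cons w ws ih =>
    obtain ⟨g, hg, hgf⟩ := hn.1 f hf hfix
    obtain ⟨g', hg', hg'g⟩ := ih hn.2 (left_ne_zero_of_mul (hgf.symm ▸ hf)) hg
    exact ⟨g', hg', by rw [lnormMul_cons, hg'g, hgf]⟩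

/-- Hilbert 90 for a list of commuting involutions. -/
theorem exists_coboundary {ws : List (F ≃ₐ[K] F)} (hws : InvolList ws) (hsep : Separated ws)
    (φ : (F ≃ₐ[K] F) → F) (h0 : ∀ w ∈ ws, φ w ≠ 0) (hinv : ∀ w ∈ ws, w (φ w) * φ w = 1)
    (hcomp : ∀ v ∈ ws, ∀ w ∈ ws, φ w * w (φ v) = φ v * v (φ w)) :
    ∃ g : F, g ≠ 0 ∧ ∀ w ∈ ws, φ w * w g = g := by
  induction ws with
  | nil => exact ⟨1, one_ne_zero, by simp⟩
  | cons w ws ih =>
    have hw : w ∈ w :: ws := List.mem_cons_self
    obtain ⟨g, hg, hgv⟩ := ih hws.tail hsep.2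
      (fun v hv => h0 v (List.mem_cons_of_mem _ hv))
      (fun v hv => hinv v (List.mem_cons_of_mem _ hv))
      fun v hv u hu => hcomp v (List.mem_cons_of_mem _ hv) u (List.mem_cons_of_mem _ hu)
    have hwg : w g ≠ 0 := (map_ne_zero _).mpr hg
    set φ' := φ w * w g / g with hφ'
    have hww : ∀ z, w (w z) = z := fun z => by
      rw [← AlgEquiv.mul_apply, hws.sq w hw, AlgEquiv.one_apply]
    have hinv' : w φ' * φ' = 1 := by
      rw [hφ', map_div₀, map_mul, hww]
      have := hinv w hw
      field_simp
      linear_combination this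
    have hfix' : ∀ v ∈ ws, v φ' = φ' := fun v hv => by
      have hv' := List.mem_cons_of_mem w hv
      have hvg := hgv v hv
      have hcomm : v (w g) = w (v g) := by
        rw [← AlgEquiv.mul_apply, hws.comm v hv' w hw, AlgEquiv.mul_apply]
      have hv0 := h0 v hv'
      have hvg' : v g = g / φ v := by rw [eq_div_iff hv0, mul_comm, hvg]
      have hwv : w (φ v) ≠ 0 := (map_ne_zero _).mpr hv0
      rw [hφ', map_div₀, map_mul, hcomm, hvg', map_div₀]
      have := hcomp v hv' w hw
      field_simp
      linear_combination -this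
    obtain ⟨g', hg', hwg', hvg'⟩ : ∃ g' : F, g' ≠ 0 ∧ φ' * w g' = g' ∧ FixedBy ws g' := by
      by_cases hneg : 1 + φ' = 0
      · obtain ⟨⟨h, hh, hwh, hhv⟩, -⟩ := hsep
        exact ⟨h, hh, by rw [hwh, show φ' = -1 by linear_combination hneg]; ring, hhv⟩
      · refine ⟨1 + φ', hneg, ?_, fun v hv => by rw [map_add, map_one, hfix' v hv]⟩
        rw [map_add, map_one]
        linear_combination hinv'
    refine ⟨g * g', mul_ne_zero hg hg', fun v hv => ?_⟩
    rcases List.mem_cons.1 hv with rfl | hv
    · have e : φ' * g = φ v * v g := by rw [hφ', div_mul_cancel₀ _ hg]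
      rw [map_mul]
      linear_combination (g) * hwg' - (v g') * e
    · rw [map_mul, hvg' v hv, ← mul_assoc, hgv v hv]

end Multiplicative

section Divisors

variable {K F : Type*} [Field K] [Field F] [Algebra K F]

/-- The divisor of a norm is the norm of the divisor. -/
theorem lnorm_apply_eq_ord (ws : List (F ≃ₐ[K] F)) {D : Divisor K F} {f : F} (hf : f ≠ 0)
    (hD : ∀ v, D v = v.ord f) : ∀ v, lnorm ws D v = v.ord (lnormMul ws f) := by
  induction ws with
  | nil => exact hD
  | cons w ws ih =>
    intro v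
    have hne := lnormMul_ne_zero ws hf
    have h := Place.ord_smul w (w⁻¹ • v) (lnormMul ws f)
    rw [smul_inv_smul] at h
    rw [lnorm_cons, lnormMul_cons, v.ord_mul hne ((map_ne_zero _).mpr hne), Finsupp.add_apply, ih,
      Divisor.smul_apply, ih, h]

theorem degree_lnorm (ws : List (F ≃ₐ[K] F)) (D : Divisor K F) :
    Divisor.degree (lnorm ws D) = 2 ^ ws.length * Divisor.degree D := by
  induction ws with
  | nil => simp
  | cons w ws ih => rw [lnorm_cons, map_add, Divisor.degree_smul, ih, List.length_cons]; ring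

open Classical in
theorem lnorm_single_nonneg (ws : List (F ≃ₐ[K] F)) (x z : Place K F) :
    0 ≤ lnorm ws (Finsupp.single x (1 : ℤ)) z := by
  induction ws generalizing z with
  | nil =>
    rw [lnorm_nil, Finsupp.single_apply]
    split_ifs <;> norm_num
  | cons w ws ih => rw [lnorm_cons, Finsupp.add_apply, Divisor.smul_apply]; exact add_nonneg (ih z) (ih _)

theorem one_le_lnorm_single_self (ws : List (F ≃ₐ[K] F)) (x : Place K F) :
    1 ≤ lnorm ws (Finsupp.single x (1 : ℤ)) x := by
  induction ws with
  | nil => simp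
  | cons w ws ih =>
    rw [lnorm_cons, Finsupp.add_apply, Divisor.smul_apply]
    linarith [lnorm_single_nonneg ws x (w⁻¹ • x)]

open Classical in
theorem exists_smul_eq_of_lnorm_single_ne_zero (ws : List (F ≃ₐ[K] F)) (x : Place K F) :
    ∀ z, lnorm ws (Finsupp.single x (1 : ℤ)) z ≠ 0 →
      ∃ g ∈ Subgroup.closure {g | g ∈ ws}, g • x = z := by
  induction ws with
  | nil =>
    intro z hz
    rw [lnorm_nil, Finsupp.single_apply] at hz
    exact ⟨1, one_mem _, by rw [one_smul]; by_contra h; exact hz (if_neg h)⟩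
  | cons w ws ih =>
    intro z hz
    have hle : Subgroup.closure {g | g ∈ ws} ≤ Subgroup.closure {g | g ∈ w :: ws} :=
      Subgroup.closure_mono fun g hg => List.mem_cons_of_mem _ hg
    rw [lnorm_cons, Finsupp.add_apply, Divisor.smul_apply] at hz
    rcases ne_or_eq (lnorm ws (Finsupp.single x (1 : ℤ)) z) 0 with h | h
    · obtain ⟨g, hg, rfl⟩ := ih z h
      exact ⟨g, hle hg, rfl⟩
    · rw [h, zero_add] at hz
      obtain ⟨g, hg, hgx⟩ := ih _ hz
      exact ⟨w * g, mul_mem (Subgroup.subset_closure (by simp)) (hle hg), by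
        rw [mul_smul, hgx, smul_inv_smul]⟩

theorem single_sub_smul_mem_augSpan (ws : List (F ≃ₐ[K] F)) {g : F ≃ₐ[K] F}
    (hg : g ∈ Subgroup.closure {g | g ∈ ws}) :
    ∀ (x : Place K F) (n : ℤ),
      Finsupp.single x n - Finsupp.single (g • x) n ∈ augSpan (Divisor K F) ws := by
  induction hg using Subgroup.closure_induction with
  | mem g hg =>
    intro x n
    rw [← Divisor.smul_single]
    exact sub_smul_mem_augSpan hg _
  | one => intro x n; rw [one_smul, sub_self]; exact zero_mem _
  | mul a b _ _ ha hb =>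
    intro x n
    have := add_mem (hb x n) (ha (b • x) n)
    rwa [sub_add_sub_cancel, ← mul_smul] at this
  | inv a _ ha =>
    intro x n
    have := neg_mem (ha (a⁻¹ • x) n)
    rwa [smul_inv_smul, neg_sub] at this

/-- A divisor with vanishing norm lies in the span of the `A - w • A`. -/
theorem mem_augSpan_of_lnorm_eq_zero {ws : List (F ≃ₐ[K] F)} (hws : InvolList ws)
    {E : Divisor K F} (hE : lnorm ws E = 0) : E ∈ augSpan (Divisor K F) ws := by
  classical
  set H := Subgroup.closure {g : F ≃ₐ[K] F | g ∈ ws} with hH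
  let cls : Place K F → Quotient (MulAction.orbitRel H (Place K F)) :=
    fun x => Quotient.mk (MulAction.orbitRel H (Place K F)) x
  let rep : Place K F → Place K F := fun x => (cls x).out
  have hrep : ∀ x, ∃ g ∈ H, g • x = rep x := fun x => by
    have hrel : MulAction.orbitRel H (Place K F) (rep x) x :=
      Quotient.exact (Quotient.out_eq (cls x))
    rw [MulAction.orbitRel_apply] at hrel
    obtain ⟨g, hg⟩ := hrel
    exact ⟨g, g.2, hg⟩
  have hcls : ∀ x, ∀ g ∈ H, cls (g • x) = cls x := fun x g hg =>
    Quotient.sound (show MulAction.orbitRel H (Place K F) (g • x) x from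
      MulAction.orbitRel_apply.mpr ⟨⟨g, hg⟩, rfl⟩)
  have hsub : E - Finsupp.mapDomain rep E ∈ augSpan (Divisor K F) ws := by
    clear hE
    induction E using Finsupp.induction_linear with
    | zero => simp
    | add A B hA hB =>
      rw [Finsupp.mapDomain_add, show A + B - (Finsupp.mapDomain rep A + Finsupp.mapDomain rep B) =
        (A - Finsupp.mapDomain rep A) + (B - Finsupp.mapDomain rep B) by abel]
      exact add_mem hA hB
    | single x n =>
      obtain ⟨g, hg, hgx⟩ := hrep x
      rw [Finsupp.mapDomain_single, ← hgx]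
      exact single_sub_smul_mem_augSpan ws hg x n
  set E' := Finsupp.mapDomain rep E with hE'
  have hNE' : lnorm ws E' = 0 := by
    have h := lnorm_eq_zero_of_mem_augSpan hws hsub
    rwa [lnorm_sub, hE, zero_sub, neg_eq_zero] at h
  have h0 : E' = 0 := by
    refine Finsupp.ext fun z => ?_
    by_contra hz
    rw [Finsupp.zero_apply] at hz
    have hz' : z ∈ E'.support := Finsupp.mem_support_iff.mpr hz
    have hsum : lnorm ws E' z =
        ∑ x ∈ E'.support, E' x * lnorm ws (Finsupp.single x (1 : ℤ)) z := by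
      conv_lhs => rw [← E'.sum_single, ← lnormHom_apply]
      rw [Finsupp.sum, map_sum, Finsupp.finsetSum_apply]
      refine Finset.sum_congr rfl fun x _ => ?_
      rw [← mul_one (E' x), ← smul_eq_mul, ← Finsupp.smul_single, map_zsmul, Finsupp.smul_apply,
        lnormHom_apply, smul_eq_mul, smul_eq_mul, mul_one]
    rw [hNE', Finsupp.zero_apply, Finset.sum_eq_single z (fun x hx hxz => ?_)
      (fun h => absurd hz' h)] at hsum
    · have := one_le_lnorm_single_self ws z
      rcases mul_eq_zero.1 hsum.symm with h | h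
      · exact hz h
      · omega
    · by_contra hne
      obtain ⟨g, hg, rfl⟩ := exists_smul_eq_of_lnorm_single_ne_zero ws x z
        (right_ne_zero_of_mul hne)
      obtain ⟨x₀, -, hx₀⟩ := Finset.mem_image.1 (Finsupp.mapDomain_support hx)
      obtain ⟨y₀, -, hy₀⟩ := Finset.mem_image.1 (Finsupp.mapDomain_support hz')
      refine hxz ?_
      have hfix : ∀ y, rep (rep y) = rep y := fun y => by
        simp only [rep]; rw [show cls (cls y).out = cls y from Quotient.out_eq _]
      calc x = rep x := by rw [← hx₀, hfix]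
        _ = rep (g • x) := by simp only [rep]; rw [hcls x g hg]
        _ = g • x := by rw [← hy₀, hfix]
  rwa [h0, sub_zero] at hsub

end Divisors

end FLTA.LT2

end
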