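import Fermat.Agent.LT2.FunctorTsen
import Fermat.Agent.LT2.FunctorNorm

/-!
# `NormSurj` and `Separated` for independent commuting involutions of a curve
-/

set_option autoImplicit false

noncomputable section

open AlgebraicCurve

namespace FLTA.LT2

variable {K F : Type*} [Field K] [Field F] [Algebra K F]

/-- No element of the list is in the group generated by the elements after it. -/
def Indep {G : Type*} [Group G] : List G → Prop
  | [] => True
  | w :: ws => w ∉ Subgroup.closure {v | v ∈ ws} ∧ Indep ws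

theorem exists_anti_of_notMem (h2 : (2 : F) ≠ 0) {w : F ≃ₐ[K] F} {ws : List (F ≃ₐ[K] F)}
    (hws : InvolList (w :: ws)) (hw : w ∉ Subgroup.closure {v | v ∈ ws}) :
    ∃ h : F, h ≠ 0 ∧ w h = -h ∧ FixedBy ws h := by
  obtain ⟨u, hu, hu'⟩ := exists_fixed_ne h2 ws w hws.sq (fun v hv v' hv' => hws.comm v hv v' hv') hw
  refine ⟨u - w u, sub_ne_zero.mpr (Ne.symm hu'), ?_, ?_⟩
  · rw [map_sub, ← AlgEquiv.mul_apply, hws.sq w List.mem_cons_self, AlgEquiv.one_apply]
    ring
  · exact mem_fixedSpace.mp (sub_mem hu (map_mem_fixedSpace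
      (fun v hv => hws.comm v (List.mem_cons_of_mem _ hv) w List.mem_cons_self) hu))

theorem separated_of_indep (h2 : (2 : F) ≠ 0) :
    ∀ {ws : List (F ≃ₐ[K] F)}, InvolList ws → Indep ws → Separated ws
  | [], _, _ => trivial
  | _ :: _, hws, hind => ⟨exists_anti_of_notMem h2 hws hind.1,
      separated_of_indep h2 hws.tail hind.2⟩

/-- Norms are surjective at every step (Tsen). -/
theorem normSurj_of_indep [IsAlgClosed K] [IsCurveOver K F] [FLTA.Curves.IsFunctionField K F]
    (h2 : (2 : F) ≠ 0) : ∀ {ws : List (F ≃ₐ[K] F)}, InvolList ws → Indep ws → NormSurj ws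
  | [], _, _ => trivial
  | w :: ws, hws, hind => ⟨fun _ _ hf =>
      exists_mul_map_eq w ws hws.sq (fun v hv v' hv' => hws.comm v hv v' hv')
        (exists_fixed_ne h2 ws w hws.sq (fun v hv v' hv' => hws.comm v hv v' hv') hind.1) h2 hf,
      normSurj_of_indep h2 hws.tail hind.2⟩

variable [IsAlgClosed K] [IsCurveOver K F] [FLTA.Curves.IsFunctionField K F]

/-- A function without zeros and poles is constant. -/
theorem exists_const_of_ord_eq_zero {f : F} (hf : f ≠ 0) (h : ∀ v : Place K F, v.ord f = 0) :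
    ∃ c : K, f = algebraMap K F c := by
  have hmem : f ∈ riemannRochSpace (0 : Divisor K F) :=
    mem_riemannRochSpace_iff.mpr fun v => Or.inr (by rw [h v, Finsupp.zero_apply, neg_zero])
  rw [FLTA.Curves.riemannRochSpace_zero] at hmem
  obtain ⟨c, hc⟩ := Submodule.mem_one.mp hmem
  exact ⟨c, hc.symm⟩

theorem exists_point_deg_one : ∃ c : Place K F, c.deg = 1 := by
  obtain ⟨P⟩ := FLTA.Curves.IsFunctionField.exists_place (K := K) (F := F)
  exact ⟨P, IsCurveOver.deg_eq_one_of_isAlgClosed P⟩

end FLTA.LT2
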