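import Fermat.Agent.LT2.FunctorInvol
import Fermat.Agent.LT2.FunctorNormSurj

/-!
# Classes of order two attached to the fixed places of an involution

For an involution `w` of a function field over an algebraically closed field, a set `S` of an
even number of fixed places gives a class of order two: halve `S - |S| P₀` to `y` and take
`y - w • y`.  It is not of the form `t - w • t` with `2 t = 0`, unless `S` is empty or contains
every fixed place.  Applied to an eigenvector of a commuting family of operators on the parities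
at the fixed places, this produces a nonzero eigenclass of order two.
-/

set_option autoImplicit false

noncomputable section

open AlgebraicCurve
open scoped Pointwise

namespace FLTA.LT2

variable {K F : Type*} [Field K] [Field F] [Algebra K F]

/-- The residue of an element without pole is a constant. -/
theorem exists_const_sub [IsAlgClosed K] [IsCurveOver K F] (P : Place K F) {u : F}
    (hu : u = 0 ∨ 0 ≤ P.ord u) :
    ∃ c : K, u - algebraMap K F c = 0 ∨ 0 < P.ord (u - algebraMap K F c) := by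
  have hmem : u ∈ P.toValuationSubring := by
    rcases hu with rfl | hu
    · exact zero_mem _
    · rcases eq_or_ne u 0 with rfl | hne
      · exact zero_mem _
      · exact (Curves.mem_iff_ord_nonneg P hne).mpr hu
  have : Module.Finite K P.ResidueField := IsCurveOver.finiteResidue P
  have : Algebra.IsIntegral K P.ResidueField := Algebra.IsIntegral.of_finite K P.ResidueField
  obtain ⟨c, hc⟩ := (IsAlgClosed.algebraMap_bijective_of_isIntegral (k := K)
    (K := P.ResidueField)).2 (IsLocalRing.residue _ ⟨u, hmem⟩)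
  refine ⟨c, (Curves.residueMap_eq_zero_iff P
    (⟨u, hmem⟩ - ⟨algebraMap K F c, P.algebraMap_mem' c⟩)).mp ?_⟩
  rw [map_sub, sub_eq_zero, Curves.residueMap, ← hc]
  rfl

variable {w : F ≃ₐ[K] F}

theorem ord_map_eq {P : Place K F} (hP : w • P = P) (f : F) : P.ord (w f) = P.ord f := by
  conv_lhs => rw [← hP]
  exact Place.ord_smul w P f

theorem apply_apply' (hw : w * w = 1) (z : F) : w (w z) = z := by
  rw [← AlgEquiv.mul_apply, hw, AlgEquiv.one_apply]

variable [IsAlgClosed K] [IsCurveOver K F]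

/-- At a fixed place the uniformisers are negated, so fixed functions have even order and negated
functions odd order. -/
theorem ord_parity (h2 : (2 : K) ≠ 0) (hw : w * w = 1)
    (hw1 : ∃ h : F, h ≠ 0 ∧ w h = -h) {P : Place K F} (hP : w • P = P) {f : F} (hf : f ≠ 0) :
    (w f = f → Even (P.ord f)) ∧ (w f = -f → Odd (P.ord f)) := by
  obtain ⟨π, hπ0, hπ⟩ := Curves.exists_ord_eq_one P
  have hwπ0 : w π ≠ 0 := (map_ne_zero _).mpr hπ0
  set u := w π / π with hu
  have hu0 : u ≠ 0 := div_ne_zero hwπ0 hπ0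
  have hwπ : w π = u * π := (div_mul_cancel₀ _ hπ0).symm
  have huord : P.ord u = 0 := by
    have h := ord_map_eq hP π
    rw [hwπ, P.ord_mul hu0 hπ0] at h
    omega
  obtain ⟨ζ, hζ⟩ := exists_const_sub P (Or.inr huord.ge)
  -- congruence modulo the maximal ideal
  have hwu : w u = u⁻¹ := by
    rw [hu, map_div₀, apply_apply' hw, inv_div]
  let Small : F → Prop := fun z => z = 0 ∨ 0 < P.ord z
  have hsm_w : ∀ z, Small z → Small (w z) := fun z hz => by
    rcases hz with rfl | hz
    · exact Or.inl (map_zero w)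
    · exact Or.inr (by rwa [ord_map_eq hP])
  have hsm_mul : ∀ z r : F, Small z → 0 ≤ P.ord r → Small (z * r) := fun z r hz hr => by
    rcases hz with rfl | hz
    · exact Or.inl (zero_mul r)
    · rcases eq_or_ne r 0 with rfl | hr0
      · exact Or.inl (mul_zero z)
      · refine Or.inr ?_
        rw [P.ord_mul (fun h => by simp [h] at hz) hr0]
        omega
  have hsm_add : ∀ z z' : F, Small z → Small z' → Small (z + z') := fun z z' hz hz' => by
    rcases hz with rfl | hz
    · rwa [zero_add]
    rcases hz' with rfl | hz'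
    · rw [add_zero]; exact Or.inr hz
    by_cases h : z + z' = 0
    · exact Or.inl h
    · exact Or.inr (lt_of_lt_of_le (lt_min hz hz') (Curves.min_ord_le_ord_add P h))
  have hconst : ∀ c : K, Small (algebraMap K F c) → c = 0 := fun c hc => by
    rcases hc with hc | hc
    · exact (map_eq_zero _).mp hc
    · rw [Curves.ord_algebraMap] at hc; omega
  have hζ2 : ζ * ζ = 1 := by
    have h1 : Small ((u⁻¹ - algebraMap K F ζ) * u) :=
      hsm_mul _ _ (by have := hsm_w _ hζ; rwa [map_sub, hwu, w.commutes] at this) huord.ge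
    have h2' : Small ((u - algebraMap K F ζ) * algebraMap K F ζ) :=
      hsm_mul _ _ hζ (Curves.ord_algebraMap P ζ).ge
    have h3 := hsm_add _ _ h1 h2'
    have h4 : (u⁻¹ - algebraMap K F ζ) * u + (u - algebraMap K F ζ) * algebraMap K F ζ =
        algebraMap K F (1 - ζ * ζ) := by
      rw [map_sub, map_one, map_mul]
      field_simp
      ring
    rw [h4] at h3
    exact (sub_eq_zero.mp (hconst _ h3)).symm
  have key : ∀ g : F, g ≠ 0 → ∀ s : K, w g = algebraMap K F s * g → s = ζ ^ P.ord g := by
    intro g hg s hs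
    set n := P.ord g with hn
    set v := g / π ^ n with hv
    have hπn : π ^ n ≠ 0 := zpow_ne_zero _ hπ0
    have hv0 : v ≠ 0 := div_ne_zero hg hπn
    have hvord : P.ord v = 0 := by
      have h := P.ord_mul hv0 hπn
      rw [hv, div_mul_cancel₀ _ hπn, P.ord_zpow, hπ, mul_one] at h
      rw [← hn] at h
      rw [hv]; omega
    obtain ⟨c, hc⟩ := exists_const_sub P (Or.inr hvord.ge)
    have hc0 : c ≠ 0 := fun h0 => by
      rw [h0, map_zero, sub_zero] at hc
      exact hc.elim hv0 (fun h => by omega)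
    -- `s v = w v * u ^ n`
    have he : algebraMap K F s * v = w v * u ^ n := by
      have hg' : g = v * π ^ n := (div_mul_cancel₀ _ hπn).symm
      rw [hg', map_mul, map_zpow₀, hwπ, mul_zpow, ← mul_assoc, ← mul_assoc] at hs
      exact (mul_right_cancel₀ hπn hs).symm
    -- `u ^ n ≡ ζ ^ n`
    have hζ0 : ζ ≠ 0 := fun h => by simp [h] at hζ2
    have hpow : ∀ m : ℤ, Small (u ^ m - algebraMap K F (ζ ^ m)) := by
      intro m
      induction m using Int.induction_on with
      | zero => exact Or.inl (by simp)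
      | succ i hi =>
        have h1 := hsm_add _ _ (hsm_mul _ _ hi huord.ge)
          (hsm_mul _ _ hζ (Curves.ord_algebraMap P (ζ ^ (i : ℤ))).ge)
        convert h1 using 1
        rw [zpow_add₀ hu0, zpow_add₀ hζ0, map_mul, zpow_one, zpow_one]
        ring
      | pred i hi =>
        have hinv : 0 ≤ P.ord u⁻¹ := by rw [P.ord_inv]; omega
        have h0 : Small (u⁻¹ - algebraMap K F ζ⁻¹) := by
          have : ζ⁻¹ = ζ := inv_eq_of_mul_eq_one_left hζ2
          rw [this]
          have := hsm_w _ hζ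
          rwa [map_sub, hwu, w.commutes] at this
        have h1 := hsm_add _ _ (hsm_mul _ _ hi hinv)
          (hsm_mul _ _ h0 (Curves.ord_algebraMap P (ζ ^ (-(i : ℤ)))).ge)
        convert h1 using 1
        rw [zpow_sub₀ hu0, zpow_sub₀ hζ0, map_div₀, zpow_one, zpow_one, map_inv₀]
        ring
    have hvn : 0 ≤ P.ord (w v) := by rw [ord_map_eq hP]; omega
    have hwv : Small (w v - algebraMap K F c) := by
      have := hsm_w _ hc; rwa [map_sub, w.commutes] at this
    have hneg : ∀ z : F, Small z → Small (-z) := fun z hz =>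
      hz.imp (fun h => by rw [h, neg_zero]) (fun h => by rwa [Curves.ord_neg])
    have h5 : Small (algebraMap K F (s * c - c * ζ ^ n)) := by
      have h6 := hsm_add _ _ (hsm_add _ _ (hsm_mul _ _ (hpow n) hvn)
        (hsm_mul _ _ hwv (Curves.ord_algebraMap P (ζ ^ n)).ge))
        (hneg _ (hsm_mul _ _ hc (Curves.ord_algebraMap P s).ge))
      convert h6 using 1
      rw [map_sub, map_mul, map_mul]
      linear_combination he
    have h7 := hconst _ h5
    rw [mul_comm c, ← sub_mul] at h7
    exact sub_eq_zero.mp ((mul_eq_zero.mp h7).resolve_right hc0)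
  have hneg1 : ζ = -1 := by
    rcases mul_self_eq_one_iff.mp hζ2 with h | h
    · obtain ⟨g, hg, hwg⟩ := hw1
      have := key g hg (-1) (by rw [map_neg, map_one, neg_one_mul, hwg])
      rw [h, one_zpow] at this
      exact absurd (show (2 : K) = 0 by linear_combination -this) h2
    · exact h
  constructor
  · intro hwf
    have := key f hf 1 (by rw [map_one, one_mul, hwf])
    rw [hneg1] at this
    rcases Int.even_or_odd (P.ord f) with he | ho
    · exact he
    · rw [ho.neg_one_zpow] at this
      exact absurd (show (2 : K) = 0 by linear_combination this) h2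
  · intro hwf
    have := key f hf (-1) (by rw [map_neg, map_one, neg_one_mul, hwf])
    rw [hneg1] at this
    rcases Int.even_or_odd (P.ord f) with he | ho
    · rw [he.neg_one_zpow] at this
      exact absurd (show (2 : K) = 0 by linear_combination -this) h2
    · exact ho

section Classes

variable [FLTA.Curves.IsFunctionField K F]

/-- An invariant class contains an invariant divisor. -/
theorem exists_invariant_divisor (hw : w * w = 1) (hw1 : ∃ h : F, h ≠ 0 ∧ w h = -h)
    {x : Pic0 K F} (hx : w • x = x) :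
    ∃ D : Divisor.degZero (K := K) (F := F), Pic0.mk D = x ∧
      w • (D : Divisor K F) = D := by
  obtain ⟨D, rfl⟩ := Pic0.mk_surjective x
  rw [Pic0.smul_mk] at hx
  obtain ⟨f, hf, hfv⟩ := exists_div_of_mk_eq hx.symm
  rw [Pic0.coe_degZeroSMulHom] at hfv
  -- normalise: `φ * w φ = 1`
  have hneg : w • (w • (D : Divisor K F) - D) = -(w • (D : Divisor K F) - D) := by
    rw [smul_sub, smul_smul, hw, one_smul, neg_sub]
  have hwf : w f ≠ 0 := (map_ne_zero _).mpr hf
  obtain ⟨c, hc⟩ := exists_const_of_ord_eq_zero (K := K) (mul_ne_zero hwf hf) fun v => by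
    rw [v.ord_mul hwf hf, ← ord_smul' w hfv, hneg, Finsupp.neg_apply, ← hfv, neg_add_cancel]
  have hc0 : c ≠ 0 := fun h0 => mul_ne_zero hwf hf (by rw [hc, h0, map_zero])
  obtain ⟨d, hd⟩ := IsAlgClosed.exists_pow_nat_eq c⁻¹ (n := 2) two_pos
  have hd0 : d ≠ 0 := fun h0 => inv_ne_zero hc0 (by rw [← hd, h0, zero_pow two_ne_zero])
  have hd' : algebraMap K F d ≠ 0 := (map_ne_zero _).mpr hd0
  set φ := algebraMap K F d * f with hφdef
  have hφ : φ ≠ 0 := mul_ne_zero hd' hf
  have hφ1 : w φ * φ = 1 := by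
    rw [hφdef, map_mul, w.commutes, mul_mul_mul_comm, hc, ← map_mul, ← map_mul, ← sq, hd,
      inv_mul_cancel₀ hc0, map_one]
  -- Hilbert 90: `g = φ * w g`
  obtain ⟨g, hg, hgw⟩ : ∃ g : F, g ≠ 0 ∧ g = φ * w g := by
    by_cases h : 1 + φ = 0
    · obtain ⟨a, ha, hwa⟩ := hw1
      exact ⟨a, ha, by rw [hwa, eq_neg_of_add_eq_zero_right h, neg_one_mul, neg_neg]⟩
    · exact ⟨1 + φ, h, by rw [map_add, map_one]; linear_combination -hφ1⟩
  obtain ⟨G, hG, hGdeg⟩ := HasPrincipalDivisors.exists_divisor (K := K) g hg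
  set D' : Divisor.degZero (K := K) (F := F) :=
    ⟨(D : Divisor K F) + G, add_mem D.2 (Divisor.mem_degZero.mpr hGdeg)⟩
  refine ⟨D', (mk_eq_mk_of_principal hg fun v => ?_).symm, Finsupp.ext fun v => ?_⟩
  · show ((D : Divisor K F) + G - D) v = v.ord g
    rw [add_sub_cancel_left]; exact hG v
  · show (w • ((D : Divisor K F) + G)) v = ((D : Divisor K F) + G) v
    have h1 := congrArg v.ord hgw
    rw [v.ord_mul hφ ((map_ne_zero _).mpr hg), hφdef, v.ord_mul hd' hf, Curves.ord_algebraMap,
      zero_add, ← ord_smul' w hG, ← hfv, ← hG, Finsupp.sub_apply] at h1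
    rw [smul_add, Finsupp.add_apply, Finsupp.add_apply]
    linarith

/-- The class `y - w • y` with `2 y = [E]` is trivial only for divisors of constant parity on
the fixed places. -/
theorem parity_of_delta_eq (h2 : (2 : K) ≠ 0) (hw : w * w = 1)
    (hw1 : ∃ h : F, h ≠ 0 ∧ w h = -h)
    {E : Divisor.degZero (K := K) (F := F)} (hE : w • (E : Divisor K F) = E)
    {y t : Pic0 K F} (hy : 2 • y = Pic0.mk E) (ht : 2 • t = 0) (h : y - w • y = t - w • t) :
    (∀ P : Place K F, w • P = P → Even ((E : Divisor K F) P)) ∨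
      (∀ P : Place K F, w • P = P → Odd ((E : Divisor K F) P)) := by
  obtain ⟨D, hD, hDw⟩ := exists_invariant_divisor hw hw1 (x := y - t) (by
    rw [smul_sub]; linear_combination (norm := abel) -h)
  have h2' : Pic0.mk (D + D) = Pic0.mk E := by
    rw [Pic0.mk_add, hD, ← two_nsmul, nsmul_sub, ht, sub_zero, hy]
  obtain ⟨f, hf, hfv⟩ := exists_div_of_mk_eq h2'
  have hinv : w • ((E : Divisor K F) - ((D + D : Divisor.degZero (K := K) (F := F)) : Divisor K F)) =
      (E : Divisor K F) - ((D + D : Divisor.degZero (K := K) (F := F)) : Divisor K F) := by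
    rw [AddSubgroup.coe_add, smul_sub, smul_add, hE, hDw]
  have hwf : w f ≠ 0 := (map_ne_zero _).mpr hf
  obtain ⟨c, hc⟩ := exists_const_of_ord_eq_zero (K := K) (div_ne_zero hwf hf) fun v => by
    rw [div_eq_mul_inv, v.ord_mul hwf (inv_ne_zero hf), v.ord_inv, ← ord_smul' w hfv, hinv, ← hfv,
      add_neg_cancel]
  have hwf' : w f = algebraMap K F c * f := by rw [← hc, div_mul_cancel₀ _ hf]
  have hc2 : c * c = 1 := by
    have h := congrArg w hwf'
    rw [map_mul, w.commutes, apply_apply' hw, hwf', ← mul_assoc, ← map_mul] at h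
    refine (algebraMap K F).injective (mul_right_cancel₀ hf ?_)
    rw [map_one, one_mul, ← h]
  have hval : ∀ P : Place K F, (E : Divisor K F) P = P.ord f + 2 * (D : Divisor K F) P :=
    fun P => by
      have := hfv P
      rw [AddSubgroup.coe_add, Finsupp.sub_apply, Finsupp.add_apply] at this
      omega
  rcases mul_self_eq_one_iff.mp hc2 with rfl | rfl
  · refine Or.inl fun P hP => ?_
    rw [hval]
    exact ((ord_parity h2 hw hw1 hP hf).1 (by rw [hwf', map_one, one_mul])).add (even_two_mul _)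
  · refine Or.inr fun P hP => ?_
    rw [hval]
    exact ((ord_parity h2 hw hw1 hP hf).2
      (by rw [hwf', map_neg, map_one, neg_one_mul])).add_even (even_two_mul _)

end Classes

/-- A positive power of an element of a finite monoid is idempotent. -/
theorem exists_pow_idem {M : Type*} [Monoid M] [Finite M] (b : M) :
    ∃ m, 0 < m ∧ b ^ m * b ^ m = b ^ m := by
  obtain ⟨p, q, hne, hpq⟩ := Finite.exists_ne_map_eq_of_infinite (fun k : ℕ => b ^ k)
  wlog hlt : p < q generalizing p q
  · exact this q p hne.symm hpq.symm (lt_of_le_of_ne (not_lt.mp hlt) hne.symm)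
  obtain ⟨d, rfl⟩ : ∃ d, q = p + d := ⟨q - p, by omega⟩
  have hd : 0 < d := by omega
  have hper : ∀ j r, b ^ (p + r + j * d) = b ^ (p + r) := fun j r => by
    induction j with
    | zero => simp
    | succ j hj =>
      have hp : b ^ p = b ^ (p + d) := hpq
      rw [show p + r + (j + 1) * d = (p + d) + (r + j * d) by ring, pow_add, ← hp, ← pow_add,
        ← add_assoc, hj]
  refine ⟨(p + 1) * d, by positivity, ?_⟩
  obtain ⟨r, hr⟩ : ∃ r, (p + 1) * d = p + r := ⟨(p + 1) * d - p, by
    have : p + 1 ≤ (p + 1) * d := Nat.le_mul_of_pos_right _ hd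
    omega⟩
  rw [← pow_add]
  conv_lhs => rw [show (p + 1) * d + (p + 1) * d = p + r + (p + 1) * d by rw [← hr]]
  rw [hper, hr]

variable {V : Type*} [AddCommGroup V] [Finite V] {ι : Type*} {B : ι → AddMonoid.End V}

omit [Finite V] in
theorem end_mul_apply (f g : AddMonoid.End V) (c : V) : (f * g) c = f (g c) := rfl

omit [Finite V] in
theorem pow_apply_mem {W : AddSubgroup V} {b : AddMonoid.End V} (hb : ∀ c ∈ W, b c ∈ W) :
    ∀ (k : ℕ), ∀ c ∈ W, (b ^ k) c ∈ W := by
  intro k
  induction k with
  | zero => intro c hc; simpa using hc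
  | succ k hk => intro c hc; rw [pow_succ]; exact hk _ (hb c hc)

omit [Finite V] in
theorem stable_inf_ker {W : AddSubgroup V} (hW : ∀ i, ∀ c ∈ W, B i c ∈ W) {e : AddMonoid.End V}
    (he : ∀ i, B i * e = e * B i) (i : ι) {c : V} (hc : c ∈ W ⊓ AddMonoidHom.ker e) :
    B i c ∈ W ⊓ AddMonoidHom.ker e := by
  refine ⟨hW i c hc.1, ?_⟩
  show e (B i c) = 0
  have h0 : e c = 0 := hc.2
  rw [← end_mul_apply, ← he, end_mul_apply, h0, map_zero]

/-- Commuting endomorphisms, nilpotent on a nonzero stable subgroup, have a common kernel. -/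
theorem exists_common_ker_mem (hcomm : ∀ i j, B i * B j = B j * B i) (W : AddSubgroup V)
    (hW : ∀ i, ∀ c ∈ W, B i c ∈ W) (hnil : ∀ i, ∃ m, ∀ c ∈ W, (B i ^ m) c = 0)
    {a : V} (haW : a ∈ W) (ha : a ≠ 0) : ∃ z : V, z ∈ W ∧ z ≠ 0 ∧ ∀ i, B i z = 0 := by
  induction hn : Nat.card W using Nat.strong_induction_on generalizing W a with
  | _ n ih =>
    by_cases hall : ∀ i, ∀ b ∈ W, B i b = 0
    · exact ⟨a, haW, ha, fun i => hall i a haW⟩
    push Not at hall
    obtain ⟨i, b, hbW, hb⟩ := hall
    classical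
    obtain ⟨m, hm⟩ := hnil i
    have hex : ∃ k, (B i ^ k) a = 0 := ⟨m, hm a haW⟩
    obtain ⟨k, hk⟩ : ∃ k, Nat.find hex = k + 1 := Nat.exists_eq_succ_of_ne_zero fun h => by
      have := Nat.find_spec hex
      rw [h, pow_zero] at this
      exact ha this
    have hk1 := Nat.find_spec hex
    rw [hk, pow_succ'] at hk1
    have hlt : Nat.card ↥(W ⊓ AddMonoidHom.ker (B i)) < n := by
      rw [← hn]
      refine lt_of_le_of_ne (AddSubgroup.card_le_of_le inf_le_left) fun hc => hb ?_
      exact AddMonoidHom.mem_ker.mp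
        ((AddSubgroup.eq_of_le_of_card_ge inf_le_left hc.ge).ge hbW).2
    obtain ⟨z, hzW, hz⟩ := ih (Nat.card ↥(W ⊓ AddMonoidHom.ker (B i))) hlt _
      (fun j c hc => stable_inf_ker hW (fun l => hcomm l i) j hc)
      (fun j => (hnil j).imp fun m hm c hc => hm c hc.1) (a := (B i ^ k) a)
      ⟨pow_apply_mem (hW i) k a haW, hk1⟩ (Nat.find_min hex (by omega)) rfl
    exact ⟨z, hzW.1, hz⟩

/-- Commuting endomorphisms, nilpotent on a nonzero stable subgroup, have a common kernel. -/
theorem exists_common_ker (hcomm : ∀ i j, B i * B j = B j * B i) (W : AddSubgroup V)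
    (hW : ∀ i, ∀ c ∈ W, B i c ∈ W) (hnil : ∀ i, ∃ m, ∀ c ∈ W, (B i ^ m) c = 0)
    {a : V} (haW : a ∈ W) (ha : a ≠ 0) : ∃ z : V, z ≠ 0 ∧ ∀ i, B i z = 0 :=
  (exists_common_ker_mem hcomm W hW hnil haW ha).imp fun _ h => h.2

/-- An eigenvector of commuting endomorphisms of a finite group in a quotient gives one in the
group. -/
theorem exists_ne_zero_of_eigen_mod (hcomm : ∀ i j, B i * B j = B j * B i) (U : AddSubgroup V)
    (hU : ∀ i, ∀ u ∈ U, B i u ∈ U) {x : V} (hx : x ∉ U) (hBx : ∀ i, B i x ∈ U) :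
    ∃ z : V, z ≠ 0 ∧ ∀ i, B i z = 0 := by
  suffices ∀ (W : AddSubgroup V), (∀ i, ∀ c ∈ W, B i c ∈ W) → ∀ a ∈ W, a ∉ U →
      (∀ i, B i a ∈ U) → ∃ z : V, z ≠ 0 ∧ ∀ i, B i z = 0 from
    this ⊤ (fun _ _ _ => trivial) x trivial hx hBx
  intro W hW a haW haU haB
  induction hn : Nat.card W using Nat.strong_induction_on generalizing W a with
  | _ n ih =>
    by_cases hnil : ∀ i, ∃ m, ∀ c ∈ W, (B i ^ m) c = 0
    · exact exists_common_ker hcomm W hW hnil haW fun h => haU (h ▸ zero_mem U)
    push Not at hnil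
    obtain ⟨i, hi⟩ := hnil
    have : Finite (AddMonoid.End V) :=
      Finite.of_injective (fun φ : AddMonoid.End V => (φ : V → V)) DFunLike.coe_injective
    obtain ⟨m, hm, hidem⟩ := exists_pow_idem (B i)
    obtain ⟨c, hcW, hc⟩ := hi m
    have hcp : ∀ j, B j * B i ^ m = B i ^ m * B j := fun j =>
      ((Commute.pow_left (hcomm i j) m).symm).eq
    have heU : (B i ^ m) a ∈ U := by
      obtain ⟨m', rfl⟩ := Nat.exists_eq_succ_of_ne_zero hm.ne'
      rw [pow_succ, end_mul_apply]
      exact pow_apply_mem (hU i) _ _ (haB i)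
    refine ih (Nat.card ↥(W ⊓ AddMonoidHom.ker (B i ^ m : AddMonoid.End V))) ?_ _
      (fun j d hd => stable_inf_ker hW hcp j hd) (a - (B i ^ m) a)
      (AddSubgroup.mem_inf.mpr ⟨sub_mem haW (pow_apply_mem (hW i) m a haW), ?_⟩)
      (fun h => haU (by simpa using add_mem h heU))
      (fun j => by rw [map_sub]; exact sub_mem (haB j) (hU j _ heU)) rfl
    · rw [← hn]
      refine lt_of_le_of_ne (AddSubgroup.card_le_of_le inf_le_left) fun hc' => hc ?_
      exact AddMonoidHom.mem_ker.mp
        ((AddSubgroup.eq_of_le_of_card_ge inf_le_left hc'.ge).ge hcW).2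
    · show (B i ^ m) (a - (B i ^ m) a) = 0
      rw [map_sub, ← end_mul_apply, hidem, sub_self]

section Main

variable {K F : Type*} [Field K] [Field F] [Algebra K F] [IsAlgClosed K] [IsCurveOver K F]
  [FLTA.Curves.IsFunctionField K F] {w : F ≃ₐ[K] F}

omit [IsAlgClosed K] [IsCurveOver K F] [FLTA.Curves.IsFunctionField K F] in
/-- An invariant divisor which is even at the fixed places is `G + w • G`. -/
theorem exists_add_smul_eq (hw : w * w = 1) {E : Divisor K F} (hE : w • E = E)
    (heven : ∀ P : Place K F, w • P = P → Even (E P)) : ∃ G : Divisor K F, G + w • G = E := by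
  classical
  have hww : ∀ v : Place K F, w • (w • v) = v := fun v => by rw [smul_smul, hw, one_smul]
  have hEw : ∀ v, E (w • v) = E v := fun v => by
    have h : (w • E) (w • v) = E (w • v) := by rw [hE]
    rw [Divisor.smul_apply, inv_smul_smul] at h
    exact h.symm
  set g : Place K F → ℤ := fun v => if w • v = v then E v / 2 else
    if WellOrderingRel v (w • v) then E v else 0 with hg
  have hsupp : ∀ v, g v ≠ 0 → v ∈ E.support := fun v h => Finsupp.mem_support_iff.mpr fun h0 => by
    simp [hg, h0] at h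
  refine ⟨Finsupp.onFinset E.support g hsupp, Finsupp.ext fun v => ?_⟩
  have hinv : w⁻¹ • v = w • v := by rw [inv_eq_of_mul_eq_one_left hw]
  rw [Finsupp.add_apply, Divisor.smul_apply, hinv, Finsupp.onFinset_apply,
    Finsupp.onFinset_apply]
  by_cases h : w • v = v
  · obtain ⟨k, hk⟩ := heven v h
    simp only [hg, h, if_pos]
    omega
  · have h' : ¬ w • (w • v) = w • v := by rw [hww]; exact fun e => h e.symm
    simp only [hg, hww, hEw, h, if_false, show ¬ v = w • v from fun e => h e.symm]
    rcases trichotomous_of WellOrderingRel v (w • v) with r | r | r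
    · rw [if_pos r, if_neg (fun r' => asymm r r')]; omega
    · exact absurd r.symm h
    · rw [if_neg (fun r' => asymm r r'), if_pos r]; omega

omit [IsAlgClosed K] [IsCurveOver K F] [FLTA.Curves.IsFunctionField K F] in
/-- Classes `y - w • y` of an invariant divisor even at the fixed places come from classes of
order two. -/
theorem delta_mem_of_even (hw : w * w = 1) (hdiv : ∀ y : Pic0 K F, ∃ z : Pic0 K F, 2 • z = y)
    {E : Divisor.degZero (K := K) (F := F)} (hE : w • (E : Divisor K F) = E)
    (heven : ∀ P : Place K F, w • P = P → Even ((E : Divisor K F) P)) {y : Pic0 K F}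
    (hy : 2 • y = Pic0.mk E) : ∃ t : Pic0 K F, 2 • t = 0 ∧ y - w • y = t - w • t := by
  obtain ⟨G, hG⟩ := exists_add_smul_eq hw hE heven
  have hdeg : G ∈ Divisor.degZero (K := K) (F := F) := by
    have h := congrArg Divisor.degree hG
    rw [map_add, Divisor.degree_smul, Divisor.mem_degZero.mp E.2] at h
    rw [Divisor.mem_degZero]
    omega
  obtain ⟨h, hh⟩ := hdiv (Pic0.mk ⟨G, hdeg⟩)
  refine ⟨y - (h + w • h), ?_, ?_⟩
  · rw [nsmul_sub, hy, nsmul_add, smul_comm 2 w h, hh, Pic0.smul_mk, ← Pic0.mk_add, sub_eq_zero]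
    exact congrArg Pic0.mk (Subtype.ext hG.symm)
  · rw [smul_sub, smul_add, smul_smul, hw, one_smul]
    abel

/-- **Classes of order two which are not norms.**  If the set `S` of fixed places is an eigenvector,
modulo two, of operators, there is an invariant class of order two which is not a norm from the
classes of order two and is an eigenclass modulo such norms. -/
theorem exists_delta_class_of_fixed (h2 : (2 : K) ≠ 0) (hw : w * w = 1)
    (hw1 : ∃ h : F, h ≠ 0 ∧ w h = -h) (hdiv2 : ∀ y : Pic0 K F, ∃ z : Pic0 K F, 2 • z = y)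
    {ι : Type*} (div : ι → Divisor K F →+ Divisor K F)
    (act : ι → Pic0 K F →+ Pic0 K F) (d a : ι → ℤ)
    (hdeg : ∀ i D, Divisor.degree (div i D) = d i * Divisor.degree D)
    (hdw : ∀ i (D : Divisor K F), div i (w • D) = w • div i D)
    (hact : ∀ i (D : Divisor.degZero (K := K) (F := F))
      (h : div i D ∈ Divisor.degZero (K := K) (F := F)),
      act i (Pic0.mk D) = Pic0.mk ⟨div i D, h⟩)
    (S : Finset (Place K F)) (hS : ∀ P ∈ S, w • P = P) (hcard : Even S.card) (hne : S.Nonempty)
    (hout : ∃ P : Place K F, w • P = P ∧ P ∉ S)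
    (heig : ∀ i (Q : Place K F), w • Q = Q →
      Even (div i (∑ P ∈ S, Finsupp.single P (1 : ℤ)) Q -
        a i * (∑ P ∈ S, Finsupp.single P (1 : ℤ) : Divisor K F) Q)) :
    ∃ x : Pic0 K F, 2 • x = 0 ∧ w • x = x ∧ (∀ t : Pic0 K F, 2 • t = 0 → t - w • t ≠ x) ∧
      ∀ i, ∃ t : Pic0 K F, 2 • t = 0 ∧ t - w • t = act i x - a i • x := by
  classical
  obtain ⟨P0, hP0⟩ := hne
  set Δ : Divisor K F := ∑ P ∈ S, Finsupp.single P (1 : ℤ) with hΔ
  have hdegΔ : Divisor.degree Δ = S.card := by
    rw [hΔ, map_sum, Finset.sum_congr rfl fun P _ => by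
      rw [Divisor.degree_single, IsCurveOver.deg_eq_one_of_isAlgClosed P, Nat.cast_one, mul_one]]
    simp
  set E₀ : Divisor K F := Δ - (S.card : ℤ) • Finsupp.single P0 (1 : ℤ) with hE0
  have hE0deg : E₀ ∈ Divisor.degZero (K := K) (F := F) := by
    rw [Divisor.mem_degZero, hE0, map_sub, map_zsmul, hdegΔ, Divisor.degree_single,
      IsCurveOver.deg_eq_one_of_isAlgClosed P0, smul_eq_mul]
    ring
  have hfixS : ∀ P ∈ S, w • Finsupp.single P (1 : ℤ) = (Finsupp.single P 1 : Divisor K F) :=
    fun P hP => by rw [Divisor.smul_single, hS P hP]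
  have hE0fix : w • E₀ = E₀ := by
    rw [hE0, smul_sub, hΔ, Finset.smul_sum, Finset.sum_congr rfl hfixS,
      smul_comm w (S.card : ℤ), hfixS P0 hP0]
  set E : Divisor.degZero (K := K) (F := F) := ⟨E₀, hE0deg⟩
  obtain ⟨y, hy⟩ := hdiv2 (Pic0.mk E)
  have hactw : ∀ i x, act i (w • x) = w • act i x := fun i x => by
    obtain ⟨D, rfl⟩ := Pic0.mk_surjective x
    have hm : ∀ D : Divisor.degZero (K := K) (F := F),
        div i D ∈ Divisor.degZero (K := K) (F := F) := fun D => by
      rw [Divisor.mem_degZero, hdeg, Divisor.mem_degZero.mp D.2, mul_zero]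
    rw [Pic0.smul_mk, hact i _ (hm _), hact i D (hm D), Pic0.smul_mk]
    exact congrArg Pic0.mk (Subtype.ext (hdw i D))
  have hy2 : 2 • (y - w • y) = 0 := by
    rw [nsmul_sub, smul_comm 2 w y, hy, Pic0.smul_mk, sub_eq_zero]
    exact congrArg Pic0.mk (Subtype.ext hE0fix.symm)
  refine ⟨y - w • y, hy2, ?_, fun t ht ht' => ?_, fun i => ?_⟩
  · rw [two_nsmul, add_eq_zero_iff_eq_neg, neg_sub] at hy2
    rw [smul_sub, smul_smul, hw, one_smul, ← hy2]
  · obtain ⟨Q, hQ, hQS⟩ := hout
    have hval : ∀ R : Place K F, E₀ R =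
        (if R ∈ S then 1 else 0) - (S.card : ℤ) * (if R = P0 then 1 else 0) := fun R => by
      rw [hE0, hΔ, Finsupp.sub_apply, Finsupp.finsetSum_apply, Finsupp.smul_apply,
        Finsupp.single_apply, smul_eq_mul]
      simp [Finsupp.single_apply, eq_comm]
    obtain ⟨k, hk⟩ := hcard
    rcases parity_of_delta_eq h2 hw hw1 (E := E) hE0fix hy ht ht'.symm with he | ho
    · obtain ⟨m, hm⟩ := he P0 (hS P0 hP0)
      have h := hval P0
      rw [if_pos hP0, if_pos rfl, mul_one] at h
      change E₀ P0 = _ at hm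
      omega
    · obtain ⟨m, hm⟩ := ho Q hQ
      have h := hval Q
      rw [if_neg hQS, if_neg (fun e : Q = P0 => hQS (e ▸ hP0)), mul_zero] at h
      change E₀ Q = _ at hm
      omega
  · have hmem : div i E₀ - a i • E₀ ∈ Divisor.degZero (K := K) (F := F) := by
      rw [Divisor.mem_degZero, map_sub, map_zsmul, hdeg, Divisor.mem_degZero.mp hE0deg]
      simp
    have hmem' : div i E₀ ∈ Divisor.degZero (K := K) (F := F) := by
      rw [Divisor.mem_degZero, hdeg, Divisor.mem_degZero.mp hE0deg, mul_zero]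
    obtain ⟨t, ht, ht'⟩ := delta_mem_of_even hw hdiv2 (E := ⟨_, hmem⟩)
      (by rw [smul_sub, ← hdw, smul_comm w (a i), hE0fix])
      (fun R hR => by
        show Even ((div i E₀ - a i • E₀) R)
        obtain ⟨k, hk⟩ := hcard
        have he := heig i R hR
        have : (div i E₀ - a i • E₀) R = (div i Δ R - a i * Δ R) -
            2 * ((k : ℤ) * (div i (Finsupp.single P0 1) R -
              a i * (Finsupp.single P0 1 : Divisor K F) R)) := by
          rw [hE0, map_sub, map_zsmul, hk]
          simp only [Finsupp.sub_apply, Finsupp.smul_apply, smul_eq_mul]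
          push_cast
          ring
        rw [this]
        exact he.sub (even_two_mul _))
      (y := act i y - a i • y) (by
        rw [nsmul_sub, ← map_nsmul, smul_comm 2 (a i), hy, hact i E hmem']
        rfl)
    refine ⟨t, ht, ?_⟩
    rw [← ht', map_sub, hactw, smul_sub, zsmul_sub, smul_comm w (a i)]
    abel

/-- **Eigenclasses of order two from fixed places.**  If the set `S` of fixed places is an
eigenvector, modulo two, of commuting operators, there is a nonzero class of order two with the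
same eigenvalues. -/
theorem exists_eigenclass_of_fixed (h2 : (2 : K) ≠ 0) (hw : w * w = 1)
    (hw1 : ∃ h : F, h ≠ 0 ∧ w h = -h) (hdiv2 : ∀ y : Pic0 K F, ∃ z : Pic0 K F, 2 • z = y)
    [hfin : Finite {x : Pic0 K F // 2 • x = 0}] {ι : Type*} (div : ι → Divisor K F →+ Divisor K F)
    (act : ι → Pic0 K F →+ Pic0 K F) (d a : ι → ℤ)
    (hdeg : ∀ i D, Divisor.degree (div i D) = d i * Divisor.degree D)
    (hdw : ∀ i (D : Divisor K F), div i (w • D) = w • div i D)
    (hact : ∀ i (D : Divisor.degZero (K := K) (F := F))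
      (h : div i D ∈ Divisor.degZero (K := K) (F := F)),
      act i (Pic0.mk D) = Pic0.mk ⟨div i D, h⟩)
    (hcomm : ∀ i j x, act i (act j x) = act j (act i x))
    (S : Finset (Place K F)) (hS : ∀ P ∈ S, w • P = P) (hcard : Even S.card) (hne : S.Nonempty)
    (hout : ∃ P : Place K F, w • P = P ∧ P ∉ S)
    (heig : ∀ i (Q : Place K F), w • Q = Q →
      Even (div i (∑ P ∈ S, Finsupp.single P (1 : ℤ)) Q -
        a i * (∑ P ∈ S, Finsupp.single P (1 : ℤ) : Divisor K F) Q)) :
    ∃ x : Pic0 K F, x ≠ 0 ∧ 2 • x = 0 ∧ ∀ i, act i x = a i • x := by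
  obtain ⟨x, hx2, -, hxU, hxB⟩ :=
    exists_delta_class_of_fixed h2 hw hw1 hdiv2 div act d a hdeg hdw hact S hS hcard hne hout heig
  have hactw : ∀ i x, act i (w • x) = w • act i x := fun i x => by
    obtain ⟨D, rfl⟩ := Pic0.mk_surjective x
    have hm : ∀ D : Divisor.degZero (K := K) (F := F),
        div i D ∈ Divisor.degZero (K := K) (F := F) := fun D => by
      rw [Divisor.mem_degZero, hdeg, Divisor.mem_degZero.mp D.2, mul_zero]
    rw [Pic0.smul_mk, hact i _ (hm _), hact i D (hm D), Pic0.smul_mk]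
    exact congrArg Pic0.mk (Subtype.ext (hdw i D))
  -- classes of order two
  let T : AddSubgroup (Pic0 K F) := (nsmulAddMonoidHom 2 : Pic0 K F →+ Pic0 K F).ker
  have : Finite T := hfin
  have memT : ∀ x, x ∈ T ↔ 2 • x = 0 := fun x => Iff.rfl
  have hwT : ∀ t ∈ T, t - w • t ∈ T := fun t ht => by
    rw [memT] at ht ⊢
    rw [nsmul_sub, smul_comm 2 w t, ht, smul_zero (A := Pic0 K F) w, sub_zero]
  have hBT : ∀ i, ∀ t ∈ T, act i t - a i • t ∈ T := fun i t ht => by
    rw [memT] at ht ⊢
    rw [nsmul_sub, ← map_nsmul, ht, map_zero, smul_comm, ht, zsmul_zero, sub_zero]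
  let D : T →+ T := AddMonoidHom.mk' (fun t => ⟨t - w • (t : Pic0 K F), hwT t t.2⟩) fun s t =>
    Subtype.ext (by
      show (s : Pic0 K F) + t - w • ((s : Pic0 K F) + t) =
        (s : Pic0 K F) - w • (s : Pic0 K F) + ((t : Pic0 K F) - w • (t : Pic0 K F))
      rw [smul_add]; abel)
  let B : ι → AddMonoid.End T := fun i =>
    AddMonoidHom.mk' (fun t => ⟨act i t - a i • (t : Pic0 K F), hBT i t t.2⟩) fun s t =>
      Subtype.ext (by
        show act i ((s : Pic0 K F) + t) - a i • ((s : Pic0 K F) + t) =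
          act i s - a i • (s : Pic0 K F) + (act i t - a i • (t : Pic0 K F))
        rw [map_add, zsmul_add]; abel)
  suffices h : ∃ z : T, z ≠ 0 ∧ ∀ i, B i z = 0 by
    obtain ⟨z, hz, hzB⟩ := h
    refine ⟨z, fun h => hz (Subtype.ext h), (memT _).mp z.2, fun i => ?_⟩
    exact sub_eq_zero.mp (congrArg Subtype.val (hzB i))
  refine exists_ne_zero_of_eigen_mod (B := B) (fun i j => AddMonoidHom.ext fun t => by
      apply Subtype.ext
      show act i (act j t - a j • (t : Pic0 K F)) - a i • (act j t - a j • (t : Pic0 K F)) =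
        act j (act i t - a i • (t : Pic0 K F)) - a j • (act i t - a i • (t : Pic0 K F))
      rw [map_sub, map_sub, map_zsmul, map_zsmul, hcomm, zsmul_sub, zsmul_sub, smul_comm (a i) (a j)]
      abel)
    D.range
    (fun i u ⟨t, htu⟩ => ⟨B i t, by
      subst htu
      apply Subtype.ext
      show act i t - a i • (t : Pic0 K F) - w • (act i t - a i • (t : Pic0 K F)) =
        act i ((t : Pic0 K F) - w • (t : Pic0 K F)) - a i • ((t : Pic0 K F) - w • (t : Pic0 K F))
      rw [map_sub, hactw, smul_sub, zsmul_sub, smul_comm w (a i)]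
      abel⟩)
    (x := (⟨x, (memT _).mpr hx2⟩ : T)) ?_ ?_
  · rintro ⟨t, ht⟩
    exact hxU t ((memT _).mp t.2) (congrArg Subtype.val ht)
  · intro i
    obtain ⟨t, ht, ht'⟩ := hxB i
    exact ⟨⟨t, (memT _).mpr ht⟩, Subtype.ext ht'⟩

end Main

end FLTA.LT2

end
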