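import Fermat.Agent.Periods.HomForm
import Fermat.Agent.Periods.CharExtend
import Fermat.Agent.Periods.HeckeQuot
import Fermat.Agent.LT2.FixedClass
import Fermat.Prelude.Def_FLTPrelim_ModularRep

/-!
# Eigenforms from proper ideals of Hecke rings, and enlarging the set of eigen primes

A proper ideal containing `p` of a ring of Hecke operators gives an eigenform whose coefficients
modulo a prime over `p` are the operators modulo a maximal ideal.  If residual eigen systems are
determined by almost all primes, a class which is an eigenclass at almost all primes modulo norms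
of an involution gives one which is an eigenclass at all good primes.
-/

set_option autoImplicit false

noncomputable section

namespace FLTA.LT2

open CongruenceSubgroup FLTA.Periods
open scoped MatrixGroups IsMulCommutative

section Ring

variable {R : Type*} [CommRing R] [Module.Finite ℤ R] [IsAddTorsionFree R]

/-- A proper ideal containing `p` of a subring of a finite torsion-free ring gives a character to
the algebraic integers. -/
theorem exists_char_of_ideal {p : ℕ} (A : Subring R) (I : Ideal A)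
    (hI : (1 : A) ∉ I) (hpI : (p : A) ∈ I) :
    ∃ (M : Ideal A) (χ : R →+* integralClosure ℤ ℂ) (𝔪 : Ideal (integralClosure ℤ ℂ)),
      I ≤ M ∧ M.IsMaximal ∧ 𝔪.IsMaximal ∧ (p : integralClosure ℤ ℂ) ∈ 𝔪 ∧
      ∀ x : A, χ (x : R) ∈ 𝔪 ↔ x ∈ M := by
  obtain ⟨M, hM, hIM⟩ := Ideal.exists_le_maximal I ((Ideal.ne_top_iff_one _).mpr hI)
  have : Module.Finite ℤ A :=
    Module.Finite.of_injective A.subtype.toIntAlgHom.toLinearMap Subtype.val_injective
  have : IsAddTorsionFree A := ⟨fun n hn x y h => Subtype.ext <| nsmul_right_injective hn (by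
    simpa using congrArg Subtype.val h)⟩
  have : Algebra.IsIntegral A R :=
    ⟨fun x => IsIntegral.tower_top (R := ℤ) (Algebra.IsIntegral.isIntegral x)⟩
  -- a prime below `M` over `0`
  obtain ⟨P, hPmin, hP⟩ :=
    Ideal.exists_minimalPrimes_le (I := (⊥ : Ideal A)) (J := M) bot_le
  have : P.IsPrime := hPmin.1.1
  have hint : ∀ n : ℤ, (n : A) ∈ P → n = 0 := by
    intro n hn
    by_contra hn0
    refine Set.disjoint_left.mp (Ideal.disjoint_nonZeroDivisors_of_mem_minimalPrimes hPmin) hn ?_
    refine mem_nonZeroDivisors_iff_right.mpr fun x hx => ?_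
    have h : n • x = 0 := by rw [zsmul_eq_mul, mul_comm]; exact hx
    exact (smul_eq_zero.mp h).resolve_left hn0
  have : Algebra.IsIntegral ℤ (A ⧸ P) := Algebra.IsIntegral.of_finite ℤ _
  have hinj : Function.Injective (algebraMap ℤ (A ⧸ P)) := by
    rw [injective_iff_map_eq_zero]
    intro n hn
    rw [eq_intCast, ← map_intCast (Ideal.Quotient.mk P), Ideal.Quotient.eq_zero_iff_mem] at hn
    exact hint n hn
  have : FaithfulSMul ℤ (A ⧸ P) := (faithfulSMul_iff_algebraMap_injective _ _).mpr hinj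
  obtain ⟨ψ, hψ⟩ :=
    exists_ringHom_extension_of_isIntegral (A := ℤ) (B := A ⧸ P) (Int.castRingHom ℂ)
  have hker : RingHom.ker ψ = ⊥ := by
    have := RingHom.ker_isPrime ψ
    refine Ideal.eq_bot_of_comap_eq_bot (R := ℤ) (eq_bot_iff.mpr fun n hn => ?_)
    have h1 : ψ (algebraMap ℤ (A ⧸ P) n) = 0 := Ideal.mem_comap.mp hn
    have h2 := RingHom.congr_fun hψ n
    rw [RingHom.comp_apply, h1, eq_intCast, eq_comm, Int.cast_eq_zero] at h2
    exact h2
  -- extend to the whole ring
  obtain ⟨χ, hχ⟩ := exists_ringHom_extension_of_isIntegral (A := A) (B := R)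
    (ψ.comp (Ideal.Quotient.mk P))
  let χ' : R →+* integralClosure ℤ ℂ :=
    χ.codRestrict _ fun x => (Algebra.IsIntegral.isIntegral x).map χ.toIntAlgHom
  let χA : A →+* integralClosure ℤ ℂ := χ'.comp A.subtype
  have hkerA : RingHom.ker χA ≤ M := fun x hx => hP (by
    have hx' : ψ (Ideal.Quotient.mk P x) = 0 :=
      (RingHom.congr_fun hχ x).symm.trans (congrArg Subtype.val (RingHom.mem_ker.mp hx))
    have : Ideal.Quotient.mk P x ∈ RingHom.ker ψ := hx'
    rwa [hker, Ideal.mem_bot, Ideal.Quotient.eq_zero_iff_mem] at this)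
  let R' : Subring (integralClosure ℤ ℂ) := χA.range
  have hmap : (M.map χA.rangeRestrict).IsMaximal :=
    Ideal.IsMaximal.map_of_surjective_of_ker_le χA.rangeRestrict_surjective
      (by rwa [RingHom.ker_rangeRestrict])
  have : Algebra.IsIntegral R' (integralClosure ℤ ℂ) :=
    ⟨fun x => IsIntegral.tower_top (R := ℤ) (Algebra.IsIntegral.isIntegral x)⟩
  obtain ⟨𝔪, hmax, hQ⟩ := Ideal.exists_ideal_over_maximal_of_isIntegral
    (S := integralClosure ℤ ℂ) (M.map χA.rangeRestrict) (by
      rw [(RingHom.injective_iff_ker_eq_bot _).mp Subtype.val_injective]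
      exact bot_le)
  have hcomap : ∀ x : A, χA x ∈ 𝔪 ↔ x ∈ M := fun x => by
    constructor
    · intro hx
      have h1 : χA.rangeRestrict x ∈ M.map χA.rangeRestrict := by
        rw [← hQ]; exact hx
      obtain ⟨y, hy, hyx⟩ :=
        (Ideal.mem_map_iff_of_surjective _ χA.rangeRestrict_surjective).mp h1
      have hd : x - y ∈ RingHom.ker χA := by
        rw [RingHom.mem_ker, map_sub, sub_eq_zero]
        exact (congrArg Subtype.val hyx).symm
      simpa using add_mem (hkerA hd) hy
    · intro hx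
      have := Ideal.mem_map_of_mem χA.rangeRestrict hx
      rw [← hQ] at this
      exact this
  refine ⟨M, χ', 𝔪, hIM, hM, hmax, ?_, hcomap⟩
  simpa using (hcomap (p : A)).mpr (hIM hpI)

/-- **Almost all eigenvalues to all eigenvalues.** -/
theorem exists_eigen_norms_all {V : Type*} [AddCommGroup V] [Finite V]
    (φ : R →+* Module.End ℤ V) (ω : Module.End ℤ V) (h2 : ∀ v : V, 2 • v = 0) {ι : Type*}
    (T : ι → R) (a : ι → ℤ) (hω : ∀ i, Commute ω (φ (T i))) (S : Set ι)
    (hup : ∀ (χ : R →+* integralClosure ℤ ℂ) (𝔪 : Ideal (integralClosure ℤ ℂ)),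
      𝔪.IsMaximal → (2 : integralClosure ℤ ℂ) ∈ 𝔪 →
      (∀ i ∉ S, χ (T i) - ((a i : ℤ) : integralClosure ℤ ℂ) ∈ 𝔪) →
      ∀ i, χ (T i) - ((a i : ℤ) : integralClosure ℤ ℂ) ∈ 𝔪)
    {x : V} (hx : ω x = x) (hxU : ∀ u, u + ω u ≠ x)
    (hxS : ∀ i ∉ S, ∃ u, u + ω u = φ (T i) x - a i • x) :
    ∃ z : V, ω z = z ∧ (∀ u, u + ω u ≠ z) ∧ ∀ i, ∃ u, u + ω u = φ (T i) z - a i • z := by
  classical
  let A : Subring R := (Subring.centralizer {ω}).comap φ
  have hA : ∀ (t : A) (v : V), φ (t : R) (ω v) = ω (φ (t : R) v) := fun t v =>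
    (LinearMap.congr_fun (Subring.mem_centralizer_iff.mp t.2 ω rfl) v).symm
  have hTA : ∀ i, T i ∈ A := fun i => Subring.mem_centralizer_iff.mpr fun g hg => by
    rw [Set.mem_singleton_iff.mp hg]; exact (hω i).eq
  -- norms and the quotient
  let U : Submodule ℤ V := LinearMap.range (LinearMap.id + ω)
  have memU : ∀ v, v ∈ U ↔ ∃ u, u + ω u = v := fun v => Iff.rfl
  have hUA : ∀ t : A, U ≤ U.comap (φ (t : R)) := fun t v hv => by
    obtain ⟨u, rfl⟩ := (memU v).mp hv
    exact (memU _).mpr ⟨φ (t : R) u, by rw [map_add, hA]⟩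
  let π : A →+* Module.End ℤ (V ⧸ U) :=
    { toFun := fun t => U.mapQ U (φ (t : R)) (hUA t)
      map_one' := Submodule.linearMap_qext _ (LinearMap.ext fun v => by simp)
      map_zero' := Submodule.linearMap_qext _ (LinearMap.ext fun v => by simp)
      map_add' := fun s t => Submodule.linearMap_qext _ (LinearMap.ext fun v => by simp)
      map_mul' := fun s t => Submodule.linearMap_qext _ (LinearMap.ext fun v => by simp) }
  have π_mk : ∀ (t : A) (v : V), π t (Submodule.Quotient.mk v) =
      Submodule.Quotient.mk (φ (t : R) v) := fun t v => rfl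
  have : Finite (V ⧸ U) := Finite.of_surjective _ (Submodule.Quotient.mk_surjective U)
  let t : ι → A := fun i => ⟨T i, hTA i⟩
  let B : ι → AddMonoid.End (V ⧸ U) := fun i => (π (t i - (a i : A))).toAddMonoidHom
  have hBpow : ∀ (i : ι) (m : ℕ) (c : V ⧸ U), (B i ^ m) c = π ((t i - (a i : A)) ^ m) c := by
    intro i m
    induction m with
    | zero => intro c; rw [pow_zero, pow_zero, map_one]; rfl
    | succ m hm =>
      intro c
      rw [pow_succ, pow_succ, map_mul, end_mul_apply, hm, Module.End.mul_apply]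
      rfl
  have hcomm : ∀ i j, B i * B j = B j * B i := fun i j => AddMonoidHom.ext fun c => by
    show π (t i - (a i : A)) (π (t j - (a j : A)) c) =
      π (t j - (a j : A)) (π (t i - (a i : A)) c)
    rw [← Module.End.mul_apply, ← Module.End.mul_apply, ← map_mul, ← map_mul, mul_comm]
  let W : AddSubgroup (V ⧸ U) :=
    { carrier := {c | (∃ v, ω v = v ∧ Submodule.Quotient.mk v = c) ∧
        ∀ i : ι, i ∉ S → B i c = 0}
      zero_mem' := ⟨⟨0, map_zero _, rfl⟩, fun i _ => map_zero _⟩
      add_mem' := fun {c d} hc hd => by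
        obtain ⟨⟨v, hv, rfl⟩, hc⟩ := hc
        obtain ⟨⟨v', hv', rfl⟩, hd⟩ := hd
        exact ⟨⟨v + v', by rw [map_add, hv, hv'], rfl⟩,
          fun i hi => by rw [map_add, hc i hi, hd i hi, add_zero]⟩
      neg_mem' := fun {c} hc => by
        obtain ⟨⟨v, hv, rfl⟩, hc⟩ := hc
        exact ⟨⟨-v, by rw [map_neg, hv], rfl⟩, fun i hi => by rw [map_neg, hc i hi, neg_zero]⟩ }
  have hW : ∀ i, ∀ c ∈ W, B i c ∈ W := by
    rintro i c ⟨⟨v, hv, rfl⟩, hc⟩
    refine ⟨⟨φ ((t i - (a i : A) : A) : R) v, by rw [← hA, hv], rfl⟩, fun j hj => ?_⟩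
    rw [← end_mul_apply, hcomm, end_mul_apply, hc j hj, map_zero]
  have hnil : ∀ i, ∃ m, ∀ c ∈ W, (B i ^ m) c = 0 := by
    intro i
    have : Finite (AddMonoid.End (V ⧸ U)) :=
      Finite.of_injective (fun φ : AddMonoid.End (V ⧸ U) => (φ : V ⧸ U → V ⧸ U))
        DFunLike.coe_injective
    obtain ⟨m, hm, hidem⟩ := exists_pow_idem (B i)
    refine ⟨m, fun c hc => ?_⟩
    by_contra hne
    set u : A := t i - (a i : A) with hu
    set z := (B i ^ m) c with hz
    have huz : π (u ^ m) z = z := by rw [← hBpow, hz, ← end_mul_apply, hidem]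
    have hzW : z ∈ W := pow_apply_mem (hW i) m c hc
    let I : Ideal A :=
      { carrier := {r | π r z = 0}
        zero_mem' := by show π 0 z = 0; rw [map_zero]; rfl
        add_mem' := fun {r s} hr hs => by
          show π (r + s) z = 0
          rw [map_add, LinearMap.add_apply, hr, hs, add_zero]
        smul_mem' := fun r s hs => by
          show π (r * s) z = 0
          rw [map_mul, Module.End.mul_apply, hs, map_zero] }
    have memI : ∀ r, r ∈ I ↔ π r z = 0 := fun r => Iff.rfl
    obtain ⟨M, χ, 𝔪, hIM, hM, hmax, h2m, hiff⟩ :=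
      exists_char_of_ideal (p := 2) A I
      (fun h1 => hne (by rw [memI, map_one] at h1; exact h1))
        (by
          rw [memI, map_natCast]
          obtain ⟨v, hv⟩ := Submodule.Quotient.mk_surjective U z
          rw [← hv, ← Nat.smul_one_eq_cast, LinearMap.smul_apply, Module.End.one_apply,
            ← Submodule.Quotient.mk_smul, h2, Submodule.Quotient.mk_zero])
    have hcong := hup χ 𝔪 hmax (by exact_mod_cast h2m) (fun j hj => by
      have h := (hiff (t j - (a j : A))).mpr (hIM ((memI _).mpr (hzW.2 j hj)))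
      rwa [AddSubgroupClass.coe_sub, map_sub, SubringClass.coe_intCast, map_intCast] at h) i
    have huM : u ∈ M := by
      rw [← hiff, hu, AddSubgroupClass.coe_sub, map_sub, SubringClass.coe_intCast, map_intCast]
      exact hcong
    refine hM.ne_top ((Ideal.eq_top_iff_one _).mpr ?_)
    have h1 : u ^ m - 1 ∈ M := hIM ((memI _).mpr (by
      rw [map_sub, map_one, LinearMap.sub_apply, huz, Module.End.one_apply, sub_self]))
    simpa using M.sub_mem (Ideal.pow_mem_of_mem M huM m hm) h1
  -- the class of `x`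
  have hxW : (Submodule.Quotient.mk x : V ⧸ U) ∈ W := by
    refine ⟨⟨x, hx, rfl⟩, fun i hi => ?_⟩
    show π (t i - (a i : A)) (Submodule.Quotient.mk x : V ⧸ U) = 0
    rw [map_sub, map_intCast, LinearMap.sub_apply, π_mk, Module.End.intCast_apply,
      ← Submodule.Quotient.mk_smul, ← Submodule.Quotient.mk_sub, Submodule.Quotient.mk_eq_zero,
      memU]
    exact hxS i hi
  obtain ⟨c, hcW, hc0, hc⟩ : ∃ c ∈ W, c ≠ 0 ∧ ∀ i, B i c = 0 := by
    obtain ⟨c, hc⟩ := exists_common_ker_mem hcomm W hW hnil hxW (by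
      rw [ne_eq, Submodule.Quotient.mk_eq_zero, memU]
      rintro ⟨u, hu⟩
      exact hxU u hu)
    exact ⟨c, hc.1, hc.2.1, hc.2.2⟩
  obtain ⟨⟨v, hv, rfl⟩, -⟩ := hcW
  refine ⟨v, hv, fun u hu => hc0 ((Submodule.Quotient.mk_eq_zero U).mpr ((memU v).mpr ⟨u, hu⟩)),
    fun i => ?_⟩
  have h := hc i
  replace h : π (t i - (a i : A)) (Submodule.Quotient.mk v : V ⧸ U) = 0 := h
  rw [map_sub, map_intCast, LinearMap.sub_apply, π_mk, Module.End.intCast_apply,
    ← Submodule.Quotient.mk_smul, ← Submodule.Quotient.mk_sub, Submodule.Quotient.mk_eq_zero,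
    memU] at h
  exact h

end Ring

end FLTA.LT2

end
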