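import Fermat.Agent.LT2.TraceTransfer
import Fermat.Agent.LT2.FixedClass
import Fermat.Agent.Bridge.Places
import Fermat.Agent.MordellWeil.Modular

/-!
# Reductions of Fricke invariant characters modulo four are norms

For an involution `w` with a fixed place, a class killed by `1 + w` lies in the span of the
`y - w • y` (Tsen).  Hence, if `x` is invariant and killed by four, `2 x` is the norm of a class of
order two.  For the Fricke involution of `X₀(N)`, `N ≥ 2`, the point `i / √N` gives the fixed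
place.
-/

set_option autoImplicit false

noncomputable section

open AlgebraicCurve
open scoped Pointwise

namespace FLTA.LT2

section General

variable {K F : Type*} [Field K] [Field F] [Algebra K F] [IsAlgClosed K] [IsCurveOver K F]
  [FLTA.Curves.IsFunctionField K F] {w : F ≃ₐ[K] F}

/-- A class killed by `1 + w` is in the span of the `y - w • y` when `w` fixes a place. -/
theorem mem_augSpan_of_add_smul_eq_zero (h2 : (2 : K) ≠ 0) (hw : w * w = 1)
    (hw1 : ∃ h : F, h ≠ 0 ∧ w h = -h) {P : Place K F} (hP : w • P = P) {x : Pic0 K F}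
    (hx : x + w • x = 0) : x ∈ augSpan (Pic0 K F) [w] := by
  have h2F : (2 : F) ≠ 0 := by
    rw [show (2 : F) = algebraMap K F 2 from (map_ofNat _ _).symm]
    exact (map_ne_zero _).mpr h2
  have hws : InvolList [w] := ⟨by simp, by simpa using hw⟩
  have hind : Indep [w] := ⟨fun hmem => by
    obtain ⟨a, ha, hwa⟩ := hw1
    have h1 : w = 1 := by simpa [Subgroup.mem_bot] using hmem
    rw [h1, AlgEquiv.one_apply, eq_neg_iff_add_eq_zero, ← two_mul] at hwa
    exact mul_ne_zero h2F ha hwa, trivial⟩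
  obtain ⟨D, rfl⟩ := Pic0.mk_surjective x
  rw [Pic0.smul_mk, ← Pic0.mk_add, ← Pic0.mk_zero] at hx
  obtain ⟨f, hf, hfv⟩ := exists_div_of_mk_eq hx.symm
  rw [AddSubgroup.coe_zero, sub_zero, AddSubgroup.coe_add, Pic0.coe_degZeroSMulHom] at hfv
  have hwf : w f ≠ 0 := (map_ne_zero _).mpr hf
  have hsym : w • ((D : Divisor K F) + w • (D : Divisor K F)) = D + w • (D : Divisor K F) := by
    rw [smul_add, smul_smul, hw, one_smul, add_comm]
  obtain ⟨c, hc⟩ := exists_const_of_ord_eq_zero (K := K) (div_ne_zero hwf hf) fun v => by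
    rw [div_eq_mul_inv, v.ord_mul hwf (inv_ne_zero hf), v.ord_inv, ← ord_smul' w hfv, hsym, ← hfv,
      add_neg_cancel]
  have hwf' : w f = algebraMap K F c * f := by rw [← hc, div_mul_cancel₀ _ hf]
  have hc2 : c * c = 1 := by
    have h := congrArg w hwf'
    rw [map_mul, w.commutes, apply_apply' hw, hwf', ← mul_assoc, ← map_mul] at h
    refine (algebraMap K F).injective (mul_right_cancel₀ hf ?_)
    rw [map_one, one_mul, ← h]
  have heven : Even (P.ord f) := by
    rw [← hfv, Finsupp.add_apply, Divisor.smul_apply, inv_smul_eq_iff.mpr hP.symm]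
    exact ⟨_, rfl⟩
  have hfix : FixedBy [w] f := by
    simp only [FixedBy, List.mem_singleton, forall_eq]
    rcases mul_self_eq_one_iff.mp hc2 with rfl | rfl
    · rw [hwf', map_one, one_mul]
    · have := (ord_parity h2 hw hw1 hP hf).2 (by rw [hwf', map_neg, map_one, neg_one_mul])
      exact absurd heven (Int.not_even_iff_odd.mpr this)
  obtain ⟨g, hg, hgf⟩ := exists_lnormMul_eq (normSurj_of_indep h2F hws hind) hf hfix
  obtain ⟨G, hG, hGdeg⟩ := HasPrincipalDivisors.exists_divisor (K := K) g hg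
  set E : Divisor.degZero (K := K) (F := F) :=
    ⟨(D : Divisor K F) - G, sub_mem D.2 (Divisor.mem_degZero.mpr hGdeg)⟩ with hE
  have hEmk : Pic0.mk D = Pic0.mk E :=
    (mk_eq_mk_of_principal hg fun v => by rw [hE, sub_sub_cancel]; exact hG v)|>.symm
  have hEN : lnorm [w] (E : Divisor K F) = 0 := by
    refine Finsupp.ext fun v => ?_
    rw [hE, lnorm_sub, Finsupp.sub_apply, lnorm_apply_eq_ord [w] hg hG, hgf, ← hfv, lnorm_cons,
      lnorm_nil, sub_self, Finsupp.zero_apply]
  have key : ∀ y ∈ augSpan (Divisor K F) [w], ∃ z : Divisor.degZero (K := K) (F := F),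
      (z : Divisor K F) = y ∧ Pic0.mk z ∈ augSpan (Pic0 K F) [w] := by
    intro y hy
    induction hy using AddSubgroup.closure_induction with
    | mem y hy =>
      obtain ⟨v, hv, A, rfl⟩ := hy
      obtain rfl : v = w := by simpa using hv
      set A' : Divisor K F := A - Divisor.degree A • Finsupp.single P (1 : ℤ) with hA'
      have hA'deg : A' ∈ Divisor.degZero (K := K) (F := F) := by
        rw [Divisor.mem_degZero, hA', map_sub, map_zsmul, Divisor.degree_single,
          IsCurveOver.deg_eq_one_of_isAlgClosed P, smul_eq_mul]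
        ring
      refine ⟨⟨A', hA'deg⟩ - Pic0.degZeroSMulHom v ⟨A', hA'deg⟩, ?_, ?_⟩
      · rw [AddSubgroupClass.coe_sub, Pic0.coe_degZeroSMulHom]
        show A' - v • A' = _
        rw [hA', smul_sub, smul_comm v (Divisor.degree A), Divisor.smul_single, hP]
        abel
      · rw [show Pic0.mk (⟨A', hA'deg⟩ - Pic0.degZeroSMulHom v ⟨A', hA'deg⟩) =
          Pic0.mk ⟨A', hA'deg⟩ - v • Pic0.mk ⟨A', hA'deg⟩ from rfl]
        exact sub_smul_mem_augSpan hv _
    | zero => exact ⟨0, rfl, by rw [Pic0.mk_zero]; exact zero_mem _⟩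
    | add a b _ _ ha hb =>
      obtain ⟨z, hz, hzm⟩ := ha
      obtain ⟨z', hz', hzm'⟩ := hb
      exact ⟨z + z', by simp [hz, hz'], by rw [Pic0.mk_add]; exact add_mem hzm hzm'⟩
    | neg a _ ha =>
      obtain ⟨z, hz, hzm⟩ := ha
      exact ⟨-z, by simp [hz],
        by rw [show Pic0.mk (-z) = -Pic0.mk z from rfl]; exact neg_mem hzm⟩
  obtain ⟨z, hz, hzm⟩ := key _ (mem_augSpan_of_lnorm_eq_zero hws hEN)
  rw [hEmk, show E = z from Subtype.ext hz.symm]
  exact hzm

/-- An invariant class killed by four is, doubled, the norm of a class killed by two. -/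
theorem exists_add_smul_eq_two_nsmul (h2 : (2 : K) ≠ 0) (hw : w * w = 1)
    (hw1 : ∃ h : F, h ≠ 0 ∧ w h = -h) {P : Place K F} (hP : w • P = P)
    (hdiv : ∀ y : Pic0 K F, ∃ z : Pic0 K F, 2 • z = y) {x : Pic0 K F} (h4 : 4 • x = 0)
    (hx : w • x = x) : ∃ t : Pic0 K F, 2 • t = 0 ∧ t + w • t = 2 • x := by
  have hws : InvolList [w] := ⟨by simp, by simpa using hw⟩
  have h : 2 • x + w • (2 • x) = 0 := by
    rw [two_nsmul, smul_add, hx]
    rw [← h4]
    abel
  obtain ⟨z, hz, hzx⟩ :=
    exists_two_nsmul_mem_augSpan hdiv (mem_augSpan_of_add_smul_eq_zero h2 hw hw1 hP h)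
  refine ⟨x - z, by rw [nsmul_sub, hzx, sub_self], ?_⟩
  have hN := lnorm_eq_zero_of_mem_augSpan hws hz
  rw [lnorm_cons, lnorm_nil] at hN
  rw [smul_sub, hx, two_nsmul]
  linear_combination (norm := abel) -hN

end General

section Fricke

open ModularCurve CongruenceSubgroup
open UpperHalfPlane hiding I
open FLTA.LevelRaising (QMat)
open FLTA.Bridge (Mero Hol evMero meroSmul scaleTau coe_scaleTau jInv ordF placeAt IsPointOver)
open FLTA.Kummer
open FLTA.Gamma0 (homPar0 IsParHom0)
open scoped MatrixGroups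

local notation "Qb" => AlgebraicClosure ℚ
local notation "ιbar" => AlgHom.toRingHom complexEmbedding

theorem frickeBarEquiv_mul_self (N : ℕ) [NeZero N] :
    frickeBarEquiv N * frickeBarEquiv N = 1 :=
  AlgEquiv.ext fun x => DFunLike.congr_fun (frickeBar_comp_frickeBar N) x

variable (N : ℕ) [NeZero N]

/-- `i / √N`. -/
def frickePt : ℍ :=
  ⟨Complex.I / (Real.sqrt N : ℂ), by
    have h : (0 : ℝ) < Real.sqrt N := Real.sqrt_pos.2 (Nat.cast_pos.2 (NeZero.pos N))
    simpa [Complex.div_ofReal_im] using h⟩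

theorem scaleTau_frickePt : scaleTau N (frickePt N) = ModularGroup.S • frickePt N := by
  apply UpperHalfPlane.ext
  rw [coe_scaleTau, UpperHalfPlane.modular_S_smul]
  have h : (Real.sqrt N : ℂ) ≠ 0 := by
    exact_mod_cast (Real.sqrt_pos.2 (Nat.cast_pos.2 (NeZero.pos N))).ne'
  have h2 : (Real.sqrt N : ℂ) * (Real.sqrt N : ℂ) = N := by
    rw [← Complex.ofReal_mul, Real.mul_self_sqrt (Nat.cast_nonneg N)]; simp
  show (N : ℂ) * (Complex.I / (Real.sqrt N : ℂ)) = (-(Complex.I / (Real.sqrt N : ℂ)))⁻¹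
  rw [← h2]
  field_simp
  linear_combination Complex.I_sq

variable {N}

theorem jGen_one_sub_ne_zero (hN : 2 ≤ N) :
    jGen N (one_dvd N) - jGen N (dvd_refl N) ≠ 0 := by
  refine sub_ne_zero.2 fun he => ?_
  have h := congrArg (fun x : modularFunctionFieldBar N =>
    (x : LaurentSeries Qb).coeff ((N : ℤ) * (-1))) he
  simp only [coe_jGen, qExpand_one_apply, qExpand_coeff_mul] at h
  have h1 : (jqModC Qb).coeff ((N : ℤ) * -1) = 0 := by
    have := coeff_jqModC_pow_of_lt Qb (b := 1) (m := (N : ℤ) * -1) (by push_cast; omega)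
    rwa [pow_one] at this
  have h2 : (jqModC Qb).coeff (-1) = 1 := by
    have := coeff_jqModC_pow_self Qb 1
    rwa [pow_one, Nat.cast_one] at this
  rw [h1, h2] at h
  exact zero_ne_one h

theorem exists_frickeBar_anti (hN : 2 ≤ N) :
    ∃ h : modularFunctionFieldBar N, h ≠ 0 ∧ frickeBarEquiv N h = -h := by
  refine ⟨jGen N (one_dvd N) - jGen N (dvd_refl N), jGen_one_sub_ne_zero hN, ?_⟩
  show frickeBar N _ = _
  rw [map_sub, frickeBar_jGen N (one_mul N), frickeBar_jGen N (mul_one N), neg_sub]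

/-- The Fricke symmetry fixes a place. -/
theorem exists_frickeBar_fixed_place (hN : 2 ≤ N) :
    ∃ P : Place Qb (modularFunctionFieldBar N), frickeBarEquiv N • P = P := by
  set τ := frickePt N with hτ
  have hpt : IsPointOver ιbar τ := by
    by_contra hcon
    set H : Hol := Bridge.modHolToHol N (Bridge.jAt N 1 (one_dvd N)) -
      Bridge.modHolToHol N (Bridge.jAt N N dvd_rfl) with hH
    have hev : evMero N ιbar (jGen N (one_dvd N) - jGen N (dvd_refl N)) = algebraMap Hol Mero H := by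
      rw [RingHom.map_sub, evMero_jGen, evMero_jGen, ← RingHom.map_sub]
    have hne := jGen_one_sub_ne_zero hN
    have hH0 : (H : ℍ → ℂ) ≠ 0 := fun h0 => (evMero_ne_zero N ιbar hne) (by
      rw [hev, show H = 0 from Subtype.ext h0, map_zero])
    have hz : (H : ℍ → ℂ) τ = 0 := by
      show jInv (scaleTau 1 τ) - jInv (scaleTau N τ) = 0
      rw [show scaleTau 1 τ = τ from UpperHalfPlane.ext (by simp [coe_scaleTau]), hτ,
        scaleTau_frickePt, Bridge.jInv_smul, sub_self]
    have h0 := Bridge.ordF_eq_zero_of_not_isPointOver N ιbar hcon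
      (jGen N (one_dvd N) - jGen N (dvd_refl N))
    rw [ordF, hev, Bridge.meroOrd_algebraMap_hol, Int.natCast_eq_zero] at h0
    exact (Bridge.ordAt_eq_zero_iff H.2 hH0 τ).1 h0 hz
  refine ⟨placeAt N ιbar τ hpt, ?_⟩
  set w := frickeBarEquiv N
  set P := placeAt N ιbar τ hpt
  refine Bridge.place_eq_of_mul_ord_eq (d := Bridge.ellipticIndex N τ)
    (Bridge.ellipticIndex_pos N τ) fun x => ?_
  have hP : (w • P).ord x = P.ord (w x) := by
    have h := Place.ord_smul w P (w x)
    rwa [← AlgEquiv.mul_apply, frickeBarEquiv_mul_self, AlgEquiv.one_apply] at h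
  rw [hP, ← Bridge.ordF_eq_mul_ord_placeAt, ← Bridge.ordF_eq_mul_ord_placeAt]
  have hW : IsAtkinLehner 1 N (frickeBarEquiv (1 * N)).toAlgHom := by
    intro a b b' _ _ _ ha hb
    exact isAtkinLehnerAt_frickeBar (1 * N) a b b' _ _
      (by rw [Nat.div_self (Nat.pos_of_ne_zero (NeZero.ne _))]; exact ha) (by rw [hb, one_mul])
  obtain ⟨δ, hδ, hAτ⟩ : ∃ δ ∈ Gamma0 N,
      δ • τ = (alPos (N := 1) (q := N) (Nat.coprime_one_right N) : GL (Fin 2) ℝ) • τ := by
    have hxy := (LevelRaising.exists_alData (Nat.coprime_one_right N)).choose_spec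
    set x := (LevelRaising.exists_alData (Nat.coprime_one_right N)).choose.1 with hx
    set y := (LevelRaising.exists_alData (Nat.coprime_one_right N)).choose.2 with hy
    refine ⟨⟨!![y, -x; (N : ℤ), -1], by
      rw [Matrix.det_fin_two_of]; push_cast at hxy; linear_combination hxy⟩,
      Periods.mem_Gamma0_of_dvd (by simp), ?_⟩
    apply UpperHalfPlane.ext
    have hdet : (0 : ℝ) < (((alPos (N := 1) (q := N) (Nat.coprime_one_right N) : GL(2, ℝ)⁺) :
        GL (Fin 2) ℝ).det : ℝ) := (alPos (N := 1) (q := N) (Nat.coprime_one_right N)).2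
    rw [UpperHalfPlane.coe_smul_of_det_pos hdet, Bridge.coe_smul_eq]
    have hA : (((alPos (N := 1) (q := N) (Nat.coprime_one_right N) : GL(2, ℝ)⁺) :
        GL (Fin 2) ℝ) : Matrix (Fin 2) (Fin 2) ℝ) = !![(N : ℝ) * x, (y : ℝ); (N : ℝ), (N : ℝ)] := by
      show alRealMat (LevelRaising.alMat _) = _
      ext i j
      fin_cases i <;> fin_cases j <;>
        simp [alRealMat, LevelRaising.alMat, QMat.mul_def, QMat.diag, QMat.ofSL,
          LevelRaising.alGamma, hx, hy, mul_comm]
    simp only [UpperHalfPlane.num, UpperHalfPlane.denom, hA]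
    simp
    have hτ2 : (N : ℂ) * (τ : ℂ) * τ = -1 := by
      have h := congrArg (fun z : ℍ => (z : ℂ)) (scaleTau_frickePt N)
      simp only [coe_scaleTau, UpperHalfPlane.modular_S_smul] at h
      rw [show (N : ℂ) * (τ : ℂ) * τ = (-(τ : ℂ))⁻¹ * τ from by rw [← h], inv_neg, neg_mul,
        inv_mul_cancel₀ τ.ne_zero]
    have h1 : (N : ℂ) * τ + (N : ℂ) ≠ 0 := by
      intro h0
      have := congrArg Complex.im h0
      simp at this
      exact τ.im_pos.ne' (this.resolve_left (NeZero.ne N))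
    have h2 : (N : ℂ) * (τ : ℂ) + -1 ≠ 0 := by
      intro h0
      have := congrArg Complex.im h0
      simp at this
      exact τ.im_pos.ne' (this.resolve_left (NeZero.ne N))
    rw [div_eq_div_iff h2 h1]
    linear_combination ((y : ℂ) - (N : ℂ) * x) * hτ2
  have key : ∀ (M : ℕ) [NeZero M] (hM : M = 1 * N) (z : modularFunctionFieldBar M),
      ordF M ιbar τ (frickeBar M z) = ordF M ιbar (δ • τ) z := by
    intro M _ hM z
    subst hM
    show Bridge.meroOrd τ (evMero (1 * N) ιbar ((frickeBarEquiv (1 * N)).toAlgHom z)) = _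
    rw [evMero_isAtkinLehner (Nat.coprime_one_right N) hW z, Bridge.meroOrd_meroSmul, ← hAτ]
    rfl
  exact (key N (one_mul N).symm x).trans (Bridge.ordF_smul N ιbar hδ τ x)

/-- **Reductions of fixed characters with values in `ZMod 4` are norms.** -/
theorem normsFour_self (hN : 2 ≤ N) : NormsFour N N := by
  intro y hy hfix
  obtain ⟨x, hx⟩ := (kummerEquiv N 4).surjective ⟨y, hy⟩
  have hdN : Nat.Coprime N (N / N) := by
    rw [Nat.div_self (Nat.pos_of_ne_zero (NeZero.ne N))]; exact Nat.coprime_one_right N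
  have hW : IsAtkinLehnerAt N N (frickeBarEquiv N).toAlgHom := isAtkinLehnerAt_frickeBar N
  have hxw : frickeBarEquiv N • (x : JZero N) = x :=
    (smul_eq_iff_alOp_eq dvd_rfl hdN hW x).2 (by rw [hx]; exact hfix)
  obtain ⟨P, hP⟩ := exists_frickeBar_fixed_place hN
  have hx4 : 4 • (x : JZero N) = 0 := by
    rw [← natCast_zsmul]; exact Pic0.mem_torsion.1 x.2
  obtain ⟨t, ht, htx⟩ := exists_add_smul_eq_two_nsmul (two_ne_zero) (frickeBarEquiv_mul_self N)
    (exists_frickeBar_anti hN) hP (MordellWeil.jZero_divisible N two_ne_zero) hx4 hxw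
  have htm : t ∈ Pic0.torsion Qb (modularFunctionFieldBar N) 2 := by
    rw [Pic0.mem_torsion, natCast_zsmul, ht]
  let u : JTors N 2 := ⟨t, htm⟩
  refine ⟨(kummerEquiv N 2 u).1, (kummerEquiv N 2 u).2, ?_⟩
  rw [← kummerEquiv_add_smul dvd_rfl hdN hW u
    ⟨2 • (x : JZero N), nsmul_mem_torsion (show 2 * 2 = 4 from rfl) x.2⟩ htx.symm,
    kummerEquiv_nsmul N 2 4 2 rfl x, hx]
  rfl

end Fricke

end FLTA.LT2
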