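import Fermat.Agent.LT2.FixedClass
import Fermat.Agent.LT2.ResidualClass
import Fermat.Agent.LT2.TraceFour
import Fermat.Agent.LevelLowering.HeckeNorm
import Fermat.Agent.GaloisReps.TateConstruct

/-!
# The delta class of part C from the eigenset of fixed places

A set of fixed places of the Fricke involution with the parities of the eigenvalues of `E` at
almost all primes gives, provided residual eigen systems of level `N` are determined by almost
all primes, a fixed parabolic character which is no norm and an eigencharacter modulo norms.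
-/

set_option autoImplicit false
set_option synthInstance.maxHeartbeats 400000

noncomputable section

open AlgebraicCurve ModularCurve CongruenceSubgroup
open FLTA.Periods FLTA.GaloisReps FLTA.Kummer
open scoped Pointwise Matrix IsMulCommutative

namespace FLTA.LT2

local notation "Qb" => AlgebraicClosure ℚ

variable {E : WeierstrassCurve ℤ} {N : ℕ} [NeZero N]

/-- `T_ℓ` commutes with a symmetry on classes when it does on divisors. -/
theorem heckeOperatorBar_smul {w : modularFunctionFieldBar N ≃ₐ[Qb] modularFunctionFieldBar N}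
    (ℓ : Nat.Primes) [NeZero (ℓ : ℕ)]
    (h : ∀ D, LevelLowering.heckeDiv N ℓ (w • D) = w • LevelLowering.heckeDiv N ℓ D)
    (x : JZero N) : heckeOperatorBar N ℓ (w • x) = w • heckeOperatorBar N ℓ x := by
  obtain ⟨D, rfl⟩ := Pic0.mk_surjective x
  obtain ⟨h1, e1⟩ := LevelLowering.heckeOperatorAlong_mk N ℓ (Pic0.degZeroSMulHom w D)
  obtain ⟨h2, e2⟩ := LevelLowering.heckeOperatorAlong_mk N ℓ D
  rw [Pic0.smul_mk, heckeOperatorBar_apply, heckeOperatorBar_apply, e1, e2, Pic0.smul_mk]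
  exact congrArg Pic0.mk (Subtype.ext (h D))

/-- **The delta class.** -/
theorem deltaClass_of_fixed (hN : 2 ≤ N)
    (Z : Finset (Place Qb (modularFunctionFieldBar N)))
    (hfix : ∀ P ∈ Z, frickeBarEquiv N • P = P) (heven : Even Z.card) (hne : Z.Nonempty)
    (hout : ∃ P, frickeBarEquiv N • P = P ∧ P ∉ Z)
    (hcomm : ∀ (l : ℕ) [NeZero l], l.Prime → ¬ l ∣ 2 * N → ∀ D,
      LevelLowering.heckeDiv N l (frickeBarEquiv N • D) =
        frickeBarEquiv N • LevelLowering.heckeDiv N l D)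
    (S : Finset ℕ)
    (heig : ∀ (l : ℕ) [NeZero l], l.Prime → l ∉ S → ¬ l ∣ 2 * N → ∀ P, frickeBarEquiv N • P = P →
      Even (LevelLowering.heckeDiv N l (∑ Q ∈ Z, Finsupp.single Q (1 : ℤ)) P -
        E.apOfModel l * (∑ Q ∈ Z, Finsupp.single Q (1 : ℤ) :
          Divisor Qb (modularFunctionFieldBar N)) P))
    (hup : ∀ (f : CuspForm (Gamma0 N) 2) (𝔪 : Ideal (integralClosure ℤ ℂ)),
      f.IsNormalizedEigenform → 𝔪.IsMaximal → (2 : integralClosure ℤ ℂ) ∈ 𝔪 →
      (∀ l : ℕ, l.Prime → l ∉ S → ¬ l ∣ 2 * N → ∃ b : integralClosure ℤ ℂ,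
        (b : ℂ) = ModularFormClass.qCoeff f l ∧
          b - ((E.apOfModel l : ℤ) : integralClosure ℤ ℂ) ∈ 𝔪) →
      ∀ l : ℕ, l.Prime → ¬ l ∣ 2 * N → ∃ b : integralClosure ℤ ℂ,
        (b : ℂ) = ModularFormClass.qCoeff f l ∧
          b - ((E.apOfModel l : ℤ) : integralClosure ℤ ℂ) ∈ 𝔪) :
    DeltaClass E N N := by
  classical
  have : Fact (Nat.Prime 2) := ⟨Nat.prime_two⟩
  set w := frickeBarEquiv N with hw_def
  let ι : Type := {l : ℕ // l.Prime ∧ ¬ l ∣ 2 * N}
  let P : ι → Nat.Primes := fun i => ⟨i.1, i.2.1⟩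
  have hnz : ∀ i : ι, NeZero i.1 := fun i => ⟨i.2.1.ne_zero⟩
  have hnd : ∀ i : ι, ¬ i.1 ∣ N := fun i h => i.2.2 (h.mul_left 2)
  -- the class from the fixed places
  obtain ⟨x, hx2, hxw, hxU, hxS⟩ := exists_delta_class_of_fixed (w := w) two_ne_zero
    (frickeBarEquiv_mul_self N) (exists_frickeBar_anti hN)
    (MordellWeil.jZero_divisible N two_ne_zero)
    (ι := {i : ι // i.1 ∉ S}) (fun i => LevelLowering.heckeDiv N i.1.1)
    (fun i => (heckeOperatorBar N (P i.1)).toAddMonoidHom)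
    (fun i => ((finrankAlong Qb (heckeBetaBar Qb N i.1.1) : ℕ) : ℤ))
    (fun i => E.apOfModel i.1.1)
    (fun i D => LevelLowering.degree_heckeDiv N i.1.1 D)
    (fun i D => hcomm i.1.1 i.1.2.1 i.1.2.2 D)
    (fun i D _ => (LevelLowering.heckeOperatorAlong_mk N i.1.1 D).choose_spec)
    Z hfix heven hne hout (fun i Q hQ => heig i.1.1 i.1.2.1 i.2 i.1.2.2 Q hQ)
  -- coordinates on the classes of order two
  obtain ⟨D, hD⟩ := exists_tateData_hecke N 2
  let e : (Fin D.r → ZMod (2 ^ 1)) → JZero N := fun v => (D.torsionEquiv 1 v : JZero N)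
  have e_inj : Function.Injective e := fun v v' h =>
    (D.torsionEquiv 1).injective (Subtype.ext h)
  have e_add : ∀ v v', e (v + v') = e v + e v' := fun v v' => by
    show (D.torsionEquiv 1 (v + v') : JZero N) = _
    rw [map_add]; rfl
  have e_zsmul : ∀ (k : ℤ) v, e (k • v) = k • e v := fun k v => by
    show (D.torsionEquiv 1 (k • v) : JZero N) = _
    rw [map_zsmul]; rfl
  have e_two : ∀ v, 2 • e v = 0 := fun v => by
    have := (Submodule.mem_torsionBy_iff _ _).mp (D.torsionEquiv 1 v).2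
    rw [← natCast_zsmul]
    exact this
  have e_surj : ∀ t : JZero N, 2 • t = 0 → ∃ v, e v = t := fun t ht => by
    obtain ⟨v, hv⟩ := (D.torsionEquiv 1).surjective
      ⟨t, (Submodule.mem_torsionBy_iff _ _).mpr (by
        rw [← natCast_zsmul] at ht
        exact ht)⟩
    exact ⟨v, congrArg Subtype.val hv⟩
  have hw2 : ∀ v, 2 • (w • e v) = 0 := fun v => by
    rw [smul_comm 2 w (e v), e_two, smul_zero (A := JZero N) w]
  choose om hom using fun v => e_surj (w • e v) (hw2 v)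
  let ω : Module.End ℤ (Fin D.r → ZMod (2 ^ 1)) := (AddMonoidHom.mk' om fun v v' =>
    e_inj (by rw [hom, e_add, smul_add, e_add, hom, hom])).toIntLinearMap
  have hω : ∀ v, e (ω v) = w • e v := hom
  let φ : fullHecke N →+* Module.End ℤ (Fin D.r → ZMod (2 ^ 1)) :=
    (Module.toModuleEnd ℤ (Fin D.r → ZMod (2 ^ 1))
      (S := Matrix (Fin D.r) (Fin D.r) (ZMod (2 ^ 1)))).comp
      ((Int.castRingHom (ZMod (2 ^ 1))).mapMatrix.comp D.hecke)
  let T : ι → fullHecke N := fun i =>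
    CuspForm.heckeAlgebra.T i.2.1 (hnd i) (Set.notMem_empty i.1)
  have hφ : ∀ (i : ι) v, e (φ (T i) v) = heckeOperatorBar N (P i) (e v) := fun i v =>
    hD 1 i.1 i.2.1 (hnd i) v
  have hneg : ∀ v, -e v = e v := fun v =>
    neg_eq_of_add_eq_zero_left (by rw [← two_nsmul, e_two])
  have hnorm : ∀ u, e (u + ω u) = e u - w • e u := fun u => by
    rw [e_add, hω, sub_eq_add_neg, ← hω, hneg]
  obtain ⟨x', hx'⟩ := e_surj x hx2
  obtain ⟨z, hzw, hzU, hzT⟩ := exists_eigen_norms_all φ ω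
    (fun v => e_inj (by rw [two_nsmul, e_add, ← two_nsmul, e_two]; simp [e]))
    T (fun i => E.apOfModel i.1)
    (fun i => LinearMap.ext fun v => e_inj (by
      show e (ω (φ (T i) v)) = e (φ (T i) (ω v))
      rw [hω, hφ, hφ, hω, heckeOperatorBar_smul (P i) (hcomm i.1 i.2.1 i.2.2)]))
    {i | i.1 ∈ S}
    (fun χ 𝔪 hmax h2 hcong i => by
      let χc : fullHecke N →+* ℂ := (integralClosure ℤ ℂ).val.toRingHom.comp χ
      have hq : ∀ j : ι, ((χ (T j) : integralClosure ℤ ℂ) : ℂ) =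
          ModularFormClass.qCoeff (formOfHom N χc) j.1 := fun j => by
        have hq := qCoeff_one_hecke_formOfHom N χc (T j)
        rw [CuspForm.heckeAlgebra.coe_T, qCoeff_heckeTLin, if_neg j.2.1.not_dvd_one, one_mul,
          add_zero] at hq
        exact hq.symm
      obtain ⟨b, hb, hbm⟩ := hup (formOfHom N χc) 𝔪 (isNormalizedEigenform_formOfHom N χc)
        hmax h2 (fun l hl hlS hl2 => ⟨χ (T ⟨l, hl, hl2⟩), hq ⟨l, hl, hl2⟩, hcong _ hlS⟩)
        i.1 i.2.1 i.2.2
      rwa [show b = χ (T i) from Subtype.ext (hb.trans (hq i).symm)] at hbm)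
    (x := x') (e_inj (by rw [hω, hx', hxw]))
    (fun u hu => hxU (e u) (e_two u) (by rw [← hnorm, hu, hx']))
    (fun i hi => by
      obtain ⟨t, ht, htx⟩ := hxS ⟨i, hi⟩
      obtain ⟨u, rfl⟩ := e_surj t ht
      refine ⟨u, e_inj ?_⟩
      rw [hnorm, htx, sub_eq_add_neg (φ (T i) x'), ← neg_zsmul, e_add, e_zsmul, hφ, hx',
        neg_zsmul, ← sub_eq_add_neg]
      rfl)
  -- transfer to characters
  have hdN : Nat.Coprime N (N / N) := by
    rw [Nat.div_self (Nat.pos_of_ne_zero (NeZero.ne N))]; exact Nat.coprime_one_right N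
  have hW : IsAtkinLehnerAt N N w.toAlgHom := isAtkinLehnerAt_frickeBar N
  have hmem : ∀ v, e v ∈ Pic0.torsion Qb (modularFunctionFieldBar N) 2 := fun v => by
    rw [Pic0.mem_torsion, natCast_zsmul, e_two]
  let cl : (Fin D.r → ZMod (2 ^ 1)) → JTors N 2 := fun v => ⟨e v, hmem v⟩
  have hadd : ∀ u, (kummerEquiv N 2 (cl (u + ω u))).1 =
      (kummerEquiv N 2 (cl u)).1 + alOp ℤ (ZMod 2) N N (kummerEquiv N 2 (cl u)).1 := fun u =>
    kummerEquiv_add_smul dvd_rfl hdN hW (cl u) (cl (u + ω u)) (by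
      show e (u + ω u) = e u + w • e u
      rw [e_add, hω])
  refine ⟨(kummerEquiv N 2 (cl z)).1, (kummerEquiv N 2 (cl z)).2,
    (smul_eq_iff_alOp_eq dvd_rfl hdN hW (cl z)).1 (by rw [show (cl z : JZero N) = e z from rfl,
      ← hω, hzw]), fun u hu hux => ?_, fun l hl hl2 => ?_⟩
  · obtain ⟨v, hv⟩ := e_surj (((kummerEquiv N 2).symm ⟨u, hu⟩ : JTors N 2) : JZero N) (by
      rw [← natCast_zsmul]; exact Pic0.mem_torsion.1 ((kummerEquiv N 2).symm ⟨u, hu⟩).2)
    have hcl : cl v = (kummerEquiv N 2).symm ⟨u, hu⟩ := Subtype.ext hv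
    have h := hadd v
    rw [hcl, AddEquiv.apply_symm_apply] at h
    exact hzU v (e_inj (congrArg Subtype.val
      ((kummerEquiv N 2).injective (Subtype.ext (h.trans hux)) :
        cl (v + ω v) = cl z)))
  · have hl2' : ¬ l ∣ 2 * N := hl2
    obtain ⟨u, hu⟩ := hzT ⟨l, hl, hl2'⟩
    refine ⟨(kummerEquiv N 2 (cl u)).1, (kummerEquiv N 2 (cl u)).2, ?_⟩
    rw [← hadd, hu]
    have hy := kummerEquiv_heckeOperatorBar (N := N) (n := 2) ⟨l, hl⟩ (cl z)
      (cl (φ (T ⟨l, hl, hl2'⟩) z)) (hφ ⟨l, hl, hl2'⟩ z)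
    rw [show cl (φ (T ⟨l, hl, hl2'⟩) z - E.apOfModel l • z) =
      cl (φ (T ⟨l, hl, hl2'⟩) z) + (-E.apOfModel l) • cl z from Subtype.ext (by
        show e _ = e _ + (-E.apOfModel l) • e z
        rw [sub_eq_add_neg, ← neg_zsmul, e_add, e_zsmul]), map_add, map_zsmul]
    show (kummerEquiv N 2 _).1 + (-E.apOfModel l) • (kummerEquiv N 2 (cl z)).1 = _
    rw [hy, neg_zsmul, ← sub_eq_add_neg]

end FLTA.LT2

end
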