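import Fermat.Agent.LT2.FixedMain
import Fermat.Agent.LT2.FixedHecke
import Fermat.Agent.LT2.FixedFrickeAction
import Fermat.Agent.LT2.FixedFrickeHecke
import Fermat.Agent.LT2.ThetaCubicPsi
import Fermat.Agent.LT2.ThetaCubicData
import Fermat.Agent.LT2.ThetaAuxPrime
import Fermat.Agent.LT2.TraceDelta
import Fermat.Agent.LT2.ResidualUpgrade

/-!
# The delta class of a companion curve

The eigenset of fixed places of the Fricke involution of the level of a companion curve and the
resulting delta class.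
-/

set_option autoImplicit false
set_option synthInstance.maxHeartbeats 400000

noncomputable section

open AlgebraicCurve ModularCurve CongruenceSubgroup
open FLTA.Kummer

namespace FLTA.LT2

local notation "Qb" => AlgebraicClosure ℚ

variable {E : WeierstrassCurve ℤ}

theorem two_le_conductorLevel (hE : Companion E) : 2 ≤ E.conductorLevel := by
  obtain ⟨q, hq, hqΔ⟩ := Companion.exists_bad_prime hE
  exact hq.two_le.trans (Nat.le_of_dvd E.conductorLevel_pos
    ((E.prime_dvd_conductorLevel_iff hE.Δ_ne_zero hq).mpr hqΔ))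

/-- The fixed places with nonzero cubic character have the parities of the eigenvalues of `E`. -/
theorem companion_fixed_eigenset (hE : Companion E) [NeZero E.conductorLevel] :
    ∃ (Z : Finset (Place Qb (modularFunctionFieldBar E.conductorLevel))) (S : Finset ℕ),
      (∀ P ∈ Z, frickeBarEquiv E.conductorLevel • P = P) ∧ Even Z.card ∧ Z.Nonempty ∧
      (∃ P, frickeBarEquiv E.conductorLevel • P = P ∧ P ∉ Z) ∧
      ∀ (l : ℕ) [NeZero l], l.Prime → l ∉ S → ¬ l ∣ 2 * E.conductorLevel →
        ∀ P, frickeBarEquiv E.conductorLevel • P = P →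
          Even (LevelLowering.heckeDiv E.conductorLevel l (∑ Q ∈ Z, Finsupp.single Q (1 : ℤ)) P -
            E.apOfModel l * (∑ Q ∈ Z, Finsupp.single Q (1 : ℤ) :
              Divisor Qb (modularFunctionFieldBar E.conductorLevel)) P) := by
  obtain ⟨C, hCD, hCp⟩ := exists_cubicData hE
  have hD : C.D.natAbs = E.conductorLevel := by rw [hCD, Int.natAbs_neg, Int.natAbs_natCast]
  obtain ⟨S₀⟩ : Nonempty (CubicSymbol E.conductorLevel
      (fun p => ∃ x : ZMod p, C.eval x = 0)) := hD ▸ C.nonempty_cubicSymbol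
  set T : ℤ := S₀.bad * C.bad * E.Δ with hT
  have hT0 : T ≠ 0 :=
    mul_ne_zero (mul_ne_zero S₀.bad_ne C.bad_ne_zero) hE.Δ_ne_zero
  have hgood : ∀ l : ℕ, l.Prime → l ∉ T.natAbs.primeFactors →
      IsCoprime (l : ℤ) S₀.bad ∧ ¬ (l : ℤ) ∣ C.bad * E.Δ := by
    intro l hl hlT
    have h : ¬ (l : ℤ) ∣ T := fun h => hlT (Nat.mem_primeFactors.2
      ⟨hl, Int.natCast_dvd.1 h, Int.natAbs_ne_zero.2 hT0⟩)
    refine ⟨(Nat.prime_iff_prime_int.1 hl).coprime_iff_not_dvd.2 fun h' => h ?_, fun h' => h ?_⟩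
    · rw [hT, mul_assoc]; exact h'.mul_right _
    · rw [hT, mul_assoc]; exact h'.mul_left _
  obtain ⟨l₀, hl₀, hl₀T, -, -, -, hodd⟩ :=
    exists_prime_one_mod_odd_trace hE 1 T.natAbs.primeFactors
  obtain ⟨hl₀S, hl₀C⟩ := hgood l₀ hl₀ hl₀T
  obtain ⟨Z, hfix, heven, hne, hout, hT'⟩ := exists_fixed_eigenset (N := E.conductorLevel)
    E.squarefree_conductorLevel
    (isPointOver_of_frickeRel_self E.conductorLevel (two_le_conductorLevel hE))
    (isFrickeAction_frickeBarEquiv E.conductorLevel) S₀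
    ⟨l₀, hl₀, hl₀S, fun hR => (Int.not_even_iff_odd.2 hodd)
      (even_iff_two_dvd.2 ((hCp l₀ hl₀ hl₀C).2 hR))⟩
  refine ⟨Z, T.natAbs.primeFactors, hfix, heven, hne, hout, fun l _ hl hlT h2N P hP => ?_⟩
  obtain ⟨hlS, hlC⟩ := hgood l hl hlT
  obtain ⟨hα, hβ, hPD, -, -, -⟩ := FLTA.Curves.heckeInputsAlong E.conductorLevel Qb l
  have := hPD
  exact hT' l hl hlS (E.apOfModel l) (hCp l hl hlC) _
    (isHeckeAction_correspondence hl (fun h => h2N (h.mul_left 2)) hβ hα) P hP

/-- **The delta class of a companion.** -/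
theorem companion_delta (hE : Companion E) [NeZero E.conductorLevel] :
    DeltaClass E E.conductorLevel E.conductorLevel := by
  obtain ⟨Z, S, hfix, heven, hne, hout, heig⟩ := companion_fixed_eigenset hE
  exact deltaClass_of_fixed (two_le_conductorLevel hE) Z hfix heven hne hout
    (fun l _ hl h2N D => by
      have : Fact l.Prime := ⟨hl⟩
      exact heckeDiv_fricke_smul E.conductorLevel l (fun h => h2N (h.mul_left 2)) D)
    S heig fun f 𝔪 hf hmax h2 h l hl hl2N =>
      residual_congr_of_almost_all hE.Δ_ne_zero hf hmax h2 S h hl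
        (fun hd => hl2N (((E.prime_dvd_conductorLevel_iff hE.Δ_ne_zero hl).mpr hd).mul_left 2))
        hl2N

end FLTA.LT2

end
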