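import Fermat.Agent.LevelRaising.AssemblyIdentities
import Fermat.Agent.LT2.Defs
import Mathlib.Data.Nat.PrimeFin

/-!
# Part C: Atkin–Lehner operators on characters and the geometric inputs of the trace identities

`alOp 𝕜 A L d` is the Atkin–Lehner operator `W_d` on `Hom(Γ₀(L), A)`, for `d` exactly dividing `L`
(the identity otherwise).  `TraceGeometry E` lists what the function fields of `X₀(N · ∏ Q)`
provide: invariant classes are norms up to a Hecke operator of odd eigenvalue, except for `W_N`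
at level `N`, where there is an invariant class which is not a norm while the invariant classes
divisible by two among the invariant ones are norms.
-/

set_option autoImplicit false

noncomputable section

namespace FLTA.LT2

open CongruenceSubgroup FLTA.LevelRaising FLTA.Gamma0
open scoped MatrixGroups

/-- Transport along an equality of levels. -/
def levelHom {M M' : ℕ} (h : M = M') : Gamma0 M →* Gamma0 M' :=
  (MulEquiv.subgroupCongr (congrArg Gamma0 h)).toMonoidHom

@[simp] theorem coe_levelHom {M M' : ℕ} (h : M = M') (γ : Gamma0 M) :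
    (levelHom h γ : SL(2, ℤ)) = γ :=
  rfl

/-- The conjugation by an Atkin–Lehner matrix of `d` at level `L`. -/
def alAuto (L d : ℕ) : Gamma0 L →* Gamma0 L :=
  if h : d ≠ 0 ∧ L / d * d = L ∧ Nat.Coprime d (L / d) then
    haveI : NeZero d := ⟨h.1⟩
    (levelHom h.2.1).comp ((alHom h.2.2).comp (levelHom h.2.1.symm))
  else MonoidHom.id _

theorem alAuto_mul (N q : ℕ) [NeZero q] (h : Nat.Coprime q N) :
    alAuto (N * q) q = alHom h := by
  have h1 : N * q / q = N := Nat.mul_div_cancel N (Nat.pos_of_ne_zero (NeZero.ne q))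
  have hd : q ≠ 0 ∧ N * q / q * q = N * q ∧ Nat.Coprime q (N * q / q) := by
    rw [h1]; exact ⟨NeZero.ne q, rfl, h⟩
  rw [alAuto, dif_pos hd]
  have key : ∀ (N' : ℕ) (e : N' = N) (e' : N' * q = N * q) (h' : Nat.Coprime q N'),
      (levelHom e').comp ((alHom h').comp (levelHom e'.symm)) = alHom h := by
    rintro N' rfl e' h'
    rfl
  exact key _ h1 _ _

variable (𝕜 : Type*) [Semiring 𝕜] (A : Type*) [AddCommGroup A] [Module 𝕜 A]

/-- The Atkin–Lehner operator `W_d` on homomorphisms. -/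
def alOp (L d : ℕ) : Module.End 𝕜 (Additive (Gamma0 L) →+ A) where
  toFun x := x.comp (MonoidHom.toAdditive (alAuto L d))
  map_add' _ _ := rfl
  map_smul' _ _ := rfl

@[simp] theorem alOp_apply (L d : ℕ) (x : Additive (Gamma0 L) →+ A) (γ : Gamma0 L) :
    alOp 𝕜 A L d x (Additive.ofMul γ) = x (Additive.ofMul (alAuto L d γ)) :=
  rfl

theorem alOp_eq_alRes (N q : ℕ) [NeZero q] (h : Nat.Coprime q N)
    (x : Additive (Gamma0 (N * q)) →+ A) : alOp 𝕜 A (N * q) q x = alRes h x := by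
  refine AddMonoidHom.ext fun z => ?_
  obtain ⟨γ, rfl⟩ := Additive.ofMul.surjective z
  rw [alOp_apply, alAuto_mul N q h, alRes_apply]

variable {A} in
/-- Naturality in the coefficients. -/
theorem comp_alOp {B : Type*} [AddCommGroup B] [Module 𝕜 B] (f : A →+ B) (L d : ℕ)
    (x : Additive (Gamma0 L) →+ A) : f.comp (alOp 𝕜 A L d x) = alOp 𝕜 B L d (f.comp x) :=
  rfl

theorem trace_alAuto (L d : ℕ) (γ : Gamma0 L) :
    ((alAuto L d γ : Gamma0 L) : Matrix (Fin 2) (Fin 2) ℤ).trace =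
      ((γ : SL(2, ℤ)) : Matrix (Fin 2) (Fin 2) ℤ).trace := by
  by_cases hd : d ≠ 0 ∧ L / d * d = L ∧ Nat.Coprime d (L / d)
  · haveI : NeZero d := ⟨hd.1⟩
    rw [alAuto, dif_pos hd]
    exact trace_alHom hd.2.2 (levelHom hd.2.1.symm γ)
  · rw [alAuto, dif_neg hd]
    rfl

theorem isParHom0_alOp {L d : ℕ} {x : Additive (Gamma0 L) →+ A}
    (hx : IsParHom0 (Gamma0 L) x) : IsParHom0 (Gamma0 L) (alOp 𝕜 A L d x) := by
  intro γ hγ
  refine hx (alAuto L d γ) ?_
  unfold IsSmallTrace at hγ ⊢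
  rwa [trace_alAuto]

/-- Characters with values in `ZMod 2` of `Γ₀(L)`. -/
abbrev Chars2 (L : ℕ) : Type := Additive (Gamma0 L) →+ ZMod 2

/-- `T_l ^ 4` carries the parabolic characters fixed by `W_d` to norms. -/
def NormsTwo (L : ℕ) [NeZero L] (d l : ℕ) : Prop :=
  ∀ x : Chars2 L, IsParHom0 (Gamma0 L) x → alOp ℤ (ZMod 2) L d x = x →
    ∃ u : Chars2 L, IsParHom0 (Gamma0 L) u ∧
      u + alOp ℤ (ZMod 2) L d u = (FLTA.Periods.heckeHom ℤ L l ^ 4) x

/-- Reductions of fixed parabolic characters with values in `ZMod 4` are norms. -/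
def NormsFour (L d : ℕ) : Prop :=
  ∀ y : Additive (Gamma0 L) →+ ZMod 4, IsParHom0 (Gamma0 L) y → alOp ℤ (ZMod 4) L d y = y →
    ∃ u : Chars2 L, IsParHom0 (Gamma0 L) u ∧
      u + alOp ℤ (ZMod 2) L d u =
        (ZMod.castHom (show 2 ∣ 4 by norm_num) (ZMod 2)).toAddMonoidHom.comp y

/-- A fixed parabolic character which is no norm and is an eigencharacter modulo norms. -/
def DeltaClass (E : WeierstrassCurve ℤ) (L : ℕ) [NeZero L] (d : ℕ) : Prop :=
  ∃ x : Chars2 L, IsParHom0 (Gamma0 L) x ∧ alOp ℤ (ZMod 2) L d x = x ∧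
    (∀ u : Chars2 L, IsParHom0 (Gamma0 L) u → u + alOp ℤ (ZMod 2) L d u ≠ x) ∧
    ∀ l : ℕ, l.Prime → ¬ l ∣ 2 * L → ∃ u : Chars2 L, IsParHom0 (Gamma0 L) u ∧
      u + alOp ℤ (ZMod 2) L d u = FLTA.Periods.heckeHom ℤ L l x - E.apOfModel l • x

/-- What the function fields of the modular curves give to the trace identities. -/
structure TraceGeometry (E : WeierstrassCurve ℤ) : Prop where
  norms_two : ∀ Q : Finset ℕ, (∀ q ∈ Q, ConjPrime E 1 q) →
    ∀ [NeZero (E.conductorLevel * ∏ q ∈ Q, q)] (d : ℕ), d ∣ E.conductorLevel → d ≠ 1 →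
      (d ≠ E.conductorLevel ∨ Q.Nonempty) → ∀ S : Finset ℕ,
        ∃ l : ℕ, l.Prime ∧ l ∉ S ∧ Odd (E.apOfModel l) ∧
          NormsTwo (E.conductorLevel * ∏ q ∈ Q, q) d l
  norms_four : NormsFour E.conductorLevel E.conductorLevel
  delta : ∀ [NeZero E.conductorLevel], DeltaClass E E.conductorLevel E.conductorLevel

end FLTA.LT2
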