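import Fermat.Agent.LT2.TraceBridge
import Fermat.Agent.LT2.TraceDefs

/-!
# Atkin–Lehner symmetries and `alOp` under the Kummer comparison

For `d` exactly dividing `L`, a symmetry of the level `L` field which exchanges `j (a b τ)` and
`j (a b' τ)` (`a ∣ L / d`, `b b' = d`) acts on Kummer characters as `alOp`.
-/

set_option autoImplicit false

noncomputable section

open AlgebraicCurve ModularCurve CongruenceSubgroup
open FLTA.Kummer
open FLTA.Gamma0 (homPar0)

namespace FLTA.LT2

local notation "Qb" => AlgebraicClosure ℚ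

/-- `W` exchanges `j (a b τ)` and `j (a b' τ)` whenever `a ∣ L / d` and `b b' = d`. -/
def IsAtkinLehnerAt (L d : ℕ) [NeZero L]
    (W : modularFunctionFieldBar L →ₐ[Qb] modularFunctionFieldBar L) : Prop :=
  ∀ (a b b' : ℕ) [NeZero a] [NeZero b] [NeZero b'] (h1 : a * b ∣ L) (h2 : a * b' ∣ L),
    a ∣ L / d → b * b' = d → W (jGen L h1) = jGen L h2

/-- The Fricke symmetry is the Atkin–Lehner symmetry of the full level. -/
theorem isAtkinLehnerAt_frickeBar (L : ℕ) [NeZero L] :
    IsAtkinLehnerAt L L (frickeBar L) := by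
  intro a b b' _ _ _ h1 h2 ha hb
  rw [Nat.div_self (Nat.pos_of_ne_zero (NeZero.ne L)), Nat.dvd_one] at ha
  subst ha
  exact frickeBar_jGen L (show 1 * b * (1 * b') = L by rw [one_mul, one_mul, hb])

variable {L d n : ℕ} [NeZero L] [NeZero n]
  {W : modularFunctionFieldBar L ≃ₐ[Qb] modularFunctionFieldBar L}

/-- An Atkin–Lehner symmetry is `alOp` on Kummer characters. -/
theorem kummerEquiv_alOp (hdL : d ∣ L) (hd : Nat.Coprime d (L / d))
    (hW : IsAtkinLehnerAt L d W.toAlgHom) (x y : JTors L n)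
    (hy : (y : JZero L) = W • (x : JZero L)) :
    (kummerEquiv L n y).1 = alOp ℤ (ZMod n) L d (kummerEquiv L n x).1 := by
  obtain ⟨N, hN⟩ : ∃ N, N = L / d := ⟨_, rfl⟩
  have hL : L = N * d := by rw [hN, Nat.div_mul_cancel hdL]
  rw [← hN] at hd
  have : NeZero d := ⟨fun h0 => NeZero.ne L (by rw [hL, h0, mul_zero])⟩
  have : NeZero N := ⟨fun h0 => NeZero.ne L (by rw [hL, h0, zero_mul])⟩
  subst hL
  have hW' : IsAtkinLehner N d W.toAlgHom := by
    intro a b b' _ _ _ ha hb
    exact hW a b b' (mul_dvd_mul ha (Dvd.intro b' hb)) (mul_dvd_mul ha (Dvd.intro_left b hb))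
      (hN ▸ ha) hb
  rw [alOp_eq_alRes ℤ (ZMod n) N d hd]
  exact kummerEquiv_isAtkinLehner hd hW' n x y hy

omit [NeZero L] [NeZero n] in
/-- Torsion classes are stable under symmetries. -/
theorem smul_mem_torsion_aut (W : modularFunctionFieldBar L ≃ₐ[Qb] modularFunctionFieldBar L)
    (x : JTors L n) :
    W • (x : JZero L) ∈ Pic0.torsion Qb (modularFunctionFieldBar L) n := by
  rw [Pic0.mem_torsion, ← DistribSMul.toAddMonoidHom_apply (JZero L) W, ← map_zsmul,
    Pic0.mem_torsion.mp x.2, map_zero]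

/-- A torsion class is fixed by the symmetry exactly when its character is fixed by `alOp`. -/
theorem smul_eq_iff_alOp_eq (hdL : d ∣ L) (hd : Nat.Coprime d (L / d))
    (hW : IsAtkinLehnerAt L d W.toAlgHom) (x : JTors L n) :
    W • (x : JZero L) = (x : JZero L) ↔
      alOp ℤ (ZMod n) L d (kummerEquiv L n x).1 = (kummerEquiv L n x).1 := by
  have h := kummerEquiv_alOp hdL hd hW x ⟨_, smul_mem_torsion_aut W x⟩ rfl
  rw [← h]
  refine ⟨fun he => by rw [show (⟨_, smul_mem_torsion_aut W x⟩ : JTors L n) = x from Subtype.ext he],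
    fun he => ?_⟩
  exact congrArg Subtype.val ((kummerEquiv L n).injective (Subtype.ext he))

/-- The character of `u + W • u`. -/
theorem kummerEquiv_add_smul (hdL : d ∣ L) (hd : Nat.Coprime d (L / d))
    (hW : IsAtkinLehnerAt L d W.toAlgHom) (u v : JTors L n)
    (hv : (v : JZero L) = (u : JZero L) + W • (u : JZero L)) :
    (kummerEquiv L n v).1 =
      (kummerEquiv L n u).1 + alOp ℤ (ZMod n) L d (kummerEquiv L n u).1 := by
  rw [← kummerEquiv_alOp hdL hd hW u ⟨_, smul_mem_torsion_aut W u⟩ rfl,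
    show v = u + ⟨_, smul_mem_torsion_aut W u⟩ from Subtype.ext hv, map_add]
  rfl

end FLTA.LT2
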