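import Fermat.Agent.LT2.FunctorAL
import Fermat.Agent.LT2.TraceTransfer

/-!
# The involutions of squarefree level are Atkin–Lehner symmetries
-/

set_option autoImplicit false

noncomputable section

open AlgebraicCurve ModularCurve
open FLTA.Kummer (jGen)

namespace FLTA.LT2

local notation "Qb" => AlgebraicClosure ℚ

theorem jd_eq_jGen {N e : ℕ} [NeZero N] [NeZero e] (he : e ∣ N) : jd N e he = jGen N he :=
  Subtype.ext (coe_jd he)

/-- The involution at `d` of squarefree level is an Atkin–Lehner symmetry at `d`. -/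
theorem isAtkinLehnerAt_alEquiv {L : ℕ} [NeZero L] (hL : Squarefree L) (d : ℕ) (hd : d ∣ L) :
    IsAtkinLehnerAt L d (alEquiv L hL d hd).toAlgHom := by
  intro a b b' _ _ _ h1 h2 ha hb
  have hda : Nat.Coprime d a := by
    refine Nat.Coprime.coprime_dvd_right ha (Nat.coprime_of_squarefree_mul ?_)
    rwa [Nat.mul_div_cancel' hd]
  have hg : Nat.gcd d (a * b) = b := by
    rw [Nat.mul_comm a b, Nat.Coprime.gcd_mul_right_cancel_right b hda.symm, Nat.gcd_eq_right_iff_dvd]
    exact Dvd.intro b' hb
  have hidx : alIdx d (a * b) = a * b' := by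
    rw [alIdx, hg, Nat.mul_div_cancel a (NeZero.pos b),
      Nat.div_eq_of_eq_mul_right (NeZero.pos b) hb.symm, mul_comm]
  show alEquiv L hL d hd (jGen L h1) = jGen L h2
  rw [← jd_eq_jGen h1, alEquiv_jd hL d hd, jd_congr hidx _ h2, jd_eq_jGen h2]

end FLTA.LT2

end
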