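import Fermat.Agent.LT2.FunctorHeckeOp
import Fermat.Agent.LT2.TraceAL
import Fermat.Agent.LT2.PrimesScalarExists

/-!
# Invariant characters are norms up to a Hecke operator of odd eigenvalue

For `d ∣ N`, `d ≠ 1`, at level `N ∏ Q`, unless `d = N` and `Q` is empty, there are primes `l` of
odd trace such that no place of level `N ∏ Q l` is fixed by the involution at `d`; so `T_l ^ 4`
maps the invariant parabolic characters modulo two to norms (`TraceGeometry.norms_two`).
-/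

set_option autoImplicit false
set_option linter.style.haveILetI false

noncomputable section

open AlgebraicCurve ModularCurve CongruenceSubgroup
open FLTA.Kummer
open FLTA.Gamma0 (homPar0 IsParHom0)

namespace FLTA.LT2

local notation "Qb" => AlgebraicClosure ℚ

/-- `T_l ^ 4` sends invariant characters to norms when some prime of the level `L l` sees `-d` as
a nonresidue. -/
theorem normsTwo_of_legendreSym {L : ℕ} [NeZero L] (hL : Squarefree L) {d l : ℕ} (hdL : d ∣ L)
    (hd1 : 1 < d) (hodd : Odd d) (hl : l.Prime) (hl2 : l ≠ 2) (hlL : ¬ l ∣ L)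
    (hres : ∃ (q : ℕ) (_ : Fact q.Prime), q ∣ L * l ∧ q ≠ 2 ∧
      legendreSym q (-(d : ℤ)) = -1) : NormsTwo L d l := by
  intro y hy hfix
  haveI : NeZero l := ⟨hl.ne_zero⟩
  obtain ⟨x, hx⟩ := (kummerEquiv L 2).surjective ⟨y, hy⟩
  have hd : Nat.Coprime d (L / d) := by
    refine Nat.coprime_of_squarefree_mul ?_
    rwa [Nat.mul_div_cancel' hdL]
  have hW : IsAtkinLehnerAt L d (alEquiv L hL d hdL).toAlgHom := isAtkinLehnerAt_alEquiv hL d hdL
  have hxw : alEquiv L hL d hdL • (x : JZero L) = x :=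
    (smul_eq_iff_alOp_eq hdL hd hW x).2 (by rw [hx]; exact hfix)
  have hx2 : 2 • (x : JZero L) = 0 := by
    rw [← natCast_zsmul]; exact Pic0.mem_torsion.1 x.2
  obtain ⟨a, ha, haN⟩ := exists_lnorm_eq_act_pow_four (involField_alEquiv hL d hdL hd1)
    (heckeNormOp hL hl hl2 hlL d hdL hd1 hodd hres) hx2 (by simpa using hxw)
  rw [lnorm_cons, lnorm_nil] at haN
  change a + alEquiv L hL d hdL • a = heckeOperatorAlong Qb L l (heckeOperatorAlong Qb L l
    (heckeOperatorAlong Qb L l (heckeOperatorAlong Qb L l (x : JZero L)))) at haN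
  have step : ∀ z : JTors L 2, ∃ z' : JTors L 2,
      (z' : JZero L) = heckeOperatorAlong Qb L l (z : JZero L) ∧
      (kummerEquiv L 2 z').1 = FLTA.Periods.heckeHom ℤ L l (kummerEquiv L 2 z).1 := by
    intro z
    have hm : heckeOperatorAlong Qb L l (z : JZero L) ∈
        Pic0.torsion Qb (modularFunctionFieldBar L) 2 := by
      rw [Pic0.mem_torsion, ← map_zsmul, Pic0.mem_torsion.1 z.2, map_zero]
    exact ⟨⟨_, hm⟩, rfl, kummerEquiv_heckeOperatorBar L 2 ⟨l, hl⟩ z ⟨_, hm⟩ rfl⟩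
  obtain ⟨z₁, e₁, f₁⟩ := step x
  obtain ⟨z₂, e₂, f₂⟩ := step z₁
  obtain ⟨z₃, e₃, f₃⟩ := step z₂
  obtain ⟨z₄, e₄, f₄⟩ := step z₃
  rw [← e₁, ← e₂, ← e₃, ← e₄] at haN
  have ham : a ∈ Pic0.torsion Qb (modularFunctionFieldBar L) 2 := by
    rw [Pic0.mem_torsion, natCast_zsmul, ha]
  refine ⟨(kummerEquiv L 2 ⟨a, ham⟩).1, (kummerEquiv L 2 ⟨a, ham⟩).2, ?_⟩
  rw [← kummerEquiv_add_smul hdL hd hW ⟨a, ham⟩ z₄ haN.symm, f₄, f₃, f₂, f₁, hx]
  simp only [pow_succ', pow_zero, mul_one, Module.End.mul_apply]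

/-- A product of nonzero squares and one nonsquare, times `-1`, is a nonsquare. -/
theorem not_isSquare_neg_of_pattern {l d p₀ : ℕ} [Fact l.Prime] (hl : l % 4 = 1)
    (hd : Squarefree d) (hp₀ : p₀ ∈ d.primeFactors) (h0 : ¬ IsSquare (p₀ : ZMod l))
    (hsq : ∀ p ∈ d.primeFactors, p ≠ p₀ → IsSquare (p : ZMod l)) (hld : ¬ l ∣ d) :
    ¬ IsSquare ((-(d : ℤ) : ℤ) : ZMod l) := by
  intro h
  push_cast at h
  have hprod : d = p₀ * ∏ p ∈ d.primeFactors.erase p₀, p := by
    exact ((Finset.mul_prod_erase _ (fun p => p) hp₀).trans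
      (Nat.prod_primeFactors_of_squarefree hd)).symm
  set R : ZMod l := ∏ p ∈ d.primeFactors.erase p₀, (p : ZMod l) with hR
  have hd' : (d : ZMod l) = p₀ * R := by
    rw [hR]
    conv_lhs => rw [hprod]
    push_cast
    rfl
  have hR0 : R ≠ 0 := fun h0' => hld ((ZMod.natCast_eq_zero_iff _ _).mp (by rw [hd', h0', mul_zero]))
  have hRsq : IsSquare R := Finset.prod_induction _ IsSquare (fun _ _ ha hb => ha.mul hb)
    IsSquare.one fun p hp => hsq p (Finset.mem_of_mem_erase hp) (Finset.ne_of_mem_erase hp)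
  have hm1 : IsSquare (-1 : ZMod l) := ZMod.exists_sq_eq_neg_one_iff.mpr (by omega)
  refine h0 ?_
  have e : (p₀ : ZMod l) = -(d : ZMod l) * (-1) / R := by
    rw [hd']
    field_simp
  rw [e]
  exact (h.mul hm1).div hRsq

variable {E : WeierstrassCurve ℤ}

/-- The discriminant of a companion curve is minus its conductor times a square. -/
theorem exists_disc_eq (hE : Companion E) :
    ∃ b : ℕ, E.Δ = -((E.conductorLevel : ℤ) * (b : ℤ) ^ 2) := by
  have hn : E.Δ.natAbs ≠ 0 := Int.natAbs_ne_zero.mpr hE.Δ_ne_zero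
  obtain ⟨a, b, hab, ha⟩ := Nat.sq_mul_squarefree E.Δ.natAbs
  have hb0 : b ≠ 0 := fun h => hn (by rw [← hab, h]; simp)
  have haN : a = E.conductorLevel := by
    refine (Nat.Squarefree.ext_iff ha E.squarefree_conductorLevel).mpr fun p hp => ?_
    rw [E.prime_dvd_conductorLevel_iff hE.Δ_ne_zero hp]
    refine ⟨fun h => ?_, fun h => ?_⟩
    · rw [Int.natCast_dvd, ← hab]
      exact h.mul_left _
    · by_contra hpa
      obtain ⟨-, -, ho⟩ := Companion.bad_prime_spec hE hp h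
      refine ho ?_
      rw [← hab, Nat.factorization_mul (pow_ne_zero _ hb0) ha.ne_zero, Finsupp.add_apply,
        Nat.factorization_pow, Finsupp.smul_apply, smul_eq_mul,
        Nat.factorization_eq_zero_of_not_dvd hpa, add_zero]
      exact dvd_mul_right 2 _
  refine ⟨b, ?_⟩
  have h := Int.ofNat_natAbs_of_nonpos hE.neg.le
  rw [← hab, haN] at h
  push_cast at h
  linarith

/-- A product of distinct primes is squarefree. -/
theorem squarefree_prod_primes (Q : Finset ℕ) (h : ∀ q ∈ Q, q.Prime) :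
    Squarefree (∏ q ∈ Q, q) := by
  induction Q using Finset.induction_on with
  | empty => simp
  | insert a Q ha ih =>
    have h' := fun q hq => h q (Finset.mem_insert_of_mem hq)
    have hap := h a (Finset.mem_insert_self a Q)
    rw [Finset.prod_insert ha, Nat.squarefree_mul (Nat.Coprime.prod_right fun q hq =>
      (Nat.coprime_primes hap (h' q hq)).mpr fun e => ha (e ▸ hq))]
    exact ⟨hap.squarefree, ih h'⟩

/-- **`TraceGeometry.norms_two`.** -/
theorem exists_normsTwo (hE : Companion E) (Q : Finset ℕ) (hQ : ∀ q ∈ Q, ConjPrime E 1 q)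
    [NeZero (E.conductorLevel * ∏ q ∈ Q, q)] (d : ℕ) (hd : d ∣ E.conductorLevel) (hd1 : d ≠ 1)
    (hdQ : d ≠ E.conductorLevel ∨ Q.Nonempty) (S : Finset ℕ) :
    ∃ l : ℕ, l.Prime ∧ l ∉ S ∧ Odd (E.apOfModel l) ∧
      NormsTwo (E.conductorLevel * ∏ q ∈ Q, q) d l := by
  classical
  set N := E.conductorLevel with hNdef
  set L := N * ∏ q ∈ Q, q with hLdef
  have hN : Squarefree N := E.squarefree_conductorLevel
  have hL0 : L ≠ 0 := NeZero.ne _
  have hbadN : ∀ p, p ∈ badPrimes E ↔ p.Prime ∧ p ∣ N := fun p => by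
    rw [mem_badPrimes hE.Δ_ne_zero]
    exact and_congr_right fun hp => (E.prime_dvd_conductorLevel_iff hE.Δ_ne_zero hp).symm
  have hQN : ∀ q ∈ Q, ¬ q ∣ N := fun q hq h =>
    (hQ q hq).good ((E.prime_dvd_conductorLevel_iff hE.Δ_ne_zero (hQ q hq).prime).mp h)
  have hQsq : Squarefree (∏ q ∈ Q, q) := squarefree_prod_primes Q fun q hq => (hQ q hq).prime
  have hL : Squarefree L := (Nat.squarefree_mul (Nat.Coprime.prod_right fun q hq =>
    ((hQ q hq).prime.coprime_iff_not_dvd.mpr (hQN q hq)).symm)).mpr ⟨hN, hQsq⟩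
  have hdgt : 1 < d :=
    lt_of_le_of_ne (Nat.pos_of_ne_zero (ne_zero_of_dvd_ne_zero hN.ne_zero hd)) (Ne.symm hd1)
  have hdodd : Odd d := by
    rw [← Nat.not_even_iff_odd, even_iff_two_dvd]
    intro h
    exact hE.goodTwo (by
      exact_mod_cast (E.prime_dvd_conductorLevel_iff hE.Δ_ne_zero Nat.prime_two).mp (h.trans hd))
  have hdL : d ∣ L := hd.trans (dvd_mul_right N _)
  by_cases hdN : d = N
  · -- a conjugation prime of the level
    obtain ⟨q, hq⟩ := hdQ.resolve_left (not_not_intro hdN)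
    haveI := Fact.mk (hQ q hq).prime
    obtain ⟨b, hb⟩ := exists_disc_eq hE
    obtain ⟨l, hlS, hl, -⟩ := exists_twPrime hE 0 (S ∪ L.primeFactors) (fun _ => 0) (by simp)
    simp only [Finset.mem_union, not_or] at hlS
    have hlL : ¬ l ∣ L := fun h => hlS.2 (Nat.mem_primeFactors.mpr ⟨hl.prime, h, hL0⟩)
    refine ⟨l, hl.prime, hlS.1, ?_, normsTwo_of_legendreSym hL hdL hdgt hdodd hl.prime hl.ne_two hlL
      ⟨q, inferInstance, ((Finset.dvd_prod_of_mem _ hq).mul_left N).mul_right l, (hQ q hq).ne_two,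
        ?_⟩⟩
    · rw [← Int.not_even_iff_odd, even_iff_two_dvd]; exact hl.odd_trace
    · rw [legendreSym.eq_neg_one_iff]
      intro hsq
      refine (hQ q hq).nonsquare ?_
      rw [hb, ← hNdef, ← hdN]
      push_cast at hsq ⊢
      rw [← neg_mul]
      exact hsq.mul (IsSquare.sq _)
  · -- a prime of odd trace at which exactly one prime of `d` and one outside are nonsquares
    obtain ⟨p₀, hp₀, hp₀d⟩ := Nat.exists_prime_and_dvd hd1
    obtain ⟨m, hm⟩ := hd
    have hm1 : m ≠ 1 := fun h => hdN (by rw [hm, h, mul_one])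
    obtain ⟨p₁, hp₁, hp₁m⟩ := Nat.exists_prime_and_dvd hm1
    have hco : Nat.Coprime d m := Nat.coprime_of_squarefree_mul (hm ▸ hN)
    have hp01 : p₀ ≠ p₁ := fun e => hp₀.ne_one
      (Nat.dvd_one.mp (hco ▸ Nat.dvd_gcd hp₀d (e ▸ hp₁m)))
    have hp₀B : p₀ ∈ badPrimes E := (hbadN p₀).2 ⟨hp₀, hm ▸ hp₀d.mul_right m⟩
    have hp₁B : p₁ ∈ badPrimes E := (hbadN p₁).2 ⟨hp₁, hm ▸ hp₁m.mul_left d⟩
    let v : ℕ → ZMod 2 := fun x => (if x = p₀ then 1 else 0) + if x = p₁ then 1 else 0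
    have hv : ∑ x ∈ badPrimes E, v x = 0 := by
      rw [Finset.sum_add_distrib, Finset.sum_ite_eq', Finset.sum_ite_eq', if_pos hp₀B, if_pos hp₁B]
      decide
    obtain ⟨l, hlS, hl, hpat⟩ := exists_twPrime hE 0 (S ∪ L.primeFactors) v hv
    simp only [Finset.mem_union, not_or] at hlS
    haveI := Fact.mk hl.prime
    have hlL : ¬ l ∣ L := fun h => hlS.2 (Nat.mem_primeFactors.mpr ⟨hl.prime, h, hL0⟩)
    have hl4 : l % 4 = 1 := by
      have := hl.four_dvd
      have := hl.prime.two_le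
      omega
    refine ⟨l, hl.prime, hlS.1, ?_, normsTwo_of_legendreSym hL hdL hdgt hdodd hl.prime hl.ne_two hlL
      ⟨l, inferInstance, dvd_mul_left l L, hl.ne_two, ?_⟩⟩
    · rw [← Int.not_even_iff_odd, even_iff_two_dvd]; exact hl.odd_trace
    · rw [legendreSym.eq_neg_one_iff]
      have hdsq : Squarefree d := hN.squarefree_of_dvd (hm ▸ dvd_mul_right d m)
      refine not_isSquare_neg_of_pattern hl4 hdsq
        (Nat.mem_primeFactors.mpr ⟨hp₀, hp₀d, hdsq.ne_zero⟩) (fun h => ?_) (fun p hp hne => ?_)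
        fun h => hlL (h.trans hdL)
      · have h' := (hpat p₀ hp₀B).1 h
        simp only [v, ↓reduceIte, if_neg hp01, add_zero] at h'
        exact one_ne_zero h'
      · obtain ⟨hpp, hpd, -⟩ := Nat.mem_primeFactors.mp hp
        refine (hpat p ((hbadN p).2 ⟨hpp, hm ▸ hpd.mul_right m⟩)).2 ?_
        have hne1 : p ≠ p₁ := fun e => hpp.ne_one
          (Nat.dvd_one.mp (hco ▸ Nat.dvd_gcd hpd (e ▸ hp₁m)))
        simp [v, hne, hne1]

end FLTA.LT2

end
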