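import Fermat.Agent.LT2.TraceLocal
import Fermat.Agent.LT2.TraceFour
import Fermat.Agent.LT2.TraceDeltaCompanion
import Fermat.Agent.LT2.TraceNormsTwo

/-!
# Part C: the geometric inputs of the trace identities for a companion curve
-/

set_option autoImplicit false

noncomputable section

namespace FLTA.LT2

variable {E : WeierstrassCurve ℤ}

/-- The geometric inputs from the norm property of `T_l` alone. -/
theorem traceGeometry_of_norms_two (hE : Companion E)
    (h : ∀ Q : Finset ℕ, (∀ q ∈ Q, ConjPrime E 1 q) →
      ∀ [NeZero (E.conductorLevel * ∏ q ∈ Q, q)] (d : ℕ), d ∣ E.conductorLevel → d ≠ 1 →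
        (d ≠ E.conductorLevel ∨ Q.Nonempty) → ∀ S : Finset ℕ,
          ∃ l : ℕ, l.Prime ∧ l ∉ S ∧ Odd (E.apOfModel l) ∧
            NormsTwo (E.conductorLevel * ∏ q ∈ Q, q) d l) : TraceGeometry E where
  norms_two := h
  norms_four := by
    have : NeZero E.conductorLevel := ⟨E.conductorLevel_pos.ne'⟩
    exact normsFour_self (two_le_conductorLevel hE)
  delta := fun {_} => companion_delta hE

/-- **The geometric inputs of the trace identities hold for every companion curve.** -/
theorem traceGeometry_of_companion (hE : Companion E) : TraceGeometry E :=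
  traceGeometry_of_norms_two hE fun Q hQ {_} d hd hd1 hdQ S =>
    exists_normsTwo hE Q hQ d hd hd1 hdQ S

end FLTA.LT2
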