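import Fermat.Agent.LT2.PatchedLevelsAux
import Fermat.Agent.LT2.TraceGeometryMain

/-!
# Part G, module side: the bottom module and its levels
-/

set_option autoImplicit false

noncomputable section

open IsLocalRing

namespace FLTA.LT2.PatchG

/-- **The module side**: the localised module at level `N ∏ Q` and, above it, a free module at
every Taylor–Wiles tuple. -/
theorem exists_bottom_levels {E : WeierstrassCurve ℤ} (hE : Companion E)
    (h : E.IsResiduallyModularOfLevel 2 E.conductorLevel)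
    (O : RepTheory.FiniteDVRExt ℤ_[2]) (hO : maximalIdeal O.R = Ideal.span {2})
    (j : ZMod 2 →+* ResidueField O.R) {ω : O.R} (hω : ω ^ 2 + ω + 1 = 0)
    {n : ℕ} (hn : 2 ≤ n) {Q : Finset ℕ} (hQ : ∀ q ∈ Q, ConjPrime E n q) :
    ∃ (d : ℕ) (B : Bottom O E Q d), ∀ (k m : ℕ) (qt : Fin k → ℕ),
      IsTWTuple E Q (m + 2) qt → Nonempty (Level O E Q (ringPt O hE.Δ_ne_zero Q qt) B m qt) := by
  have hQ1 : ∀ q ∈ Q, ConjPrime E 1 q := fun q hq =>
    { hQ q hq with
      dvd_succ := (pow_dvd_pow 2 (by omega)).trans (hQ q hq).dvd_succ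
      dvd_trace := (pow_dvd_pow 2 (by omega)).trans (hQ q hq).dvd_trace }
  have : NeZero (E.conductorLevel * ∏ q ∈ Q, q) :=
    ⟨mul_ne_zero E.conductorLevel_pos.ne'
      (Finset.prod_ne_zero_iff.mpr fun q hq => (hQ q hq).prime.ne_zero)⟩
  have G := traceGeometry_of_companion hE
  exact ⟨_, bottom O E Q hO hE G hQ1, fun k m qt hqt => nonempty_level O hE hO hω hQ1 G hqt⟩

end FLTA.LT2.PatchG
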