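import Mathlib.RingTheory.KrullDimension.Regular
import Mathlib.RingTheory.KrullDimension.NonZeroDivisors
import Mathlib.RingTheory.Ideal.KrullsHeightTheorem
import Mathlib.RingTheory.Ideal.HasGoingUp
import Mathlib.RingTheory.Ideal.GoingUp
import Mathlib.RingTheory.IntegralClosure.IsIntegralClosure.Basic

/-!
# Part G: faithfulness of the patched module

A module which is finite over a domain `P₀` of dimension at most `n`, and also finite and
torsion free over a ring `S` of dimension at least `n` commuting with `P₀`, is faithful over `P₀`.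
-/

set_option autoImplicit false

namespace FLTA.LT2.PatchAlg

open IsLocalRing RingTheory.Sequence Module

/-- The dimension of a local ring is at least the length of a weakly regular sequence in its
maximal ideal. -/
theorem le_ringKrullDim_of_isWeaklyRegular {S : Type} [CommRing S] [IsLocalRing S]
    [IsNoetherianRing S] (rs : List S) (hmem : ∀ r ∈ rs, r ∈ maximalIdeal S)
    (hreg : IsWeaklyRegular S rs) : (rs.length : WithBot ℕ∞) ≤ ringKrullDim S := by
  have hle : Ideal.ofList rs ≤ maximalIdeal S := Ideal.span_le.mpr fun r hr => hmem r hr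
  have hne : Ideal.ofList rs • (⊤ : Submodule S S) ≠ ⊤ := by
    rw [smul_eq_mul, Ideal.mul_top]
    exact fun h => (maximalIdeal.isMaximal S).ne_top (top_le_iff.mp (h ▸ hle))
  have h := supportDim_add_length_eq_supportDim_of_isRegular (M := S) rs ⟨hreg, hne.symm⟩
  rw [supportDim_self_eq_ringKrullDim] at h
  have : Nontrivial (S ⧸ (Ideal.ofList rs • (⊤ : Submodule S S))) :=
    Submodule.Quotient.nontrivial_iff.mpr hne
  rw [← h]
  refine le_add_of_nonneg_left ?_
  rw [← WithBot.coe_unbot _ ((supportDim_ne_bot_iff_nontrivial S _).mpr this)]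
  exact WithBot.coe_le_coe.mpr bot_le

/-- An injective integral extension does not lower the dimension. -/
theorem ringKrullDim_le_of_isIntegral_of_injective (S C : Type) [CommRing S] [CommRing C]
    [Algebra S C] [Algebra.IsIntegral S C] (hinj : Function.Injective (algebraMap S C)) :
    ringKrullDim S ≤ ringKrullDim C := by
  refine iSup_le fun l => ?_
  obtain ⟨P, -, hP, hPl⟩ := Ideal.exists_ideal_over_prime_of_isIntegral l.head.asIdeal
    (⊥ : Ideal C) (by
      rw [← RingHom.ker_eq_comap_bot, (RingHom.injective_iff_ker_eq_bot _).mp hinj]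
      exact bot_le)
  have : P.LiesOver (RelSeries.head l).asIdeal := ⟨hPl.symm⟩
  obtain ⟨L, hL, -, -⟩ := Ideal.exists_ltSeries_of_hasGoingUp l P
  exact le_iSup_of_le L (by rw [hL])

/-- An integral algebra killed by `f` has dimension below that of the base modulo `f`. -/
theorem ringKrullDim_le_quotient_of_isIntegral (A C : Type) [CommRing A] [CommRing C]
    [Algebra A C] [Algebra.IsIntegral A C] {f : A} (hf : algebraMap A C f = 0) :
    ringKrullDim C ≤ ringKrullDim (A ⧸ Ideal.span {f}) := by
  rw [ringKrullDim_quotient]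
  refine Order.krullDim_le_of_strictMono
    (fun p => (⟨PrimeSpectrum.comap (algebraMap A C) p, ?_⟩ :
      PrimeSpectrum.zeroLocus (R := A) (Ideal.span {f}))) fun p q h => ?_
  · rw [PrimeSpectrum.mem_zeroLocus]
    refine SetLike.coe_subset_coe.mpr ((Ideal.span_singleton_le_iff_mem _).mpr ?_)
    show algebraMap A C f ∈ p.asIdeal
    rw [hf]
    exact zero_mem _
  · exact Ideal.IsIntegral.comap_lt_comap (I := p.asIdeal) (J := q.asIdeal) h

variable {S : Type} [CommRing S] [IsLocalRing S] [IsNoetherianRing S]
  {P₀ : Type} [CommRing P₀] [IsDomain P₀] [IsLocalRing P₀] [IsNoetherianRing P₀]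

/-- **Faithfulness.** -/
theorem eq_zero_of_smul_eq_zero_of_dim (M : Type) [AddCommGroup M] [Module S M] [Module P₀ M]
    [SMulCommClass P₀ S M] [SMulCommClass S P₀ M] [Module.Finite S M] [Module.Finite P₀ M]
    (hinj : ∀ a : S, (∀ x : M, a • x = 0) → a = 0)
    {n : ℕ} (rs : List S) (hlen : rs.length = n) (hmem : ∀ r ∈ rs, r ∈ maximalIdeal S)
    (hreg : IsWeaklyRegular S rs) (g : Fin n → P₀)
    (hg : maximalIdeal P₀ = Ideal.span (Set.range g))
    {f : P₀} (hf : ∀ x : M, f • x = 0) : f = 0 := by
  classical
  by_contra hf0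
  let φ : S →+* Module.End P₀ M :=
    { toFun := fun a =>
        { toFun := fun x => a • x
          map_add' := smul_add a
          map_smul' := fun p x => (smul_comm p a x).symm }
      map_one' := LinearMap.ext (one_smul S)
      map_mul' := fun a b => LinearMap.ext (mul_smul a b)
      map_zero' := LinearMap.ext (zero_smul S)
      map_add' := fun a b => LinearMap.ext (add_smul a b) }
  let C : Subalgebra P₀ (Module.End P₀ M) := Algebra.adjoin P₀ (Set.range φ)
  let : CommRing C := Algebra.adjoinCommRingOfComm P₀ (by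
    rintro - ⟨a, rfl⟩ - ⟨b, rfl⟩
    rw [← map_mul, ← map_mul, mul_comm])
  let ψ : S →+* C :=
    { toFun := fun a => ⟨φ a, Algebra.subset_adjoin ⟨a, rfl⟩⟩
      map_one' := Subtype.ext (map_one φ)
      map_mul' := fun a b => Subtype.ext (map_mul φ a b)
      map_zero' := Subtype.ext (map_zero φ)
      map_add' := fun a b => Subtype.ext (map_add φ a b) }
  let : Algebra S C := ψ.toAlgebra
  have hψ : Function.Injective (algebraMap S C) := by
    refine (injective_iff_map_eq_zero _).mpr fun a ha => hinj a fun x => ?_
    exact LinearMap.congr_fun (congrArg Subtype.val ha) x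
  -- `C` is finite over both rings
  have : Module.Finite P₀ C :=
    Module.Finite.of_injective C.val.toLinearMap Subtype.val_injective
  have hcomm : ∀ (c : C) (a : S) (x : M), (c : Module.End P₀ M) (a • x) = a • (c : Module.End P₀ M) x :=
    fun c a x => LinearMap.congr_fun (congrArg Subtype.val (mul_comm c (ψ a))) x
  let emb : C →ₗ[S] Module.End S M :=
    { toFun := fun c =>
        { toFun := fun x => (c : Module.End P₀ M) x
          map_add' := map_add _
          map_smul' := hcomm c }
      map_add' := fun c c' => LinearMap.ext fun x => rfl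
      map_smul' := fun a c => LinearMap.ext fun x => rfl }
  have : Module.Finite S C := Module.Finite.of_injective emb fun c c' h =>
    Subtype.ext (LinearMap.ext fun x => LinearMap.congr_fun h x)
  have hfC : algebraMap P₀ C f = 0 := Subtype.ext (LinearMap.ext hf)
  have h1 : (n : WithBot ℕ∞) ≤ ringKrullDim (P₀ ⧸ Ideal.span {f}) :=
    calc (n : WithBot ℕ∞) ≤ ringKrullDim S :=
          hlen ▸ le_ringKrullDim_of_isWeaklyRegular rs hmem hreg
      _ ≤ ringKrullDim C := ringKrullDim_le_of_isIntegral_of_injective S C hψ
      _ ≤ _ := ringKrullDim_le_quotient_of_isIntegral P₀ C hfC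
  have h2 := ringKrullDim_quotient_succ_le_of_nonZeroDivisor (mem_nonZeroDivisors_of_ne_zero hf0)
  have h3 : ringKrullDim P₀ ≤ (n : WithBot ℕ∞) := by
    refine (ringKrullDim_le_spanFinrank_maximalIdeal P₀).trans ?_
    rw [hg]
    have h4 := Submodule.spanFinrank_span_le_ncard_of_finite (R := P₀) (Set.finite_range g)
    have h5 : (Set.range g).ncard ≤ n := by
      rw [← Set.image_univ]
      exact (Set.ncard_image_le Set.finite_univ).trans (by simp)
    exact_mod_cast h4.trans h5
  have h6 : (n : WithBot ℕ∞) + 1 ≤ (n : WithBot ℕ∞) :=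
    le_trans (by gcongr) (h2.trans h3)
  have h7 : ((n + 1 : ℕ) : WithBot ℕ∞) ≤ (n : ℕ) := by exact_mod_cast h6
  exact absurd (by exact_mod_cast h7 : n + 1 ≤ n) (Nat.not_succ_le_self n)

end FLTA.LT2.PatchAlg
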