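import Fermat.Agent.LT2.PatchedSystem
import Fermat.Agent.LT2.PatchedFaithful
import Fermat.Prelude.Thm_IsAdicComplete_of_module_finite
import Mathlib.RingTheory.AdicCompletion.Functoriality
import Mathlib.RingTheory.AdicCompletion.AsTensorProduct
import Mathlib.LinearAlgebra.Matrix.Charpoly.LinearMap

/-!
# Part G: the patching algebra at `p = 2`

The image of the limit of `e` is finite and faithful over the Galois side ring `P₀`.  So it is
zero when the signs have the wrong parity (`false_of_parity`), and at a point killing all `X` it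
has classes of order `2 ^ j` at almost every level for `j (k + 1) < n`
(`frequently_exists_notMem`).
-/

set_option autoImplicit false

noncomputable section

namespace FLTA.LT2.PatchAlg

open IsLocalRing RingTheory.Sequence FLTA.Patching FLTA.Patching.LevelSystem

/-- Pigeonhole: a power above the number of generators lies in the ideal of squares. -/
theorem span_pow_le_span_sq {A : Type} [CommRing A] {k : ℕ} (y : Fin k → A) :
    Ideal.span (Set.range y) ^ (k + 1) ≤ Ideal.span (Set.range fun i => y i ^ 2) := by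
  induction k with
  | zero => simp [Set.range_eq_empty]
  | succ k ih =>
    set I := Ideal.span {y 0}
    set J := Ideal.span (Set.range fun i : Fin k => y i.succ)
    have hy : Ideal.span (Set.range y) ≤ I ⊔ J := by
      rw [Ideal.span_le]
      rintro - ⟨i, rfl⟩
      rcases Fin.eq_zero_or_eq_succ i with rfl | ⟨j, rfl⟩
      · exact Ideal.mem_sup_left (Ideal.mem_span_singleton_self _)
      · exact Ideal.mem_sup_right (Ideal.subset_span ⟨j, rfl⟩)
    have hbin : ∀ m : ℕ, (I ⊔ J) ^ (m + 1) ≤ I ^ 2 ⊔ I * J ^ m ⊔ J ^ (m + 1) := by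
      intro m
      induction m with
      | zero => simp [sup_assoc]
      | succ m ihm =>
        rw [pow_succ _ (m + 1)]
        refine (Ideal.mul_mono_left ihm).trans ?_
        rw [Ideal.sup_mul, Ideal.sup_mul, Ideal.mul_sup (I ^ 2), Ideal.mul_sup (I * J ^ m),
          Ideal.mul_sup (J ^ (m + 1))]
        refine sup_le (sup_le (sup_le ?_ ?_) (sup_le ?_ ?_)) (sup_le ?_ ?_)
        · exact le_sup_of_le_left (le_sup_of_le_left Ideal.mul_le_left)
        · exact le_sup_of_le_left (le_sup_of_le_left Ideal.mul_le_left)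
        · exact le_sup_of_le_left (le_sup_of_le_left (by
            rw [mul_comm (I * J ^ m), ← mul_assoc, ← pow_two]; exact Ideal.mul_le_left))
        · exact le_sup_of_le_left (le_sup_of_le_right (le_of_eq (by rw [mul_assoc, ← pow_succ])))
        · exact le_sup_of_le_left (le_sup_of_le_right (le_of_eq (mul_comm _ _)))
        · exact le_sup_of_le_right (le_of_eq (pow_succ _ _).symm)
    refine (Ideal.pow_right_mono hy _).trans ((hbin (k + 1)).trans ?_)
    have hI : I ^ 2 ≤ Ideal.span (Set.range fun i => y i ^ 2) := by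
      rw [Ideal.span_singleton_pow, Ideal.span_singleton_le_iff_mem]
      exact Ideal.subset_span ⟨0, rfl⟩
    have hJ : J ^ (k + 1) ≤ Ideal.span (Set.range fun i => y i ^ 2) :=
      (ih fun i => y i.succ).trans (Ideal.span_mono (by rintro - ⟨i, rfl⟩; exact ⟨_, rfl⟩))
    exact sup_le (sup_le hI (le_trans Ideal.mul_le_right hJ))
      ((Ideal.pow_le_pow_right (by omega)).trans hJ)

/-- `J < n` forbids a monic relation at `2 ^ J` whose lower coefficients lie in powers of an
ideal mapping into `(2 ^ n)`. -/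
theorem eval_two_pow_ne_zero {P₀ O : Type} [CommRing P₀] [CommRing O] [IsDomain O] [CharZero O]
    (h2 : ¬ (2 : O) ∣ 1) (ev : P₀ →+* O) {n J : ℕ} (hJ : J < n) (𝔞 : Ideal P₀)
    (h𝔞 : 𝔞.map ev ≤ Ideal.span {(2 : O) ^ n}) (p : Polynomial P₀) (hp : p.Monic)
    (hc : ∀ i, p.coeff i ∈ 𝔞 ^ (p.natDegree - i)) : p.eval ((2 : P₀) ^ J) ≠ 0 := by
  intro h0
  set D := p.natDegree
  have h1 : (0 : O) = ∑ i ∈ Finset.range D, ev (p.coeff i) * ((2 : O) ^ J) ^ i +
      ((2 : O) ^ J) ^ D := by
    rw [← map_zero ev, ← h0, Polynomial.eval_eq_sum_range, map_sum, Finset.sum_range_succ]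
    simp only [map_mul, map_pow, map_ofNat]
    rw [show p.coeff D = 1 from hp.coeff_natDegree, map_one, one_mul]
  have h3 : (2 : O) ^ (J * D + 1) ∣ ∑ i ∈ Finset.range D, ev (p.coeff i) * ((2 : O) ^ J) ^ i := by
    refine Finset.dvd_sum fun i hi => ?_
    have hi' : i < D := Finset.mem_range.mp hi
    have h4 : (2 : O) ^ (n * (D - i)) ∣ ev (p.coeff i) := by
      rw [pow_mul, ← Ideal.mem_span_singleton, ← Ideal.span_singleton_pow]
      exact Ideal.pow_right_mono h𝔞 _
        (by rw [← Ideal.map_pow]; exact Ideal.mem_map_of_mem ev (hc i))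
    have h5 : J * D + 1 ≤ n * (D - i) + J * i := by
      obtain ⟨c, hc'⟩ := Nat.exists_eq_add_of_le hi'.le
      rw [hc', Nat.add_sub_cancel_left, Nat.mul_add]
      have : J * c + 1 ≤ n * c := by
        calc J * c + 1 ≤ J * c + c := by omega
          _ = (J + 1) * c := (Nat.succ_mul J c).symm
          _ ≤ n * c := Nat.mul_le_mul_right c hJ
      omega
    refine (pow_dvd_pow _ h5).trans ?_
    rw [pow_add, pow_mul _ J i]
    exact mul_dvd_mul h4 dvd_rfl
  have h6 : (2 : O) ^ (J * D + 1) ∣ (2 : O) ^ (J * D) := by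
    rw [pow_mul (2 : O) J D]
    exact (dvd_add_right h3).mp (h1 ▸ dvd_zero _)
  rw [pow_succ] at h6
  have h7 : (2 : O) ^ (J * D) * 2 ∣ (2 : O) ^ (J * D) * 1 := by rwa [mul_one]
  exact h2 ((mul_dvd_mul_iff_left (pow_ne_zero _ two_ne_zero)).mp h7)

namespace PatchInput

variable {S : Type} [CommRing S] [IsLocalRing S] {P₀ : Type} [CommRing P₀] {k d : ℕ}

/-- The Galois side inputs: `f(0) ∈ 2 O` characterises the maximal ideal, and the diamond
variables act on the image of `e` through elements vanishing modulo `2 ^ n` at the point. -/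
structure Inputs {O : Type} [CommRing O] (X : PatchInput S P₀ k d) [IsLocalRing P₀]
    (ev : P₀ →+* O) (n : ℕ) : Prop where
  mem_max : ∀ f, f ∈ maximalIdeal P₀ ↔ (2 : O) ∣ ev f
  diamond_val : ∀ m i, ∃ f, (2 : O) ^ n ∣ ev f ∧
    algebraMap (S ⧸ X.J m) _ (Ideal.Quotient.mk (X.J m) (1 + X.y i)) * X.act m f * X.e m =
      algebraMap (S ⧸ X.J m) _ (Ideal.Quotient.mk (X.J m) (X.y i ^ 2)) * X.e m
  nonvanishing : ∃ a : ℕ, ∀ m, ¬ LinearMap.range (X.e m) ≤
    (X.diamond m ⊔ Ideal.span {(2 : S ⧸ X.J m) ^ a}) • ⊤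

variable [IsDomain S] [IsNoetherianRing S] [IsAdicComplete (maximalIdeal S) S]
  [IsDomain P₀] [IsLocalRing P₀] [IsNoetherianRing P₀] [IsAdicComplete (maximalIdeal P₀) P₀]
  {O : Type} [CommRing O] [IsDomain O] [CharZero O]

omit [IsDomain O] [CharZero O] in
/-- The limit of `e`, the Galois side values of the diamonds, finiteness and faithfulness. -/
theorem exists_patched (X : PatchInput S P₀ k d)
    (hfin : ∀ N, Finite (S ⧸ maximalIdeal S ^ N))
    (hfinP : ∀ N, Finite (P₀ ⧸ maximalIdeal P₀ ^ N))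
    (hmax : maximalIdeal S = Ideal.span {2} ⊔ Ideal.span (Set.range X.y))
    (hreg : IsWeaklyRegular S (2 :: List.ofFn X.y))
    (g : Fin (k + 1) → P₀) (hg : maximalIdeal P₀ = Ideal.span (Set.range g))
    {ev : P₀ →+* O} {n : ℕ} (hn : 1 ≤ n) (H : X.Inputs ev n) :
    ∃ (F : Fin k → P₀) (M' : Submodule S (Fin d → S)) (_ : Module P₀ M'),
      M' = LinearMap.range (X.lim hfin X.e).mulVecLin ∧
      Module.Finite P₀ M' ∧
      (∀ (f : P₀) (x : M'), ((f • x : M') : Fin d → S) =
        (X.levels.patch hfin f).mulVec (x : Fin d → S)) ∧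
      (∀ i, (2 : O) ^ n ∣ ev (F i) ∧ ∀ x : M', X.y i ^ 2 • x = (1 + X.y i) • (F i • x)) ∧
      (∀ K, ∀ f ∈ maximalIdeal P₀ ^ K, (2 : O) ^ K ∣ ev f) ∧
      ∀ f : P₀, (∀ x : M', f • x = 0) → f = 0 := by
  classical
  let L := X.levels
  have hym : ∀ i, X.y i ∈ maximalIdeal S := fun i =>
    hmax ▸ Ideal.mem_sup_right (Ideal.subset_span ⟨i, rfl⟩)
  have h2S : (2 : S) ∈ maximalIdeal S :=
    hmax ▸ Ideal.mem_sup_left (Ideal.mem_span_singleton_self _)
  have h2P : (2 : P₀) ∈ maximalIdeal P₀ :=
    (H.mem_max _).mpr ⟨1, by rw [map_ofNat, mul_one]⟩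
  have hevK : ∀ (K : ℕ) (f : P₀), f ∈ maximalIdeal P₀ ^ K → (2 : O) ^ K ∣ ev f := by
    intro K
    induction K with
    | zero => simp
    | succ K ih =>
      intro f hf
      rw [pow_succ] at hf
      refine Submodule.mul_induction_on hf (fun a ha b hb => ?_) fun a b ha hb => ?_
      · rw [map_mul, pow_succ]; exact mul_dvd_mul (ih a ha) ((H.mem_max b).mp hb)
      · rw [map_add]; exact dvd_add ha hb
  set E := X.lim hfin X.e
  have hEspec := X.lim_spec hfin X.e
  have hEcomm : ∀ f, L.patch hfin f * E = E * L.patch hfin f := by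
    intro f
    refine PatchInput.eq_of_mkM fun K => ?_
    obtain ⟨m, ⟨hm, h1⟩, ⟨_, h2⟩⟩ := ((X.patch_spec hfin f K).and (hEspec K)).exists
    rw [map_mul, map_mul, ← h1, ← h2, ← map_mul, ← map_mul, (X.e_comm m f).eq]
  choose f hfdvd hfeq using H.diamond_val
  choose F hF using fun i => X.exists_limP hfin hfinP fun m => f m i
  have hFdvd : ∀ i, (2 : O) ^ n ∣ ev (F i) := by
    intro i
    obtain ⟨m, hm, -⟩ := (hF i n).exists
    rw [show F i = f m i - (f m i - F i) by ring, map_sub]
    exact dvd_sub (hfdvd m i) (hevK n _ hm)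
  have hFmem : ∀ i, F i ∈ maximalIdeal P₀ := fun i =>
    (H.mem_max _).mpr ((dvd_pow_self _ (by omega)).trans (hFdvd i))
  have hFeq : ∀ i, Matrix.scalar (Fin d) (1 + X.y i) * L.patch hfin (F i) * E =
      Matrix.scalar (Fin d) (X.y i ^ 2) * E := by
    intro i
    refine PatchInput.eq_of_mkM fun K => ?_
    obtain ⟨m, ⟨-, hm, h1⟩, ⟨_, h2⟩⟩ := ((hF i K).and (hEspec K)).exists
    rw [map_mul, map_mul, map_mul, ← h1, ← h2, ← X.redEnd_algebraMap hm,
      ← X.redEnd_algebraMap hm, ← map_mul, ← map_mul, ← map_mul, hfeq]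
  have hscal : ∀ (a : S) (x : Fin d → S), (Matrix.scalar (Fin d) a).mulVec x = a • x :=
    fun a x => by
      rw [Matrix.scalar_apply]
      ext i
      simp [Matrix.mulVec_diagonal]
  -- the image of `E` as a module over both rings
  set M' : Submodule S (Fin d → S) := LinearMap.range E.mulVecLin
  have hstab : ∀ (p : P₀), ∀ x ∈ M', (L.patch hfin p).mulVec x ∈ M' := by
    rintro p - ⟨z, rfl⟩
    exact ⟨(L.patch hfin p).mulVec z, by
      rw [Matrix.mulVecLin_apply, Matrix.mulVecLin_apply, Matrix.mulVec_mulVec,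
        Matrix.mulVec_mulVec, hEcomm]⟩
  let : SMul P₀ M' := ⟨fun p x => ⟨(L.patch hfin p).mulVec x, hstab p x x.2⟩⟩
  let modM : Module P₀ M' :=
    { one_smul := fun x => Subtype.ext (by
        show (L.patch hfin 1).mulVec (x : Fin d → S) = x
        rw [map_one, Matrix.one_mulVec])
      mul_smul := fun p q x => Subtype.ext (by
        show (L.patch hfin (p * q)).mulVec (x : Fin d → S) = _
        rw [map_mul, ← Matrix.mulVec_mulVec]; rfl)
      smul_zero := fun p => Subtype.ext (by
        show (L.patch hfin p).mulVec 0 = 0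
        rw [Matrix.mulVec_zero])
      smul_add := fun p x y => Subtype.ext (by
        show (L.patch hfin p).mulVec ((x : Fin d → S) + (y : Fin d → S)) = _
        rw [Matrix.mulVec_add]; rfl)
      add_smul := fun p q x => Subtype.ext (by
        show (L.patch hfin (p + q)).mulVec (x : Fin d → S) = _
        rw [map_add, Matrix.add_mulVec]; rfl)
      zero_smul := fun x => Subtype.ext (by
        show (L.patch hfin 0).mulVec (x : Fin d → S) = 0
        rw [map_zero, Matrix.zero_mulVec]) }
  have hsm : ∀ (p : P₀) (x : M'), ((p • x : M') : Fin d → S) =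
      (L.patch hfin p).mulVec (x : Fin d → S) := fun p x => rfl
  have : SMulCommClass P₀ S M' := ⟨fun p a x => Subtype.ext (by
    show (L.patch hfin p).mulVec (a • (x : Fin d → S)) = a • (L.patch hfin p).mulVec (x : Fin d → S)
    rw [Matrix.mulVec_smul])⟩
  have : SMulCommClass S P₀ M' := SMulCommClass.symm P₀ S M'
  have hy2 : ∀ i (x : M'), X.y i ^ 2 • x = (1 + X.y i) • (F i • x) := by
    rintro i ⟨-, z, rfl⟩
    refine Subtype.ext ?_
    show X.y i ^ 2 • E.mulVec z = (1 + X.y i) • (L.patch hfin (F i)).mulVec (E.mulVec z)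
    rw [← hscal, ← hscal, Matrix.mulVec_mulVec, Matrix.mulVec_mulVec, Matrix.mulVec_mulVec, hFeq]
  have : Module.Finite S M' := inferInstance
  -- finiteness over `P₀`
  have hfinM : Module.Finite P₀ M' := by
    let Q : Ideal S :=
      { carrier := {a | ∀ x : M', a • x ∈ maximalIdeal P₀ • (⊤ : Submodule P₀ M')}
        add_mem' := fun {a b} ha hb x => by rw [add_smul]; exact add_mem (ha x) (hb x)
        zero_mem' := fun x => by rw [zero_smul]; exact zero_mem _
        smul_mem' := fun a b hb x => by rw [smul_eq_mul, mul_comm, mul_smul]; exact hb _ }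
    have h2Q : (2 : S) ∈ Q := fun x => by
      have h1 : (2 : S) • x = (2 : P₀) • x := by
        rw [← one_add_one_eq_two, add_smul, one_smul, ← one_add_one_eq_two, add_smul, one_smul]
      rw [h1]
      exact Submodule.smul_mem_smul h2P trivial
    have hyQ : ∀ i, X.y i ^ 2 ∈ Q := fun i x => by
      rw [hy2, ← smul_comm (F i) (1 + X.y i)]
      exact Submodule.smul_mem_smul (hFmem i) trivial
    have hrad : maximalIdeal S ≤ Q.radical := by
      rw [hmax]
      refine sup_le ((Ideal.span_singleton_le_iff_mem _).mpr (Ideal.le_radical h2Q))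
        (Ideal.span_le.mpr ?_)
      rintro - ⟨i, rfl⟩
      exact ⟨_, hyQ i⟩
    obtain ⟨K, hK⟩ := Ideal.exists_pow_le_of_le_radical_of_fg hrad (IsNoetherian.noetherian _)
    have := hfin K
    let D := Fin d → S ⧸ maximalIdeal S ^ K
    have : Fintype D := Fintype.ofFinite D
    let img : (Fin d → S) →ₗ[S] M' := E.mulVecLin.rangeRestrict
    let fl : (D → P₀) →ₗ[P₀] M' :=
      Fintype.linearCombination P₀ fun (q : D) => img fun a => Quotient.out (q a)
    have hsur : Function.Surjective
        (Submodule.mkQ (maximalIdeal P₀ • (⊤ : Submodule P₀ M')) ∘ₗ fl) := by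
      intro q
      obtain ⟨⟨-, z, rfl⟩, rfl⟩ := Submodule.mkQ_surjective _ q
      let q : D := fun a => Ideal.Quotient.mk _ (z a)
      refine ⟨Pi.single q 1, ?_⟩
      show Submodule.mkQ _ (fl (Pi.single q 1)) = _
      rw [Fintype.linearCombination_apply_single, one_smul]
      refine (Submodule.Quotient.eq _).mpr ?_
      show img (fun a => Quotient.out (q a)) - img z ∈ _
      rw [← map_sub, ← Finset.univ_sum_single ((fun a => Quotient.out (q a)) - z), map_sum]
      refine Submodule.sum_mem _ fun a _ => ?_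
      rw [show Pi.single a (((fun a => Quotient.out (q a)) - z) a) =
          ((Quotient.out (q a) : S) - z a) • (Pi.single a (1 : S) : Fin d → S) by
        rw [← Pi.single_smul, smul_eq_mul, mul_one]; rfl, map_smul]
      exact hK (Ideal.Quotient.eq.mp (Quotient.out_eq _)) _
    have : IsHausdorff (maximalIdeal P₀) M' := ⟨fun x hx => Subtype.ext (funext fun a => by
      refine eq_of_forall_sub_mem_pow fun N => ?_
      obtain ⟨K', hK'⟩ := L.exists_pow_rep_mem hfin N
      have hx' := hx K'
      rw [SModEq.sub_mem, sub_zero] at hx'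
      show (x : Fin d → S) a - 0 ∈ _
      rw [sub_zero]
      refine Submodule.smul_induction_on (p := fun z : M' => (z : Fin d → S) a ∈ maximalIdeal S ^ N)
        hx' (fun r hr z _ => ?_) (fun z z' hz hz' => add_mem hz hz')
      rw [hsm]
      obtain ⟨m, hm, h⟩ := (L.patch_spec hfin r N).exists
      show ∑ b, L.patch hfin r a b * (z : Fin d → S) b ∈ _
      refine Submodule.sum_mem _ fun b _ => Ideal.mul_mem_right _ _ ?_
      simpa using sub_mem (hK' m hm r hr a b _ (L.mk_liftRep m r a b))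
        (h a b _ (L.mk_liftRep m r a b)))⟩
    have : IsPrecomplete (maximalIdeal P₀) (D → P₀) :=
      (IsAdicComplete.of_module_finite (maximalIdeal P₀) (D → P₀)).toIsPrecomplete
    exact Module.Finite.of_surjective fl
      (surjective_of_mkQ_comp_surjective (I := maximalIdeal P₀) hsur)
  -- it is nonzero
  obtain ⟨x₀, hx₀⟩ : ∃ x : M', x ≠ 0 := by
    by_contra hcon
    push Not at hcon
    have hE0 : E = 0 := Matrix.ext fun a b => by
      have h1 := congrFun (congrArg Subtype.val (hcon ⟨_, Pi.single b 1, rfl⟩)) a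
      simpa using h1
    obtain ⟨a, ha⟩ := H.nonvanishing
    obtain ⟨m, hm, hEm⟩ := (hEspec (a + 1)).exists
    refine ha m ?_
    rintro - ⟨z, rfl⟩
    rw [← (X.basis m).sum_repr (X.e m z)]
    refine Submodule.sum_mem _ fun i _ => Submodule.smul_mem_smul ?_ trivial
    have h1 : X.red hm ((X.basis m).repr (X.e m z) i) = 0 := by
      have := congrFun (X.redVec_apply hm (X.e m) z) i
      rw [hEm, ← show E = X.lim hfin X.e from rfl, hE0, map_zero, Matrix.zero_mulVec] at this
      exact this
    obtain ⟨c, hc⟩ := Ideal.Quotient.mk_surjective ((X.basis m).repr (X.e m z) i)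
    rw [← hc] at h1 ⊢
    have h2 : c ∈ maximalIdeal S ^ (a + 1) := Ideal.Quotient.eq_zero_iff_mem.mp h1
    have h3 : maximalIdeal S ^ (a + 1) ≤ Ideal.span (Set.range X.y) ⊔ Ideal.span {(2 : S) ^ a} := by
      rw [hmax]
      refine Ideal.sup_pow_add_le_pow_sup_pow.trans (sup_le ?_ ?_)
      · rw [Ideal.span_singleton_pow]
        exact le_sup_right
      · rw [pow_one]
        exact le_sup_left
    have h4 := Ideal.mem_map_of_mem (Ideal.Quotient.mk (X.J m)) (h3 h2)
    rw [Ideal.map_sup, Ideal.map_span _ {_}, Set.image_singleton, map_pow, map_ofNat] at h4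
    exact h4
  refine ⟨F, M', modM, rfl, hfinM, hsm, fun i => ⟨hFdvd i, hy2 i⟩, hevK, ?_⟩
  intro p hp
  refine eq_zero_of_smul_eq_zero_of_dim (S := S) (P₀ := P₀) M' (fun a ha => ?_)
    (2 :: List.ofFn X.y) (by simp) ?_ hreg g hg hp
  · exact (smul_eq_zero.mp (ha x₀)).resolve_right hx₀
  · intro r hr
    rcases List.mem_cons.mp hr with rfl | hr
    · exact h2S
    · obtain ⟨i, rfl⟩ := List.mem_ofFn.mp hr
      exact hym i

/-- **Parity**: no level system has signs admitting no point modulo `4` at `X = 0`. -/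
theorem false_of_parity (X : PatchInput S P₀ k d)
    (hfin : ∀ N, Finite (S ⧸ maximalIdeal S ^ N))
    (hfinP : ∀ N, Finite (P₀ ⧸ maximalIdeal P₀ ^ N))
    (hmax : maximalIdeal S = Ideal.span {2} ⊔ Ideal.span (Set.range X.y))
    (hreg : IsWeaklyRegular S (2 :: List.ofFn X.y))
    (g : Fin (k + 1) → P₀) (hg : maximalIdeal P₀ = Ideal.span (Set.range g))
    {ev : P₀ →+* O} {n : ℕ} (hn : 1 ≤ n) (H : X.Inputs ev n)
    (hpar : ∀ m, ∃ f, ¬ (4 : O) ∣ ev f ∧ X.act m f * X.e m = 0) : False := by
  obtain ⟨-, M', modM, rfl, -, hsm, -, hevK, hfaith⟩ :=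
    X.exists_patched hfin hfinP hmax hreg g hg hn H
  choose f hf hfe using hpar
  obtain ⟨G, hG⟩ := X.exists_limP hfin hfinP f
  refine absurd (hfaith G ?_) ?_
  · rintro ⟨-, z, rfl⟩
    refine Subtype.ext ?_
    rw [hsm]
    show (X.levels.patch hfin G).mulVec ((X.lim hfin X.e).mulVec z) = 0
    have h1 : X.levels.patch hfin G * X.lim hfin X.e = 0 := by
      refine PatchInput.eq_of_mkM fun K => ?_
      obtain ⟨m, ⟨-, hm, h1⟩, ⟨_, h2⟩⟩ := ((hG K).and (X.lim_spec hfin X.e K)).exists
      rw [map_mul, ← h1, ← h2, ← map_mul, hfe, map_zero, map_zero]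
    rw [Matrix.mulVec_mulVec, h1, Matrix.zero_mulVec]
  · rintro rfl
    obtain ⟨m, hm, -⟩ := (hG 2).exists
    rw [sub_zero] at hm
    exact hf m (by rw [show (4 : O) = 2 ^ 2 by norm_num]; exact hevK 2 _ hm)

/-- **The point**: classes of order `2 ^ j` which survive the diamonds and the operators. -/
theorem frequently_exists_notMem (X : PatchInput S P₀ k d)
    (hfin : ∀ N, Finite (S ⧸ maximalIdeal S ^ N))
    (hfinP : ∀ N, Finite (P₀ ⧸ maximalIdeal P₀ ^ N))
    (hmax : maximalIdeal S = Ideal.span {2} ⊔ Ideal.span (Set.range X.y))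
    (hreg : IsWeaklyRegular S (2 :: List.ofFn X.y))
    (g : Fin (k + 1) → P₀) (hg : maximalIdeal P₀ = Ideal.span (Set.range g))
    {ev : P₀ →+* O} {n : ℕ} (H : X.Inputs ev n)
    (hop : ∀ m, ∀ op ∈ X.ops m, ∃ f, (2 : O) ^ n ∣ ev f ∧ X.act m f * X.e m = X.e m * op)
    {j : ℕ} (hj : j * (k + 1) < n) (N₀ : ℕ) :
    ∃ m, N₀ ≤ m ∧ ∃ z : X.N m, (2 ^ j : ℕ) • z ∉ X.killed m := by
  classical
  obtain ⟨F, M', modM, hM', hfinM, hsm, hF, hevK, hfaith⟩ :=
    X.exists_patched hfin hfinP hmax hreg g hg (by omega) H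
  set E := X.lim hfin X.e
  let L := X.levels
  let 𝔞 : Ideal P₀ := (Ideal.span {(2 : O) ^ n}).comap ev
  have h𝔞 : ∀ f, f ∈ 𝔞 ↔ (2 : O) ^ n ∣ ev f := fun f =>
    Ideal.mem_comap.trans Ideal.mem_span_singleton
  obtain ⟨r, Gen, hGen⟩ := Submodule.fg_iff_exists_fin_generating_family.mp
    (IsNoetherian.noetherian 𝔞)
  let Y := Ideal.span (Set.range X.y)
  let W' : Submodule S (Fin d → S) :=
    ⨆ l, LinearMap.range ((L.patch hfin (Gen l)).mulVecLin.comp M'.subtype)
  by_contra hcon
  push Not at hcon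
  have hstep : ∀ x ∈ M', (2 : S) ^ j • x ∈ Y • M' ⊔ W' := by
    intro x hx
    obtain ⟨x, rfl⟩ := hM' ▸ hx
    rw [← Submodule.Quotient.mk_eq_zero, ← Submodule.mem_bot S,
      ← Ideal.iInf_pow_smul_eq_bot_of_isLocalRing (M := (Fin d → S) ⧸ (Y • M' ⊔ W'))
        (maximalIdeal S) (maximalIdeal.isMaximal S).ne_top, Submodule.mem_iInf]
    intro K
    obtain ⟨m, ⟨⟨hmK, hmN⟩, hE⟩, hGm⟩ :=
      ((((eventually_ge_patchFilter K).and (eventually_ge_patchFilter N₀)).and
        (X.lim_spec hfin X.e K)).and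
        (Filter.eventually_all.mpr fun l : Fin r => X.patch_spec hfin (Gen l) K)).exists
    obtain ⟨hKm, hE⟩ := hE
    let π : (Fin d → S) →ₗ[S] (Fin d → S ⧸ maximalIdeal S ^ K) :=
      LinearMap.pi fun i => (Algebra.linearMap S (S ⧸ maximalIdeal S ^ K)).comp (LinearMap.proj i)
    have hπ : Function.Surjective π := fun q =>
      ⟨fun i => Quotient.out (q i), funext fun i => Quotient.out_eq _⟩
    have hπv : ∀ (B : Matrix (Fin d) (Fin d) S) (z : Fin d → S),
        (PatchInput.mkM K B).mulVec (π z) = π (B.mulVec z) := fun B z => funext fun i => by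
      simp [PatchInput.mkM, π, Matrix.mulVec, dotProduct, map_sum]
    set U := (Y • M' ⊔ W').map π
    let U' : Submodule (S ⧸ X.J m) (X.N m) :=
      { carrier := {z | X.redVec hmK (X.e m z) ∈ U}
        add_mem' := fun {z z'} hz hz' => by
          show X.redVec hmK (X.e m (z + z')) ∈ U
          rw [map_add, X.redVec_add]
          exact add_mem hz hz'
        zero_mem' := by
          show X.redVec hmK (X.e m 0) ∈ U
          rw [map_zero, X.redVec_zero]
          exact zero_mem _
        smul_mem' := fun a z hz => by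
          obtain ⟨a, rfl⟩ := Ideal.Quotient.mk_surjective a
          show X.redVec hmK (X.e m (Ideal.Quotient.mk _ a • z)) ∈ U
          rw [map_smul, X.redVec_smul]
          exact U.smul_mem a hz }
    have hmemM : ∀ z : X.N m, ∃ z' ∈ M', π z' = X.redVec hmK (X.e m z) := by
      intro z
      obtain ⟨z', hz'⟩ := hπ (X.redVec hmK z)
      refine ⟨E.mulVec z', hM' ▸ ⟨z', rfl⟩, ?_⟩
      rw [X.redVec_apply, hE, ← hz', hπv]
    have hle : X.killed m ≤ U' := by
      refine sup_le ?_ (iSup_le fun op => ?_)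
      · rw [PatchInput.diamond, Submodule.smul_le]
        intro t ht z _
        show X.redVec hmK (X.e m (t • z)) ∈ U
        obtain ⟨t, hty, rfl⟩ := (Ideal.mem_map_iff_of_surjective _
          Ideal.Quotient.mk_surjective).mp ht
        obtain ⟨z', hz', hπz⟩ := hmemM z
        refine ⟨t • z', Submodule.mem_sup_left (Submodule.smul_mem_smul hty hz'), ?_⟩
        rw [map_smul, map_smul, X.redVec_smul, hπz]
        rfl
      · rintro - ⟨z, rfl⟩
        show X.redVec hmK (X.e m ((op : Module.End (S ⧸ X.J m) (X.N m)) z)) ∈ U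
        obtain ⟨fo, hfo, hfeq'⟩ := hop m op op.2
        rw [← Module.End.mul_apply, ← hfeq', Module.End.mul_apply]
        obtain ⟨cf, hcf⟩ := (Submodule.mem_span_range_iff_exists_fun P₀).mp
          (hGen.symm ▸ (h𝔞 fo).mpr hfo : fo ∈ Submodule.span P₀ (Set.range Gen))
        rw [← hcf, map_sum, LinearMap.sum_apply]
        have hsum : ∀ T : Finset (Fin r), X.redVec hmK (∑ l ∈ T,
            X.act m (cf l • Gen l) (X.e m z)) ∈ U := by
          intro T
          induction T using Finset.induction_on with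
          | empty => rw [Finset.sum_empty, X.redVec_zero]; exact zero_mem _
          | insert l T hl ih =>
            rw [Finset.sum_insert hl, X.redVec_add]
            refine add_mem ?_ ih
            rw [smul_eq_mul, mul_comm, map_mul, Module.End.mul_apply, X.redVec_apply,
              ← Module.End.mul_apply, (X.e_comm m (cf l)).eq, Module.End.mul_apply]
            obtain ⟨_, hGl⟩ := hGm l
            obtain ⟨z', hz', hπz⟩ := hmemM (X.act m (cf l) z)
            rw [← hπz, hGl, hπv]
            exact Submodule.mem_map_of_mem (Submodule.mem_sup_right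
              (Submodule.mem_iSup_of_mem l ⟨⟨z', hz'⟩, rfl⟩))
        exact hsum Finset.univ
    obtain ⟨z, hz⟩ : ∃ z, X.redVec hmK z = π x := by
      refine ⟨(X.basis m).equivFun.symm fun i => Ideal.Quotient.mk (X.J m) (x i),
        funext fun i => ?_⟩
      show X.red hmK ((X.basis m).equivFun
        ((X.basis m).equivFun.symm fun i => Ideal.Quotient.mk (X.J m) (x i)) i) = _
      rw [LinearEquiv.apply_symm_apply]
      rfl
    have h1 : X.redVec hmK (X.e m ((2 ^ j : ℕ) • z)) ∈ U := hle (hcon m hmN z)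
    rw [map_nsmul, ← Nat.cast_smul_eq_nsmul (S ⧸ X.J m), X.redVec_smul, map_natCast,
      X.redVec_apply, hE, hz, hπv, Nat.cast_smul_eq_nsmul, ← map_nsmul,
      ← Nat.cast_smul_eq_nsmul S] at h1
    obtain ⟨w, hw, hwe⟩ := h1
    push_cast at hwe
    set x' : Fin d → S := (2 : S) ^ j • (E.mulVecLin x)
    have h2 : x' - w ∈ maximalIdeal S ^ K • (⊤ : Submodule S (Fin d → S)) := by
      rw [← Finset.univ_sum_single (x' - w)]
      refine Submodule.sum_mem _ fun i _ => ?_
      rw [← mul_one ((x' - w) i), ← smul_eq_mul, Pi.single_smul]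
      refine Submodule.smul_mem_smul (Ideal.Quotient.eq.mp ?_) trivial
      exact (congrFun hwe i).symm
    rw [← sub_add_cancel x' w, Submodule.Quotient.mk_add,
      (Submodule.Quotient.mk_eq_zero _).mpr hw, add_zero]
    have h3 := Submodule.mem_map_of_mem (f := (Y • M' ⊔ W').mkQ) h2
    rw [Submodule.map_smul''] at h3
    exact Submodule.smul_mono le_rfl le_top h3
  have hiter : ∀ (i : ℕ), ∀ x ∈ M', (2 : S) ^ (j * i) • x ∈ Y ^ i • M' ⊔ W' := by
    intro i
    induction i with
    | zero =>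
      intro x hx
      simpa using Submodule.mem_sup_left hx
    | succ i ih =>
      intro x hx
      obtain ⟨z, hz, z', hz', hzz⟩ := Submodule.mem_sup.mp (hstep x hx)
      rw [Nat.mul_succ, pow_add (2 : S), mul_smul, ← hzz, smul_add]
      refine add_mem ?_ (Submodule.mem_sup_right (W'.smul_mem _ hz'))
      refine Submodule.smul_induction_on hz (fun t ht w hw => ?_) fun w w' hw hw' => ?_
      · obtain ⟨z, hz, z', hz', hzz⟩ := Submodule.mem_sup.mp (ih w hw)
        rw [smul_comm, ← hzz, smul_add]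
        refine add_mem (Submodule.mem_sup_left ?_) (Submodule.mem_sup_right (W'.smul_mem _ hz'))
        rw [pow_succ', Submodule.mul_smul]
        exact Submodule.smul_mem_smul ht hz
      · rw [smul_add]
        exact add_mem hw hw'
  -- everything on the right lies in `𝔞 M'`
  have : SMulCommClass P₀ S M' := ⟨fun p a x => Subtype.ext (by
    simp [hsm, Matrix.mulVec_smul])⟩
  let T : Submodule S (Fin d → S) :=
    { carrier := {v | ∃ x ∈ 𝔞 • (⊤ : Submodule P₀ M'), ((x : M') : Fin d → S) = v}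
      add_mem' := fun {u v} hu hv => by
        obtain ⟨x, hx, rfl⟩ := hu
        obtain ⟨y, hy, rfl⟩ := hv
        exact ⟨x + y, add_mem hx hy, rfl⟩
      zero_mem' := ⟨0, zero_mem _, rfl⟩
      smul_mem' := fun a v hv => by
        obtain ⟨x, hx, rfl⟩ := hv
        refine ⟨a • x, ?_, rfl⟩
        refine Submodule.smul_induction_on hx (fun p hp z _ => ?_) fun u v hu hv => ?_
        · rw [← smul_comm p a]
          exact Submodule.smul_mem_smul hp trivial
        · rw [smul_add]; exact add_mem hu hv }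
  have hW'T : W' ≤ T := iSup_le fun l => by
    rintro - ⟨x, rfl⟩
    exact ⟨Gen l • x, Submodule.smul_mem_smul (hGen ▸ Submodule.subset_span ⟨l, rfl⟩) trivial,
      hsm _ _⟩
  have hYT : Y ^ (k + 1) • M' ≤ T := by
    refine Submodule.smul_le.mpr fun t ht w hw => ?_
    have h1 := span_pow_le_span_sq X.y ht
    revert w
    refine Submodule.span_induction (p := fun t _ => ∀ w ∈ M', t • w ∈ T) ?_ ?_ ?_ ?_ h1
    · rintro - ⟨i, rfl⟩ w hw
      show X.y i ^ 2 • w ∈ T
      rw [show w = ((⟨w, hw⟩ : M') : Fin d → S) from rfl, ← Submodule.coe_smul, (hF i).2]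
      refine T.smul_mem _ ⟨F i • ⟨w, hw⟩, ?_, rfl⟩
      exact Submodule.smul_mem_smul ((h𝔞 _).mpr (hF i).1) trivial
    · intro w _; rw [zero_smul]; exact zero_mem _
    · intro p q _ _ hp hq w hw; rw [add_smul]; exact add_mem (hp w hw) (hq w hw)
    · intro p q _ hq w hw; rw [smul_eq_mul, mul_comm, mul_smul]; exact hq _ (M'.smul_mem p hw)
  -- the determinant trick
  let φ : Module.End P₀ M' := algebraMap P₀ _ ((2 : P₀) ^ (j * (k + 1)))
  have hrange : LinearMap.range φ ≤ 𝔞 • (⊤ : Submodule P₀ M') := by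
    rintro - ⟨x, rfl⟩
    obtain ⟨z, hz, z', hz', hzz⟩ := Submodule.mem_sup.mp (hiter (k + 1) x x.2)
    obtain ⟨y, hy, hyx⟩ : ((2 : S) ^ (j * (k + 1)) • (x : Fin d → S)) ∈ T :=
      hzz ▸ add_mem (hYT hz) (hW'T hz')
    have h1 : φ x = y := by
      refine Subtype.ext ?_
      rw [hyx]
      show (((2 : P₀) ^ (j * (k + 1))) • x : M').1 = _
      rw [hsm, map_pow, map_ofNat, show (2 : Matrix (Fin d) (Fin d) S) =
        Matrix.scalar (Fin d) 2 by simp [map_ofNat], ← map_pow, Matrix.scalar_apply]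
      ext i
      simp [Matrix.mulVec_diagonal]
    rw [h1]
    exact hy
  obtain ⟨p, hp, -, hcoef, hzero⟩ :=
    LinearMap.exists_monic_and_natDegree_eq_and_coeff_mem_pow_and_aeval_eq_zero P₀ φ 𝔞 hrange
  have h2 : ¬ (2 : O) ∣ 1 := fun h => by
    have : (1 : P₀) ∈ maximalIdeal P₀ := (H.mem_max 1).mpr (by rwa [map_one])
    exact (maximalIdeal.isMaximal P₀).ne_top ((Ideal.eq_top_iff_one _).mpr this)
  refine eval_two_pow_ne_zero h2 ev hj 𝔞 Ideal.map_comap_le p hp hcoef (hfaith _ fun x => ?_)
  have h3 := LinearMap.congr_fun hzero x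
  rw [Polynomial.aeval_algebraMap_apply, Module.algebraMap_end_apply, LinearMap.zero_apply,
    Polynomial.coe_aeval_eq_eval] at h3
  exact h3

end PatchInput

end FLTA.LT2.PatchAlg
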