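import Fermat.Agent.LevelRaising.AssemblyAdjoint
import Fermat.Agent.Gamma0.Complex.Main
import Mathlib.Algebra.Field.ZMod
import Mathlib.Algebra.Module.CharacterModule

/-!
# The cup pairing modulo `2 ^ j` is perfect; functionals killing `T_ℓ - a` are eigenvectors
-/

set_option autoImplicit false

noncomputable section

open CongruenceSubgroup FLTA.LevelRaising FLTA.Gamma0
open scoped MatrixGroups

namespace FLTA.LT2

section Map

variable {R S : Type*} [CommRing R] [CommRing S] {M : ℕ} [NeZero M]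

theorem cupB_mapCoeff (f : R →+* S) (φ ψ : homPar0 R (Gamma0 M) R) :
    cupB S M (mapCoeff f φ) (mapCoeff f ψ) = f (cupB R M φ ψ) := by
  obtain ⟨F, hF⟩ := exists_isCupPrimitive (FLTA.Gamma0.neg_one_mem_gamma0 M) φ ψ
  have hF' : IsCupPrimitive (mapCoeff f φ).1 (mapCoeff f ψ).1 (fun g => f (F g)) :=
    ⟨fun g h => by
      show f (F (g * h)) = f (F g) + f (F h) + f (φ.1 _) * f (ψ.1 _)
      rw [hF.map_mul, map_add, map_add, map_mul],
    fun g hg => by rw [hF.map_ell g hg, map_zero]⟩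
  rw [cupB, cupB, cupPairing_eq _ _ _ hF', cupPairing_eq _ _ _ hF]
  exact (AddMonoidHom.map_finsum f.toAddMonoidHom (Set.toFinite _)).symm

theorem mapCoeff_apply_parBasis (f : R →+* S) (φ : homPar0 R (Gamma0 M) R) (i : Fin (homRank M)) :
    homPar0Equiv M S S (mapCoeff f φ) i = f (homPar0Equiv M R R φ i) := rfl

theorem mapCoeff_surjective {f : R →+* S} (hf : Function.Surjective f) :
    Function.Surjective (mapCoeff f (M := M)) := by
  intro ψ
  choose g hg using fun i => hf (homPar0Equiv M S S ψ i)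
  refine ⟨(homPar0Equiv M R R).symm g, (homPar0Equiv M S S).injective (funext fun i => ?_)⟩
  rw [mapCoeff_apply_parBasis, LinearEquiv.apply_symm_apply, hg]

theorem mapCoeff_eq_zero_iff (f : R →+* S) (φ : homPar0 R (Gamma0 M) R) :
    mapCoeff f φ = 0 ↔ ∀ i, f (homPar0Equiv M R R φ i) = 0 := by
  rw [← (homPar0Equiv M S S).map_eq_zero_iff]
  exact ⟨fun h i => by rw [← mapCoeff_apply_parBasis, h]; rfl,
    fun h => funext fun i => by rw [mapCoeff_apply_parBasis, h]; rfl⟩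

end Map

theorem castHom_eq_zero_iff {a b : ℕ} (h : a ∣ b) (x : ZMod b) :
    ZMod.castHom h (ZMod a) x = 0 ↔ ∃ y : ZMod b, x = a • y := by
  obtain ⟨k, rfl⟩ := ZMod.intCast_surjective x
  rw [map_intCast, ZMod.intCast_zmod_eq_zero_iff_dvd]
  constructor
  · rintro ⟨c, rfl⟩
    exact ⟨c, by rw [nsmul_eq_mul]; push_cast; rfl⟩
  · rintro ⟨y, hy⟩
    obtain ⟨c, rfl⟩ := ZMod.intCast_surjective y
    rw [nsmul_eq_mul, ← Int.cast_natCast a, ← Int.cast_mul,
      ZMod.intCast_eq_intCast_iff_dvd_sub] at hy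
    have ha : (a : ℤ) ∣ (b : ℤ) := by exact_mod_cast h
    have := dvd_sub (dvd_mul_right (a : ℤ) c) (ha.trans hy)
    simpa using this

variable {M : ℕ} [NeZero M]

theorem cupB_two_pow_nondeg :
    ∀ (j : ℕ) (φ : homPar0 (ZMod (2 ^ j)) (Gamma0 M) (ZMod (2 ^ j))),
      (∀ ψ, cupB (ZMod (2 ^ j)) M ψ φ = 0) → φ = 0 := by
  intro j
  induction j with
  | zero =>
    intro φ _
    have : Subsingleton (ZMod (2 ^ 0)) := inferInstanceAs (Subsingleton (ZMod 1))
    exact (homPar0Equiv M _ _).injective (Subsingleton.elim _ _)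
  | succ j ih =>
    intro φ hφ
    have : Fact (Nat.Prime 2) := ⟨Nat.prime_two⟩
    set r := ZMod.castHom (show 2 ∣ 2 ^ (j + 1) from dvd_pow_self 2 j.succ_ne_zero) (ZMod 2) with hr
    set s := ZMod.castHom (show 2 ^ j ∣ 2 ^ (j + 1) from pow_dvd_pow 2 j.le_succ) (ZMod (2 ^ j))
      with hs
    have h1 : mapCoeff r φ = 0 := cupB_nondeg _ fun ψ => by
      obtain ⟨ψ', rfl⟩ := mapCoeff_surjective (f := r) (ZMod.castHom_surjective _) ψ
      rw [cupB_mapCoeff, hφ, map_zero]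
    choose c hc using fun i => (castHom_eq_zero_iff _ _).1 ((mapCoeff_eq_zero_iff r φ).1 h1 i)
    set φ' := (homPar0Equiv M (ZMod (2 ^ (j + 1))) (ZMod (2 ^ (j + 1)))).symm c with hφ'
    have e : φ = (2 : ℕ) • φ' := by
      refine (homPar0Equiv M (ZMod (2 ^ (j + 1))) (ZMod (2 ^ (j + 1)))).injective (funext fun i => ?_)
      rw [map_nsmul, hφ', LinearEquiv.apply_symm_apply, Pi.smul_apply, hc]
    have h2 : mapCoeff s φ' = 0 := ih _ fun ψ => by
      obtain ⟨ψ, rfl⟩ := mapCoeff_surjective (f := s) (ZMod.castHom_surjective _) ψ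
      rw [cupB_mapCoeff, hs, castHom_eq_zero_iff]
      obtain ⟨k, hk⟩ := ZMod.intCast_surjective (cupB (ZMod (2 ^ (j + 1))) M ψ φ')
      have h0 := hφ ψ
      rw [e, map_nsmul, ← hk, nsmul_eq_mul, ← Int.cast_natCast 2, ← Int.cast_mul,
        ZMod.intCast_zmod_eq_zero_iff_dvd, Nat.cast_pow, pow_succ'] at h0
      obtain ⟨c', rfl⟩ := (mul_dvd_mul_iff_left (by norm_num : ((2 : ℕ) : ℤ) ≠ 0)).1 h0
      exact ⟨c', by rw [← hk, nsmul_eq_mul]; push_cast; rfl⟩
    rw [e]
    refine (homPar0Equiv M (ZMod (2 ^ (j + 1))) (ZMod (2 ^ (j + 1)))).injective (funext fun i => ?_)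
    obtain ⟨y, hy⟩ := (castHom_eq_zero_iff _ _).1 ((mapCoeff_eq_zero_iff s φ').1 h2 i)
    rw [map_nsmul, Pi.smul_apply, hy, smul_smul, map_zero, Pi.zero_apply, ← pow_succ',
      nsmul_eq_mul, ZMod.natCast_self, zero_mul]

theorem finite_homPar0_zmod (n : ℕ) [NeZero n] :
    Finite (homPar0 (ZMod n) (Gamma0 M) (ZMod n)) :=
  Finite.of_equiv _ (homPar0Equiv M (ZMod n) (ZMod n)).symm.toEquiv

/-- Every functional modulo `2 ^ j` is the pairing with an element. -/
theorem exists_cupB_eq (j : ℕ)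
    (f : homPar0 (ZMod (2 ^ j)) (Gamma0 M) (ZMod (2 ^ j)) →ₗ[ZMod (2 ^ j)] ZMod (2 ^ j)) :
    ∃ y, ∀ φ, cupB (ZMod (2 ^ j)) M φ y = f φ := by
  have := finite_homPar0_zmod (M := M) (2 ^ j)
  let b := (Module.Basis.ofEquivFun (homPar0Equiv M (ZMod (2 ^ j)) (ZMod (2 ^ j))))
  let e := b.toDualEquiv.toEquiv
  let g := (cupB (ZMod (2 ^ j)) M).flip
  have hg : Function.Injective g := fun x y h => by
    refine sub_eq_zero.1 (cupB_two_pow_nondeg j _ fun ψ => ?_)
    rw [map_sub, sub_eq_zero]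
    exact LinearMap.congr_fun h ψ
  have hgs : Function.Surjective g :=
    ((Finite.injective_iff_surjective_of_equiv e).1 hg)
  obtain ⟨y, hy⟩ := hgs f
  exact ⟨y, fun φ => LinearMap.congr_fun hy φ⟩

/-- A nonzero element of an abelian group killed by `n` has a nonzero value under some
homomorphism to `ZMod n`. -/
theorem exists_zmodHom_ne_zero {G : Type*} [AddCommGroup G] {n : ℕ} [NeZero n]
    (hn : ∀ g : G, n • g = 0) {g : G} (hg : g ≠ 0) :
    ∃ f : G →+ ZMod n, f g ≠ 0 := by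
  obtain ⟨c, hc⟩ := CharacterModule.exists_character_apply_ne_zero_of_ne_zero hg
  have hn0 : (n : ℚ) ≠ 0 := Nat.cast_ne_zero.2 (NeZero.ne n)
  let ι : ZMod n →+ AddCircle (1 : ℚ) :=
    ZMod.lift n ⟨zmultiplesHom _ ((1 / (n : ℚ) : ℚ) : AddCircle (1 : ℚ)), by
      rw [zmultiplesHom_apply, ← AddCircle.coe_zsmul, AddCircle.coe_eq_zero_iff]
      exact ⟨1, by rw [one_zsmul, zsmul_eq_mul]; push_cast; field_simp⟩⟩
  have hι : ∀ k : ℤ, ι (k : ZMod n) = (((k : ℚ) / n : ℚ) : AddCircle (1 : ℚ)) := fun k => by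
    show ZMod.lift n _ (k : ZMod n) = _
    rw [ZMod.lift_coe, zmultiplesHom_apply, ← AddCircle.coe_zsmul, zsmul_eq_mul]
    congr 1
    field_simp
  have hinj : Function.Injective ι := by
    rw [injective_iff_map_eq_zero]
    intro x hx
    obtain ⟨k, rfl⟩ := ZMod.intCast_surjective x
    rw [hι, AddCircle.coe_eq_zero_iff] at hx
    obtain ⟨z, hz⟩ := hx
    rw [ZMod.intCast_zmod_eq_zero_iff_dvd]
    refine ⟨z, ?_⟩
    rw [zsmul_one, eq_div_iff hn0] at hz
    exact_mod_cast (by linear_combination -hz : (k : ℚ) = (n : ℚ) * z)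
  have hrange : ∀ x, c x ∈ ι.range := fun x => by
    obtain ⟨q, hq⟩ := QuotientAddGroup.mk_surjective (c x)
    have h0 : n • (c x) = 0 := by rw [← map_nsmul, hn, map_zero]
    rw [← hq] at h0
    obtain ⟨z, hz⟩ := (AddCircle.coe_eq_zero_iff (1 : ℚ)).1
      ((AddCircle.coe_nsmul (n := n) (x := q) (p := (1 : ℚ))).trans h0)
    refine ⟨(z : ZMod n), ?_⟩
    rw [hι, ← hq]
    show (((z : ℚ) / n : ℚ) : AddCircle (1 : ℚ)) = ((q : ℚ) : AddCircle (1 : ℚ))
    congr 1
    rw [zsmul_one, nsmul_eq_mul] at hz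
    rw [hz]
    field_simp
  let e := AddMonoidHom.ofInjective hinj
  refine ⟨e.symm.toAddMonoidHom.comp (AddMonoidHom.codRestrict c ι.range hrange), fun h => hc ?_⟩
  have h' := congrArg e h
  simp only [AddMonoidHom.coe_comp, AddEquiv.coe_toAddMonoidHom, Function.comp_apply,
    AddEquiv.apply_symm_apply, map_zero] at h'
  exact congrArg Subtype.val h'

/-- Through a surjection `red` whose kernel consists of multiples of `n`, an element with image
outside `n • Z` is detected by a functional killing the preimage of `n • Z`. -/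
theorem exists_functional_of_not_mem {P P' Z : Type*} [AddCommGroup P] [AddCommGroup P']
    [AddCommGroup Z] {n : ℕ} [NeZero n] (red : P →+ P') (hsurj : Function.Surjective red)
    (hker : ∀ u, red u = 0 → ∃ w, u = n • w) (hn : ∀ v : P', n • v = 0) (π : P →+ Z) {x : P}
    (hx : ∀ z, π x ≠ n • z) :
    ∃ f : P' →+ ZMod n, f (red x) ≠ 0 ∧ ∀ u, (∃ z, π u = n • z) → f (red u) = 0 := by
  set W : AddSubgroup Z := (nsmulAddMonoidHom n).range
  set K : AddSubgroup P' := (W.comap π).map red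
  have hnG : ∀ g : P' ⧸ K, n • g = 0 := by
    intro g
    obtain ⟨v, rfl⟩ := QuotientAddGroup.mk'_surjective K g
    rw [← map_nsmul, hn, map_zero]
  have hx0 : QuotientAddGroup.mk' K (red x) ≠ 0 := by
    rw [Ne, QuotientAddGroup.mk'_apply, QuotientAddGroup.eq_zero_iff]
    rintro ⟨k, hk, hk'⟩
    obtain ⟨w, hw⟩ := hker (x - k) (by rw [map_sub, hk', sub_self])
    obtain ⟨z, hz⟩ := hk
    refine hx (z + π w) ?_
    have e := congrArg π hw
    rw [map_sub, map_nsmul, sub_eq_iff_eq_add] at e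
    rw [e, smul_add, show π k = n • z from hz.symm, add_comm]
  obtain ⟨f, hf⟩ := exists_zmodHom_ne_zero hnG hx0
  refine ⟨f.comp (QuotientAddGroup.mk' K), hf, fun u ⟨z, hz⟩ => ?_⟩
  rw [AddMonoidHom.comp_apply, QuotientAddGroup.mk'_apply, (QuotientAddGroup.eq_zero_iff _).2
    (AddSubgroup.mem_map_of_mem red (show π u ∈ W from ⟨z, hz.symm⟩)), map_zero]

/-- Reduction of integral parabolic homomorphisms modulo `n`. -/
def redHom0 (M n : ℕ) [NeZero M] :
    homPar0 ℤ (Gamma0 M) ℤ →+ homPar0 (ZMod n) (Gamma0 M) (ZMod n) :=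
  AddMonoidHom.mk' (mapCoeff (Int.castRingHom (ZMod n))) fun a b =>
    Subtype.ext (AddMonoidHom.comp_add _ a.1 b.1)

theorem redHom0_surjective (n : ℕ) : Function.Surjective (redHom0 M n) :=
  mapCoeff_surjective (f := Int.castRingHom (ZMod n)) ZMod.intCast_surjective

theorem exists_eq_nsmul_of_redHom0 (n : ℕ) {u : homPar0 ℤ (Gamma0 M) ℤ}
    (h : redHom0 M n u = 0) : ∃ w, u = n • w := by
  change mapCoeff (Int.castRingHom (ZMod n)) u = 0 at h
  rw [mapCoeff_eq_zero_iff] at h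
  choose c hc using fun t => (ZMod.intCast_zmod_eq_zero_iff_dvd _ n).1 (h t)
  refine ⟨(homPar0Equiv M ℤ ℤ).symm c, (homPar0Equiv M ℤ ℤ).injective (funext fun t => ?_)⟩
  rw [map_nsmul, LinearEquiv.apply_symm_apply, Pi.smul_apply, nsmul_eq_mul]
  exact hc t

theorem nsmul_homPar0_zmod (n : ℕ) (v : homPar0 (ZMod n) (Gamma0 M) (ZMod n)) : n • v = 0 := by
  rw [← Nat.cast_smul_eq_nsmul (ZMod n), ZMod.natCast_self, zero_smul]

theorem redHom0_parOp (n ℓ : ℕ) (u : homPar0 ℤ (Gamma0 M) ℤ) :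
    redHom0 M n (parOp ℤ M ℓ u) = parOp (ZMod n) M ℓ (redHom0 M n u) :=
  mapCoeff_parOp (Int.castRingHom (ZMod n)) ℓ u

end FLTA.LT2
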