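import Fermat.Agent.LT2.Defs
import Fermat.Agent.LevelRaising.AssemblyAdjoint
import Fermat.Agent.LT2.PatchedCup
import Fermat.Agent.Kummer.Comparison

/-!
# Dualisation: a Hecke quotient of exponent `2 ^ j` gives a point of `J₀(M)` of exact order `2 ^ j`

By the Kummer comparison `J₀(M)[2 ^ j]` is the group of refined parabolic homomorphisms to
`ZMod (2 ^ j)`, and the cup product pairing on it is perfect with self-adjoint good Hecke
operators, so functionals killing the images of `T_ℓ - a_ℓ` are eigenvectors.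
-/

set_option autoImplicit false

open CongruenceSubgroup FLTA.LevelRaising
open FLTA.Gamma0 (homPar0)

namespace FLTA.LT2

/-- An eigenclass of exact order `2 ^ j` with values in `ZMod (2 ^ j)` is a point of `TorsCong`. -/
theorem torsCong_of_eigenclass {E : WeierstrassCurve ℤ} {M j : ℕ} [NeZero M] {S : Finset ℕ}
    (y : homPar0 (ZMod (2 ^ j)) (Gamma0 M) (ZMod (2 ^ j))) (hy : addOrderOf y = 2 ^ j)
    (hT : ∀ ℓ : Nat.Primes, (ℓ : ℕ) ∉ S →
      parOp (ZMod (2 ^ j)) M ℓ y = E.apOfModel ℓ • y) :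
    TorsCong E M j S := by
  set K := FLTA.Kummer.kummerEquiv M (2 ^ j)
  let y0 : homPar0 ℤ (Gamma0 M) (ZMod (2 ^ j)) := ⟨y.1, y.2⟩
  set x := K.symm y0 with hx
  refine ⟨inferInstance, x.1, ?_, fun ℓ hℓ => ?_⟩
  · refine (?_ : addOrderOf x.1 = addOrderOf y).trans hy
    calc addOrderOf x.1 = addOrderOf x := AddSubgroup.addOrderOf_coe x
      _ = addOrderOf y0 := addOrderOf_injective K.symm.toAddMonoidHom K.symm.injective y0
      _ = addOrderOf y0.1 :=
        (addOrderOf_injective (homPar0 ℤ (Gamma0 M) (ZMod (2 ^ j))).subtype.toAddMonoidHom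
          Subtype.val_injective y0).symm
      _ = addOrderOf y :=
        addOrderOf_injective
          (homPar0 (ZMod (2 ^ j)) (Gamma0 M) (ZMod (2 ^ j))).subtype.toAddMonoidHom
          Subtype.val_injective y
  · have hmem : ModularCurve.heckeOperatorBar M ℓ x.1 ∈ AlgebraicCurve.Pic0.torsion
        (AlgebraicClosure ℚ) (ModularCurve.modularFunctionFieldBar M) (2 ^ j) := by
      rw [AlgebraicCurve.Pic0.mem_torsion, ← map_zsmul,
        AlgebraicCurve.Pic0.mem_torsion.1 x.2, map_zero]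
    let z : FLTA.Kummer.JTors M (2 ^ j) := ⟨_, hmem⟩
    have hz : z = E.apOfModel ℓ • x := by
      refine K.injective (Subtype.ext ?_)
      rw [FLTA.Kummer.kummerEquiv_heckeOperatorBar M (2 ^ j) ℓ x z rfl, map_zsmul,
        AddSubgroupClass.coe_zsmul, hx, AddEquiv.apply_symm_apply]
      have h := congrArg Subtype.val (hT ℓ hℓ)
      rw [coe_parOp, FLTA.Periods.heckeHom_eq_int (ZMod (2 ^ j))] at h
      simpa using h
    exact congrArg Subtype.val hz

/-- A functional modulo `2 ^ (i + 1)` of exact order `2 ^ (i + 1)` with `f ∘ T_ℓ = a_ℓ f` gives an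
eigenclass: pair with it. -/
theorem torsCong_of_functional {E : WeierstrassCurve ℤ} {M i : ℕ} [NeZero M] {S : Finset ℕ}
    (hS : ∀ p : ℕ, p.Prime → p ∣ M → p ∈ S)
    (f : homPar0 (ZMod (2 ^ (i + 1))) (Gamma0 M) (ZMod (2 ^ (i + 1))) →+ ZMod (2 ^ (i + 1)))
    (hf : ∃ θ, 2 ^ i • f θ ≠ 0)
    (hT : ∀ ℓ : Nat.Primes, (ℓ : ℕ) ∉ S → ∀ θ,
      f (parOp (ZMod (2 ^ (i + 1))) M ℓ θ) = E.apOfModel ℓ • f θ) :
    TorsCong E M (i + 1) S := by
  obtain ⟨θ, hθ⟩ := hf
  obtain ⟨y, hy⟩ := exists_cupB_eq (M := M) (i + 1) (f.toZModLinearMap (2 ^ (i + 1)))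
  refine torsCong_of_eigenclass y ?_ fun ℓ hℓ => ?_
  · have : Fact (Nat.Prime 2) := ⟨Nat.prime_two⟩
    refine addOrderOf_eq_prime_pow (fun h => hθ ?_) ?_
    · have e : cupB (ZMod (2 ^ (i + 1))) M θ y = f θ := hy θ
      rw [← e, ← map_nsmul, h, map_zero]
    · rw [← Nat.cast_smul_eq_nsmul (ZMod (2 ^ (i + 1))), ZMod.natCast_self, zero_smul]
  · refine sub_eq_zero.1 (cupB_two_pow_nondeg (i + 1) _ fun ψ => ?_)
    rw [map_sub, map_zsmul, ← cupB_parOp ℓ.2 (fun h => hℓ (hS _ ℓ.2 h)), hy, hy]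
    exact sub_eq_zero.2 (hT ℓ hℓ ψ)

/-- A quotient of the integral parabolic homomorphisms on which
`T_ℓ = a_ℓ`, with an element of order `2 ^ j` modulo `2 ^ j`, gives `TorsCong`. -/
theorem torsCong_of_intQuotient {E : WeierstrassCurve ℤ} {M j : ℕ} [NeZero M] {S : Finset ℕ}
    (hS : ∀ p : ℕ, p.Prime → p ∣ M → p ∈ S) {Z : Type*} [AddCommGroup Z]
    (π : FLTA.Gamma0.homPar0 ℤ (Gamma0 M) ℤ →+ Z)
    (hT : ∀ ℓ : Nat.Primes, (ℓ : ℕ) ∉ S → ∀ φ,
      π (parOp ℤ M ℓ φ) = E.apOfModel ℓ • π φ)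
    (hex : ∃ φ, ∀ z : Z, 2 ^ (j - 1) • π φ ≠ 2 ^ j • z) :
    TorsCong E M j S := by
  obtain rfl | ⟨i, rfl⟩ : j = 0 ∨ ∃ i, j = i + 1 := by
    rcases j with _ | i
    · exact .inl rfl
    · exact .inr ⟨i, rfl⟩
  · obtain ⟨φ, hφ⟩ := hex
    exact absurd (by simp) (hφ (π φ))
  obtain ⟨φ, hφ⟩ := hex
  rw [Nat.add_sub_cancel] at hφ
  obtain ⟨f, hf, hker⟩ := exists_functional_of_not_mem (redHom0 M (2 ^ (i + 1)))
    (redHom0_surjective _) (fun _ h => exists_eq_nsmul_of_redHom0 _ h) (nsmul_homPar0_zmod _) π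
    (x := 2 ^ i • φ) fun z h => hφ z (by rw [← map_nsmul]; exact h)
  refine torsCong_of_functional hS f ⟨redHom0 M _ φ, ?_⟩ fun ℓ hℓ θ => ?_
  · rw [← map_nsmul, ← map_nsmul]
    exact hf
  obtain ⟨θ, rfl⟩ := redHom0_surjective (2 ^ (i + 1)) θ
  rw [← redHom0_parOp, ← map_zsmul, ← map_zsmul, ← sub_eq_zero, ← map_sub, ← map_sub]
  exact hker _ ⟨0, by rw [map_sub, map_zsmul, hT ℓ hℓ, sub_self, smul_zero]⟩

/-- The same over a local coefficient ring in which `2` is no unit: a Hecke quotient not killed by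
`2 ^ (j - 1)` gives a point of exact order `2 ^ j`. -/
theorem torsCong_of_quotient {E : WeierstrassCurve ℤ} {M j : ℕ} [NeZero M] {S : Finset ℕ}
    (hS : ∀ p : ℕ, p.Prime → p ∣ M → p ∈ S) {O : Type*} [CommRing O] [IsLocalRing O]
    (h2 : ¬ IsUnit (2 : O)) {Z : Type*} [AddCommGroup Z] [Module O Z]
    (π : FLTA.Gamma0.homPar0 O (Gamma0 M) O →ₗ[O] Z) (hπ : Function.Surjective π)
    (hT : ∀ ℓ : Nat.Primes, (ℓ : ℕ) ∉ S → ∀ φ,
      π (parOp O M ℓ φ) = E.apOfModel ℓ • π φ)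
    (hne : ∃ z : Z, 2 ^ (j - 1) • z ≠ 0) :
    TorsCong E M j S := by
  let ι : homPar0 ℤ (Gamma0 M) ℤ →+ homPar0 O (Gamma0 M) O :=
    AddMonoidHom.mk' (mapCoeff (Int.castRingHom O)) fun a b =>
      Subtype.ext (AddMonoidHom.comp_add _ a.1 b.1)
  obtain rfl | ⟨i, rfl⟩ : j = 0 ∨ ∃ i, j = i + 1 := by
    rcases j with _ | i
    · exact .inl rfl
    · exact .inr ⟨i, rfl⟩
  · exact ⟨inferInstance, 0, by rw [addOrderOf_zero, pow_zero],
      fun ℓ _ => by rw [map_zero, smul_zero]⟩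
  refine torsCong_of_intQuotient hS (π.toAddMonoidHom.comp ι) (fun ℓ hℓ φ => ?_) ?_
  · show π (mapCoeff (Int.castRingHom O) (parOp ℤ M ℓ φ)) = _
    rw [mapCoeff_parOp, hT ℓ hℓ]
    rfl
  rw [Nat.add_sub_cancel] at hne ⊢
  by_contra hcon
  push Not at hcon
  have := FLTA.Gamma0.finite_homPar0 M O
  have : Module.Finite O Z := Module.Finite.of_surjective π hπ
  set d : ℕ := 2 ^ i with hd
  let W : Submodule O Z := LinearMap.range ((2 * d : ℕ) • (LinearMap.id : Z →ₗ[O] Z))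
  have hW : ∀ z : Z, d • z ∈ W := by
    intro z
    obtain ⟨φ, rfl⟩ := hπ z
    have e : φ = ∑ t, (FLTA.Gamma0.homPar0Equiv M O O φ t) •
        ι ((FLTA.Gamma0.homPar0Equiv M ℤ ℤ).symm (Pi.single t 1)) := by
      refine (FLTA.Gamma0.homPar0Equiv M O O).injective (funext fun s => ?_)
      rw [map_sum, Finset.sum_apply, Finset.sum_eq_single s]
      · rw [map_smul, Pi.smul_apply]
        show _ = _ • FLTA.Gamma0.homPar0Equiv M O O (mapCoeff (Int.castRingHom O) _) s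
        rw [mapCoeff_apply_parBasis, LinearEquiv.apply_symm_apply, Pi.single_eq_same, map_one,
          smul_eq_mul, mul_one]
      · intro t _ hts
        rw [map_smul, Pi.smul_apply]
        show _ • FLTA.Gamma0.homPar0Equiv M O O (mapCoeff (Int.castRingHom O) _) s = _
        rw [mapCoeff_apply_parBasis, LinearEquiv.apply_symm_apply, Pi.single_eq_of_ne' hts,
          map_zero, smul_zero]
      · simp
    rw [e, map_sum, Finset.smul_sum]
    refine sum_mem fun t _ => ?_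
    rw [map_smul, smul_comm]
    obtain ⟨w, hw⟩ := hcon ((FLTA.Gamma0.homPar0Equiv M ℤ ℤ).symm (Pi.single t 1))
    refine W.smul_mem _ ⟨w, ?_⟩
    show (2 * d) • w = _
    rw [← pow_succ']
    exact hw.symm
  set V : Submodule O Z := LinearMap.range (d • (LinearMap.id : Z →ₗ[O] Z)) with hV
  have hle : V ≤ Ideal.span {(2 : O)} • V := by
    rintro _ ⟨z, rfl⟩
    obtain ⟨w, hw⟩ := hW z
    show d • z ∈ _
    rw [← hw]
    show (2 * d) • w ∈ _
    rw [mul_smul, ← Nat.cast_smul_eq_nsmul O 2, Nat.cast_ofNat]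
    exact Submodule.smul_mem_smul (Ideal.mem_span_singleton_self _) ⟨w, rfl⟩
  have hbot : V = ⊥ := Submodule.eq_bot_of_le_smul_of_le_jacobson_bot _ V
    (by rw [hV, LinearMap.range_eq_map]; exact Module.Finite.fg_top.map _) hle (by
    rw [IsLocalRing.jacobson_eq_maximalIdeal ⊥ bot_ne_top, Ideal.span_singleton_le_iff_mem,
      IsLocalRing.mem_maximalIdeal]
    exact h2)
  obtain ⟨z, hz⟩ := hne
  exact hz ((Submodule.mem_bot O).1 (hbot ▸ ⟨z, rfl⟩))

end FLTA.LT2
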