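import Fermat.Agent.LT2.PatchedInterface
import Fermat.Agent.LT2.PatchedAlgebra
import Fermat.Agent.LT2.PatchedDual
import Fermat.Agent.Patching.PowerSeriesLevels
import Fermat.Agent.Deformation.PowerSeriesBasic
import Fermat.Agent.Galois.Places
import Mathlib.RingTheory.MvPowerSeries.NoZeroDivisors

/-!
# Part G: from the level modules and the deformation rings to `TorsCong`
-/

set_option autoImplicit false

noncomputable section

open IsLocalRing CongruenceSubgroup

namespace FLTA.LT2.PatchG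

variable {O : RepTheory.FiniteDVRExt ℤ_[2]} {E : WeierstrassCurve ℤ} {Q : Finset ℕ}
  {Pt : PointPred O} {d k : ℕ} {B : Bottom O E Q d}

/-- The product cutting out the signs `s`. -/
def signProd {R : Type} [CommRing R] (E : WeierstrassCurve ℤ) (Q : Finset ℕ) (z : R)
    (U : ℕ → R) (s : ℕ → ℤ) : R :=
  z * ∏ v ∈ signPrimes E Q, (1 + (s v : R) * U v)

namespace Level

variable {m : ℕ} {qt : Fin k → ℕ} (L : Level O E Q Pt B m qt)

/-- At a point not killed by the sign product the signs are those prescribed. -/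
theorem eq_sign {A : RepTheory.FiniteDVRExt O.R} {ψ : L.H →ₐ[O.R] A.R} {s : ℕ → ℤ}
    (hs : IsSign E Q s) (h : ψ (signProd E Q L.z L.U s) ≠ 0) :
    ψ L.z ≠ 0 ∧ ∀ v ∈ signPrimes E Q, ψ (L.U v) = (s v : A.R) := by
  rw [signProd, map_mul, map_prod] at h
  have hz : ψ L.z ≠ 0 := left_ne_zero_of_mul h
  refine ⟨hz, fun v hv => ?_⟩
  have hne := (Finset.prod_ne_zero_iff.mp (right_ne_zero_of_mul h)) v hv
  rw [map_add, map_one, map_mul, map_intCast] at hne
  rcases L.sign_sq A ψ hz v hv with hu | hu <;> rcases hs v hv with h1 | h1 <;>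
    simp [hu, h1] at hne ⊢

theorem red_signProd (s : ℕ → ℤ) (x : L.M) :
    L.red (L.α (signProd E Q L.z L.U s) x) = B.α (signProd E Q B.z B.U s) (L.red x) := by
  classical
  rw [signProd, signProd, map_mul, map_mul, Module.End.mul_apply, Module.End.mul_apply, L.red_z]
  congr 1
  suffices h : ∀ V ⊆ signPrimes E Q, ∀ x, L.red (L.α (∏ v ∈ V, (1 + (s v : L.H) * L.U v)) x) =
      B.α (∏ v ∈ V, (1 + (s v : B.H) * B.U v)) (L.red x) from h _ subset_rfl x
  intro V
  induction V using Finset.induction_on with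
  | empty => intro _ x; simp
  | insert v V hv ih =>
    intro hsub x
    rw [Finset.prod_insert hv, Finset.prod_insert hv, map_mul, map_mul, Module.End.mul_apply,
      Module.End.mul_apply, ← ih ((Finset.subset_insert _ _).trans hsub) x]
    rw [map_add, map_one, map_mul, map_intCast, map_add, map_one, map_mul, map_intCast,
      LinearMap.add_apply, LinearMap.add_apply, Module.End.one_apply, Module.End.one_apply,
      Module.End.mul_apply, Module.End.mul_apply, Module.End.intCast_apply,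
      Module.End.intCast_apply, map_add, map_zsmul, L.red_U v (hsub (Finset.mem_insert_self _ _))]

variable {n : ℕ} (G : GalSide O E Q Pt n qt) {act : PS O k →ₐ[O.R] L.H}
  (hact : ∀ i, act (MvPowerSeries.X i) = L.T (G.lv i) - (E.apOfModel (G.lv i) : L.H))
  {s : ℕ → ℤ} (hs : IsSign E Q s)

include hact hs in
/-- An identity holding at the points of sign `s` holds after multiplication by the sign
product. -/
theorem α_mul_eq_zero {h : L.H}
    (hpt : ∀ (A : RepTheory.FiniteDVRExt O.R) (ψ : L.H →ₐ[O.R] A.R) (ρ : GaloisRepAdic A.R),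
      Pt s A ρ → IsPoint E G.lv G.σ ρ (ψ.comp act) →
      (∀ l : ℕ, l.Prime → l ∉ badSet E Q qt →
        ∀ P : ValuationSubring (AlgebraicClosure ℚ), P.LiesOverPrime l →
          ∀ τ, P.IsFrobeniusAt τ l → ρ.trace τ = ψ (L.T l)) →
      (∀ i, (ρ.trace (L.tame i) - 2) * ψ (L.δ (1 + MvPowerSeries.X i)) =
        ψ (L.δ (MvPowerSeries.X i)) ^ 2) → ψ h = 0) :
    L.α (h * signProd E Q L.z L.U s) = 0 := by
  rw [show h * signProd E Q L.z L.U s =
    h * (∏ v ∈ signPrimes E Q, (1 + (s v : L.H) * L.U v)) * L.z by rw [signProd]; ring]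
  refine L.separated _ fun A ψ hz0 => ?_
  rw [map_mul]
  by_cases h0 : ψ (signProd E Q L.z L.U s) = 0
  · rw [signProd, map_mul] at h0
    rw [(mul_eq_zero.mp h0).resolve_left hz0, mul_zero]
  obtain ⟨hz, hU⟩ := L.eq_sign hs h0
  obtain ⟨ρ, hρ, hT, hτ⟩ := L.exists_rep A ψ hz s hs hU
  rw [hpt A ψ ρ hρ (fun i => ?_) hT hτ, zero_mul]
  obtain ⟨P, hP, hσ⟩ := G.σ_frob i
  rw [AlgHom.comp_apply, hact, map_sub, map_intCast,
    hT _ (G.lv_prime i) (G.lv_notMem i) P hP _ hσ]

end Level

theorem torsCong_of_le {M n m : ℕ} {S : Finset ℕ} (h : TorsCong E M n S) (hmn : m ≤ n) :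
    TorsCong E M m S := by
  obtain ⟨hM, x, hx, hT⟩ := h
  refine ⟨hM, 2 ^ (n - m) • x, ?_, fun ℓ hℓ => ?_⟩
  · rw [addOrderOf_nsmul' _ (pow_ne_zero _ two_ne_zero), hx,
      Nat.gcd_eq_right (pow_dvd_pow 2 (Nat.sub_le n m)),
      Nat.pow_div (Nat.sub_le n m) Nat.zero_lt_two, Nat.sub_sub_self hmn]
  · rw [map_nsmul, hT ℓ hℓ]
    exact smul_comm _ _ _

/-- **Part G**: from the inputs at every depth, a point of exact order `2 ^ (n / (k + 1))`. -/
theorem torsCong_of_inputs [NeZero (E.conductorLevel * ∏ q ∈ Q, q)]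
    (hO : maximalIdeal O.R = Ideal.span {2}) (B : Bottom O E Q d) {n : ℕ} (hn : 1 ≤ n)
    (H : ∀ m, ∃ qt : Fin k → ℕ, (∀ i, 2 ^ m ≤ qt i) ∧ ∃ Pt : PointPred O,
      Nonempty (GalSide O E Q Pt n qt) ∧ Nonempty (Level O E Q Pt B m qt)) :
    TorsCong E (E.conductorLevel * ∏ q ∈ Q, q) (n / (k + 1))
      (2 * (E.conductorLevel * ∏ q ∈ Q, q)).primeFactors := by
  classical
  have : IsDomain (PS O k) := NoZeroDivisors.to_isDomain _
  choose qt hqt Pt hG hL using H
  let G := fun m => (hG m).some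
  let L := fun m => (hL m).some
  choose act hact using fun m => (L m).exists_eval (G m).lv
    (fun i => ⟨(G m).lv_prime i, (G m).lv_notMem i⟩)
  -- the base ring
  have : IsAdicComplete (maximalIdeal (PS O k)) (PS O k) :=
    Deformation.isAdicComplete_powerSeries O.R k
  have hfin : ∀ N, Finite (PS O k ⧸ maximalIdeal (PS O k) ^ N) := fun N =>
    Deformation.finite_quotient O.R N
  have hmem : ∀ f : PS O k,
      f ∈ maximalIdeal (PS O k) ↔ (2 : O.R) ∣ MvPowerSeries.constantCoeff f := fun f => by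
    rw [mem_maximalIdeal, mem_nonunits_iff, MvPowerSeries.isUnit_iff_constantCoeff,
      ← mem_nonunits_iff, ← mem_maximalIdeal, hO, Ideal.mem_span_singleton]
  have hmax : maximalIdeal (PS O k) = Ideal.span {2} ⊔
      Ideal.span (Set.range (MvPowerSeries.X : Fin k → PS O k)) := by
    rw [Deformation.maximalIdeal_eq, hO, Ideal.map_span, Set.image_singleton, map_ofNat]
  have hg : maximalIdeal (PS O k) =
      Ideal.span (Set.range (Fin.cons 2 MvPowerSeries.X : Fin (k + 1) → PS O k)) := by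
    rw [hmax, Fin.range_cons, Ideal.span_insert]
  have h2O : (2 : O.R) ≠ 0 := two_ne_zero
  have hreg : RingTheory.Sequence.IsWeaklyRegular (PS O k)
      (2 :: List.ofFn (MvPowerSeries.X : Fin k → PS O k)) := by
    have := Patching.isWeaklyRegular_uniformizer_cons (r := k) (ϖ := (2 : O.R)) h2O
      (hO ▸ Ideal.mem_span_singleton_self 2)
    rwa [map_ofNat] at this
  -- the system of levels for one sign vector
  let X : (ℕ → ℤ) → PatchAlg.PatchInput (PS O k) (PS O k) k d := fun s =>
    { y := MvPowerSeries.X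
      J := fun m => diamondRel O k m
      J_le := fun m => Patching.diamondIdeal_le (r := k) (ℓ := 2)
        (by rw [Nat.cast_two, hO]; exact Ideal.mem_span_singleton_self 2) m
      N := fun m => (L m).M
      basis := fun m => (L m).basis
      act := fun m => (L m).α.comp (act m).toRingHom
      e := fun m => (L m).α (signProd E Q (L m).z (L m).U s)
      e_comm := fun m f => (Commute.all _ _).map (L m).α
      ops := fun m => {op | ∃ l : ℕ, l.Prime ∧ l ∉ badSet E Q (qt m) ∧
        op = (L m).α ((L m).T l - (E.apOfModel l : (L m).H))} }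
  have hδ : ∀ m a, algebraMap (PS O k ⧸ diamondRel O k m) (Module.End _ (L m).M)
      (Ideal.Quotient.mk (diamondRel O k m) a) = (L m).α ((L m).δ a) := fun m a =>
    LinearMap.ext fun x => ((L m).α_δ a x).symm
  have hinputs : ∀ s, IsSign E Q s → ∀ n' : ℕ, (n' = 1 ∨ (n' = n ∧ HasCurveSigns E s)) →
      (∃ a : ℕ, ∀ m, ¬ LinearMap.range ((X s).e m) ≤
        ((X s).diamond m ⊔ Ideal.span {(2 : PS O k ⧸ (X s).J m) ^ a}) • ⊤) →
      (X s).Inputs (MvPowerSeries.constantCoeff : PS O k →+* O.R) n' := by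
    intro s hs n' hn' hnv
    refine ⟨hmem, fun m i => ?_, hnv⟩
    obtain ⟨P, hP, hτ⟩ := (L m).tame_mem i
    obtain ⟨f, hf2, hfn, hf⟩ := (G m).inert s hs i P hP _ hτ
    refine ⟨f - 2, ?_, ?_⟩
    · rw [map_sub, map_ofNat]
      rcases hn' with rfl | ⟨rfl, hs'⟩
      · rwa [pow_one]
      · exact hfn hs'
    · show algebraMap _ _ _ * (L m).α (act m (f - 2)) * (L m).α _ =
        algebraMap _ _ _ * (L m).α _
      rw [hδ, hδ, ← map_mul, ← map_mul, ← map_mul, ← sub_eq_zero, ← map_sub, ← sub_mul]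
      refine (L m).α_mul_eq_zero (G m) (hact m) hs fun A ψ ρ hρ hpt _ hτ' => ?_
      have hf' : ψ (act m f) = ρ.trace ((L m).tame i) := hf A ρ hρ (ψ.comp (act m)) hpt
      rw [map_sub, map_mul, map_sub (act m), map_sub ψ, hf', map_pow, map_pow]
      simp only [map_ofNat]
      rw [mul_comm, hτ' i, sub_self]
  have hnv : ∀ s, B.α (signProd E Q B.z B.U s) ≠ 0 → ∃ a : ℕ, ∀ m, ¬ LinearMap.range ((X s).e m) ≤
      ((X s).diamond m ⊔ Ideal.span {(2 : PS O k ⧸ (X s).J m) ^ a}) • ⊤ := by
    intro s hne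
    obtain ⟨x, i, hx⟩ : ∃ x i, B.basis.repr (B.α (signProd E Q B.z B.U s) x) i ≠ 0 := by
      by_contra h
      push Not at h
      exact hne (LinearMap.ext fun x => B.basis.repr.map_eq_zero_iff.mp (Finsupp.ext fun i => h x i))
    set c := B.basis.repr (B.α (signProd E Q B.z B.U s) x) i
    obtain ⟨a, ha⟩ : ∃ a, ¬ (2 : O.R) ^ a ∣ c := by
      by_contra h
      push Not at h
      refine hx (IsHausdorff.haus (I := maximalIdeal O.R) inferInstance c fun N => ?_)
      rw [SModEq.zero, smul_eq_mul, Ideal.mul_top, hO, Ideal.span_singleton_pow,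
        Ideal.mem_span_singleton]
      exact h N
    refine ⟨a, fun m hle => ha ?_⟩
    obtain ⟨x', rfl⟩ := (L m).red_surjective x
    have hmem' := hle ⟨x', rfl⟩
    have key : ∀ y ∈ ((X s).diamond m ⊔ Ideal.span {(2 : PS O k ⧸ diamondRel O k m) ^ a}) •
        (⊤ : Submodule (PS O k ⧸ diamondRel O k m) (L m).M),
        (2 : O.R) ^ a ∣ B.basis.repr ((L m).red y) i := by
      intro y hy
      refine Submodule.smul_induction_on hy (fun t ht y _ => ?_) fun y y' hy hy' => ?_
      · obtain ⟨t₁, ht₁, t₂, ht₂, rfl⟩ := Submodule.mem_sup.mp ht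
        obtain ⟨u, hu, rfl⟩ := (Ideal.mem_map_iff_of_surjective _
          Ideal.Quotient.mk_surjective).mp ht₁
        obtain ⟨c', rfl⟩ := Ideal.mem_span_singleton.mp ht₂
        obtain ⟨v, rfl⟩ := Ideal.Quotient.mk_surjective c'
        rw [show (2 : PS O k ⧸ diamondRel O k m) ^ a =
            Ideal.Quotient.mk (diamondRel O k m) (2 ^ a) by rw [map_pow, map_ofNat],
          ← map_mul, ← map_add, (L m).red_smul]
        have hu0 : MvPowerSeries.constantCoeff u = 0 := by
          have : Ideal.span (Set.range (MvPowerSeries.X : Fin k → PS O k)) ≤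
              RingHom.ker (MvPowerSeries.constantCoeff : PS O k →+* O.R) := by
            rw [Ideal.span_le]
            rintro - ⟨j, rfl⟩
            simp
          exact RingHom.mem_ker.mp (this hu)
        rw [map_add, hu0, zero_add, map_mul, map_pow, map_ofNat, map_smul, Finsupp.smul_apply,
          smul_eq_mul, mul_assoc]
        exact dvd_mul_right _ _
      · rw [map_add, map_add, Finsupp.add_apply]
        exact dvd_add hy hy'
    have := key _ hmem'
    rwa [show (L m).red ((X s).e m x') = B.α (signProd E Q B.z B.U s) ((L m).red x') from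
      (L m).red_signProd s x'] at this
  -- parity, and the signs of `E`
  have hwrong : ∀ s, IsSign E Q s → OddFlips E s → B.α (signProd E Q B.z B.U s) = 0 := by
    intro s hs hodd
    by_contra hne
    refine (X s).false_of_parity hfin hfin hmax hreg _ hg le_rfl
      (hinputs s hs 1 (Or.inl rfl) (hnv s hne)) fun m => ?_
    obtain ⟨f, hf4, hf⟩ := (G m).parity s hs hodd
    refine ⟨f, hf4, ?_⟩
    show (L m).α (act m f) * (L m).α _ = 0
    rw [← map_mul]
    exact (L m).α_mul_eq_zero (G m) (hact m) hs fun A ψ ρ hρ hpt _ _ => hf A ρ hρ _ hpt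
  obtain ⟨s, hs, hsE, hne⟩ := B.exists_signs hwrong
  -- the quotient of the bottom module
  set N₁ := E.conductorLevel * ∏ q ∈ Q, q
  let opB : ℕ → Module.End O.R B.F := fun l => B.α (B.T l - (E.apOfModel l : B.H))
  let good : Set ℕ := {l | l.Prime ∧ l ∉ (2 * N₁).primeFactors}
  let K : Submodule O.R B.F := ⨆ l : good, LinearMap.range (opB l)
  have : Module.Finite O.R B.F := Module.Finite.of_basis B.basis
  obtain ⟨L₀, hL₀, hKL⟩ : ∃ L₀ : Finset ℕ, (∀ l ∈ L₀, l ∈ good) ∧
      K ≤ ⨆ l ∈ L₀, LinearMap.range (opB l) := by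
    obtain ⟨T, hT⟩ := (IsNoetherian.noetherian K)
    have : ∀ x ∈ T, ∃ L₀ : Finset good, x ∈ ⨆ l ∈ L₀, LinearMap.range (opB (l : ℕ)) := fun x hx =>
      Submodule.exists_finset_of_mem_iSup _ (by
        rw [show (⨆ l : good, LinearMap.range (opB l)) = Submodule.span O.R ↑T from hT.symm]
        exact Submodule.subset_span hx)
    choose Lx hLx using this
    refine ⟨(T.attach.biUnion fun x => Lx x.1 x.2).image Subtype.val, fun l hl => ?_, ?_⟩
    · obtain ⟨x, -, rfl⟩ := Finset.mem_image.mp hl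
      exact x.2
    · rw [← hT, Submodule.span_le]
      intro x hx
      refine SetLike.le_def.mp (iSup₂_le fun l hl => ?_) (hLx x hx)
      refine le_iSup₂_of_le (l : ℕ) (Finset.mem_image.mpr ⟨l, ?_, rfl⟩) le_rfl
      exact Finset.mem_biUnion.mpr ⟨⟨x, hx⟩, Finset.mem_attach _ _, hl⟩
  -- the patching theorem
  set j := (n - 1) / (k + 1)
  have hj : j * (k + 1) < n :=
    (Nat.div_mul_le_self _ _).trans_lt (by omega)
  obtain ⟨m, hm, z, hz⟩ := (X s).frequently_exists_notMem hfin hfin hmax hreg _ hg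
    (hinputs s hs n (Or.inr ⟨rfl, hsE⟩) (hnv s hne))
    (fun m op hop => by
      obtain ⟨l, hl, hlS, rfl⟩ := hop
      obtain ⟨P, hP⟩ := FLTA.Galois.exists_liesOverPrime hl
      obtain ⟨τ, hτ⟩ := FLTA.Galois.exists_isFrobeniusAt hl hP
      obtain ⟨f, -, hfn, hf⟩ := (G m).frob s hs l hl hlS P hP τ hτ
      refine ⟨f - (E.apOfModel l : PS O k), by rw [map_sub, map_intCast]; exact hfn hsE, ?_⟩
      show (L m).α (act m _) * (L m).α _ = (L m).α _ * (L m).α _
      rw [← map_mul, ← map_mul, mul_comm (signProd E Q (L m).z (L m).U s), ← sub_eq_zero,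
        ← map_sub, ← sub_mul]
      refine (L m).α_mul_eq_zero (G m) (hact m) hs fun A ψ ρ hρ hpt hT _ => ?_
      have hf' : ψ (act m f) = ρ.trace τ := hf A ρ hρ (ψ.comp (act m)) hpt
      rw [map_sub, map_sub (act m), map_sub ψ, map_sub ψ, hf', hT l hl hlS P hP τ hτ,
        map_intCast, map_intCast, sub_self]) hj (L₀.sup id + 1)
  have hne' : (2 ^ j : ℕ) • Submodule.Quotient.mk (p := K) ((L m).red z) ≠ 0 := by
    intro h0
    rw [← Submodule.Quotient.mk_smul, Submodule.Quotient.mk_eq_zero, ← map_nsmul] at h0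
    have h1 := hKL h0
    suffices h2 : ∀ w ∈ ⨆ l ∈ L₀, LinearMap.range (opB l),
        ∃ y ∈ (X s).killed m, (L m).red y = w by
      obtain ⟨y, hy, hyw⟩ := h2 _ h1
      refine hz ?_
      have hk : (2 ^ j : ℕ) • z - y ∈ (X s).killed m :=
        Submodule.mem_sup_left ((L m).ker_red _ (by rw [map_sub, hyw, sub_self]))
      simpa using add_mem hk hy
    intro w hw
    refine Submodule.iSup_induction _
      (motive := fun w => ∃ y ∈ (X s).killed m, (L m).red y = w) hw (fun l w hw => ?_)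
      ⟨0, zero_mem _, map_zero _⟩ (fun w w' hw hw' => ?_)
    · refine Submodule.iSup_induction _
        (motive := fun w => ∃ y ∈ (X s).killed m, (L m).red y = w) hw (fun hl w hw => ?_)
        ⟨0, zero_mem _, map_zero _⟩ (fun w w' hw hw' => ?_)
      · obtain ⟨v, rfl⟩ := hw
        obtain ⟨v, rfl⟩ := (L m).red_surjective v
        have hlS : l ∉ badSet E Q (qt m) := by
          intro h
          rcases Finset.mem_union.mp h with h | h
          · exact (hL₀ l hl).2 h
          · obtain ⟨i, -, rfl⟩ := Finset.mem_image.mp h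
            have h1 : qt m i ≤ L₀.sup id := Finset.le_sup (f := id) hl
            have h2 := hqt m i
            have h3 : m < 2 ^ m := Nat.lt_two_pow_self
            omega
        refine ⟨(L m).α ((L m).T l - (E.apOfModel l : (L m).H)) v, Submodule.mem_sup_right
          (Submodule.mem_iSup_of_mem ⟨_, l, (hL₀ l hl).1, hlS, rfl⟩ ⟨v, rfl⟩), ?_⟩
        show _ = B.α (B.T l - (E.apOfModel l : B.H)) ((L m).red v)
        rw [map_sub, map_sub, map_intCast, map_intCast, LinearMap.sub_apply, LinearMap.sub_apply,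
          map_sub, (L m).red_T l (hL₀ l hl).1 hlS, Module.End.intCast_apply,
          Module.End.intCast_apply, map_zsmul]
      · obtain ⟨y, hy, rfl⟩ := hw
        obtain ⟨y', hy', rfl⟩ := hw'
        exact ⟨y + y', add_mem hy hy', map_add _ _ _⟩
    · obtain ⟨y, hy, rfl⟩ := hw
      obtain ⟨y', hy', rfl⟩ := hw'
      exact ⟨y + y', add_mem hy hy', map_add _ _ _⟩
  have hle : n / (k + 1) ≤ j + 1 :=
    (Nat.div_le_div_right (by omega : n ≤ n - 1 + (k + 1))).trans_eq
      (Nat.add_div_right _ (Nat.succ_pos k))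
  refine torsCong_of_le (torsCong_of_quotient (E := E) (j := j + 1) ?_ ?_
    ((Submodule.mkQ K).comp B.π) ((Submodule.mkQ_surjective K).comp B.π_surjective) ?_
    ⟨_, hne'⟩) hle
  · intro p hp hdvd
    exact Nat.mem_primeFactors.mpr ⟨hp, Dvd.dvd.mul_left hdvd 2,
      mul_ne_zero two_ne_zero (NeZero.ne N₁)⟩
  · intro hu
    exact (maximalIdeal.isMaximal O.R).ne_top
      (Ideal.eq_top_of_isUnit_mem _ (hO ▸ Ideal.mem_span_singleton_self 2) hu)
  · intro l hl φ
    rw [LinearMap.comp_apply, LinearMap.comp_apply, B.π_parOp l l.2 hl, ← map_zsmul, ← sub_eq_zero,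
      ← map_sub, Submodule.mkQ_apply, Submodule.Quotient.mk_eq_zero]
    refine Submodule.mem_iSup_of_mem ⟨(l : ℕ), l.2, hl⟩ ⟨B.π φ, ?_⟩
    show B.α (B.T l - (E.apOfModel l : B.H)) (B.π φ) = _
    rw [map_sub, map_intCast, LinearMap.sub_apply, Module.End.intCast_apply]

end FLTA.LT2.PatchG
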