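import Fermat.Agent.LT2.Defs
import Fermat.Agent.LT2.PatchedCoeff
import Fermat.Agent.LT2.PatchedGal
import Fermat.Agent.LT2.PatchedLevels
import Fermat.Agent.LT2.PatchedMain
import Fermat.Agent.LT2.PrimesScalarExists

/-! # Part G: `R = T` at the raised level, and its consequence mod `2ⁿ` -/

set_option autoImplicit false

noncomputable section

open IsLocalRing

namespace FLTA.LT2

theorem exists_torsCong_of_killed {E : WeierstrassCurve ℤ} (hE : Companion E)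
    (h : E.IsResiduallyModularOfLevel 2 E.conductorLevel) (r : ℕ) :
    ∃ g : ℕ, 0 < g ∧ ∀ (n : ℕ), 2 ≤ n → ∀ Q : Finset ℕ, Q.card ≤ r →
      (∀ q ∈ Q, ConjPrime E n q) → StKilled E Q →
      TorsCong E (E.conductorLevel * ∏ q ∈ Q, q) (n / g)
        (2 * (E.conductorLevel * ∏ q ∈ Q, q)).primeFactors := by
  classical
  obtain ⟨O, hO, ⟨j⟩, ω, hω⟩ := PatchG.exists_coeff
  obtain ⟨l₀, hp₀, hd₀⟩ := Companion.exists_bad_prime hE
  obtain ⟨k, hk⟩ : ∃ k, k + 1 = (badPrimes E).card :=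
    ⟨(badPrimes E).card - 1, Nat.sub_add_cancel (Finset.card_pos.mpr
      ⟨l₀, (mem_badPrimes hE.Δ_ne_zero).2 ⟨hp₀, hd₀⟩⟩)⟩
  refine ⟨k + 1, k.succ_pos, fun n hn Q _ hQ hkill => ?_⟩
  obtain ⟨d, B, hB⟩ := PatchG.exists_bottom_levels hE h O hO j hω hn hQ
  have : NeZero (E.conductorLevel * ∏ q ∈ Q, q) :=
    ⟨mul_ne_zero E.conductorLevel_pos.ne'
      (Finset.prod_ne_zero_iff.mpr fun q hq => (hQ q hq).prime.ne_zero)⟩
  refine PatchG.torsCong_of_inputs hO B (by omega) (k := k) fun m => ?_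
  obtain ⟨T, hT, htw, hsep⟩ := exists_twPrimes hE (m + 2)
    (2 * (E.conductorLevel * ∏ q ∈ Q, q)).primeFactors
  let e : Fin k ≃ T := (T.equivFinOfCardEq (by omega)).symm
  let qt : Fin k → ℕ := fun i => e i
  have hqt : PatchG.IsTWTuple E Q (m + 2) qt := by
    refine ⟨Subtype.val_injective.comp e.injective, fun i => (htw _ (e i).2).2,
      fun i => (htw _ (e i).2).1, ?_⟩
    rwa [show Finset.univ.image qt = T from ?_]
    ext q
    simp only [Finset.mem_image, Finset.mem_univ, true_and, qt]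
    exact ⟨fun ⟨i, hi⟩ => hi ▸ (e i).2, fun hq => ⟨e.symm ⟨q, hq⟩, by simp⟩⟩
  refine ⟨qt, fun i => ?_, PatchG.ringPt O hE.Δ_ne_zero Q qt,
    PatchG.exists_galSide hE O hO j hω hn hQ hkill hk hqt, hB k m qt hqt⟩
  have hdvd := (hqt.twPrime i).dvd_pred
  have h4 := (hqt.twPrime i).prime.two_le
  have h5 : 2 ^ (m + 2) ≤ qt i - 1 := Nat.le_of_dvd (by omega) hdvd
  have h6 : 2 ^ m ≤ 2 ^ (m + 2) := Nat.pow_le_pow_right Nat.two_pos (Nat.le_add_right _ _)
  omega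

end FLTA.LT2
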