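import Fermat.Agent.LT2.FixedClass
import Fermat.Agent.LT2.TraceFour
import Fermat.Agent.LT2.FixedFrickeHecke
import Fermat.Agent.LevelLowering.GlobalJ
import Fermat.Agent.LevelLowering.HeckeNorm
import Fermat.Agent.Grass.TorsionFinite

/-!
# An eigenclass of order two in `J₀(N)` from an eigenset of fixed places

A set of fixed places of the Fricke involution whose parities are an eigenvector of the Hecke
correspondences outside a finite set gives a nonzero class of order two which is an eigenclass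
outside that set.
-/

set_option autoImplicit false
set_option synthInstance.maxHeartbeats 400000

noncomputable section

open AlgebraicCurve ModularCurve
open scoped Pointwise IsMulCommutative

namespace FLTA.LT2

local notation "Qb" => AlgebraicClosure ℚ

variable {N : ℕ} [NeZero N]

/-- The good Hecke operators on `J₀(N)` commute. -/
theorem heckeOperatorBar_comm_good (ℓ ℓ' : Nat.Primes) (h : ¬ (ℓ : ℕ) ∣ N) (h' : ¬ (ℓ' : ℕ) ∣ N)
    (x : JZero N) :
    heckeOperatorBar N ℓ (heckeOperatorBar N ℓ' x) =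
      heckeOperatorBar N ℓ' (heckeOperatorBar N ℓ x) := by
  let S : Finset ℕ := N.primeFactors
  have hS : ∀ q : ℕ, q.Prime → q ∣ N → q ∈ S := fun q hq hd =>
    Nat.mem_primeFactors.2 ⟨hq, hd, NeZero.ne N⟩
  let a : {q : Nat.Primes // (q : ℕ) ∉ S} := ⟨ℓ, fun hd => h (Nat.mem_primeFactors.1 hd).2.1⟩
  let b : {q : Nat.Primes // (q : ℕ) ∉ S} := ⟨ℓ', fun hd => h' (Nat.mem_primeFactors.1 hd).2.1⟩
  have h0 : LevelLowering.heckeLiftFull N S hS
      (FreeAlgebra.ι ℤ a * FreeAlgebra.ι ℤ b - FreeAlgebra.ι ℤ b * FreeAlgebra.ι ℤ a) = 0 := by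
    rw [map_sub, map_mul, map_mul, mul_comm, sub_self]
  have h1 := LinearMap.congr_fun (LevelLowering.heckeLiftBar_eq_zero N S hS h0) x
  rw [map_sub, map_mul, map_mul, LinearMap.sub_apply, Module.End.mul_apply, Module.End.mul_apply,
    LinearMap.zero_apply, sub_eq_zero] at h1
  simpa only [LevelLowering.heckeLiftBar, FreeAlgebra.lift_ι_apply] using h1

/-- **The eigenclass.** -/
theorem exists_eigenclass_of_eigenset (hN : 2 ≤ N) (a : ℕ → ℤ)
    (Z : Finset (Place Qb (modularFunctionFieldBar N)))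
    (hfix : ∀ P ∈ Z, Kummer.frickeBarEquiv N • P = P) (heven : Even Z.card) (hne : Z.Nonempty)
    (hout : ∃ P, Kummer.frickeBarEquiv N • P = P ∧ P ∉ Z) (S : Finset ℕ)
    (heig : ∀ (l : ℕ) [NeZero l], l.Prime → l ∉ S → ¬ l ∣ 2 * N →
      ∀ P, Kummer.frickeBarEquiv N • P = P →
        Even (LevelLowering.heckeDiv N l (∑ Q ∈ Z, Finsupp.single Q (1 : ℤ)) P -
          a l * (∑ Q ∈ Z, Finsupp.single Q (1 : ℤ) : Divisor Qb (modularFunctionFieldBar N)) P)) :
    ∃ x : JZero N, x ≠ 0 ∧ 2 • x = 0 ∧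
      ∀ ℓ : Nat.Primes, (ℓ : ℕ) ∉ S → ¬ (ℓ : ℕ) ∣ 2 * N → heckeOperatorBar N ℓ x = a ℓ • x := by
  let ι : Type := {l : Nat.Primes // (l : ℕ) ∉ S ∧ ¬ (l : ℕ) ∣ 2 * N}
  have hnz : ∀ i : ι, NeZero (i.1 : ℕ) := fun i => ⟨i.1.2.ne_zero⟩
  have hnd : ∀ i : ι, ¬ (i.1 : ℕ) ∣ N := fun i h => i.2.2 (h.mul_left 2)
  have hfact : ∀ i : ι, Fact (Nat.Prime (i.1 : ℕ)) := fun i => ⟨i.1.2⟩
  have : Finite {x : JZero N // 2 • x = 0} := by
    have := Grass.finite_torsionBy_of_charZero N (n := 2) two_pos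
    refine Finite.of_injective (fun x : {x : JZero N // 2 • x = 0} =>
      (⟨x.1, (Submodule.mem_torsionBy_iff _ _).mpr (by rw [natCast_zsmul]; exact x.2)⟩ :
        Submodule.torsionBy ℤ (JZero N) ((2 : ℕ) : ℤ))) fun x y h => Subtype.ext ?_
    exact congrArg Subtype.val h
  obtain ⟨x, hx0, hx2, hx⟩ := exists_eigenclass_of_fixed (w := Kummer.frickeBarEquiv N) two_ne_zero
    (frickeBarEquiv_mul_self N) (exists_frickeBar_anti hN)
    (MordellWeil.jZero_divisible N two_ne_zero)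
    (fun i : ι => LevelLowering.heckeDiv N (i.1 : ℕ))
    (fun i => (heckeOperatorBar N i.1).toAddMonoidHom)
    (fun i => ((finrankAlong Qb (heckeBetaBar Qb N (i.1 : ℕ)) : ℕ) : ℤ))
    (fun i => a i.1)
    (fun i D => LevelLowering.degree_heckeDiv N (i.1 : ℕ) D)
    (fun i D => heckeDiv_fricke_smul N (i.1 : ℕ) (hnd i) D)
    (fun i D _ => (LevelLowering.heckeOperatorAlong_mk N (i.1 : ℕ) D).choose_spec)
    (fun i j y => heckeOperatorBar_comm_good i.1 j.1 (hnd i) (hnd j) y)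
    Z hfix heven hne hout (fun i Q hQ => heig i.1 i.1.2 i.2.1 i.2.2 Q hQ)
  exact ⟨x, hx0, hx2, fun ℓ h1 h2 => hx ⟨ℓ, h1, h2⟩⟩

end FLTA.LT2

end
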