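import Fermat.Agent.LT2.ImageGroup
import Fermat.Agent.LT2.ImageFrob
import Fermat.Agent.Carayol.MatchUnipotent
import Fermat.Agent.Patching.Surjective
import Fermat.Agent.RT.DatumTrace
import Mathlib.NumberTheory.LSeries.PrimesInAP

/-!
# The matrix representation on `E[2ⁿ]`
-/

set_option autoImplicit false

open scoped WeierstrassCurve.Affine
open WeierstrassCurve WeierstrassCurve.Affine.Point Matrix

namespace FLTA.LT2.Image

open FLTA.EllReduction

noncomputable local instance : DecidableEq (AlgebraicClosure ℚ) := Classical.decEq _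

local notation "Qbar" => AlgebraicClosure ℚ
local notation "Γℚ" => AlgebraicClosure ℚ ≃ₐ[ℚ] AlgebraicClosure ℚ

variable (W : WeierstrassCurve ℤ)

/-- `E[2ⁿ]` as a submodule. -/
noncomputable abbrev Tors (n : ℕ) : Submodule ℤ (GeomPoint W) :=
  Submodule.torsionBy ℤ (GeomPoint W) ((2 ^ n : ℕ) : ℤ)

variable {W}

theorem mem_tors {n : ℕ} {P : GeomPoint W} : P ∈ Tors W n ↔ (2 ^ n) • P = 0 := by
  rw [Submodule.mem_torsionBy_iff, natCast_zsmul]

theorem nonempty_torsEquiv (hΔ : W.Δ ≠ 0) (n : ℕ) :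
    Nonempty (Tors W n ≃+ (Fin 2 → ZMod (2 ^ n))) := by
  have : (W.map (Int.castRingHom ℚ)).IsElliptic :=
    ⟨by rw [WeierstrassCurve.map_Δ, isUnit_iff_ne_zero]; simpa using hΔ⟩
  exact EllTorsion.nonempty_torsionBy_addEquiv
    ((W.map (Int.castRingHom ℚ)).map (algebraMap ℚ Qbar)) (n := 2 ^ n)
    (Nat.cast_ne_zero.mpr (pow_ne_zero n two_ne_zero))

variable (hΔ : W.Δ ≠ 0) (n : ℕ)

/-- A chosen isomorphism `E[2ⁿ] ≅ (ℤ/2ⁿ)²`. -/
noncomputable def torsEquiv : Tors W n ≃ₗ[ZMod (2 ^ n)] (Fin 2 → ZMod (2 ^ n)) :=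
  (nonempty_torsEquiv hΔ n).some.toLinearEquiv fun c x =>
    ZMod.map_smul (nonempty_torsEquiv hΔ n).some c x

/-- The matrix of `σ` on `E[2ⁿ]`. -/
noncomputable def rep : Γℚ →* Matrix (Fin 2) (Fin 2) (ZMod (2 ^ n)) :=
  (LinearMap.toMatrixAlgEquiv
      (Module.Basis.ofEquivFun (torsEquiv hΔ n))).toAlgHom.toRingHom.toMonoidHom.comp
    (galoisRepModuleEnd (K := Qbar) ℚ (W.map (Int.castRingHom ℚ)) (2 ^ n))

/-- The matrix representation with values in `GL₂`. -/
noncomputable def repGL : Γℚ →* GL (Fin 2) (ZMod (2 ^ n)) := (rep hΔ n).toHomUnits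

theorem coe_repGL (σ : Γℚ) :
    (repGL hΔ n σ : Matrix (Fin 2) (Fin 2) (ZMod (2 ^ n))) = rep hΔ n σ := rfl

theorem torsEquiv_smul (σ : Γℚ) (x : Tors W n) :
    torsEquiv hΔ n (σ • x) = rep hΔ n σ *ᵥ torsEquiv hΔ n x := by
  have h := LinearMap.toMatrix_mulVec_repr (Module.Basis.ofEquivFun (torsEquiv hΔ n))
    (Module.Basis.ofEquivFun (torsEquiv hΔ n))
    (galoisRepModuleEnd (K := Qbar) ℚ (W.map (Int.castRingHom ℚ)) (2 ^ n) σ) x
  exact (funext fun i => (congrFun h i).symm)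

theorem rep_finiteLevel : GaloisFactorsThroughFiniteLevel (rep hΔ n) := by
  obtain ⟨L, hL, h⟩ := EllTorsion.galoisFactorsThroughFiniteLevel_intModel W hΔ
    (pow_ne_zero n two_ne_zero)
  refine ⟨L, hL, fun σ hσ => ?_⟩
  exact (congrArg (LinearMap.toMatrixAlgEquiv
    (Module.Basis.ofEquivFun (torsEquiv hΔ n))) (h σ hσ)).trans (map_one _)

theorem isUnit_det_rep (σ : Γℚ) : IsUnit (rep hΔ n σ).det :=
  coe_repGL hΔ n σ ▸ (Matrix.isUnit_iff_isUnit_det _).mp (repGL hΔ n σ).isUnit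

/-- A Frobenius at a good odd prime satisfies `X² - a_l X + l`. -/
theorem rep_frobenius_quadratic {l : ℕ} (hl : l.Prime) (hl2 : l ≠ 2)
    (hgood : W.IsGoodPrimeFor l) {A : ValuationSubring Qbar} (hA : A.LiesOverPrime l)
    {σ : Γℚ} (hσ : A.IsFrobeniusAt σ l) :
    rep hΔ n σ * rep hΔ n σ - W.apOfModel l • rep hΔ n σ + (l : ℤ) • 1 = 0 := by
  refine Matrix.ext_of_mulVec_single fun i => ?_
  obtain ⟨x, hx⟩ := (torsEquiv hΔ n).surjective (Pi.single i 1)
  rw [← hx, Matrix.add_mulVec, Matrix.sub_mulVec, ← Matrix.mulVec_mulVec, Matrix.smul_mulVec,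
    Matrix.smul_mulVec, Matrix.one_mulVec, Matrix.zero_mulVec, ← torsEquiv_smul,
    ← torsEquiv_smul, ← map_zsmul, ← map_zsmul, ← map_sub, ← map_add]
  refine (congrArg (torsEquiv hΔ n) (Subtype.ext ?_)).trans (_root_.map_zero _)
  show σ • σ • (x : GeomPoint W) - W.apOfModel l • (σ • (x : GeomPoint W))
    + (l : ℤ) • (x : GeomPoint W) = 0
  rw [natCast_zsmul]
  exact frobenius_quadratic_two_pow W hΔ hl hl2 hgood hA hσ n _ (mem_tors.mp x.2)

variable {n}

/-- The determinant is the cyclotomic character as soon as the image modulo two is non-trivial. -/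
theorem det_rep (hn : n ≠ 0) (hτ : ∃ τ : Γℚ, (rep hΔ n τ).map (mod2 hn) ≠ 1) (σ : Γℚ) :
    (rep hΔ n σ).det = Carayol.cycloMod 2 n σ := by
  have key : ∀ g : Γℚ, (rep hΔ n g).map (mod2 hn) ≠ 1 →
      (rep hΔ n g).det = Carayol.cycloMod 2 n g := by
    intro g hg
    suffices H : ∃ t d : ℤ, (d : ZMod (2 ^ n)) = Carayol.cycloMod 2 n g ∧
        rep hΔ n g * rep hΔ n g - t • rep hΔ n g +
          d • (1 : Matrix (Fin 2) (Fin 2) (ZMod (2 ^ n))) = 0 by
      obtain ⟨t, d, hd, hq⟩ := H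
      refine (det_eq_of_quadratic (mod2 hn) (isUnit_of_mod2 hn) (isUnit_det_rep hΔ n g)
        (t := (t : ZMod (2 ^ n))) (d := (d : ZMod (2 ^ n))) ?_ hg).trans hd
      simpa only [Int.cast_smul_eq_zsmul] using hq
    refine Density.forall_of_frobenius
      ((rep hΔ n).prod (Carayol.cycloMod 2 n))
      (Density.galoisFactorsThroughFiniteLevel_prod (rep_finiteLevel hΔ n)
        (Carayol.cycloMod_finiteLevel 2 n))
      (insert 2 W.Δ.natAbs.primeFactors)
      (fun w => ∃ t d : ℤ, (d : ZMod (2 ^ n)) = w.2 ∧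
        w.1 * w.1 - t • w.1 + d • (1 : Matrix (Fin 2) (Fin 2) (ZMod (2 ^ n))) = 0) ?_ ?_ g
    · rintro ⟨y, z⟩ m ⟨t, d, hd, hy⟩
      obtain ⟨u, -, hy'⟩ := Carayol.exists_trace_pow (R := ℤ) (x := !![0, -d; 1, t])
        (y := y) (t := t) (d := d) (by simp [Matrix.trace_fin_two]) (by simp [Matrix.det_fin_two])
        hy m
      refine ⟨u, d ^ m, ?_, hy'⟩
      show ((d ^ m : ℤ) : ZMod (2 ^ n)) = z ^ m
      rw [Int.cast_pow, show (d : ZMod (2 ^ n)) = z from hd]
    · intro l hl hlS A hA τ hτ'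
      have hl2 : l ≠ 2 := fun e => hlS (e ▸ Finset.mem_insert_self _ _)
      have hgood : W.IsGoodPrimeFor l := fun hd => hlS (Finset.mem_insert_of_mem
        (Nat.mem_primeFactors.mpr ⟨hl, Int.natCast_dvd.mp hd, Int.natAbs_ne_zero.mpr hΔ⟩))
      refine ⟨W.apOfModel l, l, ?_, rep_frobenius_quadratic hΔ n hl hl2 hgood hA hτ'⟩
      show _ = PadicInt.toZModPow n
        (((cyclotomicCharacter Qbar 2 τ.toRingEquiv : (ℤ_[2])ˣ)) : ℤ_[2])
      rw [show ((cyclotomicCharacter Qbar 2 τ.toRingEquiv : ℤ_[2]ˣ) : ℤ_[2]) = l from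
        Galois.cyclotomicCharacter_frobenius 2 hl hl2 hA hτ', map_natCast, Int.cast_natCast]
  by_cases hσ : (rep hΔ n σ).map (mod2 hn) = 1
  · obtain ⟨τ, hτ⟩ := hτ
    have hστ : (rep hΔ n (σ * τ)).map (mod2 hn) ≠ 1 := by
      rw [map_mul, Matrix.map_mul, hσ, one_mul]; exact hτ
    have h := key _ hστ
    rw [map_mul, Matrix.det_mul, map_mul, key τ hτ] at h
    exact (key τ hτ ▸ isUnit_det_rep hΔ n τ).mul_left_injective h
  · exact key σ hσ

theorem two_pow_pred_mul_eq_zero_iff (hn : n ≠ 0) (x : ZMod (2 ^ n)) :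
    (2 ^ (n - 1) : ℕ) • x = 0 ↔ mod2 hn x = 0 := by
  have : NeZero (2 ^ n) := ⟨pow_ne_zero _ two_ne_zero⟩
  obtain ⟨k, rfl⟩ : ∃ k : ℕ, x = k := ⟨x.val, (ZMod.natCast_zmod_val x).symm⟩
  obtain ⟨m, rfl⟩ := Nat.exists_eq_succ_of_ne_zero hn
  rw [nsmul_eq_mul, ← Nat.cast_mul, ZMod.natCast_eq_zero_iff, map_natCast,
    ZMod.natCast_eq_zero_iff, Nat.succ_sub_one, Nat.succ_eq_add_one, pow_succ,
    Nat.mul_dvd_mul_iff_left (pow_pos two_pos _)]

/-- The image is trivial modulo two exactly when every point of order two is fixed. -/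
theorem map_mod2_rep_eq_one_iff (hn : n ≠ 0) (σ : Γℚ) :
    (rep hΔ n σ).map (mod2 hn) = 1 ↔ ∀ P : GeomPoint W, 2 • P = 0 → σ • P = P := by
  have : NeZero (2 ^ n) := ⟨pow_ne_zero _ two_ne_zero⟩
  constructor
  · intro h P hP
    have hPn : P ∈ Tors W n := mem_tors.mpr (by
      obtain ⟨m, rfl⟩ := Nat.exists_eq_succ_of_ne_zero hn
      rw [Nat.succ_eq_add_one, pow_succ, mul_nsmul', hP, nsmul_zero])
    set v := torsEquiv hΔ n ⟨P, hPn⟩ with hv
    have h2 : ∀ i, 2 • v i = 0 := fun i => by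
      have e : (2 : ℕ) • (⟨P, hPn⟩ : Tors W n) = 0 := Subtype.ext hP
      have := congrFun (congrArg (torsEquiv hΔ n) e) i
      rwa [map_nsmul, _root_.map_zero, ← hv] at this
    have heq : rep hΔ n σ *ᵥ v = v := by
      have key : ∀ a b : ZMod (2 ^ n), mod2 hn a = 0 → 2 • b = 0 → a * b = 0 := by
        intro a b ha hb
        obtain ⟨c, hc⟩ : ∃ c, a = 2 * c := by
          obtain ⟨k, rfl⟩ : ∃ k : ℕ, a = k := ⟨a.val, (ZMod.natCast_zmod_val a).symm⟩
          rw [map_natCast, ZMod.natCast_eq_zero_iff] at ha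
          obtain ⟨c, rfl⟩ := ha
          exact ⟨c, by push_cast; ring⟩
        rw [nsmul_eq_mul, Nat.cast_ofNat] at hb
        rw [hc, mul_comm 2 c, mul_assoc, hb, mul_zero]
      have hd : ∀ i j, mod2 hn ((rep hΔ n σ - 1) i j) = 0 := fun i j => by
        have := congrFun (congrFun h i) j
        rw [Matrix.map_apply] at this
        rw [Matrix.sub_apply, map_sub, this, Matrix.one_apply, Matrix.one_apply, apply_ite (mod2 hn)]
        simp
      have hz : (rep hΔ n σ - 1) *ᵥ v = 0 := funext fun i =>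
        (Finset.sum_eq_zero fun j _ => key _ _ (hd i j) (h2 j) :
          ∑ j, (rep hΔ n σ - 1) i j * v j = 0)
      rwa [Matrix.sub_mulVec, Matrix.one_mulVec, sub_eq_zero] at hz
    rw [← torsEquiv_smul] at heq
    exact congrArg Subtype.val ((torsEquiv hΔ n).injective heq)
  · intro h
    refine Matrix.ext_of_mulVec_single fun j => ?_
    obtain ⟨x, hx⟩ := (torsEquiv hΔ n).surjective (Pi.single j 1)
    have h2 : 2 • ((2 ^ (n - 1)) • (x : GeomPoint W)) = 0 := by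
      rw [← mul_nsmul, ← pow_succ, Nat.sub_add_cancel (Nat.one_le_iff_ne_zero.mpr hn)]
      exact mem_tors.mp x.2
    have hz : (2 ^ (n - 1)) • (σ • x - x) = 0 := Subtype.ext (by
      show (2 ^ (n - 1)) • (σ • (x : GeomPoint W) - (x : GeomPoint W)) = 0
      rw [nsmul_sub, sub_eq_zero, ← actHom_apply, ← map_nsmul]
      exact h _ h2)
    have hz' := congrArg (torsEquiv hΔ n) hz
    rw [map_nsmul, map_sub, torsEquiv_smul, hx, _root_.map_zero] at hz'
    ext i
    have hi := (two_pow_pred_mul_eq_zero_iff hn _).mp (congrFun hz' i)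
    rw [Matrix.mulVec_single_one, Pi.sub_apply, map_sub, sub_eq_zero] at hi
    rw [Matrix.mulVec_single_one, Matrix.mulVec_single_one, Matrix.col_apply, Matrix.map_apply]
    refine hi.trans ?_
    rw [Matrix.col_apply, Pi.single_apply, Matrix.one_apply, apply_ite (mod2 hn), map_one, _root_.map_zero]

/-- A vector fixed modulo two by every `σ` gives a point of order two fixed by every `σ`. -/
theorem exists_fixed_point_of_fixed_vector (hn : n ≠ 0) {v : Fin 2 → ZMod 2} (hv : v ≠ 0)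
    (hfix : ∀ σ : Γℚ, (rep hΔ n σ).map (mod2 hn) *ᵥ v = v) :
    ∃ P : GeomPoint W, P ≠ 0 ∧ 2 • P = 0 ∧ ∀ σ : Γℚ, σ • P = P := by
  have : NeZero (2 ^ n) := ⟨pow_ne_zero _ two_ne_zero⟩
  set v' : Fin 2 → ZMod (2 ^ n) := fun i => ((v i).val : ℕ)
  have hv' : ∀ i, mod2 hn (v' i) = v i := fun i => by
    rw [map_natCast, ZMod.natCast_zmod_val]
  set x := (2 ^ (n - 1)) • (torsEquiv hΔ n).symm v' with hx
  refine ⟨(x : GeomPoint W), fun h => hv ?_, ?_, fun σ => ?_⟩
  · have hx0 : x = 0 := Subtype.ext h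
    have h' := congrArg (torsEquiv hΔ n) hx0
    rw [hx, map_nsmul, LinearEquiv.apply_symm_apply, _root_.map_zero] at h'
    funext i
    rw [← hv' i]
    exact (two_pow_pred_mul_eq_zero_iff hn _).mp (congrFun h' i)
  · rw [hx, Submodule.coe_smul_of_tower, ← mul_nsmul, ← pow_succ,
      Nat.sub_add_cancel (Nat.one_le_iff_ne_zero.mpr hn)]
    exact mem_tors.mp (Submodule.coe_mem _)
  · suffices σ • x = x from congrArg Subtype.val this
    refine (torsEquiv hΔ n).injective ?_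
    rw [torsEquiv_smul, hx, map_nsmul, LinearEquiv.apply_symm_apply, Matrix.mulVec_smul]
    funext i
    rw [Pi.smul_apply, Pi.smul_apply, ← sub_eq_zero, ← nsmul_sub,
      two_pow_pred_mul_eq_zero_iff hn, map_sub, sub_eq_zero, hv']
    rw [RingHom.map_mulVec]
    have : mod2 hn ∘ v' = v := funext hv'
    rw [this]
    exact congrFun (hfix σ) i

end FLTA.LT2.Image
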