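import Fermat.Agent.LT2.LowerDefs
import Fermat.Agent.LT2.Defs
import Fermat.Agent.LT2.ImageRep
import Fermat.Agent.GaloisReps.TateConstruct

/-!
# From a 2-torsion eigenclass to residual modularity at 2

A non-zero `x ∈ J₀(N)[2]` with `T_ℓ x = a_ℓ(W) x` for almost all good `ℓ` has this property for all
good odd `ℓ`: on the eigenspace every `σ` satisfies the quadratic equation it satisfies on `W[2]`
(Frobenius density), and the Eichler–Shimura relation then determines `T_ℓ`. Hence a congruent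
normalised eigenform of level `N`.
-/

set_option autoImplicit false

noncomputable section

namespace FLTA.LT2

open CongruenceSubgroup FLTA.Periods FLTA.GaloisReps Matrix
open FLTA.Gamma0 (homRank)
open FLTA.Kummer (JTors)
open scoped IsMulCommutative

local notation "Γℚ" => AlgebraicClosure ℚ ≃ₐ[ℚ] AlgebraicClosure ℚ

variable (N : ℕ) [NeZero N]

/-- `T_ℓ` on the coordinates of `J₀(N)[2]`. -/
abbrev tMat {ℓ : ℕ} (hℓ : ℓ.Prime) (hℓN : ¬ ℓ ∣ N) :
    Matrix (Fin (homRank N)) (Fin (homRank N)) (ZMod 2) :=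
  (heckeMat N (CuspForm.heckeAlgebra.T hℓ hℓN (Set.notMem_empty ℓ))).map (Int.cast : ℤ → ZMod 2)

/-- The mod 2 eigenvectors of the Hecke operators at the primes with `G`. -/
def eigSpace (G : ℕ → Prop) (a : ℕ → ℤ) : Submodule (ZMod 2) (Fin (homRank N) → ZMod 2) where
  carrier := {v | ∀ (ℓ : ℕ) (_ : G ℓ) (hℓ : ℓ.Prime) (hℓN : ¬ ℓ ∣ N),
    tMat N hℓ hℓN *ᵥ v = (a ℓ : ZMod 2) • v}
  zero_mem' _ _ _ _ := by simp
  add_mem' hv hw ℓ hG hℓ hℓN := by
    rw [Matrix.mulVec_add, hv ℓ hG hℓ hℓN, hw ℓ hG hℓ hℓN, smul_add]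
  smul_mem' c v hv ℓ hG hℓ hℓN := by
    rw [Matrix.mulVec_smul, hv ℓ hG hℓ hℓN, smul_comm]

variable {N}

theorem mem_eigSpace {G : ℕ → Prop} {a : ℕ → ℤ} {v : Fin (homRank N) → ZMod 2} :
    v ∈ eigSpace N G a ↔ ∀ (ℓ : ℕ) (_ : G ℓ) (hℓ : ℓ.Prime) (hℓN : ¬ ℓ ∣ N),
      tMat N hℓ hℓN *ᵥ v = (a ℓ : ZMod 2) • v := Iff.rfl

theorem galMat_mem_eigSpace {G : ℕ → Prop} {a : ℕ → ℤ} (σ : Γℚ)
    {v : Fin (homRank N) → ZMod 2} (hv : v ∈ eigSpace N G a) :
    galMat N 2 σ *ᵥ v ∈ eigSpace N G a := fun ℓ hG hℓ hℓN => by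
  have hc : Commute (galMat N 2 σ) (tMat N hℓ hℓN) :=
    commute_galMat_latMat N 2 ⟨ℓ, hℓ⟩ (heckeQuot_T_comp hℓ hℓN) σ
  rw [Matrix.mulVec_mulVec, ← hc.eq, ← Matrix.mulVec_mulVec, mem_eigSpace.mp hv ℓ hG hℓ hℓN,
    Matrix.mulVec_smul]

/-- The Galois group on the eigenspace. -/
def eigRep (G : ℕ → Prop) (a : ℕ → ℤ) : Γℚ →* Module.End (ZMod 2) (eigSpace N G a) where
  toFun σ := (Matrix.mulVecLin (galMat N 2 σ)).restrict fun _ => galMat_mem_eigSpace σ
  map_one' := LinearMap.ext fun v => Subtype.ext (by simp)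
  map_mul' σ τ := LinearMap.ext fun v => Subtype.ext (by
    show galMat N 2 (σ * τ) *ᵥ (v : Fin (homRank N) → ZMod 2) = galMat N 2 σ *ᵥ (galMat N 2 τ *ᵥ v)
    rw [map_mul, Matrix.mulVec_mulVec])

theorem eigRep_apply {G : ℕ → Prop} {a : ℕ → ℤ} (σ : Γℚ) (v : eigSpace N G a) :
    ((eigRep G a σ v : eigSpace N G a) : Fin (homRank N) → ZMod 2) = galMat N 2 σ *ᵥ (v : _) := rfl

theorem natCast_eq_one_of_odd {ℓ : ℕ} (hℓ : ℓ.Prime) (h2 : ℓ ≠ 2) : (ℓ : ZMod 2) = 1 :=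
  ZMod.natCast_eq_one_iff_odd.mpr (hℓ.odd_of_ne_two h2)

theorem natCast_matrix_mulVec {r : ℕ} (n : ℕ) (v : Fin r → ZMod 2) :
    (n : Matrix (Fin r) (Fin r) (ZMod 2)) *ᵥ v = (n : ZMod 2) • v := by
  rw [← nsmul_one, Matrix.smul_mulVec, Matrix.one_mulVec, Nat.cast_smul_eq_nsmul]

/-- **Eigen at almost all primes implies eigen at all good odd primes.** -/
theorem tMat_mulVec_of_almost_all {W : WeierstrassCurve ℤ} (hΔ : W.Δ ≠ 0) {G : ℕ → Prop}
    (S : Finset ℕ) (hG : ∀ ℓ : ℕ, ℓ.Prime → ℓ ∉ S → G ℓ)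
    {v : Fin (homRank N) → ZMod 2} (hv : v ∈ eigSpace N G W.apOfModel)
    {ℓ : ℕ} (hℓ : ℓ.Prime) (hℓN : ¬ ℓ ∣ N) (hℓ2 : ℓ ≠ 2) (hgood : W.IsGoodPrimeFor ℓ) :
    tMat N hℓ hℓN *ᵥ v = (W.apOfModel ℓ : ZMod 2) • v := by
  classical
  set X := eigSpace N G W.apOfModel
  have hfin : GaloisFactorsThroughFiniteLevel
      ((eigRep (N := N) G W.apOfModel).prod (Image.rep hΔ 1)) := by
    refine Density.galoisFactorsThroughFiniteLevel_prod ?_ (Image.rep_finiteLevel hΔ 1)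
    obtain ⟨L, hL, h⟩ := exists_level_galMat N 2
    exact ⟨L, hL, fun σ hσ => LinearMap.ext fun w => Subtype.ext (by
      rw [eigRep_apply, h σ hσ, Matrix.one_mulVec]; rfl)⟩
  have key : ∀ σ : Γℚ, ∃ t d : ℤ, (d : ZMod 2) = 1 ∧
      eigRep G W.apOfModel σ * eigRep G W.apOfModel σ - t • eigRep G W.apOfModel σ +
        d • (1 : Module.End (ZMod 2) X) = 0 ∧
      Image.rep hΔ 1 σ * Image.rep hΔ 1 σ - t • Image.rep hΔ 1 σ +
        d • (1 : Matrix (Fin 2) (Fin 2) (ZMod (2 ^ 1))) = 0 := by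
    refine fun σ => Density.forall_of_frobenius _ hfin
      (S ∪ insert 2 (W.Δ.natAbs.primeFactors ∪ N.primeFactors))
      (fun w => ∃ t d : ℤ, (d : ZMod 2) = 1 ∧ w.1 * w.1 - t • w.1 + d • 1 = 0 ∧
        w.2 * w.2 - t • w.2 + d • 1 = 0) ?_ ?_ σ
    · rintro w m ⟨t, d, hd, h1, h2⟩
      obtain ⟨u, -, hu⟩ := Carayol.exists_trace_pow (R := ℤ) (x := !![0, -d; 1, t])
        (y := w) (t := t) (d := d) (by simp [Matrix.trace_fin_two]) (by simp [Matrix.det_fin_two])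
        (Prod.ext (by simpa using h1) (by simpa using h2)) m
      refine ⟨u, d ^ m, by rw [Int.cast_pow, hd, one_pow], ?_, ?_⟩
      · simpa using congrArg Prod.fst hu
      · simpa using congrArg Prod.snd hu
    · intro q hq hqS A hA τ hτ
      simp only [Finset.mem_union, Finset.mem_insert, not_or] at hqS
      obtain ⟨hqS, hq2, hqΔ, hqN⟩ := hqS
      have hgood' : W.IsGoodPrimeFor q := fun hd => hqΔ
        (Nat.mem_primeFactors.mpr ⟨hq, Int.natCast_dvd.mp hd, Int.natAbs_ne_zero.mpr hΔ⟩)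
      have hqN' : ¬ q ∣ N := fun hd =>
        hqN (Nat.mem_primeFactors.mpr ⟨hq, hd, NeZero.ne N⟩)
      refine ⟨W.apOfModel q, q, ?_, ?_, Image.rep_frobenius_quadratic hΔ 1 hq hq2 hgood' hA hτ⟩
      · rw [Int.cast_natCast]; exact natCast_eq_one_of_odd hq hq2
      refine LinearMap.ext fun w => Subtype.ext ?_
      have h := congrArg (fun M => M *ᵥ (w : Fin (homRank N) → ZMod 2))
        (galMat_frobenius N 2 hq hqN'
          (fun hd => hq2 ((Nat.prime_dvd_prime_iff_eq hq Nat.prime_two).mp hd)) hA hτ)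
      simp only [Matrix.add_mulVec, Matrix.sub_mulVec, ← Matrix.mulVec_mulVec,
        natCast_matrix_mulVec, Matrix.zero_mulVec] at h
      rw [mem_eigSpace.mp (galMat_mem_eigSpace τ w.2) q (hG q hq hqS) hq hqN'] at h
      simpa [eigRep_apply, MonoidHom.prod_apply, Int.cast_smul_eq_zsmul, Nat.cast_smul_eq_nsmul]
        using h
  obtain ⟨A, hA⟩ := FLTA.Galois.exists_liesOverPrime hℓ
  obtain ⟨σ, hσ⟩ := FLTA.Galois.exists_isFrobeniusAt hℓ hA
  obtain ⟨t, d, hd, h1, h2⟩ := key σ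
  -- the trace agrees
  have ht : (t : ZMod 2) = (W.apOfModel ℓ : ZMod 2) := by
    have h3 := Image.rep_frobenius_quadratic hΔ 1 hℓ hℓ2 hgood hA hσ
    have hd' : (d : ZMod (2 ^ 1)) = ((ℓ : ℤ) : ZMod (2 ^ 1)) := by
      show (d : ZMod 2) = ((ℓ : ℤ) : ZMod 2)
      rw [hd, Int.cast_natCast, natCast_eq_one_of_odd hℓ hℓ2]
    simp only [← Int.cast_smul_eq_zsmul (ZMod (2 ^ 1)), hd'] at h2 h3
    have h4 : ((t : ZMod (2 ^ 1)) - (W.apOfModel ℓ : ZMod (2 ^ 1))) • Image.rep hΔ 1 σ = 0 := by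
      rw [sub_smul]
      linear_combination (norm := abel) h3 - h2
    have h5 := congrArg Matrix.det h4
    rw [Matrix.det_smul, Matrix.det_zero, Fintype.card_fin] at h5
    have h6 := (Image.isUnit_det_rep hΔ 1 σ).mul_left_eq_zero.mp h5
    have : Fact (Nat.Prime (2 ^ 1)) := ⟨by simpa using Nat.prime_two⟩
    exact sub_eq_zero.mp (pow_eq_zero_iff two_ne_zero |>.mp h6)
  -- write `v` as an image
  set w : X := eigRep G W.apOfModel σ⁻¹ ⟨v, hv⟩
  have hw : galMat N 2 σ *ᵥ (w : Fin (homRank N) → ZMod 2) = v := by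
    rw [eigRep_apply, Matrix.mulVec_mulVec, ← map_mul, mul_inv_cancel, map_one, Matrix.one_mulVec]
  have e1 : galMat N 2 σ *ᵥ v - (W.apOfModel ℓ : ZMod 2) • v + (w : Fin (homRank N) → ZMod 2)
      = 0 := by
    have e := congrArg Subtype.val (LinearMap.congr_fun h1 w)
    simp only [LinearMap.add_apply, LinearMap.sub_apply, Module.End.mul_apply, LinearMap.smul_apply,
      Module.End.one_apply, Submodule.coe_add, AddSubgroupClass.coe_sub, SetLike.val_smul,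
      eigRep_apply, hw, LinearMap.zero_apply, ZeroMemClass.coe_zero,
      ← Int.cast_smul_eq_zsmul (ZMod 2), ht, hd, one_smul] at e
    exact e
  have e2 : galMat N 2 σ *ᵥ v - tMat N hℓ hℓN *ᵥ v + (w : Fin (homRank N) → ZMod 2) = 0 := by
    have h := congrArg (fun M => M *ᵥ (w : Fin (homRank N) → ZMod 2))
      (galMat_frobenius N 2 hℓ hℓN
        (fun hd => hℓ2 ((Nat.prime_dvd_prime_iff_eq hℓ Nat.prime_two).mp hd)) hA hσ)
    simp only [Matrix.add_mulVec, Matrix.sub_mulVec, ← Matrix.mulVec_mulVec,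
      natCast_matrix_mulVec, natCast_eq_one_of_odd hℓ hℓ2, one_smul, Matrix.zero_mulVec, hw] at h
    exact h
  have e3 := e1.trans e2.symm
  exact (sub_right_inj.mp (add_right_cancel e3)).symm

/-- **The wrap**: an eigenclass in `J₀(N)[2]` gives residual modularity of level `N`. -/
theorem isResiduallyModularOfLevel_two_of_torsion {W : WeierstrassCurve ℤ} (hΔ : W.Δ ≠ 0)
    {x : ModularCurve.JZero N} (hx : x ≠ 0) (h2 : (2 : ℕ) • x = 0) (S : Finset ℕ)
    (hT : ∀ ℓ : Nat.Primes, (ℓ : ℕ) ∉ S →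
      ModularCurve.heckeOperatorBar N ℓ x = W.apOfModel ℓ • x) :
    W.IsResiduallyModularOfLevel 2 N := by
  classical
  set x' : JTors N 2 := ⟨x, AlgebraicCurve.Pic0.mem_torsion.mpr (by rw [natCast_zsmul]; exact h2)⟩
  set v := torsCoord N 2 x' with hv
  let G : ℕ → Prop := fun ℓ => ℓ ∉ S
  have hvmem : v ∈ eigSpace N G W.apOfModel := fun ℓ hG hℓ hℓN => by
    have e : (latMat N (heckeQuot N (CuspForm.heckeAlgebra.T hℓ hℓN (Set.notMem_empty ℓ)))).map
        (Int.cast : ℤ → ZMod 2) *ᵥ v = _ :=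
      latMat_mulVec_torsCoord N 2 ⟨ℓ, hℓ⟩ (heckeQuot_T_comp hℓ hℓN) x'
    refine e.trans ?_
    rw [Int.cast_smul_eq_zsmul, hv, ← map_zsmul]
    exact congrArg _ (Subtype.ext (hT ⟨ℓ, hℓ⟩ hG))
  let u : parQuot (Gamma0 N) →+ ZMod 2 := ((latBasis N).constr ℤ v).toAddMonoidHom
  have hu : ∀ i, u (latVec N i) = v i := fun i => by
    rw [← latBasis_apply]
    exact Module.Basis.constr_basis _ ℤ v i
  have hu0 : u ≠ 0 := fun h => hx <| congrArg Subtype.val <|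
    (LinearEquiv.map_eq_zero_iff (torsCoord N 2)).mp <| funext fun i => by
      rw [← hv, ← hu, h]; rfl
  let G' : ℕ → Prop := fun ℓ => ℓ ≠ 2 ∧ W.IsGoodPrimeFor ℓ
  have hsys : Mod2System N G' W.apOfModel := by
    refine ⟨inferInstance, u, hu0, fun ℓ hG hℓ hℓN z => ?_⟩
    have hfull := tMat_mulVec_of_almost_all (G := G) hΔ S (fun q _ hq => hq) hvmem hℓ hℓN hG.1 hG.2
    have hfun : (fun i => u (latVec N i)) = v := funext hu
    have hbasis : ∀ i, u (heckeQuot N (CuspForm.heckeAlgebra.T hℓ hℓN (Set.notMem_empty ℓ))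
        (latVec N i)) = (W.apOfModel ℓ : ZMod 2) * u (latVec N i) := fun i => by
      have e := congrFun (latMat_mulVec N
        (heckeQuot N (CuspForm.heckeAlgebra.T hℓ hℓN (Set.notMem_empty ℓ))) u) i
      rw [hfun] at e
      rw [← e, hu]
      exact congrFun hfull i
    have hlin : u.toIntLinearMap ∘ₗ
        heckeQuot N (CuspForm.heckeAlgebra.T hℓ hℓN (Set.notMem_empty ℓ)) =
        (W.apOfModel ℓ : ℤ) • u.toIntLinearMap := (latBasis N).ext fun i => by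
      rw [latBasis_apply, LinearMap.smul_apply, zsmul_eq_mul]
      exact hbasis i
    have := LinearMap.congr_fun hlin z
    rw [LinearMap.smul_apply, zsmul_eq_mul] at this
    exact this
  obtain ⟨f, 𝔪, hf, hmax, h2m, hcong⟩ := hsys.exists_eigenform
  exact ⟨f, 𝔪, hf, hmax, by exact_mod_cast h2m, fun ℓ hℓ hgood hℓN hℓ2 =>
    hcong ℓ ⟨hℓ2, hgood⟩ hℓ hℓN⟩

/-- The wrap in terms of `TorsCong`. -/
theorem isResiduallyModularOfLevel_two_of_torsCong {W : WeierstrassCurve ℤ} (hΔ : W.Δ ≠ 0)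
    {M : ℕ} {S : Finset ℕ} (h : TorsCong W M 1 S) : W.IsResiduallyModularOfLevel 2 M := by
  obtain ⟨hM, x, hord, hT⟩ := h
  refine isResiduallyModularOfLevel_two_of_torsion hΔ (x := x) ?_ ?_ S hT
  · rintro rfl
    simp at hord
  · simpa [hord] using addOrderOf_nsmul_eq_zero x

end FLTA.LT2

end
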