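import Fermat.Agent.LT2.Defs
import Fermat.Agent.LT2.ResidualEigenclass
import Fermat.Agent.LT2.ResidualWrap
import Fermat.Agent.LT2.TraceDeltaCompanion

/-! # Part B: residual modularity at 2 from the fixed points of `w_N` and the cubic class
character (docs `LT2_simplify` (1)) -/

set_option autoImplicit false

noncomputable section

open ModularCurve

namespace FLTA.LT2

variable {E : WeierstrassCurve ℤ}

/-- A companion curve is residually modular at `2` of its conductor level. -/
theorem companion_residual (hE : Companion E) :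
    E.IsResiduallyModularOfLevel 2 E.conductorLevel := by
  obtain ⟨Z, S, hfix, heven, hne, hout, heig⟩ := companion_fixed_eigenset hE
  obtain ⟨x, hx0, hx2, hx⟩ :=
    exists_eigenclass_of_eigenset (two_le_conductorLevel hE) E.apOfModel Z hfix heven hne hout S
      heig
  refine isResiduallyModularOfLevel_two_of_torsCong hE.Δ_ne_zero
    (S := S ∪ (2 * E.conductorLevel).primeFactors) ⟨inferInstance, x, ?_, fun ℓ hℓ => ?_⟩
  · haveI : Fact (Nat.Prime 2) := ⟨Nat.prime_two⟩
    rw [pow_one]
    exact addOrderOf_eq_prime hx2 hx0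
  · rw [Finset.mem_union, not_or] at hℓ
    exact hx ℓ hℓ.1 fun h => hℓ.2 (Nat.mem_primeFactors.2
      ⟨ℓ.2, h, mul_ne_zero two_ne_zero (NeZero.ne _)⟩)

end FLTA.LT2

end
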