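import Fermat.Agent.LT2.PrimesKilling

/-! # Parts E, F: killing the Steinberg part with conjugation primes -/

set_option autoImplicit false

namespace FLTA.LT2

theorem exists_killing_primes {E : WeierstrassCurve ℤ} (hE : Companion E) :
    ∃ r : ℕ, ∀ n : ℕ, 2 ≤ n →
      ∃ Q : Finset ℕ, Q.card ≤ r ∧ Q.Nonempty ∧ (∀ q ∈ Q, ConjPrime E n q) ∧ StKilled E Q :=
  exists_killing_primes_aux hE

end FLTA.LT2
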