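import Fermat.Agent.LT2.Switch
import Fermat.Agent.LT2.CompanionExists
import Fermat.Agent.LT2.ResidualTwo
import Fermat.Agent.LT2.StSelmer
import Fermat.Agent.LT2.Patched
import Fermat.Agent.LT2.MazurTwo
import Fermat.Agent.LT2.Limit
import Fermat.Agent.Wiring.Modularity
import Fermat.Agent.Wiring.LevelLowering

/-! # Part I: assembly down to the nonexistence of Frey packages

The hypotheses `h05`, `h08`, `h07`, `h09`, `h43`, `h44`, `h59` are the statements of the rows
S05, S08, S07, S09, S43, S44, S59. -/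

set_option autoImplicit false

open WeierstrassCurve WeierstrassCurve.Affine WeierstrassCurve.Affine.Point
open CuspForm ModularFormClass

namespace FLTA.LT2

variable {E : WeierstrassCurve ℤ}

theorem TorsCong.mono {M n m : ℕ} {S : Finset ℕ} (h : TorsCong E M n S) (hmn : m ≤ n) :
    TorsCong E M m S := by
  obtain ⟨hM, x, hx, hT⟩ := h
  refine ⟨hM, 2 ^ (n - m) • x, ?_, fun ℓ hℓ => ?_⟩
  · rw [addOrderOf_nsmul' _ (pow_ne_zero _ two_ne_zero), hx,
      Nat.gcd_eq_right (pow_dvd_pow 2 (Nat.sub_le n m)),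
      Nat.pow_div (Nat.sub_le n m) Nat.zero_lt_two, Nat.sub_sub_self hmn]
  · rw [map_nsmul, hT ℓ hℓ]
    exact smul_comm _ _ _

theorem odd_conductorLevel (hE : Companion E) : Odd E.conductorLevel := by
  rw [← Nat.not_even_iff_odd, even_iff_two_dvd,
    E.prime_dvd_conductorLevel_iff hE.Δ_ne_zero Nat.prime_two]
  exact_mod_cast hE.goodTwo

theorem not_dvd_conductorLevel (hE : Companion E) {n q : ℕ} (hq : ConjPrime E n q) :
    ¬ q ∣ E.conductorLevel := fun h =>
  hq.good ((E.prime_dvd_conductorLevel_iff hE.Δ_ne_zero hq.prime).mp h)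

theorem torsCong_descend (hE : Companion E) {c n : ℕ} {S : Finset ℕ}
    (hc : ∀ (n M q : ℕ) (S : Finset ℕ), Squarefree (M * q) → E.conductorLevel ∣ M →
      Odd (M * q) → ConjPrime E n q → (2 * (M * q)).primeFactors ⊆ S →
      TorsCong E (M * q) n S → TorsCong E M (n - c) S)
    (Q : Finset ℕ) : ∀ m, m ≤ n → (∀ q ∈ Q, ConjPrime E n q) →
      (2 * (E.conductorLevel * ∏ q ∈ Q, q)).primeFactors ⊆ S →
      TorsCong E (E.conductorLevel * ∏ q ∈ Q, q) m S →
      TorsCong E E.conductorLevel (m - c * Q.card) S := by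
  classical
  induction Q using Finset.induction_on with
  | empty => intro m _ _ _ h; simpa using h
  | insert a Q ha ih =>
    intro m hm hQ hS h
    have hQ' : ∀ q ∈ Q, ConjPrime E n q := fun q hq => hQ q (Finset.mem_insert_of_mem hq)
    have hca := hQ a (Finset.mem_insert_self _ _)
    have e : E.conductorLevel * ∏ q ∈ insert a Q, q = (E.conductorLevel * ∏ q ∈ Q, q) * a := by
      rw [Finset.prod_insert ha]; ring
    rw [e] at h hS
    have hcop : (E.conductorLevel * ∏ q ∈ Q, q).Coprime a := by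
      refine Nat.Coprime.mul_left ?_ (Nat.Coprime.prod_left fun q hq => ?_)
      · exact ((hca.prime.coprime_iff_not_dvd).mpr (not_dvd_conductorLevel hE hca)).symm
      · exact (Nat.coprime_primes (hQ' q hq).prime hca.prime).mpr (fun h' => ha (h' ▸ hq))
    have hsqQ : Squarefree (E.conductorLevel * ∏ q ∈ Q, q) := by
      refine (Nat.squarefree_mul (Nat.Coprime.prod_right fun q hq => ?_)).mpr
        ⟨E.squarefree_conductorLevel, Finset.squarefree_prod_of_pairwise_isCoprime ?_ ?_⟩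
      · exact ((hQ' q hq).prime.coprime_iff_not_dvd.mpr
          (not_dvd_conductorLevel hE (hQ' q hq))).symm
      · intro x hx y hy hxy
        exact Nat.coprime_iff_isRelPrime.mp
          ((Nat.coprime_primes (hQ' x hx).prime (hQ' y hy).prime).mpr hxy)
      · exact fun q hq => (hQ' q hq).prime.squarefree
    have hodd : Odd ((E.conductorLevel * ∏ q ∈ Q, q) * a) := by
      refine ((odd_conductorLevel hE).mul ?_).mul (hca.prime.odd_of_ne_two hca.ne_two)
      exact Finset.prod_induction _ Odd (fun _ _ => Odd.mul) odd_one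
        fun q hq => (hQ' q hq).prime.odd_of_ne_two (hQ' q hq).ne_two
    have hcm : ConjPrime E m a :=
      ⟨hca.prime, hca.ne_two, hca.good, (pow_dvd_pow 2 hm).trans hca.dvd_succ,
        (pow_dvd_pow 2 hm).trans hca.dvd_trace, hca.nonsquare⟩
    have h1 := hc m _ a S ((Nat.squarefree_mul hcop).mpr ⟨hsqQ, hca.prime.squarefree⟩)
      (dvd_mul_right _ _) hodd hcm hS h
    have h2 := ih (m - c) (by omega) hQ'
      ((Nat.primeFactors_mono (mul_dvd_mul_left 2 (dvd_mul_right _ a))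
        (mul_ne_zero two_ne_zero (Nat.pos_of_ne_zero
          (fun h0 => by rw [h0] at hodd; exact Nat.not_odd_zero hodd)).ne')).trans hS) h1
    rw [Finset.card_insert_of_notMem ha, Nat.mul_succ]
    rwa [Nat.sub_sub, add_comm] at h2

/-- A companion curve is modular. -/
theorem companion_modular (hE : Companion E) :
    E.IsModularModelOfLevel E.conductorLevel := by
  have hres := companion_residual hE
  obtain ⟨c, hc⟩ := exists_mazur_step hE
  obtain ⟨r, hr⟩ := exists_killing_primes hE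
  obtain ⟨g, hg, hG⟩ := exists_torsCong_of_killed hE hres r
  refine isModularModel_of_torsCong hE fun m => ?_
  have hle : m + c * r ≤ g * (m + c * r) + 2 :=
    (Nat.le_mul_of_pos_left _ hg).trans (Nat.le_add_right _ 2)
  obtain ⟨Q, hcard, -, hQ, hK⟩ := hr (g * (m + c * r) + 2) (by omega)
  have hdiv : m + c * r ≤ (g * (m + c * r) + 2) / g :=
    (Nat.le_div_iff_mul_le hg).mpr (by rw [mul_comm]; exact Nat.le_add_right _ 2)
  refine ⟨_, ((torsCong_descend hE hc Q _ (Nat.div_le_self _ _) hQ (subset_refl _)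
    (hG _ (by omega) Q hcard hQ hK)).mono ?_), fun s hs => ?_⟩
  · have := Nat.mul_le_mul_left c hcard
    omega
  · have hsp := Nat.prime_of_mem_primeFactors hs
    have hd := Nat.dvd_of_mem_primeFactors hs
    rw [← mul_assoc] at hd
    rcases hsp.dvd_mul.mp hd with h | h
    · exact Or.inl h
    · obtain ⟨q, hq, hsq⟩ := (Prime.dvd_finsetProd_iff hsp.prime _).mp h
      have := (Nat.prime_dvd_prime_iff_eq hsp (hQ q hq).prime).mp hsq
      subst this
      exact Or.inr (le_trans (Nat.pow_le_pow_right Nat.zero_lt_two (by omega))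
        (Nat.le_of_dvd (Nat.succ_pos _) (hQ s hq).dvd_succ))

/-- Residual modularity at 3 for the switch curve. -/
theorem residual_three (W : WeierstrassCurve ℤ) (hΔ : W.Δ ≠ 0) (hW : W.IsSemistableModel)
    (h2 : TwoOK W) (h2Δ : (2 : ℤ) ∣ W.Δ) :
    ∃ M : ℕ, 0 < M ∧ W.IsResiduallyModularOfLevel 3 M ∧ Squarefree M := by
  obtain ⟨E, hE, hcong⟩ := exists_companion W hΔ hW h2 h2Δ
  exact ⟨E.conductorLevel, E.conductorLevel_pos,
    FLTA.Wiring.isResiduallyModularOfLevel_congr
      (fun ℓ hℓ hd => (E.prime_dvd_conductorLevel_iff hE.Δ_ne_zero hℓ).mpr hd) hcong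
      (FLTA.Wiring.isResiduallyModularOfLevel_of_isModularModelOfLevel Nat.prime_three
        (companion_modular hE)), E.squarefree_conductorLevel⟩

/-- The Frey curve is modular of exact conductor level. -/
theorem frey_exactConductor
    (h59 : ∀ (p : ℕ), p = 3 ∨ p = 5 → ∀ W : WeierstrassCurve ℤ, W.Δ ≠ 0 → W.IsSemistableModel →
      W.ModRepIsIrreducible p → ∀ (M₀ : ℕ) [NeZero M₀], W.IsResiduallyModularOfLevel p M₀ →
      Squarefree M₀ →
      Mlc1IsModularModelOfExactConductorLevel W)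
    (P : FreyPackage) : Mlc1IsModularModelOfExactConductorLevel P.freyCurveInt := by
  obtain ⟨W, hΔ, hW, h3, h2, h2Δ, hcong⟩ := exists_switch_five P
  obtain ⟨M, hM, hres, hsq⟩ := residual_three W hΔ hW h2 h2Δ
  have : NeZero M := ⟨hM.ne'⟩
  obtain ⟨N, hN, hNsq, hsupp, hmod⟩ :=
    h59 3 (Or.inl rfl) W hΔ hW h3 M hres hsq
  have : NeZero N := ⟨hN.ne'⟩
  exact h59 5 (Or.inr rfl) _ (FLTA.Wiring.freyCurveInt_Δ_ne_zero P)
    (FLTA.Wiring.freyCurveInt_isSemistableModel P) (frey_irreducible_five P) N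
    (FLTA.Wiring.isResiduallyModularOfLevel_congr (fun ℓ hℓ hd => (hsupp ℓ hℓ).mpr hd)
      (fun ℓ hℓ hg hg' hne => hcong ℓ hℓ hg hg' hne)
      (FLTA.Wiring.isResiduallyModularOfLevel_of_isModularModelOfLevel (by norm_num) hmod))
    hNsq

/-- S03 from S05, S07, S08, S09, S43, S44 and S59 at squarefree levels. -/
theorem frey_false
    (h05 : ∀ (P : FreyPackage) {q : ℕ}, q.Prime → q ≠ 2 → q ≠ P.p → P.GaloisRepUnramifiedAt q)
    (h07 : ∀ f : CuspForm (CongruenceSubgroup.Gamma0 2) 2, f = 0)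
    (h08 : ∀ f : CuspForm (CongruenceSubgroup.Gamma0 1) 2, f = 0)
    (h09 : ∀ P : FreyPackage,
      GaloisRepIsIrreducible (K := AlgebraicClosure ℚ) ℚ P.freyCurve P.p)
    (h43 : ∀ (P : FreyPackage) {N q : ℕ}, P.IsConductorLevel N → q.Prime → q ≠ 2 → q ≠ P.p →
      q ∣ N → GaloisRepIsIrreducible (K := AlgebraicClosure ℚ) ℚ P.freyCurve P.p →
      P.ModularRepOfLevel N → P.GaloisRepUnramifiedAt q →
      ∃ M : ℕ, M ∣ N ∧ ¬ q ∣ M ∧ P.ModularRepOfLevel M)
    (h44 : ∀ (P : FreyPackage) {N : ℕ}, P.IsConductorLevel N → P.p ∣ N →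
      GaloisRepIsIrreducible (K := AlgebraicClosure ℚ) ℚ P.freyCurve P.p →
      P.ModularRepOfLevel N → ∃ M : ℕ, M ∣ N ∧ ¬ P.p ∣ M ∧ P.ModularRepOfLevel M)
    (h59 : ∀ (p : ℕ), p = 3 ∨ p = 5 → ∀ W : WeierstrassCurve ℤ, W.Δ ≠ 0 → W.IsSemistableModel →
      W.ModRepIsIrreducible p → ∀ (M₀ : ℕ) [NeZero M₀], W.IsResiduallyModularOfLevel p M₀ →
      Squarefree M₀ →
      Mlc1IsModularModelOfExactConductorLevel W)
    (P : FreyPackage) : False := by
  obtain ⟨N, hN, hsq, hsupp, hmod⟩ := frey_exactConductor h59 P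
  have hcond : P.IsConductorLevel N := ⟨hN, hsq, fun q hq hqN =>
    FLTA.Wiring.dvd_abc_of_dvd_freyCurveInt_Δ P hq ((hsupp q hq).mp hqN)⟩
  obtain ⟨g, 𝔪, hg, hmax, hmem, hcoef⟩ :=
    FLTA.Wiring.isResiduallyModularOfLevel_of_isModularModelOfLevel P.pp hmod
  obtain ⟨M, hM, f, W, _, hf, -⟩ := FLTA.Wiring.exists_level_dvd_two h05 h43 h44 P (h09 P) N hcond
    ⟨g, P.freyCurveInt, 𝔪, hg, FLTA.Wiring.freyCurveInt_isIntegralModelOf P, hmax, hmem, hcoef⟩
  rcases (Nat.dvd_prime Nat.prime_two).mp hM with rfl | rfl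
  · exact hf.ne_zero (h08 f)
  · exact hf.ne_zero (h07 f)

end FLTA.LT2
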