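import Fermat.Agent.LT2.Defs

/-!
# An integral model with good supersingular reduction at `2` from its invariants
-/

set_option autoImplicit false

open WeierstrassCurve

namespace FLTA.LT2

/-- A model `y² + y = x³ + a₂x² + a₄x + a₆` with invariants `16 A` and `8 B`. -/
theorem exists_model_of_invariants (A B : ℤ) (hB : (4 : ℤ) ∣ B - 1)
    (h27 : (27 : ℤ) ∣ 64 * A ^ 3 - B ^ 2) (h3 : ¬ (3 : ℤ) ∣ B ∨ (27 : ℤ) ∣ B) :
    ∃ W : WeierstrassCurve ℤ, W.a₁ = 0 ∧ W.a₃ = 1 ∧ W.c₄ = 16 * A ∧ W.c₆ = 8 * B ∧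
      27 * W.Δ = 64 * A ^ 3 - B ^ 2 := by
  have key : ∃ a : ℤ, (3 : ℤ) ∣ a ^ 2 - A ∧ (27 : ℤ) ∣ 4 * a ^ 3 - 12 * a * A - B := by
    have h' := (ZMod.intCast_zmod_eq_zero_iff_dvd (64 * A ^ 3 - B ^ 2) 27).2 h27
    have h3' : ¬ (3 : ℤ) ∣ B ∨ (B : ZMod 27) = 0 :=
      h3.imp id fun h => (ZMod.intCast_zmod_eq_zero_iff_dvd B 27).2 h
    have h9 : ∀ z : ℤ, (3 : ℤ) ∣ z ↔ (9 : ZMod 27) * (z : ZMod 27) = 0 := fun z => by
      rw [show (9 : ZMod 27) * (z : ZMod 27) = ((9 * z : ℤ) : ZMod 27) by push_cast; rfl,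
        ZMod.intCast_zmod_eq_zero_iff_dvd]
      push_cast
      constructor <;> intro h <;> omega
    rw [h9] at h3'
    push_cast at h'
    have hall : ∀ x y : ZMod 27, 64 * x ^ 3 - y ^ 2 = 0 → (¬ 9 * y = 0 ∨ y = 0) →
        ∃ a ∈ ({0, 1, -1} : Finset (ZMod 27)),
          9 * (a ^ 2 - x) = 0 ∧ 4 * a ^ 3 - 12 * a * x - y = 0 := by
      decide +kernel
    obtain ⟨a, -, ha1, ha2⟩ := hall _ _ h' h3'
    refine ⟨(a.val : ℤ), (h9 _).2 ?_, (ZMod.intCast_zmod_eq_zero_iff_dvd _ 27).1 ?_⟩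
    · push_cast; rw [ZMod.natCast_zmod_val]; exact ha1
    · push_cast; rw [ZMod.natCast_zmod_val]; exact ha2
  obtain ⟨a, ⟨b, hb⟩, hc⟩ := key
  obtain ⟨e, he⟩ : (108 : ℤ) ∣ 4 * a ^ 3 - 12 * a * A - B - 27 := by
    have h4 : (4 : ℤ) ∣ 4 * a ^ 3 - 12 * a * A - B - 27 := by
      obtain ⟨t, ht⟩ := hB
      exact ⟨a ^ 3 - 3 * a * A - t - 7, by linear_combination -1 * ht⟩
    have h27' : (27 : ℤ) ∣ 4 * a ^ 3 - 12 * a * A - B - 27 := dvd_sub hc (dvd_refl _)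
    omega
  refine ⟨⟨0, a, 1, b, e⟩, rfl, rfl, ?_, ?_, ?_⟩
  · simp only [WeierstrassCurve.c₄, WeierstrassCurve.b₂, WeierstrassCurve.b₄]
    linear_combination 16 * hb
  · simp only [WeierstrassCurve.c₆, WeierstrassCurve.b₂, WeierstrassCurve.b₄, WeierstrassCurve.b₆]
    linear_combination (-96 * a) * hb + 8 * he
  · have hc4 : (WeierstrassCurve.c₄ (⟨0, a, 1, b, e⟩ : WeierstrassCurve ℤ)) = 16 * A := by
      simp only [WeierstrassCurve.c₄, WeierstrassCurve.b₂, WeierstrassCurve.b₄]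
      linear_combination 16 * hb
    have hc6 : (WeierstrassCurve.c₆ (⟨0, a, 1, b, e⟩ : WeierstrassCurve ℤ)) = 8 * B := by
      simp only [WeierstrassCurve.c₆, WeierstrassCurve.b₂, WeierstrassCurve.b₄,
        WeierstrassCurve.b₆]
      linear_combination (-96 * a) * hb + 8 * he
    have h := (⟨0, a, 1, b, e⟩ : WeierstrassCurve ℤ).c_relation
    rw [hc4, hc6] at h
    linarith [h]

/-- A good curve over `ℤ` with `a₁` even and `a₃` odd has even trace at `2`. -/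
theorem two_dvd_apOfModel_two (W : WeierstrassCurve ℤ) (h1 : W.a₁ = 0) (h3 : W.a₃ = 1)
    (hΔ : ¬ (2 : ℤ) ∣ W.Δ) : (2 : ℤ) ∣ W.apOfModel 2 := by
  classical
  set V := W.reductionMod 2 with hV
  have ha1 : V.a₁ = 0 := by simp [hV, WeierstrassCurve.reductionMod, h1]
  have ha3 : V.a₃ = 1 := by simp [hV, WeierstrassCurve.reductionMod, h3]
  have : V.IsElliptic := ⟨by
    rw [isUnit_iff_ne_zero, hV, WeierstrassCurve.reductionMod, WeierstrassCurve.map_Δ,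
      eq_intCast, ne_eq, ZMod.intCast_zmod_eq_zero_iff_dvd]
    exact_mod_cast hΔ⟩
  let p : ZMod 2 × ZMod 2 → Prop := fun q =>
    q.2 ^ 2 + q.2 = q.1 ^ 3 + V.a₂ * q.1 ^ 2 + V.a₄ * q.1 + V.a₆
  have hp : ∀ x y, V.toAffine.Nonsingular x y ↔ p (x, y) := fun x y => by
    rw [← WeierstrassCurve.Affine.equation_iff_nonsingular, WeierstrassCurve.Affine.equation_iff]
    simp [p, ha1, ha3]
  let e : V.toAffine.Point ≃ Option {q // p q} :=
    { toFun := fun P => match P with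
        | .zero => none
        | .some x y h => some ⟨(x, y), (hp x y).1 h⟩
      invFun := fun o => match o with
        | none => .zero
        | some ⟨(x, y), h⟩ => .some x y ((hp x y).2 h)
      left_inv := fun P => by cases P <;> rfl
      right_inv := fun o => by rcases o with _ | ⟨⟨x, y⟩, h⟩ <;> rfl }
  have hcount : ∀ A B C : ZMod 2, (2 : ℕ) ∣ (Finset.univ.filter fun q : ZMod 2 × ZMod 2 =>
      q.2 ^ 2 + q.2 = q.1 ^ 3 + A * q.1 ^ 2 + B * q.1 + C).card := by decide +kernel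
  obtain ⟨n, hn⟩ := hcount V.a₂ V.a₄ V.a₆
  have hcard : V.card = 2 * n + 1 := by
    rw [WeierstrassCurve.card, Nat.card_congr e, Nat.card_eq_fintype_card, Fintype.card_option,
      Fintype.card_subtype, ← hn]
  refine ⟨1 - n, ?_⟩
  rw [WeierstrassCurve.apOfModel, WeierstrassCurve.traceOfFrobenius, ← hV, hcard, Nat.card_zmod]
  push_cast
  ring

end FLTA.LT2
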