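import Fermat.Agent.EllTate.Det
import Fermat.Agent.LT2.ImageFrob

/-!
# Determinant and trace of the Tate module at every prime, `p = 2` included

With the relation of Frobenius on the torsion of `2`-power order the argument of
`EllTate.Det` applies to every prime `p` at which the residual representation is irreducible.
-/

set_option autoImplicit false

open scoped Classical
open WeierstrassCurve
open scoped WeierstrassCurve.Affine

noncomputable section

namespace FLTA.LT2

open FLTA.EllReduction FLTA.EllTate Matrix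

local notation "Qbar" => AlgebraicClosure ℚ
local notation "Γ" => AlgebraicClosure ℚ ≃ₐ[ℚ] AlgebraicClosure ℚ

attribute [local instance 10000] AlgebraicClosure.instAlgebra

variable {W : WeierstrassCurve ℤ} {hΔ : W.Δ ≠ 0} {p : ℕ} [Fact p.Prime]

variable (hirr : W.ModRepIsIrreducible p)

/-- The Frobenius relation on matrices. -/
lemma tateMat_frobenius_all {ℓ : ℕ} (hℓ : ℓ.Prime) (hℓ2 : ℓ ≠ 2) (hℓp : ℓ ≠ p)
    (hgood : W.IsGoodPrimeFor ℓ) {A : ValuationSubring Qbar} (hA : A.LiesOverPrime ℓ) {σ : Γ}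
    (hσ : A.IsFrobeniusAt σ ℓ) :
    tateMat W hΔ p σ * tateMat W hΔ p σ - ((W.apOfModel ℓ : ℤ) : ℤ_[p]) • tateMat W hΔ p σ +
      ((ℓ : ℤ) : ℤ_[p]) • 1 = 0 :=
  tateMat_quadratic fun n P hP => by
    rw [natCast_zsmul]
    by_cases hp2 : p = 2
    · subst hp2
      exact Image.frobenius_quadratic_two_pow W hΔ hℓ hℓ2 hgood hA hσ n P hP
    · exact FLTA.EllTorsion.frobenius_quadratic W hΔ hℓ hℓ2 hgood hA hσ
        (((Fact.out : p.Prime).odd_of_ne_two hp2).pow)
        (fun h => hℓp ((Nat.prime_dvd_prime_iff_eq hℓ Fact.out).mp (hℓ.dvd_of_dvd_pow h))) P hP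

include hirr in
/-- The determinant modulo `p ^ n` is the cyclotomic character. -/
theorem toZModPow_det_all {n : ℕ} (hn : n ≠ 0) (σ : Γ) :
    PadicInt.toZModPow n (tateMat W hΔ p σ).det =
      @cyclo (p ^ n) (neZero_pow n) σ := by
  have hp : p.Prime := Fact.out
  haveI := neZero_pow (p := p) n
  let M : Γ →* Matrix (Fin 2) (Fin 2) (ZMod (p ^ n)) :=
    (PadicInt.toZModPow n).mapMatrix.toMonoidHom.comp (tateMat W hΔ p)
  let π : ZMod (p ^ n) →+* ZMod p := ZMod.castHom (dvd_pow_self p hn) _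
  have hMp : ∀ τ, π.mapMatrix (M τ) = (tateMat W hΔ p τ).map PadicInt.toZMod := fun τ => by
    ext i j
    exact toZModPow_cast_toZMod hn _
  have hM : GaloisFactorsThroughFiniteLevel M := by
    obtain ⟨L, hL, h1⟩ := (tateRep W hΔ p).isAdicContinuous n
    refine ⟨L, hL, fun τ hτ => ?_⟩
    ext i j
    have h2 := h1 τ hτ (tateBasis W hΔ p j)
    rw [maximalIdeal_pow] at h2
    have h3 : (tateBasis W hΔ p).repr ((tateRep W hΔ p).ρ τ (tateBasis W hΔ p j) -
        tateBasis W hΔ p j) i ∈ Ideal.span {(p : ℤ_[p]) ^ n} := by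
      refine Submodule.smul_induction_on (p := fun v => (tateBasis W hΔ p).repr v i ∈ _) h2
        (fun r hr v _ => by simpa using Ideal.mul_mem_right _ _ hr) fun u v hu hv => by
          simpa using add_mem hu hv
    rw [← PadicInt.ker_toZModPow, RingHom.mem_ker, map_sub, Finsupp.sub_apply, map_sub,
      sub_eq_zero, Module.Basis.repr_self, Finsupp.single_apply] at h3
    show PadicInt.toZModPow n (tateMat W hΔ p τ i j) = _
    rw [show tateMat W hΔ p τ i j = (tateBasis W hΔ p).repr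
      ((tateRep W hΔ p).ρ τ (tateBasis W hΔ p j)) i from LinearMap.toMatrix_apply _ _ _ _ _, h3]
    by_cases hij : i = j
    · subst hij; simp
    · simp [hij, Ne.symm hij]
  let P : Matrix (Fin 2) (Fin 2) (ZMod (p ^ n)) × ZMod (p ^ n) → Prop := fun w =>
    w.1.det = w.2 ∨ ∃ c : ZMod p, π.mapMatrix w.1 = c • 1
  have key : ∀ τ : Γ, P (M τ, cyclo (p ^ n) τ) := fun τ => by
    refine Density.forall_of_frobenius (M.prod (cyclo (p ^ n)))
      (Density.galoisFactorsThroughFiniteLevel_prod hM (cyclo_finiteLevel _))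
      ({2, p} ∪ W.Δ.natAbs.primeFactors) P ?_ ?_ τ
    · rintro ⟨w, z⟩ k (h | ⟨c, hc⟩)
      · exact .inl (by show (w ^ k).det = z ^ k; rw [det_pow, h])
      · exact .inr ⟨c ^ k, by
          show π.mapMatrix (w ^ k) = _
          rw [map_pow, hc, smul_pow, one_pow]⟩
    · intro ℓ hℓ hℓS A hA φ hφ
      simp only [Finset.mem_union, Finset.mem_insert, Finset.mem_singleton, Nat.mem_primeFactors,
        not_or] at hℓS
      have hgood : W.IsGoodPrimeFor ℓ := fun h => hℓS.2 ⟨hℓ, Int.natCast_dvd.mp h, by simpa using hΔ⟩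
      rcases trace_det_of_quadratic
          (tateMat_frobenius_all (hΔ := hΔ) hℓ hℓS.1.1 hℓS.1.2 hgood hA hφ) with ⟨-, hd⟩ | ⟨c, hc, -⟩
      · refine .inl ?_
        show (M φ).det = cyclo (p ^ n) φ
        rw [cyclo_eq (a := ℓ) fun μ hμ => FLTA.Galois.frobenius_apply_rootOfUnity hℓ hA hφ
          (fun h => hℓS.1.2 ((Nat.prime_dvd_prime_iff_eq hℓ hp).mp (hℓ.dvd_of_dvd_pow h))) hμ]
        show ((PadicInt.toZModPow n).mapMatrix (tateMat W hΔ p φ)).det = _
        rw [← RingHom.map_det, hd, Int.cast_natCast, map_natCast]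
      · refine .inr ⟨PadicInt.toZMod c, ?_⟩
        refine (hMp φ).trans ?_
        rw [hc]
        ext i j
        by_cases hij : i = j
        · subst hij; simp
        · simp [hij]
  suffices h : (M σ).det = cyclo (p ^ n) σ by
    rw [← h]
    exact RingHom.map_det _ _
  rcases key σ with h | ⟨c, hc⟩
  · exact h
  · obtain ⟨τ, hτ⟩ := exists_not_scalar (hΔ := hΔ) hirr
    have hτ' : (M τ).det = cyclo (p ^ n) τ :=
      (key τ).resolve_right fun ⟨d, hd⟩ => hτ d ((hMp τ).symm.trans hd)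
    have hστ : (M (σ * τ)).det = cyclo (p ^ n) (σ * τ) :=
      (key (σ * τ)).resolve_right fun ⟨d, hd⟩ => by
        rw [map_mul M, map_mul, hc, smul_mul_assoc, one_mul, hMp τ] at hd
        have hc0 : c ≠ 0 := fun h0 => by
          have hu : IsUnit (π.mapMatrix (M σ)) := (Group.isUnit σ).map (π.mapMatrix.toMonoidHom.comp M)
          rw [hc, h0, zero_smul] at hu
          exact not_isUnit_zero hu
        refine hτ (c⁻¹ * d) ?_
        rw [mul_smul, ← hd, smul_smul, inv_mul_cancel₀ hc0, one_smul]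
    rw [map_mul M, det_mul, map_mul (cyclo (p ^ n)), hτ'] at hστ
    exact ((Group.isUnit τ).map (cyclo (p ^ n))).mul_right_cancel hστ

include hirr in
/-- The determinant of the Tate module is the cyclotomic character. -/
theorem detIsCyclotomic_all : (tateRep W hΔ p).DetIsCyclotomic p := by
  refine ⟨PadicInt.p_nonunit (p := p), fun n σ a ha => ?_⟩
  rw [Nat.cast_pow, ← PadicInt.ker_toZModPow, RingHom.mem_ker, map_sub, map_natCast, sub_eq_zero]
  refine (congrArg _ (det_eq_det_tateMat σ)).trans ?_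
  rcases Nat.eq_zero_or_pos n with rfl | hn
  · exact Subsingleton.elim (α := ZMod 1) _ _
  · exact (toZModPow_det_all hirr hn.ne' σ).trans (@cyclo_eq _ (neZero_pow n) σ a ha)

include hirr in
/-- Trace and determinant at a good odd Frobenius. -/
theorem trace_det_frobenius_all {ℓ : ℕ} (hℓ : ℓ.Prime) (hℓ2 : ℓ ≠ 2) (hℓp : ℓ ≠ p)
    (hgood : W.IsGoodPrimeFor ℓ) {A : ValuationSubring Qbar} (hA : A.LiesOverPrime ℓ) {σ : Γ}
    (hσ : A.IsFrobeniusAt σ ℓ) :
    (tateRep W hΔ p).trace σ = (W.apOfModel ℓ : ℤ_[p]) ∧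
      LinearMap.det ((tateRep W hΔ p).ρ σ) = (ℓ : ℤ_[p]) := by
  have hdet : (tateMat W hΔ p σ).det = (ℓ : ℤ_[p]) := by
    refine PadicInt.ext_of_toZModPow.mp fun n => ?_
    rcases Nat.eq_zero_or_pos n with rfl | hn
    · exact Subsingleton.elim (α := ZMod 1) _ _
    · rw [toZModPow_det_all hirr hn.ne', map_natCast]
      exact @cyclo_eq _ (neZero_pow n) σ ℓ fun μ hμ =>
        FLTA.Galois.frobenius_apply_rootOfUnity hℓ hA hσ
          (fun h => hℓp ((Nat.prime_dvd_prime_iff_eq hℓ Fact.out).mp (hℓ.dvd_of_dvd_pow h))) hμ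
  refine ⟨?_, by rw [det_eq_det_tateMat]; exact hdet⟩
  rw [trace_eq_trace_tateMat]
  rcases trace_det_of_quadratic
      (tateMat_frobenius_all (hΔ := hΔ) hℓ hℓ2 hℓp hgood hA hσ) with ⟨h, -⟩ | ⟨c, hc, hc'⟩
  · exact h
  · have hc2 : c * c = (ℓ : ℤ_[p]) := by
      rw [← hdet, hc, det_smul, det_one, Fintype.card_fin, mul_one, sq]
    have hc0 : c ≠ 0 := fun h => by
      rw [h, mul_zero] at hc2
      exact Nat.cast_ne_zero.mpr hℓ.ne_zero hc2.symm
    rw [hc, trace_smul, trace_one, Fintype.card_fin, smul_eq_mul]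
    refine mul_left_cancel₀ hc0 ?_
    push_cast at hc' ⊢
    linear_combination hc' + hc2

end FLTA.LT2
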