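import Fermat.Agent.LT2.EllTwoDet
import Fermat.Agent.EllTate.SiteSign

/-!
# Frobenius and inertia at a multiplicative prime away from `p`, `p = 2` included
-/

set_option autoImplicit false

open scoped Classical
open WeierstrassCurve
open scoped WeierstrassCurve.Affine

noncomputable section

namespace FLTA.LT2

open FLTA.EllReduction FLTA.EllTate

local notation "Qbar" => AlgebraicClosure ℚ
local notation "Γ" => AlgebraicClosure ℚ ≃ₐ[ℚ] AlgebraicClosure ℚ

attribute [local instance 10000] AlgebraicClosure.instAlgebra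

variable {W : WeierstrassCurve ℤ} {p q : ℕ} [Fact p.Prime] {A : ValuationSubring Qbar}
  (hΔ : W.Δ ≠ 0) (hq : q.Prime) (hqp : q ≠ p) (hA : A.LiesOverPrime q) (hΔq : (q : ℤ) ∣ W.Δ)
  (hc₄ : ¬ (q : ℤ) ∣ W.c₄)

include hΔ hq hqp hA hΔq hc₄

/-- The trace of Frobenius at a multiplicative prime. -/
theorem trace_frobenius_of_mult_all (hirr : W.ModRepIsIrreducible p) {σ : Γ}
    (hσ : A.IsFrobeniusAt σ q) :
    (tateRep W hΔ p).trace σ = (nodeSign W q : ℤ_[p]) * ((q : ℤ_[p]) + 1) := by
  have hp : p.Prime := Fact.out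
  obtain ⟨s, hs2, hs, hF⟩ := exists_sign hq hA hΔ hΔq hc₄ hσ.mem_decompositionSubgroup
  rw [← hF hσ]
  set M := tateMat W hΔ p σ with hM
  set N : Matrix (Fin 2) (Fin 2) ℤ_[p] := M - (s : ℤ_[p]) • 1 with hN
  have hdetM : M.det = (q : ℤ_[p]) := by
    refine PadicInt.ext_of_toZModPow.mp fun n => ?_
    rcases Nat.eq_zero_or_pos n with rfl | hn
    · exact Subsingleton.elim (α := ZMod 1) _ _
    · rw [hM, toZModPow_det_all hirr hn.ne', map_natCast]
      exact @cyclo_eq _ (neZero_pow n) σ q fun μ hμ =>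
        FLTA.Galois.frobenius_apply_rootOfUnity hq hA hσ
          (fun h => hqp ((Nat.prime_dvd_prime_iff_eq hq hp).mp (hq.dvd_of_dvd_pow h))) hμ
  let g : TateSeq (GeomPoint W) p →ₗ[ℤ_[p]] TateSeq (GeomPoint W) p :=
    tateAction W p σ - (s : ℤ_[p]) • 1
  have hg : ∀ (v : TateSeq (GeomPoint W) p) n, TateSeq.comp n (g v) ∈ E0Z W A := fun v n => by
    show TateSeq.comp n (tateAction W p σ v - (s : ℤ_[p]) • v) ∈ E0Z W A
    rw [map_sub, comp_tateAction, Int.cast_smul_eq_zsmul, map_zsmul]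
    exact hs _
  have hdet0 : N.det = 0 := by
    by_contra hne
    obtain ⟨P, hP, hP0⟩ := exists_torsion_not_mem_E0 hΔ hq hqp hA hΔq hc₄
    obtain ⟨f, hf⟩ := exists_seq (exists_nsmul_prime_eq W hΔ p) hP
    obtain ⟨k, u, hu⟩ : ∃ (k : ℕ) (u : ℤ_[p]ˣ), N.det = u * (p : ℤ_[p]) ^ k :=
      ⟨_, PadicInt.unitCoeff hne, PadicInt.unitCoeff_spec hne⟩
    -- `p ^ k` is in the image of `g`
    let e : Module.Basis (Fin 2) ℤ_[p] (TateSeq (GeomPoint W) p) := tateBasis W hΔ p
    have hgN : LinearMap.toMatrixAlgEquiv e g = N := by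
      show LinearMap.toMatrixAlgEquiv e (tateAction W p σ - (s : ℤ_[p]) • 1) = N
      rw [map_sub, map_smul, map_one]
      rfl
    let h' : TateSeq (GeomPoint W) p →ₗ[ℤ_[p]] TateSeq (GeomPoint W) p :=
      (↑u⁻¹ : ℤ_[p]) • (LinearMap.toMatrixAlgEquiv e).symm N.adjugate
    have hgh : g * h' = ((p : ℤ_[p]) ^ k) • 1 := by
      refine (LinearMap.toMatrixAlgEquiv e).injective ?_
      refine (map_mul (LinearMap.toMatrixAlgEquiv e) g h').trans ?_
      rw [hgN]
      show N * LinearMap.toMatrixAlgEquiv e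
        ((↑u⁻¹ : ℤ_[p]) • (LinearMap.toMatrixAlgEquiv e).symm N.adjugate) = _
      rw [map_smul, AlgEquiv.apply_symm_apply, Matrix.mul_smul, Matrix.mul_adjugate, hu, smul_smul,
        ← mul_assoc, Units.inv_mul, one_mul]
      exact ((map_smul _ _ _).trans (congrArg _ (map_one _))).symm
    let f' : TateSeq (GeomPoint W) p := f
    have h1 : g (h' f') = ((p ^ k : ℕ) : ℤ_[p]) • f' := by
      rw [Nat.cast_pow]; exact LinearMap.congr_fun hgh f'
    refine hP0 ?_
    have h2 := hg (h' f') (1 + k)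
    rwa [h1, TateSeq.comp_natCast_smul, TateSeq.pow_nsmul_comp_add, hf] at h2
  rw [hN, Matrix.det_fin_two] at hdet0
  rw [trace_eq_trace_tateMat, ← hM, Matrix.trace_fin_two]
  rw [Matrix.det_fin_two] at hdetM
  simp only [Matrix.sub_apply, Matrix.smul_apply, smul_eq_mul] at hdet0
  simp at hdet0
  have hs' : (s : ℤ_[p]) ^ 2 = 1 := by rw [← Int.cast_pow, hs2, Int.cast_one]
  linear_combination (-(s : ℤ_[p])) * hdet0 + (s : ℤ_[p]) * hdetM +
    ((s : ℤ_[p]) - M 0 0 - M 1 1) * hs'

omit hqp in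
/-- The determinant of Frobenius at a multiplicative prime. -/
theorem det_frobenius_of_mult_all (hqp : q ≠ p) (hirr : W.ModRepIsIrreducible p) {σ : Γ}
    (hσ : A.IsFrobeniusAt σ q) : (tateMat W hΔ p σ).det = (q : ℤ_[p]) := by
  refine PadicInt.ext_of_toZModPow.mp fun n => ?_
  rcases Nat.eq_zero_or_pos n with rfl | hn
  · exact Subsingleton.elim (α := ZMod 1) _ _
  · rw [toZModPow_det_all hirr hn.ne', map_natCast]
    exact @cyclo_eq _ (neZero_pow n) σ q fun μ hμ =>
      FLTA.Galois.frobenius_apply_rootOfUnity hq hA hσ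
        (fun h => hqp ((Nat.prime_dvd_prime_iff_eq hq Fact.out).mp (hq.dvd_of_dvd_pow h))) hμ

/-- Frobenius minus the sign lands in the part fixed by inertia. -/
theorem inertia_mul_frobenius_sub_sign {σ τ : Γ} (hσ : A.IsFrobeniusAt σ q)
    (hτ : τ ∈ A.inertiaSubgroupIn ℚ) :
    (tateMat W hΔ p τ - 1) * (tateMat W hΔ p σ - (nodeSign W q : ℤ_[p]) • 1) = 0 := by
  obtain ⟨s, -, hs, hF⟩ := exists_sign hq hA hΔ hΔq hc₄ hσ.mem_decompositionSubgroup
  rw [← hF hσ]
  have hq' : ∀ n : ℕ, ¬ q ∣ p ^ n := fun n h =>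
    hqp ((Nat.prime_dvd_prime_iff_eq hq Fact.out).mp (hq.dvd_of_dvd_pow h))
  have h0 : (tateAction W p τ - 1) * (tateAction W p σ - (s : ℤ_[p]) • 1) = 0 := by
    refine LinearMap.ext fun f => TateSeq.ext' fun n => ?_
    simp only [Module.End.mul_apply, LinearMap.sub_apply, LinearMap.smul_apply,
      Module.End.one_apply, LinearMap.zero_apply, map_sub, map_zero, comp_tateAction,
      Int.cast_smul_eq_zsmul, map_zsmul]
    have hf := TateSeq.pow_nsmul_comp f n
    have e : τ • (σ • TateSeq.comp n f - s • TateSeq.comp n f) =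
        τ • σ • TateSeq.comp n f - s • (τ • TateSeq.comp n f) :=
      ((Image.actHom W τ).map_sub _ _).trans (congrArg _ ((Image.actHom W τ).map_zsmul _ _))
    suffices key : τ • (σ • TateSeq.comp n f - s • TateSeq.comp n f) =
        σ • TateSeq.comp n f - s • TateSeq.comp n f by
      rw [e] at key
      rw [zsmul_sub]
      linear_combination (norm := abel) key
    refine smul_eq_of_mem_E0Z hq hA (hq' n) hτ (hs _) ?_
    have h1 : p ^ n • (σ • TateSeq.comp n f) = 0 := by
      rw [← comp_tateAction]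
      exact TateSeq.pow_nsmul_comp _ n
    rw [nsmul_sub, h1, smul_comm (p ^ n) s, hf, zsmul_zero, sub_zero]
  let b : Module.Basis (Fin 2) ℤ_[p] (TateSeq (GeomPoint W) p) := tateBasis W hΔ p
  have h2 := congrArg (LinearMap.toMatrixAlgEquiv b) h0
  rw [map_mul, map_sub, map_sub, map_smul, map_one, map_zero] at h2
  exact h2

/-- Frobenius at a multiplicative prime is annihilated by `(X - s) (X - s q)`, `s` the sign. -/
theorem frobenius_sub_sign_mul (hirr : W.ModRepIsIrreducible p) {σ : Γ}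
    (hσ : A.IsFrobeniusAt σ q) :
    (tateMat W hΔ p σ - ((nodeSign W q : ℤ_[p]) * q) • 1) *
      (tateMat W hΔ p σ - (nodeSign W q : ℤ_[p]) • 1) = 0 := by
  have htr := trace_frobenius_of_mult_all hΔ hq hqp hA hΔq hc₄ hirr hσ
  rw [trace_eq_trace_tateMat, Matrix.trace_fin_two] at htr
  have hdet := det_frobenius_of_mult_all hΔ hq hA hΔq hc₄ hqp hirr hσ
  rw [Matrix.det_fin_two] at hdet
  have hs2 : (nodeSign W q : ℤ_[p]) ^ 2 = 1 := by
    rw [← Int.cast_pow, nodeSign_sq, Int.cast_one]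
  set M := tateMat W hΔ p σ
  ext i j
  fin_cases i <;> fin_cases j <;>
    simp [Matrix.mul_apply, Fin.sum_univ_two] <;>
    first
      | linear_combination (M 0 0) * htr - hdet + (q : ℤ_[p]) * hs2
      | linear_combination (M 0 1) * htr
      | linear_combination (M 1 0) * htr
      | linear_combination (M 1 1) * htr - hdet + (q : ℤ_[p]) * hs2

/-- Inertia moves the Tate module into the line on which Frobenius acts by `s q`. -/
theorem frobenius_sub_mul_inertia (hirr : W.ModRepIsIrreducible p) {σ τ : Γ}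
    (hσ : A.IsFrobeniusAt σ q) (hτ : τ ∈ A.inertiaSubgroupIn ℚ) :
    (tateMat W hΔ p σ - ((nodeSign W q : ℤ_[p]) * q) • 1) * (tateMat W hΔ p τ - 1) = 0 := by
  set N := tateMat W hΔ p τ - 1 with hN
  set Q := tateMat W hΔ p σ - (nodeSign W q : ℤ_[p]) • 1 with hQ
  set P := tateMat W hΔ p σ - ((nodeSign W q : ℤ_[p]) * q) • 1 with hP
  have hNQ : N * Q = 0 := inertia_mul_frobenius_sub_sign hΔ hq hqp hA hΔq hc₄ hσ hτ
  have hPQ : P * Q = 0 := frobenius_sub_sign_mul hΔ hq hqp hA hΔq hc₄ hirr hσ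
  have hNN : N * N = 0 := by
    have hu := isUnipotentOnInertiaAt_of_semistable (hΔ := hΔ) (p := p) hq hqp (.inr hc₄) A hA hτ
    rw [charpoly_eq_charpoly_tateMat] at hu
    have h1 := Matrix.aeval_self_charpoly (tateMat W hΔ p τ)
    rw [hu, map_pow, map_sub, Polynomial.aeval_X, map_one] at h1
    rwa [sq] at h1
  -- `Q` is not zero, as its partner `P` differs from it by `(q - 1) s`
  have hne : Q ≠ 0 := by
    intro h0
    have htr := trace_frobenius_of_mult_all hΔ hq hqp hA hΔq hc₄ hirr hσ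
    have h0' : tateMat W hΔ p σ = (nodeSign W q : ℤ_[p]) • 1 := sub_eq_zero.mp h0
    rw [trace_eq_trace_tateMat, h0', Matrix.trace_smul, Matrix.trace_one,
      Fintype.card_fin, smul_eq_mul] at htr
    have hs : (nodeSign W q : ℤ_[p]) ≠ 0 := fun h => by
      have hs2 := congrArg (fun z : ℤ => (z : ℤ_[p])) (nodeSign_sq W q)
      simp [h] at hs2
    have : (q : ℤ_[p]) = ((1 : ℕ) : ℤ_[p]) := by
      push_cast
      exact mul_left_cancel₀ hs (by linear_combination -htr)
    exact hq.one_lt.ne' (Nat.cast_injective this)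
  -- a nonzero column of `Q` spans the kernels of `N` and of `P`
  obtain ⟨i, j, hij⟩ : ∃ i j, Q i j ≠ 0 := by
    by_contra! h
    exact hne (by ext i j; exact h i j)
  have eNQ : ∀ r, N r 0 * Q 0 j + N r 1 * Q 1 j = 0 := fun r => by
    simpa [Matrix.mul_apply, Fin.sum_univ_two] using congrFun (congrFun hNQ r) j
  have ePQ : ∀ r, P r 0 * Q 0 j + P r 1 * Q 1 j = 0 := fun r => by
    simpa [Matrix.mul_apply, Fin.sum_univ_two] using congrFun (congrFun hPQ r) j
  have eNN : ∀ r c, N r 0 * N 0 c + N r 1 * N 1 c = 0 := fun r c => by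
    simpa [Matrix.mul_apply, Fin.sum_univ_two] using congrFun (congrFun hNN r) c
  -- the image of `N` is a multiple of that column
  have hcol : ∀ c, N 0 c * Q 1 j = N 1 c * Q 0 j := by
    intro c
    by_contra hcon
    have key : ∀ r, N r 0 = 0 ∧ N r 1 = 0 := fun r => by
      constructor <;> refine (mul_eq_zero.mp ?_).resolve_right (sub_ne_zero.mpr hcon)
      · linear_combination (Q 1 j) * eNN r c - (N 1 c) * eNQ r
      · linear_combination (N 0 c) * eNQ r - (Q 0 j) * eNN r c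
    refine hcon ?_
    fin_cases c <;> simp [key 0, key 1]
  ext r c
  simp only [Matrix.mul_apply, Fin.sum_univ_two, Matrix.zero_apply]
  refine (mul_eq_zero.mp ?_).resolve_right hij
  obtain rfl | rfl : i = 0 ∨ i = 1 := by omega
  · linear_combination (N 0 c) * ePQ r - (P r 1) * hcol c
  · linear_combination (N 1 c) * ePQ r + (P r 0) * hcol c

end FLTA.LT2
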