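import Fermat.Agent.Bridge.Places
import Fermat.Agent.Kummer.FrickeField
import Fermat.Agent.LevelLowering.EtaUnit
import Fermat.Agent.Smooth.ModularEquation
import Fermat.Prelude.Def_AlgebraicCurve_DivisorClassGroup

/-!
# The Fricke involution on the places of points of `ℍ`

For an integral matrix `g = (N x, y; N z, N t)` of determinant `N`, evaluation at `τ` after the
Fricke involution is evaluation at `g • τ`, so the involution sends the place of `τ` to that of
`g • τ`.  A point with `j (N τ) = j (τ)` has algebraic `j`-invariant.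
-/

set_option autoImplicit false
set_option linter.style.haveILetI false
set_option synthInstance.maxHeartbeats 100000

noncomputable section

open scoped Manifold MatrixGroups Pointwise
open UpperHalfPlane hiding I
open CongruenceSubgroup ModularCurve AlgebraicCurve FLTA.Bridge

namespace FLTA.LT2

local notation "Qb" => AlgebraicClosure ℚ
set_option quotPrecheck false in
local notation "ιQ" => AlgHom.toRingHom complexEmbedding

variable (N : ℕ) [NeZero N]

theorem frickeBarEquiv_sq :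
    Kummer.frickeBarEquiv N * Kummer.frickeBarEquiv N = 1 := by
  refine AlgEquiv.ext fun x => ?_
  exact DFunLike.congr_fun (Kummer.frickeBar_comp_frickeBar N) x

theorem jGen_eq_jElt {d : ℕ} [NeZero d] (hd : d ∣ N) :
    (Kummer.jGen N hd : modularFunctionFieldBar N) = jElt N Qb hd :=
  LevelLowering.jGenBar_eq_jElt N hd

theorem evMero_jGen_jAt {d : ℕ} [NeZero d] (hd : d ∣ N) :
    evMero N ιQ (Kummer.jGen N hd) = algebraMap Hol Mero (modHolToHol N (jAt N d hd)) := by
  rw [jGen_eq_jElt, evMero_jElt]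

theorem jGen_one_ne_jGen_self (hN : 1 < N) :
    Kummer.jGen N (one_dvd N) ≠ Kummer.jGen N (dvd_refl N) := by
  intro h
  have h1 := congrArg
    (fun x : modularFunctionFieldBar N => (x : LaurentSeries Qb).order) h
  simp only [Kummer.coe_jGen, order_qExpand, Smooth.order_jqModC] at h1
  omega

theorem frickeBarEquiv_jGen {a b : ℕ} [NeZero a] [NeZero b] (h : a * b = N) :
    Kummer.frickeBarEquiv N (Kummer.jGen N (Dvd.intro b h)) =
      Kummer.jGen N (Dvd.intro_left a h) :=
  Kummer.frickeBar_jGen N h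

/-- The Fricke involution negates some nonzero function. -/
theorem exists_frickeBarEquiv_neg (hN : 1 < N) :
    ∃ h : modularFunctionFieldBar N, h ≠ 0 ∧ Kummer.frickeBarEquiv N h = -h := by
  refine ⟨Kummer.jGen N (one_dvd N) - Kummer.jGen N (dvd_refl N),
    sub_ne_zero.mpr (jGen_one_ne_jGen_self N hN), ?_⟩
  rw [neg_sub, map_sub]
  change Kummer.frickeBar N _ - Kummer.frickeBar N _ = _
  rw [Kummer.frickeBar_jGen N (mul_one N), Kummer.frickeBar_jGen N (one_mul N)]

section Matrix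

variable {x y z t : ℤ}

/-- The matrix `(N x, y; N z, N t)`. -/
def frickeGL (h : (N : ℤ) * x * t - y * z = 1) : GL(2, ℝ)⁺ :=
  ⟨Matrix.GeneralLinearGroup.mkOfDetNeZero !![(N : ℝ) * x, y; (N : ℝ) * z, (N : ℝ) * t] (by
    have h' : (N : ℝ) * x * t - y * z = 1 := by exact_mod_cast h
    rw [Matrix.det_fin_two_of, show (N : ℝ) * x * (N * t) - y * (N * z) =
      N * ((N : ℝ) * x * t - y * z) by ring, h', mul_one]
    exact Nat.cast_ne_zero.mpr (NeZero.ne N)), by
    have h' : (N : ℝ) * x * t - y * z = 1 := by exact_mod_cast h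
    show (0 : ℝ) < Matrix.det !![(N : ℝ) * x, y; (N : ℝ) * z, (N : ℝ) * t]
    rw [Matrix.det_fin_two_of, show (N : ℝ) * x * (N * t) - y * (N * z) = N * ((N : ℝ) * x * t - y * z) by ring, h',
      mul_one]
    exact Nat.cast_pos.mpr (NeZero.pos N)⟩

theorem coe_frickeGL (h : (N : ℤ) * x * t - y * z = 1) :
    (((frickeGL N h : GL(2, ℝ)⁺) : GL (Fin 2) ℝ) : Matrix (Fin 2) (Fin 2) ℝ) =
      !![(N : ℝ) * x, y; (N : ℝ) * z, (N : ℝ) * t] := rfl

theorem exists_scaleTau_frickeGL_smul (h : (N : ℤ) * x * t - y * z = 1) {d e : ℕ} [NeZero d]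
    [NeZero e] (hde : d * e = N) :
    ∃ δ : SL(2, ℤ), ∀ τ : ℍ,
      scaleTau d (((frickeGL N h : GL(2, ℝ)⁺) : GL (Fin 2) ℝ) • τ) = δ • scaleTau e τ := by
  refine ⟨⟨!![(d : ℤ) * x, y; z, (e : ℤ) * t], ?_⟩, fun τ => ?_⟩
  · rw [Matrix.det_fin_two_of]
    have : (N : ℤ) = d * e := by exact_mod_cast hde.symm
    rw [this] at h
    linarith
  · apply UpperHalfPlane.ext
    rw [coe_scaleTau, coe_smul_of_det_pos (frickeGL N h).2, coe_smul_eq, coe_scaleTau,
      UpperHalfPlane.num, UpperHalfPlane.denom, coe_frickeGL]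
    have hN : (N : ℂ) = d * e := by exact_mod_cast hde.symm
    have hd : (d : ℂ) ≠ 0 := Nat.cast_ne_zero.mpr (NeZero.ne d)
    simp only [Matrix.of_apply, Matrix.cons_val', Matrix.cons_val_zero, Matrix.cons_val_one,
      Matrix.cons_val_fin_one, Complex.ofReal_mul, Complex.ofReal_natCast, Complex.ofReal_intCast,
      Int.cast_mul, Int.cast_natCast, hN]
    rw [mul_div_assoc', show (d : ℂ) * e * z * τ + d * e * t =
      d * ((z : ℂ) * (e * τ) + e * t) by ring, mul_div_mul_left _ _ hd]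
    congr 1
    ring

/-- Evaluation after the Fricke involution is evaluation at `g • τ`. -/
theorem evMero_frickeBarEquiv (h : (N : ℤ) * x * t - y * z = 1)
    (f : modularFunctionFieldBar N) :
    evMero N ιQ (Kummer.frickeBarEquiv N f) = meroSmul (frickeGL N h) (evMero N ιQ f) := by
  letI : Algebra Qb Mero := ((algebraMap ℂ Mero).comp ιQ).toAlgebra
  let φ : modularFunctionFieldBar N →ₐ[Qb] Mero :=
    { toRingHom := (evMero N ιQ).comp (Kummer.frickeBarEquiv N).toRingEquiv.toRingHom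
      commutes' := fun c => by
        show evMero N ιQ (Kummer.frickeBarEquiv N (algebraMap Qb _ c)) = _
        rw [(Kummer.frickeBarEquiv N).commutes]
        exact evMero_algebraMap N ιQ c }
  let ψ : modularFunctionFieldBar N →ₐ[Qb] Mero :=
    { toRingHom := (meroSmul (frickeGL N h)).toAlgHom.toRingHom.comp (evMero N ιQ)
      commutes' := fun c => by
        show meroSmul (frickeGL N h) (evMero N ιQ (algebraMap Qb _ c)) = _
        exact (congrArg _ (evMero_algebraMap N ιQ c)).trans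
          ((meroSmul (frickeGL N h)).commutes _) }
  suffices hφ : φ = ψ from DFunLike.congr_fun hφ f
  refine Kummer.bar_hom_ext N fun d _ hd => ?_
  obtain ⟨e, he⟩ := hd
  haveI : NeZero e := ⟨fun h0 => NeZero.ne N (by rw [he, h0, mul_zero])⟩
  show evMero N ιQ (Kummer.frickeBarEquiv N (Kummer.jGen N (Dvd.intro e he.symm))) =
    meroSmul (frickeGL N h) (evMero N ιQ (Kummer.jGen N (Dvd.intro e he.symm)))
  rw [frickeBarEquiv_jGen N he.symm, evMero_jGen_jAt, evMero_jGen_jAt, meroSmul_algebraMap]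
  refine congrArg _ (Subtype.ext (funext fun τ => ?_))
  obtain ⟨δ, hδ⟩ := exists_scaleTau_frickeGL_smul N h he.symm
  show jInv (scaleTau e τ) = jInv (scaleTau d (((frickeGL N h : GL(2, ℝ)⁺) : GL (Fin 2) ℝ) • τ))
  rw [hδ, jInv_smul]

theorem ordF_frickeBarEquiv (h : (N : ℤ) * x * t - y * z = 1) (τ : ℍ)
    (f : modularFunctionFieldBar N) :
    ordF N ιQ τ (Kummer.frickeBarEquiv N f) =
      ordF N ιQ (((frickeGL N h : GL(2, ℝ)⁺) : GL (Fin 2) ℝ) • τ) f := by
  show meroOrd τ (evMero N ιQ _) = meroOrd _ (evMero N ιQ f)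
  rw [evMero_frickeBarEquiv N h, meroOrd_meroSmul]

theorem isPointOver_frickeGL_smul (h : (N : ℤ) * x * t - y * z = 1) {τ : ℍ}
    (hτ : IsPointOver ιQ τ) :
    IsPointOver ιQ (((frickeGL N h : GL(2, ℝ)⁺) : GL (Fin 2) ℝ) • τ) := by
  by_contra hg
  obtain ⟨a, ha⟩ := hτ
  have hpos : (0 : ℤ) < ordF N ιQ τ (jF N Qb - algebraMap Qb _ a) := by
    rw [ordF_jF_sub N ιQ τ a ha]
    exact_mod_cast analyticOrderNatAt_jFun_sub_pos τ
  have h0 := ordF_eq_zero_of_not_isPointOver N ιQ hg
    ((Kummer.frickeBarEquiv N).symm (jF N Qb - algebraMap Qb _ a))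
  rw [← ordF_frickeBarEquiv N h, AlgEquiv.apply_symm_apply] at h0
  exact hpos.ne' h0

/-- The Fricke involution sends the place of `τ` to the place of `g • τ`. -/
theorem frickeBarEquiv_smul_placeAt (h : (N : ℤ) * x * t - y * z = 1) {τ : ℍ}
    (hτ : IsPointOver ιQ τ)
    (hτ' : IsPointOver ιQ (((frickeGL N h : GL(2, ℝ)⁺) : GL (Fin 2) ℝ) • τ)) :
    Kummer.frickeBarEquiv N • placeAt N ιQ τ hτ =
      placeAt N ιQ (((frickeGL N h : GL(2, ℝ)⁺) : GL (Fin 2) ℝ) • τ) hτ' := by
  set w := Kummer.frickeBarEquiv N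
  refine place_eq_of_mul_ord_eq (d := ellipticIndex N τ)
    (ellipticIndex_pos N (((frickeGL N h : GL(2, ℝ)⁺) : GL (Fin 2) ℝ) • τ)) fun f => ?_
  have h1 : (w • placeAt N ιQ τ hτ).ord f = (placeAt N ιQ τ hτ).ord (w f) := by
    have h2 : w (w f) = f := by
      rw [← AlgEquiv.mul_apply, frickeBarEquiv_sq, AlgEquiv.one_apply]
    conv_lhs => rw [← h2]
    exact Place.ord_smul w _ _
  rw [h1, ← ordF_eq_mul_ord_placeAt, ← ordF_eq_mul_ord_placeAt, ordF_frickeBarEquiv N h]

/-- A fixed point of `g` gives a place fixed by the Fricke involution. -/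
theorem frickeBarEquiv_smul_placeAt_eq_self (h : (N : ℤ) * x * t - y * z = 1) {τ : ℍ}
    (hτ : IsPointOver ιQ τ) (hfix : ((frickeGL N h : GL(2, ℝ)⁺) : GL (Fin 2) ℝ) • τ = τ) :
    Kummer.frickeBarEquiv N • placeAt N ιQ τ hτ = placeAt N ιQ τ hτ := by
  rw [frickeBarEquiv_smul_placeAt N h hτ (isPointOver_frickeGL_smul N h hτ)]
  simp only [hfix]

end Matrix

/-- A point with `j (N τ) = j (τ)`, `N > 1`, has algebraic `j`-invariant. -/
theorem isPointOver_of_jInv_scaleTau_eq (hN : 1 < N) {τ : ℍ}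
    (hj : jInv (scaleTau N τ) = jInv τ) : IsPointOver ιQ τ := by
  by_contra hτ
  set f : modularFunctionFieldBar N := Kummer.jGen N (one_dvd N) - Kummer.jGen N (dvd_refl N)
  have hf : f ≠ 0 := sub_ne_zero.mpr (jGen_one_ne_jGen_self N hN)
  set F : Hol := modHolToHol N (jAt N 1 (one_dvd N)) - modHolToHol N (jAt N N (dvd_refl N))
  have hev : evMero N ιQ f = algebraMap Hol Mero F := by
    rw [map_sub (algebraMap Hol Mero), ← evMero_jGen_jAt, ← evMero_jGen_jAt]
    exact map_sub _ _ _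
  have hF : F ≠ 0 := fun h0 => hf ((evMero N ιQ).injective (by rw [hev, h0, map_zero, map_zero]))
  have hval : (F : ℍ → ℂ) τ = 0 := by
    show jInv (scaleTau 1 τ) - jInv (scaleTau N τ) = 0
    rw [hj, show scaleTau 1 τ = τ from UpperHalfPlane.ext (by simp [coe_scaleTau]), sub_self]
  have h0 := ordF_eq_zero_of_not_isPointOver N ιQ hτ f
  change meroOrd τ (evMero N ιQ f) = 0 at h0
  rw [hev, meroOrd_algebraMap_hol] at h0
  exact (ordAt_eq_zero_iff F.2 (fun h' => hF (Subtype.ext h')) τ).mp (by exact_mod_cast h0) hval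

end FLTA.LT2
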