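import Fermat.Agent.EllTate.FlatModel
import Fermat.Agent.RT.DeformFlat
import Fermat.Agent.LT2.Defs

/-!
# The two-power torsion of a curve with good reduction at two is flat at two

For the local conditions of part D: `E[2ⁿ]`, the `2`-adic Tate module, its images in finite
coefficient rings, and every representation spanned by equivariant images of `E[2ⁿ]` are flat.
-/

set_option autoImplicit false

open WeierstrassCurve
open scoped WeierstrassCurve.Affine

noncomputable section

namespace FLTA.LT2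

open FLTA.EllTate FLTA.EllReduction FLTA.HeckeDatum

variable {E : WeierstrassCurve ℤ}

/-- Galois acting on `E[2ⁿ]`. -/
def tors2PowHom (E : WeierstrassCurve ℤ) (n : ℕ) : GalQ →*
    AddMonoid.End (EllReducible.Tors (E.map (Int.castRingHom ℚ)) (2 ^ n)) :=
  torsAct E (2 ^ n)

lemma tors2PowHom_apply (n : ℕ) (σ : GalQ)
    (P : EllReducible.Tors (E.map (Int.castRingHom ℚ)) (2 ^ n)) :
    tors2PowHom E n σ P = σ • P :=
  rfl

/-- `E[2ⁿ]` has a finite flat model over the integers localised at two. -/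
theorem hasFlatModel_two_pow (hgood : ¬ (2 : ℤ) ∣ E.Δ) (n : ℕ) :
    HasFlatModel 2 (EllReducible.Tors (E.map (Int.castRingHom ℚ)) (2 ^ n)) (tors2PowHom E n) :=
  hasFlatModel_torsion Nat.prime_two (by exact_mod_cast hgood) (pow_ne_zero n two_ne_zero)

theorem finite_tors_two_pow (hΔ : E.Δ ≠ 0) (n : ℕ) :
    Finite (EllReducible.Tors (E.map (Int.castRingHom ℚ)) (2 ^ n)) :=
  Nat.finite_of_card_ne_zero (by
    rw [show Nat.card (EllReducible.Tors (E.map (Int.castRingHom ℚ)) (2 ^ n)) = (2 ^ n) ^ 2 from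
      FLTA.EllTorsion.natCard_torsionBy_intModel E hΔ (pow_ne_zero n two_ne_zero)]
    exact pow_ne_zero 2 (pow_ne_zero n two_ne_zero))

/-- A representation over a finite ring spanned by equivariant images of `E[2ⁿ]` is flat at
two. -/
theorem isFlatAt_two_of_tors_map (hgood : ¬ (2 : ℤ) ∣ E.Δ) {n : ℕ} {A : Type} [CommRing A]
    [IsLocalRing A] [Finite A] (ρ : GaloisRepAdic A) {ι : Type} [Fintype ι]
    (f : ι → EllReducible.Tors (E.map (Int.castRingHom ℚ)) (2 ^ n) →+ ρ.V)
    (hf : ∀ v : ρ.V, ∃ x : ι → EllReducible.Tors (E.map (Int.castRingHom ℚ)) (2 ^ n),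
      ∑ i, f i (x i) = v)
    (hcomm : ∀ i (σ : GalQ) x, f i (σ • x) = ρ.ρ σ (f i x)) : ρ.IsFlatAt 2 := by
  classical
  let T := EllReducible.Tors (E.map (Int.castRingHom ℚ)) (2 ^ n)
  have : Finite T := finite_tors_two_pow (fun h => hgood (h ▸ dvd_zero _)) n
  let actι : GalQ →* AddMonoid.End (ι → T) :=
    { toFun := fun σ =>
        { toFun := fun x i => tors2PowHom E n σ (x i)
          map_zero' := funext fun _ => map_zero _
          map_add' := fun x y => funext fun _ => map_add _ _ _ }
      map_one' := AddMonoidHom.ext fun x => funext fun i => by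
        show tors2PowHom E n 1 (x i) = _
        rw [map_one]; rfl
      map_mul' := fun σ τ => AddMonoidHom.ext fun x => funext fun i => by
        show tors2PowHom E n (σ * τ) (x i) = _
        rw [map_mul]; rfl }
  let F : (ι → T) →+ ρ.V :=
    { toFun := fun x => ∑ i, f i (x i)
      map_zero' := by simp
      map_add' := fun x y => by simp only [Pi.add_apply, map_add, Finset.sum_add_distrib] }
  refine RT.isFlatAt_of_model ρ Nat.prime_two
    (((hasFlatModel_two_pow hgood n).pi Nat.prime_two (actι := actι) fun _ _ _ => rfl).of_surjective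
      Nat.prime_two F hf ?_)
  intro σ x
  show ∑ i, f i (σ • x i) = ρ.ρ σ (∑ i, f i (x i))
  rw [map_sum]
  exact Finset.sum_congr rfl fun i _ => hcomm i σ (x i)

/-- The `2`-adic Tate module is flat at two. -/
theorem isFlatAt_tateRep_two (hΔ : E.Δ ≠ 0) (hgood : ¬ (2 : ℤ) ∣ E.Δ) :
    (tateRep E hΔ 2).IsFlatAt 2 :=
  isFlatAt_tateRep (by exact_mod_cast hgood)

/-- The Tate module with coefficients in a finite local ring is flat at two. -/
theorem isFlatAt_tateRep_baseChange_two (hΔ : E.Δ ≠ 0) (hgood : ¬ (2 : ℤ) ∣ E.Δ) {B : Type}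
    [CommRing B] [IsLocalRing B] [Finite B] (φ : ℤ_[2] →+* B) (hφ : IsLocalHom φ) :
    ((tateRep E hΔ 2).baseChangeAlong φ hφ).IsFlatAt 2 :=
  RT.isFlatAt_baseChange _ φ hφ Nat.prime_two (isFlatAt_tateRep_two hΔ hgood)

theorem Companion.isFlatAt_two (hE : Companion E) :
    (tateRep E hE.Δ_ne_zero 2).IsFlatAt 2 :=
  isFlatAt_tateRep_two hE.Δ_ne_zero hE.goodTwo

end FLTA.LT2
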