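import Fermat.Agent.LT2.FunctorNormSurj
import Fermat.Agent.LevelLowering.EtaUnit
import Fermat.Agent.BadRed.Modular

/-!
# The Atkin-Lehner involutions of the modular function field of squarefree level

For a divisor `d` of a squarefree level `N` the automorphism `alEquiv N hN d hd` is the action of
an integral matrix `(d, b; N, d x)` of determinant `d` on meromorphic functions on `ℍ`.  It sends
`j (e τ)` to `j (alIdx d e τ)`, commutes with the degeneracy maps and these involutions commute.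
-/

set_option autoImplicit false
set_option synthInstance.maxHeartbeats 200000
set_option linter.style.haveILetI false

noncomputable section

open scoped MatrixGroups
open UpperHalfPlane hiding I
open CongruenceSubgroup ModularCurve AlgebraicCurve FLTA.Bridge FLTA.Congruence

namespace FLTA.LT2

local notation "Qb" => AlgebraicClosure ℚ
local notation "ιC" => AlgHom.toRingHom complexEmbedding

/-! ### The index -/

/-- The divisor to which the involution at `d` moves the divisor `e`. -/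
def alIdx (d e : ℕ) : ℕ := d / Nat.gcd d e * (e / Nat.gcd d e)

theorem alIdx_one (d : ℕ) : alIdx d 1 = d := by simp [alIdx]

variable {N : ℕ} (hN : Squarefree N)

include hN in
theorem mul_div_gcd_dvd {d e : ℕ} (hd : d ∣ N) (he : e ∣ N) : d * (e / Nat.gcd d e) ∣ N := by
  have hN0 := hN.ne_zero
  have hd0 : d ≠ 0 := ne_zero_of_dvd_ne_zero hN0 hd
  have hg : 0 < Nat.gcd d e := Nat.gcd_pos_of_pos_left _ (Nat.pos_of_ne_zero hd0)
  obtain ⟨e', he'⟩ := Nat.gcd_dvd_right d e
  have h : e / Nat.gcd d e = e' := Nat.div_eq_of_eq_mul_right hg he'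
  rw [h]
  refine Nat.Coprime.mul_dvd_of_dvd_of_dvd ?_ hd ((he' ▸ dvd_mul_left e' _ : e' ∣ e).trans he)
  refine Nat.coprime_of_dvd fun p hp hpd hpe' => ?_
  have hpe : p ∣ e := he' ▸ hpe'.mul_left _
  have hpg : p ∣ Nat.gcd d e := Nat.dvd_gcd hpd hpe
  have h2 : p * p ∣ N := (he' ▸ mul_dvd_mul hpg hpe' : p * p ∣ e).trans he
  exact hp.not_isUnit (hN p h2)

include hN in
theorem alIdx_dvd {d e : ℕ} (hd : d ∣ N) (he : e ∣ N) : alIdx d e ∣ N :=
  (mul_dvd_mul_right (Nat.div_dvd_of_dvd (Nat.gcd_dvd_left d e)) _).trans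
    (mul_div_gcd_dvd hN hd he)

include hN in
theorem prime_dvd_alIdx_iff {d e p : ℕ} (hd : d ∣ N) (he : e ∣ N) (hp : p.Prime) :
    p ∣ alIdx d e ↔ (p ∣ d ∧ ¬ p ∣ e) ∨ (p ∣ e ∧ ¬ p ∣ d) := by
  obtain ⟨d', hd'⟩ := Nat.gcd_dvd_left d e
  obtain ⟨e', he'⟩ := Nat.gcd_dvd_right d e
  have hg : 0 < Nat.gcd d e :=
    Nat.gcd_pos_of_pos_left _ (Nat.pos_of_ne_zero (ne_zero_of_dvd_ne_zero hN.ne_zero hd))
  rw [alIdx, Nat.div_eq_of_eq_mul_right hg hd', Nat.div_eq_of_eq_mul_right hg he', hp.dvd_mul]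
  have hsd : ¬ (p ∣ Nat.gcd d e ∧ p ∣ d') := fun h => hp.not_isUnit
    (hN p ((hd' ▸ mul_dvd_mul h.1 h.2 : p * p ∣ d).trans hd))
  have hse : ¬ (p ∣ Nat.gcd d e ∧ p ∣ e') := fun h => hp.not_isUnit
    (hN p ((he' ▸ mul_dvd_mul h.1 h.2 : p * p ∣ e).trans he))
  have h1 : p ∣ d ↔ p ∣ Nat.gcd d e ∨ p ∣ d' := by
    conv_lhs => rw [hd']
    exact hp.dvd_mul
  have h2 : p ∣ e ↔ p ∣ Nat.gcd d e ∨ p ∣ e' := by
    conv_lhs => rw [he']
    exact hp.dvd_mul
  have h3 : p ∣ Nat.gcd d e ↔ p ∣ d ∧ p ∣ e := Nat.dvd_gcd_iff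
  tauto

include hN in
theorem alIdx_ext {a b : ℕ} (ha : a ∣ N) (hb : b ∣ N)
    (h : ∀ p : ℕ, p.Prime → (p ∣ a ↔ p ∣ b)) : a = b :=
  (Nat.Squarefree.ext_iff (hN.squarefree_of_dvd ha) (hN.squarefree_of_dvd hb)).mpr h

include hN in
theorem alIdx_alIdx {d e : ℕ} (hd : d ∣ N) (he : e ∣ N) : alIdx d (alIdx d e) = e :=
  alIdx_ext hN (alIdx_dvd hN hd (alIdx_dvd hN hd he)) he fun p hp => by
    rw [prime_dvd_alIdx_iff hN hd (alIdx_dvd hN hd he) hp, prime_dvd_alIdx_iff hN hd he hp]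
    tauto

include hN in
theorem alIdx_assoc {d d' e : ℕ} (hd : d ∣ N) (hd' : d' ∣ N) (he : e ∣ N) :
    alIdx (alIdx d d') e = alIdx d (alIdx d' e) :=
  alIdx_ext hN (alIdx_dvd hN (alIdx_dvd hN hd hd') he) (alIdx_dvd hN hd (alIdx_dvd hN hd' he))
    fun p hp => by
    rw [prime_dvd_alIdx_iff hN (alIdx_dvd hN hd hd') he hp,
      prime_dvd_alIdx_iff hN hd (alIdx_dvd hN hd' he) hp, prime_dvd_alIdx_iff hN hd hd' hp,
      prime_dvd_alIdx_iff hN hd' he hp]
    tauto

include hN in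
theorem alIdx_comm {d d' : ℕ} (hd : d ∣ N) (hd' : d' ∣ N) : alIdx d d' = alIdx d' d :=
  alIdx_ext hN (alIdx_dvd hN hd hd') (alIdx_dvd hN hd' hd) fun p hp => by
    rw [prime_dvd_alIdx_iff hN hd hd' hp, prime_dvd_alIdx_iff hN hd' hd hp]
    tauto

theorem alIdx_mul_right {d e l : ℕ} (h : Nat.Coprime d l) : alIdx d (e * l) = alIdx d e * l := by
  have hg : Nat.gcd d (e * l) = Nat.gcd d e :=
    Nat.Coprime.gcd_mul_right_cancel_right e (Nat.Coprime.symm h)
  rw [alIdx, alIdx, hg, mul_assoc, Nat.mul_comm e l,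
    Nat.mul_div_assoc l (Nat.gcd_dvd_right d e), Nat.mul_comm l]

/-! ### Matrices -/

/-- An integral matrix of positive determinant in `GL(2, ℝ)⁺`. -/
def posMat (A B C E : ℤ) (h : 0 < A * E - B * C) : GL(2, ℝ)⁺ :=
  ⟨Matrix.GeneralLinearGroup.mkOfDetNeZero !![(A : ℝ), B; C, E] (by
      rw [Matrix.det_fin_two_of]
      exact_mod_cast h.ne'), by
    simp [Matrix.det_fin_two_of]
    exact_mod_cast sub_pos.mp h⟩

theorem coe_posMat_smul (A B C E : ℤ) (h : 0 < A * E - B * C) (τ : ℍ) :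
    (((posMat A B C E h : GL(2, ℝ)⁺) : GL (Fin 2) ℝ) • τ : ℍ) =
      (((A : ℂ) * τ + B) / ((C : ℂ) * τ + E) : ℂ) := by
  rw [UpperHalfPlane.coe_smul_of_det_pos (posMat A B C E h).2]
  simp [posMat, UpperHalfPlane.num, UpperHalfPlane.denom]

theorem posMat_denom_ne_zero (A B C E : ℤ) (h : 0 < A * E - B * C) (τ : ℍ) :
    ((C : ℂ) * τ + E) ≠ 0 := by
  have := UpperHalfPlane.denom_ne_zero
    ((posMat A B C E h : GL(2, ℝ)⁺) : GL (Fin 2) ℝ) τ
  simpa [posMat, UpperHalfPlane.denom] using this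

variable (N) in
theorem exists_alCoeff (hN : Squarefree N) {d : ℕ} (hd : d ∣ N) :
    ∃ b x : ℤ, (d : ℤ) * x - b * ((N / d : ℕ) : ℤ) = 1 := by
  obtain ⟨m, hm⟩ := hd
  have hd0 : 0 < d := Nat.pos_of_ne_zero fun h => hN.ne_zero (by rw [hm, h, zero_mul])
  rw [hm, Nat.mul_div_cancel_left _ hd0]
  have hco : Nat.Coprime d m := Nat.coprime_of_squarefree_mul (hm ▸ hN)
  obtain ⟨u, v, huv⟩ := Nat.isCoprime_iff_coprime.mpr hco
  exact ⟨-v, u, by linear_combination huv⟩

/-- The upper right entry. -/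
def alB (N : ℕ) (hN : Squarefree N) (d : ℕ) (hd : d ∣ N) : ℤ := (exists_alCoeff N hN hd).choose

/-- The lower right entry divided by `d`. -/
def alX (N : ℕ) (hN : Squarefree N) (d : ℕ) (hd : d ∣ N) : ℤ :=
  (exists_alCoeff N hN hd).choose_spec.choose

theorem alCoeff_spec (N : ℕ) (hN : Squarefree N) (d : ℕ) (hd : d ∣ N) :
    (d : ℤ) * alX N hN d hd - alB N hN d hd * ((N / d : ℕ) : ℤ) = 1 :=
  (exists_alCoeff N hN hd).choose_spec.choose_spec

theorem alMat_det (N : ℕ) (hN : Squarefree N) (d : ℕ) (hd : d ∣ N) :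
    (d : ℤ) * ((d : ℤ) * alX N hN d hd) - alB N hN d hd * N = d := by
  have h := alCoeff_spec N hN d hd
  have hNd : ((d : ℤ) * ((N / d : ℕ) : ℤ)) = N := by exact_mod_cast Nat.mul_div_cancel' hd
  linear_combination (d : ℤ) * h + alB N hN d hd * hNd

/-- The matrix `(d, b; N, d x)` of determinant `d`. -/
def alMat (N : ℕ) (hN : Squarefree N) (d : ℕ) (hd : d ∣ N) : GL(2, ℝ)⁺ :=
  posMat d (alB N hN d hd) N ((d : ℤ) * alX N hN d hd) (by
    rw [alMat_det]
    exact_mod_cast Nat.pos_of_ne_zero (ne_zero_of_dvd_ne_zero hN.ne_zero hd))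

/-! ### The generators -/

variable [NeZero N]

/-- `j (e τ)` in the function field. -/
def jd (N : ℕ) [NeZero N] (e : ℕ) (he : e ∣ N) : modularFunctionFieldBar N :=
  haveI : NeZero e := ⟨ne_zero_of_dvd_ne_zero (NeZero.ne N) he⟩
  jElt N Qb he

omit hN in
theorem jd_congr {e e' : ℕ} (h : e = e') (he : e ∣ N) (he' : e' ∣ N) :
    jd N e he = jd N e' he' := by
  subst h; rfl

omit hN in
theorem jd_eq_jElt {e : ℕ} [NeZero e] (he : e ∣ N) : jd N e he = jElt N Qb he := rfl

omit hN in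
theorem coe_jd {e : ℕ} [NeZero e] (he : e ∣ N) :
    (jd N e he : LaurentSeries Qb) = qExpand Qb e (jqModC Qb) :=
  coeffEmb_qExpand_jq e

omit hN in
theorem order_jd {e : ℕ} (he : e ∣ N) : (jd N e he : LaurentSeries Qb).order = -(e : ℤ) := by
  haveI : NeZero e := ⟨ne_zero_of_dvd_ne_zero (NeZero.ne N) he⟩
  rw [coe_jd, order_qExpand, FLTA.BadRed.order_jqModC, mul_neg_one]

omit hN in
theorem jd_injective {e e' : ℕ} (he : e ∣ N) (he' : e' ∣ N) (h : jd N e he = jd N e' he') :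
    e = e' := by
  have := congrArg (fun x : modularFunctionFieldBar N => (x : LaurentSeries Qb).order) h
  simp only [order_jd] at this
  omega

omit hN in
theorem algHom_ext_jd {E : Type*} [Field E] [Algebra Qb E]
    {f g : modularFunctionFieldBar N →ₐ[Qb] E}
    (h : ∀ (e : ℕ) (he : e ∣ N), f (jd N e he) = g (jd N e he)) : f = g := by
  refine AlgHom.coe_ringHom_injective (ringHom_ext_jGenBar (fun a => ?_) fun e he0 he => ?_)
  · exact (f.commutes a).trans (g.commutes a).symm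
  · haveI := he0
    have e1 : jGenBar (L := Qb) N e he = jd N e he :=
      FLTA.LevelLowering.jGenBar_eq_jElt N he
    rw [e1]
    exact h e he

/-- The action of the matrix on `j (e τ)`. -/
theorem meroSmul_alMat_jd (d : ℕ) (hd : d ∣ N) (e : ℕ) (he : e ∣ N) :
    meroSmul (alMat N hN d hd) (evMero N ιC (jd N e he)) =
      evMero N ιC (jd N (alIdx d e) (alIdx_dvd hN hd he)) := by
  haveI : NeZero e := ⟨ne_zero_of_dvd_ne_zero (NeZero.ne N) he⟩
  haveI : NeZero (alIdx d e) := ⟨ne_zero_of_dvd_ne_zero (NeZero.ne N) (alIdx_dvd hN hd he)⟩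
  rw [jd_eq_jElt, jd_eq_jElt, evMero_jElt, evMero_jElt, meroSmul_algebraMap]
  refine congrArg _ (Subtype.ext (funext fun τ => ?_))
  show jInv (scaleTau e ((alMat N hN d hd : GL (Fin 2) ℝ) • τ)) = jInv (scaleTau (alIdx d e) τ)
  obtain ⟨d', hd'⟩ := Nat.gcd_dvd_left d e
  obtain ⟨e', he'⟩ := Nat.gcd_dvd_right d e
  set g := Nat.gcd d e with hgdef
  have hg : 0 < g :=
    Nat.gcd_pos_of_pos_left _ (Nat.pos_of_ne_zero (ne_zero_of_dvd_ne_zero (NeZero.ne N) hd))
  have hidx : alIdx d e = d' * e' := by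
    rw [alIdx, ← hgdef, Nat.div_eq_of_eq_mul_right hg hd', Nat.div_eq_of_eq_mul_right hg he']
  have hdiv : d * e' ∣ N := by
    have := mul_div_gcd_dvd hN hd he
    rwa [← hgdef, Nat.div_eq_of_eq_mul_right hg he'] at this
  obtain ⟨k, hk⟩ := hdiv
  have hNd : N / d = e' * k := by
    refine Nat.div_eq_of_eq_mul_right (Nat.pos_of_ne_zero (ne_zero_of_dvd_ne_zero (NeZero.ne N) hd)) ?_
    rw [hk, mul_assoc]
  have hspec := alCoeff_spec N hN d hd
  rw [hNd] at hspec
  have hdet : (g : ℤ) * ((d' : ℤ) * alX N hN d hd) - ((e' : ℤ) * alB N hN d hd) * k = 1 := by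
    have hdz : (d : ℤ) = g * d' := by exact_mod_cast hd'
    push_cast at hspec
    linear_combination hspec - alX N hN d hd * hdz
  let γ : SL(2, ℤ) := ⟨!![(g : ℤ), (e' : ℤ) * alB N hN d hd; (k : ℤ), (d' : ℤ) * alX N hN d hd],
    by rw [Matrix.det_fin_two_of]; exact hdet⟩
  have hγ : scaleTau e ((alMat N hN d hd : GL (Fin 2) ℝ) • τ) = γ • scaleTau (alIdx d e) τ := by
    apply UpperHalfPlane.ext
    rw [coe_scaleTau, coe_smul_SL2Z, coe_scaleTau]
    have hden := posMat_denom_ne_zero d (alB N hN d hd) N ((d : ℤ) * alX N hN d hd)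
      (by rw [alMat_det]; exact_mod_cast Nat.pos_of_ne_zero (ne_zero_of_dvd_ne_zero hN.ne_zero hd)) τ
    have hden2 := denom_SL2Z_ne_zero γ (scaleTau (alIdx d e) τ)
    rw [coe_scaleTau] at hden2
    rw [alMat, coe_posMat_smul]
    simp only [γ, Matrix.of_apply, Matrix.cons_val', Matrix.cons_val_zero, Matrix.cons_val_one,
      Matrix.empty_val', Matrix.cons_val_fin_one] at hden2 ⊢
    have e1 : (d : ℂ) = g * d' := by exact_mod_cast hd'
    have e2 : (e : ℂ) = g * e' := by exact_mod_cast he'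
    have e3 : (N : ℂ) = d * e' * k := by exact_mod_cast hk
    have e4 : (alIdx d e : ℂ) = d' * e' := by exact_mod_cast hidx
    push_cast at hden hden2 ⊢
    rw [e4] at hden2 ⊢
    rw [e3, e1] at hden ⊢
    rw [e2, mul_div_assoc', div_eq_div_iff hden hden2]
    ring
  rw [hγ, jInv_smul]

/-! ### The automorphisms -/

/-- The meromorphic functions of level `N`. -/
theorem meroSmul_mem_range (g : GL(2, ℝ)⁺)
    (h : ∀ (e : ℕ) (he : e ∣ N),
      meroSmul g (evMero N ιC (jd N e he)) ∈ (evMero N ιC).fieldRange)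
    (x : modularFunctionFieldBar N) :
    meroSmul g (evMero N ιC x) ∈ (evMero N ιC).fieldRange := by
  have hle : IntermediateField.adjoin Qb (divisorExpansionsC Qb N) ≤ modularFunctionFieldBar N :=
    (laurentBaseChange_full_eq_adjoin N).ge
  have key : ∀ (y : LaurentSeries Qb)
      (hy : y ∈ IntermediateField.adjoin Qb (divisorExpansionsC Qb N)),
      meroSmul g (evMero N ιC ⟨y, hle hy⟩) ∈ (evMero N ιC).fieldRange := by
    intro y hy
    induction hy using IntermediateField.adjoin_induction with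
    | mem y hy =>
      obtain ⟨e, he0, he, rfl⟩ := hy
      haveI := he0
      have e1 : (⟨qExpand Qb e (jqModC Qb), hle (IntermediateField.subset_adjoin _ _
          ⟨e, he0, he, rfl⟩)⟩ : modularFunctionFieldBar N) = jd N e he := Subtype.ext (coe_jd he).symm
      rw [e1]
      exact h e he
    | algebraMap a =>
      have e1 : (⟨algebraMap Qb (LaurentSeries Qb) a, hle (IntermediateField.algebraMap_mem _ a)⟩ :
          modularFunctionFieldBar N) = algebraMap Qb (modularFunctionFieldBar N) a := rfl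
      refine RingHom.mem_fieldRange.mpr ⟨algebraMap Qb (modularFunctionFieldBar N) a, ?_⟩
      rw [e1, evMero_algebraMap]
      exact ((meroSmul g).commutes _).symm
    | add u v hu hv ihu ihv =>
      have e1 : (⟨u + v, hle (add_mem hu hv)⟩ : modularFunctionFieldBar N) =
          ⟨u, hle hu⟩ + ⟨v, hle hv⟩ := rfl
      rw [e1, map_add, map_add]
      exact add_mem ihu ihv
    | inv u hu ih =>
      have e1 : (⟨u⁻¹, hle (inv_mem hu)⟩ : modularFunctionFieldBar N) =
          (⟨u, hle hu⟩ : modularFunctionFieldBar N)⁻¹ := rfl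
      rw [e1, map_inv₀, map_inv₀]
      exact inv_mem ih
    | mul u v hu hv ihu ihv =>
      have e1 : (⟨u * v, hle (mul_mem hu hv)⟩ : modularFunctionFieldBar N) =
          ⟨u, hle hu⟩ * ⟨v, hle hv⟩ := rfl
      rw [e1, map_mul, map_mul]
      exact mul_mem ihu ihv
  exact key x ((laurentBaseChange_full_eq_adjoin (L := Qb) N).le x.2)

variable (N) in
theorem exists_alHom (hN : Squarefree N) (d : ℕ) (hd : d ∣ N) :
    ∃ w : modularFunctionFieldBar N →ₐ[Qb] modularFunctionFieldBar N,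
      ∀ x, evMero N ιC (w x) = meroSmul (alMat N hN d hd) (evMero N ιC x) := by
  have h := meroSmul_mem_range (N := N) (alMat N hN d hd) fun e he =>
    ⟨_, (meroSmul_alMat_jd hN d hd e he).symm⟩
  choose w hw using h
  have inj := (evMero N ιC).injective
  let w' : modularFunctionFieldBar N →ₐ[Qb] modularFunctionFieldBar N :=
    { toFun := w
      map_one' := inj (by rw [hw, map_one, map_one])
      map_mul' := fun x y => inj (by rw [hw, map_mul, map_mul, map_mul, hw, hw])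
      map_zero' := inj (by rw [hw, map_zero, map_zero])
      map_add' := fun x y => inj (by rw [hw, map_add, map_add, map_add, hw, hw])
      commutes' := fun c => inj (by
        rw [hw, evMero_algebraMap]
        exact (meroSmul _).commutes _) }
  exact ⟨w', hw⟩

/-- The involution at `d` as an endomorphism. -/
def alHom (N : ℕ) [NeZero N] (hN : Squarefree N) (d : ℕ) (hd : d ∣ N) :
    modularFunctionFieldBar N →ₐ[Qb] modularFunctionFieldBar N :=
  (exists_alHom N hN d hd).choose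

theorem evMero_alHom (d : ℕ) (hd : d ∣ N) (x : modularFunctionFieldBar N) :
    evMero N ιC (alHom N hN d hd x) = meroSmul (alMat N hN d hd) (evMero N ιC x) :=
  (exists_alHom N hN d hd).choose_spec x

theorem alHom_jd (d : ℕ) (hd : d ∣ N) (e : ℕ) (he : e ∣ N) :
    alHom N hN d hd (jd N e he) = jd N (alIdx d e) (alIdx_dvd hN hd he) :=
  (evMero N ιC).injective ((evMero_alHom hN d hd _).trans (meroSmul_alMat_jd hN d hd e he))

theorem alHom_comp_self (d : ℕ) (hd : d ∣ N) :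
    (alHom N hN d hd).comp (alHom N hN d hd) = AlgHom.id Qb _ :=
  algHom_ext_jd fun e he => by
    rw [AlgHom.comp_apply, alHom_jd hN d hd e he, alHom_jd hN d hd, AlgHom.id_apply]
    exact jd_congr (alIdx_alIdx hN hd he) _ _

/-- The Atkin-Lehner involution at `d`. -/
def alEquiv (N : ℕ) [NeZero N] (hN : Squarefree N) (d : ℕ) (hd : d ∣ N) :
    modularFunctionFieldBar N ≃ₐ[Qb] modularFunctionFieldBar N :=
  AlgEquiv.ofAlgHom (alHom N hN d hd) (alHom N hN d hd) (alHom_comp_self hN d hd)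
    (alHom_comp_self hN d hd)

theorem alEquiv_jd (d : ℕ) (hd : d ∣ N) (e : ℕ) (he : e ∣ N) :
    alEquiv N hN d hd (jd N e he) = jd N (alIdx d e) (alIdx_dvd hN hd he) :=
  alHom_jd hN d hd e he

theorem evMero_alEquiv (d : ℕ) (hd : d ∣ N) (x : modularFunctionFieldBar N) :
    evMero N ιC (alEquiv N hN d hd x) = meroSmul (alMat N hN d hd) (evMero N ιC x) :=
  evMero_alHom hN d hd x

theorem ordF_alEquiv (d : ℕ) (hd : d ∣ N) (τ : ℍ) (x : modularFunctionFieldBar N) :
    ordF N ιC τ (alEquiv N hN d hd x) =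
      ordF N ιC ((alMat N hN d hd : GL (Fin 2) ℝ) • τ) x := by
  rw [ordF, ordF, evMero_alEquiv, meroOrd_meroSmul]

omit hN in
theorem algEquiv_ext_jd {f g : modularFunctionFieldBar N ≃ₐ[Qb] modularFunctionFieldBar N}
    (h : ∀ (e : ℕ) (he : e ∣ N), f (jd N e he) = g (jd N e he)) : f = g :=
  AlgEquiv.ext fun x => DFunLike.congr_fun (algHom_ext_jd (f := f.toAlgHom) (g := g.toAlgHom) h) x

theorem alEquiv_congr {d d' : ℕ} (h : d = d') (hd : d ∣ N) (hd' : d' ∣ N) :
    alEquiv N hN d hd = alEquiv N hN d' hd' := by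
  subst h; rfl

theorem alEquiv_mul_self (d : ℕ) (hd : d ∣ N) : alEquiv N hN d hd * alEquiv N hN d hd = 1 :=
  algEquiv_ext_jd fun e he => by
    rw [AlgEquiv.mul_apply, alEquiv_jd hN d hd e he, alEquiv_jd hN d hd, AlgEquiv.one_apply]
    exact jd_congr (alIdx_alIdx hN hd he) _ _

theorem alEquiv_mul (d d' : ℕ) (hd : d ∣ N) (hd' : d' ∣ N) :
    alEquiv N hN d hd * alEquiv N hN d' hd' =
      alEquiv N hN (alIdx d d') (alIdx_dvd hN hd hd') :=
  algEquiv_ext_jd fun e he => by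
    rw [AlgEquiv.mul_apply, alEquiv_jd hN d' hd' e he, alEquiv_jd hN d hd, alEquiv_jd hN]
    exact jd_congr (alIdx_assoc hN hd hd' he).symm _ _

theorem alEquiv_one : alEquiv N hN 1 (one_dvd N) = 1 :=
  algEquiv_ext_jd fun e he => by
    rw [alEquiv_jd hN, AlgEquiv.one_apply]
    exact jd_congr (by simp [alIdx]) _ _

theorem alEquiv_injective {d d' : ℕ} (hd : d ∣ N) (hd' : d' ∣ N)
    (h : alEquiv N hN d hd = alEquiv N hN d' hd') : d = d' := by
  have := DFunLike.congr_fun h (jd N 1 (one_dvd N))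
  rw [alEquiv_jd hN, alEquiv_jd hN] at this
  have := jd_injective _ _ this
  rwa [alIdx_one, alIdx_one] at this

theorem alEquiv_comm (d d' : ℕ) (hd : d ∣ N) (hd' : d' ∣ N) :
    alEquiv N hN d hd * alEquiv N hN d' hd' = alEquiv N hN d' hd' * alEquiv N hN d hd := by
  rw [alEquiv_mul hN d d' hd hd', alEquiv_mul hN d' d hd' hd]
  exact alEquiv_congr hN (alIdx_comm hN hd hd') _ _

/-! ### Degeneracy maps -/

variable {l : ℕ} [NeZero l]

omit hN in
theorem heckeAlphaBar_jd {e : ℕ} (he : e ∣ N) :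
    heckeAlphaBar Qb N l (jd N e he) = jd (N * l) e (he.mul_right l) := by
  haveI : NeZero e := ⟨ne_zero_of_dvd_ne_zero (NeZero.ne N) he⟩
  exact Subtype.ext ((coe_heckeAlphaBar N l _).trans ((coe_jd he).trans (coe_jd _).symm))

omit hN in
theorem heckeBetaBar_jd {e : ℕ} (he : e ∣ N) :
    heckeBetaBar Qb N l (jd N e he) = jd (N * l) (e * l) (mul_dvd_mul_right he l) := by
  haveI : NeZero e := ⟨ne_zero_of_dvd_ne_zero (NeZero.ne N) he⟩
  haveI : NeZero (e * l) := ⟨mul_ne_zero (NeZero.ne e) (NeZero.ne l)⟩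
  refine Subtype.ext ((coe_heckeBetaBar N l _).trans ?_)
  rw [coe_jd, coe_jd, qExpand_qExpand]
  exact qExpand_congr (mul_comm l e) _

theorem alEquiv_heckeAlphaBar (hNl : Squarefree (N * l)) (d : ℕ) (hd : d ∣ N)
    (x : modularFunctionFieldBar N) :
    alEquiv (N * l) hNl d (hd.mul_right l) (heckeAlphaBar Qb N l x) =
      heckeAlphaBar Qb N l (alEquiv N hN d hd x) := by
  refine DFunLike.congr_fun (algHom_ext_jd
    (f := (alEquiv (N * l) hNl d (hd.mul_right l)).toAlgHom.comp (heckeAlphaBar Qb N l))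
    (g := (heckeAlphaBar Qb N l).comp (alEquiv N hN d hd).toAlgHom) fun e he => ?_) x
  show alEquiv (N * l) hNl d (hd.mul_right l) (heckeAlphaBar Qb N l (jd N e he)) =
    heckeAlphaBar Qb N l (alEquiv N hN d hd (jd N e he))
  rw [heckeAlphaBar_jd he, alEquiv_jd hNl, alEquiv_jd hN, heckeAlphaBar_jd]

theorem alEquiv_heckeBetaBar (hNl : Squarefree (N * l)) (d : ℕ) (hd : d ∣ N)
    (x : modularFunctionFieldBar N) :
    alEquiv (N * l) hNl d (hd.mul_right l) (heckeBetaBar Qb N l x) =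
      heckeBetaBar Qb N l (alEquiv N hN d hd x) := by
  refine DFunLike.congr_fun (algHom_ext_jd
    (f := (alEquiv (N * l) hNl d (hd.mul_right l)).toAlgHom.comp (heckeBetaBar Qb N l))
    (g := (heckeBetaBar Qb N l).comp (alEquiv N hN d hd).toAlgHom) fun e he => ?_) x
  show alEquiv (N * l) hNl d (hd.mul_right l) (heckeBetaBar Qb N l (jd N e he)) =
    heckeBetaBar Qb N l (alEquiv N hN d hd (jd N e he))
  rw [heckeBetaBar_jd he, alEquiv_jd hNl, alEquiv_jd hN, heckeBetaBar_jd]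
  exact jd_congr (alIdx_mul_right ((Nat.coprime_of_squarefree_mul hNl).coprime_dvd_left hd)) _ _

/-! ### Lists of involutions -/

/-- The involutions at the members of a list. -/
def alList (N : ℕ) [NeZero N] (hN : Squarefree N) (ds : List ℕ) (hds : ∀ d ∈ ds, d ∣ N) :
    List (modularFunctionFieldBar N ≃ₐ[Qb] modularFunctionFieldBar N) :=
  ds.pmap (fun d hd => alEquiv N hN d hd) hds

theorem mem_alList {ds : List ℕ} {hds : ∀ d ∈ ds, d ∣ N}
    {w : modularFunctionFieldBar N ≃ₐ[Qb] modularFunctionFieldBar N} :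
    w ∈ alList N hN ds hds ↔ ∃ (d : ℕ) (hd : d ∈ ds), alEquiv N hN d (hds d hd) = w :=
  List.mem_pmap

theorem involList_alList (ds : List ℕ) (hds : ∀ d ∈ ds, d ∣ N) :
    InvolList (alList N hN ds hds) := by
  constructor
  · intro v hv w hw
    obtain ⟨d, hd, rfl⟩ := (mem_alList hN).mp hv
    obtain ⟨d', hd', rfl⟩ := (mem_alList hN).mp hw
    exact alEquiv_comm hN d d' (hds d hd) (hds d' hd')
  · intro w hw
    obtain ⟨d, hd, rfl⟩ := (mem_alList hN).mp hw
    exact alEquiv_mul_self hN d _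

/-- Elements of the group generated by the list. -/
theorem exists_of_mem_closure {ds : List ℕ} {hds : ∀ d ∈ ds, d ∣ N}
    {w : modularFunctionFieldBar N ≃ₐ[Qb] modularFunctionFieldBar N}
    (hw : w ∈ Subgroup.closure {v | v ∈ alList N hN ds hds}) :
    ∃ (d : ℕ) (hd : d ∣ N), (∀ p : ℕ, p.Prime → p ∣ d → ∃ a ∈ ds, p ∣ a) ∧
      w = alEquiv N hN d hd := by
  induction hw using Subgroup.closure_induction with
  | mem v hv =>
    obtain ⟨d, hd, rfl⟩ := (mem_alList hN).mp hv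
    exact ⟨d, hds d hd, fun p _ hp => ⟨d, hd, hp⟩, rfl⟩
  | one => exact ⟨1, one_dvd N, fun p hp hp1 => absurd hp1 hp.not_dvd_one, (alEquiv_one hN).symm⟩
  | mul u v _ _ hu hv =>
    obtain ⟨d, hd, hds1, rfl⟩ := hu
    obtain ⟨d', hd', hds2, rfl⟩ := hv
    refine ⟨alIdx d d', alIdx_dvd hN hd hd', fun p hp hp1 => ?_, alEquiv_mul hN d d' hd hd'⟩
    rcases (prime_dvd_alIdx_iff hN hd hd' hp).mp hp1 with h | h
    · exact hds1 p hp h.1
    · exact hds2 p hp h.1
  | inv u _ hu =>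
    obtain ⟨d, hd, hds1, rfl⟩ := hu
    exact ⟨d, hd, hds1, inv_eq_of_mul_eq_one_left (alEquiv_mul_self hN d hd)⟩

theorem indep_alList : ∀ (ds : List ℕ) (hds : ∀ d ∈ ds, d ∣ N), ds.Pairwise Nat.Coprime →
    (∀ d ∈ ds, 1 < d) → Indep (alList N hN ds hds)
  | [], _, _, _ => trivial
  | a :: ds, hds, hco, h1 => by
    rw [List.pairwise_cons] at hco
    refine ⟨fun h => ?_, indep_alList ds (fun d hd => hds d (List.mem_cons_of_mem _ hd)) hco.2
      fun d hd => h1 d (List.mem_cons_of_mem _ hd)⟩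
    obtain ⟨d, hd, hsupp, heq⟩ := exists_of_mem_closure hN
      (ds := ds) (hds := fun d hd => hds d (List.mem_cons_of_mem _ hd)) h
    have had := alEquiv_injective hN (hds a List.mem_cons_self) hd heq
    subst had
    obtain ⟨p, hp, hpa⟩ := Nat.exists_prime_and_dvd (h1 a List.mem_cons_self).ne'
    obtain ⟨b, hb, hpb⟩ := hsupp p hp hpa
    exact hp.ne_one (Nat.dvd_one.mp ((hco.1 b hb) ▸ Nat.dvd_gcd hpa hpb))

end FLTA.LT2

end
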