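import Fermat.Agent.LT2.FunctorAL
import Mathlib.NumberTheory.LegendreSymbol.Basic

/-!
# The places fixed by the Atkin-Lehner involutions

No cusp is fixed; a fixed point comes from an integral matrix of determinant `d` and trace divisible
by `d` fixing it, so a point is fixed by at most one nontrivial involution, and no point is fixed
when the level is divisible by a prime `l` with `-d` a nonresidue modulo `l`.
-/

set_option autoImplicit false
set_option synthInstance.maxHeartbeats 200000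
set_option linter.style.haveILetI false

noncomputable section

open scoped MatrixGroups
open UpperHalfPlane hiding I
open Filter CongruenceSubgroup ModularCurve AlgebraicCurve FLTA.Bridge FLTA.Congruence

namespace FLTA.LT2

local notation "Qb" => AlgebraicClosure ℚ
local notation "ιC" => AlgHom.toRingHom complexEmbedding

variable {N : ℕ} [NeZero N] (hN : Squarefree N)

/-! ### Points of the upper half plane -/

theorem alEquiv_apply_apply (d : ℕ) (hd : d ∣ N) (x : modularFunctionFieldBar N) :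
    alEquiv N hN d hd (alEquiv N hN d hd x) = x := by
  rw [← AlgEquiv.mul_apply, alEquiv_mul_self, AlgEquiv.one_apply]

theorem ord_alEquiv_smul (d : ℕ) (hd : d ∣ N) (P : Place Qb (modularFunctionFieldBar N))
    (x : modularFunctionFieldBar N) :
    (alEquiv N hN d hd • P).ord x = P.ord (alEquiv N hN d hd x) := by
  conv_lhs => rw [← alEquiv_apply_apply hN d hd x]
  exact Place.ord_smul _ P _

theorem isPointOver_alMat_smul (d : ℕ) (hd : d ∣ N) {τ : ℍ} (hτ : IsPointOver ιC τ) :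
    IsPointOver ιC ((alMat N hN d hd : GL (Fin 2) ℝ) • τ) := by
  by_contra h
  obtain ⟨π, -, hπ⟩ := FLTA.Curves.exists_ord_eq_one (placeAt N ιC τ hτ)
  have h0 := ordF_eq_zero_of_not_isPointOver N ιC h (alEquiv N hN d hd π)
  rw [← ordF_alEquiv hN d hd τ, alEquiv_apply_apply, ordF_eq_mul_ord_placeAt N ιC τ hτ, hπ,
    mul_one] at h0
  have := ellipticIndex_pos N τ
  omega

/-- The involution acts on points through its matrix. -/
theorem alEquiv_smul_placeAt (d : ℕ) (hd : d ∣ N) {τ : ℍ} (hτ : IsPointOver ιC τ) :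
    alEquiv N hN d hd • placeAt N ιC τ hτ =
      placeAt N ιC ((alMat N hN d hd : GL (Fin 2) ℝ) • τ) (isPointOver_alMat_smul hN d hd hτ) := by
  refine place_eq_of_mul_ord_eq (d := ellipticIndex N τ)
    (ellipticIndex_pos N ((alMat N hN d hd : GL (Fin 2) ℝ) • τ)) fun x => ?_
  rw [ord_alEquiv_smul, ← ordF_eq_mul_ord_placeAt, ← ordF_eq_mul_ord_placeAt, ordF_alEquiv]

/-- A quadratic relation with integer coefficients at a point of `ℍ` has negative discriminant or
is trivial. -/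
theorem disc_neg_of_root {a b c : ℤ} {τ : ℍ} (h : (a : ℂ) * τ ^ 2 + b * τ + c = 0) :
    (a = 0 ∧ b = 0 ∧ c = 0) ∨ (a ≠ 0 ∧ b ^ 2 - 4 * a * c < 0) := by
  have hre := congrArg Complex.re h
  have him := congrArg Complex.im h
  have hy := τ.im_pos
  simp [sq] at hre him
  have him' : τ.im * (2 * a * τ.re + b) = 0 := by linear_combination him
  rw [mul_eq_zero, or_iff_right hy.ne'] at him'
  rcases eq_or_ne a 0 with ha | ha
  · subst ha
    have hb : b = 0 := by exact_mod_cast (by simpa using him' : (b : ℝ) = 0)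
    subst hb
    refine Or.inl ⟨rfl, rfl, ?_⟩
    exact_mod_cast (by simpa using hre : (c : ℝ) = 0)
  · refine Or.inr ⟨ha, ?_⟩
    have ha' : (a : ℝ) ≠ 0 := by exact_mod_cast ha
    have : ((b ^ 2 - 4 * a * c : ℤ) : ℝ) = -(2 * a * τ.im) ^ 2 := by
      push_cast
      linear_combination (-4 * (a : ℝ)) * hre + ((2 * a * τ.re + b) : ℝ) * him'
    have hneg : ((b ^ 2 - 4 * a * c : ℤ) : ℝ) < 0 := by
      rw [this, neg_lt_zero]
      positivity
    exact_mod_cast hneg

/-- The quadratic form of a matrix `(A, B; C, E)` fixing `τ`. -/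
structure FixData (N d : ℕ) (τ : ℍ) where
  /-- upper left -/
  A : ℤ
  /-- upper right -/
  B : ℤ
  /-- lower left -/
  C : ℤ
  /-- lower right -/
  E : ℤ
  /-- the square root of the discriminant over `-d` -/
  s : ℤ
  hs : s = 1 ∨ s = 2
  C_ne : C ≠ 0
  N_dvd : (N : ℤ) ∣ C
  root : (C : ℂ) * τ ^ 2 + ((E - A : ℤ) : ℂ) * τ + ((-B : ℤ) : ℂ) = 0
  disc : (A - E) ^ 2 + 4 * B * C = -(d : ℤ) * s ^ 2

theorem nonempty_fixData {d : ℕ} (hd : d ∣ N) (hd1 : 1 < d) (hodd : Odd d) {τ : ℍ}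
    (hτ : IsPointOver ιC τ) (hfix : alEquiv N hN d hd • placeAt N ιC τ hτ = placeAt N ιC τ hτ) :
    Nonempty (FixData N d τ) := by
  rw [alEquiv_smul_placeAt hN d hd hτ, placeAt_eq_iff] at hfix
  obtain ⟨γ, hγ, hfix⟩ := hfix
  set b := alB N hN d hd with hb
  set x := alX N hN d hd with hx
  have hdet := alMat_det N hN d hd
  rw [← hb, ← hx] at hdet
  have hr : (N : ℤ) ∣ γ.1 1 0 :=
    (ZMod.intCast_zmod_eq_zero_iff_dvd _ _).1 (Gamma0_mem.mp hγ)
  obtain ⟨r', hr'⟩ := hr
  obtain ⟨m, hm⟩ := hd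
  set A : ℤ := γ.1 0 0 * d + γ.1 0 1 * N with hA
  set B : ℤ := γ.1 0 0 * b + γ.1 0 1 * (d * x) with hB
  set C : ℤ := γ.1 1 0 * d + γ.1 1 1 * N with hC
  set E : ℤ := γ.1 1 0 * b + γ.1 1 1 * (d * x) with hE
  have hγdet : γ.1 0 0 * γ.1 1 1 - γ.1 0 1 * γ.1 1 0 = 1 := by
    rw [← Matrix.det_fin_two]
    exact γ.2
  have hAE : A * E - B * C = d := by
    rw [hA, hB, hC, hE]
    linear_combination ((d : ℤ) * (d * x) - b * N) * hγdet + hdet
  have hNC : (N : ℤ) ∣ C := ⟨r' * d + γ.1 1 1, by rw [hC, hr']; ring⟩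
  have hdA : (d : ℤ) ∣ A := ⟨γ.1 0 0 + γ.1 0 1 * m, by rw [hA, hm]; push_cast; ring⟩
  have hdE : (d : ℤ) ∣ E := ⟨r' * m * b + γ.1 1 1 * x, by rw [hE, hr', hm]; push_cast; ring⟩
  have hroot : (C : ℂ) * τ ^ 2 + ((E - A : ℤ) : ℂ) * τ + ((-B : ℤ) : ℂ) = 0 := by
    have h := congrArg (fun z : ℍ => (z : ℂ)) hfix
    simp only [coe_smul_SL2Z, alMat, coe_posMat_smul] at h
    have hden := posMat_denom_ne_zero d b N ((d : ℤ) * x)
      (by rw [hdet]; exact_mod_cast (by omega : 0 < d)) τ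
    rw [← hb, ← hx] at h
    have hden2 : ((γ.1 1 0 : ℂ) * (((d : ℤ) : ℂ) * τ + b) +
        γ.1 1 1 * (((N : ℤ) : ℂ) * τ + ((d * x : ℤ) : ℂ))) ≠ 0 := by
      have h2 := denom_SL2Z_ne_zero γ
        ((posMat d b N ((d : ℤ) * x) (by rw [hdet]; exact_mod_cast (by omega : 0 < d)) :
          GL (Fin 2) ℝ) • τ)
      rw [coe_posMat_smul] at h2
      intro h0
      apply h2
      rw [mul_div_assoc', div_add' _ _ _ hden, div_eq_zero_iff]
      left
      linear_combination h0
    rw [mul_div_assoc', mul_div_assoc', div_add' _ _ _ hden, div_add' _ _ _ hden,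
      div_div_div_cancel_right₀ hden, div_eq_iff hden2] at h
    rw [hA, hB, hC, hE]
    push_cast at h ⊢
    linear_combination -h
  rcases disc_neg_of_root hroot with ⟨hC0, hEA, hB0⟩ | ⟨hC0, hneg⟩
  · -- a scalar matrix: `d` would be a square
    exfalso
    have hsq : A * A = d := by
      have hEA' : E = A := sub_eq_zero.mp hEA
      rw [hC0, hEA'] at hAE
      linarith
    have hA2 : A.natAbs * A.natAbs = d := by
      rw [← Int.natAbs_mul, hsq, Int.natAbs_natCast]
    have h1 := (hN.squarefree_of_dvd ⟨m, hm⟩) A.natAbs (hA2 ▸ dvd_rfl)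
    rw [Nat.isUnit_iff] at h1
    rw [h1] at hA2
    omega
  · obtain ⟨k, hk⟩ : (d : ℤ) ∣ A + E := dvd_add hdA hdE
    have hD : (A - E) ^ 2 + 4 * B * C = ((d : ℤ) * k) ^ 2 - 4 * d := by
      rw [← hk]
      linear_combination -4 * hAE
    have hlt : ((d : ℤ) * k) ^ 2 - 4 * d < 0 := by
      rw [← hD]
      linarith
    rcases eq_or_ne k 0 with hk0 | hk0
    · exact ⟨⟨A, B, C, E, 2, Or.inr rfl, hC0, hNC, hroot, by rw [hD, hk0]; ring⟩⟩
    · have hk1 : 1 ≤ k ^ 2 := by
        have : 0 < k ^ 2 := by positivity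
        omega
      have hd4 : (d : ℤ) * k ^ 2 < 4 := by
        by_contra hge
        have hd0 : (0 : ℤ) < d := by exact_mod_cast (by omega : 0 < d)
        nlinarith
      have hd3 : d = 3 := by
        have : (d : ℤ) < 4 := by nlinarith
        obtain ⟨j, hj⟩ := hodd
        omega
      subst hd3
      have hk' : k ^ 2 = 1 := by push_cast at hd4; omega
      exact ⟨⟨A, B, C, E, 1, Or.inl rfl, hC0, hNC, hroot, by
        rw [hD]; push_cast; linear_combination 9 * hk'⟩⟩

theorem eq_of_squarefree_mul_sq {d d' x y : ℕ} (hd : Squarefree d) (hd' : Squarefree d')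
    (hx : x ≠ 0) (hy : y ≠ 0) (h : d * x ^ 2 = d' * y ^ 2) : d = d' := by
  refine Nat.eq_of_factorization_eq hd.ne_zero hd'.ne_zero fun p => ?_
  have h' := congrArg (fun n : ℕ => n.factorization p) h
  simp only [Nat.factorization_mul hd.ne_zero (pow_ne_zero _ hx),
    Nat.factorization_mul hd'.ne_zero (pow_ne_zero _ hy), Nat.factorization_pow, Finsupp.coe_add,
    Pi.add_apply, Finsupp.smul_apply, smul_eq_mul] at h'
  have := hd.natFactorization_le_one p
  have := hd'.natFactorization_le_one p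
  omega

theorem eq_zero_of_linear_root {p q : ℤ} {τ : ℍ} (h : (p : ℂ) * τ + q = 0) : p = 0 ∧ q = 0 := by
  rcases disc_neg_of_root (a := 0) (b := p) (c := q) (τ := τ) (by simpa using h) with
    ⟨-, h1, h2⟩ | ⟨h0, -⟩
  · exact ⟨h1, h2⟩
  · exact absurd rfl h0

omit [NeZero N] in
theorem FixData.eq {N' d d' : ℕ} {τ : ℍ} (D : FixData N d τ) (D' : FixData N' d' τ)
    (hd : Squarefree d) (hd' : Squarefree d') : d = d' := by
  have h : (((D'.C * (D.E - D.A) - D.C * (D'.E - D'.A)) : ℤ) : ℂ) * τ +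
      ((D'.C * -D.B - D.C * -D'.B : ℤ) : ℂ) = 0 := by
    push_cast
    linear_combination (norm := (push_cast; ring)) (D'.C : ℂ) * D.root - (D.C : ℂ) * D'.root
  obtain ⟨h1, h2⟩ := eq_zero_of_linear_root h
  have key : (d : ℤ) * (D.s * D'.C) ^ 2 = d' * (D'.s * D.C) ^ 2 := by
    linear_combination (D'.C ^ 2) * D.disc - (D.C ^ 2) * D'.disc +
      (-(D'.C * (D.E - D.A) + D.C * (D'.E - D'.A))) * h1 + (4 * D.C * D'.C) * h2
  have key' := congrArg Int.natAbs key
  rw [Int.natAbs_mul, Int.natAbs_mul, Int.natAbs_natCast, Int.natAbs_natCast, Int.natAbs_pow,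
    Int.natAbs_pow] at key'
  have hs : ∀ z : ℤ, z = 1 ∨ z = 2 → z ≠ 0 := by intro z hz; omega
  exact eq_of_squarefree_mul_sq hd hd' (Int.natAbs_ne_zero.mpr (mul_ne_zero (hs _ D.hs) D'.C_ne))
    (Int.natAbs_ne_zero.mpr (mul_ne_zero (hs _ D'.hs) D.C_ne)) key'

omit [NeZero N] in
theorem FixData.isSquare {d l : ℕ} {τ : ℍ} [Fact l.Prime] (D : FixData N d τ) (hl : l ∣ N)
    (hl2 : l ≠ 2) : IsSquare ((-(d : ℤ) : ℤ) : ZMod l) := by
  have hC : ((D.C : ℤ) : ZMod l) = 0 :=
    (ZMod.intCast_zmod_eq_zero_iff_dvd _ _).2 ((Int.natCast_dvd_natCast.mpr hl).trans D.N_dvd)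
  have h := congrArg (Int.cast : ℤ → ZMod l) D.disc
  push_cast at h
  rw [hC, mul_zero, add_zero] at h
  have h2 : ((2 : ℕ) : ZMod l) ≠ 0 := fun h0 => hl2
    ((Nat.prime_dvd_prime_iff_eq Fact.out Nat.prime_two).mp
      ((ZMod.natCast_eq_zero_iff _ _).mp h0))
  have hs : (D.s : ZMod l) ≠ 0 := by
    rcases D.hs with hs | hs
    · rw [hs]; simp
    · rw [hs]; simpa using h2
  refine ⟨((D.A : ZMod l) - D.E) / D.s, ?_⟩
  rw [div_mul_div_comm, ← sq, h, ← sq]
  push_cast
  field_simp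

/-! ### Cusps -/

theorem qParam_pow_eq_of_mul_eq {A D : ℕ} {B : ℤ} {σ τ : ℂ} (h : (D : ℂ) * σ = A * τ + B) :
    Function.Periodic.qParam 1 σ ^ D = Function.Periodic.qParam 1 τ ^ A := by
  simp only [Function.Periodic.qParam, ← Complex.exp_nat_mul, Complex.ofReal_one, div_one]
  rw [show (D : ℂ) * (2 * Real.pi * Complex.I * σ) =
    A * (2 * Real.pi * Complex.I * τ) + B * (2 * Real.pi * Complex.I) by
      linear_combination (2 * Real.pi * Complex.I) * h,
    Complex.exp_add, Complex.exp_int_mul_two_pi_mul_I, mul_one]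

theorem order_eq_zero_of_tendsto_one (M : ℕ) [NeZero M] (G : HolInfty M)
    (h : Tendsto (G : ℍ → ℂ) atImInfty (nhds 1)) : (expansion M G).order = 0 := by
  have hb : IsBoundedAtImInfty (G : ℍ → ℂ) := h.isBigO_one ℝ
  have ho := (isBoundedAtImInfty_iff_order M G).mp hb
  have hc : (expansion M G).coeff 0 = 1 :=
    tendsto_nhds_unique (tendsto_atImInfty_coeff_zero M G ho) h
  have := HahnSeries.order_le_of_coeff_ne_zero (x := expansion M G) (g := 0)
    (by rw [hc]; exact one_ne_zero)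
  omega

theorem order_pow' {R : Type*} [CommRing R] [IsDomain R] (x : LaurentSeries R) (hx : x ≠ 0)
    (n : ℕ) : (x ^ n).order = n * x.order := by
  induction n with
  | zero => simp
  | succ n ih =>
    rw [pow_succ, HahnSeries.order_mul (pow_ne_zero n hx) hx, ih]
    push_cast
    ring

variable (N) in
/-- Orders of `j (d τ)` at cusps. -/
theorem exists_order_qexpAt_jAt (g : SL(2, ℤ)) (d : ℕ) [NeZero d] (hd : d ∣ N) :
    ∃ A D : ℕ, A * D = d ∧
      (D : ℤ) * (qexpAt N g (jAt N d hd)).order = -((A : ℤ) * N) := by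
  set a := g.1 0 0
  set b := g.1 0 1
  set c := g.1 1 0
  set e := g.1 1 1
  have hgdet : a * e - b * c = 1 := by
    rw [← Matrix.det_fin_two]
    exact g.2
  have hG0 : Int.gcd ((d : ℤ) * a) c ≠ 0 := by
    intro h0
    rw [Int.gcd_eq_zero_iff, mul_eq_zero] at h0
    rcases h0 with ⟨h1 | h1, h2⟩
    · exact NeZero.ne d (by exact_mod_cast h1)
    · rw [h1, h2] at hgdet
      simp at hgdet
  set A := Int.gcd ((d : ℤ) * a) c
  obtain ⟨P, hP⟩ := Int.gcd_dvd_left ((d : ℤ) * a) c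
  obtain ⟨R, hR⟩ := Int.gcd_dvd_right ((d : ℤ) * a) c
  set u := Int.gcdA ((d : ℤ) * a) c
  set v := Int.gcdB ((d : ℤ) * a) c
  have hbez : (A : ℤ) = (d : ℤ) * a * u + c * v := Int.gcd_eq_gcd_ab _ _
  have hA0 : (A : ℤ) ≠ 0 := by exact_mod_cast hG0
  have huv : P * u + R * v = 1 := by
    refine mul_left_cancel₀ hA0 ?_
    rw [mul_one]
    linear_combination -hbez - u * hP - v * hR
  set B : ℤ := u * d * b + v * e with hB
  set D' : ℤ := -R * d * b + P * e with hD'
  have hAD : (A : ℤ) * D' = d := by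
    rw [hD']
    linear_combination ((d : ℤ) * b) * hR - e * hP + (d : ℤ) * hgdet
  have hD'0 : 0 < D' := by
    have hA' : (0 : ℤ) < A := by positivity
    have hd' : (0 : ℤ) < d := by exact_mod_cast Nat.pos_of_ne_zero (NeZero.ne d)
    rw [← hAD] at hd'
    exact pos_of_mul_pos_right hd' hA'.le
  obtain ⟨D, hD⟩ : ∃ D : ℕ, (D : ℤ) = D' := ⟨D'.toNat, Int.toNat_of_nonneg hD'0.le⟩
  have hD0 : 0 < D := by exact_mod_cast hD ▸ hD'0
  refine ⟨A, D, by exact_mod_cast (hD ▸ hAD : (A : ℤ) * (D : ℤ) = d), ?_⟩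
  have hpos : 0 < (A : ℤ) * D - B * 0 := by
    simp only [mul_zero, sub_zero]
    have : 0 < A := Nat.pos_of_ne_zero hG0
    positivity
  let σ : ℍ → ℍ := fun τ => (posMat A B 0 D hpos : GL (Fin 2) ℝ) • τ
  have hσ : ∀ τ : ℍ, (D : ℂ) * (σ τ : ℂ) = A * (τ : ℂ) + B := fun τ => by
    rw [coe_posMat_smul]
    have hD1 : (D : ℂ) ≠ 0 := by exact_mod_cast hD0.ne'
    simp only [Int.cast_natCast, Int.cast_zero, zero_mul, zero_add]
    rw [mul_div_cancel₀ _ hD1]
  let γ : SL(2, ℤ) := ⟨!![P, -v; R, u], by rw [Matrix.det_fin_two_of]; linear_combination huv⟩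
  have hj : ∀ τ : ℍ, jInv (scaleTau d (g • τ)) = jInv (σ τ) := by
    intro τ
    have hγ : scaleTau d (g • τ) = γ • σ τ := by
      apply UpperHalfPlane.ext
      rw [coe_scaleTau, coe_smul_SL2Z, coe_smul_SL2Z, mul_div_assoc',
        div_eq_div_iff (denom_SL2Z_ne_zero g τ) (denom_SL2Z_ne_zero γ (σ τ))]
      simp only [γ, Matrix.of_apply, Matrix.cons_val', Matrix.cons_val_zero, Matrix.cons_val_one,
        Matrix.empty_val', Matrix.cons_val_fin_one]
      have hD1 : (D : ℂ) ≠ 0 := by exact_mod_cast hD0.ne'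
      refine mul_left_cancel₀ hD1 ?_
      have e1 : (D : ℂ) = -(R : ℂ) * d * b + P * e := by
        rw [← Int.cast_natCast (R := ℂ) D, hD, hD']
        push_cast
        ring
      have e2 : (B : ℂ) = u * d * b + v * e := by rw [hB]; push_cast; ring
      have e3 : (P : ℂ) * u + R * v = 1 := by exact_mod_cast huv
      have e4 : (d : ℂ) * a = A * P := by exact_mod_cast hP
      have e5 : (c : ℂ) = A * R := by exact_mod_cast hR
      push_cast
      change (D : ℂ) * ((d : ℂ) * ((a : ℂ) * τ + b) * ((R : ℂ) * (σ τ : ℂ) + u)) =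
        (D : ℂ) * (((P : ℂ) * (σ τ : ℂ) + -(v : ℂ)) * ((c : ℂ) * τ + e))
      have e6 := hσ τ
      linear_combination ((d : ℂ) * ((a : ℂ) * τ + b) * R - (P : ℂ) * ((c : ℂ) * τ + e)) * e6 +
        ((d : ℂ) * ((a : ℂ) * τ + b) * R - (P : ℂ) * ((c : ℂ) * τ + e)) * e2 +
        ((d : ℂ) * ((a : ℂ) * τ + b) * u + (v : ℂ) * ((c : ℂ) * τ + e)) * e1 +
        ((d : ℂ) * e * ((a : ℂ) * τ + b) - (d : ℂ) * b * ((c : ℂ) * τ + e)) * e3 +
        ((τ : ℂ) * ((R : ℂ) * A * τ + e)) * e4 -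
        ((τ : ℂ) * ((P : ℂ) * A * τ + d * b)) * e5
    rw [hγ, jInv_smul]
  let Q : HolInfty N := ⟨_, qParam_pow_mem_holInfty N A⟩
  let H : HolInfty N := modHolToHolInfty N g (jAt N d hd)
  let J : HolInfty N := modHolToHolInfty N g (jMod N)
  have hσlim : Tendsto σ atImInfty atImInfty := by
    rw [UpperHalfPlane.atImInfty, tendsto_comap_iff]
    have him : (fun τ => (σ τ).im) = fun τ : ℍ => ((A : ℝ) / D) * τ.im := by
      funext τ
      have h := congrArg Complex.im (hσ τ)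
      simp at h
      rw [div_mul_eq_mul_div, eq_div_iff (by exact_mod_cast hD0.ne')]
      linarith
    show Tendsto (fun τ => (σ τ).im) _ _
    rw [him]
    have : 0 < A := Nat.pos_of_ne_zero hG0
    exact tendsto_comap.const_mul_atTop (by positivity)
  have h1 : (expansion N (Q * H ^ D)).order = 0 := by
    refine order_eq_zero_of_tendsto_one N _ ?_
    have := (tendsto_qMulJ_atImInfty.comp hσlim).pow D
    rw [one_pow] at this
    refine this.congr fun τ => ?_
    show qMulJ (σ τ) ^ D =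
      Function.Periodic.qParam 1 (τ : ℂ) ^ A * jInv (scaleTau d (g • τ)) ^ D
    rw [hj, ← qParam_pow_eq_of_mul_eq (hσ τ), qMulJ, mul_pow]
  have h2 : (expansion N (Q * J ^ A)).order = 0 := by
    refine order_eq_zero_of_tendsto_one N _ ?_
    have := tendsto_qMulJ_atImInfty.pow A
    rw [one_pow] at this
    refine this.congr fun τ => ?_
    show qMulJ τ ^ A = Function.Periodic.qParam 1 (τ : ℂ) ^ A * jInv (g • τ) ^ A
    rw [jInv_smul, qMulJ, mul_pow]
  have hne : ∀ G : HolInfty N, G ≠ 0 → expansion N G ≠ 0 := fun G hG h0 =>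
    hG ((injective_iff_map_eq_zero _).mp (expansion_injective N) G h0)
  have hQ : Q ≠ 0 := fun h0 => pow_ne_zero A (Function.Periodic.qParam_ne_zero _)
    (congrFun (congrArg Subtype.val h0) UpperHalfPlane.I)
  have hH : qexpAt N g (jAt N d hd) ≠ 0 := by
    intro h0
    have : jAt N d hd = 0 := qexpAt_injective N g (by rw [h0, map_zero])
    have h3 := congrArg (qexp N) this
    rw [qexp_jAt, map_zero] at h3
    rw [map_eq_zero, map_eq_zero] at h3
    have h4 := congrArg (fun s : LaurentSeries ℚ => s.coeff (-1)) h3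
    simp at h4
  have hJ : qexpAt N g (jMod N) ≠ 0 := by
    intro h0
    have h3 := order_qexpAt_jMod N g
    rw [h0, HahnSeries.order_zero] at h3
    have := NeZero.pos N
    omega
  have eH : expansion N H = qexpAt N g (jAt N d hd) := rfl
  have eJ : expansion N J = qexpAt N g (jMod N) := rfl
  rw [map_mul, map_pow, eH, HahnSeries.order_mul (hne Q hQ) (pow_ne_zero _ hH),
    order_pow' _ hH] at h1
  rw [map_mul, map_pow, eJ, HahnSeries.order_mul (hne Q hQ) (pow_ne_zero _ hJ), order_pow' _ hJ,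
    order_qexpAt_jMod] at h2
  linarith

theorem ordCusp_jd (g : SL(2, ℤ)) (d : ℕ) [NeZero d] (hd : d ∣ N) :
    ordCusp N ιC g (jd N d hd) = (qexpAt N g (jAt N d hd)).order := by
  rw [ordCusp, jd_eq_jElt, GenusKahler.evFrac_jElt, GenusKahler.qexpFracAt_algebraMap]

/-- No cusp is fixed. -/
theorem alEquiv_smul_cuspPlace_ne (d : ℕ) (hd : d ∣ N) (hd1 : 1 < d) (g : SL(2, ℤ)) :
    alEquiv N hN d hd • cuspPlace N ιC g ≠ cuspPlace N ιC g := by
  intro h
  haveI : NeZero d := ⟨by omega⟩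
  have h1 := congrArg (fun P : Place Qb (modularFunctionFieldBar N) =>
    (cuspDiv N g : ℤ) * P.ord (jd N 1 (one_dvd N))) h
  simp only [ord_alEquiv_smul] at h1
  rw [alEquiv_jd hN d hd, jd_congr (alIdx_one d) _ hd, ← ordCusp_eq_mul_ord_cuspPlace,
    ← ordCusp_eq_mul_ord_cuspPlace, ordCusp_jd, ordCusp_jd g 1, GenusKahler.jAt_one_eq,
    order_qexpAt_jMod] at h1
  obtain ⟨A, D, hAD, hord⟩ := exists_order_qexpAt_jAt N g d hd
  rw [h1] at hord
  have hN0 : (N : ℤ) ≠ 0 := by exact_mod_cast NeZero.ne N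
  have hDA : D = A := by
    have : (D : ℤ) = A := mul_right_cancel₀ hN0 (by linarith)
    exact_mod_cast this
  subst hDA
  have h2 := (hN.squarefree_of_dvd hd) D (hAD ▸ dvd_rfl)
  rw [Nat.isUnit_iff] at h2
  rw [h2] at hAD
  omega

/-! ### Consequences -/

/-- A fixed place is a point with a fixing matrix. -/
theorem exists_of_smul_eq (d : ℕ) (hd : d ∣ N) (hd1 : 1 < d)
    {P : Place Qb (modularFunctionFieldBar N)} (hP : alEquiv N hN d hd • P = P) :
    ∃ τ hτ, P = placeAt N ιC τ hτ := by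
  rcases exists_eq_placeAt_or_cuspPlace N ιC P with h | ⟨g, rfl⟩
  · exact h
  · exact absurd hP (alEquiv_smul_cuspPlace_ne hN d hd hd1 g)

/-- A place is fixed by at most one nontrivial involution. -/
theorem eq_of_smul_eq {d d' : ℕ} (hd : d ∣ N) (hd' : d' ∣ N) (hd1 : 1 < d) (hd1' : 1 < d')
    (hodd : Odd d) (hodd' : Odd d') {P : Place Qb (modularFunctionFieldBar N)}
    (h : alEquiv N hN d hd • P = P) (h' : alEquiv N hN d' hd' • P = P) : d = d' := by
  obtain ⟨τ, hτ, rfl⟩ := exists_of_smul_eq hN d hd hd1 h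
  obtain ⟨D⟩ := nonempty_fixData hN hd hd1 hodd hτ h
  obtain ⟨D'⟩ := nonempty_fixData hN hd' hd1' hodd' hτ h'
  exact D.eq D' (hN.squarefree_of_dvd hd) (hN.squarefree_of_dvd hd')

/-- Nothing is fixed if `-d` is a nonresidue modulo a prime dividing the level. -/
theorem smul_ne_of_legendreSym {d l : ℕ} (hd : d ∣ N) (hd1 : 1 < d) (hodd : Odd d)
    [Fact l.Prime] (hl : l ∣ N) (hl2 : l ≠ 2) (hdl : legendreSym l (-(d : ℤ)) = -1)
    (P : Place Qb (modularFunctionFieldBar N)) : alEquiv N hN d hd • P ≠ P := by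
  intro h
  obtain ⟨τ, hτ, rfl⟩ := exists_of_smul_eq hN d hd hd1 h
  obtain ⟨D⟩ := nonempty_fixData hN hd hd1 hodd hτ h
  exact (legendreSym.eq_neg_one_iff l).mp hdl (D.isSquare hl hl2)

end FLTA.LT2

end
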