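import Fermat.Agent.LT2.FunctorNorm
import Mathlib.LinearAlgebra.Basis.Basic
import Mathlib.LinearAlgebra.FiniteDimensional.Basic
import Mathlib.RingTheory.Nakayama
import Mathlib.LinearAlgebra.Dimension.OrzechProperty

/-!
# Freeness over the group algebra of commuting involutions

In characteristic two, if every vector invariant under a list of commuting involutions is a norm,
then the space has a basis consisting of all translates of a family of vectors.  Over a local
ring with residue field of characteristic two the same follows for a free module from its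
reduction.
-/

set_option autoImplicit false

noncomputable section

namespace FLTA.LT2

section Translate

variable {G : Type*} [Group G]

/-- The product of the members of the list selected by `s`. -/
def listSel : (ws : List G) → (Fin ws.length → Bool) → G
  | [], _ => 1
  | w :: ws, s => (bif s 0 then w else 1) * listSel ws (fun i => s i.succ)

@[simp] theorem listSel_nil (s : Fin ([] : List G).length → Bool) : listSel [] s = 1 := rfl

theorem listSel_cons (w : G) (ws : List G) (b : Bool) (s : Fin ws.length → Bool) :
    listSel (w :: ws) (Fin.cons b s) = (bif b then w else 1) * listSel ws s := by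
  show (bif (Fin.cons b s : Fin (ws.length + 1) → Bool) 0 then w else 1) *
    listSel ws (fun i => (Fin.cons b s : Fin (ws.length + 1) → Bool) i.succ) = _
  simp only [Fin.cons_zero, Fin.cons_succ]

@[simp] theorem listSel_false (ws : List G) : listSel ws (fun _ => false) = 1 := by
  induction ws with
  | nil => rfl
  | cons w ws ih =>
    show (bif false then w else 1) * listSel ws (fun _ => false) = 1
    rw [ih, cond_false, mul_one]

theorem exists_listSel_eq_mul {ws : List G} (hws : InvolList ws) {w : G} (hw : w ∈ ws)
    (s : Fin ws.length → Bool) : ∃ t, listSel ws t = w * listSel ws s := by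
  induction ws with
  | nil => simp at hw
  | cons v ws ih =>
    have hsplit : ∀ r : Fin (ws.length + 1) → Bool,
        r = Fin.cons (r 0) (fun j => r j.succ) := fun r => (Fin.cons_self_tail r).symm
    rw [hsplit s, listSel_cons]
    rcases List.mem_cons.mp hw with rfl | hw'
    · refine ⟨Fin.cons (!(s 0)) (fun j => s j.succ), ?_⟩
      rw [listSel_cons]
      cases s 0 <;> simp [← mul_assoc, hws.sq w hw]
    · obtain ⟨t, ht⟩ := ih hws.tail hw' (fun j => s j.succ)
      refine ⟨Fin.cons (s 0) t, ?_⟩
      rw [listSel_cons, ht, ← mul_assoc, ← mul_assoc]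
      cases s 0
      · simp
      · rw [cond_true, hws.comm v List.mem_cons_self w hw]

end Translate

section Field

variable {k : Type*} [Field k] {G : Type*} [Group G] {M : Type*} [AddCommGroup M] [Module k M]
  [DistribMulAction G M] [SMulCommClass G k M] {ι : Type*} [Fintype ι]

/-- The combination of the translates of `b` with coefficients `c`. -/
def transComb (b : ι → M) (ws : List G) (c : ι × (Fin ws.length → Bool) → k) : M :=
  ∑ x : ι × (Fin ws.length → Bool), c x • (listSel ws x.2 • b x.1)

omit [SMulCommClass G k M] in
theorem transComb_nil (b : ι → M) (c : ι × (Fin ([] : List G).length → Bool) → k) :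
    transComb b ([] : List G) c = ∑ i, c (i, Fin.elim0) • b i := by
  rw [transComb, Fintype.sum_prod_type]
  refine Finset.sum_congr rfl fun i _ => ?_
  have : IsEmpty (Fin ([] : List G).length) := Fin.isEmpty
  rw [Fintype.sum_unique]
  simp only [listSel_nil, one_smul]
  exact congrArg (fun s => c (i, s) • b i) (Subsingleton.elim _ _)

theorem transComb_cons (b : ι → M) (w : G) (ws : List G)
    (c : ι × (Fin (w :: ws).length → Bool) → k) :
    transComb b (w :: ws) c = transComb b ws (fun x => c (x.1, Fin.cons false x.2)) +
      w • transComb b ws (fun x => c (x.1, Fin.cons true x.2)) := by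
  simp only [transComb, Fintype.sum_prod_type, Finset.smul_sum, ← Finset.sum_add_distrib]
  refine Finset.sum_congr rfl fun i _ => ?_
  refine Eq.trans (Fintype.sum_equiv (Fin.consEquiv fun _ : Fin (ws.length + 1) => Bool).symm
    (fun s => c (i, s) • (listSel (w :: ws) s • b i))
    (fun e => c (i, Fin.cons e.1 e.2) • (listSel (w :: ws) (Fin.cons e.1 e.2) • b i))
    (fun s => ?_)) ?_
  · show _ = (fun s => c (i, s) • (listSel (w :: ws) s • b i))
      (Fin.consEquiv (fun _ : Fin (ws.length + 1) => Bool)
        ((Fin.consEquiv fun _ : Fin (ws.length + 1) => Bool).symm s))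
    rw [Equiv.apply_symm_apply]
  rw [Fintype.sum_prod_type, Fintype.sum_bool, ← Finset.sum_add_distrib]
  refine Finset.sum_congr rfl fun s _ => ?_
  show c (i, Fin.cons true s) • (listSel (w :: ws) (Fin.cons true s) • b i) +
    c (i, Fin.cons false s) • (listSel (w :: ws) (Fin.cons false s) • b i) = _
  rw [listSel_cons, listSel_cons, cond_true, cond_false, one_mul, mul_smul,
    smul_comm w (c (i, Fin.cons true s))]
  exact add_comm _ _

omit [SMulCommClass G k M] in
theorem transComb_add (b : ι → M) (ws : List G) (c d : ι × (Fin ws.length → Bool) → k) :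
    transComb b ws (c + d) = transComb b ws c + transComb b ws d := by
  simp only [transComb, Pi.add_apply, add_smul, Finset.sum_add_distrib]

theorem lnorm_const_smul (ws : List G) (a : k) (x : M) :
    lnorm ws (a • x) = a • lnorm ws x := by
  induction ws with
  | nil => rfl
  | cons w ws ih => rw [lnorm_cons, lnorm_cons, ih, smul_comm w a, smul_add]

omit [Fintype ι] in
theorem smul_mem_span_translates {ws : List G} (hws : InvolList ws) (b : ι → M) {w : G}
    (hw : w ∈ ws) {x : M}
    (hx : x ∈ Submodule.span k
      (Set.range fun x : ι × (Fin ws.length → Bool) => listSel ws x.2 • b x.1)) :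
    w • x ∈ Submodule.span k
      (Set.range fun x : ι × (Fin ws.length → Bool) => listSel ws x.2 • b x.1) := by
  induction hx using Submodule.span_induction with
  | mem y hy =>
    obtain ⟨⟨i, s⟩, rfl⟩ := hy
    obtain ⟨t, ht⟩ := exists_listSel_eq_mul hws hw s
    exact Submodule.subset_span ⟨(i, t), by simp only [ht, mul_smul]⟩
  | zero => rw [smul_zero]; exact zero_mem _
  | add y z _ _ hy hz => rw [smul_add]; exact add_mem hy hz
  | smul a y _ hy => rw [smul_comm w a]; exact Submodule.smul_mem _ a hy

/-- Translates of vectors with independent norms are independent. -/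
theorem eq_zero_of_lnorm_transComb {ws : List G} (hws : InvolList ws) (b : ι → M) [CharP k 2]
    (hb : LinearIndependent k fun i => lnorm ws (b i)) :
    ∀ (pre us : List G), pre.reverse ++ us = ws → ∀ c : ι × (Fin us.length → Bool) → k,
      lnorm pre (transComb b us c) = 0 → c = 0 := by
  intro pre us
  induction us generalizing pre with
  | nil =>
    intro h c hc
    have hperm : ∀ x : M, lnorm pre x = lnorm ws x := by
      rw [List.append_nil] at h
      subst h
      clear hb hc
      induction pre with
      | nil => intro x; rfl
      | cons w pre ih =>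
        intro x
        have hpre : InvolList pre.reverse := ⟨fun v hv u hu =>
          hws.comm v (by rw [List.reverse_cons]; exact List.mem_append_left _ hv) u
            (by rw [List.reverse_cons]; exact List.mem_append_left _ hu),
          fun v hv => hws.sq v (by rw [List.reverse_cons]; exact List.mem_append_left _ hv)⟩
        have hlast : ∀ (l : List G) (y : M),
            (∀ v ∈ l, w * v = v * w) → lnorm (l ++ [w]) y = lnorm l (y + w • y) := by
          intro l
          induction l with
          | nil => intro y _; simp [lnorm_cons]
          | cons v l ihl =>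
            intro y hl
            rw [List.cons_append, lnorm_cons, lnorm_cons,
              ihl y fun u hu => hl u (List.mem_cons_of_mem _ hu)]
        have hw : ∀ v ∈ pre.reverse, w * v = v * w := fun v hv =>
          hws.comm w (by simp) v (by rw [List.reverse_cons]; exact List.mem_append_left _ hv)
        rw [lnorm_cons, List.reverse_cons, hlast _ _ hw, lnorm_add,
          ← smul_lnorm_comm w _ hw, ih hpre]
    rw [transComb_nil, hperm, ← lnormHom_apply, map_sum] at hc
    simp only [lnormHom_apply, lnorm_const_smul] at hc
    funext x
    have := Fintype.linearIndependent_iff.mp hb _ hc x.1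
    rwa [show ((x.1, Fin.elim0) : ι × (Fin ([] : List G).length → Bool)) = x from
      Prod.ext rfl (funext fun j => Fin.elim0 j)] at this
  | cons w us ih =>
    intro h c hc
    have hmem : ∀ v, v ∈ pre ∨ v = w ∨ v ∈ us → v ∈ ws := fun v hv => by
      rw [← h]; rcases hv with hv | hv | hv <;> simp [hv]
    have hw : w ∈ ws := hmem w (Or.inr (Or.inl rfl))
    have hwpre : ∀ v ∈ pre, w * v = v * w := fun v hv => hws.comm w hw v (hmem v (Or.inl hv))
    set c₀ := fun x : ι × (Fin us.length → Bool) => c (x.1, Fin.cons false x.2) with hc₀
    set c₁ := fun x : ι × (Fin us.length → Bool) => c (x.1, Fin.cons true x.2) with hc₁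
    have h' : (w :: pre).reverse ++ us = ws := by rw [← h]; simp
    rw [transComb_cons, lnorm_add, ← smul_lnorm_comm w pre hwpre] at hc
    set A := lnorm pre (transComb b us c₀)
    set B := lnorm pre (transComb b us c₁)
    have hsum : c₀ + c₁ = 0 := by
      refine ih (w :: pre) h' _ ?_
      rw [transComb_add, lnorm_cons, lnorm_add]
      show A + B + w • (A + B) = 0
      have hww : w • w • B = B := by rw [smul_smul, hws.sq w hw, one_smul]
      have := congrArg (w • ·) hc
      simp only [smul_add, hww, smul_zero] at this
      rw [smul_add, show A + B + (w • A + w • B) = (A + w • B) + (w • A + B) by abel, hc, this,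
        add_zero]
    have heq : c₁ = c₀ := by
      funext x
      have hx : c₀ x + c₁ x = 0 := congrFun hsum x
      calc c₁ x = c₁ x + (c₀ x + c₀ x) := by rw [CharTwo.add_self_eq_zero, add_zero]
        _ = c₀ x + (c₀ x + c₁ x) := by ring
        _ = c₀ x := by rw [hx, add_zero]
    have h0 : c₀ = 0 := by
      refine ih (w :: pre) h' _ ?_
      rw [lnorm_cons]
      show A + w • A = 0
      rwa [show B = A from by simp only [A, B, heq]] at hc
    funext x
    obtain ⟨i, s⟩ := x
    have hs : s = Fin.cons (s 0) (fun j : Fin us.length => s j.succ) := (Fin.cons_self_tail s).symm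
    rw [hs]
    cases s 0
    · exact congrFun h0 (i, fun j => s j.succ)
    · exact (congrFun heq (i, fun j => s j.succ)).trans (congrFun h0 _)

/-- If every invariant vector is a norm, the translates of suitable vectors form a basis. -/
theorem exists_translate_basis [CharP k 2] [FiniteDimensional k M] {ws : List G}
    (hws : InvolList ws) (hfix : ∀ x : M, (∀ w ∈ ws, w • x = x) → ∃ y, lnorm ws y = x) :
    ∃ (n : ℕ) (b : Fin n → M) (B : Module.Basis (Fin n × (Fin ws.length → Bool)) k M),
      ∀ x, B x = listSel ws x.2 • b x.1 := by
  classical
  let Fx : Submodule k M :=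
    { carrier := {x | ∀ w ∈ ws, w • x = x}
      add_mem' := fun hx hy w hw => by rw [smul_add, hx w hw, hy w hw]
      zero_mem' := fun w _ => smul_zero w
      smul_mem' := fun a x hx w hw => by rw [smul_comm w a, hx w hw] }
  let f := Module.finBasis k Fx
  choose b hb using fun i => hfix (f i : M) (f i).2
  let n := Module.finrank k Fx
  have hind : LinearIndependent k fun i => lnorm ws (b i) := by
    rw [show (fun i => lnorm ws (b i)) = fun i => (f i : M) from funext hb]
    exact f.linearIndependent.map' Fx.subtype (Submodule.ker_subtype _)
  set v : Fin n × (Fin ws.length → Bool) → M := fun x => listSel ws x.2 • b x.1 with hv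
  have hli : LinearIndependent k v := by
    refine Fintype.linearIndependent_iff.mpr fun c hc x => ?_
    exact congrFun (eq_zero_of_lnorm_transComb hws b hind [] ws rfl c hc) x
  have h2 : ∀ y : M, y + y = 0 := fun y => by rw [← two_smul k y, CharTwo.two_eq_zero, zero_smul]
  set C := Submodule.span k (Set.range v) with hC
  have key : ∀ (pre us : List G), pre.reverse ++ us = ws → ∀ x : M, (∀ w ∈ us, w • x = x) →
      ∃ c ∈ C, lnorm us c = x := by
    intro pre
    induction pre with
    | nil =>
      intro us h x hx
      rw [List.reverse_nil, List.nil_append] at h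
      subst h
      refine ⟨∑ i, f.repr ⟨x, hx⟩ i • b i, Submodule.sum_mem _ fun i _ =>
        Submodule.smul_mem _ _ (Submodule.subset_span ⟨(i, fun _ => false), ?_⟩), ?_⟩
      · simp only [v, listSel_false, one_smul]
      · rw [← lnormHom_apply, map_sum]
        simp only [lnormHom_apply, lnorm_const_smul, hb]
        have := congrArg Subtype.val (f.sum_repr ⟨x, hx⟩)
        rw [Submodule.coe_sum] at this
        exact this
    | cons w pre ih =>
      intro us h x hx
      have hwus : pre.reverse ++ (w :: us) = ws := by rw [← h]; simp
      have hw : w ∈ ws := by rw [← hwus]; simp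
      have hus : ∀ v ∈ us, v ∈ ws := fun v hv => by rw [← h]; simp [hv]
      have husw : ∀ v ∈ us, w * v = v * w := fun v hv => hws.comm w hw v (hus v hv)
      have hinv : InvolList us :=
        ⟨fun v hv u hu => hws.comm v (hus v hv) u (hus u hu), fun v hv => hws.sq v (hus v hv)⟩
      have hfixw : ∀ v ∈ w :: us, v • (x + w • x) = x + w • x := by
        intro v hv
        rcases List.mem_cons.mp hv with rfl | hv
        · rw [smul_add, smul_smul, hws.sq v hw, one_smul, add_comm]
        · rw [smul_add, smul_smul, ← husw v hv, mul_smul, hx v hv]
      obtain ⟨c, hc, hcx⟩ := ih (w :: us) hwus _ hfixw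
      rw [lnorm_cons] at hcx
      have hrest : ∀ v ∈ w :: us, v • (x + lnorm us c) = x + lnorm us c := by
        intro v hv
        rcases List.mem_cons.mp hv with rfl | hv
        · have h3 : (v • x + v • lnorm us c) + (x + lnorm us c) = 0 := by
            rw [show (v • x + v • lnorm us c) + (x + lnorm us c) =
              (x + v • x) + (lnorm us c + v • lnorm us c) by abel, hcx, h2]
          rw [smul_add]
          calc v • x + v • lnorm us c
              = v • x + v • lnorm us c + ((x + lnorm us c) + (x + lnorm us c)) := by
                rw [h2, add_zero]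
            _ = x + lnorm us c := by rw [← add_assoc, h3, zero_add]
        · rw [smul_add, hx v hv, smul_lnorm hinv hv]
      obtain ⟨c', hc', hc'x⟩ := ih (w :: us) hwus _ hrest
      refine ⟨c + (c' + w • c'), add_mem hc (add_mem hc' (smul_mem_span_translates hws b hw hc')),
        ?_⟩
      rw [lnorm_add, lnorm_add, ← smul_lnorm_comm w us husw, ← lnorm_cons, hc'x, ← add_assoc,
        add_comm (lnorm us c) x, add_assoc, h2, add_zero]
  have hspan : ⊤ ≤ Submodule.span k (Set.range v) := by
    intro x _
    obtain ⟨c, hc, rfl⟩ := key ws.reverse [] (by simp) x (by simp)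
    exact hc
  exact ⟨n, b, Module.Basis.mk hli hspan, fun x => by rw [Module.Basis.mk_apply]⟩

end Field

section LocalRing

variable {R : Type*} [CommRing R] [IsLocalRing R] {G : Type*} [Group G] {L : Type*} [AddCommGroup L]
  [Module R L] [DistribMulAction G L] [SMulCommClass G R L] {M : Type*} [AddCommGroup M]
  [Module R M] [Module (IsLocalRing.ResidueField R) M]
  [IsScalarTower R (IsLocalRing.ResidueField R) M] [DistribMulAction G M]
  [SMulCommClass G (IsLocalRing.ResidueField R) M]

omit [SMulCommClass G R L] in
/-- A free module over a local ring whose reduction has the fixed-equals-norm property has a basis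
of translates. -/
theorem exists_translate_basis_local [CharP (IsLocalRing.ResidueField R) 2] [Module.Free R L]
    [Module.Finite R L] (φ : L →ₗ[R] M) (hφ : Function.Surjective φ)
    (hker : LinearMap.ker φ ≤ IsLocalRing.maximalIdeal R • (⊤ : Submodule R L))
    (hrank : Module.finrank R L = Module.finrank (IsLocalRing.ResidueField R) M)
    [FiniteDimensional (IsLocalRing.ResidueField R) M] {ws : List G}
    (hG : ∀ g ∈ ws, ∀ x, φ (g • x) = g • φ x)
    (hws : InvolList ws) (hfix : ∀ x : M, (∀ w ∈ ws, w • x = x) → ∃ y, lnorm ws y = x) :
    ∃ (n : ℕ) (b : Fin n → L) (B : Module.Basis (Fin n × (Fin ws.length → Bool)) R L),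
      ∀ x, B x = listSel ws x.2 • b x.1 := by
  obtain ⟨n, b₀, B₀, hB₀⟩ := exists_translate_basis (k := IsLocalRing.ResidueField R) hws hfix
  choose b hb using fun i => hφ (b₀ i)
  have hsel : ∀ (l : List G), (∀ g ∈ l, g ∈ ws) → ∀ s x, φ (listSel l s • x) = listSel l s • φ x := by
    intro l
    induction l with
    | nil => intro _ s x; simp
    | cons w l ih =>
      intro hl s x
      have := ih (fun g hg => hl g (List.mem_cons_of_mem _ hg))
      show φ ((_ * _) • x) = (_ * _) • φ x
      rw [mul_smul, mul_smul, ← this]
      cases s 0
      · simp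
      · exact hG w (hl w List.mem_cons_self) _
  set v : Fin n × (Fin ws.length → Bool) → L := fun x => listSel ws x.2 • b x.1 with hv
  have hφv : ∀ x, φ (v x) = B₀ x := fun x => by rw [hsel ws (fun g hg => hg), hb, hB₀]
  set F := Finsupp.linearCombination R v
  have hsurj : Submodule.span R (Set.range v) = ⊤ := by
    refine top_le_iff.mp (Submodule.le_of_le_smul_of_le_jacobson_bot
      (I := IsLocalRing.maximalIdeal R) Module.Finite.fg_top
      (IsLocalRing.maximalIdeal_le_jacobson _) ?_)
    intro x _
    obtain ⟨c, hc⟩ : ∃ c : Fin n × (Fin ws.length → Bool) → R, φ x = ∑ i, c i • φ (v i) := by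
      choose c hc using fun i => IsLocalRing.residue_surjective (B₀.repr (φ x) i)
      refine ⟨c, (B₀.sum_repr (φ x)).symm.trans (Finset.sum_congr rfl fun i _ => ?_)⟩
      rw [hφv, ← hc i]
      exact (IsScalarTower.algebraMap_smul (IsLocalRing.ResidueField R) (c i) (B₀ i))
    rw [show x = (∑ i, c i • v i) + (x - ∑ i, c i • v i) by abel]
    refine add_mem (Submodule.mem_sup_left (Submodule.sum_mem _ fun i _ =>
      Submodule.smul_mem _ _ (Submodule.subset_span ⟨i, rfl⟩))) (Submodule.mem_sup_right (hker ?_))
    simp [LinearMap.mem_ker, hc]
  have hcard : Fintype.card (Fin n × (Fin ws.length → Bool)) = Module.finrank R L := by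
    rw [hrank, Module.finrank_eq_card_basis B₀]
  refine ⟨n, b, Module.Basis.mk (linearIndependent_of_top_le_span_of_card_eq_finrank hsurj.ge hcard)
    hsurj.ge, fun x => by rw [Module.Basis.mk_apply]⟩

end LocalRing

end FLTA.LT2

end
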