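import Fermat.Agent.LT2.FunctorNorm
import Mathlib.FieldTheory.IsAlgClosed.Basic

/-!
# Invariant classes of order two are norms, up to a power of an operator

`ws` is a list of commuting involutions of a function field over an algebraically closed constant
field, `O` an operator of even degree commuting with them which maps invariant divisors to norms.
Then the fourth power of `O` maps every invariant class killed by `2` to the norm of a class
killed by `2`, as soon as norms of functions are surjective and classes are `2`-divisible.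
-/

set_option autoImplicit false

noncomputable section

open AlgebraicCurve
open scoped Pointwise

namespace FLTA.LT2

variable {K F : Type*} [Field K] [Field F] [Algebra K F]

/-- What is assumed about the function field and the involutions. -/
structure InvolField (ws : List (F ≃ₐ[K] F)) : Prop where
  invol : InvolList ws
  norm_surj : NormSurj ws
  separated : Separated ws
  const : ∀ f : F, f ≠ 0 → (∀ v : Place K F, v.ord f = 0) → ∃ c : K, f = algebraMap K F c
  exists_point : ∃ c : Place K F, c.deg = 1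
  two_div : ∀ y : Pic0 K F, ∃ z : Pic0 K F, 2 • z = y

/-- An operator of even degree on functions, divisors and classes commuting with the involutions
and sending invariant divisors to norms. -/
structure NormOp (ws : List (F ≃ₐ[K] F)) where
  /-- on functions -/
  T : F →* F
  /-- on divisors -/
  div : Divisor K F →+ Divisor K F
  /-- on classes -/
  act : Pic0 K F →+ Pic0 K F
  /-- the degree -/
  deg : ℕ
  even_deg : Even deg
  T_ne_zero : ∀ f, f ≠ 0 → T f ≠ 0
  T_algebraMap : ∀ c : K, T (algebraMap K F c) = algebraMap K F (c ^ deg)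
  degree_div : ∀ D, Divisor.degree (div D) = deg * Divisor.degree D
  div_ord : ∀ f, f ≠ 0 → ∀ D : Divisor K F, (∀ v, D v = v.ord f) → ∀ v, div D v = v.ord (T f)
  T_smul : ∀ w ∈ ws, ∀ f, T (w f) = w (T f)
  div_smul : ∀ w ∈ ws, ∀ D : Divisor K F, div (w • D) = w • div D
  act_mk : ∀ (D : Divisor.degZero (K := K) (F := F)) (h : div D ∈ Divisor.degZero (K := K) (F := F)),
    act (Pic0.mk D) = Pic0.mk ⟨div D, h⟩
  div_fixed : ∀ E : Divisor K F, (∀ w ∈ ws, w • E = E) → ∃ A, div E = lnorm ws A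

variable {ws : List (F ≃ₐ[K] F)}

theorem NormOp.div_mem_degZero (O : NormOp ws) (D : Divisor.degZero (K := K) (F := F)) :
    O.div D ∈ Divisor.degZero (K := K) (F := F) := by
  rw [Divisor.mem_degZero, O.degree_div, Divisor.mem_degZero.mp D.2, mul_zero]

theorem NormOp.act_smul (O : NormOp ws) {w : F ≃ₐ[K] F} (hw : w ∈ ws) (x : Pic0 K F) :
    O.act (w • x) = w • O.act x := by
  obtain ⟨D, rfl⟩ := Pic0.mk_surjective x
  rw [Pic0.smul_mk, O.act_mk _ (O.div_mem_degZero _), O.act_mk D (O.div_mem_degZero D),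
    Pic0.smul_mk]
  exact congrArg Pic0.mk (Subtype.ext (O.div_smul w hw D))

/-- The norm of a class is the class of the norm. -/
theorem lnorm_mk (us : List (F ≃ₐ[K] F)) :
    ∀ (D : Divisor.degZero (K := K) (F := F))
      (h : lnorm us (D : Divisor K F) ∈ Divisor.degZero (K := K) (F := F)),
      lnorm us (Pic0.mk D) = Pic0.mk ⟨lnorm us (D : Divisor K F), h⟩ := by
  induction us with
  | nil => intro D h; rfl
  | cons w us ih =>
    intro D h
    have h' : lnorm us (D : Divisor K F) ∈ Divisor.degZero (K := K) (F := F) := by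
      rw [Divisor.mem_degZero, degree_lnorm, Divisor.mem_degZero.mp D.2, mul_zero]
    rw [lnorm_cons, ih D h', Pic0.smul_mk, ← Pic0.mk_add]
    exact congrArg Pic0.mk (Subtype.ext rfl)

theorem mk_eq_mk_of_principal {D E : Divisor.degZero (K := K) (F := F)} {g : F} (hg : g ≠ 0)
    (h : ∀ v, ((E : Divisor K F) - D) v = v.ord g) : Pic0.mk D = Pic0.mk E := by
  refine (QuotientAddGroup.eq.mpr (AddSubgroup.mem_addSubgroupOf.mpr ⟨g, hg, fun v => ?_⟩))
  rw [AddSubgroup.coe_add, AddSubgroup.coe_neg, neg_add_eq_sub]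
  exact h v

theorem exists_div_of_mk_eq {D E : Divisor.degZero (K := K) (F := F)}
    (h : Pic0.mk D = Pic0.mk E) : ∃ g : F, g ≠ 0 ∧ ∀ v, ((E : Divisor K F) - D) v = v.ord g := by
  obtain ⟨g, hg, hv⟩ := AddSubgroup.mem_addSubgroupOf.mp (QuotientAddGroup.eq.mp h)
  refine ⟨g, hg, fun v => ?_⟩
  have := hv v
  rwa [AddSubgroup.coe_add, AddSubgroup.coe_neg, neg_add_eq_sub] at this

theorem ord_smul' (w : F ≃ₐ[K] F) {D : Divisor K F} {f : F} (hD : ∀ v, D v = v.ord f)
    (v : Place K F) : (w • D) v = v.ord (w f) := by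
  have h := Place.ord_smul w (w⁻¹ • v) f
  rw [smul_inv_smul] at h
  rw [Divisor.smul_apply, hD, h]

variable (S : InvolField ws) (O : NormOp ws)

include S in
theorem InvolField.apply_apply {w : F ≃ₐ[K] F} (hw : w ∈ ws) (z : F) : w (w z) = z := by
  rw [← AlgEquiv.mul_apply, S.invol.sq w hw, AlgEquiv.one_apply]

include S in
theorem exists_normalised [IsAlgClosed K] {w : F ≃ₐ[K] F} (hw : w ∈ ws) {E : Divisor K F}
    {f : F} (hf : f ≠ 0) (hE : ∀ v, E v = v.ord f) (hneg : w • E = -E) :
    ∃ φ : F, φ ≠ 0 ∧ w φ * φ = 1 ∧ ∀ v, E v = v.ord φ := by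
  have hwf : w f ≠ 0 := (map_ne_zero _).mpr hf
  obtain ⟨c, hc⟩ := S.const _ (mul_ne_zero hwf hf) fun v => by
    rw [v.ord_mul hwf hf, ← ord_smul' w hE, hneg, ← hE, Finsupp.neg_apply, neg_add_cancel]
  have hc0 : c ≠ 0 := fun h0 => mul_ne_zero hwf hf (by rw [hc, h0, map_zero])
  obtain ⟨d, hd⟩ := IsAlgClosed.exists_pow_nat_eq c⁻¹ (n := 2) two_pos
  have hd0 : d ≠ 0 := fun h0 => inv_ne_zero hc0 (by rw [← hd, h0, zero_pow two_ne_zero])
  have hd' : algebraMap K F d ≠ 0 := (map_ne_zero _).mpr hd0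
  refine ⟨algebraMap K F d * f, mul_ne_zero hd' hf, ?_, fun v => ?_⟩
  · rw [map_mul, w.commutes, mul_mul_mul_comm, hc, ← map_mul, ← map_mul, ← sq, hd,
      inv_mul_cancel₀ hc0, map_one]
  · rw [v.ord_mul hd' hf, Curves.ord_algebraMap, zero_add, hE]

include S in
/-- A class killed by the norm goes into the span of the `y - w • y` after two applications. -/
theorem act_act_mem_augSpan [HasPrincipalDivisors K F] {x : Pic0 K F} (hx : lnorm ws x = 0) :
    O.act (O.act x) ∈ augSpan (Pic0 K F) ws := by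
  obtain ⟨D, rfl⟩ := Pic0.mk_surjective x
  have hND : lnorm ws (D : Divisor K F) ∈ Divisor.degZero (K := K) (F := F) := by
    rw [Divisor.mem_degZero, degree_lnorm, Divisor.mem_degZero.mp D.2, mul_zero]
  rw [lnorm_mk ws D hND, ← Pic0.mk_zero] at hx
  obtain ⟨f, hf, hfv⟩ := exists_div_of_mk_eq hx.symm
  rw [AddSubgroup.coe_zero, sub_zero] at hfv
  have hTf := O.T_ne_zero f hf
  have hfix : FixedBy ws (O.T f) := by
    intro w hw
    have hwf : w f ≠ 0 := (map_ne_zero _).mpr hf
    obtain ⟨c, hc⟩ := S.const (w f / f) (div_ne_zero hwf hf) fun v => by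
      rw [div_eq_mul_inv, v.ord_mul hwf (inv_ne_zero hf), v.ord_inv, ← hfv, ← ord_smul' w hfv]
      show (w • lnorm ws (D : Divisor K F)) v + -(lnorm ws (D : Divisor K F) v) = 0
      rw [smul_lnorm S.invol hw, add_neg_cancel]
    have hwf' : w f = algebraMap K F c * f := by rw [← hc, div_mul_cancel₀ _ hf]
    have hc2 : c ^ 2 = 1 := by
      have h := congrArg w hwf'
      rw [map_mul, w.commutes, S.apply_apply hw, hwf', ← mul_assoc, ← map_mul, ← sq] at h
      refine (algebraMap K F).injective (mul_right_cancel₀ hf ?_)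
      rw [map_one, one_mul, ← h]
    obtain ⟨k, hk⟩ := O.even_deg
    rw [← O.T_smul w hw, hwf', map_mul, O.T_algebraMap, hk, ← two_mul, pow_mul, hc2, one_pow,
      map_one, one_mul]
  obtain ⟨g, hg, hgN⟩ := exists_lnormMul_eq S.norm_surj hTf hfix
  obtain ⟨G, hG, hGdeg⟩ := HasPrincipalDivisors.exists_divisor (K := K) g hg
  set E : Divisor.degZero (K := K) (F := F) :=
    ⟨O.div D - G, sub_mem (O.div_mem_degZero D) (Divisor.mem_degZero.mpr hGdeg)⟩ with hE
  have hEmk : O.act (Pic0.mk D) = Pic0.mk E := by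
    rw [O.act_mk D (O.div_mem_degZero D)]
    refine (mk_eq_mk_of_principal hg fun v => ?_).symm
    rw [hE, sub_sub_cancel]
    exact hG v
  have hEN : lnorm ws (E : Divisor K F) = 0 := by
    refine Finsupp.ext fun v => ?_
    rw [hE, lnorm_sub, Finsupp.sub_apply, lnorm_apply_eq_ord ws hg hG, hgN,
      ← map_lnorm O.div ws O.div_smul (D : Divisor K F), O.div_ord f hf _ hfv v, sub_self,
      Finsupp.zero_apply]
  have hEspan := mem_augSpan_of_lnorm_eq_zero S.invol hEN
  rw [hEmk, O.act_mk E (O.div_mem_degZero E)]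
  obtain ⟨c, hc⟩ := S.exists_point
  obtain ⟨m, hm⟩ := O.even_deg
  -- the span maps into the span of degree zero divisors
  have hdiv : ∀ y ∈ augSpan (Divisor K F) ws, ∃ z : Divisor.degZero (K := K) (F := F),
      (z : Divisor K F) = O.div y ∧ Pic0.mk z ∈ augSpan (Pic0 K F) ws := by
    intro y hy
    induction hy using AddSubgroup.closure_induction with
    | mem y hy =>
      obtain ⟨w, hw, A, rfl⟩ := hy
      set A' : Divisor K F := O.div A - ((m : ℤ) * Divisor.degree A) •
        (Finsupp.single c (1 : ℤ) + w • Finsupp.single c (1 : ℤ)) with hA'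
      have hA'deg : A' ∈ Divisor.degZero (K := K) (F := F) := by
        rw [Divisor.mem_degZero, hA', map_sub, map_zsmul, map_add, O.degree_div,
          Divisor.degree_smul, Divisor.degree_single, hc, hm]
        push_cast
        rw [smul_eq_mul]
        ring
      refine ⟨⟨A', hA'deg⟩ - Pic0.degZeroSMulHom w ⟨A', hA'deg⟩, ?_, ?_⟩
      · rw [AddSubgroupClass.coe_sub, Pic0.coe_degZeroSMulHom, map_sub, O.div_smul w hw]
        show A' - w • A' = _
        rw [hA']
        simp only [smul_sub, smul_comm w ((m : ℤ) * Divisor.degree A), smul_add,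
          smul_smul w w, S.invol.sq w hw, one_smul]
        abel
      · rw [show Pic0.mk (⟨A', hA'deg⟩ - Pic0.degZeroSMulHom w ⟨A', hA'deg⟩) =
          Pic0.mk ⟨A', hA'deg⟩ - w • Pic0.mk ⟨A', hA'deg⟩ from rfl]
        exact sub_smul_mem_augSpan hw _
    | zero => exact ⟨0, by simp, by rw [Pic0.mk_zero]; exact zero_mem _⟩
    | add a b _ _ ha hb =>
      obtain ⟨z, hz, hzm⟩ := ha
      obtain ⟨z', hz', hzm'⟩ := hb
      exact ⟨z + z', by simp [hz, hz'], by rw [Pic0.mk_add]; exact add_mem hzm hzm'⟩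
    | neg a _ ha =>
      obtain ⟨z, hz, hzm⟩ := ha
      exact ⟨-z, by simp [hz],
        by rw [show Pic0.mk (-z) = -Pic0.mk z from rfl]; exact neg_mem hzm⟩
  obtain ⟨z, hz, hzm⟩ := hdiv _ hEspan
  rwa [show (⟨O.div E, O.div_mem_degZero E⟩ : Divisor.degZero (K := K) (F := F)) = z from
    Subtype.ext hz.symm]

include S in
/-- An invariant class becomes a norm after two applications. -/
theorem exists_lnorm_eq_act_act [IsAlgClosed K] [HasPrincipalDivisors K F] {x : Pic0 K F}
    (hx : ∀ w ∈ ws, w • x = x) : ∃ a, lnorm ws a = O.act (O.act x) := by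
  classical
  obtain ⟨D, rfl⟩ := Pic0.mk_surjective x
  have key : ∀ w, ∃ φ : F, φ ≠ 0 ∧ (w ∈ ws → w φ * φ = 1 ∧
      ∀ v, (w • (D : Divisor K F) - D) v = v.ord φ) := by
    intro w
    by_cases hw : w ∈ ws
    · have h := hx w hw
      rw [Pic0.smul_mk] at h
      obtain ⟨f, hf, hfv⟩ := exists_div_of_mk_eq h.symm
      rw [Pic0.coe_degZeroSMulHom] at hfv
      obtain ⟨φ, hφ, hφ1, hφv⟩ := exists_normalised S hw hf hfv (by
        rw [smul_sub, smul_smul, S.invol.sq w hw, one_smul, neg_sub])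
      exact ⟨φ, hφ, fun _ => ⟨hφ1, hφv⟩⟩
    · exact ⟨1, one_ne_zero, fun h => absurd h hw⟩
  choose φ hφ0 hφ using key
  have hinv : ∀ w ∈ ws, w (O.T (φ w)) * O.T (φ w) = 1 := fun w hw => by
    rw [← O.T_smul w hw, ← map_mul, (hφ w hw).1, map_one]
  have hcomp : ∀ v ∈ ws, ∀ w ∈ ws,
      O.T (φ w) * w (O.T (φ v)) = O.T (φ v) * v (O.T (φ w)) := by
    intro v hv w hw
    have h1 : φ w * w (φ v) ≠ 0 := mul_ne_zero (hφ0 w) ((map_ne_zero _).mpr (hφ0 v))
    have h2 : φ v * v (φ w) ≠ 0 := mul_ne_zero (hφ0 v) ((map_ne_zero _).mpr (hφ0 w))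
    obtain ⟨γ, hγ⟩ := S.const (φ w * w (φ v) / (φ v * v (φ w))) (div_ne_zero h1 h2) fun P => by
      rw [div_eq_mul_inv, P.ord_mul h1 (inv_ne_zero h2), P.ord_inv,
        P.ord_mul (hφ0 w) ((map_ne_zero _).mpr (hφ0 v)),
        P.ord_mul (hφ0 v) ((map_ne_zero _).mpr (hφ0 w)), ← ord_smul' w (hφ v hv).2,
        ← ord_smul' v (hφ w hw).2, ← (hφ v hv).2, ← (hφ w hw).2]
      simp only [smul_sub, smul_smul, S.invol.comm v hv w hw, Finsupp.sub_apply]
      ring
    have hγ' : φ w * w (φ v) = algebraMap K F γ * (φ v * v (φ w)) := by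
      rw [← hγ, div_mul_cancel₀ _ h2]
    have hγ2 : γ ^ 2 = 1 := by
      have h3 := congrArg v hγ'
      rw [map_mul, map_mul, map_mul, v.commutes, S.apply_apply hv] at h3
      have h4 : v (w (φ v)) = w (v (φ v)) := by
        rw [← AlgEquiv.mul_apply, S.invol.comm v hv w hw, AlgEquiv.mul_apply]
      rw [h4] at h3
      have hv1 := (hφ v hv).1
      have hw1 : w (v (φ v)) * w (φ v) = 1 := by rw [← map_mul, hv1, map_one]
      refine (algebraMap K F).injective ?_
      rw [map_pow, map_one]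
      have hne : φ w * v (φ w) ≠ 0 := mul_ne_zero (hφ0 w) ((map_ne_zero _).mpr (hφ0 w))
      refine mul_right_cancel₀ hne ?_
      linear_combination (-(algebraMap K F γ) ^ 2 * φ w * v (φ w)) * hv1 +
        (φ w * v (φ w)) * hw1 - (w (φ v) * φ w) * h3 -
        (algebraMap K F γ * (v (φ v) * φ w)) * hγ'
    obtain ⟨k, hk⟩ := O.even_deg
    rw [← O.T_smul w hw, ← O.T_smul v hv, ← map_mul, ← map_mul, hγ', map_mul, O.T_algebraMap, hk,
      ← two_mul, pow_mul, hγ2, one_pow, map_one, one_mul]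
  obtain ⟨g, hg, hgw⟩ := exists_coboundary S.invol S.separated (fun w => O.T (φ w))
    (fun w _ => O.T_ne_zero _ (hφ0 w)) hinv hcomp
  obtain ⟨G, hG, hGdeg⟩ := HasPrincipalDivisors.exists_divisor (K := K) g hg
  set D' : Divisor K F := O.div D + G with hD'
  have hD'deg : D' ∈ Divisor.degZero (K := K) (F := F) :=
    add_mem (O.div_mem_degZero D) (Divisor.mem_degZero.mpr hGdeg)
  have hD'fix : ∀ w ∈ ws, w • D' = D' := by
    intro w hw
    refine Finsupp.ext fun v => ?_
    have h1 := O.div_ord _ (hφ0 w) _ (hφ w hw).2 v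
    rw [map_sub, Finsupp.sub_apply, O.div_smul w hw] at h1
    have h2 := congrArg v.ord (hgw w hw)
    rw [v.ord_mul (O.T_ne_zero _ (hφ0 w)) ((map_ne_zero _).mpr hg), ← ord_smul' w hG, ← hG,
      ← h1] at h2
    rw [hD', smul_add, Finsupp.add_apply, Finsupp.add_apply]
    linarith
  obtain ⟨A, hA⟩ := O.div_fixed D' hD'fix
  have hAdeg : A ∈ Divisor.degZero (K := K) (F := F) := by
    have h := congrArg Divisor.degree hA
    rw [O.degree_div, Divisor.mem_degZero.mp hD'deg, mul_zero, degree_lnorm] at h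
    rw [Divisor.mem_degZero]
    exact (mul_eq_zero.mp h.symm).resolve_left (pow_ne_zero _ two_ne_zero)
  refine ⟨Pic0.mk ⟨A, hAdeg⟩, ?_⟩
  rw [lnorm_mk ws ⟨A, hAdeg⟩ (hA ▸ O.div_mem_degZero ⟨D', hD'deg⟩),
    O.act_mk D (O.div_mem_degZero D),
    show Pic0.mk ⟨O.div D, O.div_mem_degZero D⟩ = Pic0.mk ⟨D', hD'deg⟩ from
      mk_eq_mk_of_principal hg fun v => by
        show (D' - O.div (D : Divisor K F)) v = v.ord g
        rw [hD', add_sub_cancel_left]; exact hG v,
    O.act_mk ⟨D', hD'deg⟩ (O.div_mem_degZero ⟨D', hD'deg⟩)]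
  exact congrArg Pic0.mk (Subtype.ext hA.symm)

include S in
/-- **Invariant classes of order two are norms of classes of order two**, up to `act ^ 4`. -/
theorem exists_lnorm_eq_act_pow_four [IsAlgClosed K] [HasPrincipalDivisors K F] {x : Pic0 K F}
    (h2 : 2 • x = 0) (hx : ∀ w ∈ ws, w • x = x) :
    ∃ a, 2 • a = 0 ∧ lnorm ws a = O.act (O.act (O.act (O.act x))) := by
  obtain ⟨a, ha⟩ := exists_lnorm_eq_act_act S O hx
  have h2a : lnorm ws (2 • a) = 0 := by
    rw [← lnormHom_apply, map_nsmul, lnormHom_apply, ha, ← map_nsmul, ← map_nsmul, h2, map_zero,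
      map_zero]
  obtain ⟨z, hz, hza⟩ :=
    exists_two_nsmul_mem_augSpan S.two_div (act_act_mem_augSpan S O h2a)
  refine ⟨O.act (O.act a) - z, ?_, ?_⟩
  · rw [nsmul_sub, ← map_nsmul, ← map_nsmul, hza, sub_self]
  · rw [lnorm_sub, lnorm_eq_zero_of_mem_augSpan S.invol hz, sub_zero,
      ← map_lnorm O.act ws (fun w hw => O.act_smul hw) (O.act a),
      ← map_lnorm O.act ws (fun w hw => O.act_smul hw) a, ha]

end FLTA.LT2

end
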