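import Fermat.Agent.LT2.FunctorFixed
import Fermat.Agent.LT2.FunctorInvol
import Fermat.Agent.LT2.FixedClass
import Fermat.Agent.LevelLowering.HeckeNorm
import Fermat.Agent.Kummer.FrickeField
import Fermat.Agent.MordellWeil.Modular

/-!
# The Hecke correspondence and one Atkin-Lehner involution

The correspondence commutes with the involution, keeps even multiplicities at fixed places, and
makes every invariant divisor even at them when nothing is fixed upstairs: then it is a `NormOp`.
-/

set_option autoImplicit false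
set_option synthInstance.maxHeartbeats 400000
set_option linter.style.haveILetI false

noncomputable section

open AlgebraicCurve ModularCurve FLTA.LevelLowering
open scoped Pointwise

namespace FLTA.LT2

/-! ### Parity of push forwards -/

/-- The image of a function invariant under an involution is even at `b` when the fixed points over
`b` have even value and the fibre over `b` is stable. -/
theorem even_mapDomain_of_invol {α β : Type*} (σ : α → α) (hσ : ∀ a, σ (σ a) = a) (r : α → β)
    (D : α →₀ ℤ) (hD : ∀ a, D (σ a) = D a) (b : β) (hb : ∀ a, r a = b → r (σ a) = b)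
    (hfix : ∀ a, r a = b → σ a = a → Even (D a)) : Even (Finsupp.mapDomain r D b) := by
  classical
  have e : Finsupp.mapDomain r D b = ∑ a ∈ D.support with r a = b, D a := by
    rw [Finsupp.mapDomain, Finsupp.sum, Finsupp.finsetSum_apply, Finset.sum_filter]
    refine Finset.sum_congr rfl fun a _ => ?_
    rw [Finsupp.single_apply]
  rw [e, even_iff_two_dvd]
  refine (ZMod.intCast_zmod_eq_zero_iff_dvd _ 2).1 ?_
  rw [Int.cast_sum]
  refine Finset.sum_involution (fun a _ => σ a) (fun a _ => ?_) (fun a ha hne => ?_) (fun a ha => ?_)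
    (fun a _ => hσ a)
  · rw [hD]
    exact CharTwo.add_self_eq_zero _
  · intro heq
    rw [Finset.mem_filter] at ha
    refine hne ?_
    obtain ⟨k, hk⟩ := hfix a ha.2 heq
    rw [hk, Int.cast_add]
    exact CharTwo.add_self_eq_zero _
  · rw [Finset.mem_filter, Finsupp.mem_support_iff] at ha ⊢
    exact ⟨by rw [hD]; exact ha.1, hb a ha.2⟩

/-! ### Correspondences and automorphisms -/

section Generic

variable {K F F' : Type*} [Field K] [Field F] [Field F'] [Algebra K F] [Algebra K F']
variable (φ : F →ₐ[K] F') (hφ : φ.toRingHom.IsIntegral) {w : F ≃ₐ[K] F} {W : F' ≃ₐ[K] F'}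

include hφ in
theorem ramificationIndexAlong_pos' (Q : Place K F') : 0 < Q.ramificationIndexAlong φ := by
  letI := algebraAlong φ
  haveI := isScalarTower_along φ
  haveI := isIntegral_along φ hφ
  exact Q.ramificationIndex_pos (F := F)

theorem inertiaDegAlong_eq_one_of_deg (hdeg : ∀ Q : Place K F', Q.deg = 1) (Q : Place K F') :
    Q.inertiaDegAlong φ hφ = 1 := by
  letI := algebraAlong φ
  haveI := isScalarTower_along φ
  haveI := isIntegral_along φ hφ
  show Q.inertiaDeg F = 1
  exact Nat.eq_one_of_mul_eq_one_left (m := (Q.restrict F).deg)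
    (by rw [Q.deg_restrict_mul_inertiaDeg (F := F), hdeg])

theorem pushforwardAlong_eq_mapDomain (hdeg : ∀ Q : Place K F', Q.deg = 1)
    (D : Divisor K F') :
    Divisor.pushforwardAlong φ hφ D = Finsupp.mapDomain (Place.restrictAlong φ hφ) D := by
  induction D using Finsupp.induction with
  | zero => rw [map_zero, Finsupp.mapDomain_zero]
  | single_add Q n D _ _ ih =>
    rw [map_add, Finsupp.mapDomain_add, ih, Divisor.pushforwardAlong_single,
      inertiaDegAlong_eq_one_of_deg φ hφ hdeg, Nat.cast_one, mul_one, Finsupp.mapDomain_single]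

variable (hint : ∀ x, W (φ x) = φ (w x))

include hint in
theorem mul_ord_restrict_smul (Q : Place K F') (x : F) :
    ((W • Q).ramificationIndexAlong φ : ℤ) * ((W • Q).restrictAlong φ hφ).ord (w x) =
      Q.ramificationIndexAlong φ * (Q.restrictAlong φ hφ).ord x := by
  rw [← Place.ord_restrictAlong, ← Place.ord_restrictAlong, ← hint, Place.ord_smul]

include hint in
theorem restrictAlong_algEquiv_smul (Q : Place K F') :
    (W • Q).restrictAlong φ hφ = w • Q.restrictAlong φ hφ := by
  refine Bridge.place_eq_of_mul_ord_eq (d := (W • Q).ramificationIndexAlong φ)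
    (ramificationIndexAlong_pos' φ hφ Q) fun x => ?_
  obtain ⟨y, rfl⟩ := w.surjective x
  rw [mul_ord_restrict_smul φ hφ hint, Place.ord_smul]

include hφ hint in
theorem ramificationIndexAlong_algEquiv_smul (Q : Place K F') :
    (W • Q).ramificationIndexAlong φ = Q.ramificationIndexAlong φ := by
  obtain ⟨π, -, hπ⟩ := Curves.exists_ord_eq_one (Q.restrictAlong φ hφ)
  have h := mul_ord_restrict_smul φ hφ hint Q π
  rw [restrictAlong_algEquiv_smul φ hφ hint, Place.ord_smul, hπ, mul_one, mul_one] at h
  exact_mod_cast h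

variable [HasPrincipalDivisors K F']

include hint in
theorem pullbackAlong_apply_smul (D : Divisor K F) (Q : Place K F') :
    Divisor.pullbackAlong φ hφ (w • D) (W • Q) = Divisor.pullbackAlong φ hφ D Q := by
  rw [Divisor.pullbackAlong_apply, Divisor.pullbackAlong_apply,
    ramificationIndexAlong_algEquiv_smul φ hφ hint, restrictAlong_algEquiv_smul φ hφ hint,
    Divisor.smul_apply_smul]

include hint in
theorem pullbackAlong_algEquiv_smul (D : Divisor K F) :
    Divisor.pullbackAlong φ hφ (w • D) = W • Divisor.pullbackAlong φ hφ D := by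
  refine Finsupp.ext fun Q => ?_
  obtain ⟨R, rfl⟩ : ∃ R, W • R = Q := ⟨W⁻¹ • Q, smul_inv_smul W Q⟩
  rw [pullbackAlong_apply_smul φ hφ hint, Divisor.smul_apply_smul]

variable (ψ : F →ₐ[K] F') (hψ : ψ.toRingHom.IsIntegral) (hint' : ∀ x, W (ψ x) = ψ (w x))
variable (hdeg : ∀ Q : Place K F', Q.deg = 1)

include hint hint' hdeg in
theorem correspondence_algEquiv_smul (D : Divisor K F) :
    Divisor.correspondence φ ψ hφ hψ (w • D) = w • Divisor.correspondence φ ψ hφ hψ D := by
  rw [Divisor.correspondence_apply, Divisor.correspondence_apply,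
    pullbackAlong_algEquiv_smul φ hφ hint, pushforwardAlong_eq_mapDomain ψ hψ hdeg,
    pushforwardAlong_eq_mapDomain ψ hψ hdeg, Divisor.smul_def, Divisor.smul_def,
    ← Finsupp.mapDomain_comp, ← Finsupp.mapDomain_comp]
  exact congrArg (fun r => Finsupp.mapDomain r _)
    (funext fun Q => restrictAlong_algEquiv_smul ψ hψ hint' Q)

include hint hint' hdeg in
/-- Invariant divisors become even at a fixed place whose preimages are either moved or lie over
fixed places with even multiplicity. -/
theorem even_correspondence (hW : ∀ x, W (W x) = x) {D : Divisor K F} (hD : w • D = D)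
    {P : Place K F} (hP : w • P = P)
    (hfix : ∀ Q : Place K F', Q.restrictAlong ψ hψ = P → W • Q = Q → Even (D (Q.restrictAlong φ hφ))) :
    Even (Divisor.correspondence φ ψ hφ hψ D P) := by
  rw [Divisor.correspondence_apply, pushforwardAlong_eq_mapDomain ψ hψ hdeg]
  refine even_mapDomain_of_invol (W • ·) (fun Q => ?_) _ _ (fun Q => ?_) P (fun Q hQ => ?_)
    fun Q hQ hQW => ?_
  · rw [smul_smul, show W * W = 1 from AlgEquiv.ext hW, one_smul]
  · conv_lhs => rw [← hD]
    exact pullbackAlong_apply_smul φ hφ hint D Q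
  · rw [restrictAlong_algEquiv_smul ψ hψ hint', hQ, hP]
  · rw [Divisor.pullbackAlong_apply]
    exact (hfix Q hQ hQW).mul_left _

end Generic

/-! ### The modular instance -/

local notation "Qb" => AlgebraicClosure ℚ

variable {N : ℕ} [NeZero N] (hN : Squarefree N) {l : ℕ} [NeZero l]

omit [NeZero N] [NeZero l] in
include hN in
theorem squarefree_mul_prime (hl : l.Prime) (hlN : ¬ l ∣ N) : Squarefree (N * l) :=
  (Nat.squarefree_mul ((hl.coprime_iff_not_dvd.mpr hlN).symm)).mpr ⟨hN, hl.squarefree⟩

theorem deg_eq_one_bar (M : ℕ) [NeZero M] (Q : Place Qb (modularFunctionFieldBar M)) :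
    Q.deg = 1 :=
  IsCurveOver.deg_eq_one_of_isAlgClosed Q

/-- The Hecke correspondence commutes with the involutions. -/
theorem heckeDiv_alEquiv_smul (hNl : Squarefree (N * l)) (d : ℕ) (hd : d ∣ N)
    (D : Divisor Qb (modularFunctionFieldBar N)) :
    heckeDiv N l (alEquiv N hN d hd • D) = alEquiv N hN d hd • heckeDiv N l D :=
  haveI := hasPrincipalDivisors_mul N l
  correspondence_algEquiv_smul _ _ (W := alEquiv (N * l) hNl d (hd.mul_right l))
    (alEquiv_heckeBetaBar hN hNl d hd) _ _ (alEquiv_heckeAlphaBar hN hNl d hd)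
    (deg_eq_one_bar (N * l)) D

/-- The Hecke correspondence keeps invariant divisors with even multiplicities at fixed places. -/
theorem even_heckeDiv (hNl : Squarefree (N * l)) (d : ℕ) (hd : d ∣ N)
    {D : Divisor Qb (modularFunctionFieldBar N)} (hD : alEquiv N hN d hd • D = D)
    (heven : (∀ Q : Place Qb (modularFunctionFieldBar (N * l)),
        alEquiv (N * l) hNl d (hd.mul_right l) • Q ≠ Q) ∨
      ∀ P, alEquiv N hN d hd • P = P → Even (D P))
    {P : Place Qb (modularFunctionFieldBar N)} (hP : alEquiv N hN d hd • P = P) :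
    Even (heckeDiv N l D P) := by
  haveI := hasPrincipalDivisors_mul N l
  refine even_correspondence _ _ (W := alEquiv (N * l) hNl d (hd.mul_right l))
    (alEquiv_heckeBetaBar hN hNl d hd) _ _ (alEquiv_heckeAlphaBar hN hNl d hd)
    (deg_eq_one_bar (N * l)) (alEquiv_apply_apply hNl d _) hD hP fun Q _ hQ => ?_
  rcases heven with h | h
  · exact absurd hQ (h Q)
  · refine h _ ?_
    conv_rhs => rw [← hQ]
    exact (restrictAlong_algEquiv_smul _ _ (alEquiv_heckeBetaBar hN hNl d hd) Q).symm

variable (N) in
theorem finrankAlong_heckeBetaBar' (hl : l.Prime) (hlN : ¬ l ∣ N) :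
    finrankAlong Qb (heckeBetaBar Qb N l) = l + 1 :=
  (Kummer.finrankAlong_heckeBetaBar_eq N l).trans
    (Congruence.finrankAlong_heckeAlphaBar N l hl hlN)

theorem heckeNormHom_algebraMap (hl : l.Prime) (hlN : ¬ l ∣ N) (c : Qb) :
    heckeNormHom N l (algebraMap Qb (modularFunctionFieldBar N) c) =
      algebraMap Qb (modularFunctionFieldBar N) (c ^ (l + 1)) := by
  rw [heckeNormHom_apply, (heckeBetaBar Qb N l).commutes, ← (heckeAlphaBar Qb N l).commutes c,
    map_pow]
  letI := algebraAlong (heckeAlphaBar Qb N l)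
  rw [← Congruence.finrankAlong_heckeAlphaBar N l hl hlN]
  exact Algebra.norm_algebraMap _

/-- The Hecke operator at `l` is a norm operator for the involution at `d` when a prime of the
level upstairs sees `-d` as a nonresidue. -/
def heckeNormOp (hl : l.Prime) (hl2 : l ≠ 2) (hlN : ¬ l ∣ N) (d : ℕ) (hd : d ∣ N) (hd1 : 1 < d)
    (hodd : Odd d) (hres : ∃ (q : ℕ) (_ : Fact q.Prime), q ∣ N * l ∧ q ≠ 2 ∧
      legendreSym q (-(d : ℤ)) = -1) :
    NormOp [alEquiv N hN d hd] where
  T := heckeNormHom N l
  div := heckeDiv N l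
  act := heckeOperatorAlong Qb N l
  deg := l + 1
  even_deg := (hl.odd_of_ne_two hl2).add_one
  T_ne_zero _ hf := heckeNormHom_ne_zero N l hf
  T_algebraMap := heckeNormHom_algebraMap hl hlN
  degree_div D := by rw [degree_heckeDiv, finrankAlong_heckeBetaBar' N hl hlN]
  div_ord f hf D hD v := heckeDiv_ord N l hf D hD v
  T_smul := by
    intro w hw f
    rw [List.mem_singleton] at hw
    subst hw
    have hNl := squarefree_mul_prime hN hl hlN
    exact (map_norm_along (heckeAlphaBar Qb N l) (heckeBetaBar Qb N l)
      (alEquiv N hN d hd).toAlgHom (alEquiv (N * l) hNl d (hd.mul_right l)).toAlgHom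
      (alEquiv_apply_apply hN d hd) (alEquiv_apply_apply hNl d _)
      (alEquiv_heckeAlphaBar hN hNl d hd) (alEquiv_heckeBetaBar hN hNl d hd) f).symm
  div_smul := by
    intro w hw D
    rw [List.mem_singleton] at hw
    subst hw
    exact heckeDiv_alEquiv_smul hN (squarefree_mul_prime hN hl hlN) d hd D
  act_mk D h := by
    obtain ⟨h', he⟩ := heckeOperatorAlong_mk N l D
    exact he
  div_fixed E hE := by
    obtain ⟨q, hq, hqdvd, hq2, hleg⟩ := hres
    have hNl := squarefree_mul_prime hN hl hlN
    have hE' := hE _ List.mem_cons_self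
    obtain ⟨A, hA⟩ := exists_add_smul_eq (alEquiv_mul_self hN d hd)
      (E := heckeDiv N l E) (by rw [← heckeDiv_alEquiv_smul hN hNl, hE'])
      fun P hP => even_heckeDiv hN hNl d hd hE'
        (Or.inl fun Q => smul_ne_of_legendreSym hNl (hd.mul_right l) hd1 hodd hqdvd hq2 hleg Q) hP
    exact ⟨A, hA.symm⟩

/-- The modular function field with one involution. -/
theorem involField_alEquiv (d : ℕ) (hd : d ∣ N) (hd1 : 1 < d) :
    InvolField [alEquiv N hN d hd] := by
  have hds : ∀ a ∈ [d], a ∣ N := by simpa using hd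
  have hws : InvolList [alEquiv N hN d hd] := involList_alList hN [d] hds
  have hind : Indep [alEquiv N hN d hd] := indep_alList hN [d] hds (by simp) (by simpa using hd1)
  have h2 : (2 : modularFunctionFieldBar N) ≠ 0 := two_ne_zero
  exact ⟨hws, normSurj_of_indep h2 hws hind, separated_of_indep h2 hws hind,
    fun f hf h => exists_const_of_ord_eq_zero hf h, exists_point_deg_one,
    MordellWeil.jZero_divisible N two_ne_zero⟩

end FLTA.LT2

end
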