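import Fermat.Agent.Curves.RRGenus
import Fermat.Agent.Curves.RRInstances
import Mathlib.RingTheory.KrullDimension.Field
import Mathlib.RingTheory.KrullDimension.Polynomial
import Mathlib.RingTheory.Jacobson.Ring
import Mathlib.RingTheory.Nullstellensatz
import Mathlib.RingTheory.Ideal.KrullsHeightTheorem

/-!
# Norms from a quadratic extension of a function field (Tsen)

Over an algebraically closed field, a bilinear map from a space of dimension larger than that of
its target has an isotropic vector. Consequently every function fixed by an involution `σ` of a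
function field is of the form `x * σ x`.
-/

set_option autoImplicit false

noncomputable section

open AlgebraicCurve

namespace FLTA.LT2

section zeros

variable {K : Type*} [Field K]

theorem height_eq_of_isMaximal (n : ℕ) :
    ∀ (P : Ideal (MvPolynomial (Fin n) K)), P.IsMaximal → P.height = n := by
  induction n with
  | zero =>
    intro P hP
    have h0 : ringKrullDim (MvPolynomial (Fin 0) K) = 0 := by
      rw [MvPolynomial.ringKrullDim_of_isNoetherianRing, ringKrullDim_eq_zero_of_field]
      simp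
    have h := P.height_le_ringKrullDim_of_ne_top hP.ne_top
    rw [h0] at h
    exact le_antisymm (by exact_mod_cast h) bot_le
  | succ n ih =>
    intro P hP
    let e := (MvPolynomial.finSuccEquiv K n).toRingEquiv
    have : (P.map e).IsMaximal := Ideal.map_isMaximal_of_equiv e
    have hQ : ((P.map e).comap Polynomial.C).IsMaximal :=
      Polynomial.isMaximal_comap_C_of_isJacobsonRing _
    have : (P.map e).LiesOver ((P.map e).comap Polynomial.C) := ⟨rfl⟩
    have h := Polynomial.height_eq_height_add_one ((P.map e).comap Polynomial.C) (P.map e)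
    rw [ih _ hQ, e.height_map] at h
    rw [h]
    push_cast
    rfl

open MvPolynomial in
/-- Fewer polynomials without constant term than variables have a nonzero common zero. -/
theorem exists_ne_zero_forall_eval_eq_zero [IsAlgClosed K] {n m : ℕ} (hnm : n < m)
    (f : Fin n → MvPolynomial (Fin m) K) (h0 : ∀ i, eval 0 (f i) = 0) :
    ∃ x : Fin m → K, x ≠ 0 ∧ ∀ i, eval x (f i) = 0 := by
  classical
  by_contra! hno
  set I : Ideal (MvPolynomial (Fin m) K) := Ideal.span (Set.range f) with hI
  set m0 : Ideal (MvPolynomial (Fin m) K) := vanishingIdeal K {(0 : Fin m → K)} with hm0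
  have hle : I ≤ m0 := by
    rw [hI, Ideal.span_le]
    rintro _ ⟨i, rfl⟩
    rw [SetLike.mem_coe, mem_vanishingIdeal_singleton_iff, aeval_eq_eval]
    exact h0 i
  have hmin : m0 ∈ I.minimalPrimes := by
    refine ⟨⟨inferInstance, hle⟩, fun q hq _ => ?_⟩
    have hz : zeroLocus K I ⊆ {(0 : Fin m → K)} := by
      intro x hx
      rw [hI, zeroLocus_span] at hx
      by_contra hne
      obtain ⟨i, hi⟩ := hno x hne
      exact hi (by simpa [aeval_eq_eval] using hx (f i) ⟨i, rfl⟩)
    calc m0 ≤ vanishingIdeal K (zeroLocus K I) := vanishingIdeal_anti_mono hz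
      _ = I.radical := vanishingIdeal_zeroLocus_eq_radical I
      _ ≤ q := hq.1.radical_le_iff.mpr hq.2
  have h1 : m0.height ≤ ((Finset.univ.image f).card : ℕ∞) :=
    Ideal.height_le_card_of_mem_minimalPrimes_span_finset (by rwa [Finset.coe_image, Finset.coe_univ, Set.image_univ])
  rw [height_eq_of_isMaximal m m0 inferInstance] at h1
  have h2 : (Finset.univ.image f).card ≤ n := Finset.card_image_le.trans (by simp)
  have h3 : m ≤ (Finset.univ.image f).card := by exact_mod_cast h1
  omega

open MvPolynomial in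
/-- A bilinear map into a space of smaller dimension has an isotropic vector. -/
theorem exists_ne_zero_apply_self_eq_zero [IsAlgClosed K] {U V : Type*} [AddCommGroup U]
    [Module K U] [FiniteDimensional K U] [AddCommGroup V] [Module K V] (S : Submodule K V)
    [FiniteDimensional K S] (B : U →ₗ[K] U →ₗ[K] V) (hB : ∀ u v, B u v ∈ S)
    (h : Module.finrank K S < Module.finrank K U) : ∃ u, u ≠ 0 ∧ B u u = 0 := by
  classical
  let bU := Module.finBasis K U
  let bS := Module.finBasis K S
  let f : Fin (Module.finrank K S) → MvPolynomial (Fin (Module.finrank K U)) K := fun k =>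
    ∑ i, ∑ j, C (bS.repr ⟨B (bU i) (bU j), hB _ _⟩ k) * X i * X j
  obtain ⟨x, hx, hzero⟩ := exists_ne_zero_forall_eval_eq_zero h f fun k => by simp [f]
  refine ⟨∑ i, x i • bU i, fun h0 => hx (funext fun i => ?_), ?_⟩
  · have := congrArg (fun u => bU.repr u i) h0
    simpa [Finsupp.single_apply] using this
  · have hs : (∑ i, ∑ j, (x i * x j) • (⟨B (bU i) (bU j), hB _ _⟩ : S)) = 0 := by
      refine bS.ext_elem fun k => ?_
      have hk := hzero k
      simp only [f, map_sum, map_mul, eval_C, eval_X] at hk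
      simp only [map_sum, map_smul, Finsupp.coe_finsetSum, Finset.sum_apply, Finsupp.smul_apply,
        smul_eq_mul, map_zero, Finsupp.zero_apply]
      rw [← hk]
      exact Finset.sum_congr rfl fun i _ => Finset.sum_congr rfl fun j _ => by ring
    have h2 := congrArg (S.subtype) hs
    simp only [map_sum, map_smul, Submodule.subtype_apply, map_zero] at h2
    simp only [map_sum, LinearMap.sum_apply, map_smul, LinearMap.smul_apply, smul_smul,
      Finset.smul_sum]
    rw [Finset.sum_comm]
    refine Eq.trans ?_ h2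
    exact Finset.sum_congr rfl fun i _ => Finset.sum_congr rfl fun j _ => by rw [mul_comm]

end zeros

section norms

variable {K F : Type*} [Field K] [Field F] [Algebra K F]

open scoped Pointwise

/-- The functions fixed by a list of automorphisms. -/
def fixedSpace (ws : List (F ≃ₐ[K] F)) : Submodule K F where
  carrier := {f | ∀ v ∈ ws, v f = f}
  add_mem' hf hg v hv := by rw [map_add, hf v hv, hg v hv]
  zero_mem' v _ := map_zero v
  smul_mem' c f hf v hv := by rw [map_smul, hf v hv]

theorem mem_fixedSpace {ws : List (F ≃ₐ[K] F)} {f : F} :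
    f ∈ fixedSpace ws ↔ ∀ v ∈ ws, v f = f := Iff.rfl

theorem mem_fixedSpace_cons {ws : List (F ≃ₐ[K] F)} {w : F ≃ₐ[K] F} {f : F} :
    f ∈ fixedSpace (w :: ws) ↔ w f = f ∧ f ∈ fixedSpace ws := by
  simp [mem_fixedSpace]

theorem mul_mem_fixedSpace {ws : List (F ≃ₐ[K] F)} {f g : F} (hf : f ∈ fixedSpace ws)
    (hg : g ∈ fixedSpace ws) : f * g ∈ fixedSpace ws := fun v hv => by
  rw [map_mul, hf v hv, hg v hv]

theorem map_mem_fixedSpace {ws : List (F ≃ₐ[K] F)} {w : F ≃ₐ[K] F}
    (hc : ∀ v ∈ ws, Commute v w) {f : F} (hf : f ∈ fixedSpace ws) :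
    w f ∈ fixedSpace ws := fun v hv => by
  rw [← AlgEquiv.mul_apply, (hc v hv).eq, AlgEquiv.mul_apply, hf v hv]

theorem smul_divisor_apply (σ : F ≃ₐ[K] F) {D : Divisor K F} (hD : σ • D = D) (v : Place K F) :
    D (σ • v) = D v := by
  conv_lhs => rw [← hD]
  exact Divisor.smul_apply_smul σ D v

theorem map_mem_riemannRochSpace (σ : F ≃ₐ[K] F) {D : Divisor K F} (hD : σ • D = D) {f : F}
    (hf : f ∈ riemannRochSpace D) : σ f ∈ riemannRochSpace D := by
  rw [mem_riemannRochSpace_iff] at hf ⊢
  intro w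
  have h := Place.ord_smul σ (σ⁻¹ • w) f
  rw [smul_inv_smul] at h
  rcases hf (σ⁻¹ • w) with h0 | h0
  · exact Or.inl (by rw [h0, map_zero])
  · refine Or.inr ?_
    rw [h]
    have := smul_divisor_apply σ hD (σ⁻¹ • w)
    rw [smul_inv_smul] at this
    rwa [this]

/-- Every nonnegative divisor is bounded by an invariant one. -/
theorem exists_invariant_ge (all : List (F ≃ₐ[K] F)) (hinv : ∀ v ∈ all, v * v = 1)
    (hcomm : ∀ v ∈ all, ∀ v' ∈ all, Commute v v') (D : Divisor K F) (hD : 0 ≤ D) :
    ∃ D' : Divisor K F, D ≤ D' ∧ ∀ v ∈ all, v • D' = D' := by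
  induction all with
  | nil => exact ⟨D, le_rfl, by simp⟩
  | cons w l ih =>
    obtain ⟨D', hle, hfix⟩ := ih (fun v hv => hinv v (List.mem_cons_of_mem _ hv))
      (fun v hv v' hv' => hcomm v (List.mem_cons_of_mem _ hv) v' (List.mem_cons_of_mem _ hv'))
    refine ⟨D' + w • D', fun u => ?_, fun v hv => ?_⟩
    · rw [Finsupp.add_apply, Divisor.smul_apply]
      have h1 := hle u
      have h2 := (hD.trans hle) (w⁻¹ • u)
      rw [Finsupp.zero_apply] at h2
      omega
    · rcases List.mem_cons.mp hv with rfl | hv'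
      · rw [smul_add, ← mul_smul, hinv _ List.mem_cons_self, one_smul, add_comm]
      · rw [smul_add, hfix v hv', ← mul_smul,
          (hcomm v (List.mem_cons_of_mem _ hv') w List.mem_cons_self).eq, mul_smul, hfix v hv']

variable [IsAlgClosed K] [IsCurveOver K F] [FLTA.Curves.IsFunctionField K F]

open FLTA.Curves

theorem exists_bound (all : List (F ≃ₐ[K] F)) (hinv : ∀ v ∈ all, v * v = 1)
    (hcomm : ∀ v ∈ all, ∀ v' ∈ all, Commute v v') (a : F) :
    ∃ A : Divisor K F, 0 ≤ A ∧ a ∈ riemannRochSpace A ∧ ∀ v ∈ all, v • A = A := by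
  have h0 : 0 ≤ (divFn (K := K) a).mapRange abs abs_zero := fun w => by
    rw [Finsupp.mapRange_apply]
    exact abs_nonneg _
  obtain ⟨A, hle, hA⟩ := exists_invariant_ge all hinv hcomm _ h0
  refine ⟨A, h0.trans hle, ?_, hA⟩
  rw [mem_riemannRochSpace_iff]
  intro w
  refine Or.inr ?_
  have h := hle w
  rw [Finsupp.mapRange_apply, divFn_apply] at h
  have h2 := neg_abs_le (w.ord a)
  omega

instance finiteDimensional_inf (D : Divisor K F) (s : Submodule K F) :
    FiniteDimensional K ↥(riemannRochSpace D ⊓ s) :=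
  Submodule.finiteDimensional_of_le inf_le_left

theorem finrank_split_bounds {ws : List (F ≃ₐ[K] F)} {w : F ≃ₐ[K] F}
    (hc : ∀ v ∈ ws, Commute v w) (hw : ∀ x, w (w x) = x) (h2 : (2 : F) ≠ 0)
    {a : F} (ha : w a = -a) (haR : a ∈ fixedSpace ws) (ha0 : a ≠ 0) {A D : Divisor K F}
    (hA0 : 0 ≤ A) (haA : a ∈ riemannRochSpace A) (hD : w • D = D) :
    Module.finrank K ↥(riemannRochSpace D ⊓ fixedSpace ws) ≤
        2 * Module.finrank K ↥(riemannRochSpace (D + A) ⊓ fixedSpace (w :: ws)) ∧
      2 * Module.finrank K ↥(riemannRochSpace D ⊓ fixedSpace (w :: ws)) ≤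
        Module.finrank K ↥(riemannRochSpace (D + A) ⊓ fixedSpace ws) := by
  let N : Submodule K F :=
    fixedSpace ws ⊓ LinearMap.eqLocus (w.toLinearMap : F →ₗ[K] F) (-LinearMap.id)
  have hN : ∀ {f : F}, f ∈ N ↔ f ∈ fixedSpace ws ∧ w f = -f := fun {f} => Iff.rfl
  set P := riemannRochSpace D ⊓ fixedSpace (w :: ws) with hP
  set M := riemannRochSpace D ⊓ N with hM
  set P' := riemannRochSpace (D + A) ⊓ fixedSpace (w :: ws) with hP'
  set M' := riemannRochSpace (D + A) ⊓ N with hM'
  have hle : riemannRochSpace D ≤ riemannRochSpace (D + A) :=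
    riemannRochSpace_mono (le_add_of_nonneg_right hA0)
  have hdisj : P' ⊓ M' = ⊥ := by
    rw [eq_bot_iff]
    rintro f ⟨⟨-, h1⟩, -, h3⟩
    have h4 : f + f = 0 := by
      nth_rewrite 1 [← (mem_fixedSpace_cons.mp h1).1]
      rw [(hN.mp h3).2, neg_add_cancel]
    rw [← two_mul] at h4
    exact (mul_eq_zero.mp h4).resolve_left h2
  have hsup : riemannRochSpace D ⊓ fixedSpace ws ≤ P ⊔ M := by
    rintro f ⟨hf, hfR⟩
    have hwf := map_mem_riemannRochSpace w hD hf
    have hwR := map_mem_fixedSpace hc hfR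
    have e : f = algebraMap K F (1/2) * (f + w f) + algebraMap K F (1/2) * (f - w f) := by
      have hK : (2 : K) ≠ 0 := fun h => h2 (by
        rw [← map_ofNat (algebraMap K F) 2, h, map_zero])
      rw [← mul_add, show f + w f + (f - w f) = 2 * f by ring, ← mul_assoc,
        ← map_ofNat (algebraMap K F) 2, ← map_mul, one_div, inv_mul_cancel₀ hK, map_one, one_mul]
    rw [e]
    refine add_mem (Submodule.mem_sup_left ⟨?_, ?_⟩) (Submodule.mem_sup_right ⟨?_, ?_⟩)
    · rw [← Algebra.smul_def]; exact Submodule.smul_mem _ _ (add_mem hf hwf)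
    · refine mem_fixedSpace_cons.mpr ⟨?_, ?_⟩
      · rw [map_mul, w.commutes, map_add, hw, add_comm (w f)]
      · rw [← Algebra.smul_def]; exact Submodule.smul_mem _ _ (add_mem hfR hwR)
    · rw [← Algebra.smul_def]; exact Submodule.smul_mem _ _ (sub_mem hf hwf)
    · refine hN.mpr ⟨?_, ?_⟩
      · rw [← Algebra.smul_def]; exact Submodule.smul_mem _ _ (sub_mem hfR hwR)
      · rw [map_mul, w.commutes, map_sub, hw]; ring
  have hmul : ∀ {s t : Submodule K F}, (∀ f ∈ s, a * f ∈ t) → FiniteDimensional K t →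
      Module.finrank K s ≤ Module.finrank K t := by
    intro s t hst _
    let g : s →ₗ[K] t := ((LinearMap.mulLeft K a).domRestrict s).codRestrict t fun f => hst _ f.2
    refine LinearMap.finrank_le_finrank_of_injective (f := g) fun x y hxy => Subtype.ext ?_
    exact mul_left_cancel₀ ha0 (congrArg Subtype.val hxy)
  have h1 : Module.finrank K M ≤ Module.finrank K P' := by
    refine hmul (fun f hf => ⟨?_, mem_fixedSpace_cons.mpr ⟨?_, ?_⟩⟩) inferInstance
    · rw [add_comm]; exact mul_mem_riemannRochSpace haA hf.1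
    · rw [map_mul, ha, (hN.mp hf.2).2, neg_mul_neg]
    · exact mul_mem_fixedSpace haR (hN.mp hf.2).1
  have h3 : Module.finrank K P ≤ Module.finrank K M' := by
    refine hmul (fun f hf => ⟨?_, hN.mpr ⟨?_, ?_⟩⟩) inferInstance
    · rw [add_comm]; exact mul_mem_riemannRochSpace haA hf.1
    · exact mul_mem_fixedSpace haR (mem_fixedSpace_cons.mp hf.2).2
    · rw [map_mul, ha, (mem_fixedSpace_cons.mp hf.2).1, neg_mul]
  have hPP : Module.finrank K P ≤ Module.finrank K P' :=
    Submodule.finrank_mono (inf_le_inf_right _ hle)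
  constructor
  · have := Submodule.finrank_mono hsup
    have := Submodule.finrank_add_le_finrank_add_finrank P M
    omega
  · have h5 := Submodule.finrank_sup_add_finrank_inf_eq P' M'
    rw [hdisj, finrank_bot, add_zero] at h5
    have h6 : Module.finrank K ↥(P' ⊔ M') ≤
        Module.finrank K ↥(riemannRochSpace (D + A) ⊓ fixedSpace ws) :=
      Submodule.finrank_mono (sup_le
        (fun f hf => ⟨hf.1, (mem_fixedSpace_cons.mp hf.2).2⟩) (fun f hf => ⟨hf.1, (hN.mp hf.2).1⟩))
    omega

/-- On invariant divisors of nonnegative degree, `m` times the dimension of the fixed part of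
`L(D)` is the degree up to a bounded error. -/
def Balanced (all ws : List (F ≃ₐ[K] F)) (m : ℕ) : Prop :=
  ∃ c : ℤ, 0 ≤ c ∧ ∀ D : Divisor K F, (∀ v ∈ all, v • D = D) → 0 ≤ Divisor.degree D →
    (m : ℤ) * Module.finrank K ↥(riemannRochSpace D ⊓ fixedSpace ws) ≤ Divisor.degree D + c ∧
      Divisor.degree D - c ≤ (m : ℤ) * Module.finrank K ↥(riemannRochSpace D ⊓ fixedSpace ws)

theorem balanced_nil (all : List (F ≃ₐ[K] F)) : Balanced all [] 1 := by
  refine ⟨(genusFF K F : ℤ) + 1, by positivity, fun D _ h0 => ?_⟩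
  have htop : riemannRochSpace D ⊓ fixedSpace ([] : List (F ≃ₐ[K] F)) = riemannRochSpace D :=
    inf_eq_left.mpr fun f _ => mem_fixedSpace.mpr (by simp)
  rw [htop]
  have h1 := riemann_inequality D
  have h2 := ell_le_degree_add_one h0
  unfold ell at h1 h2
  constructor <;> omega

theorem Balanced.cons {all ws : List (F ≃ₐ[K] F)} {w : F ≃ₐ[K] F} {m : ℕ}
    (hb : Balanced all ws m) (hinv : ∀ v ∈ all, v * v = 1)
    (hcomm : ∀ v ∈ all, ∀ v' ∈ all, Commute v v') (hw : w ∈ all) (hws : ∀ v ∈ ws, v ∈ all)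
    (h2 : (2 : F) ≠ 0) (hne : ∃ u ∈ fixedSpace ws, w u ≠ u) :
    Balanced all (w :: ws) (2 * m) := by
  obtain ⟨c, hc0, hc⟩ := hb
  have hc' : ∀ v ∈ ws, Commute v w := fun v hv => hcomm v (hws v hv) w hw
  have hww : ∀ x, w (w x) = x := fun x => by rw [← AlgEquiv.mul_apply, hinv w hw, AlgEquiv.one_apply]
  obtain ⟨u, hu, hu'⟩ := hne
  have ha : w (u - w u) = -(u - w u) := by rw [map_sub, hww]; ring
  obtain ⟨A, hA0, haA, hA⟩ := exists_bound all hinv hcomm (u - w u)
  have haR : u - w u ∈ fixedSpace ws := sub_mem hu (map_mem_fixedSpace hc' hu)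
  refine ⟨c + Divisor.degree A, add_nonneg hc0 (degree_nonneg hA0), fun D hD hdeg => ?_⟩
  have hne0 : u - w u ≠ 0 := sub_ne_zero.mpr (Ne.symm hu')
  have hdA := degree_nonneg hA0
  constructor
  · have h1 := (finrank_split_bounds hc' hww h2 ha haR hne0 hA0 haA (hD w hw)).2
    have h3 := (hc (D + A) (fun v hv => by rw [smul_add, hD v hv, hA v hv])
      (by rw [map_add]; omega)).1
    rw [map_add] at h3
    push_cast
    nlinarith [mul_le_mul_of_nonneg_left (Int.ofNat_le.mpr h1) (Int.natCast_nonneg m)]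
  · rcases lt_or_ge (Divisor.degree D) (Divisor.degree A) with hlt | hge
    · have : (0 : ℤ) ≤ ((2 * m : ℕ) : ℤ) *
          Module.finrank K ↥(riemannRochSpace D ⊓ fixedSpace (w :: ws)) := by positivity
      omega
    · have hDA : ∀ v ∈ all, v • (D - A) = D - A := fun v hv => by rw [smul_sub, hD v hv, hA v hv]
      have h1 := (finrank_split_bounds hc' hww h2 ha haR hne0 hA0 haA (hDA w hw)).1
      rw [sub_add_cancel] at h1
      have h3 := (hc (D - A) hDA (by rw [map_sub]; omega)).2
      rw [map_sub] at h3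
      push_cast
      nlinarith [mul_le_mul_of_nonneg_left (Int.ofNat_le.mpr h1) (Int.natCast_nonneg m)]

omit [IsAlgClosed K] [IsCurveOver K F] [FLTA.Curves.IsFunctionField K F] in
/-- An involution outside the group generated by commuting involutions `ws` moves some function
fixed by `ws`. -/
theorem exists_fixed_ne (h2 : (2 : F) ≠ 0) (ws : List (F ≃ₐ[K] F)) :
    ∀ w : F ≃ₐ[K] F, (∀ v ∈ w :: ws, v * v = 1) →
      (∀ v ∈ w :: ws, ∀ v' ∈ w :: ws, Commute v v') →
      w ∉ Subgroup.closure {v | v ∈ ws} → ∃ u ∈ fixedSpace ws, w u ≠ u := by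
  induction ws with
  | nil =>
    intro w _ _ hw
    by_contra! hall
    refine hw ?_
    rw [show w = 1 from AlgEquiv.ext fun x => hall x (mem_fixedSpace.mpr (by simp))]
    exact one_mem _
  | cons v l ih =>
    intro w hinv hcomm hw
    by_contra! hall
    have hv : v ∈ Subgroup.closure {y | y ∈ v :: l} := Subgroup.subset_closure List.mem_cons_self
    have hsub : Subgroup.closure {y | y ∈ l} ≤ Subgroup.closure {y | y ∈ v :: l} :=
      Subgroup.closure_mono fun y hy => List.mem_cons_of_mem _ hy
    have hinvl : ∀ y ∈ w :: l, y * y = 1 := fun y hy => by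
      rcases List.mem_cons.mp hy with rfl | hy
      · exact hinv _ List.mem_cons_self
      · exact hinv _ (List.mem_cons_of_mem _ (List.mem_cons_of_mem _ hy))
    have hmem : ∀ y ∈ w :: l, y ∈ w :: v :: l := fun y hy => by
      rcases List.mem_cons.mp hy with rfl | hy
      · exact List.mem_cons_self
      · exact List.mem_cons_of_mem _ (List.mem_cons_of_mem _ hy)
    obtain ⟨x, hx, hwx⟩ := ih w hinvl
      (fun y hy y' hy' => hcomm y (hmem y hy) y' (hmem y' hy')) fun h => hw (hsub h)
    have hvw : Commute v w := hcomm v (by simp) w (by simp)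
    have hcv : ∀ y ∈ l, Commute y v := fun y hy => hcomm y (by simp [hy]) v (by simp)
    have hcw : ∀ y ∈ l, Commute y w := fun y hy => hcomm y (by simp [hy]) w (by simp)
    have hvv : ∀ t, v (v t) = t := fun t => by
      rw [← AlgEquiv.mul_apply, hinv v (by simp), AlgEquiv.one_apply]
    have hfix : ∀ t ∈ fixedSpace l, w (t + v t) = t + v t := fun t ht =>
      hall _ (mem_fixedSpace_cons.mpr ⟨by rw [map_add, hvv, add_comm],
        add_mem ht (map_mem_fixedSpace hcv ht)⟩)
    -- `w * v` lies outside the smaller group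
    have hwv : w * v ∉ Subgroup.closure {y | y ∈ l} := fun h => hw (by
      have := mul_mem (hsub h) (inv_mem hv)
      rwa [mul_inv_cancel_right] at this)
    have hinvwv : ∀ y ∈ (w * v) :: l, y * y = 1 := fun y hy => by
      rcases List.mem_cons.mp hy with rfl | hy
      · rw [mul_assoc, ← mul_assoc v w v, hvw.eq, mul_assoc, hinv v (by simp), mul_one,
          hinv w (by simp)]
      · exact hinvl _ (List.mem_cons_of_mem _ hy)
    have hcommwv : ∀ y ∈ (w * v) :: l, ∀ y' ∈ (w * v) :: l, Commute y y' := by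
      intro y hy y' hy'
      rcases List.mem_cons.mp hy with rfl | hy <;> rcases List.mem_cons.mp hy' with rfl | hy'
      · exact Commute.refl _
      · exact ((hcw y' hy').mul_right (hcv y' hy')).symm
      · exact (hcw y hy).mul_right (hcv y hy)
      · exact hcomm y (by simp [hy]) y' (by simp [hy'])
    obtain ⟨t, ht, hwt⟩ := ih (w * v) hinvwv hcommwv hwv
    rw [AlgEquiv.mul_apply] at hwt
    -- both `d := t - v t` and `e := x - v x` are negated by `v`, so their product is fixed
    have e1 := hfix t ht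
    have e2 := hfix x hx
    rw [map_add] at e1 e2
    have hp : w ((t - v t) * (x - v x)) = (t - v t) * (x - v x) :=
      hall _ (mem_fixedSpace_cons.mpr
        ⟨by rw [map_mul, map_sub, map_sub, hvv, hvv]; ring,
          mul_mem_fixedSpace (sub_mem ht (map_mem_fixedSpace hcv ht))
            (sub_mem hx (map_mem_fixedSpace hcv hx))⟩)
    have hq : w ((x - v x) * (x - v x)) = (x - v x) * (x - v x) :=
      hall _ (mem_fixedSpace_cons.mpr
        ⟨by rw [map_mul, map_sub, hvv]; ring,
          mul_mem_fixedSpace (sub_mem hx (map_mem_fixedSpace hcv hx))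
            (sub_mem hx (map_mem_fixedSpace hcv hx))⟩)
    rw [map_mul, map_sub, map_sub] at hp
    rw [map_mul, map_sub] at hq
    have hd : w t - w (v t) ≠ t - v t ∨ t - v t = 0 → False := by
      rintro (h | h)
      · -- `w` negates `x - v x`, hence also `t - v t`
        rcases mul_self_eq_mul_self_iff.mp hq with h1 | h1
        · exact hwx (mul_left_cancel₀ h2 (by linear_combination e2 + h1))
        · rw [h1] at hp
          rcases mul_eq_zero.mp (show (w t - w (v t) + (t - v t)) * (x - v x) = 0 by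
            linear_combination -hp) with h3 | h3
          · exact hwt (mul_left_cancel₀ h2 (by linear_combination e1 - h3))
          · exact hwx (mul_left_cancel₀ h2 (by linear_combination e2 + h1 - 2 * h3))
      · refine hwt (mul_left_cancel₀ h2 ?_)
        have : w t - w (v t) = 0 := by rw [← map_sub, h, map_zero]
        linear_combination e1 - this - h
    refine hd ?_
    by_contra! hcon
    -- `w` fixes `t - v t` and negates `x - v x`
    rcases mul_self_eq_mul_self_iff.mp hq with h1 | h1
    · exact hwx (mul_left_cancel₀ h2 (by linear_combination e2 + h1))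
    · rw [hcon.1, h1] at hp
      rcases mul_eq_zero.mp (show (2 * (t - v t)) * (x - v x) = 0 by linear_combination -hp)
        with h3 | h3
      · exact hcon.2 ((mul_eq_zero.mp h3).resolve_left h2)
      · exact hwx (mul_left_cancel₀ h2 (by linear_combination e2 + h1 - 2 * h3))

theorem exists_balanced {all : List (F ≃ₐ[K] F)} (h2 : (2 : F) ≠ 0)
    (hinv : ∀ v ∈ all, v * v = 1) (hcomm : ∀ v ∈ all, ∀ v' ∈ all, Commute v v') :
    ∀ ws : List (F ≃ₐ[K] F), (∀ v ∈ ws, v ∈ all) → ∃ m, 0 < m ∧ Balanced all ws m := by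
  intro ws
  induction ws with
  | nil => exact fun _ => ⟨1, one_pos, balanced_nil all⟩
  | cons w l ih =>
    intro hws
    obtain ⟨m, hm, hb⟩ := ih fun v hv => hws v (List.mem_cons_of_mem _ hv)
    by_cases hne : ∃ u ∈ fixedSpace l, w u ≠ u
    · exact ⟨2 * m, by omega, hb.cons hinv hcomm (hws w List.mem_cons_self)
        (fun v hv => hws v (List.mem_cons_of_mem _ hv)) h2 hne⟩
    · push Not at hne
      have heq : fixedSpace (w :: l) = fixedSpace l := Submodule.ext fun f =>
        ⟨fun h => (mem_fixedSpace_cons.mp h).2, fun h => mem_fixedSpace_cons.mpr ⟨hne f h, h⟩⟩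
      obtain ⟨c, hc0, hc⟩ := hb
      exact ⟨m, hm, c, hc0, by rw [heq]; exact hc⟩

/-- **Norms are surjective**: if `w` moves some function fixed by the commuting involutions `ws`,
every function fixed by `w` and `ws` is `g * w g` for some `g` fixed by `ws`. -/
theorem exists_mul_map_eq (w : F ≃ₐ[K] F) (ws : List (F ≃ₐ[K] F))
    (hinv : ∀ v ∈ w :: ws, v * v = 1) (hcomm : ∀ v ∈ w :: ws, ∀ v' ∈ w :: ws, Commute v v')
    (hne : ∃ u ∈ fixedSpace ws, w u ≠ u) (h2 : (2 : F) ≠ 0) {b : F}
    (hb : b ∈ fixedSpace (w :: ws)) : ∃ g ∈ fixedSpace ws, g * w g = b := by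
  rcases eq_or_ne b 0 with rfl | hb0
  · exact ⟨0, zero_mem _, zero_mul _⟩
  have hc : ∀ v ∈ ws, Commute v w := fun v hv =>
    hcomm v (List.mem_cons_of_mem _ hv) w List.mem_cons_self
  have hww : ∀ x, w (w x) = x := fun x => by
    rw [← AlgEquiv.mul_apply, hinv w List.mem_cons_self, AlgEquiv.one_apply]
  obtain ⟨m, hm, hbal⟩ := exists_balanced h2 hinv hcomm ws fun v hv => List.mem_cons_of_mem _ hv
  obtain ⟨c', hc'0, hc'⟩ := hbal.cons hinv hcomm List.mem_cons_self
    (fun v hv => List.mem_cons_of_mem _ hv) h2 hne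
  obtain ⟨c, hc0, hcb⟩ := hbal
  obtain ⟨E, hE0, hbE, hE⟩ := exists_bound (w :: ws) hinv hcomm b
  obtain ⟨P⟩ := IsFunctionField.exists_place (K := K) (F := F)
  obtain ⟨B, hBle, hB⟩ := exists_invariant_ge (w :: ws) hinv hcomm (Finsupp.single P 1)
    (Finsupp.single_nonneg.mpr zero_le_one)
  have hBpos : 0 < Divisor.degree B := lt_of_lt_of_le
    (by rw [Divisor.degree_single, IsCurveOver.deg_eq_one_of_isAlgClosed]; norm_num)
    (degree_mono hBle)
  set n : ℤ := Divisor.degree E + 2 * c + 2 * c' + 1 with hn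
  have hdE := degree_nonneg hE0
  set D : Divisor K F := n • B with hDdef
  have hD : ∀ v ∈ w :: ws, v • D = D := fun v hv => by rw [hDdef, smul_comm, hB v hv]
  have hdD : n ≤ Divisor.degree D := by
    rw [hDdef, map_zsmul, smul_eq_mul]
    exact le_mul_of_one_le_right (by omega) hBpos
  have hI : ∀ v ∈ w :: ws, v • (D + D + E) = D + D + E := fun v hv => by
    simp only [smul_add, hD v hv, hE v hv]
  set X := riemannRochSpace D ⊓ fixedSpace ws with hX
  set Z := riemannRochSpace D ⊓ fixedSpace (w :: ws) with hZ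
  set S := riemannRochSpace (D + D + E) ⊓ fixedSpace (w :: ws) with hS
  have h1 := (hcb D hD (by omega)).2
  have h3 := (hc' D hD (by omega)).2
  have h4 := (hc' (D + D + E) hI (by simp only [map_add]; omega)).1
  rw [← hX] at h1
  rw [← hZ] at h3
  rw [← hS] at h4
  simp only [map_add, Nat.cast_mul, Nat.cast_ofNat] at h3 h4
  let U := ↥X × ↥Z
  have hlt : Module.finrank K S < Module.finrank K U := by
    rw [Module.finrank_prod]
    by_contra! hge
    have h5 : (Module.finrank K X : ℤ) + Module.finrank K Z ≤ Module.finrank K S := by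
      exact_mod_cast hge
    nlinarith
  let x : U →ₗ[K] F := X.subtype.comp (LinearMap.fst K _ _)
  let z : U →ₗ[K] F := Z.subtype.comp (LinearMap.snd K _ _)
  let xb : U →ₗ[K] F := (w.toLinearMap : F →ₗ[K] F).comp x
  let Bf : U →ₗ[K] U →ₗ[K] F :=
    (LinearMap.mul K F).compl₁₂ x xb + (LinearMap.mul K F).compl₁₂ xb x -
      (LinearMap.mul K F).compl₁₂ ((LinearMap.mulLeft K (2 * b)).comp z) z
  have hBf : ∀ p q : U, Bf p q = x p * w (x q) + w (x p) * x q - 2 * b * z p * z q :=
    fun p q => rfl
  obtain ⟨hwb, hbR⟩ := mem_fixedSpace_cons.mp hb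
  have hxR : ∀ p : U, x p ∈ fixedSpace ws := fun p => p.1.2.2
  have hzR : ∀ p : U, z p ∈ fixedSpace ws := fun p => (mem_fixedSpace_cons.mp p.2.2.2).2
  have hzw : ∀ p : U, w (z p) = z p := fun p => (mem_fixedSpace_cons.mp p.2.2.2).1
  have hmemS : ∀ p q : U, Bf p q ∈ S := by
    intro p q
    rw [hBf, show (2 : F) * b * z p * z q = b * z p * z q + b * z p * z q by ring]
    have hwD := hD w List.mem_cons_self
    have hmono : riemannRochSpace (D + D) ≤ riemannRochSpace (D + D + E) :=
      riemannRochSpace_mono (le_add_of_nonneg_right hE0)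
    refine ⟨sub_mem (add_mem ?_ ?_) (add_mem ?_ ?_), mem_fixedSpace_cons.mpr ⟨?_, ?_⟩⟩
    · exact hmono (mul_mem_riemannRochSpace p.1.2.1 (map_mem_riemannRochSpace w hwD q.1.2.1))
    · exact hmono (mul_mem_riemannRochSpace (map_mem_riemannRochSpace w hwD p.1.2.1) q.1.2.1)
    iterate 2
      · have h := mul_mem_riemannRochSpace (mul_mem_riemannRochSpace hbE p.2.2.1) q.2.2.1
        rwa [show E + D + D = D + D + E by abel] at h
    · simp only [map_sub, map_add, map_mul, hww, hwb, hzw]
      ring
    · exact sub_mem (add_mem (mul_mem_fixedSpace (hxR p) (map_mem_fixedSpace hc (hxR q)))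
        (mul_mem_fixedSpace (map_mem_fixedSpace hc (hxR p)) (hxR q)))
        (add_mem (mul_mem_fixedSpace (mul_mem_fixedSpace hbR (hzR p)) (hzR q))
          (mul_mem_fixedSpace (mul_mem_fixedSpace hbR (hzR p)) (hzR q)))
  obtain ⟨p, hp, hp0⟩ := exists_ne_zero_apply_self_eq_zero S Bf hmemS hlt
  rw [hBf] at hp0
  have hkey : x p * w (x p) = b * (z p * z p) := by
    apply mul_left_cancel₀ h2
    linear_combination hp0
  have hz : z p ≠ 0 := by
    intro h0
    rw [h0, mul_zero, mul_zero] at hkey
    have hx : x p = 0 := (mul_eq_zero.mp hkey).elim id fun h => by simpa using h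
    exact hp (Prod.ext (Subtype.ext hx) (Subtype.ext h0))
  refine ⟨x p / z p, fun v hv => ?_, ?_⟩
  · rw [map_div₀, hxR p v hv, hzR p v hv]
  · rw [map_div₀, hzw p, div_mul_div_comm, hkey]
    exact mul_div_cancel_right₀ b (mul_ne_zero hz hz)

end norms

end FLTA.LT2
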