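import Fermat.Agent.LT2.HesseForms
import Fermat.Agent.EllTorsion.MulFormula
import Fermat.Agent.EllTorsion.Card

/-!
# The isomorphism of 3-torsion in the Hesse pencil

A point `(x, y)` of order 3 on `W` goes to a point on `V` by a linear fractional map in
`t = 12 x + b₂` and `η = 2 y + a₁ x + a₃`.  The map preserves lines, hence is additive on 3-torsion.
-/

set_option autoImplicit false

noncomputable section

open WeierstrassCurve WeierstrassCurve.Affine

namespace FLTA.LT2.Hesse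

variable {K : Type*} [Field K]

/-- `12 x + b₂`. -/
def tCoord (W : WeierstrassCurve K) (x : K) : K := 12 * x + W.b₂

/-- `2 y + a₁ x + a₃`. -/
def etaCoord (W : WeierstrassCurve K) (x y : K) : K := 2 * y + W.a₁ * x + W.a₃

theorem eta_identity (W : WeierstrassCurve K) (x y : K) :
    432 * etaCoord W x y ^ 2
        - (tCoord W x ^ 3 - 3 * W.c₄ * tCoord W x - 2 * W.c₆) =
      1728 * (y ^ 2 + W.a₁ * x * y + W.a₃ * y
        - (x ^ 3 + W.a₂ * x ^ 2 + W.a₄ * x + W.a₆)) := by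
  simp only [etaCoord, tCoord, WeierstrassCurve.c₄, WeierstrassCurve.c₆, WeierstrassCurve.b₂,
    WeierstrassCurve.b₄, WeierstrassCurve.b₆]
  ring

theorem hD_tCoord (W : WeierstrassCurve K) (x : K) :
    hD W.c₄ W.c₆ (tCoord W x) 1 = 6912 * W.Ψ₃.eval x := by
  simp only [hD, tCoord, WeierstrassCurve.Ψ₃, WeierstrassCurve.c₄, WeierstrassCurve.c₆,
    WeierstrassCurve.b₂, WeierstrassCurve.b₄, WeierstrassCurve.b₆, WeierstrassCurve.b₈,
    Polynomial.eval_add, Polynomial.eval_mul, Polynomial.eval_pow, Polynomial.eval_C,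
    Polynomial.eval_X, Polynomial.eval_ofNat]
  ring

variable [CharZero K]

/-- The abscissa of the image. -/
def mapX (W V : WeierstrassCurve K) (l m x : K) : K :=
  (hNum W.c₄ W.c₆ l m (tCoord W x) / (l - m * tCoord W x) - V.b₂) / 12

/-- The ordinate of the image. -/
def mapY (W V : WeierstrassCurve K) (l m x y : K) : K :=
  (hD W.c₄ W.c₆ l m * etaCoord W x y / (l - m * tCoord W x)
    - V.a₁ * mapX W V l m x - V.a₃) / 2

theorem tCoord_mapX (W V : WeierstrassCurve K) (l m x : K) :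
    tCoord V (mapX W V l m x) = hNum W.c₄ W.c₆ l m (tCoord W x) / (l - m * tCoord W x) := by
  simp only [tCoord, mapX]; ring

theorem etaCoord_mapY (W V : WeierstrassCurve K) (l m x y : K) :
    etaCoord V (mapX W V l m x) (mapY W V l m x y) =
      hD W.c₄ W.c₆ l m * etaCoord W x y / (l - m * tCoord W x) := by
  simp only [etaCoord, mapY]; ring

/-- `V` is the member at `(l, m)` of the family through `W`, and both are nonsingular. -/
structure IsMember (W V : WeierstrassCurve K) (l m : K) : Prop where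
  c₄_eq : V.c₄ = hC4 W.c₄ W.c₆ l m
  c₆_eq : V.c₆ = hC6 W.c₄ W.c₆ l m
  Δ_ne : W.Δ ≠ 0
  Δ_ne' : V.Δ ≠ 0

namespace IsMember

variable {W V : WeierstrassCurve K} {l m : K} (h : IsMember W V l m)

include h

theorem Δ_eq : V.Δ = W.Δ * hD W.c₄ W.c₆ l m ^ 3 := by
  have h1 := V.c_relation
  have h2 := W.c_relation
  rw [h.c₄_eq, h.c₆_eq, hC4_pow_three_sub, ← h2] at h1
  exact mul_left_cancel₀ (show (1728 : K) ≠ 0 by norm_num) (by linear_combination h1)

theorem hD_ne : hD W.c₄ W.c₆ l m ≠ 0 := fun h0 => h.Δ_ne' (by rw [h.Δ_eq, h0]; ring)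

theorem den_ne {x : K} (hx : W.Ψ₃.eval x = 0) : l - m * tCoord W x ≠ 0 := by
  intro h0
  refine h.hD_ne ?_
  rw [show l = m * tCoord W x by linear_combination h0,
    show hD W.c₄ W.c₆ (m * tCoord W x) m = hD W.c₄ W.c₆ (m * tCoord W x) (m * 1) by rw [mul_one],
    hD_smul, hD_tCoord, hx]
  ring

theorem equation_map {x y : K} (hx : W.Ψ₃.eval x = 0) (he : W.toAffine.Equation x y) :
    V.toAffine.Equation (mapX W V l m x) (mapY W V l m x y) := by
  rw [equation_iff] at he ⊢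
  have hd := h.den_ne hx
  have h1 := eta_identity V (mapX W V l m x) (mapY W V l m x y)
  rw [tCoord_mapX, etaCoord_mapY, h.c₄_eq, h.c₆_eq] at h1
  have h2 := eta_identity W x y
  have h3 := hNum_weierstrass W.c₄ W.c₆ l m (tCoord W x)
  rw [hD_tCoord, hx] at h3
  field_simp at h1
  rw [← sub_eq_zero]
  have key : (l - m * tCoord W x) ^ 3 * 1728 *
      (mapY W V l m x y ^ 2 + V.a₁ * mapX W V l m x * mapY W V l m x y + V.a₃ * mapY W V l m x y -
        (mapX W V l m x ^ 3 + V.a₂ * mapX W V l m x ^ 2 + V.a₄ * mapX W V l m x + V.a₆)) = 0 := by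
    linear_combination -h1 + h3 + hD W.c₄ W.c₆ l m ^ 2 * (l - m * tCoord W x) * h2
      + 1728 * hD W.c₄ W.c₆ l m ^ 2 * (l - m * tCoord W x) * he
  exact (mul_eq_zero.1 key).resolve_left (mul_ne_zero (pow_ne_zero _ hd) (by norm_num))

theorem nonsingular_map {x y : K} (hx : W.Ψ₃.eval x = 0) (hn : W.toAffine.Nonsingular x y) :
    V.toAffine.Nonsingular (mapX W V l m x) (mapY W V l m x y) :=
  (equation_iff_nonsingular_of_Δ_ne_zero h.Δ_ne').1 (h.equation_map hx hn.1)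

theorem Ψ₃_map {x : K} (hx : W.Ψ₃.eval x = 0) : V.Ψ₃.eval (mapX W V l m x) = 0 := by
  have hd := h.den_ne hx
  have h1 := hNum_quartic W.c₄ W.c₆ l m (tCoord W x)
  rw [hD_tCoord, hx, ← h.c₄_eq, ← h.c₆_eq] at h1
  have h2 := hD_tCoord V (mapX W V l m x)
  rw [tCoord_mapX] at h2
  have h3 : hD V.c₄ V.c₆ (hNum W.c₄ W.c₆ l m (tCoord W x) / (l - m * tCoord W x)) 1 = 0 := by
    rw [show (1 : K) = (l - m * tCoord W x)⁻¹ * (l - m * tCoord W x) from
      (inv_mul_cancel₀ hd).symm, div_eq_inv_mul, hD_smul, h1]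
    ring
  rw [h3] at h2
  exact (mul_eq_zero.1 h2.symm).resolve_left (by norm_num)

theorem mapX_injective {x x' : K} (hx : W.Ψ₃.eval x = 0) (hx' : W.Ψ₃.eval x' = 0)
    (he : mapX W V l m x = mapX W V l m x') : x = x' := by
  have h1 : tCoord V (mapX W V l m x) = tCoord V (mapX W V l m x') := by rw [he]
  rw [tCoord_mapX, tCoord_mapX, div_eq_div_iff (h.den_ne hx) (h.den_ne hx')] at h1
  have h2 := hNum_cross W.c₄ W.c₆ l m (tCoord W x) (tCoord W x')
  rw [h1, sub_self, eq_comm, mul_eq_zero, or_iff_right h.hD_ne] at h2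
  simp only [tCoord] at h2
  exact mul_left_cancel₀ (show (12 : K) ≠ 0 by norm_num) (by linear_combination h2)

theorem mapY_injective {x y y' : K} (hx : W.Ψ₃.eval x = 0)
    (he : mapY W V l m x y = mapY W V l m x y') : y = y' := by
  have h1 : etaCoord V (mapX W V l m x) (mapY W V l m x y) =
      etaCoord V (mapX W V l m x) (mapY W V l m x y') := by rw [he]
  rw [etaCoord_mapY, etaCoord_mapY, div_left_inj' (h.den_ne hx),
    mul_right_inj' h.hD_ne] at h1
  simp only [etaCoord] at h1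
  exact mul_left_cancel₀ (two_ne_zero (α := K)) (by linear_combination h1)

/-- The map sends lines to lines. -/
theorem map_collinear {x₁ y₁ x₂ y₂ x₃ y₃ : K} (h₁ : W.Ψ₃.eval x₁ = 0) (h₂ : W.Ψ₃.eval x₂ = 0)
    (h₃ : W.Ψ₃.eval x₃ = 0) (hl : (y₃ - y₁) * (x₂ - x₁) = (y₂ - y₁) * (x₃ - x₁)) :
    (mapY W V l m x₃ y₃ - mapY W V l m x₁ y₁) * (mapX W V l m x₂ - mapX W V l m x₁) =
      (mapY W V l m x₂ y₂ - mapY W V l m x₁ y₁) * (mapX W V l m x₃ - mapX W V l m x₁) := by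
  have hd₁ := h.den_ne h₁
  have hd₂ := h.den_ne h₂
  have hd₃ := h.den_ne h₃
  set t₁ := tCoord W x₁ with ht₁
  set t₂ := tCoord W x₂ with ht₂
  set t₃ := tCoord W x₃ with ht₃
  set e₁ := etaCoord W x₁ y₁ with he₁
  set e₂ := etaCoord W x₂ y₂ with he₂
  set e₃ := etaCoord W x₃ y₃ with he₃
  have hl' : (e₃ - e₁) * (t₂ - t₁) = (e₂ - e₁) * (t₃ - t₁) := by
    simp only [he₁, he₂, he₃, ht₁, ht₂, ht₃, etaCoord, tCoord]
    linear_combination 24 * hl
  have c₂ := hNum_cross W.c₄ W.c₆ l m t₂ t₁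
  have c₃ := hNum_cross W.c₄ W.c₆ l m t₃ t₁
  set D := hD W.c₄ W.c₆ l m
  set d₁ := l - m * t₁ with hd₁e
  set d₂ := l - m * t₂ with hd₂e
  set d₃ := l - m * t₃ with hd₃e
  set n₁ := hNum W.c₄ W.c₆ l m t₁
  set n₂ := hNum W.c₄ W.c₆ l m t₂
  set n₃ := hNum W.c₄ W.c₆ l m t₃
  have key : (D * e₃ / d₃ - D * e₁ / d₁) * (n₂ / d₂ - n₁ / d₁) =
      (D * e₂ / d₂ - D * e₁ / d₁) * (n₃ / d₃ - n₁ / d₁) := by
    rw [div_sub_div _ _ hd₃ hd₁, div_sub_div _ _ hd₂ hd₁, div_sub_div _ _ hd₂ hd₁,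
      div_sub_div _ _ hd₃ hd₁, div_mul_div_comm, div_mul_div_comm]
    rw [show n₂ * d₁ - d₂ * n₁ = D * (t₂ - t₁) by linear_combination c₂,
      show n₃ * d₁ - d₃ * n₁ = D * (t₃ - t₁) by linear_combination c₃,
      show D * e₃ * d₁ - d₃ * (D * e₁) = D * ((e₃ - e₁) * d₁ + e₁ * m * (t₃ - t₁)) by
        simp only [hd₁e, hd₃e]; ring,
      show D * e₂ * d₁ - d₂ * (D * e₁) = D * ((e₂ - e₁) * d₁ + e₁ * m * (t₂ - t₁)) by
        simp only [hd₁e, hd₂e]; ring,
      mul_comm (d₃ * d₁) (d₂ * d₁)]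
    congr 1
    linear_combination D * D * d₁ * hl'
  simp only [mapX, mapY, ← ht₁, ← ht₂, ← ht₃, ← he₁, ← he₂, ← he₃]
  linear_combination (1 / 24) * key

end IsMember

variable [DecidableEq K]

/-- The map on points (`0` where it is not defined). -/
def mapPoint (W V : WeierstrassCurve K) (l m : K) : W.toAffine.Point → V.toAffine.Point
  | .zero => 0
  | .some x y _ =>
    open Classical in
    if hn : V.toAffine.Nonsingular (mapX W V l m x) (mapY W V l m x y) then .some _ _ hn else 0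

theorem mapPoint_zero (W V : WeierstrassCurve K) (l m : K) : mapPoint W V l m 0 = 0 := rfl

theorem eval_Ψ₃_eq_zero_iff (W : WeierstrassCurve K) (hΔ : W.Δ ≠ 0) {x y : K}
    (hn : W.toAffine.Nonsingular x y) :
    3 • (Point.some _ _ hn : W.toAffine.Point) = 0 ↔ W.Ψ₃.eval x = 0 := by
  have : W.IsElliptic := ⟨isUnit_iff_ne_zero.2 hΔ⟩
  rw [EllTorsion.nsmul_eq_zero_iff_of_odd hn (by decide : Odd 3), preΨ'_three]

/-- Three collinear points with distinct abscissae are the zeros of the chord. -/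
theorem addX_of_collinear {W : WeierstrassCurve K} {x₁ y₁ x₂ y₂ x₃ y₃ : K}
    (e₁ : W.toAffine.Equation x₁ y₁) (e₂ : W.toAffine.Equation x₂ y₂)
    (e₃ : W.toAffine.Equation x₃ y₃) (h12 : x₁ ≠ x₂) (h13 : x₁ ≠ x₃) (h23 : x₂ ≠ x₃)
    (hl : (y₃ - y₁) * (x₂ - x₁) = (y₂ - y₁) * (x₃ - x₁)) :
    W.toAffine.addX x₁ x₂ (W.toAffine.slope x₁ x₂ y₁ y₂) = x₃ ∧
      W.toAffine.negAddY x₁ x₂ y₁ (W.toAffine.slope x₁ x₂ y₁ y₂) = y₃ := by
  rw [equation_iff] at e₁ e₂ e₃
  have h21 : x₂ - x₁ ≠ 0 := sub_ne_zero.2 (Ne.symm h12)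
  set L := W.toAffine.slope x₁ x₂ y₁ y₂
  have hL : L * (x₂ - x₁) = y₂ - y₁ := by
    simp only [L, slope_of_X_ne h12]
    have : x₁ - x₂ ≠ 0 := sub_ne_zero.2 h12
    field_simp
    ring
  have hy₃ : y₃ = L * (x₃ - x₁) + y₁ := by
    refine mul_right_cancel₀ h21 ?_
    linear_combination hl - (x₃ - x₁) * hL
  have hy₂ : y₂ = L * (x₂ - x₁) + y₁ := by linear_combination -hL
  clear_value L
  subst hy₂; subst hy₃
  have a : (x₂ - x₁) * (x₂ ^ 2 + x₂ * x₁ + x₁ ^ 2 + W.a₂ * (x₂ + x₁) + W.a₄ - L ^ 2 * (x₂ - x₁)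
      - 2 * L * y₁ - W.a₁ * (L * x₂ + y₁) - W.a₃ * L) = 0 := by linear_combination e₁ - e₂
  have b : (x₃ - x₁) * (x₃ ^ 2 + x₃ * x₁ + x₁ ^ 2 + W.a₂ * (x₃ + x₁) + W.a₄ - L ^ 2 * (x₃ - x₁)
      - 2 * L * y₁ - W.a₁ * (L * x₃ + y₁) - W.a₃ * L) = 0 := by linear_combination e₁ - e₃
  have a' := (mul_eq_zero.1 a).resolve_left h21
  have b' := (mul_eq_zero.1 b).resolve_left (sub_ne_zero.2 (Ne.symm h13))
  have c : (x₂ - x₃) * (x₂ + x₃ + x₁ + W.a₂ - L ^ 2 - W.a₁ * L) = 0 := by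
    linear_combination a' - b'
  have c' := (mul_eq_zero.1 c).resolve_left (sub_ne_zero.2 h23)
  have hX : W.toAffine.addX x₁ x₂ L = x₃ := by
    simp only [addX]
    linear_combination -c'
  exact ⟨hX, by rw [negAddY, hX]⟩

namespace IsMember

variable {W V : WeierstrassCurve K} {l m : K} (h : IsMember W V l m)

include h

theorem mapPoint_some {x y : K} (hn : W.toAffine.Nonsingular x y) (hx : W.Ψ₃.eval x = 0) :
    mapPoint W V l m (.some _ _ hn) = .some _ _ (h.nonsingular_map hx hn) :=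
  dif_pos _

theorem three_nsmul_mapPoint (P : W.toAffine.Point) (hP : 3 • P = 0) :
    3 • mapPoint W V l m P = 0 := by
  rcases P with _ | ⟨x, y, hn⟩
  · rw [← Point.zero_def, mapPoint_zero, smul_zero]
  · have hx := (eval_Ψ₃_eq_zero_iff W h.Δ_ne hn).1 hP
    rw [h.mapPoint_some hn hx, eval_Ψ₃_eq_zero_iff V h.Δ_ne']
    exact h.Ψ₃_map hx

theorem mapPoint_neg (P : W.toAffine.Point) (hP : 3 • P = 0) :
    mapPoint W V l m (-P) = -mapPoint W V l m P := by
  rcases P with _ | ⟨x, y, hn⟩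
  · rw [← Point.zero_def, neg_zero, mapPoint_zero, neg_zero]
  · have hx := (eval_Ψ₃_eq_zero_iff W h.Δ_ne hn).1 hP
    rw [Point.neg_some, h.mapPoint_some _ hx, h.mapPoint_some hn hx, Point.neg_some,
      Point.some.injEq]
    refine ⟨rfl, ?_⟩
    simp only [mapY, etaCoord, negY]
    ring

theorem mapPoint_injective {P Q : W.toAffine.Point} (hP : 3 • P = 0) (hQ : 3 • Q = 0)
    (he : mapPoint W V l m P = mapPoint W V l m Q) : P = Q := by
  rcases P with _ | ⟨x, y, hn⟩ <;> rcases Q with _ | ⟨x', y', hn'⟩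
  · rfl
  · rw [h.mapPoint_some hn' ((eval_Ψ₃_eq_zero_iff W h.Δ_ne hn').1 hQ), ← Point.zero_def,
      mapPoint_zero] at he
    exact absurd he.symm (Point.some_ne_zero _)
  · rw [h.mapPoint_some hn ((eval_Ψ₃_eq_zero_iff W h.Δ_ne hn).1 hP), ← Point.zero_def,
      mapPoint_zero] at he
    exact absurd he (Point.some_ne_zero _)
  · have hx := (eval_Ψ₃_eq_zero_iff W h.Δ_ne hn).1 hP
    have hx' := (eval_Ψ₃_eq_zero_iff W h.Δ_ne hn').1 hQ
    rw [h.mapPoint_some hn hx, h.mapPoint_some hn' hx', Point.some.injEq] at he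
    obtain rfl := h.mapX_injective hx hx' he.1
    obtain rfl := h.mapY_injective hx he.2
    rfl

theorem mapPoint_add_self (P : W.toAffine.Point) (hP : 3 • P = 0) :
    mapPoint W V l m (P + P) = mapPoint W V l m P + mapPoint W V l m P := by
  have e : ∀ {G : Type _} [AddCommGroup G] (Q : G), 3 • Q = 0 → Q + Q = -Q := by
    intro G _ Q hQ
    rw [eq_neg_iff_add_eq_zero, ← hQ]
    abel
  rw [e P hP, h.mapPoint_neg P hP, e _ (h.three_nsmul_mapPoint P hP)]

theorem mapPoint_add (P Q : W.toAffine.Point) (hP : 3 • P = 0) (hQ : 3 • Q = 0) :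
    mapPoint W V l m (P + Q) = mapPoint W V l m P + mapPoint W V l m Q := by
  rcases P with _ | ⟨x₁, y₁, hn₁⟩
  · rw [← Point.zero_def, zero_add, mapPoint_zero, zero_add]
  rcases Q with _ | ⟨x₂, y₂, hn₂⟩
  · rw [← Point.zero_def, add_zero, mapPoint_zero, add_zero]
  by_cases hxx : x₁ = x₂
  · rcases (Point.X_eq_iff (h₁ := hn₁) (h₂ := hn₂)).1 hxx with hPQ | hPQ
    · rw [← hPQ]
      exact h.mapPoint_add_self _ hP
    · rw [hPQ, neg_add_cancel, mapPoint_zero, h.mapPoint_neg _ hQ, neg_add_cancel]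
  have hadd := Point.add_of_X_ne (h₁ := hn₁) (h₂ := hn₂) hxx
  set L := W.toAffine.slope x₁ x₂ y₁ y₂ with hL
  set x₃ := W.toAffine.addX x₁ x₂ L with hx₃
  set y₃ := W.toAffine.negAddY x₁ x₂ y₁ L with hy₃
  have hn₃' : W.toAffine.Nonsingular x₃ (W.toAffine.addY x₁ x₂ y₁ L) :=
    nonsingular_add hn₁ hn₂ fun hxy => hxx hxy.1
  have hn₃ : W.toAffine.Nonsingular x₃ y₃ :=
    nonsingular_negAdd hn₁ hn₂ fun hxy => hxx hxy.1
  have hR : (Point.some _ _ hn₁ + Point.some _ _ hn₂ : W.toAffine.Point) =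
      -Point.some _ _ hn₃ := by
    rw [hadd, Point.neg_some, Point.some.injEq]
    exact ⟨rfl, rfl⟩
  have hR3 : 3 • (Point.some _ _ hn₃ : W.toAffine.Point) = 0 := by
    rw [← neg_eq_zero, ← neg_nsmul, ← hR, nsmul_add, hP, hQ, add_zero]
  have hne : ∀ (x y : K) (hn : W.toAffine.Nonsingular x y),
      (Point.some _ _ hn : W.toAffine.Point) = .some _ _ hn₁ ∨
        (Point.some _ _ hn : W.toAffine.Point) = .some _ _ hn₂ → x₃ ≠ x := by
    intro x y hn hor hxeq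
    have h2 := (Point.X_eq_iff (h₁ := hn₃) (h₂ := hn)).1 hxeq
    rcases hor with e | e <;> rw [e] at h2 <;> rcases h2 with h2 | h2
    · refine hxx ?_
      have h4 : (Point.some _ _ hn₂ : W.toAffine.Point) = .some _ _ hn₁ := by
        rw [h2] at hR
        rw [eq_comm, ← sub_eq_zero]
        calc (Point.some _ _ hn₁ : W.toAffine.Point) - Point.some _ _ hn₂
            = 3 • (Point.some _ _ hn₁ : W.toAffine.Point)
              - (Point.some _ _ hn₁ + Point.some _ _ hn₂) - Point.some _ _ hn₁ := by abel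
          _ = 0 := by rw [hP, hR]; abel
      exact ((Point.some.injEq _ _ _ _ _ _).mp h4.symm).1
    · rw [h2, neg_neg] at hR
      exact Point.some_ne_zero hn₂ (add_left_cancel (hR.trans (add_zero _).symm))
    · refine hxx ?_
      have h4 : (Point.some _ _ hn₁ : W.toAffine.Point) = .some _ _ hn₂ := by
        rw [h2] at hR
        rw [← sub_eq_zero]
        calc (Point.some _ _ hn₁ : W.toAffine.Point) - Point.some _ _ hn₂
            = (Point.some _ _ hn₁ + Point.some _ _ hn₂) + Point.some _ _ hn₂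
              - 3 • (Point.some _ _ hn₂ : W.toAffine.Point) := by abel
          _ = 0 := by rw [hQ, hR]; abel
      exact ((Point.some.injEq _ _ _ _ _ _).mp h4).1
    · rw [h2, neg_neg] at hR
      exact Point.some_ne_zero hn₁ (add_right_cancel (hR.trans (zero_add _).symm))
  have h₁ := (eval_Ψ₃_eq_zero_iff W h.Δ_ne hn₁).1 hP
  have h₂ := (eval_Ψ₃_eq_zero_iff W h.Δ_ne hn₂).1 hQ
  have h₃ := (eval_Ψ₃_eq_zero_iff W h.Δ_ne hn₃).1 hR3
  have hline : (y₃ - y₁) * (x₂ - x₁) = (y₂ - y₁) * (x₃ - x₁) := by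
    have hx : x₁ - x₂ ≠ 0 := sub_ne_zero.2 hxx
    rw [hy₃, negAddY, ← hx₃, hL, slope_of_X_ne hxx]
    field_simp
    ring
  have hne' : mapX W V l m x₁ ≠ mapX W V l m x₂ := fun e => hxx (h.mapX_injective h₁ h₂ e)
  obtain ⟨hX, hY⟩ := addX_of_collinear (h.equation_map h₁ hn₁.1) (h.equation_map h₂ hn₂.1)
    (h.equation_map h₃ hn₃.1) hne'
    (fun e => hne x₁ y₁ hn₁ (Or.inl rfl) (h.mapX_injective h₁ h₃ e).symm)
    (fun e => hne x₂ y₂ hn₂ (Or.inr rfl) (h.mapX_injective h₂ h₃ e).symm)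
    (h.map_collinear h₁ h₂ h₃ hline)
  rw [hR, h.mapPoint_neg _ hR3, h.mapPoint_some hn₁ h₁, h.mapPoint_some hn₂ h₂,
    h.mapPoint_some hn₃ h₃, Point.add_of_X_ne hne', Point.neg_some, Point.some.injEq]
  refine ⟨hX.symm, ?_⟩
  rw [addY, hX, hY]

end IsMember

end FLTA.LT2.Hesse
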