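import Mathlib.LinearAlgebra.Matrix.GeneralLinearGroup.Defs
import Mathlib.LinearAlgebra.Matrix.NonsingularInverse
import Mathlib.LinearAlgebra.Matrix.Charpoly.Coeff
import Mathlib.Data.ZMod.Basic
import Mathlib.Tactic.FinCases

/-!
# Subgroups of `GL₂(ℤ/2ⁿ)` containing a transvection
-/

set_option autoImplicit false

open Matrix

namespace FLTA.LT2.Image

section Local

variable {R : Type*} [CommRing R]

/-- The upper unitriangular matrix. -/
def upperU (x : R) : Matrix (Fin 2) (Fin 2) R := !![1, x; 0, 1]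

/-- The lower unitriangular matrix. -/
def lowerU (x : R) : Matrix (Fin 2) (Fin 2) R := !![1, 0; x, 1]

lemma upperU_mul (x y : R) : upperU x * upperU y = upperU (x + y) := by
  ext i j; fin_cases i <;> fin_cases j <;> simp [upperU, add_comm]

lemma lowerU_mul (x y : R) : lowerU x * lowerU y = lowerU (x + y) := by
  ext i j; fin_cases i <;> fin_cases j <;> simp [lowerU]

lemma upperU_pow (x : R) (k : ℕ) : upperU x ^ k = upperU ((k : R) * x) := by
  induction k with
  | zero => ext i j; fin_cases i <;> fin_cases j <;> simp [upperU]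
  | succ k ih => rw [pow_succ, ih, upperU_mul]; push_cast; ring_nf

lemma lowerU_pow (x : R) (k : ℕ) : lowerU x ^ k = lowerU ((k : R) * x) := by
  induction k with
  | zero => ext i j; fin_cases i <;> fin_cases j <;> simp [lowerU]
  | succ k ih => rw [pow_succ, ih, lowerU_mul]; push_cast; ring_nf

/-- The matrices of a subgroup of `GL₂`. -/
def matsOf (G : Subgroup (GL (Fin 2) R)) : Submonoid (Matrix (Fin 2) (Fin 2) R) :=
  G.toSubmonoid.map (Units.coeHom _)

lemma mem_matsOf {G : Subgroup (GL (Fin 2) R)} {M : Matrix (Fin 2) (Fin 2) R} :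
    M ∈ matsOf G ↔ ∃ g ∈ G, (g : Matrix (Fin 2) (Fin 2) R) = M := Submonoid.mem_map

lemma det_one_mem {G : Subgroup (GL (Fin 2) R)} (π : R →+* ZMod 2)
    (hπ : ∀ x : R, π x = 1 → IsUnit x) (hU : ∀ x, upperU x ∈ matsOf G)
    (hL : ∀ x, lowerU x ∈ matsOf G) {M : Matrix (Fin 2) (Fin 2) R} (hM : M.det = 1) :
    M ∈ matsOf G := by
  have key : ∀ N : Matrix (Fin 2) (Fin 2) R, N.det = 1 → IsUnit (N 1 0) → N ∈ matsOf G := by
    intro N hN hc
    obtain ⟨c, hc⟩ := hc
    rw [Matrix.det_fin_two, ← hc] at hN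
    have e : N = upperU ((N 0 0 - 1) * (↑c⁻¹ : R)) * lowerU (c : R) *
        upperU ((N 1 1 - 1) * (↑c⁻¹ : R)) := by
      have hcc : (c : R) * (↑c⁻¹ : R) = 1 := Units.mul_inv c
      ext i j
      fin_cases i <;> fin_cases j <;> simp [upperU, lowerU, ← hc] <;>
        first
          | linear_combination (1 - N 0 0) * hcc
          | linear_combination -(↑c⁻¹ : R) * hN - (N 0 1) * hcc
          | linear_combination (1 - N 1 1) * hcc
    rw [e]
    exact mul_mem (mul_mem (hU _) (hL _)) (hU _)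
  by_cases hc : π (M 1 0) = 1
  · exact key M hM (hπ _ hc)
  · have hN : (lowerU 1 * M).det = 1 := by
      rw [Matrix.det_mul, hM, mul_one, lowerU, Matrix.det_fin_two]; simp
    have hcol : π ((lowerU (1 : R) * M) 1 0) = 1 := by
      have h := congrArg π hM
      rw [Matrix.det_fin_two, map_sub, map_mul, map_mul, map_one] at h
      have e : (lowerU (1 : R) * M) 1 0 = M 0 0 + M 1 0 := by simp [lowerU, Matrix.mul_apply]
      rw [e, map_add]
      revert h hc
      generalize π (M 0 0) = a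
      generalize π (M 0 1) = b
      generalize π (M 1 0) = c
      generalize π (M 1 1) = d
      revert a b c d
      decide
    have h := mul_mem (hL (-1)) (key _ hN (hπ _ hcol))
    rwa [← mul_assoc, lowerU_mul, neg_add_cancel, show lowerU (0 : R) = 1 by
      ext i j; fin_cases i <;> fin_cases j <;> simp [lowerU], one_mul] at h

theorem eq_top_of_upperU (π : R →+* ZMod 2) (hπ : ∀ x : R, π x = 1 → IsUnit x)
    (hcyc : ∀ x : R, ∃ k : ℕ, x = k) {G : Subgroup (GL (Fin 2) R)}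
    (h1 : upperU 1 ∈ matsOf G) {g : GL (Fin 2) R} (hg : g ∈ G)
    (hc : π ((g : Matrix (Fin 2) (Fin 2) R) 1 0) = 1)
    (hdet : ∀ u : Rˣ, ∃ h ∈ G, (h : Matrix (Fin 2) (Fin 2) R).det = u) : G = ⊤ := by
  have hU : ∀ x, upperU x ∈ matsOf G := fun x => by
    obtain ⟨k, rfl⟩ := hcyc x
    have := pow_mem h1 k
    rwa [upperU_pow, mul_one] at this
  obtain ⟨c, hc'⟩ := hπ _ hc
  obtain ⟨h₀, hh₀, hh₀e⟩ := mem_matsOf.mp (hU (-(g : Matrix (Fin 2) (Fin 2) R) 0 0 * (↑c⁻¹ : R)))
  set h := h₀ * g with hdef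
  have hhG : h ∈ G := mul_mem hh₀ hg
  have h00 : (h : Matrix (Fin 2) (Fin 2) R) 0 0 = 0 := by
    rw [hdef, Units.val_mul, hh₀e]
    simp [upperU, Matrix.mul_apply, ← hc', mul_assoc]
  have h10 : (h : Matrix (Fin 2) (Fin 2) R) 1 0 = c := by
    rw [hdef, Units.val_mul, hh₀e]
    simp [upperU, Matrix.mul_apply, ← hc']
  obtain ⟨b, hb⟩ : IsUnit ((h : Matrix (Fin 2) (Fin 2) R) 0 1) := by
    have hu := (Matrix.isUnit_iff_isUnit_det _).mp h.isUnit
    rw [Matrix.det_fin_two, h00, h10, zero_mul, zero_sub, IsUnit.neg_iff] at hu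
    exact isUnit_of_mul_isUnit_left hu
  obtain ⟨u₁, hu₁, hu₁e⟩ := mem_matsOf.mp h1
  have hL0 : lowerU ((c : R) * (↑b⁻¹ : R)) ∈ matsOf G := by
    refine mem_matsOf.mpr ⟨h * u₁ * h⁻¹, mul_mem (mul_mem hhG hu₁) (inv_mem hhG), ?_⟩
    rw [Units.val_mul, Units.val_mul, Units.mul_inv_eq_iff_eq_mul, hu₁e]
    ext i j
    fin_cases i <;> fin_cases j <;>
      simp [upperU, lowerU, Matrix.mul_apply, h00, h10, ← hb, mul_assoc, add_comm]
  have hL : ∀ x, lowerU x ∈ matsOf G := fun x => by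
    obtain ⟨k, hk⟩ := hcyc (x * (↑c⁻¹ : R) * (b : R))
    have := pow_mem hL0 k
    rw [lowerU_pow, ← hk] at this
    convert this using 2
    linear_combination (-x * (b : R) * (↑b⁻¹ : R)) * Units.inv_mul c - x * Units.mul_inv b
  rw [eq_top_iff]
  intro M _
  obtain ⟨m, hmG, hm⟩ := hdet ((Matrix.isUnit_iff_isUnit_det _).mp M.isUnit).unit
  rw [IsUnit.unit_spec] at hm
  have hd : ((M * m⁻¹ : GL (Fin 2) R) : Matrix (Fin 2) (Fin 2) R).det = 1 := by
    have e : ((M * m⁻¹ : GL (Fin 2) R) : Matrix (Fin 2) (Fin 2) R).det *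
        (m : Matrix (Fin 2) (Fin 2) R).det = 1 * (m : Matrix (Fin 2) (Fin 2) R).det := by
      rw [← Matrix.det_mul, ← Units.val_mul, inv_mul_cancel_right, one_mul, hm]
    exact ((Matrix.isUnit_iff_isUnit_det _).mp m.isUnit).mul_left_injective e
  obtain ⟨z, hz, hze⟩ := mem_matsOf.mp (det_one_mem π hπ hU hL hd)
  have : z = M * m⁻¹ := Units.ext hze
  simpa [this] using mul_mem hz hmG

/-- The determinant of a matrix killed by `X² - tX + d` is `d` if it is not `1` modulo two. -/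
theorem det_eq_of_quadratic (π : R →+* ZMod 2) (hπ : ∀ x : R, π x = 1 → IsUnit x)
    {M : Matrix (Fin 2) (Fin 2) R} (hM : IsUnit M.det) {t d : R}
    (h : M * M - t • M + d • 1 = 0) (hne : M.map π ≠ 1) : M.det = d := by
  have e : (M.trace - t) • M = (M.det - d) • (1 : Matrix (Fin 2) (Fin 2) R) := by
    ext i j
    have h' := congrFun (congrFun h i) j
    fin_cases i <;> fin_cases j <;>
      simp [Matrix.mul_apply, Matrix.trace_fin_two, Matrix.det_fin_two] at h' ⊢ <;>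
      linear_combination h'
  have h00 := congrFun (congrFun e 0) 0
  have h01 := congrFun (congrFun e 0) 1
  have h10 := congrFun (congrFun e 1) 0
  have h11 := congrFun (congrFun e 1) 1
  simp at h00 h01 h10 h11
  suffices hz : M.trace - t = 0 by rw [hz, zero_mul] at h00; exact sub_eq_zero.mp h00.symm
  have hunit : IsUnit (M 0 1) ∨ IsUnit (M 1 0) ∨ IsUnit (M 0 0 - M 1 1) := by
    by_contra hcon
    simp only [not_or] at hcon
    refine hne ?_
    have hd : π (M 0 0) * π (M 1 1) - π (M 0 1) * π (M 1 0) ≠ 0 := by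
      rw [← map_mul, ← map_mul, ← map_sub, ← Matrix.det_fin_two]
      exact (hM.map π).ne_zero
    have d1 := mt (hπ _) hcon.1
    have d2 := mt (hπ _) hcon.2.1
    have d3 := mt (hπ _) hcon.2.2
    rw [map_sub] at d3
    revert hd d1 d2 d3
    rw [← Matrix.ext_iff]
    simp only [Fin.forall_fin_two, Matrix.map_apply, Matrix.one_apply]
    generalize π (M 0 0) = a
    generalize π (M 0 1) = b
    generalize π (M 1 0) = c
    generalize π (M 1 1) = e
    revert a b c e
    decide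
  rcases hunit with hu | hu | hu
  · exact hu.mul_left_eq_zero.mp h01
  · exact hu.mul_left_eq_zero.mp h10
  · exact hu.mul_left_eq_zero.mp (by linear_combination h00 - h11)

end Local

/-- Reduction modulo two. -/
def mod2 {n : ℕ} (hn : n ≠ 0) : ZMod (2 ^ n) →+* ZMod 2 := ZMod.castHom (dvd_pow_self 2 hn) _

lemma isUnit_of_mod2 {n : ℕ} (hn : n ≠ 0) (x : ZMod (2 ^ n)) (h : mod2 hn x = 1) : IsUnit x := by
  have : NeZero (2 ^ n) := ⟨pow_ne_zero _ two_ne_zero⟩
  rw [← ZMod.natCast_zmod_val x] at h ⊢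
  rw [ZMod.isUnit_iff_coprime]
  rw [map_natCast] at h
  refine (Nat.Prime.coprime_pow_of_not_dvd Nat.prime_two fun hd => ?_)
  rw [(ZMod.natCast_eq_zero_iff _ _).mpr hd] at h
  exact zero_ne_one h

/-- A unipotent matrix which is not `1` modulo two is conjugate to `!![1, 1; 0, 1]`. -/
theorem exists_conj_upperU {n : ℕ} (hn : n ≠ 0) {t : Matrix (Fin 2) (Fin 2) (ZMod (2 ^ n))}
    (hsq : (t - 1) * (t - 1) = 0) (ht1 : t.map (mod2 hn) ≠ 1) :
    ∃ P : Matrix (Fin 2) (Fin 2) (ZMod (2 ^ n)), IsUnit P ∧ t * P = P * upperU 1 := by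
  set π := mod2 hn
  set N := t - 1 with hN
  have hsq' : N.map π * N.map π = 0 := by
    rw [← Matrix.map_mul, hsq, Matrix.map_zero _ (map_zero π)]
  have hN0 : N.map π ≠ 0 := fun h => ht1 (by
    rw [hN, Matrix.map_sub _ (map_sub π), Matrix.map_one _ (map_zero π) (map_one π),
      sub_eq_zero] at h
    exact h)
  obtain ⟨j, hj⟩ : ∃ j : Fin 2, (!![N.map π 0 j, (1 : Matrix (Fin 2) (Fin 2) (ZMod 2)) 0 j;
      N.map π 1 j, (1 : Matrix (Fin 2) (Fin 2) (ZMod 2)) 1 j]).det = 1 := by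
    revert hsq' hN0
    generalize N.map π = A
    revert A
    decide
  set P := !![N 0 j, (1 : Matrix (Fin 2) (Fin 2) (ZMod (2 ^ n))) 0 j;
    N 1 j, (1 : Matrix (Fin 2) (Fin 2) (ZMod (2 ^ n))) 1 j] with hP
  have hPm : P.map π = !![N.map π 0 j, (1 : Matrix (Fin 2) (Fin 2) (ZMod 2)) 0 j;
      N.map π 1 j, (1 : Matrix (Fin 2) (Fin 2) (ZMod 2)) 1 j] := by
    have e : ∀ i, π ((1 : Matrix (Fin 2) (Fin 2) (ZMod (2 ^ n))) i j) =
        (1 : Matrix (Fin 2) (Fin 2) (ZMod 2)) i j := fun i => by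
      rw [Matrix.one_apply, Matrix.one_apply, apply_ite π, map_one, map_zero]
    ext a b; fin_cases a <;> fin_cases b <;> simp [hP, e]
  have hPu : IsUnit P := by
    refine (Matrix.isUnit_iff_isUnit_det _).mpr (isUnit_of_mod2 hn _ ?_)
    rw [RingHom.map_det, RingHom.mapMatrix_apply]
    exact hPm ▸ hj
  have htP : t * P = P * upperU 1 := by
    have hc : ∀ i, (N * N) i j = 0 := fun i => by rw [hsq]; rfl
    have h0 := hc 0
    have h1 := hc 1
    rw [Matrix.mul_apply, Fin.sum_univ_two] at h0 h1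
    rw [show t = N + 1 from (sub_add_cancel _ _).symm]
    rcases ((by decide : ∀ i : Fin 2, i = 0 ∨ i = 1) j) with rfl | rfl <;> ext a b <;>
      fin_cases a <;> fin_cases b <;>
      simp [hP, upperU, Matrix.mul_apply, Matrix.add_apply] at h0 h1 ⊢ <;>
      first
        | linear_combination h0
        | linear_combination h1
  exact ⟨P, hPu, htP⟩

/-- A subgroup of `GL₂(ℤ/2ⁿ)` with full determinant, no fixed vector modulo two and an element
`t ≢ 1` with `(t - 1)² = 0` is everything. -/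
theorem eq_top_of_transvection {n : ℕ} (hn : n ≠ 0) {G : Subgroup (GL (Fin 2) (ZMod (2 ^ n)))}
    {t : GL (Fin 2) (ZMod (2 ^ n))} (ht : t ∈ G)
    (hsq : ((t : Matrix (Fin 2) (Fin 2) (ZMod (2 ^ n))) - 1) *
      ((t : Matrix (Fin 2) (Fin 2) (ZMod (2 ^ n))) - 1) = 0)
    (ht1 : (t : Matrix (Fin 2) (Fin 2) (ZMod (2 ^ n))).map (mod2 hn) ≠ 1)
    (hirr : ∀ v : Fin 2 → ZMod 2, v ≠ 0 → ∃ g ∈ G,
      (g : Matrix (Fin 2) (Fin 2) (ZMod (2 ^ n))).map (mod2 hn) *ᵥ v ≠ v)
    (hdet : ∀ u : (ZMod (2 ^ n))ˣ, ∃ h ∈ G,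
      (h : Matrix (Fin 2) (Fin 2) (ZMod (2 ^ n))).det = u) : G = ⊤ := by
  have : NeZero (2 ^ n) := ⟨pow_ne_zero _ two_ne_zero⟩
  set π := mod2 hn
  obtain ⟨P, hPu, htP⟩ := exists_conj_upperU hn hsq ht1
  set p := hPu.unit with hp
  have hpv : (p : Matrix (Fin 2) (Fin 2) (ZMod (2 ^ n))) = P := hPu.unit_spec
  set G' := G.comap (MulAut.conj p).toMonoidHom with hG'
  have hmem : ∀ g, g ∈ G' ↔ p * g * p⁻¹ ∈ G := fun g => Iff.rfl
  suffices hT : G' = ⊤ by
    rw [eq_top_iff]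
    intro g _
    have h := (hmem (p⁻¹ * g * p)).mp (hT ▸ Subgroup.mem_top _)
    simpa [mul_assoc] using h
  have h1 : upperU 1 ∈ matsOf G' := by
    refine mem_matsOf.mpr ⟨p⁻¹ * t * p, (hmem _).mpr (by simpa [mul_assoc] using ht), ?_⟩
    rw [mul_assoc, Units.val_mul, Units.inv_mul_eq_iff_eq_mul, Units.val_mul, hpv, htP]
  obtain ⟨g, hg, hgv⟩ := hirr (P.map π *ᵥ ![1, 0]) (fun h => by
    have hz := congrArg (fun A => A *ᵥ ![(1 : ZMod 2), 0])
      (Matrix.nonsing_inv_mul (P.map π) (by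
        rw [← RingHom.mapMatrix_apply, ← RingHom.map_det]
        exact ((Matrix.isUnit_iff_isUnit_det _).mp hPu).map π))
    simp only [← Matrix.mulVec_mulVec, h, Matrix.mulVec_zero, Matrix.one_mulVec] at hz
    exact absurd (congrFun hz 0) (by decide))
  refine eq_top_of_upperU π (isUnit_of_mod2 hn) (fun x => ⟨x.val, (ZMod.natCast_zmod_val x).symm⟩)
    h1 (g := p⁻¹ * g * p) ((hmem _).mpr (by simpa [mul_assoc] using hg)) ?_ fun u => ?_
  · set h := p⁻¹ * g * p with hh
    by_contra hc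
    apply hgv
    have he : (g : Matrix (Fin 2) (Fin 2) (ZMod (2 ^ n))) * P =
        P * (h : Matrix (Fin 2) (Fin 2) (ZMod (2 ^ n))) := by
      rw [hh, ← hpv, ← Units.val_mul, ← Units.val_mul]
      simp [mul_assoc]
    have hu : IsUnit ((h : Matrix (Fin 2) (Fin 2) (ZMod (2 ^ n))).map π).det := by
      rw [← RingHom.mapMatrix_apply, ← RingHom.map_det]
      exact ((Matrix.isUnit_iff_isUnit_det _).mp h.isUnit).map π
    rw [Matrix.mulVec_mulVec, ← Matrix.map_mul, he, Matrix.map_mul, ← Matrix.mulVec_mulVec]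
    congr 1
    have hc' : (h : Matrix (Fin 2) (Fin 2) (ZMod (2 ^ n))).map π 1 0 ≠ 1 := hc
    revert hu hc'
    generalize (h : Matrix (Fin 2) (Fin 2) (ZMod (2 ^ n))).map π = A
    intro hu hc'
    have hd : A.det ≠ 0 := hu.ne_zero
    revert hd hc'
    clear hu
    revert A
    decide
  · obtain ⟨h, hhG, hhd⟩ := hdet u
    refine ⟨p⁻¹ * h * p, (hmem _).mpr (by simpa [mul_assoc] using hhG), ?_⟩
    rw [Units.val_mul, Units.val_mul, Matrix.det_mul_comm, ← mul_assoc, Units.mul_inv, one_mul]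
    exact hhd

end FLTA.LT2.Image
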