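import Fermat.Agent.LT2.Local2Flat

/-!
# Local conditions at `2`: the flat bound

The line `Low` has at most one nontrivial class, flat deformations lie in it, and a flat
deformation with trivial Steinberg part is, up to a coboundary, zero on inertia.
-/

set_option autoImplicit false

open scoped Matrix

noncomputable section

namespace FLTA.LT2

open FLTA.TaylorWiles.Flat (M2 cobd inerG)
open FLTA.PT (Gl)

attribute [local instance] FLTA.PT.factPrime

variable {M : Gl twoP →* M2 (ZMod 2)}

/-- Two classes on the line: one of them or their sum is trivial. -/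
theorem low_line (hM : Res2 M) {c c' : Gl twoP → V2} (hc : IsVecCoc M c) (hc' : IsVecCoc M c')
    (h : Low c) (h' : Low c') : VecTrivial M c ∨ VecTrivial M c' ∨ VecTrivial M (c + c') :=
  low_line' hM hc hc' h h'

/-- The Steinberg part of a flat deformation lies on the line. -/
theorem low_of_flatExt (hM : Res2 M) {z : Gl twoP → M2 (ZMod 2)} (h : FlatExt M z) :
    Low fun g => stVec (z g) :=
  low_of_flatExt' hM h

/-- A flat deformation with trivial Steinberg part is unramified up to a coboundary. -/
theorem unramified_of_flatExt (hM : Res2 M) {z : Gl twoP → M2 (ZMod 2)} (h : FlatExt M z)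
    (hst : VecTrivial M fun g => stVec (z g)) :
    ∃ X : M2 (ZMod 2), X.trace = 0 ∧ ∀ g ∈ inerG twoP, (z + cobd M X) g = 0 := by
  obtain ⟨X, hX, hX0⟩ := exists_cobd_of_vecTrivial hst
  exact ⟨X, hX, eq_zero_of_flatExt_scalar hM (h.add_cobd hM X hX) hX0⟩

end FLTA.LT2

end
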