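import Fermat.Agent.LT2.Local2Frame
import Fermat.Agent.TaylorWiles.FlatOrbit

/-!
# The layers of the coordinates of a class in the standard module at `2`

The coordinates `σ ↦ pairV v (c σ)` on the tame kernel are unit classes; conjugation by inertia
permutes them through the order three element, so the layer `3` vanishes and the layers `1`, `5`
are determined by one value each.
-/

set_option autoImplicit false
set_option linter.style.haveILetI false

open scoped Matrix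

noncomputable section

namespace FLTA.LT2

open FLTA.TaylorWiles.Flat (M2 Tame inerG Res red nnnorm_rootOfUnity)
open FLTA.TaylorWiles.Flat.Tame (conjTwist cy)
open FLTA.PT (Gl Ql lvlLoc locAut)

attribute [local instance] FLTA.PT.factPrime

theorem mulVec_cube (A : M2 (ZMod 2)) (hA : A * A + A + 1 = 0) (v : V2) :
    A *ᵥ (A *ᵥ v) = A *ᵥ v + v ∧ A *ᵥ (A *ᵥ (A *ᵥ v)) = v := by
  constructor
  · have h : A * A = A + 1 := by
      have h1 : ∀ A : M2 (ZMod 2), A * A + A + 1 = 0 → A * A = A + 1 := by decide +kernel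
      exact h1 A hA
    rw [Matrix.mulVec_mulVec, h, Matrix.add_mulVec, Matrix.one_mulVec]
  · rw [Matrix.mulVec_mulVec, Matrix.mulVec_mulVec, (order_three_cube A hA).1,
      Matrix.one_mulVec]

set_option synthInstance.maxSize 2000 in
theorem v2_span {A : M2 (ZMod 2)} (hA : A * A + A + 1 = 0) {v : V2} (hv : v ≠ 0) (u : V2) :
    u = 0 ∨ u = v ∨ u = A *ᵥ v ∨ u = A *ᵥ v + v := by
  have hcard : ∀ v w u : V2, v ≠ 0 → w ≠ 0 → w ≠ v → u = 0 ∨ u = v ∨ u = w ∨ u = w + v := by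
    decide +kernel
  obtain ⟨h2, h3⟩ := mulVec_cube A hA v
  refine hcard v (A *ᵥ v) u hv (fun h => hv ?_) (fun h => hv ?_)
  · rw [← h3, h]; simp
  · rw [h, h] at h2
    exact left_eq_add.mp h2

variable {M : Gl twoP →* M2 (ZMod 2)} {T : Tame twoP}

/-- The coordinate of `c` along `v`. -/
def chiV (c : Gl twoP → V2) (v : V2) (σ : Gl twoP) : ZMod 2 := pairV v (c σ)

theorem chiV_add (c : Gl twoP → V2) (v w : V2) : chiV c (v + w) = chiV c v + chiV c w :=
  funext fun σ => pairV_add_left v w (c σ)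

theorem IsVecCoc.conj_apply {c : Gl twoP → V2} (hc : IsVecCoc M c) (g : Gl twoP) {σ : Gl twoP}
    (hσ : M σ = 1) : c (g⁻¹ * σ * g) = M g⁻¹ *ᵥ c σ := by
  have h := hc.coc g⁻¹ g
  rw [inv_mul_cancel, hc.map_one] at h
  rw [hc.coc, hc.coc, map_mul, hσ, mul_one, add_right_comm, ← h, zero_add]

namespace Frame2

theorem f0_eq (R : Frame2 M T) : T.f0 = 3 := by
  have h := T.f0_mul
  rwa [R.he, show (twoP : ℕ) - 1 = 1 from rfl, mul_one] at h

theorem top_eq (R : Frame2 M T) : T.top = 6 := by rw [Tame.top, R.f0_eq]; rfl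

variable (R : Frame2 M T) {c : Gl twoP → V2} (hc : IsVecCoc M c)
include R hc

theorem isHom_chiV (v : V2) : T.IsHom (chiV c v) := by
  refine ⟨fun a ha b _ => ?_, ?_⟩
  · show pairV v (c (a * b)) = pairV v (c a) + pairV v (c b)
    rw [hc.coc, R.hH a ha, Matrix.one_mulVec, pairV_add_right]
  · obtain ⟨U, hU, h⟩ := hc.level
    exact ⟨U, hU, fun u hu _ => by rw [chiV, h u hu, pairV_zero_right]⟩

theorem conjTwist_chiV (g : Gl twoP) (v : V2) {σ : Gl twoP} (hσ : σ ∈ T.H) :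
    conjTwist g (cy g) (chiV c v) σ = chiV c (M g *ᵥ v) σ := by
  show ((cy g : ℕ) : ZMod 2) * pairV v (c (g⁻¹ * σ * g)) = pairV (M g *ᵥ v) (c σ)
  rw [cy_cast g T, one_mul, hc.conj_apply g (R.hH σ hσ),
    ← pairV_mulVec (M g) v _ (det_eq_one (FLTA.TaylorWiles.Flat.M_mul_inv g)),
    Matrix.mulVec_mulVec, FLTA.TaylorWiles.Flat.M_mul_inv, Matrix.one_mulVec]

theorem unitClass_chiV (u : V2) : T.UnitClass (chiV c u) := by
  obtain ⟨h2, h3⟩ := mulVec_cube _ R.hA u
  refine (FLTA.TaylorWiles.Flat.Tame.unitClass_conj_sub T (R.isHom_chiV hc (M R.s *ᵥ u))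
    R.s).congr fun σ hσ => ?_
  show conjTwist R.s (cy R.s) (chiV c (M R.s *ᵥ u)) σ - chiV c (M R.s *ᵥ u) σ = chiV c u σ
  rw [R.conjTwist_chiV hc R.s _ hσ, sub_eq_add_neg, ZMod.neg_eq_self_mod_two, h2, chiV_add,
    Pi.add_apply, add_right_comm, CharTwo.add_self_eq_zero (R := ZMod 2), zero_add]

variable {n : ℕ} (hn : Odd n) (hn6 : n < 6) (hd : ∀ v, T.Deep (chiV c v) n)
include hn hn6 hd

omit hc in
omit hd in
theorem layer_hyps : 1 ≤ n ∧ n < T.top ∧ ¬ ((twoP : Nat.Primes) : ℕ) ∣ n :=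
  ⟨hn.pos, by rw [R.top_eq]; exact hn6, hn.not_two_dvd_nat⟩

omit hc in
theorem lead_chiV_add (v w : V2) :
    T.lead n (chiV c (v + w)) = T.lead n (chiV c v) + T.lead n (chiV c w) := by
  obtain ⟨h1, h2, h3⟩ := R.layer_hyps hn hn6
  rw [chiV_add]
  exact FLTA.TaylorWiles.Flat.Tame.lead_add h1 h2 h3 (hd v) (hd w)

theorem lead_chiV_inertia (v : V2) :
    T.lead n (chiV c (M R.s *ᵥ v)) = red R.ξ ^ n * T.lead n (chiV c v) := by
  obtain ⟨h1, h2, h3⟩ := R.layer_hyps hn hn6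
  rw [← FLTA.TaylorWiles.Flat.Tame.lead_conj_inerG h1 h2 h3 (hd v) R.hs R.hξ.pow_eq_one R.hsπ]
  exact FLTA.TaylorWiles.Flat.Tame.lead_congr h1 h2 h3 ((hd v).conj R.s)
    fun σ hσ => R.conjTwist_chiV hc R.s v hσ

theorem lead_chiV_frobenius (v : V2) :
    T.lead n (chiV c (M R.F *ᵥ v)) = T.lead n (chiV c v) ^ 2 := by
  obtain ⟨h1, h2, h3⟩ := R.layer_hyps hn hn6
  exact (FLTA.TaylorWiles.Flat.Tame.lead_congr h1 h2 h3 ((hd v).conj R.F)
    fun σ hσ => R.conjTwist_chiV hc R.F v hσ).trans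
      (FLTA.TaylorWiles.Flat.Tame.lead_conj_frobenius h1 h2 h3 (hd v) R.hF R.hFπ)

/-- One vanishing coordinate makes the whole layer vanish. -/
theorem lead_chiV_eq_zero {v : V2} (hv : v ≠ 0) (h : T.lead n (chiV c v) = 0) (u : V2) :
    T.lead n (chiV c u) = 0 := by
  have hA : T.lead n (chiV c (M R.s *ᵥ v)) = 0 := by
    rw [R.lead_chiV_inertia hc hn hn6 hd, h, mul_zero]
  rcases v2_span R.hA hv u with rfl | rfl | rfl | rfl
  · have h0 := R.lead_chiV_add hn hn6 hd 0 0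
    rw [add_zero] at h0
    exact left_eq_add.mp h0
  · exact h
  · exact hA
  · rw [R.lead_chiV_add hn hn6 hd, hA, h, add_zero]

omit hn hn6 hd in
theorem lead_three (hd : ∀ v, T.Deep (chiV c v) 3) (u : V2) : T.lead 3 (chiV c u) = 0 := by
  have hn : Odd 3 := by decide
  have hA : ∀ v : V2, T.lead 3 (chiV c (M R.s *ᵥ v)) = T.lead 3 (chiV c v) := fun v => by
    rw [R.lead_chiV_inertia hc hn (by norm_num) hd]
    have h1 : red R.ξ ^ 3 = 1 := by
      have h := R.hξ.pow_eq_one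
      rw [R.he] at h
      rw [← FLTA.TaylorWiles.Flat.red_pow (nnnorm_rootOfUnity (by norm_num) h).le, h,
        FLTA.TaylorWiles.Flat.red_one]
    rw [h1, one_mul]
  have h := congrArg (fun w => T.lead 3 (chiV c w)) (mulVec_cube _ R.hA u).1
  beta_reduce at h
  rw [hA, hA, R.lead_chiV_add hn (by norm_num) hd, hA] at h
  exact left_eq_add.mp h

omit hn hn6 hd in
/-- Without layer `1` a class is deep of level `5`. -/
theorem deep_five (h1 : ∀ v, T.lead 1 (chiV c v) = 0) (v : V2) : T.Deep (chiV c v) 5 := by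
  have htop := R.top_eq
  have h3 : ∀ u, T.Deep (chiV c u) 3 := fun u => by
    refine FLTA.TaylorWiles.Flat.Tame.deep_of_leads (n := 1) le_rfl (by omega)
      (R.unitClass_chiV hc u).deep_one fun j hj1 hj2 hj3 _ => ?_
    interval_cases j
    · exact h1 u
    · exact absurd (dvd_refl 2) hj3
  refine FLTA.TaylorWiles.Flat.Tame.deep_of_leads (n := 3) (by omega) (by omega) (h3 v)
    fun j hj1 hj2 hj3 _ => ?_
  interval_cases j
  · exact R.lead_three hc h3 v
  · exact absurd ⟨2, rfl⟩ hj3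

end Frame2

end FLTA.LT2

end
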