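import Fermat.Agent.LT2.Local2Line

/-!
# Flat extensions at `2`: no layer `1`, and unramified when the Steinberg part is trivial
-/

set_option autoImplicit false
set_option linter.style.haveILetI false

open scoped Matrix NNReal

noncomputable section

namespace FLTA.LT2

open FLTA.TaylorWiles.Flat (M2 Tame inerG Res red cobd IntModel inerAut nnnorm_rootOfUnity)
open FLTA.TaylorWiles.Flat.Tame (conjTwist cy)
open FLTA.PT (Gl Ql lvlLoc locAut)

attribute [local instance] FLTA.PT.factPrime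

theorem res_root_facts {q : Nat.Primes} (hq : (q : ℕ) = 2) (x : Res q) (h3 : x ^ 3 = 1)
    (h1 : x ≠ 1) : x ^ 2 + 1 = x ∧ x ^ 5 ≠ 1 ∧ (1 : Res q) ^ 2 + 1 ≠ 1 := by
  have h2 : (2 : Res q) = 0 := by
    have h : (((q : ℕ)) : Res q) = 0 :=
      ((FLTA.TaylorWiles.Flat.charP_res (q := q)).cast_eq_zero_iff _).mpr dvd_rfl
    have e : (((q : ℕ)) : Res q) = ((2 : ℕ) : Res q) := congrArg Nat.cast hq
    rw [e] at h
    exact_mod_cast h
  refine ⟨?_, fun h5 => h1 ?_, ?_⟩
  · have h : (x - 1) * (x ^ 2 + x + 1) = 0 := by linear_combination h3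
    have h' := (mul_eq_zero.mp h).resolve_left (sub_ne_zero.mpr h1)
    linear_combination h' - x * h2
  · linear_combination (-x) * h5 + (x ^ 3 + 1) * h3
  · intro h
    apply one_ne_zero (α := Res q)
    linear_combination h

theorem eq_zero_of_mul_eq {q : Nat.Primes} {a x : Res q} (ha : a ≠ 1) (h : x = a * x) : x = 0 := by
  by_contra hx
  exact ha (mul_right_cancel₀ hx (h.symm.trans (one_mul x).symm))

theorem scalar_of_stVec : ∀ X : M2 (ZMod 2), X 0 0 + X 1 1 = 0 → X 0 1 = 0 → X 1 0 = 0 →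
    X = X 0 0 • (1 : M2 (ZMod 2)) := by decide +kernel

theorem pairV_mulVec_self {X : M2 (ZMod 2)} (hX : X.trace = 0) (v : V2) :
    pairV v (X *ᵥ v) = pairV v (stVec X) := by
  rw [Matrix.trace_fin_two] at hX
  simp only [pairV, stVec, Matrix.mulVec, dotProduct, Fin.sum_univ_two, Matrix.cons_val_zero,
    Matrix.cons_val_one]
  revert hX
  generalize X 0 0 = a
  generalize X 0 1 = b
  generalize X 1 0 = c
  generalize X 1 1 = d
  generalize v 0 = v₀
  generalize v 1 = v₁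
  revert a b c d v₀ v₁
  decide

set_option synthInstance.maxSize 2000 in
theorem pairV_eq_zero_iff : ∀ v w : V2, v ≠ 0 → (pairV v w = 0 ↔ w = 0 ∨ w = v) := by
  decide +kernel

variable {M : Gl twoP →* M2 (ZMod 2)} {z : Gl twoP → M2 (ZMod 2)}

theorem FlatExt.add_cobd (hM : Res2 M) (h : FlatExt M z) (Y : M2 (ZMod 2)) (hY : Y.trace = 0) :
    FlatExt M (z + cobd M Y) := by
  obtain ⟨X, iX, act, N, e, p, hN, hone, hmul, h2, he, hae, hap⟩ := h.model
  refine ⟨h.toIsAdCoc.add (FLTA.TaylorWiles.Flat.isAdCoc_cobd hM.level Y hY), X, iX, act, N, e,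
    fun v => p v + e (Y *ᵥ v), hN, hone, hmul, h2, he, hae, fun g v => ?_⟩
  show act g (p v + e (Y *ᵥ v)) = p (M g *ᵥ v) + e (Y *ᵥ (M g *ᵥ v)) + _
  rw [map_add, hap, hae, Pi.add_apply, add_assoc, add_assoc, ← map_add, ← map_add]
  congr 2
  rw [cobd, add_mul, sub_mul, mul_assoc (M g * Y), FLTA.TaylorWiles.Flat.M_inv_mul, mul_one,
    Matrix.add_mulVec, Matrix.sub_mulVec, Matrix.mulVec_mulVec, Matrix.mulVec_mulVec]
  abel

variable {T : Tame twoP}

namespace Frame2

theorem red_ξ (R : Frame2 M T) : red R.ξ ^ 3 = 1 ∧ red R.ξ ≠ 1 := by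
  have h := R.hξ.pow_eq_one
  rw [R.he] at h
  refine ⟨by rw [← FLTA.TaylorWiles.Flat.red_pow (nnnorm_rootOfUnity (by norm_num) h).le, h,
    FLTA.TaylorWiles.Flat.red_one], fun h1 => ?_⟩
  have := FLTA.TaylorWiles.Flat.Tame.red_pow_inj T.not_dvd R.hξ (a := 1) (b := 0)
    (by rw [pow_one, pow_zero]; exact h1)
  rw [R.he] at this
  exact absurd this (by decide)

/-- The generator as an element of inertia. -/
def sI (R : Frame2 M T) : inerG twoP := ⟨R.s, R.hs⟩

variable (R : Frame2 M T)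
variable {X : Type} [AddCommGroup X] {act : inerG twoP → X →+ X} {N : IntModel (Ql twoP) X}
  {e : V2 →+ X} {p : V2 → X} (hN : N.Equivariant act inerAut) (hone : ∀ x, act 1 x = x)
  (hmul : ∀ (a b : inerG twoP) x, act (a * b) x = act a (act b x))
  (h2 : ∀ x : X, (2 : ℕ) • x = 0) (he : Function.Injective e)
  (hae : ∀ (g : inerG twoP) w, act g (e w) = e (M (g : Gl twoP) *ᵥ w))
  (hap : ∀ (g : inerG twoP) v, act g (p v) =
    p (M (g : Gl twoP) *ᵥ v) + e ((z g * M (g : Gl twoP)) *ᵥ v))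

include R hae

theorem hFixed_translation {a : X} (ha : a ∈ e.range) : T.HFixed act a := by
  obtain ⟨w, rfl⟩ := ha
  intro h hh
  rw [hae, R.hH _ hh, Matrix.one_mulVec]

include hN hone hmul h2 he

/-- Nonzero translations are at distance `|π|`, and one coordinate sees all of them. -/
theorem exists_coord : ∃ i : N.ι, ∀ a ∈ e.range, a ≠ 0 →
    N.w a = ‖T.π‖₊ ∧ ‖N.G i a‖₊ = ‖T.π‖₊ := by
  obtain ⟨hx3, hx1⟩ := R.red_ξ
  obtain ⟨hroot, -, hone2⟩ := res_root_facts rfl _ hx3 hx1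
  have hlt : ∀ w, N.w (e w) < 1 := fun w => by
    have h : e w = act R.sI (e (M R.s *ᵥ w)) - e (M R.s *ᵥ w) := by
      rw [hae, ← map_sub]
      show e w = e (M R.s *ᵥ (M R.s *ᵥ w) - M R.s *ᵥ w)
      rw [(mulVec_cube _ R.hA w).1, add_sub_cancel_left]
    rw [h]
    exact N.w_act_sub_lt_one hN R.sI
      (fun a ha => FLTA.TaylorWiles.Flat.nnnorm_inerG_sub_lt R.hs ha) _
  have hw : ∀ a ∈ e.range, a ≠ 0 → N.w a = ‖T.π‖₊ := by
    rintro _ ⟨w, rfl⟩ h0
    have hy : T.HFixed act (e w) := R.hFixed_translation hae ⟨w, rfl⟩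
    obtain ⟨m, hm1, hmf, hm⟩ :=
      FLTA.TaylorWiles.Flat.Tame.exists_exponent hN hy (h2 _) h0 (hlt w)
    have hrel : act R.sI (act R.sI (e w)) + (1 : ℕ) • e w = (1 : ℕ) • act R.sI (e w) := by
      rw [one_smul, one_smul, hae, hae]
      show e (M R.s *ᵥ (M R.s *ᵥ w)) + e w = e (M R.s *ᵥ w)
      rw [(mulVec_cube _ R.hA w).1, map_add, add_assoc, ← two_nsmul, h2, add_zero]
    have hquad := FLTA.TaylorWiles.Flat.Tame.quadratic_eq_zero hN hm1 hm R.sI R.hξ.pow_eq_one
      R.hsπ hrel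
    rw [R.f0_eq] at hmf
    interval_cases m
    · rw [hm, pow_one]
    · exact absurd hm (FLTA.TaylorWiles.Flat.Tame.w_ne_pow_q_of_lt hN hone hmul h2
        (by rw [R.he]; decide) (by rw [R.he]; rfl) R.hξ R.sI R.hsπ hy hrel
        (by simpa using hroot))
    · rw [hx3] at hquad
      exact absurd (by simpa using hquad) hone2
  haveI : Finite e.range := Finite.of_surjective (fun w => (⟨e w, ⟨w, rfl⟩⟩ : e.range))
    fun ⟨_, w, hw⟩ => ⟨w, Subtype.ext hw⟩
  have hcard : Nat.card e.range ≤ ((twoP : Nat.Primes) : ℕ) ^ 2 := by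
    rw [Nat.card_congr (AddMonoidHom.ofInjective he).symm.toEquiv, Nat.card_eq_fintype_card,
      Fintype.card_fun, ZMod.card, Fintype.card_fin]
  have hne : e.range ≠ ⊥ := fun h => by
    have h1 : e ![1, 0] = 0 := AddSubgroup.mem_bot.mp (h ▸ ⟨_, rfl⟩)
    exact absurd (congrFun (he (h1.trans (map_zero e).symm)) 0) (by decide)
  obtain ⟨i, hi⟩ := FLTA.TaylorWiles.Flat.Tame.exists_coord_injective hN h2
    (by rw [R.he]; rfl) R.hξ R.sI R.hsπ e.range hcard hne
    (fun a ⟨w, hw⟩ => ⟨M R.s *ᵥ w, by rw [← hw, hae]; rfl⟩) hw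
  exact ⟨i, fun a ha h0 => ⟨hw a ha h0, hi a ha h0⟩⟩

omit hone h2 he
variable (hz : FLTA.TaylorWiles.Flat.IsAdCoc M z)
include hap hz

/-- The test point above `v`. -/
theorem exists_point (v : V2) : ∃ x : X, N.w x < 1 ∧
    ∀ h : inerG twoP, (h : Gl twoP) ∈ T.H → act h x - x = e (z h *ᵥ v) := by
  set u := M R.s *ᵥ v
  refine ⟨act R.sI (p u) - p u, N.w_act_sub_lt_one hN R.sI
    (fun a ha => FLTA.TaylorWiles.Flat.nnnorm_inerG_sub_lt R.hs ha) _, fun h hh => ?_⟩
  have hp : ∀ g : inerG twoP, (g : Gl twoP) ∈ T.H → act g (p u) = p u + e (z g *ᵥ u) := by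
    intro g hg
    rw [hap, R.hH _ hg, Matrix.one_mulVec, mul_one]
  set h' : inerG twoP := R.sI⁻¹ * h * R.sI with hh'
  have hh'H : (h' : Gl twoP) ∈ T.H := T.conj_mem_H' hh R.s
  have h1 : act h (act R.sI (p u)) = act R.sI (p u) + e (z h *ᵥ (M R.s *ᵥ u)) := by
    rw [← hmul, show h * R.sI = R.sI * h' by rw [hh']; group, hmul, hp _ hh'H, map_add, hae]
    congr 2
    show M R.s *ᵥ (z (R.s⁻¹ * (h : Gl twoP) * R.s) *ᵥ u) = _
    rw [hz.apply_conj' R.s (R.hH _ hh), Matrix.mulVec_mulVec, Matrix.mulVec_mulVec, ← mul_assoc,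
      ← mul_assoc, FLTA.TaylorWiles.Flat.M_mul_inv, one_mul]
    simp only [u, Matrix.mulVec_mulVec, mul_assoc]
  rw [map_sub, h1, hp h hh,
    show act R.sI (p u) + e (z h *ᵥ (M R.s *ᵥ u)) - (p u + e (z h *ᵥ u)) - (act R.sI (p u) - p u) =
      e (z h *ᵥ (M R.s *ᵥ u)) - e (z h *ᵥ u) by abel,
    ← map_sub, ← Matrix.mulVec_sub, show M R.s *ᵥ u - u = v by
      simp only [u]; rw [(mulVec_cube _ R.hA v).1, add_sub_cancel_left]]

end Frame2

theorem stVec_isZero {X : M2 (ZMod 2)} (hX : X.trace = 0) (h : stVec X = 0) :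
    X = X 0 0 • (1 : M2 (ZMod 2)) := by
  rw [Matrix.trace_fin_two] at hX
  exact scalar_of_stVec X hX (congrFun h 0) (congrFun h 1)

/-- The Steinberg part of a flat extension lies on the line. -/
theorem low_of_flatExt' (hM : Res2 M) (h : FlatExt M z) : Low fun g => stVec (z g) := by
  intro T hT u
  obtain ⟨R⟩ := exists_frame hM T hT
  set c := fun g => stVec (z g) with hcdef
  have hc : IsVecCoc M c := stVec_isVecCoc h.toIsAdCoc
  refine R.deep_five hc (fun v => ?_) u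
  have hd : ∀ v, T.Deep (chiV c v) 1 := fun v => (R.unitClass_chiV hc v).deep_one
  obtain ⟨hn, hnt, hqn⟩ := R.layer_hyps (n := 1) (by decide) (by norm_num)
  by_contra hlead
  have hv : v ≠ 0 := by
    rintro rfl
    have h0 := R.lead_chiV_add (n := 1) (by decide) (by norm_num) hd 0 0
    rw [add_zero] at h0
    exact hlead (left_eq_add.mp h0)
  obtain ⟨X, iX, act, N, e, p, hN, hone, hmul, h2, he, hae, hap⟩ := h.model
  obtain ⟨i, hi⟩ := R.exists_coord hN hone hmul h2 he hae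
  obtain ⟨x, hx, hxH⟩ := R.exists_point hN hmul hae hap h.toIsAdCoc v
  obtain ⟨τ, hτ, hτ1⟩ : ∃ τ ∈ T.H, chiV c v τ ≠ 0 := by
    by_contra hcon
    push Not at hcon
    refine hlead ?_
    rw [FLTA.TaylorWiles.Flat.Tame.lead_congr hn hnt hqn (T.deep_zero 1)
      (fun σ hσ => (hcon σ hσ).symm)]
    exact FLTA.TaylorWiles.Flat.Tame.lead_zero hn hnt hqn
  set S : AddSubgroup X := (AddSubgroup.zmultiples v).map e
  have hmemS : ∀ w, e w ∈ S ↔ w = 0 ∨ w = v := by
    intro w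
    rw [AddSubgroup.mem_map_iff_mem he, AddSubgroup.mem_zmultiples_iff]
    constructor
    · rintro ⟨k, rfl⟩
      rcases Int.even_or_odd k with ⟨m, rfl⟩ | ⟨m, rfl⟩
      · left; rw [← two_mul, mul_comm, mul_smul, two_smul]
        simp [CharTwo.add_self_eq_zero (R := ZMod 2), funext_iff]
      · right; rw [add_smul, one_smul, mul_comm, mul_smul, two_smul]
        simp [CharTwo.add_self_eq_zero (R := ZMod 2), funext_iff]
    · rintro (rfl | rfl)
      · exact ⟨0, zero_smul _ _⟩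
      · exact ⟨1, one_smul _ _⟩
  haveI : Finite S := Finite.of_surjective
    (fun w : AddSubgroup.zmultiples v => (⟨e w, ⟨w, w.2, rfl⟩⟩ : S))
    fun ⟨_, w, hw, hwe⟩ => ⟨⟨w, hw⟩, Subtype.ext hwe⟩
  have hcardS : Nat.card S = 2 := by
    rw [← Nat.card_congr ((AddSubgroup.zmultiples v).equivMapOfInjective e he).toEquiv,
      Nat.card_zmultiples]
    refine addOrderOf_eq_prime ?_ hv
    rw [two_nsmul]
    exact funext fun _ => CharTwo.add_self_eq_zero (R := ZMod 2) _
  have hchi : ∀ σ, chiV c v σ = 0 ↔ z σ *ᵥ v = 0 ∨ z σ *ᵥ v = v := fun σ => by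
    rw [← pairV_eq_zero_iff v _ hv, pairV_mulVec_self (h.trace σ)]
    rfl
  refine FLTA.TaylorWiles.Flat.Tame.orbit_contradiction hN e.range S
    (AddSubgroup.map_le_range _ _) (fun a ha => R.hFixed_translation hae ha) hi hx hn hnt hqn
    (hd v) hlead ?_ (fun g hg hg0 => ?_) (τ := ⟨τ, T.H_le_inerG hτ⟩) hτ ?_ ?_
  · rw [hcardS, R.top_eq]; decide
  · rw [hxH g hg, hmemS]; exact (hchi _).mp hg0
  · rw [hxH _ hτ]; exact ⟨_, rfl⟩
  · rw [hxH _ hτ, hmemS]; exact fun hc' => hτ1 ((hchi _).mpr hc')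

/-- A flat extension with scalar values is unramified. -/
theorem eq_zero_of_flatExt_scalar (hM : Res2 M) (h : FlatExt M z) (hs : ∀ g, stVec (z g) = 0) :
    ∀ g ∈ inerG twoP, z g = 0 := by
  obtain ⟨T, hT⟩ := FLTA.TaylorWiles.Flat.exists_tame (q := twoP) (e := 3)
    (by decide) (one_dvd _)
  obtain ⟨R⟩ := exists_frame hM T hT
  have htop := R.top_eq
  set φ : Gl twoP → ZMod 2 := fun g => z g 0 0 with hφ
  have hz : ∀ g, z g = φ g • (1 : M2 (ZMod 2)) := fun g => stVec_isZero (h.trace g) (hs g)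
  have hconj : ∀ a g, M a * z g * M a⁻¹ = z g := fun a g => by
    rw [hz g, Matrix.mul_smul, mul_one, Matrix.smul_mul, FLTA.TaylorWiles.Flat.M_mul_inv]
  have hadd : ∀ a b, z (a * b) = z b + z a := fun a b => by rw [h.coc, hconj]
  have hφadd : ∀ a b, φ (a * b) = φ a + φ b := fun a b => by
    simp only [hφ, hadd, Matrix.add_apply]; ring
  have hφhom : T.IsHom φ := by
    refine ⟨fun a _ b _ => hφadd a b, ?_⟩
    obtain ⟨U, hU, hU0⟩ := h.level
    exact ⟨U, hU, fun u hu _ => by simp [hφ, hU0 u hu]⟩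
  have hφH : ∀ σ ∈ T.H, φ σ = 0 := by
    by_contra hcon
    push Not at hcon
    obtain ⟨τ, hτ, hτ1⟩ := hcon
    obtain ⟨X, iX, act, N, e, p, hN, hone, hmul, h2, he, hae, hap⟩ := h.model
    obtain ⟨i, hi⟩ := R.exists_coord hN hone hmul h2 he hae
    obtain ⟨x, hx, hxH⟩ := R.exists_point hN hmul hae hap h.toIsAdCoc ![1, 0]
    have hdiff : ∀ g : inerG twoP, (g : Gl twoP) ∈ T.H →
        act g x - x = e (φ g • ![1, 0]) := fun g hg => by
      rw [hxH g hg, hz, Matrix.smul_mulVec, Matrix.one_mulVec]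
    have hfix : ∀ g : inerG twoP, (g : Gl twoP) ∈ T.H → φ g = 0 → act g x - x = 0 :=
      fun g hg h0 => by rw [hdiff g hg, h0, zero_smul, map_zero]
    set a := act ⟨τ, T.H_le_inerG hτ⟩ x - x with ha
    have haA : a ∈ e.range := ⟨_, (hdiff ⟨τ, T.H_le_inerG hτ⟩ hτ).symm⟩
    have ha0 : a ≠ 0 := by
      rw [ha, hdiff ⟨τ, T.H_le_inerG hτ⟩ hτ]
      intro h0
      have := congrFun (he (h0.trans (map_zero e).symm)) 0
      simp at this
      exact hτ1 this
    rcases T.unitClass_or_valuation hφhom with hu | ⟨α, k, hα, hk1, hk2, hαk⟩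
    · -- unit class: the layers 1, 5 are killed by inertia, the layer 3 by the orbit
      have hsφ : ∀ σ ∈ T.H, conjTwist R.s (cy R.s) φ σ = φ σ := fun σ hσ => by
        show ((cy R.s : ℕ) : ZMod 2) * φ (R.s⁻¹ * σ * R.s) = φ σ
        have e1 := hφadd R.s⁻¹ R.s
        rw [inv_mul_cancel] at e1
        have e2 : φ 1 = 0 := by
          have e3 := hφadd 1 1
          rw [mul_one] at e3
          exact left_eq_add.mp e3
        rw [e2] at e1
        rw [cy_cast R.s T, one_mul, hφadd, hφadd, add_right_comm, ← e1, zero_add]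
      have hlead : ∀ n, Odd n → n < 6 → red R.ξ ^ n ≠ 1 → T.Deep φ n → T.lead n φ = 0 := by
        intro n hn hn6 hne hd
        obtain ⟨h1, h2', h3⟩ := R.layer_hyps (n := n) hn hn6
        refine eq_zero_of_mul_eq hne ?_
        exact (FLTA.TaylorWiles.Flat.Tame.lead_congr h1 h2' h3 (hd.conj R.s) hsφ).trans
          (FLTA.TaylorWiles.Flat.Tame.lead_conj_inerG h1 h2' h3 hd R.hs R.hξ.pow_eq_one R.hsπ)
      obtain ⟨hx3, hx1⟩ := R.red_ξ
      obtain ⟨-, h5, -⟩ := res_root_facts rfl _ hx3 hx1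
      have hd : T.Deep φ T.top := by
        refine FLTA.TaylorWiles.Flat.Tame.deep_of_leads (n := 1) le_rfl le_rfl hu.deep_one
          fun j hj1 hj2 hj3 hjd => ?_
        rw [htop] at hj2
        interval_cases j
        · exact hlead 1 (by decide) (by norm_num) (by rwa [pow_one]) hjd
        · exact absurd (dvd_refl 2) hj3
        · by_contra hl
          exact FLTA.TaylorWiles.Flat.Tame.orbit_contradiction hN e.range ⊥ bot_le
            (fun a ha => R.hFixed_translation hae ha) hi hx (by norm_num)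
            (by rw [htop]; norm_num) (by decide) hjd hl
            (by rw [AddSubgroup.card_bot, htop]; decide)
            (fun g hg hg0 => AddSubgroup.mem_bot.mpr (hfix g hg hg0))
            (τ := ⟨τ, T.H_le_inerG hτ⟩) hτ haA fun h0 => ha0 (AddSubgroup.mem_bot.mp h0)
        · exact absurd ⟨2, rfl⟩ hj3
        · exact hlead 5 (by decide) (by norm_num) h5 hjd
      exact hτ1 (hd.eq_zero hτ)
    · -- a valuation part moves points less than a translation
      have hk : ¬ ((twoP : Nat.Primes) : ℕ) ∣ k := fun hd => by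
        have := Nat.le_of_dvd (by omega) hd
        omega
      have hmove := T.move_lt_of_valuation hα hk hαk (z := N.G i x)
        ((N.norm_G_le i x).trans (N.w_le_one x)) (fun σ hσ hσ0 => by
          have hfx := sub_eq_zero.mp (hfix ⟨σ, T.H_le_inerG hσ⟩ hσ hσ0)
          have hG := N.G_act hN ⟨σ, T.H_le_inerG hσ⟩ i x
          rw [hfx] at hG
          exact hG.symm) hτ
      have hG := N.G_act hN ⟨τ, T.H_le_inerG hτ⟩ i x
      rw [show act ⟨τ, T.H_le_inerG hτ⟩ x = x + a by rw [ha]; abel] at hG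
      change N.G i (x + a) = locAut twoP τ (N.G i x) at hG
      rw [← hG] at hmove
      obtain ⟨hwa, hGa⟩ := hi a haA ha0
      have hlt : ‖N.G i (x + a) - N.G i x - N.G i a‖₊ < ‖T.π‖₊ := by
        refine lt_of_le_of_lt (N.norm_quad i x a) ?_
        rw [hwa]
        exact mul_lt_of_lt_one_left T.nnnorm_π_pos hx
      have heq : ‖N.G i (x + a) - N.G i x‖₊ = ‖T.π‖₊ := by
        rw [show N.G i (x + a) - N.G i x = (N.G i (x + a) - N.G i x - N.G i a) + N.G i a by ring,
          IsUltrametricDist.nnnorm_add_eq_max_of_nnnorm_ne_nnnorm (by rw [hGa]; exact hlt.ne), hGa,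
          max_eq_right hlt.le]
      rw [heq, R.f0_eq] at hmove
      have h31 := T.pow_π_lt_pow.mp ((pow_one ‖T.π‖₊).le.trans_lt hmove)
      omega
  have hzH : ∀ σ ∈ T.H, z σ = 0 := fun σ hσ => by rw [hz, hφH σ hσ, zero_smul]
  have hpow : ∀ j : ℕ, φ (R.s ^ j) = j • φ R.s := fun j => by
    induction j with
    | zero =>
      rw [pow_zero, zero_smul]
      have e3 := hφadd 1 1
      rw [mul_one] at e3
      exact left_eq_add.mp e3
    | succ j ih => rw [pow_succ, hφadd, ih, succ_nsmul]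
  have hs3 : R.s ^ 3 ∈ T.H := by
    rw [T.mem_H_iff]
    refine ⟨pow_mem R.hs _, ?_⟩
    rw [FLTA.TaylorWiles.Flat.pow_apply_root R.hs T.not_dvd R.hξ.pow_eq_one R.hsπ, ← R.he,
      R.hξ.pow_eq_one, one_mul]
  have hs0 : φ R.s = 0 := by
    have h3 := hpow 3
    rw [hφH _ hs3] at h3
    rw [show (3 : ℕ) • φ R.s = φ R.s + (φ R.s + φ R.s) by abel,
      CharTwo.add_self_eq_zero (R := ZMod 2), add_zero] at h3
    exact h3.symm
  intro g hg
  obtain ⟨j, -, σ, hσ, rfl⟩ := T.exists_pow_mul_mem_H R.hs R.hξ R.hsπ hg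
  rw [hadd, hzH σ hσ, hz, hpow, hs0, smul_zero, zero_smul, add_zero]

end FLTA.LT2

end
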