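import Fermat.Agent.LT2.LocalDefs
import Fermat.Agent.TaylorWiles.FlatLocalTame
import Fermat.Agent.TaylorWiles.FlatReducibleFrame

/-!
# The frame at `2`: inertia acts through a cyclic group of order three, split over the tame field
-/

set_option autoImplicit false
set_option linter.style.haveILetI false

open scoped Matrix

noncomputable section

namespace FLTA.LT2

open FLTA.TaylorWiles.Flat (M2 Tame inerG locAut_mul_apply mem_inerG root_mem_Knr)
open FLTA.PT (Gl Ql lvlLoc locAut)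

attribute [local instance] FLTA.PT.factPrime

theorem order_three_centralizer : ∀ A B : M2 (ZMod 2), A * A + A + 1 = 0 → A * B = B * A →
    B 0 0 * B 1 1 + B 0 1 * B 1 0 = 1 → B = 1 ∨ B = A ∨ B = A * A := by decide +kernel

theorem order_three_flip : ∀ A B : M2 (ZMod 2), A * A + A + 1 = 0 → B * A = A * A * B →
    B 0 0 * B 1 1 + B 0 1 * B 1 0 = 1 → ∃ a b : ZMod 2, (a, b) ≠ 0 ∧
      B 0 0 * a + B 0 1 * b = a ∧ B 1 0 * a + B 1 1 * b = b := by decide +kernel

theorem order_three_cube : ∀ A : M2 (ZMod 2), A * A + A + 1 = 0 → A * A * A = 1 ∧ A ≠ 1 := by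
  decide +kernel

theorem order_three_sq : ∀ A : M2 (ZMod 2), A * A + A + 1 = 0 →
    A * A * (A * A) * (A * A) = 1 ∧ A * A * (A * A) + A * A + 1 = 0 := by decide +kernel

theorem order_three_of_pow (A B : M2 (ZMod 2)) (hA : A * A + A + 1 = 0)
    (hB : B = 1 ∨ B = A ∨ B = A * A) : B * B * B = 1 ∧ (B ≠ 1 → B * B + B + 1 = 0) := by
  rcases hB with rfl | rfl | rfl
  · exact ⟨by simp, fun h => absurd rfl h⟩
  · exact ⟨(order_three_cube _ hA).1, fun _ => hA⟩
  · exact ⟨(order_three_sq _ hA).1, fun _ => (order_three_sq _ hA).2⟩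

theorem comm_order_three : ∀ x y y' : M2 (ZMod 2), x * x + x + 1 = 0 →
    y 0 0 * y 1 1 + y 0 1 * y 1 0 = 1 → y' 0 0 * y' 1 1 + y' 0 1 * y' 1 0 = 1 → y' * y = 1 →
    x * x * y' * (x * y) * (x * x * y' * (x * y)) * (x * x * y' * (x * y)) = 1 := by
  intro x y y' hx _ _ h
  have h' : y * y' = 1 := mul_eq_one_comm.mp h
  revert hx
  have hy : y' = y.adjugate := by
    have hd := det_eq_one h'
    rw [← Matrix.one_mul y', show (1 : M2 (ZMod 2)) = y.adjugate * y by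
      rw [Matrix.adjugate_mul, hd, one_smul], mul_assoc, h', mul_one]
  have key : ∀ x y : M2 (ZMod 2), x * x + x + 1 = 0 → y 0 0 * y 1 1 + y 0 1 * y 1 0 = 1 →
      x * x * !![y 1 1, y 0 1; y 1 0, y 0 0] * (x * y) *
        (x * x * !![y 1 1, y 0 1; y 1 0, y 0 0] * (x * y)) *
        (x * x * !![y 1 1, y 0 1; y 1 0, y 0 0] * (x * y)) = 1 := by decide +kernel
  intro hx
  have he : y' = !![y 1 1, y 0 1; y 1 0, y 0 0] := by
    rw [hy, Matrix.adjugate_fin_two]
    simp only [ZMod.neg_eq_self_mod_two]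
  rw [he]
  refine key x y hx ?_
  assumption

/-- Values of a representation have determinant one. -/
theorem entry_det {q : Nat.Primes} (M : Gl q →* M2 (ZMod 2)) (g : Gl q) :
    M g 0 0 * M g 1 1 + M g 0 1 * M g 1 0 = 1 := by
  have h := det_eq_one (FLTA.TaylorWiles.Flat.M_mul_inv (M := M) g)
  rw [Matrix.det_fin_two, sub_eq_add_neg, ZMod.neg_eq_self_mod_two] at h
  exact h

/-- The twist by the cyclotomic character is trivial modulo two. -/
theorem cy_cast (g : Gl twoP) (T : Tame twoP) : ((Tame.cy g : ℕ) : ZMod 2) = 1 := by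
  have h0 : ((Tame.cy g : ℕ) : ZMod 2) ≠ 0 := by
    intro h
    obtain ⟨m, hm⟩ := (ZMod.natCast_eq_zero_iff _ _).mp h
    have h1 := T.locAut_zp g
    rw [hm, pow_mul, show T.zp ^ 2 = 1 from T.zp_prim.pow_eq_one, one_pow] at h1
    exact T.zp_prim.ne_one one_lt_two ((map_eq_one_iff _ (locAut twoP g).injective).mp h1)
  revert h0
  generalize ((Tame.cy g : ℕ) : ZMod 2) = a
  revert a
  decide

/-- The tame cubic field with chosen elements adapted to `M`. -/
structure Frame2 (M : Gl twoP →* M2 (ZMod 2)) (T : Tame twoP) where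
  he : T.e = 3
  ξ : Ql twoP
  hξ : IsPrimitiveRoot ξ T.e
  s : Gl twoP
  hs : s ∈ inerG twoP
  hsπ : locAut twoP s T.π = ξ * T.π
  F : Gl twoP
  hF : ∀ (n : ℕ) (ζ : Ql twoP), ¬ 2 ∣ n → ζ ^ n = 1 → locAut twoP F ζ = ζ ^ 2
  hFπ : locAut twoP F T.π = T.π
  hH : ∀ h ∈ T.H, M h = 1
  hA : M s * M s + M s + 1 = 0
  hFA : M F * M s = M s * M s * M F

theorem exists_frame {M : Gl twoP →* M2 (ZMod 2)} (hM : Res2 M) (T : Tame twoP) (hT : T.e = 3) :
    Nonempty (Frame2 M T) := by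
  obtain ⟨U, hU, hMU⟩ := hM.level
  obtain ⟨s₀, hs₀, hA₀⟩ := hM.order_three
  obtain ⟨e', he', hexp⟩ := FLTA.TaylorWiles.Flat.exists_tame_exponent hU
  have he'0 : 0 < e' := Nat.pos_of_ne_zero fun h => he' (h ▸ dvd_zero _)
  obtain ⟨r, hr⟩ := IsAlgClosed.exists_pow_nat_eq T.π he'0
  have hnd : ¬ (twoP : ℕ) ∣ 3 * e' := fun h =>
    (Nat.prime_two.dvd_mul.mp h).elim (fun h => by norm_num at h) he'
  have hr3 : r ^ (3 * e') = -(((twoP : ℕ)) : Ql twoP) := by
    rw [mul_comm, pow_mul, hr, ← T.π_pow, hT]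
  let T' : Tame twoP := ⟨3 * e', hnd, one_dvd _, r, hr3, T.zp, T.zp_prim⟩
  -- inertia elements fixing `r` act trivially
  have hcomm : ∀ a ∈ inerG twoP, ∀ b ∈ inerG twoP, locAut twoP ((b * a)⁻¹ * (a * b)) r = r := by
    intro a ha b hb
    obtain ⟨α, hα, hαr⟩ := T'.exists_apply_π a
    obtain ⟨β, hβ, hβr⟩ := T'.exists_apply_π b
    have hfix : ∀ c ∈ inerG twoP, ∀ γ : Ql twoP, γ ^ (3 * e') = 1 → locAut twoP c γ = γ :=
      fun c hc γ hγ => mem_inerG.mp hc _ (root_mem_Knr hnd hγ)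
    have h1 : locAut twoP (a * b) r = locAut twoP (b * a) r := by
      rw [locAut_mul_apply, locAut_mul_apply, hβr, hαr, map_mul, map_mul, hfix a ha β hβ,
        hfix b hb α hα, hαr, hβr]
      exact mul_left_comm _ _ _
    rw [locAut_mul_apply, h1, ← locAut_mul_apply, inv_mul_cancel, map_one, AlgEquiv.one_apply]
  have hwild : ∀ σ ∈ inerG twoP, locAut twoP σ r = r → ∃ a : ℕ, M σ ^ 2 ^ a = 1 := by
    intro σ hσ hσr
    obtain ⟨a, ha⟩ := hexp (r ^ 3) (by rw [← pow_mul]; exact hr3) σ hσ (by rw [map_pow, hσr])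
    exact ⟨a, by rw [← map_pow]; exact hMU _ ha⟩
  have hc3 := order_three_cube _ hA₀
  have hcube : ∀ B : M2 (ZMod 2), (B = 1 ∨ B = M s₀ ∨ B = M s₀ * M s₀) → B ^ 3 = 1 := fun B hB => by
    rw [pow_succ, pow_two]; exact (order_three_of_pow _ _ hA₀ hB).1
  have hpow : ∀ (B : M2 (ZMod 2)) (a : ℕ), B ^ 2 ^ a = 1 → B ^ 3 = 1 → B = 1 := by
    intro B a h1 h2
    have h := pow_gcd_eq_one.mpr ⟨h1, h2⟩
    rwa [((Nat.coprime_primes Nat.prime_two Nat.prime_three).mpr (by norm_num)).pow_left a,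
      pow_one] at h
  -- the image of inertia is abelian
  have himg : ∀ σ ∈ inerG twoP, M σ = 1 ∨ M σ = M s₀ ∨ M σ = M s₀ * M s₀ := by
    intro σ hσ
    refine order_three_centralizer _ _ hA₀ ?_ (entry_det M σ)
    have hab : ∀ a ∈ inerG twoP, ∀ b ∈ inerG twoP,
        M ((b * a)⁻¹ * (a * b)) = 1 → M a * M b = M b * M a := by
      intro a _ b _ h
      rw [← map_mul, ← map_mul, show a * b = (b * a) * ((b * a)⁻¹ * (a * b)) by group, map_mul, h,
        mul_one]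
    refine hab _ hs₀ _ hσ ?_
    obtain ⟨a, ha⟩ := hwild _ (mul_mem (inv_mem (mul_mem hσ hs₀)) (mul_mem hs₀ hσ))
      (hcomm _ hs₀ _ hσ)
    refine hpow _ a ha ?_
    -- a product of conjugates of an element of order three and of its inverse has order three
    set x := M s₀
    set y := M σ
    have hy := entry_det M σ
    have hy' := entry_det M σ⁻¹
    have h1 : M ((σ * s₀)⁻¹ * (s₀ * σ)) = M s₀⁻¹ * M σ⁻¹ * (x * y) := by
      rw [mul_inv_rev, map_mul, map_mul, map_mul]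
    have h2 : M s₀⁻¹ = x * x := by
      calc M s₀⁻¹ = M s₀⁻¹ * (x * (x * x)) := by rw [← mul_assoc x, hc3.1, mul_one]
        _ = x * x := by rw [← mul_assoc, FLTA.TaylorWiles.Flat.M_inv_mul, one_mul]
    have h3 : M σ⁻¹ * y = 1 := FLTA.TaylorWiles.Flat.M_inv_mul σ
    rw [h1, h2, pow_succ, pow_two]
    revert hy hy' h3
    generalize M σ⁻¹ = y'
    intro hy hy' h3
    exact comm_order_three x y y' hA₀ hy hy' h3
  have hwild' : ∀ σ ∈ inerG twoP, locAut twoP σ r = r → M σ = 1 := fun σ hσ hσr => by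
    obtain ⟨a, ha⟩ := hwild σ hσ hσr
    exact hpow _ a ha (hcube _ (himg σ hσ))
  have hH : ∀ h ∈ T.H, M h = 1 := by
    intro h hh
    obtain ⟨η, hη, hηr⟩ := T'.exists_apply_π h
    have hη' : η ^ e' = 1 := by
      have h1 : locAut twoP h (r ^ e') = r ^ e' := by rw [hr]; exact (T.mem_H_iff.mp hh).2
      rw [map_pow, hηr, mul_pow] at h1
      exact mul_left_eq_self₀.mp h1 |>.resolve_right (pow_ne_zero _ T'.π_ne_zero)
    obtain ⟨μ, hμ⟩ := IsAlgClosed.exists_pow_nat_eq η (by norm_num : 0 < 3)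
    have hμ' : μ ^ (3 * e') = 1 := by rw [pow_mul, hμ, hη']
    obtain ⟨τ, hτ, hτr⟩ := T'.exists_inerG_apply_π hμ'
    have h3 : locAut twoP (τ ^ 3) r = η * r := by
      rw [← hμ]; exact FLTA.TaylorWiles.Flat.pow_apply_root hτ hnd hμ' hτr 3
    have hfix : locAut twoP ((τ ^ 3)⁻¹ * h) r = r := by
      rw [locAut_mul_apply, hηr, ← h3, ← locAut_mul_apply, inv_mul_cancel, map_one,
        AlgEquiv.one_apply]
    have h4 := hwild' _ (mul_mem (inv_mem (pow_mem hτ _)) (T.H_le_inerG hh)) hfix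
    calc M h = M (τ ^ 3) * M ((τ ^ 3)⁻¹ * h) := by rw [← map_mul, mul_inv_cancel_left]
      _ = 1 := by rw [h4, mul_one, map_pow, hcube _ (himg τ hτ)]
  haveI : NeZero (T.e : Ql twoP) := ⟨Nat.cast_ne_zero.2 T.e_pos.ne'⟩
  obtain ⟨ξ, hξ⟩ := HasEnoughRootsOfUnity.exists_primitiveRoot (Ql twoP) T.e
  obtain ⟨s, hs, hsπ⟩ := T.exists_generator hξ
  obtain ⟨F, hF, hFπ⟩ := T.exists_frobenius_fix
  have hgen : ∀ σ ∈ inerG twoP, ∃ j, M σ = M s ^ j := by
    intro σ hσ
    obtain ⟨j, -, h, hh, rfl⟩ := T.exists_pow_mul_mem_H hs hξ hsπ hσ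
    exact ⟨j, by rw [map_mul, map_pow, hH h hh, mul_one]⟩
  have hA : M s * M s + M s + 1 = 0 := by
    refine (order_three_of_pow _ _ hA₀ (himg s hs)).2 fun h1 => hc3.2 ?_
    obtain ⟨j, hj⟩ := hgen s₀ hs₀
    rw [hj, h1, one_pow]
  refine ⟨⟨hT, ξ, hξ, s, hs, hsπ, F, hF, hFπ, hH, hA, ?_⟩⟩
  -- conjugation by Frobenius squares the generator
  set c := (s * s)⁻¹ * (F * s * F⁻¹) with hc
  have hcH : c ∈ T.H := by
    rw [T.mem_H_iff]
    refine ⟨mul_mem (inv_mem (mul_mem hs hs))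
      (FLTA.TaylorWiles.Flat.inerG_normal.conj_mem _ hs _), ?_⟩
    have h1 : locAut twoP (F * s * F⁻¹) T.π = locAut twoP (s * s) T.π := by
      rw [locAut_mul_apply, FLTA.TaylorWiles.Flat.inv_apply_of_fix hFπ, locAut_mul_apply, hsπ,
        map_mul, hFπ, hF _ ξ T.not_dvd hξ.pow_eq_one, locAut_mul_apply, hsπ, map_mul,
        mem_inerG.mp hs _ (root_mem_Knr T.not_dvd hξ.pow_eq_one), hsπ, pow_two, mul_assoc]
    rw [hc, locAut_mul_apply, h1, ← locAut_mul_apply, inv_mul_cancel, map_one, AlgEquiv.one_apply]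
  calc M F * M s = M (s * s * c * F) := by rw [← map_mul, hc]; congr 1; group
    _ = M s * M s * M F := by rw [map_mul, map_mul, hH c hcH, mul_one, map_mul]

end FLTA.LT2

end
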