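import Fermat.Agent.LT2.Local2Classes

/-!
# The line at `2` has at most one nontrivial class
-/

set_option autoImplicit false
set_option linter.style.haveILetI false

open scoped Matrix

noncomputable section

namespace FLTA.LT2

open FLTA.TaylorWiles.Flat (M2 Tame inerG Res)
open FLTA.PT (Gl Ql lvlLoc locAut)

attribute [local instance] FLTA.PT.factPrime

theorem add_self_res (x : Res twoP) : x + x = 0 := by
  have h : (((twoP : Nat.Primes) : ℕ) : Res twoP) = 0 :=
    ((FLTA.TaylorWiles.Flat.charP_res (q := twoP)).cast_eq_zero_iff _).mpr dvd_rfl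
  change ((2 : ℕ) : Res twoP) = 0 at h
  push_cast at h
  linear_combination x * h

theorem res_idem {q : Nat.Primes} (x : Res q) (h : x * x = x) : x = 0 ∨ x = 1 := by
  rcases eq_or_ne x 0 with h0 | h0
  · exact Or.inl h0
  · exact Or.inr (mul_right_cancel₀ h0 (h.trans (one_mul x).symm))

variable {M : Gl twoP →* M2 (ZMod 2)} {T : Tame twoP}

/-- A nonzero vector fixed by Frobenius. -/
theorem Frame2.exists_fixed (R : Frame2 M T) : ∃ v : V2, v ≠ 0 ∧ M R.F *ᵥ v = v := by
  obtain ⟨a, b, hab, h1, h2⟩ := order_three_flip _ _ R.hA R.hFA (entry_det M R.F)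
  refine ⟨![a, b], fun h => hab ?_, ?_⟩
  · exact Prod.ext (congrFun h 0) (congrFun h 1)
  · ext i
    fin_cases i <;> simp [Matrix.mulVec, dotProduct, Fin.sum_univ_two, h1, h2]

/-- A class on the line with vanishing top layer is trivial. -/
theorem Frame2.vecTrivial_of_lead (R : Frame2 M T) {c : Gl twoP → V2} (hc : IsVecCoc M c)
    (hM : Res2 M) (hd : ∀ v, T.Deep (chiV c v) 5) {v₁ : V2} (hv₁ : v₁ ≠ 0)
    (h : T.lead 5 (chiV c v₁) = 0) : VecTrivial M c := by
  have hzero : ∀ σ ∈ T.H, c σ = 0 := fun σ hσ => eq_zero_of_pairV _ fun u => by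
    have hl := R.lead_chiV_eq_zero hc (by decide) (by norm_num) hd hv₁ h u
    obtain ⟨h1, h2, h3⟩ := R.layer_hyps (n := 5) (by decide) (by norm_num)
    have h6 := FLTA.TaylorWiles.Flat.Tame.deep_succ_of_lead h1 h2 h3 (hd u) hl
    rw [show 5 + 1 = T.top by rw [R.top_eq]] at h6
    exact h6.eq_zero hσ
  set v := M R.s *ᵥ c R.s
  refine ⟨v, ?_⟩
  set d : Gl twoP → V2 := fun g => c g - (M g *ᵥ v - v) with hd'
  suffices hd0 : ∀ g, d g = 0 from fun g => sub_eq_zero.mp (hd0 g)
  have dmul : ∀ a b, d (a * b) = d a + M a *ᵥ d b := fun a b => by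
    simp only [hd', hc.coc, map_mul, Matrix.mulVec_sub, Matrix.mulVec_mulVec]
    abel
  have dpow : ∀ g, d g = 0 → ∀ j : ℕ, d (g ^ j) = 0 := fun g hg j => by
    induction j with
    | zero => simp only [hd', pow_zero, map_one, Matrix.one_mulVec, sub_self, hc.map_one]
    | succ j ih => rw [pow_succ, dmul, ih, hg, Matrix.mulVec_zero, add_zero]
  have dH : ∀ σ ∈ T.H, d σ = 0 := fun σ hσ => by
    simp only [hd', hzero σ hσ, R.hH σ hσ, Matrix.one_mulVec, sub_self]
  have ds : d R.s = 0 := by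
    have h2 := (mulVec_cube _ R.hA (c R.s)).1
    simp only [hd', v, h2]
    abel
  have diner : ∀ g ∈ inerG twoP, d g = 0 := fun g hg => by
    obtain ⟨j, -, σ, hσ, rfl⟩ := T.exists_pow_mul_mem_H R.hs R.hξ R.hsπ hg
    rw [dmul, dpow _ ds, dH σ hσ, Matrix.mulVec_zero, add_zero]
  have dF : d R.F = 0 := by
    set i := R.F * R.s * R.F⁻¹ with hi
    have hiI : i ∈ inerG twoP := FLTA.TaylorWiles.Flat.inerG_normal.conj_mem _ R.hs _
    have hMi : M i = M R.s * M R.s := by
      rw [hi, map_mul, map_mul, R.hFA, mul_assoc, FLTA.TaylorWiles.Flat.M_mul_inv, mul_one]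
    have e := dmul i R.F
    rw [show i * R.F = R.F * R.s by rw [hi]; group, dmul, ds, Matrix.mulVec_zero, add_zero,
      diner i hiI, zero_add, hMi, ← Matrix.mulVec_mulVec, (mulVec_cube _ R.hA _).1] at e
    have e' : M R.s *ᵥ d R.F = 0 := right_eq_add.mp e |> id
    rw [← (mulVec_cube _ R.hA (d R.F)).2, e', Matrix.mulVec_zero, Matrix.mulVec_zero]
  obtain ⟨U, hU, hUc⟩ := hc.level
  obtain ⟨W, hW, hWM⟩ := hM.level
  intro g
  obtain ⟨a, i, u, hi, hu, rfl⟩ := FLTA.TaylorWiles.Flat.exists_frobenius_mul_inerG R.hF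
    ((lvlLoc twoP).inf_mem U hU W hW) g
  have du : d u = 0 := by
    simp only [hd', hUc u hu.1, hWM u hu.2, Matrix.one_mulVec, sub_self]
  rw [dmul, dmul, dpow _ dF, diner i hi, du]
  simp

/-- Two classes on the line: one of them or their sum is trivial. -/
theorem low_line' (hM : Res2 M) {c c' : Gl twoP → V2} (hc : IsVecCoc M c) (hc' : IsVecCoc M c')
    (h : Low c) (h' : Low c') : VecTrivial M c ∨ VecTrivial M c' ∨ VecTrivial M (c + c') := by
  obtain ⟨T, hT⟩ := FLTA.TaylorWiles.Flat.exists_tame (q := twoP) (e := 3)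
    (by decide) (one_dvd _)
  obtain ⟨R⟩ := exists_frame hM T hT
  obtain ⟨v, hv, hFv⟩ := R.exists_fixed
  have hbit : ∀ {b : Gl twoP → V2}, IsVecCoc M b → Low b →
      T.lead 5 (chiV b v) = 0 ∨ T.lead 5 (chiV b v) = 1 := by
    intro b hb hbl
    have e := R.lead_chiV_frobenius hb (n := 5) (by decide) (by norm_num) (hbl T hT) v
    rw [hFv, pow_two] at e
    exact res_idem _ e.symm
  rcases hbit hc h with e | e
  · exact Or.inl (R.vecTrivial_of_lead hc hM (h T hT) hv e)
  rcases hbit hc' h' with e' | e'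
  · exact Or.inr (Or.inl (R.vecTrivial_of_lead hc' hM (h' T hT) hv e'))
  refine Or.inr (Or.inr (R.vecTrivial_of_lead (hc.add hc') hM ((h.add h') T hT) hv ?_))
  have hs : chiV (c + c') v = chiV c v + chiV c' v := funext fun σ => pairV_add_right v _ _
  obtain ⟨h1, h2, h3⟩ := R.layer_hyps (n := 5) (by decide) (by norm_num)
  rw [hs]
  refine (FLTA.TaylorWiles.Flat.Tame.lead_add h1 h2 h3 (h T hT v) (h' T hT v)).trans ?_
  show T.lead 5 (chiV c v) + T.lead 5 (chiV c' v) = 0
  rw [e, e', add_self_res]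

end FLTA.LT2

end
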