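import Fermat.Agent.TaylorWiles.FlatClasses

/-!
# The Steinberg part of the adjoint of a mod 2 representation, and the line at `2`

Over `𝔽₂` the trace zero matrices project equivariantly onto the standard module by
`stVec X = (X 0 1, X 1 0)`, with kernel the scalar matrices. `Low c` is the local
condition at `2` on classes with values in the standard module: each coordinate is deep of level
`5` over the tame cubic field.
-/

set_option autoImplicit false

open scoped Matrix

noncomputable section

namespace FLTA.LT2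

open FLTA.TaylorWiles.Flat (M2 DV Tame IsAdCoc FlatDefo IntModel cobd defoAct inerG inerAut)
open FLTA.PT (Gl Ql lvlLoc locAut)

attribute [local instance] FLTA.PT.factPrime

/-- The prime two. -/
abbrev twoP : Nat.Primes := ⟨2, Nat.prime_two⟩

/-- The standard module. -/
abbrev V2 : Type := Fin 2 → ZMod 2

/-- The alternating pairing on the standard module. -/
def pairV (v w : V2) : ZMod 2 := v 0 * w 1 + v 1 * w 0

/-- The projection of a matrix to the standard module. -/
def stVec (X : M2 (ZMod 2)) : V2 := ![X 0 1, X 1 0]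

theorem pairV_add_left (u v w : V2) : pairV (u + v) w = pairV u w + pairV v w := by
  simp only [pairV, Pi.add_apply]; ring

theorem pairV_add_right (v w w' : V2) : pairV v (w + w') = pairV v w + pairV v w' := by
  simp only [pairV, Pi.add_apply]; ring

@[simp] theorem pairV_zero_right (v : V2) : pairV v 0 = 0 := by simp [pairV]

theorem eq_zero_of_pairV (w : V2) (h : ∀ v, pairV v w = 0) : w = 0 := by
  revert w; decide

theorem pairV_mulVec : ∀ (B : M2 (ZMod 2)) (v w : V2), B.det = 1 →
    pairV (B *ᵥ v) (B *ᵥ w) = pairV v w := by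
  intro B v w h
  rw [Matrix.det_fin_two] at h
  simp only [pairV, Matrix.mulVec, dotProduct, Fin.sum_univ_two]
  revert h
  generalize B 0 0 = a
  generalize B 0 1 = b
  generalize B 1 0 = c
  generalize B 1 1 = d
  generalize v 0 = v₀
  generalize v 1 = v₁
  generalize w 0 = w₀
  generalize w 1 = w₁
  revert a b c d v₀ v₁ w₀ w₁
  decide

theorem stVec_add (X Y : M2 (ZMod 2)) : stVec (X + Y) = stVec X + stVec Y := by
  ext i; fin_cases i <;> simp [stVec]

@[simp] theorem stVec_zero : stVec 0 = 0 := by ext i; fin_cases i <;> simp [stVec]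

theorem det_eq_one {B B' : M2 (ZMod 2)} (h : B * B' = 1) : B.det = 1 := by
  have := congrArg Matrix.det h
  rw [Matrix.det_mul, Matrix.det_one] at this
  revert this
  generalize B.det = a
  generalize B'.det = b
  revert a b
  decide

theorem stVec_conj {B B' : M2 (ZMod 2)} (X : M2 (ZMod 2)) (hX : X.trace = 0) (h : B * B' = 1) :
    stVec (B * X * B') = B *ᵥ stVec X := by
  have hd := det_eq_one h
  rw [Matrix.trace_fin_two] at hX
  rw [show B' = B.adjugate by
    rw [← Matrix.mul_one B.adjugate, ← h, ← mul_assoc, Matrix.adjugate_mul, hd, one_smul,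
      one_mul], Matrix.adjugate_fin_two]
  rw [Matrix.det_fin_two] at hd
  ext i
  fin_cases i <;> simp [stVec, Matrix.mul_apply, Matrix.mulVec, dotProduct, Fin.sum_univ_two] <;>
    revert hd hX <;> generalize B 0 0 = a <;> generalize B 0 1 = b <;> generalize B 1 0 = c <;>
    generalize B 1 1 = d <;> generalize X 0 0 = p <;> generalize X 0 1 = q <;>
    generalize X 1 0 = r <;> generalize X 1 1 = u <;> revert a b c d p q r u <;> decide

section

variable {q : Nat.Primes}

/-- Continuous cocycles with values in the standard module twisted by `M`. -/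
structure IsVecCoc (M : Gl q →* M2 (ZMod 2)) (c : Gl q → V2) : Prop where
  coc : ∀ g h, c (g * h) = c g + M g *ᵥ c h
  level : ∃ U ∈ lvlLoc q, ∀ u ∈ U, c u = 0

/-- The class of `c` is trivial. -/
def VecTrivial (M : Gl q →* M2 (ZMod 2)) (c : Gl q → V2) : Prop :=
  ∃ v : V2, ∀ g, c g = M g *ᵥ v - v

variable {M : Gl q →* M2 (ZMod 2)} {z : Gl q → M2 (ZMod 2)}

theorem stVec_isVecCoc (h : IsAdCoc M z) : IsVecCoc M fun g => stVec (z g) := by
  refine ⟨fun a b => ?_, ?_⟩
  · rw [h.coc, stVec_add, stVec_conj _ (h.trace b) (FLTA.TaylorWiles.Flat.M_mul_inv a), add_comm]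
  · obtain ⟨U, hU, h1⟩ := h.level
    exact ⟨U, hU, fun u hu => by rw [h1 u hu, stVec_zero]⟩

theorem IsVecCoc.map_one {c : Gl q → V2} (h : IsVecCoc M c) : c 1 = 0 := by
  have h1 := h.coc 1 1
  simpa using h1

theorem IsVecCoc.add {c c' : Gl q → V2} (h : IsVecCoc M c) (h' : IsVecCoc M c') :
    IsVecCoc M (c + c') := by
  refine ⟨fun a b => ?_, ?_⟩
  · simp only [Pi.add_apply, h.coc, h'.coc, Matrix.mulVec_add]; abel
  · obtain ⟨U, hU, h1⟩ := h.level
    obtain ⟨W, hW, h2⟩ := h'.level
    exact ⟨U ⊓ W, (lvlLoc q).inf_mem U hU W hW, fun u hu => by simp [h1 u hu.1, h2 u hu.2]⟩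

/-- If the Steinberg part is trivial, a coboundary removes it. -/
theorem exists_cobd_of_vecTrivial (h : VecTrivial M fun g => stVec (z g)) :
    ∃ X : M2 (ZMod 2), X.trace = 0 ∧ ∀ g, stVec ((z + cobd M X) g) = 0 := by
  obtain ⟨v, hv⟩ := h
  refine ⟨!![0, v 0; v 1, 0], by simp [Matrix.trace_fin_two], fun g => ?_⟩
  have hX : stVec !![0, v 0; v 1, 0] = v := by ext i; fin_cases i <;> simp [stVec]
  have hv' : stVec (z g) = M g *ᵥ v - v := hv g
  rw [Pi.add_apply, stVec_add, hv', cobd, sub_eq_add_neg _ (!![0, v 0; v 1, 0] : M2 (ZMod 2)),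
    stVec_add, stVec_conj _ (by simp [Matrix.trace_fin_two]) (FLTA.TaylorWiles.Flat.M_mul_inv g),
    show -(!![0, v 0; v 1, 0] : M2 (ZMod 2)) = !![0, v 0; v 1, 0] from
      funext fun _ => funext fun _ => ZMod.neg_eq_self_mod_two _, hX]
  rw [sub_eq_add_neg, show -v = v from funext fun _ => ZMod.neg_eq_self_mod_two _]
  ext i
  exact CharTwo.add_self_eq_zero (R := ZMod 2) _

end

/-- The residual representation at `2`: some inertia element acts with order `3`. -/
structure Res2 (M : Gl twoP →* M2 (ZMod 2)) : Prop where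
  level : ∃ U ∈ lvlLoc twoP, ∀ u ∈ U, M u = 1
  order_three : ∃ s ∈ inerG twoP, M s * M s + M s + 1 = 0

/-- The line at `2`: every coordinate is deep of level `5` over the tame cubic field. -/
def Low (c : Gl twoP → V2) : Prop :=
  ∀ T : Tame twoP, T.e = 3 → ∀ v : V2, T.Deep (fun σ => pairV v (c σ)) 5

/-- An integral model containing the extension given by `z`: translations by the standard module
and lifts of its elements moved by inertia through `M` and `z`. For coefficients in a larger field
this is obtained from a model of the deformation by a quotient. -/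
structure FlatExt (M : Gl twoP →* M2 (ZMod 2)) (z : Gl twoP → M2 (ZMod 2)) : Prop
    extends IsAdCoc M z where
  model : ∃ (X : Type) (_ : AddCommGroup X) (act : inerG twoP → X →+ X)
    (N : IntModel (Ql twoP) X) (e : V2 →+ X) (p : V2 → X),
    N.Equivariant act inerAut ∧ (∀ x, act 1 x = x) ∧
    (∀ (a b : inerG twoP) x, act (a * b) x = act a (act b x)) ∧ (∀ x : X, (2 : ℕ) • x = 0) ∧
    Function.Injective e ∧ (∀ (g : inerG twoP) w, act g (e w) = e (M (g : Gl twoP) *ᵥ w)) ∧
    ∀ (g : inerG twoP) v, act g (p v) =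
      p (M (g : Gl twoP) *ᵥ v) + e ((z g * M (g : Gl twoP)) *ᵥ v)

theorem flatExt_of_flatDefo {M : Gl twoP →* M2 (ZMod 2)} {z : Gl twoP → M2 (ZMod 2)}
    (h : FlatDefo M z) : FlatExt M z := by
  obtain ⟨N, hN⟩ := h.model
  refine ⟨h.toIsAdCoc, DV (ZMod 2), inferInstance, fun g => defoAct M z (g : Gl twoP), N,
    AddMonoidHom.inr _ _, fun v => (v, 0), hN, fun x => ?_, fun a b x => ?_, fun x => ?_,
    fun a b hab => congrArg Prod.snd hab, fun g w => ?_, fun g v => ?_⟩
  · exact FLTA.TaylorWiles.Flat.defoAct_one h.toIsAdCoc x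
  · exact FLTA.TaylorWiles.Flat.defoAct_mul h.toIsAdCoc (a : Gl twoP) (b : Gl twoP) x
  · exact FLTA.TaylorWiles.Flat.prime_nsmul_DV (q := twoP) x
  · simp
  · simp

theorem low_zero : Low 0 := fun T _ v => by
  simp only [Pi.zero_apply, pairV_zero_right]
  exact T.deep_zero 5

theorem Low.add {c c' : Gl twoP → V2} (h : Low c) (h' : Low c') : Low (c + c') := fun T hT v => by
  have e : (fun σ => pairV v ((c + c') σ)) =
      (fun σ => pairV v (c σ)) + fun σ => pairV v (c' σ) :=
    funext fun σ => pairV_add_right v _ _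
  rw [e]
  exact (h T hT v).add (h' T hT v)

end FLTA.LT2

end
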