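import Fermat.Agent.LT2.LocalSpecial

/-!
# From the equations of the deformation conditions to `LineFixed`

The conditions at `ℓ ∣ N` and at `q ∈ Q` are equations `(ρ σ - 1) (ρ τ - 1) = 0` between
elements of the local group (signs and cyclotomic values are `1` in characteristic two).  If
`(ρ g₀ - 1) ^ 2 = 0` with `g₀` residually a transvection and every inertia element and one
Frobenius element satisfy the equation with `g₀`, the image of `ρ g₀ - 1` is a fixed free line.
Matrices over the dual numbers are handled as pairs `M + ε (z M)`; a linear functional on the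
coefficient field turns a deformation over `k[ε]` into one over `𝔽₂[ε]`.
-/

set_option autoImplicit false

open scoped Matrix

noncomputable section

namespace FLTA.LT2

open FLTA.TaylorWiles.Flat (M2 IsAdCoc inerG exists_frobenius_mul_inerG)
open FLTA.PT (Gl lvlLoc)

attribute [local instance] FLTA.PT.factPrime

variable {q : Nat.Primes}

/-- `(ρ a - 1) (ρ b - 1) = 0` for `ρ = (1 + ε z) M`. -/
def ProdZero (M : Gl q →* M2 (ZMod 2)) (z : Gl q → M2 (ZMod 2)) (a b : Gl q) : Prop :=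
  (M a - 1) * (M b - 1) = 0 ∧ (M a - 1) * (z b * M b) + z a * M a * (M b - 1) = 0

set_option synthInstance.maxSize 2000 in
theorem exists_image_vec : ∀ A : M2 (ZMod 2), A ≠ 1 → (A - 1) * (A - 1) = 0 →
    ∃ u v : V2, v ≠ 0 ∧ (A - 1) *ᵥ u = v := by
  unfold V2
  decide

variable {M : Gl q →* M2 (ZMod 2)} {z : Gl q → M2 (ZMod 2)}

/-- The equations give a fixed line. -/
theorem lineFixed_of_prodZero (hz : IsAdCoc M z) (hlev : ∃ U ∈ lvlLoc q, ∀ u ∈ U, M u = 1)
    {F g₀ : Gl q} (hF : IsFrobLoc F) (hne : M g₀ ≠ 1) (h₀ : ProdZero M z g₀ g₀)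
    (hFg : ProdZero M z F g₀) (hI : ∀ s ∈ inerG q, ProdZero M z s g₀) : LineFixed M z := by
  obtain ⟨u, v, hv, huv⟩ := exists_image_vec _ hne h₀.1
  set w := (z g₀ * M g₀) *ᵥ u with hw
  have hstep : ∀ s, ProdZero M z s g₀ → M s *ᵥ v = v ∧ z s *ᵥ v = w - M s *ᵥ w := by
    rintro s ⟨h1, h2⟩
    have e1 := congrArg (fun X : M2 (ZMod 2) => X *ᵥ u) h1
    have e2 := congrArg (fun X : M2 (ZMod 2) => X *ᵥ u) h2
    simp only [← Matrix.mulVec_mulVec, huv, Matrix.zero_mulVec, Matrix.sub_mulVec,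
      Matrix.one_mulVec, sub_eq_zero] at e1
    simp only [Matrix.add_mulVec, ← Matrix.mulVec_mulVec, huv, Matrix.zero_mulVec, e1,
      Matrix.sub_mulVec, Matrix.one_mulVec] at e2
    refine ⟨e1, ?_⟩
    rw [hw, ← Matrix.mulVec_mulVec]
    exact eq_sub_of_add_eq' (by
      rw [← sub_eq_zero, ← e2]
      abel)
  refine ⟨v, w, hv, fun g => ?_⟩
  obtain ⟨U, hU, hz0⟩ := hz.level
  obtain ⟨W, hW, hM1⟩ := hlev
  have hmul : ∀ a b, (M a *ᵥ v = v ∧ z a *ᵥ v = w - M a *ᵥ w) →
      (M b *ᵥ v = v ∧ z b *ᵥ v = w - M b *ᵥ w) →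
      M (a * b) *ᵥ v = v ∧ z (a * b) *ᵥ v = w - M (a * b) *ᵥ w := by
    rintro a b ⟨a1, a2⟩ ⟨b1, b2⟩
    have ainv : M a⁻¹ *ᵥ v = v := by
      conv_lhs => rw [← a1]
      rw [Matrix.mulVec_mulVec, ← map_mul, inv_mul_cancel, map_one, Matrix.one_mulVec]
    refine ⟨by rw [map_mul, ← Matrix.mulVec_mulVec, b1, a1], ?_⟩
    rw [hz.coc, Matrix.add_mulVec, ← Matrix.mulVec_mulVec, ← Matrix.mulVec_mulVec, ainv, b2, a2,
      Matrix.mulVec_sub, map_mul, ← Matrix.mulVec_mulVec]
    abel
  obtain ⟨a, i, y, hi, hy, rfl⟩ :=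
    exists_frobenius_mul_inerG hF ((lvlLoc q).inf_mem U hU W hW) g
  refine hmul _ _ (hmul _ _ ?_ (hstep i (hI i hi))) ?_
  · clear hi hy i y
    induction a with
    | zero =>
      rw [pow_zero, map_one, hz.map_one]
      simp only [Matrix.one_mulVec, Matrix.zero_mulVec, sub_self, and_self]
    | succ a ih => rw [pow_succ]; exact hmul _ _ ih (hstep F hFg)
  · rw [hM1 y hy.2, hz0 y hy.1]
    simp only [Matrix.one_mulVec, Matrix.zero_mulVec, sub_self, and_self]

/-! ## Deformations over the dual numbers -/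

section Dual

variable {k : Type} [Field k] [Algebra (ZMod 2) k]

/-- A residual matrix with coefficients in `k`. -/
def baseMat (A : M2 (ZMod 2)) : M2 k := A.map (algebraMap (ZMod 2) k)

omit k in
theorem baseMat_apply {k : Type} [Field k] [Algebra (ZMod 2) k] (A : M2 (ZMod 2)) (i j : Fin 2) :
    (baseMat A : M2 k) i j = algebraMap (ZMod 2) k (A i j) := rfl

/-- Entrywise application of a functional. -/
def mapFun (l : k →ₗ[ZMod 2] ZMod 2) (X : M2 k) : M2 (ZMod 2) := X.map l

theorem mapFun_add (l : k →ₗ[ZMod 2] ZMod 2) (X Y : M2 k) :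
    mapFun l (X + Y) = mapFun l X + mapFun l Y := Matrix.map_add _ (map_add l) X Y

theorem mapFun_baseMat_mul (l : k →ₗ[ZMod 2] ZMod 2) (A : M2 (ZMod 2)) (X : M2 k) :
    mapFun l (baseMat A * X) = A * mapFun l X := by
  ext i j
  simp [mapFun, baseMat, Matrix.mul_apply, Fin.sum_univ_two, ← Algebra.smul_def]

theorem mapFun_mul_baseMat (l : k →ₗ[ZMod 2] ZMod 2) (X : M2 k) (A : M2 (ZMod 2)) :
    mapFun l (X * baseMat A) = mapFun l X * A := by
  ext i j
  simp [mapFun, baseMat, Matrix.mul_apply, Fin.sum_univ_two,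
    mul_comm (X _ _) (algebraMap (ZMod 2) k _), ← Algebra.smul_def, mul_comm (A _ _)]

variable (ρ : Gl q →* Matrix (Fin 2) (Fin 2) (DualNumber k))

/-- The class of a deformation `ρ = (1 + ε z) M`. -/
def defoClass (M : Gl q →* M2 (ZMod 2)) (g : Gl q) : M2 k :=
  (ρ g).map TrivSqZeroExt.snd * baseMat (M g⁻¹)

variable {ρ} (hfst : ∀ g, (ρ g).map TrivSqZeroExt.fst = baseMat (M g))
include hfst

theorem snd_eq (g : Gl q) : (ρ g).map TrivSqZeroExt.snd = defoClass ρ M g * baseMat (M g) := by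
  rw [defoClass, mul_assoc, baseMat, baseMat, ← Matrix.map_mul, ← map_mul, inv_mul_cancel,
    map_one, Matrix.map_one _ (map_zero _) (map_one _), mul_one]

theorem map_snd_mul (X Y : Matrix (Fin 2) (Fin 2) (DualNumber k)) :
    (X * Y).map TrivSqZeroExt.snd =
      X.map TrivSqZeroExt.fst * Y.map TrivSqZeroExt.snd +
        X.map TrivSqZeroExt.snd * Y.map TrivSqZeroExt.fst := by
  ext i j
  simp [Matrix.mul_apply, Fin.sum_univ_two]
  ring

theorem isAdCoc_mapFun (l : k →ₗ[ZMod 2] ZMod 2) (hdet : ∀ g, (ρ g).det = 1)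
    (hlev : ∃ U ∈ lvlLoc q, ∀ u ∈ U, ρ u = 1) :
    IsAdCoc M fun g => mapFun l (defoClass ρ M g) := by
  refine ⟨fun g => ?_, fun g h => ?_, ?_⟩
  · have h1 := congrArg TrivSqZeroExt.snd (hdet g)
    simp only [Matrix.det_fin_two, TrivSqZeroExt.snd_sub, TrivSqZeroExt.snd_mul,
      TrivSqZeroExt.snd_one, smul_eq_mul, MulOpposite.smul_eq_mul_unop, MulOpposite.unop_op] at h1
    have e := fun i j => congrFun (congrFun (snd_eq hfst g) i) j
    have f := fun i j => congrFun (congrFun (hfst g) i) j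
    simp only [Matrix.map_apply] at e f
    rw [f 0 0, f 0 1, f 1 0, f 1 1, e 0 0, e 0 1, e 1 0, e 1 1] at h1
    simp only [Matrix.mul_apply, Fin.sum_univ_two, baseMat_apply] at h1
    have hd := congrArg (algebraMap (ZMod 2) k) (det_M M g)
    rw [Matrix.det_fin_two, map_sub, map_mul, map_mul, map_one] at hd
    have htr : (defoClass ρ M g).trace = 0 := by
      rw [Matrix.trace_fin_two]
      linear_combination h1 - (defoClass ρ M g 0 0 + defoClass ρ M g 1 1) * hd
    rw [Matrix.trace_fin_two] at htr ⊢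
    simp only [mapFun, Matrix.map_apply]
    rw [← map_add, htr, map_zero]
  · have e : defoClass ρ M (g * h) =
        baseMat (M g) * defoClass ρ M h * baseMat (M g⁻¹) + defoClass ρ M g := by
      have hb : ∀ A B : M2 (ZMod 2), (baseMat A : M2 k) * baseMat B = baseMat (A * B) :=
        fun A B => (Matrix.map_mul).symm
      conv_lhs => rw [defoClass, map_mul, map_snd_mul hfst, hfst g, hfst h, add_mul]
      simp only [defoClass, mul_assoc, hb, ← map_mul, mul_inv_rev, mul_inv_cancel_left]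
    rw [e, mapFun_add, mapFun_mul_baseMat, mapFun_baseMat_mul]
  · obtain ⟨U, hU, h1⟩ := hlev
    exact ⟨U, hU, fun u hu => by
      rw [defoClass, h1 u hu]
      ext i j
      simp [mapFun, Matrix.mul_apply, Matrix.one_apply, apply_ite]⟩

/-- An equation over the dual numbers gives the equation on every component. -/
theorem prodZero_of_eq (l : k →ₗ[ZMod 2] ZMod 2) {a b : Gl q}
    (h : (ρ a - 1) * (ρ b - 1) = 0) : ProdZero M (fun g => mapFun l (defoClass ρ M g)) a b := by
  have hone : (baseMat 1 : M2 k) = 1 := Matrix.map_one _ (map_zero _) (map_one _)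
  have hsub : ∀ g, baseMat (M g - 1) = (baseMat (M g) - 1 : M2 k) := fun g => by
    rw [← hone, baseMat, baseMat, baseMat, Matrix.map_sub _ (map_sub _)]
  have f1 : ∀ g, (ρ g - 1).map TrivSqZeroExt.fst = baseMat (M g - 1) := fun g => by
    rw [hsub, ← hfst]
    ext i j
    by_cases hij : i = j <;> simp [hij, Matrix.one_apply]
  have f2 : ∀ g, (ρ g - 1).map TrivSqZeroExt.snd = defoClass ρ M g * baseMat (M g) := fun g => by
    rw [← snd_eq hfst]
    ext i j
    simp [Matrix.one_apply, apply_ite]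
  constructor
  · have h1 := congrArg (fun X => X.map TrivSqZeroExt.fst) h
    have hmul : ((ρ a - 1) * (ρ b - 1)).map TrivSqZeroExt.fst =
        (ρ a - 1).map TrivSqZeroExt.fst * (ρ b - 1).map TrivSqZeroExt.fst :=
      (TrivSqZeroExt.fstHom k k k).toRingHom.mapMatrix.map_mul _ _
    rw [hmul, f1, f1, Matrix.map_zero _ TrivSqZeroExt.fst_zero, baseMat, baseMat,
      ← Matrix.map_mul] at h1
    exact Matrix.map_injective (algebraMap (ZMod 2) k).injective
      (h1.trans (Matrix.map_zero _ (map_zero _)).symm)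
  · have h2 := congrArg (fun X => X.map TrivSqZeroExt.snd) h
    rw [map_snd_mul hfst, f1, f1, f2, f2, Matrix.map_zero _ TrivSqZeroExt.snd_zero] at h2
    have h3 := congrArg (mapFun l) h2
    rw [mapFun_add, mapFun_baseMat_mul, mapFun_mul_baseMat, mapFun_mul_baseMat, mapFun_mul_baseMat,
      show mapFun l (0 : M2 k) = 0 from Matrix.map_zero _ (map_zero l)] at h3
    exact h3

omit hfst in
/-- If every Frobenius element satisfies the equation with `g₀`, so does inertia. -/
theorem inertia_eq_of_frobenius {F s g₀ : Gl q} (h : (ρ F - 1) * (ρ g₀ - 1) = 0)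
    (hs : (ρ (F * s) - 1) * (ρ g₀ - 1) = 0) : (ρ s - 1) * (ρ g₀ - 1) = 0 := by
  have e : (ρ (F * s) - 1) = ρ F * (ρ s - 1) + (ρ F - 1) := by rw [map_mul]; noncomm_ring
  rw [e, add_mul, h, add_zero, mul_assoc] at hs
  have h2 := congrArg (fun X => ρ F⁻¹ * X) hs
  simpa [← mul_assoc, ← map_mul] using h2

/-- **The bridge**: a deformation over `k[ε]` satisfying the equations has line-fixed components. -/
theorem lineFixed_of_defo (l : k →ₗ[ZMod 2] ZMod 2) (hdet : ∀ g, (ρ g).det = 1)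
    (hlev : ∃ U ∈ lvlLoc q, ∀ u ∈ U, ρ u = 1) (hlevM : ∃ U ∈ lvlLoc q, ∀ u ∈ U, M u = 1)
    {F g₀ : Gl q} (hF : IsFrobLoc F) (hne : M g₀ ≠ 1) (h₀ : (ρ g₀ - 1) * (ρ g₀ - 1) = 0)
    (hFg : (ρ F - 1) * (ρ g₀ - 1) = 0) (hI : ∀ s ∈ inerG q, (ρ s - 1) * (ρ g₀ - 1) = 0) :
    LineFixed M fun g => mapFun l (defoClass ρ M g) :=
  lineFixed_of_prodZero (isAdCoc_mapFun hfst l hdet hlev) hlevM hF hne
    (prodZero_of_eq hfst l h₀) (prodZero_of_eq hfst l hFg)
    fun s hs => prodZero_of_eq hfst l (hI s hs)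

end Dual

end FLTA.LT2

end
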