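import Fermat.Agent.LT2.Defs
import Fermat.Agent.LT2.LocalDefs
import Fermat.Agent.EllReducible.Line
import Fermat.Agent.EllTorsion.FrobTwo

/-!
# The residual representation of a companion curve at `2`

For a companion curve `E`, `E[2]` restricted to inertia at `2` contains an element of order `3`:
with `y = 2 x` the `2`-division cubic is Eisenstein, so inertia fixes none of the three points of
order `2`.
-/

set_option autoImplicit false

open scoped Matrix NNReal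
open WeierstrassCurve WeierstrassCurve.Affine.Point

noncomputable section

namespace FLTA.LT2

open FLTA.TaylorWiles.Flat (M2 inerG Knr mem_inerG exists_zpow_nnnorm_Knr)
open FLTA.PT (Gl Ql lvlLoc locAut locAut_surjective isGalois_ql loc iota iota_loc)

attribute [local instance] FLTA.PT.factPrime

local notation "Γℚ" => AlgebraicClosure ℚ ≃ₐ[ℚ] AlgebraicClosure ℚ

/-! ## Coefficients of a companion curve -/

theorem even_a₁_odd_a₃ {E : WeierstrassCurve ℤ} (hgood : ¬ (2 : ℤ) ∣ E.Δ)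
    (hss : (2 : ℤ) ∣ E.apOfModel 2) : (E.a₁ : ZMod 2) = 0 ∧ (E.a₃ : ZMod 2) = 1 := by
  have hΔ : (E.reductionMod 2).Δ ≠ 0 := by
    rw [reductionMod, WeierstrassCurve.map_Δ, eq_intCast]
    exact fun h => hgood ((ZMod.intCast_zmod_eq_zero_iff_dvd _ _).mp h)
  have hn := FLTA.EllTorsion.FrobTwo.natCard_point_eq (E.reductionMod 2).toAffine hΔ
  rw [Nat.card_eq_fintype_card (α := Option _)] at hn
  have hc := FLTA.EllTorsion.FrobTwo.cases_two (E.a₁ : ZMod 2) E.a₂ E.a₃ E.a₄ E.a₆ hΔ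
  have hcard : (E.reductionMod 2).card = Fintype.card (Option {p : ZMod 2 × ZMod 2 //
      p.2 ^ 2 + (E.a₁ : ZMod 2) * p.1 * p.2 + (E.a₃ : ZMod 2) * p.2
        = p.1 ^ 3 + (E.a₂ : ZMod 2) * p.1 ^ 2 + (E.a₄ : ZMod 2) * p.1 + (E.a₆ : ZMod 2)}) := by
    rw [WeierstrassCurve.card, hn]
    exact Fintype.card_congr (Equiv.refl _)
  have ha : E.apOfModel 2 = 3 - ((E.reductionMod 2).card : ℤ) := by
    rw [apOfModel, traceOfFrobenius, Nat.card_zmod]; norm_num
  dsimp only at hc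
  rw [← hcard] at hc
  rcases hc with ⟨h1, h3, -⟩ | ⟨-, -, ⟨-, hn'⟩ | ⟨-, hn'⟩⟩
  · exact ⟨h1, h3⟩
  · rw [ha, hn'] at hss; norm_num at hss
  · rw [ha, hn'] at hss; norm_num at hss

/-! ## An Eisenstein cubic has no root fixed by inertia -/

theorem nnnorm_intCast_le {q : Nat.Primes} (n : ℤ) : ‖(n : Ql q)‖₊ ≤ 1 :=
  IsUltrametricDist.nnnorm_intCast_le_one _ n

theorem nnnorm_two_lt_one : ‖(2 : Ql twoP)‖₊ < 1 := by
  have := FLTA.TaylorWiles.Flat.nnnorm_prime_lt_one (q := twoP)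
  simpa using this

theorem nnnorm_intCast_odd {n : ℤ} (hn : Odd n) : ‖(n : Ql twoP)‖₊ = 1 := by
  obtain ⟨m, rfl⟩ := hn
  push_cast
  have h2 : ‖(2 : Ql twoP) * (m : Ql twoP)‖₊ < 1 := by
    rw [nnnorm_mul]
    exact lt_of_le_of_lt (mul_le_of_le_one_right zero_le (nnnorm_intCast_le m)) nnnorm_two_lt_one
  rw [IsUltrametricDist.nnnorm_add_eq_max_of_nnnorm_ne_nnnorm (by rw [nnnorm_one]; exact h2.ne),
    nnnorm_one, max_eq_right h2.le]

theorem not_mem_Knr_of_eisenstein {y : Ql twoP} {B C : ℤ} {D : ℤ} (hD : Odd D)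
    (h : y ^ 3 + 2 * B * y ^ 2 + 2 * C * y + 2 * D = 0) : y ∉ Knr twoP := by
  intro hy
  set t := ‖(2 : Ql twoP)‖₊ with ht
  have ht1 : t < 1 := nnnorm_two_lt_one
  have ht0 : t ≠ 0 := nnnorm_ne_zero_iff.mpr two_ne_zero
  have hDn : ‖2 * (D : Ql twoP)‖₊ = t := by rw [nnnorm_mul, nnnorm_intCast_odd hD, mul_one]
  have hB : ∀ n : ℤ, ‖2 * (n : Ql twoP)‖₊ ≤ t := fun n => by
    rw [nnnorm_mul]; exact mul_le_of_le_one_right zero_le (nnnorm_intCast_le n)
  have hy0 : y ≠ 0 := by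
    rintro rfl
    simp only [zero_pow, ne_eq, OfNat.ofNat_ne_zero, not_false_eq_true, mul_zero, add_zero,
      zero_add] at h
    rw [h, nnnorm_zero] at hDn
    exact ht0 hDn.symm
  have hlt : ‖y‖₊ < 1 := by
    by_contra hle
    have hle : 1 ≤ ‖y‖₊ := not_lt.mp hle
    have hrest : ‖2 * (B : Ql twoP) * y ^ 2 + 2 * C * y + 2 * D‖₊ ≤ t * ‖y‖₊ ^ 2 := by
      refine (IsUltrametricDist.nnnorm_add_le_max _ _).trans (max_le ?_ ?_)
      · refine (IsUltrametricDist.nnnorm_add_le_max _ _).trans (max_le ?_ ?_)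
        · rw [nnnorm_mul, nnnorm_pow]; exact mul_le_mul_of_nonneg_right (hB B) zero_le
        · rw [nnnorm_mul]
          exact mul_le_mul (hB C) (le_self_pow₀ hle two_ne_zero) zero_le zero_le
      · rw [hDn]; exact le_mul_of_one_le_right zero_le (one_le_pow₀ hle)
    have h3 : ‖y ^ 3‖₊ ≤ t * ‖y‖₊ ^ 2 := by
      have : y ^ 3 = -(2 * (B : Ql twoP) * y ^ 2 + 2 * C * y + 2 * D) := by linear_combination h
      rw [this, nnnorm_neg]; exact hrest
    rw [nnnorm_pow, pow_succ' ‖y‖₊ 2] at h3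
    exact absurd (le_of_mul_le_mul_right h3 (pow_pos (zero_lt_one.trans_le hle) 2))
      (not_le.mpr (ht1.trans_le hle))
  obtain ⟨k, hk⟩ := exists_zpow_nnnorm_Knr hy hy0
  have hk' : ‖y‖₊ = t ^ k := by rw [hk, ht]; norm_num
  have hk1 : 1 ≤ k := by
    by_contra hk0
    have : 1 ≤ t ^ k := one_le_zpow_of_nonpos₀ (pos_iff_ne_zero.mpr ht0) ht1.le (by omega)
    exact absurd (hk' ▸ this) (not_le.mpr hlt)
  have hyt : ‖y‖₊ ≤ t := by
    rw [hk']
    exact (zpow_le_zpow_right_of_le_one₀ (pos_iff_ne_zero.mpr ht0) ht1.le hk1).trans (zpow_one t).le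
  have ht2 : t * t < t := mul_lt_of_lt_one_right (pos_iff_ne_zero.mpr ht0) ht1
  have hy2 : ‖y‖₊ * ‖y‖₊ ≤ t * t := mul_le_mul hyt hyt zero_le zero_le
  have hsmall : ‖y ^ 3 + 2 * (B : Ql twoP) * y ^ 2 + 2 * C * y‖₊ ≤ t * t := by
    refine (IsUltrametricDist.nnnorm_add_le_max _ _).trans (max_le ?_ ?_)
    · refine (IsUltrametricDist.nnnorm_add_le_max _ _).trans (max_le ?_ ?_)
      · rw [nnnorm_pow, pow_succ, pow_two]
        exact (mul_le_of_le_one_right zero_le hlt.le).trans hy2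
      · rw [nnnorm_mul, nnnorm_pow, pow_two]
        exact (mul_le_of_le_one_left zero_le ((hB B).trans ht1.le)).trans hy2
    · rw [nnnorm_mul]
      exact mul_le_mul (hB C) hyt zero_le zero_le
  have hDy : -(2 * (D : Ql twoP)) = y ^ 3 + 2 * (B : Ql twoP) * y ^ 2 + 2 * C * y := by
    linear_combination -h
  rw [← hDy, nnnorm_neg, hDn] at hsmall
  exact absurd hsmall (not_le.mpr ht2)

/-- The fixed field of inertia is `Knr`. -/
theorem mem_Knr_of_fixed {q : Nat.Primes} {x : Ql q}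
    (h : ∀ s ∈ inerG q, locAut q s x = x) : x ∈ Knr q := by
  haveI := isGalois_ql q
  rw [← InfiniteGalois.fixedField_fixingSubgroup (Knr q), IntermediateField.mem_fixedField_iff]
  intro g hg
  obtain ⟨s, rfl⟩ := locAut_surjective q g
  exact h s hg

/-! ## Points of order two -/

variable {E : WeierstrassCurve ℤ}

/-- Inertia at `2` moves every point of order `2` of a companion curve. -/
theorem exists_inertiaTwo_moves (hE : Companion E) {P : Tors2 E} (hP : P ≠ 0) :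
    ∃ s ∈ inerG twoP, loc twoP s • P ≠ P := by
  by_contra hall
  push Not at hall
  obtain ⟨Q, hQ⟩ := P
  have hQ0 : Q ≠ 0 := fun h => hP (Subtype.ext h)
  rcases Q with _ | ⟨X, Y, hns⟩
  · exact hQ0 rfl
  set W : WeierstrassCurve.Affine (AlgebraicClosure ℚ) :=
    ((E.map (Int.castRingHom ℚ))⁄(AlgebraicClosure ℚ)).toAffine
  have hX : ∀ s ∈ inerG twoP, loc twoP s X = X := by
    intro s hs
    have h1 : loc twoP s • (Affine.Point.some X Y hns) = Affine.Point.some X Y hns :=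
      congrArg Subtype.val (hall s hs)
    rw [algEquiv_smul_def, Affine.Point.map_some] at h1
    exact ((Affine.Point.some.injEq ..).mp h1).1
  have hneg : W.negY X Y = Y := by
    have h2 : (2 : ℤ) • (Affine.Point.some X Y hns) = 0 := by
      simpa [Submodule.mem_torsionBy_iff] using hQ
    rw [two_zsmul, ← eq_neg_iff_add_eq_zero, Affine.Point.neg_some] at h2
    exact ((Affine.Point.some.injEq ..).mp h2).2.symm
  obtain ⟨ha1, ha3⟩ := even_a₁_odd_a₃ hE.goodTwo hE.supersingularTwo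
  obtain ⟨c, hc⟩ := (ZMod.intCast_zmod_eq_zero_iff_dvd _ 2).mp ha1
  have hb6 : Odd E.b₆ := by
    rw [← ZMod.intCast_eq_one_iff_odd, WeierstrassCurve.b₆]
    push_cast
    rw [ha3, show (4 : ZMod 2) = 0 from rfl, one_pow, zero_mul, add_zero]
  have heq := (Affine.equation_iff X Y).mp hns.1
  rw [Affine.negY] at hneg
  have hy : iota twoP X * 2 ∈ Knr twoP := by
    refine mem_Knr_of_fixed fun s hs => ?_
    rw [map_mul, ← iota_loc, hX s hs, map_ofNat]
  refine not_mem_Knr_of_eisenstein (B := c ^ 2 + E.a₂) (C := E.b₄) hb6 ?_ hy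
  have key : (X * 2) ^ 3 + 2 * (((c ^ 2 + E.a₂ : ℤ)) : AlgebraicClosure ℚ) * (X * 2) ^ 2 +
      2 * ((E.b₄ : ℤ) : AlgebraicClosure ℚ) * (X * 2) + 2 * ((E.b₆ : ℤ) : AlgebraicClosure ℚ) = 0 := by
    have e1 : W.a₁ = 2 * (c : AlgebraicClosure ℚ) := by simp [W, hc]
    have e2 : W.a₂ = (E.a₂ : AlgebraicClosure ℚ) := by simp [W]
    have e3 : W.a₃ = (E.a₃ : AlgebraicClosure ℚ) := by simp [W]
    have e4 : W.a₄ = (E.a₄ : AlgebraicClosure ℚ) := by simp [W]
    have e6 : W.a₆ = (E.a₆ : AlgebraicClosure ℚ) := by simp [W]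
    change Y ^ 2 + W.a₁ * X * Y + W.a₃ * Y = X ^ 3 + W.a₂ * X ^ 2 + W.a₄ * X + W.a₆ at heq
    change -Y - W.a₁ * X - W.a₃ = Y at hneg
    rw [e1, e3] at hneg
    rw [e1, e2, e3, e4, e6] at heq
    simp only [WeierstrassCurve.b₄, WeierstrassCurve.b₆, hc]
    push_cast
    linear_combination (-8) * heq + (-2) * (2 * Y + 2 * c * X + E.a₃) * hneg
  have := congrArg (iota twoP) key
  simpa only [map_add, map_mul, map_pow, map_intCast, map_ofNat, _root_.map_zero] using this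

/-! ## The matrix of `E[2]` at `2` -/

theorem order_three_of_moves : ∀ A B : M2 (ZMod 2), A.det = 1 → B.det = 1 → A ≠ 1 →
    (∀ w : V2, w ≠ 0 → A *ᵥ w = w → B *ᵥ w ≠ w) →
    A * A + A + 1 = 0 ∨ B * B + B + 1 = 0 ∨ A * B * (A * B) + A * B + 1 = 0 := by
  decide

set_option synthInstance.maxSize 2000 in
theorem eq_of_fixed : ∀ A : M2 (ZMod 2), A.det = 1 → A ≠ 1 → ∀ v : V2, ∀ v' : V2,
    v ≠ 0 → v' ≠ 0 → A *ᵥ v = v → A *ᵥ v' = v' → v = v' := by
  unfold V2
  decide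

/-- The matrix representation of `E[2]` at `2` satisfies `Res2`. -/
theorem res2_of_intertwine (hE : Companion E) (e : Tors2 E ≃+ V2) (M : Gl twoP →* M2 (ZMod 2))
    (hM : ∀ g P, e (loc twoP g • P) = M g *ᵥ e P) : Res2 M := by
  have hΔ : (E.map (Int.castRingHom ℚ)).Δ ≠ 0 := by
    rw [WeierstrassCurve.map_Δ, eq_intCast, Int.cast_ne_zero]; exact hE.Δ_ne_zero
  have hext : ∀ g, (∀ P : Tors2 E, loc twoP g • P = P) → M g = 1 := fun g hg =>
    Matrix.ext_of_mulVec_single fun i => by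
      rw [Matrix.one_mulVec]
      have := hM g (e.symm (Pi.single i 1))
      rw [hg, e.apply_symm_apply] at this
      exact this.symm
  refine ⟨?_, ?_⟩
  · obtain ⟨L, hL, hfix⟩ := EllReducible.exists_finiteLevel _ hΔ Nat.prime_two
    refine ⟨(galoisRepModuleEnd (K := AlgebraicClosure ℚ) ℚ
      (E.map (Int.castRingHom ℚ)).toAffine 2).ker.comap (loc twoP),
      ⟨_, ⟨MonoidHom.normal_ker _, L, hL, fun σ hσ => MonoidHom.mem_ker.mpr
        (LinearMap.ext fun v => ?_)⟩, rfl⟩, fun u hu => hext u fun P => ?_⟩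
    · exact hfix σ ((IntermediateField.mem_fixingSubgroup_iff _ _).mp hσ) v
    · exact LinearMap.congr_fun (MonoidHom.mem_ker.mp hu) P
  have hdet : ∀ g, (M g).det = 1 := fun g =>
    det_eq_one (B' := M g⁻¹) (by rw [← map_mul, mul_inv_cancel, map_one])
  have hmove : ∀ w : V2, w ≠ 0 → ∃ s ∈ inerG twoP, M s *ᵥ w ≠ w := by
    intro w hw
    obtain ⟨s, hs, hne⟩ := exists_inertiaTwo_moves hE (P := e.symm w)
      (fun h => hw (by simpa using congrArg e h))
    refine ⟨s, hs, fun h => hne (e.injective ?_)⟩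
    rw [hM, e.apply_symm_apply, h]
  obtain ⟨a, ha, haw⟩ := hmove ![1, 0] (by decide)
  have hA1 : M a ≠ 1 := fun h => haw (by rw [h, Matrix.one_mulVec])
  by_cases hfix : ∃ w : V2, w ≠ 0 ∧ M a *ᵥ w = w
  · obtain ⟨w, hw, hwa⟩ := hfix
    obtain ⟨b, hb, hwb⟩ := hmove w hw
    rcases order_three_of_moves (M a) (M b) (hdet a) (hdet b) hA1
      (fun v hv hva => eq_of_fixed _ (hdet a) hA1 w v hw hv hwa hva ▸ hwb) with h | h | h
    · exact ⟨a, ha, h⟩
    · exact ⟨b, hb, h⟩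
    · exact ⟨a * b, mul_mem ha hb, by rw [map_mul]; exact h⟩
  · push Not at hfix
    have h3 : ∀ A : M2 (ZMod 2), A.det = 1 → (∀ v : V2, v ≠ 0 → A *ᵥ v ≠ v) →
        A * A + A + 1 = 0 := by decide
    exact ⟨a, ha, h3 _ (hdet a) fun v hv => hfix v hv⟩

/-- There is a coordinate system of `E[2]`, and in it the local representation at `2`. -/
theorem exists_res2 (hE : Companion E) :
    ∃ (e : Tors2 E ≃+ V2) (M : Gl twoP →* M2 (ZMod 2)),
      (∀ g P, e (loc twoP g • P) = M g *ᵥ e P) ∧ Res2 M := by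
  have hΔ : (E.map (Int.castRingHom ℚ)).Δ ≠ 0 := by
    rw [WeierstrassCurve.map_Δ, eq_intCast, Int.cast_ne_zero]; exact hE.Δ_ne_zero
  have hfr := EllReducible.finrank_tors _ hΔ (p := 2)
  haveI := EllReducible.finite_tors _ hΔ Nat.prime_two
  haveI : Module.Finite (ZMod 2) (Tors2 E) := Module.Finite.of_finite
  let b := Module.finBasisOfFinrankEq (ZMod 2) (Tors2 E) hfr
  let M : Gl twoP →* M2 (ZMod 2) :=
    ((LinearMap.toMatrixAlgEquiv b).toAlgHom.toMonoidHom.comp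
      (galoisRepModuleEnd (K := AlgebraicClosure ℚ) ℚ (E.map (Int.castRingHom ℚ)).toAffine 2)).comp
        (loc twoP)
  have hM : ∀ g P, b.equivFun.toAddEquiv (loc twoP g • P) = M g *ᵥ b.equivFun.toAddEquiv P := by
    intro g P
    exact (LinearMap.toMatrix_mulVec_repr b b
      (galoisRepModuleEnd (K := AlgebraicClosure ℚ) ℚ (E.map (Int.castRingHom ℚ)).toAffine 2
        (loc twoP g)) P).symm
  exact ⟨b.equivFun.toAddEquiv, M, hM, res2_of_intertwine hE _ M hM⟩

end FLTA.LT2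

end
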