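import Fermat.Agent.LT2.LocalDefs
import Fermat.Agent.TaylorWiles.FlatLocalTame

/-!
# Local conditions away from `2`: unipotent, Steinberg, Taylor–Wiles and real places

In characteristic two both "inertia unipotent fixing a free line, Frobenius acting by `±1` on the
quotient" and "Steinberg with sign `±1`", on a lift `(1 + ε z) M` to the dual numbers with
cyclotomic determinant, say that a free line `v + ε w` is fixed by the whole decomposition group:
`LineFixed`.  The Steinberg part of such a class is a character times the fixed vector; it is a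
coboundary on inertia when the residual inertia is a transvection, and at any element acting by a
transvection; two such classes are dependent.
-/

set_option autoImplicit false

open scoped Matrix

noncomputable section

namespace FLTA.LT2

open FLTA.TaylorWiles.Flat (M2 IsAdCoc cobd inerG Tame exists_tame exists_tame_exponent
  exists_frobenius_mul_inerG inerG_normal M_mul_inv)
open FLTA.PT (Gl Ql lvlLoc locAut)

attribute [local instance] FLTA.PT.factPrime

variable {q : Nat.Primes}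

/-- The deformation `(1 + ε z) M` fixes the free line spanned by `v + ε w`. -/
def LineFixed (M : Gl q →* M2 (ZMod 2)) (z : Gl q → M2 (ZMod 2)) : Prop :=
  ∃ v w : V2, v ≠ 0 ∧ ∀ g, M g *ᵥ v = v ∧ z g *ᵥ v = w - M g *ᵥ w

/-- `F` raises roots of unity of order prime to `q` to the power `q`. -/
def IsFrobLoc (F : Gl q) : Prop :=
  ∀ (n : ℕ) (ζ : Ql q), ¬ (q : ℕ) ∣ n → ζ ^ n = 1 → locAut q F ζ = ζ ^ (q : ℕ)

/-! ## Characters of order two at an odd prime -/

/-- A character of order two of inertia takes at most one nonzero value. -/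
theorem inerG_hom_dependent (hq : (q : ℕ) ≠ 2) {X : Type} [AddCommGroup X]
    (h2 : ∀ x : X, x + x = 0) (f : Gl q → X) (hlev : ∃ U ∈ lvlLoc q, ∀ u ∈ U, f u = 0)
    (hadd : ∀ g ∈ inerG q, ∀ h ∈ inerG q, f (g * h) = f g + f h) {σ τ : Gl q}
    (hσ : σ ∈ inerG q) (hτ : τ ∈ inerG q) : f σ = 0 ∨ f τ = 0 ∨ f σ = f τ := by
  obtain ⟨U, hU, hU0⟩ := hlev
  obtain ⟨e', he', hroot⟩ := exists_tame_exponent hU
  have hqe : ¬ (q : ℕ) ∣ e' * ((q : ℕ) - 1) := by
    intro h
    rcases q.2.dvd_mul.mp h with h | h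
    · exact he' h
    · exact absurd (Nat.le_of_dvd (by have := q.2.two_le; omega) h) (by have := q.2.two_le; omega)
  obtain ⟨T, hT⟩ := exists_tame hqe (dvd_mul_left _ _)
  haveI : NeZero (T.e : Ql q) := ⟨Nat.cast_ne_zero.2 T.e_pos.ne'⟩
  obtain ⟨ξ, hξ⟩ := HasEnoughRootsOfUnity.exists_primitiveRoot (Ql q) T.e
  obtain ⟨s, hs, hsπ⟩ := T.exists_generator hξ
  have h1 : f 1 = 0 := by
    have := hadd 1 (one_mem _) 1 (one_mem _)
    rw [one_mul] at this
    exact left_eq_add.mp this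
  have hpow : ∀ g ∈ inerG q, ∀ n : ℕ, f (g ^ n) = n • f g := fun g hg n => by
    induction n with
    | zero => rw [pow_zero, h1, zero_smul]
    | succ n ih => rw [pow_succ, hadd _ (pow_mem hg _) _ hg, ih, succ_nsmul]
  have hsmul : ∀ (n : ℕ) (x : X), n • x = 0 ∨ n • x = x := fun n x => by
    obtain ⟨k, hk | hk⟩ := Nat.even_or_odd' n <;> rw [hk]
    · left; rw [mul_nsmul', two_nsmul, h2]
    · right; rw [succ_nsmul, mul_nsmul', two_nsmul, h2, zero_add]
  have hH : ∀ h ∈ T.H, f h = 0 := by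
    intro h hh
    obtain ⟨hI, hπ⟩ := T.mem_H_iff.mp hh
    obtain ⟨a, ha⟩ := hroot (T.π ^ ((q : ℕ) - 1))
      (by rw [← pow_mul, mul_comm, ← hT, T.π_pow]) h hI (by rw [map_pow, hπ])
    have h3 := hU0 _ ha
    rw [hpow h hI] at h3
    obtain ⟨k, hk⟩ : Odd ((q : ℕ) ^ a) := (q.2.odd_of_ne_two hq).pow
    rwa [hk, succ_nsmul, mul_nsmul', two_nsmul, h2, zero_add] at h3
  have key : ∀ g ∈ inerG q, f g = 0 ∨ f g = f s := fun g hg => by
    obtain ⟨j, -, h, hh, rfl⟩ := T.exists_pow_mul_mem_H hs hξ hsπ hg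
    rw [hadd _ (pow_mem hs j) _ (T.H_le_inerG hh), hH h hh, add_zero, hpow s hs]
    exact hsmul j _
  rcases key σ hσ with h | h
  · exact Or.inl h
  rcases key τ hτ with h' | h'
  · exact Or.inr (Or.inl h')
  · exact Or.inr (Or.inr (h.trans h'.symm))

/-- Continuous homs to `ZMod 2`. -/
structure IsChar2 (β : Gl q → ZMod 2) : Prop where
  map_mul : ∀ g h, β (g * h) = β g + β h
  level : ∃ U ∈ lvlLoc q, ∀ u ∈ U, β u = 0

theorem IsChar2.add {β γ : Gl q → ZMod 2} (hβ : IsChar2 β) (hγ : IsChar2 γ) :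
    IsChar2 (β + γ) := by
  refine ⟨fun g h => by simp only [Pi.add_apply, hβ.map_mul, hγ.map_mul]; abel, ?_⟩
  obtain ⟨U, hU, h1⟩ := hβ.level
  obtain ⟨W, hW, h2⟩ := hγ.level
  exact ⟨U ⊓ W, (lvlLoc q).inf_mem U hU W hW, fun u hu => by simp [h1 u hu.1, h2 u hu.2]⟩

/-- A hom vanishing on inertia and at a Frobenius vanishes. -/
theorem IsChar2.eq_zero {β : Gl q → ZMod 2} (hβ : IsChar2 β) {F : Gl q} (hF : IsFrobLoc F)
    (hI : ∀ s ∈ inerG q, β s = 0) (hF0 : β F = 0) (g : Gl q) : β g = 0 := by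
  obtain ⟨U, hU, hU0⟩ := hβ.level
  obtain ⟨a, i, u, hi, hu, rfl⟩ := exists_frobenius_mul_inerG hF hU g
  rw [hβ.map_mul, hβ.map_mul, hI i hi, hU0 u hu, add_zero, add_zero]
  clear hi hu i u
  induction a with
  | zero =>
    rw [pow_zero]
    have := hβ.map_mul 1 1
    rw [one_mul] at this
    exact left_eq_add.mp this
  | succ a ih => rw [pow_succ, hβ.map_mul, ih, hF0, add_zero]

/-- The group of characters has order at most four. -/
theorem IsChar2.dependent (hq : (q : ℕ) ≠ 2) {α β γ : Gl q → ZMod 2} (hα : IsChar2 α)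
    (hβ : IsChar2 β) (hγ : IsChar2 γ) (hne : ∃ g, α g ≠ 0) :
    (∀ g, β g = 0) ∨ (∀ g, β g = α g) ∨ (∀ g, γ g = 0) ∨ (∀ g, γ g = α g) ∨
      (∀ g, β g + γ g = 0) ∨ (∀ g, β g + γ g = α g) := by
  obtain ⟨F, hF⟩ := FLTA.TaylorWiles.Flat.exists_frobenius (q := q)
  let f : Gl q → ZMod 2 × ZMod 2 × ZMod 2 := fun g => (α g, β g, γ g)
  have hdep : ∀ σ ∈ inerG q, ∀ τ ∈ inerG q, f σ = 0 ∨ f τ = 0 ∨ f σ = f τ := fun σ hσ τ hτ => by
    refine inerG_hom_dependent hq (by decide) f ?_ (fun g _ h _ => ?_) hσ hτ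
    · obtain ⟨U, hU, h1⟩ := (hα.add hα).level
      obtain ⟨U₁, hU₁, e₁⟩ := hα.level
      obtain ⟨U₂, hU₂, e₂⟩ := hβ.level
      obtain ⟨U₃, hU₃, e₃⟩ := hγ.level
      exact ⟨U₁ ⊓ U₂ ⊓ U₃, (lvlLoc q).inf_mem _ ((lvlLoc q).inf_mem _ hU₁ _ hU₂) _ hU₃,
        fun u hu => by simp [f, e₁ u hu.1.1, e₂ u hu.1.2, e₃ u hu.2]⟩
    · simp [f, hα.map_mul, hβ.map_mul, hγ.map_mul]
  obtain ⟨y, hy⟩ : ∃ y : ZMod 2 × ZMod 2 × ZMod 2, ∀ σ ∈ inerG q, f σ = 0 ∨ f σ = y := by
    by_cases h : ∃ s ∈ inerG q, f s ≠ 0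
    · obtain ⟨s, hs, hne⟩ := h
      refine ⟨f s, fun σ hσ => ?_⟩
      rcases hdep σ hσ s hs with h | h | h
      · exact Or.inl h
      · exact absurd h hne
      · exact Or.inr h
    · push Not at h
      exact ⟨0, fun σ hσ => Or.inl (h σ hσ)⟩
  -- a combination vanishing at `y` and at `F` vanishes
  have hz : ∀ a b c : ZMod 2, a * y.1 + b * y.2.1 + c * y.2.2 = 0 →
      a * α F + b * β F + c * γ F = 0 → ∀ g, a * α g + b * β g + c * γ g = 0 := by
    intro a b c hyy hFF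
    have hch : IsChar2 fun g => a * α g + b * β g + c * γ g := by
      obtain ⟨U₁, hU₁, e₁⟩ := hα.level
      obtain ⟨U₂, hU₂, e₂⟩ := hβ.level
      obtain ⟨U₃, hU₃, e₃⟩ := hγ.level
      exact ⟨fun g h => by simp only [hα.map_mul, hβ.map_mul, hγ.map_mul]; ring,
        ⟨U₁ ⊓ U₂ ⊓ U₃, (lvlLoc q).inf_mem _ ((lvlLoc q).inf_mem _ hU₁ _ hU₂) _ hU₃,
          fun u hu => by simp [e₁ u hu.1.1, e₂ u hu.1.2, e₃ u hu.2]⟩⟩
    refine hch.eq_zero hF (fun s hs => ?_) hFF
    rcases hy s hs with h | h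
    · simp only [f, Prod.ext_iff] at h
      simp [h.1, h.2.1, h.2.2]
    · rw [← h] at hyy
      exact hyy
  have hlin : ∀ p r : ZMod 2 × ZMod 2 × ZMod 2, ∃ a b c : ZMod 2, (b ≠ 0 ∨ c ≠ 0 ∨ a ≠ 0) ∧
      a * p.1 + b * p.2.1 + c * p.2.2 = 0 ∧ a * r.1 + b * r.2.1 + c * r.2.2 = 0 := by decide
  obtain ⟨a, b, c, hnz, e1, e2⟩ := hlin y (α F, β F, γ F)
  have hall := hz a b c e1 e2
  have hcases : ∀ a b c : ZMod 2, (b ≠ 0 ∨ c ≠ 0 ∨ a ≠ 0) → (b = 0 ∧ c = 0 ∧ a = 1) ∨
      (b = 1 ∧ c = 0) ∨ (b = 0 ∧ c = 1) ∨ (b = 1 ∧ c = 1) := by decide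
  have hadd : ∀ x y : ZMod 2, x + y = 0 → y = x := by decide
  rcases hcases a b c hnz with ⟨rfl, rfl, rfl⟩ | ⟨rfl, rfl⟩ | ⟨rfl, rfl⟩ | ⟨rfl, rfl⟩
  · obtain ⟨g, hg⟩ := hne
    exact absurd (by simpa using hall g) hg
  all_goals rcases ((by decide : ∀ a : ZMod 2, a = 0 ∨ a = 1) a) with rfl | rfl
  · exact Or.inl fun g => by simpa using hall g
  · exact Or.inr (Or.inl fun g => hadd _ _ (by simpa using hall g))
  · exact Or.inr (Or.inr (Or.inl fun g => by simpa using hall g))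
  · exact Or.inr (Or.inr (Or.inr (Or.inl fun g => hadd _ _ (by simpa using hall g))))
  · exact Or.inr (Or.inr (Or.inr (Or.inr (Or.inl fun g => by simpa using hall g))))
  · exact Or.inr (Or.inr (Or.inr (Or.inr (Or.inr fun g =>
      hadd _ _ (by simpa [add_assoc] using hall g)))))

/-! ## Linear algebra over `𝔽₂` -/

theorem det_M (M : Gl q →* M2 (ZMod 2)) (g : Gl q) : (M g).det = 1 :=
  det_eq_one (B' := M g⁻¹) (by rw [← map_mul, mul_inv_cancel, map_one])

theorem trace_conj {M : Gl q →* M2 (ZMod 2)} (g : Gl q) (X : M2 (ZMod 2)) :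
    (M g * X * M g⁻¹).trace = X.trace := by
  rw [Matrix.trace_mul_cycle, FLTA.TaylorWiles.Flat.M_inv_mul, one_mul]

set_option synthInstance.maxSize 2000 in
theorem mulVec_sub_of_fixed : ∀ A : M2 (ZMod 2), A.det = 1 → ∀ v w : V2, v ≠ 0 → A *ᵥ v = v →
    A *ᵥ w - w = (if A = 1 then 0 else pairV w v) • v := by
  unfold V2
  decide

set_option synthInstance.maxSize 2000 in
theorem stVec_of_mulVec : ∀ X : M2 (ZMod 2), X.trace = 0 → ∀ v u : V2,
    v ≠ 0 → pairV u v = 1 → X *ᵥ v = 0 → stVec X = pairV u (stVec X) • v := by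
  unfold V2
  decide

set_option synthInstance.maxSize 2000 in
theorem exists_traceless_mulVec : ∀ v : V2, v ≠ 0 → ∀ w : V2,
    ∃ X : M2 (ZMod 2), X.trace = 0 ∧ X *ᵥ v = w := by
  unfold V2
  decide

theorem exists_pairV_eq_one : ∀ v : V2, v ≠ 0 → ∃ u : V2, pairV u v = 1 := by
  decide

theorem smul_sub_cancel : ∀ (a : ZMod 2) (v x : V2), a • v + x = a • v - x := by
  decide

theorem pairV_smul_right (u v : V2) (a : ZMod 2) : pairV u (a • v) = a * pairV u v := by
  simp only [pairV, Pi.smul_apply, smul_eq_mul]; ring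

variable {M : Gl q →* M2 (ZMod 2)} {z z' : Gl q → M2 (ZMod 2)}

open Classical in
/-- The character cut out by a residual representation with a fixed vector. -/
def chiM (M : Gl q →* M2 (ZMod 2)) (g : Gl q) : ZMod 2 := if M g = 1 then 0 else 1

theorem mulVec_sub_eq_chiM {v : V2} (hv : v ≠ 0) {g : Gl q} (hg : M g *ᵥ v = v) (w : V2) :
    M g *ᵥ w - w = (chiM M g * pairV w v) • v := by
  rw [mulVec_sub_of_fixed _ (det_M M g) v w hv hg, chiM]
  split_ifs <;> simp

/-! ## The line condition -/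

theorem LineFixed.add_cobd (h : LineFixed M z) (X : M2 (ZMod 2)) : LineFixed M (z + cobd M X) := by
  obtain ⟨v, w, hv, hg⟩ := h
  refine ⟨v, w - X *ᵥ v, hv, fun g => ⟨(hg g).1, ?_⟩⟩
  rw [Pi.add_apply, Matrix.add_mulVec, (hg g).2, cobd, Matrix.sub_mulVec,
    ← Matrix.mulVec_mulVec, ← Matrix.mulVec_mulVec, (hg g⁻¹).1, Matrix.mulVec_sub]
  abel

/-- Normal form: the Steinberg part is a hom times the fixed vector, up to a coboundary. -/
theorem LineFixed.exists_char (h : LineFixed M z) (hz : IsAdCoc M z)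
    (hlev : ∃ U ∈ lvlLoc q, ∀ u ∈ U, M u = 1) :
    ∃ (v x : V2) (β : Gl q → ZMod 2), v ≠ 0 ∧ (∀ g, M g *ᵥ v = v) ∧ IsChar2 β ∧
      ∀ g, stVec (z g) = β g • v + (M g *ᵥ x - x) := by
  obtain ⟨v, w, hv, hg⟩ := h
  have hfix : ∀ g, M g *ᵥ v = v := fun g => (hg g).1
  obtain ⟨u, hu⟩ := exists_pairV_eq_one v hv
  obtain ⟨X, hX, hXv⟩ := exists_traceless_mulVec v hv w
  set x := stVec X
  let c : Gl q → V2 := fun g => stVec (z g) - (M g *ᵥ x - x)
  have hneg : ∀ a b : V2, a + b = a - b := fun a b => by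
    simp [sub_eq_add_neg, show -b = b from funext fun i => ZMod.neg_eq_self_mod_two _]
  have hc : ∀ g, c g = pairV u (c g) • v := by
    intro g
    have e : c g = stVec (z g + (M g * X * M g⁻¹ - X)) := by
      rw [show M g * X * M g⁻¹ - X = M g * X * M g⁻¹ + X by
        rw [sub_eq_add_neg, show -X = X from Matrix.ext fun i j => ZMod.neg_eq_self_mod_two _],
        stVec_add, stVec_add, stVec_conj _ hX (M_mul_inv g)]
      show stVec (z g) - (M g *ᵥ x - x) = _
      rw [← hneg, ← hneg]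
    rw [e]
    refine stVec_of_mulVec _ (by rw [Matrix.trace_add, hz.trace, Matrix.trace_sub, trace_conj,
      sub_self, add_zero]) v u hv hu ?_
    rw [Matrix.add_mulVec, (hg g).2, Matrix.sub_mulVec, ← Matrix.mulVec_mulVec,
      ← Matrix.mulVec_mulVec, hfix g⁻¹, hXv]
    abel
  have hcoc : ∀ a b, c (a * b) = c a + c b := by
    intro a b
    have h1 : M a *ᵥ c b = c b := by rw [hc b, Matrix.mulVec_smul, hfix a]
    conv_rhs => rw [← h1]
    show stVec (z (a * b)) - (M (a * b) *ᵥ x - x) = _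
    rw [(stVec_isVecCoc hz).coc a b, map_mul, ← Matrix.mulVec_mulVec]
    simp only [c, Matrix.mulVec_sub]
    abel
  refine ⟨v, x, fun g => pairV u (c g), hv, hfix, ⟨fun a b => by rw [hcoc, pairV_add_right], ?_⟩,
    fun g => by rw [← hc g]; exact (sub_add_cancel _ _).symm⟩
  obtain ⟨U, hU, hz0⟩ := hz.level
  obtain ⟨W, hW, hM⟩ := hlev
  exact ⟨U ⊓ W, (lvlLoc q).inf_mem U hU W hW, fun g hgU => by
    simp only [c, hz0 g hgU.1, hM g hgU.2, stVec_zero, Matrix.one_mulVec, sub_self, pairV_zero_right]⟩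

theorem isChar2_chiM {v : V2} (hv : v ≠ 0) (hfix : ∀ g, M g *ᵥ v = v)
    (hlev : ∃ U ∈ lvlLoc q, ∀ u ∈ U, M u = 1) : IsChar2 (chiM M) := by
  obtain ⟨u, hu⟩ := exists_pairV_eq_one v hv
  refine ⟨fun g h => ?_, ?_⟩
  · have e : ∀ g, chiM M g = pairV u (M g *ᵥ u - u) := fun g => by
      rw [mulVec_sub_eq_chiM hv (hfix g), pairV_smul_right, hu, mul_one, mul_one]
    have e' : M (g * h) *ᵥ u - u = (M g *ᵥ u - u) + M g *ᵥ (M h *ᵥ u - u) := by
      rw [map_mul, ← Matrix.mulVec_mulVec, Matrix.mulVec_sub]; abel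
    rw [e, e', mulVec_sub_eq_chiM hv (hfix h), Matrix.mulVec_smul, hfix g,
      ← mulVec_sub_eq_chiM hv (hfix h), pairV_add_right, ← e, ← e]
  · obtain ⟨U, hU, hM⟩ := hlev
    exact ⟨U, hU, fun g hg => by simp [chiM, hM g hg]⟩

/-- If the character of the normal form is `0` or the residual one, the class is trivial. -/
theorem vecTrivial_of_char {v x : V2} (hv : v ≠ 0) (hfix : ∀ g, M g *ᵥ v = v) {c : Gl q → V2}
    {β : Gl q → ZMod 2} (hc : ∀ g, c g = β g • v + (M g *ᵥ x - x))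
    (hβ : (∀ g, β g = 0) ∨ ∀ g, β g = chiM M g) : VecTrivial M c := by
  obtain ⟨u, hu⟩ := exists_pairV_eq_one v hv
  rcases hβ with h | h
  · exact ⟨x, fun g => by rw [hc, h, zero_smul, zero_add]⟩
  · refine ⟨u + x, fun g => ?_⟩
    rw [hc, h, Matrix.mulVec_add,
      show M g *ᵥ u + M g *ᵥ x - (u + x) = (M g *ᵥ u - u) + (M g *ᵥ x - x) by abel,
      mulVec_sub_eq_chiM hv (hfix g) u, hu, mul_one]

/-- **`ℓ ∣ N`**: the Steinberg part is a coboundary on inertia. -/
theorem LineFixed.exists_inertia_cobd (h : LineFixed M z) (hz : IsAdCoc M z)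
    (hlev : ∃ U ∈ lvlLoc q, ∀ u ∈ U, M u = 1) (hq : (q : ℕ) ≠ 2)
    (hram : ∃ s ∈ inerG q, M s ≠ 1) :
    ∃ u : V2, ∀ g ∈ inerG q, stVec (z g) = M g *ᵥ u - u := by
  obtain ⟨v, x, β, hv, hfix, hβ, hc⟩ := h.exists_char hz hlev
  obtain ⟨u, hu⟩ := exists_pairV_eq_one v hv
  have hα := isChar2_chiM hv hfix hlev
  obtain ⟨s, hs, hsne⟩ := hram
  have hαs : chiM M s = 1 := by simp [chiM, hsne]
  have hdep : ∀ g ∈ inerG q, β g = β s * chiM M g := by
    intro g hg
    have := inerG_hom_dependent hq (X := ZMod 2 × ZMod 2) (by decide)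
      (fun g => (chiM M g, β g)) (by
        obtain ⟨U, hU, e₁⟩ := hα.level
        obtain ⟨W, hW, e₂⟩ := hβ.level
        exact ⟨U ⊓ W, (lvlLoc q).inf_mem U hU W hW, fun y hy => by simp [e₁ y hy.1, e₂ y hy.2]⟩)
      (fun a _ b _ => by simp [hα.map_mul, hβ.map_mul]) hg hs
    simp only [Prod.ext_iff, Prod.fst_zero, Prod.snd_zero, hαs] at this
    rcases this with ⟨h1, h2⟩ | ⟨h1, -⟩ | ⟨h1, h2⟩
    · rw [h1, h2, mul_zero]
    · exact absurd h1 one_ne_zero
    · rw [h1, h2, mul_one]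
  refine ⟨β s • u + x, fun g hg => ?_⟩
  rw [hc, hdep g hg, Matrix.mulVec_add, Matrix.mulVec_smul,
    show β s • (M g *ᵥ u) + M g *ᵥ x - (β s • u + x) =
      (β s • (M g *ᵥ u) - β s • u) + (M g *ᵥ x - x) by abel,
    ← smul_sub, mulVec_sub_eq_chiM hv (hfix g) u, hu, mul_one, smul_smul]

/-- **`q ∈ Q`**: at an element acting by a transvection the Steinberg part is a coboundary. -/
theorem LineFixed.exists_apply_eq (h : LineFixed M z) (hz : IsAdCoc M z)
    (hlev : ∃ U ∈ lvlLoc q, ∀ u ∈ U, M u = 1) {g : Gl q} (hg : M g ≠ 1) :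
    ∃ u : V2, stVec (z g) = M g *ᵥ u - u := by
  obtain ⟨v, x, β, hv, hfix, -, hc⟩ := h.exists_char hz hlev
  obtain ⟨u, hu⟩ := exists_pairV_eq_one v hv
  refine ⟨β g • u + x, ?_⟩
  rw [hc, Matrix.mulVec_add, Matrix.mulVec_smul,
    show β g • (M g *ᵥ u) + M g *ᵥ x - (β g • u + x) =
      (β g • (M g *ᵥ u) - β g • u) + (M g *ᵥ x - x) by abel,
    ← smul_sub, mulVec_sub_eq_chiM hv (hfix g) u, hu, mul_one, chiM, if_neg hg, one_smul]

/-- The fixed line of a nontrivial unipotent representation is unique. -/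
theorem fixed_unique {g : Gl q} (hg : M g ≠ 1) {v v' : V2} (hv : v ≠ 0) (hv' : v' ≠ 0)
    (h : M g *ᵥ v = v) (h' : M g *ᵥ v' = v') : v' = v := by
  have key : ∀ a b : V2, a ≠ 0 → b ≠ 0 → pairV b a = 0 → b = a := by decide
  refine key v v' hv hv' ?_
  have := mulVec_sub_eq_chiM hv h v'
  rw [h', sub_self, chiM, if_neg hg, one_mul, eq_comm, smul_eq_zero] at this
  exact this.resolve_right hv

/-- **Lines**: two classes fixing a line: one of them or their sum has trivial Steinberg part. -/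
theorem LineFixed.line (h : LineFixed M z) (h' : LineFixed M z') (hz : IsAdCoc M z)
    (hz' : IsAdCoc M z') (hlev : ∃ U ∈ lvlLoc q, ∀ u ∈ U, M u = 1) (hq : (q : ℕ) ≠ 2)
    (hne : ∃ g, M g ≠ 1) :
    (VecTrivial M fun g => stVec (z g)) ∨ (VecTrivial M fun g => stVec (z' g)) ∨
      VecTrivial M fun g => stVec (z g) + stVec (z' g) := by
  obtain ⟨v, x, β, hv, hfix, hβ, hc⟩ := h.exists_char hz hlev
  obtain ⟨v', x', γ, hv', hfix', hγ, hc'⟩ := h'.exists_char hz' hlev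
  obtain ⟨g₀, hg₀⟩ := hne
  obtain rfl := fixed_unique hg₀ hv hv' (hfix g₀) (hfix' g₀)
  have hcc : ∀ g, stVec (z g) + stVec (z' g) = (β g + γ g) • v' + (M g *ᵥ (x + x') - (x + x')) :=
    fun g => by rw [hc, hc', add_smul, Matrix.mulVec_add]; abel
  rcases (isChar2_chiM hv hfix hlev).dependent hq hβ hγ ⟨g₀, by simp [chiM, hg₀]⟩
    with h | h | h | h | h | h
  · exact Or.inl (vecTrivial_of_char hv hfix hc (Or.inl h))
  · exact Or.inl (vecTrivial_of_char hv hfix hc (Or.inr h))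
  · exact Or.inr (Or.inl (vecTrivial_of_char hv hfix hc' (Or.inl h)))
  · exact Or.inr (Or.inl (vecTrivial_of_char hv hfix hc' (Or.inr h)))
  · exact Or.inr (Or.inr (vecTrivial_of_char hv hfix hcc (Or.inl h)))
  · exact Or.inr (Or.inr (vecTrivial_of_char hv hfix hcc (Or.inr h)))

/-- **`q ∈ Q`**: an unramified class is trivial. -/
theorem LineFixed.vecTrivial_of_unramified (h : LineFixed M z) (hz : IsAdCoc M z)
    (hlev : ∃ U ∈ lvlLoc q, ∀ u ∈ U, M u = 1) {F : Gl q} (hF : IsFrobLoc F) (hMF : M F ≠ 1)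
    (hMI : ∀ g ∈ inerG q, M g = 1) (h0 : ∀ g ∈ inerG q, stVec (z g) = 0) :
    VecTrivial M fun g => stVec (z g) := by
  obtain ⟨v, x, β, hv, hfix, hβ, hc⟩ := h.exists_char hz hlev
  have hI : ∀ g ∈ inerG q, β g = 0 := fun g hg => by
    have := h0 g hg
    rw [hc, hMI g hg, Matrix.one_mulVec, sub_self, add_zero, smul_eq_zero] at this
    exact this.resolve_right hv
  refine vecTrivial_of_char hv hfix hc ?_
  rcases (show β F = 0 ∨ β F = 1 from (by decide : ∀ a : ZMod 2, a = 0 ∨ a = 1) _) with h1 | h1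
  · exact Or.inl fun g => hβ.eq_zero hF hI h1 g
  · refine Or.inr fun g => ?_
    have hsum := (hβ.add (isChar2_chiM hv hfix hlev)).eq_zero hF (fun s hs => by
      simp [hI s hs, chiM, hMI s hs]) (by
      rw [Pi.add_apply, h1, chiM, if_neg hMF]; exact CharTwo.add_self_eq_zero _) g
    exact (by decide : ∀ a b : ZMod 2, a + b = 0 → a = b) _ _ hsum

/-- **The scalar part**: a scalar class fixing a line is `0` or the residual character. -/
theorem LineFixed.scalar {ψ : Gl q → ZMod 2} (h : LineFixed M fun g => ψ g • (1 : M2 (ZMod 2))) :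
    (∀ g, ψ g = 0) ∨ ∀ g, ψ g = chiM M g := by
  obtain ⟨v, w, hv, hg⟩ := h
  have e : ∀ g, ψ g = chiM M g * pairV w v := by
    intro g
    have h1 := (hg g).2
    simp only [Matrix.smul_mulVec, Matrix.one_mulVec] at h1
    rw [(by decide : ∀ a b : V2, a - b = b - a) w (M g *ᵥ w),
      mulVec_sub_eq_chiM hv (hg g).1 w] at h1
    exact smul_left_injective (ZMod 2) hv h1
  rcases (show pairV w v = 0 ∨ pairV w v = 1 from (by decide : ∀ a : ZMod 2, a = 0 ∨ a = 1) _)
    with h1 | h1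
  · exact Or.inl fun g => by rw [e, h1, mul_zero]
  · exact Or.inr fun g => by rw [e, h1, mul_one]

/-! ## Taylor–Wiles primes and real places -/

/-- **Taylor–Wiles primes**: all classes with values in the standard module are trivial. -/
theorem vecTrivial_of_order_three (hq : (q : ℕ) ≠ 2) {c : Gl q → V2} (hc : IsVecCoc M c)
    (hlev : ∃ U ∈ lvlLoc q, ∀ u ∈ U, M u = 1) (hMI : ∀ g ∈ inerG q, M g = 1) {F : Gl q}
    (hF : IsFrobLoc F) (hMF : M F * M F + M F + 1 = 0) : VecTrivial M c := by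
  have hbij : ∀ A : M2 (ZMod 2), A * A + A + 1 = 0 →
      (∀ x : V2, ∃ u : V2, A *ᵥ u - u = x) ∧ (∀ x : V2, A *ᵥ x = x → x = 0) ∧
        ∀ x : V2, A *ᵥ x = 0 → x = 0 := by
    unfold V2; decide
  obtain ⟨hsurj, hfree, hinj⟩ := hbij _ hMF
  obtain ⟨u, hu⟩ := hsurj (c F)
  refine ⟨u, ?_⟩
  let d : Gl q → V2 := fun g => c g - (M g *ᵥ u - u)
  have hd : ∀ g h, d (g * h) = d g + M g *ᵥ d h := fun g h => by
    simp only [d, hc.coc, map_mul, ← Matrix.mulVec_mulVec, Matrix.mulVec_sub]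
    abel
  have hd1 : d 1 = 0 := by simp only [d, hc.map_one, map_one, Matrix.one_mulVec, sub_self]
  have hdF : d F = 0 := by simp only [d, hu, sub_self]
  have hlevd : ∃ U ∈ lvlLoc q, ∀ g ∈ U, d g = 0 := by
    obtain ⟨U, hU, e₁⟩ := hc.level
    obtain ⟨W, hW, e₂⟩ := hlev
    exact ⟨U ⊓ W, (lvlLoc q).inf_mem U hU W hW, fun g hg => by
      simp only [d, e₁ g hg.1, e₂ g hg.2, Matrix.one_mulVec, sub_self]⟩
  have hI : ∀ s ∈ inerG q, d s = 0 := by
    intro s hs
    haveI := inerG_normal (q := q)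
    have hs' : F * s * F⁻¹ ∈ inerG q := Subgroup.Normal.conj_mem inferInstance s hs F
    have hconj : d (F * s * F⁻¹) = M F *ᵥ d s := by
      have h1 := hd (F * s * F⁻¹) F
      rw [inv_mul_cancel_right, hd, hdF, zero_add, hMI _ hs', Matrix.one_mulVec, add_zero] at h1
      exact h1.symm
    have hdep := inerG_hom_dependent hq (by decide : ∀ x : V2, x + x = 0) d hlevd
      (fun g hg h _ => by rw [hd, hMI g hg, Matrix.one_mulVec]) hs' hs
    rw [hconj] at hdep
    rcases hdep with h | h | h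
    · exact hinj _ h
    · exact h
    · exact hfree _ h
  intro g
  obtain ⟨U, hU, hU0⟩ := hlevd
  have hgz : d g = 0 := by
    obtain ⟨a, i, y, hi, hy, rfl⟩ := exists_frobenius_mul_inerG hF hU g
    rw [hd, hd, hI i hi, hU0 y hy, Matrix.mulVec_zero, Matrix.mulVec_zero, add_zero, add_zero]
    clear hi hy i y
    induction a with
    | zero => rw [pow_zero, hd1]
    | succ a ih => rw [pow_succ, hd, ih, hdF, Matrix.mulVec_zero, add_zero]
  exact sub_eq_zero.mp hgz

/-- **Real places**: at an element acting by a transvection with `c (τ²) = 0` the class is a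
coboundary. -/
theorem exists_cobd_of_involution {G : Type} [Group G] {M : G →* M2 (ZMod 2)} {c : G → V2}
    (hc : ∀ g h, c (g * h) = c g + M g *ᵥ c h) {τ : G} (hτ : τ * τ = 1) (hne : M τ ≠ 1) :
    ∃ u : V2, c τ = M τ *ᵥ u - u := by
  have h1 : c 1 = 0 := by simpa using hc 1 1
  have h2 : c τ + M τ *ᵥ c τ = 0 := by rw [← hc, hτ, h1]
  have hA : M τ * M τ = 1 := by rw [← map_mul, hτ, map_one]
  have key : ∀ A : M2 (ZMod 2), A * A = 1 → A ≠ 1 → ∀ x : V2, x + A *ᵥ x = 0 →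
      ∃ u : V2, x = A *ᵥ u - u := by
    unfold V2; decide
  exact key _ hA hne _ h2

end FLTA.LT2

end
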