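import Fermat.Agent.LT2.Defs

/-!
# Part F: vocabulary for the choice of conjugation primes

`UnramAt`: a class is a coboundary on inertia at `ℓ`.  `FrobNull`: it is a coboundary at every
Frobenius element at `ℓ`.
-/

set_option autoImplicit false

namespace FLTA.LT2

local notation "Γℚ" => AlgebraicClosure ℚ ≃ₐ[ℚ] AlgebraicClosure ℚ

variable (E : WeierstrassCurve ℤ)

/-- `c` is a coboundary on every inertia group at `ℓ`. -/
def UnramAt (ℓ : ℕ) (c : StCocycle E) : Prop :=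
  ∀ A : ValuationSubring (AlgebraicClosure ℚ), A.LiesOverPrime ℓ →
    ∃ v : Tors2 E, ∀ σ ∈ A.inertiaSubgroupIn ℚ, c.toFun σ = σ • v - v

/-- `c` is a coboundary at every Frobenius element at `ℓ`. -/
def FrobNull (ℓ : ℕ) (c : StCocycle E) : Prop :=
  ∀ A : ValuationSubring (AlgebraicClosure ℚ), A.LiesOverPrime ℓ →
    ∀ σ : Γℚ, A.IsFrobeniusAt σ ℓ → ∃ v : Tors2 E, c.toFun σ = σ • v - v

/-- `c` is a coboundary. -/
def IsCob (c : StCocycle E) : Prop := ∃ v : Tors2 E, ∀ σ : Γℚ, c.toFun σ = σ • v - v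

variable {E}

theorem StCond.unramAt {Q : Finset ℕ} {c : StCocycle E} (h : StCond E Q c) {ℓ : ℕ}
    (hℓ : ℓ.Prime) (h2 : ℓ ≠ 2) (hQ : ℓ ∉ Q) : UnramAt E ℓ c := h.1 ℓ hℓ h2 hQ

theorem StCond.frobNull {Q : Finset ℕ} {c : StCocycle E} (h : StCond E Q c) {q : ℕ}
    (hq : q ∈ Q) : FrobNull E q c := h.2.1 q hq

theorem StCond.not_mem_of_not_frobNull {Q : Finset ℕ} {c : StCocycle E} (h : StCond E Q c) {q : ℕ}
    (hq : ¬ FrobNull E q c) : q ∉ Q := fun hm => hq (h.frobNull hm)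

end FLTA.LT2
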