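import Fermat.Agent.LT2.LocalSpecial
import Fermat.Agent.LT2.PrimesDefs
import Fermat.Agent.LT2.PrimesTwoTorsion
import Fermat.Agent.LT2.ImageCompanion
import Fermat.Agent.TaylorWiles.MainLoc
import Fermat.Agent.EllReducible.Line

/-!
# From the fixed local group to every place over `ℓ`

A global cocycle which satisfies `LineFixed` on the local group at `ℓ` is a coboundary on every
inertia group over `ℓ` (when inertia moves a point of `E[2]`) and at every Frobenius element over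
`ℓ` moving a point of `E[2]`: the clauses `UnramAt` and `FrobNull` of the Steinberg conditions.
-/

set_option autoImplicit false

open scoped Matrix
open WeierstrassCurve WeierstrassCurve.Affine.Point

noncomputable section

namespace FLTA.LT2

open FLTA.TaylorWiles.Flat (M2 IsAdCoc inerG mem_inerG_of_roots)
open FLTA.PT (GQ Qb Gl Ql lvlLoc locAut iota iota_loc loc)

attribute [local instance] FLTA.PT.factPrime

/-! ## Elements of the local group -/

theorem exists_eq_iota_of_pow_eq_one (q : Nat.Primes) {n : ℕ} (hn : n ≠ 0) {ζ : Ql q}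
    (hζ : ζ ^ n = 1) : ∃ z : Qb, z ^ n = 1 ∧ ζ = iota q z := by
  haveI : NeZero (n : Qb) := ⟨Nat.cast_ne_zero.2 hn⟩
  haveI : NeZero n := ⟨hn⟩
  obtain ⟨z, hz⟩ := HasEnoughRootsOfUnity.exists_primitiveRoot Qb n
  obtain ⟨i, -, rfl⟩ := (hz.map_of_injective (iota q).injective).eq_pow_of_pow_eq_one hζ
  exact ⟨z ^ i, by rw [← pow_mul, mul_comm, pow_mul, hz.pow_eq_one, one_pow], (map_pow _ _ _).symm⟩

theorem mem_inerG_of_mem_inertiaG {q : Nat.Primes} {s : Gl q} (hs : s ∈ FLTA.TW.inertiaG q) :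
    s ∈ inerG q := by
  refine mem_inerG_of_roots fun n ζ hn hζ => ?_
  obtain ⟨z, hz, rfl⟩ := exists_eq_iota_of_pow_eq_one q
    (fun h => hn (by rw [h]; exact dvd_zero _)) hζ
  rw [← iota_loc, FLTA.Galois.inertia_apply_rootOfUnity q.2
    (FLTA.PT.primeLocalPlace_liesOverPrime q) (FLTA.TW.mem_inertiaG.1 hs) hn hz]

theorem isFrobLoc_of_isFrobeniusAt {q : Nat.Primes} {F : Gl q}
    (hF : (ExtCitation.primeLocalPlace q).IsFrobeniusAt (loc q F) (q : ℕ)) : IsFrobLoc F := by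
  intro n ζ hn hζ
  obtain ⟨z, hz, rfl⟩ := exists_eq_iota_of_pow_eq_one q
    (fun h => hn (by rw [h]; exact dvd_zero _)) hζ
  rw [← iota_loc, FLTA.Galois.frobenius_apply_rootOfUnity q.2
    (FLTA.PT.primeLocalPlace_liesOverPrime q) hF hn hz, map_pow]

/-! ## Conjugating a coboundary -/

/-- A cocycle which is a coboundary at `τ` is one at every conjugate of `τ`. -/
theorem exists_cobd_conj {G : Type} [Group G] {M : G →* M2 (ZMod 2)} {c : G → V2}
    (hc : ∀ a b, c (a * b) = c a + M a *ᵥ c b) (g : G) (u : V2) :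
    ∃ w : V2, ∀ τ : G, c τ = M τ *ᵥ u - u →
      c (g * τ * g⁻¹) = M (g * τ * g⁻¹) *ᵥ w - w := by
  refine ⟨M g *ᵥ u - c g, fun τ hτ => ?_⟩
  have h1 : c (g * τ * g⁻¹) + M (g * τ * g⁻¹) *ᵥ c g = c g + M g *ᵥ c τ := by
    rw [← hc, ← hc, inv_mul_cancel_right]
  have h2 : M (g * τ * g⁻¹) *ᵥ (M g *ᵥ u) = M g *ᵥ (M τ *ᵥ u) := by
    rw [Matrix.mulVec_mulVec, Matrix.mulVec_mulVec, ← map_mul, ← map_mul, inv_mul_cancel_right]
  rw [eq_sub_of_add_eq h1, hτ, Matrix.mulVec_sub, Matrix.mulVec_sub, h2]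
  abel

/-! ## The clauses of the Steinberg condition -/

variable {E : WeierstrassCurve ℤ} {e : Tors2 E ≃+ V2} {M : GQ →* M2 (ZMod 2)}
  (hM : ∀ (σ : GQ) (P : Tors2 E), e (σ • P) = M σ *ᵥ e P)
include hM

theorem intertwine_eq_one {σ : GQ} (h : ∀ P : Tors2 E, σ • P = P) : M σ = 1 :=
  Matrix.ext_of_mulVec_single fun i => by
    have := hM σ (e.symm (Pi.single i 1))
    rw [h, e.apply_symm_apply] at this
    rw [Matrix.one_mulVec]
    exact this.symm

theorem intertwine_ne_one {σ : GQ} {P : Tors2 E} (h : σ • P ≠ P) : M σ ≠ 1 := fun h1 =>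
  h (e.injective (by rw [hM, h1, Matrix.one_mulVec]))

theorem exists_level_intertwine (hΔ : E.Δ ≠ 0) (q : Nat.Primes) :
    ∃ U ∈ lvlLoc q, ∀ u ∈ U, (M.comp (loc q)) u = 1 := by
  have hΔ' : (E.map (Int.castRingHom ℚ)).Δ ≠ 0 := by
    rw [WeierstrassCurve.map_Δ, eq_intCast, Int.cast_ne_zero]; exact hΔ
  obtain ⟨L, hL, hfix⟩ := EllReducible.exists_finiteLevel _ hΔ' Nat.prime_two
  refine ⟨(galoisRepModuleEnd (K := AlgebraicClosure ℚ) ℚ
    (E.map (Int.castRingHom ℚ)).toAffine 2).ker.comap (loc q),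
    ⟨_, ⟨MonoidHom.normal_ker _, L, hL, fun σ hσ => MonoidHom.mem_ker.mpr
      (LinearMap.ext fun v => ?_)⟩, rfl⟩, fun u hu => intertwine_eq_one hM fun P => ?_⟩
  · exact hfix σ ((IntermediateField.mem_fixingSubgroup_iff _ _).mp hσ) v
  · exact LinearMap.congr_fun (MonoidHom.mem_ker.mp hu) P

variable {c : StCocycle E} {q : Nat.Primes} {z : Gl q → M2 (ZMod 2)}

omit hM in
theorem map_mul_of_intertwine (hM : ∀ (σ : GQ) (P : Tors2 E), e (σ • P) = M σ *ᵥ e P) (a b : GQ) :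
    e (c.toFun (a * b)) = e (c.toFun a) + M a *ᵥ e (c.toFun b) := by
  rw [c.map_mul, map_add, hM]

/-- **`ℓ ∣ N`**: a class fixing a line locally is unramified. -/
theorem unramAt_of_lineFixed (hE : Companion E) (hq2 : (q : ℕ) ≠ 2) (hbad : ((q : ℕ) : ℤ) ∣ E.Δ)
    (hz : IsAdCoc (M.comp (loc q)) z) (hline : LineFixed (M.comp (loc q)) z)
    (hc : ∀ t : Gl q, e (c.toFun (loc q t)) = stVec (z t)) : UnramAt E q c := by
  intro A hA
  have hP := FLTA.PT.primeLocalPlace_liesOverPrime q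
  obtain ⟨g, hg⟩ := FLTA.Galois.exists_smul_eq q.2 hP hA
  obtain ⟨σ, hσ, x, hx⟩ := Companion.exists_inertia_smul_ne_tors2 hE q.2 hbad hP
  obtain ⟨s, hs, hsσ⟩ := FLTA.TW.exists_inertiaG_eq q hσ
  have hram : ∃ s ∈ inerG q, (M.comp (loc q)) s ≠ 1 :=
    ⟨s, mem_inerG_of_mem_inertiaG hs, by
      rw [MonoidHom.comp_apply, hsσ]; exact intertwine_ne_one hM hx⟩
  obtain ⟨u, hu⟩ :=
    hline.exists_inertia_cobd hz (exists_level_intertwine hM hE.Δ_ne_zero q) hq2 hram
  obtain ⟨w, hw⟩ := exists_cobd_conj (c := fun σ => e (c.toFun σ)) (map_mul_of_intertwine hM) g u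
  refine ⟨e.symm w, fun τ hτ => e.injective ?_⟩
  rw [← hg, FLTA.Galois.inertiaSubgroupIn_smul_iff] at hτ
  obtain ⟨t, ht, htτ⟩ := FLTA.TW.exists_inertiaG_eq q hτ
  have h := hw (g⁻¹ * τ * g) (by
    rw [← htτ]
    exact (hc t).trans (hu t (mem_inerG_of_mem_inertiaG ht)))
  rw [show g * (g⁻¹ * τ * g) * g⁻¹ = τ by group] at h
  rw [map_sub, hM, e.apply_symm_apply]
  exact h

/-- **`q ∈ Q`**: a class fixing a line locally is a coboundary at every Frobenius. -/
theorem frobNull_of_lineFixed (hE : Companion E) {n : ℕ} (hq : ConjPrime E n q)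
    (hz : IsAdCoc (M.comp (loc q)) z) (hline : LineFixed (M.comp (loc q)) z)
    (hc : ∀ t : Gl q, e (c.toFun (loc q t)) = stVec (z t)) : FrobNull E q c := by
  intro A hA σ hσ
  have hP := FLTA.PT.primeLocalPlace_liesOverPrime q
  obtain ⟨g, hg⟩ := FLTA.Galois.exists_smul_eq q.2 hP hA
  obtain ⟨x, hx⟩ := exists_frobenius_smul_ne_two hE hq.prime hq.ne_two hq.good hq.nonsquare hA hσ
  have hτ : g⁻¹ * σ * g ∈ (ExtCitation.primeLocalPlace q).decompositionSubgroup ℚ := by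
    rw [← FLTA.Galois.decompositionSubgroup_smul_iff, hg]
    exact hσ.mem_decompositionSubgroup
  obtain ⟨t, ht⟩ := FLTA.TaylorWiles.exists_loc_eq q hτ
  have hne : (M.comp (loc q)) t ≠ 1 := by
    rw [MonoidHom.comp_apply, ht]
    refine intertwine_ne_one hM (P := g⁻¹ • x) fun h => hx ?_
    simpa [mul_smul] using congrArg (fun P => g • P) h
  obtain ⟨u, hu⟩ := hline.exists_apply_eq hz (exists_level_intertwine hM hE.Δ_ne_zero q) hne
  obtain ⟨w, hw⟩ := exists_cobd_conj (c := fun σ => e (c.toFun σ)) (map_mul_of_intertwine hM) g u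
  refine ⟨e.symm w, e.injective ?_⟩
  have h := hw (g⁻¹ * σ * g) (by rw [← ht]; exact (hc t).trans hu)
  rw [show g * (g⁻¹ * σ * g) * g⁻¹ = σ by group] at h
  rw [map_sub, hM, e.apply_symm_apply]
  exact h

end FLTA.LT2

end
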