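import Fermat.Agent.LT2.ReciprocityHilbertDefs

/-!
# Twisted trace forms of a three element Galois set and their local signs (LT2, part E)

For a `Gal(ℚ̄/ℚ)`-set `S` with three elements and a nowhere vanishing equivariant function `a`,
the form `f ↦ ∑ P, a P * f P ^ 2` on equivariant functions is a ternary form over `ℚ`. At a place
its sign records isotropy. The pairing built from these signs is the transfer of the symbol.
-/

set_option autoImplicit false

open Matrix

namespace FLTA.LT2

local notation "Qbar" => AlgebraicClosure ℚ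
local notation "Γℚ" => AlgebraicClosure ℚ ≃ₐ[ℚ] AlgebraicClosure ℚ

variable {S : Type*} [MulAction Γℚ S]

/-- Equivariance for a subgroup of the Galois group. -/
def IsEquivariantOn (D : Subgroup Γℚ) (f : S → Qbar) : Prop :=
  ∀ σ ∈ D, ∀ P, σ (f P) = f (σ • P)

/-- `a` is the square of a nowhere vanishing equivariant function. -/
def IsSquareOn (D : Subgroup Γℚ) (a : S → Qbar) : Prop :=
  ∃ r : S → Qbar, IsEquivariantOn D r ∧ (∀ P, r P ≠ 0) ∧ a = r ^ 2

namespace IsEquivariantOn

variable {D : Subgroup Γℚ} {f g : S → Qbar}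

lemma one : IsEquivariantOn D (1 : S → Qbar) := fun σ _ _ => map_one σ

lemma mul (hf : IsEquivariantOn D f) (hg : IsEquivariantOn D g) : IsEquivariantOn D (f * g) :=
  fun σ hσ P => by rw [Pi.mul_apply, map_mul, hf σ hσ, hg σ hσ]; rfl

lemma inv (hf : IsEquivariantOn D f) : IsEquivariantOn D f⁻¹ := fun σ hσ P => by
  rw [Pi.inv_apply, map_inv₀, hf σ hσ]; rfl

lemma pow (hf : IsEquivariantOn D f) (n : ℕ) : IsEquivariantOn D (f ^ n) := fun σ hσ P => by
  rw [Pi.pow_apply, map_pow, hf σ hσ]; rfl

lemma mono {D' : Subgroup Γℚ} (hf : IsEquivariantOn D f) (h : D' ≤ D) : IsEquivariantOn D' f :=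
  fun σ hσ => hf σ (h hσ)

end IsEquivariantOn

/-- A place of `ℚ`: a field `K`, an embedding of `ℚ̄` into an extension of `K` and a subgroup of the
Galois group whose fixed elements land in `K`. -/
structure LocalData (K Ω : Type*) [Field K] [Field Ω] [Algebra K Ω] where
  emb : AlgebraicClosure ℚ →+* Ω
  dec : Subgroup (AlgebraicClosure ℚ ≃ₐ[ℚ] AlgebraicClosure ℚ)
  fixed : ∀ x : AlgebraicClosure ℚ, (∀ σ ∈ dec, σ x = x) → emb x ∈ (algebraMap K Ω).range

namespace LocalData

variable {K Ω : Type*} [Field K] [Field Ω] [Algebra K Ω] (L : LocalData K Ω)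

/-- The local equivariant functions. -/
def space (S : Type*) [MulAction Γℚ S] : Submodule K (S → Ω) :=
  Submodule.span K ((fun g P => L.emb (g P)) '' {g : S → Qbar | IsEquivariantOn L.dec g})

variable [Fintype S]

/-- The local form attached to `a` has a nontrivial zero. -/
def Isotropic (a : S → Qbar) : Prop :=
  ∃ f ∈ L.space S, f ≠ 0 ∧ ∑ P, L.emb (a P) * f P ^ 2 = 0

open Classical in
/-- `0` if isotropic, `1` otherwise. -/
noncomputable def sign (a : S → Qbar) : ZMod 2 := if L.Isotropic a then 0 else 1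

/-- The local pairing. -/
noncomputable def pairing (a b : S → Qbar) : ZMod 2 :=
  L.sign (a * b) + L.sign a + L.sign b + L.sign (1 : S → Qbar)

omit [Fintype S] in
lemma mul_mem_space {r : S → Qbar} (hr : IsEquivariantOn L.dec r) {f : S → Ω}
    (hf : f ∈ L.space S) : (fun P => L.emb (r P) * f P) ∈ L.space S := by
  have : L.space S ≤ (L.space S).comap
      (LinearMap.mulLeft K (fun P => L.emb (r P)) : (S → Ω) →ₗ[K] (S → Ω)) := by
    refine Submodule.span_le.mpr ?_
    rintro _ ⟨g, hg, rfl⟩
    exact Submodule.subset_span ⟨r * g, hr.mul hg, funext fun P => map_mul L.emb _ _⟩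
  exact this hf

lemma Isotropic.of_mul_sq {a r : S → Qbar} (hr : IsEquivariantOn L.dec r) (hr0 : ∀ P, r P ≠ 0)
    (h : L.Isotropic (a * r ^ 2)) : L.Isotropic a := by
  obtain ⟨f, hf, hne, h0⟩ := h
  refine ⟨_, L.mul_mem_space hr hf, fun h => hne (funext fun P => ?_), ?_⟩
  · simpa [hr0 P] using congrFun h P
  · rw [← h0]
    exact Finset.sum_congr rfl fun P _ => by
      simp only [Pi.mul_apply, Pi.pow_apply, map_mul, map_pow]; ring

lemma sign_mul_sq {a r : S → Qbar} (hr : IsEquivariantOn L.dec r) (hr0 : ∀ P, r P ≠ 0) :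
    L.sign (a * r ^ 2) = L.sign a := by
  classical
  refine if_congr ⟨fun h => h.of_mul_sq L hr hr0, fun h => ?_⟩ rfl rfl
  refine Isotropic.of_mul_sq L hr.inv (fun P => inv_ne_zero (hr0 P)) ?_
  convert h using 1
  ext P
  simp [hr0 P]

lemma pairing_comm (a b : S → Qbar) : L.pairing a b = L.pairing b a := by
  simp only [pairing, mul_comm a b]; ring

lemma pairing_eq_zero_of_square_left {a b : S → Qbar} (ha : IsSquareOn L.dec a) :
    L.pairing a b = 0 := by
  obtain ⟨r, hr, hr0, rfl⟩ := ha
  have h1 : L.sign (r ^ 2) = L.sign (1 : S → Qbar) := by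
    simpa using L.sign_mul_sq (a := (1 : S → Qbar)) hr hr0
  rw [pairing, mul_comm (r ^ 2) b, L.sign_mul_sq hr hr0, h1]
  ring_nf
  simp [show (2 : ZMod 2) = 0 from rfl]

/-- The pairing vanishes if one of `a`, `b`, `a * b` is a local square. -/
theorem pairing_eq_zero {a b : S → Qbar} (ha : IsEquivariantOn L.dec a) (ha0 : ∀ P, a P ≠ 0)
    (h : IsSquareOn L.dec a ∨ IsSquareOn L.dec b ∨ IsSquareOn L.dec (a * b)) :
    L.pairing a b = 0 := by
  rcases h with h | h | ⟨r, hr, hr0, he⟩
  · exact L.pairing_eq_zero_of_square_left h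
  · rw [pairing_comm]; exact L.pairing_eq_zero_of_square_left h
  · have hb : L.sign b = L.sign a := by
      have : b = a * (r * a⁻¹) ^ 2 := by
        ext P
        have := congrFun he P
        simp only [Pi.mul_apply, Pi.pow_apply, Pi.inv_apply] at this ⊢
        field_simp [ha0 P]
        linear_combination this
      rw [this]
      exact L.sign_mul_sq (hr.mul ha.inv) fun P => mul_ne_zero (hr0 P) (inv_ne_zero (ha0 P))
    have h1 : L.sign (a * b) = L.sign (1 : S → Qbar) := by
      rw [he]; simpa using L.sign_mul_sq (a := (1 : S → Qbar)) hr hr0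
    rw [pairing, h1, hb]
    ring_nf
    simp [show (2 : ZMod 2) = 0 from rfl]

end LocalData

section global

variable [Fintype S]

lemma mem_range_of_forall_fixed {x : Qbar} (hx : ∀ σ : Γℚ, σ x = x) :
    ∃ q : ℚ, (q : Qbar) = x := by
  have : Algebra.IsAlgebraic ℚ Qbar := AlgebraicClosure.isAlgebraic ℚ
  have : IsGalois ℚ Qbar := isGalois_iff.mpr ⟨inferInstance, normal_iff.mpr fun y =>
    ⟨(Algebra.IsAlgebraic.isAlgebraic y).isIntegral, IsAlgClosed.splits _⟩⟩
  have hmem : x ∈ IntermediateField.fixedField (⊤ : Subgroup Γℚ) := fun σ => hx σ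
  rw [InfiniteGalois.fixedField_bot, IntermediateField.mem_bot] at hmem
  obtain ⟨q, hq⟩ := hmem
  exact ⟨q, by rw [← hq]; exact (eq_ratCast _ q).symm⟩

/-- The form attached to a global equivariant `a` is a fixed conic at every place. -/
theorem exists_conic (e : S → Qbar) (he : IsEquivariantOn ⊤ e) (heinj : Function.Injective e)
    (hcard : Fintype.card S = 3) {a : S → Qbar} (ha : IsEquivariantOn ⊤ a)
    (ha0 : ∀ P, a P ≠ 0) :
    ∃ u v : ℚ, u ≠ 0 ∧ v ≠ 0 ∧ ∀ (K Ω : Type) [Field K] [CharZero K] [Field Ω] [Algebra K Ω]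
      (L : LocalData K Ω), L.Isotropic a ↔ IsHilbertTrivial (u : K) (v : K) := by
  classical
  let ε : Fin 3 ≃ S := (Fintype.equivFinOfCardEq hcard).symm
  have hG : ∀ i j : Fin 3, ∃ q : ℚ, (q : Qbar) = ∑ P, a P * e P ^ ((i : ℕ) + (j : ℕ)) :=
    fun i j => mem_range_of_forall_fixed fun σ => by
      rw [map_sum]
      exact Fintype.sum_equiv (MulAction.toPerm σ) _ _ fun P => by
        simp [map_mul, map_pow, ha σ trivial P, he σ trivial P]
  choose G hG using hG
  let B : LinearMap.BilinForm ℚ (Fin 3 → ℚ) := Matrix.toBilin' (Matrix.of G)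
  have hGs : ∀ i j, G i j = G j i := fun i j =>
    Rat.cast_injective (α := Qbar) (by rw [hG, hG, add_comm])
  have hBsym : B.IsSymm := ⟨fun x y => by
    simp only [B, Matrix.toBilin'_apply, Matrix.of_apply]
    rw [Finset.sum_comm]
    exact Finset.sum_congr rfl fun i _ => Finset.sum_congr rfl fun j _ => by rw [hGs]; ring⟩
  obtain ⟨v', hv'⟩ := LinearMap.BilinForm.exists_orthogonal_basis
    (LinearMap.BilinForm.isSymm_iff.mp hBsym)
  let v := v'.reindex (finCongr (by simp : Module.finrank ℚ (Fin 3 → ℚ) = 3))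
  have hv : ∀ i j, i ≠ j → B (v i) (v j) = 0 := fun i j hij => by
    simp only [v, Module.Basis.reindex_apply]
    exact hv' fun h => hij (by simpa using h)
  let Vm : Matrix (Fin 3) (Fin 3) ℚ := Matrix.of fun i j => v i j
  let b : Fin 3 → S → Qbar := fun i P => ∑ j, (v i j : Qbar) * e P ^ (j : ℕ)
  have hb : ∀ i, IsEquivariantOn ⊤ (b i) := fun i σ _ P => by
    simp only [b, map_sum, map_mul, map_pow, map_ratCast, he σ trivial P]
  have hbb : ∀ i j, ∑ P, a P * (b i P * b j P) = (B (v i) (v j) : Qbar) := fun i j => by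
    have hexp : ∀ P, a P * (b i P * b j P) = ∑ k : Fin 3, ∑ l : Fin 3,
        (v i k : Qbar) * (v j l : Qbar) * (a P * e P ^ ((k : ℕ) + (l : ℕ))) := fun P => by
      simp only [b]
      rw [Finset.sum_mul_sum, Finset.mul_sum]
      refine Finset.sum_congr rfl fun k _ => ?_
      rw [Finset.mul_sum]
      exact Finset.sum_congr rfl fun l _ => by rw [pow_add]; ring
    simp only [hexp]
    rw [Finset.sum_comm]
    simp only [B, Matrix.toBilin'_apply, Matrix.of_apply, Rat.cast_sum, Rat.cast_mul, hG]
    refine Finset.sum_congr rfl fun k _ => ?_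
    rw [Finset.sum_comm]
    refine Finset.sum_congr rfl fun l _ => ?_
    simp only [Finset.mul_sum, Finset.sum_mul]
    exact Finset.sum_congr rfl fun P _ => by ring
  let M : Matrix (Fin 3) (Fin 3) Qbar := Matrix.of fun i r => b i (ε r)
  have hM : M = Vm.map (fun q : ℚ => (q : Qbar)) * (Matrix.vandermonde (e ∘ ε))ᵀ := by
    ext i r
    simp [M, b, Vm, Matrix.mul_apply, Matrix.vandermonde_apply]
  have hMdet : M.det ≠ 0 := by
    rw [hM, Matrix.det_mul, Matrix.det_transpose]
    refine mul_ne_zero ?_ (Matrix.det_vandermonde_ne_zero_iff.mpr (heinj.comp ε.injective))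
    have h : IsUnit Vm.det := (Matrix.isUnit_iff_isUnit_det Vm).mp
      (Matrix.linearIndependent_rows_iff_isUnit.mp v.linearIndependent)
    show ((algebraMap ℚ Qbar).mapMatrix Vm).det ≠ 0
    rw [← RingHom.map_det]
    exact (h.map _).ne_zero
  have hMu : IsUnit M.det := isUnit_iff_ne_zero.mpr hMdet
  let D := fun i => B (v i) (v i)
  have hD : ∀ i, D i ≠ 0 := fun i h0 => by
    have key : M * Matrix.diagonal (a ∘ ε) * Mᵀ = Matrix.diagonal fun l => (D l : Qbar) := by
      ext l m
      rw [Matrix.mul_apply]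
      simp only [Matrix.mul_diagonal, Matrix.transpose_apply, M, Matrix.of_apply,
        Function.comp_apply]
      rw [Fintype.sum_equiv ε _ (fun P => b l P * a P * b m P) (fun r => rfl)]
      have : ∀ P, b l P * a P * b m P = a P * (b l P * b m P) := fun P => by ring
      simp only [this, hbb]
      by_cases hlm : l = m
      · subst hlm; simp [D]
      · rw [Matrix.diagonal_apply_ne _ hlm, hv l m hlm, Rat.cast_zero]
    have := congrArg Matrix.det key
    rw [Matrix.det_mul, Matrix.det_mul, Matrix.det_transpose, Matrix.det_diagonal,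
      Matrix.det_diagonal, Finset.prod_eq_zero (f := fun l => (D l : Qbar)) (Finset.mem_univ i)
        (by simp only [show D i = 0 from h0, Rat.cast_zero])] at this
    simp only [mul_eq_zero, hMdet, false_or, or_false, Finset.prod_eq_zero_iff] at this
    obtain ⟨r, -, hr⟩ := this
    exact ha0 (ε r) hr
  refine ⟨-(D 0 * D 2), -(D 1 * D 2), neg_ne_zero.mpr (mul_ne_zero (hD 0) (hD 2)),
    neg_ne_zero.mpr (mul_ne_zero (hD 1) (hD 2)), fun K Ω _ _ _ _ L => ?_⟩
  have : CharZero Ω := charZero_of_injective_ringHom L.emb.injective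
  let fX : (Fin 3 → K) → S → Ω := fun X P => ∑ i, algebraMap K Ω (X i) * L.emb (b i P)
  have hspace : ∀ f ∈ L.space S, ∃ X, f = fX X := by
    intro f hf
    refine Submodule.span_induction ?_ ⟨0, by ext; simp [fX]⟩ ?_ ?_ hf
    · rintro _ ⟨g, hg, rfl⟩
      let x : Fin 3 → Qbar := (g ∘ ε) ᵥ* M⁻¹
      have hx : x ᵥ* M = g ∘ ε := by
        rw [Matrix.vecMul_vecMul, Matrix.nonsing_inv_mul _ hMu, Matrix.vecMul_one]
      have hxP : ∀ P, ∑ i, x i * b i P = g P := fun P => by
        have := congrFun hx (ε.symm P)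
        simpa [Matrix.vecMul, dotProduct, M] using this
      have hfix : ∀ i, ∀ σ ∈ L.dec, σ (x i) = x i := fun i σ hσ => by
        let y : Fin 3 → Qbar := fun i => σ (x i)
        have hy : y ᵥ* M = g ∘ ε := funext fun r => by
          have := congrArg σ (hxP (σ⁻¹ • ε r))
          rw [map_sum, hg σ hσ, smul_inv_smul] at this
          simp only [map_mul, hb _ σ trivial, smul_inv_smul] at this
          simpa [Matrix.vecMul, dotProduct, M] using this
        have : y = x := by
          rw [← Matrix.vecMul_one y, ← Matrix.mul_nonsing_inv _ hMu, ← Matrix.vecMul_vecMul, hy]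
        exact congrFun this i
      choose X hX using fun i => L.fixed (x i) (hfix i)
      refine ⟨X, funext fun P => ?_⟩
      simp only [fX, hX, ← map_mul, ← map_sum, hxP]
    · rintro f g _ _ ⟨X, rfl⟩ ⟨Y, rfl⟩
      exact ⟨X + Y, funext fun P => by simp [fX, add_mul, Finset.sum_add_distrib]⟩
    · rintro t f _ ⟨X, rfl⟩
      exact ⟨t • X, funext fun P => by simp [fX, Algebra.smul_def, Finset.mul_sum, mul_assoc]⟩
  have hfmem : ∀ X, fX X ∈ L.space S := fun X => by
    have : fX X = ∑ i, X i • fun P => L.emb (b i P) :=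
      funext fun P => by simp [fX, Finset.sum_apply, Algebra.smul_def]
    rw [this]
    exact Submodule.sum_mem _ fun i _ => Submodule.smul_mem _ _
      (Submodule.subset_span ⟨b i, (hb i).mono le_top, rfl⟩)
  have hinj : ∀ X, fX X = 0 → X = 0 := fun X h => by
    have hdet : IsUnit (M.map L.emb).det := by
      show IsUnit (L.emb.mapMatrix M).det
      rw [← RingHom.map_det]
      exact hMu.map _
    have h' : (fun i => algebraMap K Ω (X i)) ᵥ* M.map L.emb = 0 := funext fun r => by
      simpa [Matrix.vecMul, dotProduct, M, fX] using congrFun h (ε r)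
    have := congrArg (· ᵥ* (M.map L.emb)⁻¹) h'
    simp only [Matrix.vecMul_vecMul, Matrix.mul_nonsing_inv _ hdet, Matrix.vecMul_one,
      Matrix.zero_vecMul] at this
    exact funext fun i => (algebraMap K Ω).injective (by simpa using congrFun this i)
  have hval : ∀ X, ∑ P, L.emb (a P) * fX X P ^ 2 =
      algebraMap K Ω ((D 0 : K) * X 0 ^ 2 + (D 1 : K) * X 1 ^ 2 + (D 2 : K) * X 2 ^ 2) :=
    fun X => by
    calc ∑ P, L.emb (a P) * fX X P ^ 2
        = ∑ i, ∑ j, algebraMap K Ω (X i) * algebraMap K Ω (X j) *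
            L.emb (∑ P, a P * (b i P * b j P)) := by
          simp only [fX, map_sum, map_mul, Finset.mul_sum, sq, Finset.sum_mul]
          rw [Finset.sum_comm]
          refine Finset.sum_congr rfl fun i _ => ?_
          rw [Finset.sum_comm]
          exact Finset.sum_congr rfl fun j _ => Finset.sum_congr rfl fun P _ => by ring
      _ = ∑ i, algebraMap K Ω ((D i : K) * X i ^ 2) := by
          refine Finset.sum_congr rfl fun i _ => ?_
          rw [Finset.sum_eq_single i]
          · rw [hbb]
            simp only [D, map_mul, map_pow, map_ratCast]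
            ring
          · intro j _ hj
            rw [hbb, hv i j hj.symm, Rat.cast_zero, map_zero, mul_zero]
          · exact fun h => absurd (Finset.mem_univ i) h
      _ = _ := by rw [← map_sum, Fin.sum_univ_three]
  have hD2 : (D 2 : K) ≠ 0 := Rat.cast_ne_zero.mpr (hD 2)
  constructor
  · rintro ⟨f, hf, hne, h0⟩
    obtain ⟨X, rfl⟩ := hspace f hf
    rw [hval, map_eq_zero] at h0
    refine ⟨X 0, X 1, (D 2 : K) * X 2, ?_, ?_⟩
    · by_contra! hn
      have hX : X = 0 := funext fun i => by
        fin_cases i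
        · exact hn.1
        · exact hn.2.1
        · exact (mul_eq_zero.mp hn.2.2).resolve_left hD2
      exact hne (by rw [hX]; ext; simp [fX])
    · push_cast
      linear_combination (D 2 : K) * h0
  · rintro ⟨x, y, z, hn, h⟩
    refine ⟨fX ![x, y, z / D 2], hfmem _, fun hz => ?_, ?_⟩
    · have h' := hinj _ hz
      have h2 : z / (D 2 : K) = 0 := congrFun h' 2
      rw [div_eq_zero_iff, or_iff_left hD2] at h2
      rcases hn with h | h | h
      · exact h (congrFun h' 0)
      · exact h (congrFun h' 1)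
      · exact h h2
    · rw [hval, map_eq_zero]
      simp only [Matrix.cons_val_zero, Matrix.cons_val_one, Matrix.cons_val]
      push_cast at h
      field_simp
      linear_combination h

end global

end FLTA.LT2
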