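import Fermat.Agent.LT2.Defs
import Fermat.Agent.LT2.ReciprocityForms

/-!
# Part E vocabulary: the three element set, sign characters, local triviality
-/

set_option autoImplicit false

open WeierstrassCurve WeierstrassCurve.Affine.Point

open scoped WeierstrassCurve.Affine

namespace FLTA.LT2

local notation "Qbar" => AlgebraicClosure ℚ
local notation "Γℚ" => AlgebraicClosure ℚ ≃ₐ[ℚ] AlgebraicClosure ℚ

variable (E : WeierstrassCurve ℤ)

/-- The nonzero points of `E[2]`. -/
abbrev NzTors (E : WeierstrassCurve ℤ) : Type := {P : Tors2 E // P ≠ 0}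

noncomputable instance nzTorsAction : MulAction Γℚ (NzTors E) where
  smul σ P := ⟨σ • P.1, fun h => P.2 (by
    have h' := congrArg (σ⁻¹ • ·) h
    simpa [smul_smul] using h')⟩
  one_smul P := Subtype.ext (one_smul _ P.1)
  mul_smul σ τ P := Subtype.ext (mul_smul σ τ P.1)

lemma coe_smul_nzTors (σ : Γℚ) (P : NzTors E) : ((σ • P : NzTors E) : Tors2 E) = σ • P.1 := rfl

open Classical in
/-- The sign of the symplectic product of `v` and `P`. -/
noncomputable def stSign (v : Tors2 E) (P : NzTors E) : AlgebraicClosure ℚ :=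
  if v = 0 ∨ v = P.1 then 1 else -1

/-- `α` is a system of square roots attached to the cocycle `c`. -/
def IsKummerFor (c : StCocycle E) (α : NzTors E → AlgebraicClosure ℚ) : Prop :=
  (∀ P, α P ≠ 0) ∧
    ∀ (σ : Γℚ) (P : NzTors E), σ (α P) = stSign E (c.toFun σ) (σ • P) * α (σ • P)

/-- `c` is a coboundary on `D`. -/
def LocCob (D : Subgroup Γℚ) (c : StCocycle E) : Prop :=
  ∃ v : Tors2 E, ∀ σ ∈ D, c.toFun σ = σ • v - v

/-- `c` and `c'` differ by a coboundary on `D`. -/
def LocEq (D : Subgroup Γℚ) (c c' : StCocycle E) : Prop :=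
  ∃ v : Tors2 E, ∀ σ ∈ D, c.toFun σ - c'.toFun σ = σ • v - v

end FLTA.LT2
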