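import Fermat.Agent.LT2.ReciprocityHilbertLocal

/-!
# Hilbert reciprocity over `ℚ`
-/

set_option autoImplicit false

namespace FLTA.LT2

attribute [local instance] factPrimes

/-- Rational numbers in `ℚ_p`, on units. -/
noncomputable def ratToPadic (p : Nat.Primes) : ℚˣ →* ℚ_[(p : ℕ)]ˣ :=
  Units.map ((Rat.castHom ℚ_[(p : ℕ)]) : ℚ →* ℚ_[(p : ℕ)])

lemma coe_ratToPadic (p : Nat.Primes) (a : ℚˣ) :
    (ratToPadic p a : ℚ_[(p : ℕ)]) = ((a : ℚ) : ℚ_[(p : ℕ)]) := rfl

/-- The local terms of the product formula. -/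
noncomputable def hilbertTerm (a b : ℚˣ) (p : Nat.Primes) : ZMod 2 :=
  hilbert (ratToPadic p a) (ratToPadic p b)

/-- Rational numbers in `ℝ`, on units. -/
noncomputable def ratToReal : ℚˣ →* ℝˣ := Units.map ((Rat.castHom ℝ) : ℚ →* ℝ)

lemma coe_ratToReal (a : ℚˣ) : (ratToReal a : ℝ) = ((a : ℚ) : ℝ) := rfl

lemma parityVal_ratToPadic_eq_zero (p : Nat.Primes) (a : ℚˣ)
    (h : ¬ (p : ℕ) ∣ (a : ℚ).num.natAbs * (a : ℚ).den) : parityVal (ratToPadic p a) = 0 := by
  rw [parityVal, coe_ratToPadic, Padic.valuation_ratCast, padicValRat_def,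
    padicValInt, padicValNat.eq_zero_of_not_dvd fun hd => h (hd.mul_right _),
    padicValNat.eq_zero_of_not_dvd fun hd => h (hd.mul_left _)]
  simp

lemma hilbertTerm_finite (a b : ℚˣ) : (Function.support (hilbertTerm a b)).Finite := by
  set N := 2 * ((a : ℚ).num.natAbs * (a : ℚ).den) * ((b : ℚ).num.natAbs * (b : ℚ).den)
  have hN : N ≠ 0 := by simp [N]
  refine ((N.primeFactors.subtype Nat.Prime).finite_toSet).subset fun p hp => ?_
  simp only [Finset.mem_coe, Finset.mem_subtype, Nat.mem_primeFactors]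
  refine ⟨p.2, ?_, hN⟩
  by_contra hd
  refine hp ?_
  have h2 : (p : ℕ) ≠ 2 := fun h => hd (by rw [h]; exact (dvd_mul_right _ _).mul_right _)
  rw [hilbertTerm, hilbert_odd h2,
    parityVal_ratToPadic_eq_zero p a fun h => hd ((h.mul_left _).mul_right _),
    parityVal_ratToPadic_eq_zero p b fun h => hd (h.mul_left _)]
  ring

/-- The total sum of the symbols. -/
noncomputable def hilbertTotal (a b : ℚˣ) : ZMod 2 :=
  (∑ᶠ p, hilbertTerm a b p) + hilbertReal (ratToReal a) (ratToReal b)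

lemma hilbertTotal_comm (a b : ℚˣ) : hilbertTotal a b = hilbertTotal b a := by
  simp only [hilbertTotal, hilbertTerm, hilbert_comm (ratToPadic _ a), hilbertReal_comm]

lemma hilbertTotal_mul_left (a a' b : ℚˣ) :
    hilbertTotal (a * a') b = hilbertTotal a b + hilbertTotal a' b := by
  have h : hilbertTerm (a * a') b = fun p => hilbertTerm a b p + hilbertTerm a' b p := by
    funext p
    rw [hilbertTerm, map_mul, hilbert_mul_left]
    rfl
  rw [hilbertTotal, h, finsum_add_distrib (hilbertTerm_finite a b) (hilbertTerm_finite a' b),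
    map_mul, hilbertReal_mul_left]
  simp only [hilbertTotal]
  ring

lemma hilbertTotal_mul_right (a b b' : ℚˣ) :
    hilbertTotal a (b * b') = hilbertTotal a b + hilbertTotal a b' := by
  rw [hilbertTotal_comm, hilbertTotal_mul_left, hilbertTotal_comm b, hilbertTotal_comm b']

/-- A prime as a rational unit. -/
def primeUnit (l : Nat.Primes) : ℚˣ := Units.mk0 ((l : ℕ) : ℚ) (Nat.cast_ne_zero.mpr l.2.ne_zero)

/-- The group `ℚˣ` is generated by `-1` and the primes. -/
lemma induction_ratUnit (Q : ℚˣ → Prop) (hmul : ∀ a b, Q a → Q b → Q (a * b))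
    (hinv : ∀ a, Q a → Q a⁻¹) (hneg : Q (-1)) (hprime : ∀ l, Q (primeUnit l)) (a : ℚˣ) : Q a := by
  have hone : Q 1 := by simpa using hmul _ _ hneg hneg
  have hnat : ∀ (n : ℕ) (hn : (n : ℚ) ≠ 0), Q (Units.mk0 (n : ℚ) hn) := by
    intro n
    induction n using induction_on_primes with
    | zero => intro hn; exact absurd (by simp) hn
    | one =>
      intro hn
      have : Units.mk0 ((1 : ℕ) : ℚ) hn = 1 := Units.ext (by simp)
      rw [this]
      exact hone
    | prime_mul l n hl ih =>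
      intro hn
      have hn' : (n : ℚ) ≠ 0 := fun h => hn (by simp [h])
      have : Units.mk0 ((l * n : ℕ) : ℚ) hn = primeUnit ⟨l, hl⟩ * Units.mk0 (n : ℚ) hn' :=
        Units.ext (by simp [primeUnit])
      rw [this]
      exact hmul _ _ (hprime _) (ih hn')
  have hden : ((a : ℚ).den : ℚ) ≠ 0 := Nat.cast_ne_zero.mpr (a : ℚ).den_nz
  have hnum : ((a : ℚ).num.natAbs : ℚ) ≠ 0 :=
    Nat.cast_ne_zero.mpr (Int.natAbs_ne_zero.mpr (Rat.num_ne_zero.mpr a.ne_zero))
  have ha := Rat.num_div_den (a : ℚ)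
  rcases Int.natAbs_eq (a : ℚ).num with h | h
  · have : a = Units.mk0 _ hnum * (Units.mk0 _ hden)⁻¹ := Units.ext (by
      conv_lhs => rw [← ha, h]
      simp [div_eq_mul_inv])
    rw [this]
    exact hmul _ _ (hnat _ _) (hinv _ (hnat _ _))
  · have : a = -1 * (Units.mk0 _ hnum * (Units.mk0 _ hden)⁻¹) := Units.ext (by
      conv_lhs => rw [← ha, h]
      simp [div_eq_mul_inv])
    rw [this]
    exact hmul _ _ hneg (hmul _ _ (hnat _ _) (hinv _ (hnat _ _)))

lemma ratToPadic_neg_one (p : Nat.Primes) : ratToPadic p (-1) = -1 := Units.ext (by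
  simp [coe_ratToPadic])

lemma ratToPadic_prime_self (l : Nat.Primes) :
    parityVal (ratToPadic l (primeUnit l)) = 1 ∧ padicUnit (ratToPadic l (primeUnit l)) = 1 := by
  have hv : Padic.valuation (ratToPadic l (primeUnit l) : ℚ_[(l : ℕ)]) = 1 := by
    rw [coe_ratToPadic, primeUnit, Units.val_mk0, Rat.cast_natCast, Padic.valuation_p]
  refine ⟨by simp [parityVal, hv], Units.ext (Subtype.ext ?_)⟩
  rw [coe_padicUnit, hv, coe_ratToPadic, primeUnit, Units.val_mk0, Rat.cast_natCast, zpow_neg_one,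
    inv_mul_cancel₀ (Nat.cast_ne_zero.2 l.2.ne_zero)]
  rfl

lemma ratToPadic_prime_of_ne {p l : Nat.Primes} (h : p ≠ l) :
    parityVal (ratToPadic p (primeUnit l)) = 0 ∧
      unitResidue (ratToPadic p (primeUnit l)) = ((l : ℕ) : ZMod (p : ℕ)) ∧
      unitResidue8 (ratToPadic p (primeUnit l)) =
        (((l : ℕ) : ZMod ((p : ℕ) ^ 3))).val := by
  have hne : ¬ (p : ℕ) ∣ (l : ℕ) := fun hd =>
    h (Subtype.ext ((Nat.prime_dvd_prime_iff_eq p.2 l.2).mp hd))
  have hv : Padic.valuation (ratToPadic p (primeUnit l) : ℚ_[(p : ℕ)]) = 0 := by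
    rw [coe_ratToPadic, primeUnit, Units.val_mk0, Rat.cast_natCast, Padic.valuation_natCast,
      padicValNat.eq_zero_of_not_dvd hne]
    rfl
  have hu : ((padicUnit (ratToPadic p (primeUnit l)) : ℤ_[(p : ℕ)]ˣ) : ℤ_[(p : ℕ)]) = (l : ℕ) := by
    refine Subtype.ext ?_
    rw [coe_padicUnit, hv, coe_ratToPadic, primeUnit, Units.val_mk0, Rat.cast_natCast, neg_zero,
      zpow_zero, one_mul]
    simp
  refine ⟨by simp [parityVal, hv], ?_, ?_⟩
  · rw [unitResidue, hu, map_natCast]
  · rw [unitResidue8, hu, map_natCast]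

lemma eps8_eq_half : ∀ r : Fin 8, r.val % 2 = 1 → eps8 r.val = ((r.val / 2 : ℕ) : ZMod 2) := by
  decide

lemma sgnBit_neg_one_pow (n : ℕ) : sgnBit ((-1) ^ n) = (n : ZMod 2) := by
  induction n with
  | zero => rfl
  | succ n ih =>
    rw [pow_succ, sgnBit_mul (neg_one_pow_eq_or ℤ n) (Or.inr rfl), ih, Nat.cast_succ]
    rfl

lemma eps8_mod (n : ℕ) : eps8 (n % 8) = sgnBit (ZMod.χ₄ (n : ZMod 4)) := by
  rw [eps8, show ((n % 8 : ℕ) : ZMod 4) = (n : ZMod 4) from
    (ZMod.natCast_eq_natCast_iff' _ _ 4).mpr (by omega)]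

lemma omega8_mod (n : ℕ) : omega8 (n % 8) = sgnBit (ZMod.χ₈ (n : ZMod 8)) := by
  rw [omega8, ZMod.natCast_mod]

lemma natCast_val_eight (n : ℕ) : ((n : ZMod (2 ^ 3))).val = n % 8 := ZMod.val_natCast ..

lemma eps8_omega8_special : eps8 1 = 0 ∧ omega8 1 = 0 ∧ (1 : ZMod 2) + 1 = 0 := by decide

/-- The prime `2`. -/
def primeTwo : Nat.Primes := ⟨2, Nat.prime_two⟩

lemma unitResidue8_self (l : Nat.Primes) :
    unitResidue8 (ratToPadic l (primeUnit l)) = 1 := by
  rw [unitResidue8, (ratToPadic_prime_self l).2, Units.val_one, map_one]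
  have : Fact (1 < (l : ℕ) ^ 3) := ⟨Nat.one_lt_pow (by norm_num) l.2.one_lt⟩
  exact ZMod.val_one _

lemma unitResidue_self (l : Nat.Primes) :
    unitResidue (ratToPadic l (primeUnit l)) = 1 := by
  rw [unitResidue, (ratToPadic_prime_self l).2, Units.val_one, map_one]

lemma legBit_one (l : Nat.Primes) : legBit (1 : ZMod (l : ℕ)) = 0 :=
  (legBit_eq_zero_iff one_ne_zero).mpr IsSquare.one

lemma hilbertReal_primeUnit (a : ℚˣ) (l : Nat.Primes) :
    hilbertReal (ratToReal a) (ratToReal (primeUnit l)) = 0 := by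
  rw [hilbertReal_eq_zero_iff]
  refine Or.inr ?_
  rw [coe_ratToReal, primeUnit, Units.val_mk0, Rat.cast_natCast]
  exact_mod_cast l.2.pos

lemma hilbertTotal_neg_one_neg_one : hilbertTotal (-1) (-1) = 0 := by
  have hsupp : ∀ p : Nat.Primes, p ≠ primeTwo → hilbertTerm (-1) (-1) p = 0 := fun p hp => by
    have h2 : (p : ℕ) ≠ 2 := fun h => hp (Subtype.ext h)
    rw [hilbertTerm, ratToPadic_neg_one, hilbert_odd h2, parityVal_neg_one]
    ring
  rw [hilbertTotal, finsum_eq_single _ primeTwo hsupp, hilbertTerm, ratToPadic_neg_one]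
  have h1 : hilbert (p := 2) (-1) (-1) = 1 := by
    rw [hilbert_two, epsBit_neg_one.1, epsBit_neg_one.2, parityVal_neg_one]
    ring
  have h2 : hilbertReal (ratToReal (-1)) (ratToReal (-1)) = 1 := by
    rw [hilbertReal, if_pos]
    simp [coe_ratToReal]
  refine Eq.trans (congrArg₂ (· + ·) h1 h2) eps8_omega8_special.2.2

lemma hilbertTotal_neg_one_prime (l : Nat.Primes) : hilbertTotal (-1) (primeUnit l) = 0 := by
  classical
  have hzero : ∀ p : Nat.Primes, p ∉ ({primeTwo, l} : Finset Nat.Primes) →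
      hilbertTerm (-1) (primeUnit l) p = 0 := fun p hp => by
    simp only [Finset.mem_insert, Finset.mem_singleton, not_or] at hp
    have h2 : (p : ℕ) ≠ 2 := fun h => hp.1 (Subtype.ext h)
    rw [hilbertTerm, ratToPadic_neg_one, hilbert_odd h2, parityVal_neg_one,
      (ratToPadic_prime_of_ne hp.2).1]
    ring
  rw [hilbertTotal, hilbertReal_primeUnit, add_zero,
    finsum_eq_sum_of_support_subset _ (s := {primeTwo, l}) fun p hp => by
      by_contra h
      exact hp (hzero p h)]
  by_cases hl : l = primeTwo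
  · subst hl
    rw [Finset.insert_eq_of_mem (Finset.mem_singleton_self _), Finset.sum_singleton, hilbertTerm,
      ratToPadic_neg_one]
    change hilbert (p := 2) (-1) _ = 0
    rw [hilbert_two, parityVal_neg_one, epsBit_neg_one.1, epsBit_neg_one.2]
    have e : epsBit (ratToPadic primeTwo (primeUnit primeTwo)) = 0 := by
      rw [epsBit, unitResidue8_self, eps8_omega8_special.1]
    erw [e]
    ring
  · have hl2 : (l : ℕ) ≠ 2 := fun h => hl (Subtype.ext h)
    rw [Finset.sum_pair (Ne.symm hl)]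
    have e2 : hilbertTerm (-1) (primeUnit l) primeTwo = sgnBit (ZMod.χ₄ ((l : ℕ) : ZMod 4)) := by
      rw [hilbertTerm, ratToPadic_neg_one]
      change hilbert (p := 2) (-1) _ = _
      rw [hilbert_two, parityVal_neg_one, epsBit_neg_one.1, epsBit_neg_one.2, one_mul, zero_mul,
        add_zero, mul_zero, add_zero, epsBit]
      erw [(ratToPadic_prime_of_ne (Ne.symm hl)).2.2, natCast_val_eight, eps8_mod]
    have el : hilbertTerm (-1) (primeUnit l) l = sgnBit (ZMod.χ₄ ((l : ℕ) : ZMod 4)) := by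
      rw [hilbertTerm, ratToPadic_neg_one, hilbert_odd hl2, parityVal_neg_one,
        (ratToPadic_prime_self l).1, unitResidue_neg_one, legBit,
        quadraticChar_neg_one (by rwa [ZMod.ringChar_zmod_n]), ZMod.card]
      ring
    rw [e2, el]
    exact CharTwo.add_self_eq_zero _

lemma hilbertTotal_two_prime {m : Nat.Primes} (hm : m ≠ primeTwo) :
    hilbertTotal (primeUnit primeTwo) (primeUnit m) = 0 := by
  classical
  have hm2 : (m : ℕ) ≠ 2 := fun h => hm (Subtype.ext h)
  have hzero : ∀ p : Nat.Primes, p ∉ ({primeTwo, m} : Finset Nat.Primes) →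
      hilbertTerm (primeUnit primeTwo) (primeUnit m) p = 0 := fun p hp => by
    simp only [Finset.mem_insert, Finset.mem_singleton, not_or] at hp
    have h2 : (p : ℕ) ≠ 2 := fun h => hp.1 (Subtype.ext h)
    rw [hilbertTerm, hilbert_odd h2, (ratToPadic_prime_of_ne hp.1).1,
      (ratToPadic_prime_of_ne hp.2).1]
    ring
  rw [hilbertTotal, hilbertReal_primeUnit, add_zero,
    finsum_eq_sum_of_support_subset _ (s := {primeTwo, m}) fun p hp => by
      by_contra h
      exact hp (hzero p h), Finset.sum_pair (Ne.symm hm)]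
  have e2 : hilbertTerm (primeUnit primeTwo) (primeUnit m) primeTwo =
      sgnBit (ZMod.χ₈ ((m : ℕ) : ZMod 8)) := by
    change hilbert (p := 2) _ _ = _
    rw [hilbert_two, epsBit, omegaBit]
    erw [(ratToPadic_prime_self primeTwo).1, (ratToPadic_prime_of_ne (Ne.symm hm)).1,
      (ratToPadic_prime_of_ne (Ne.symm hm)).2.2, natCast_val_eight, omega8_mod]
    erw [unitResidue8_self primeTwo]
    rw [eps8_omega8_special.1]
    ring
  have em : hilbertTerm (primeUnit primeTwo) (primeUnit m) m =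
      sgnBit (ZMod.χ₈ ((m : ℕ) : ZMod 8)) := by
    rw [hilbertTerm, hilbert_odd hm2, (ratToPadic_prime_of_ne hm).1, (ratToPadic_prime_self m).1,
      (ratToPadic_prime_of_ne hm).2.1]
    have e : legBit ((primeTwo : ℕ) : ZMod (m : ℕ)) = sgnBit (ZMod.χ₈ ((m : ℕ) : ZMod 8)) := by
      rw [legBit, show ((primeTwo : ℕ) : ZMod (m : ℕ)) = 2 by simp [primeTwo],
        quadraticChar_two (by rwa [ZMod.ringChar_zmod_n]), ZMod.card]
    rw [e]
    ring
  rw [e2, em]
  exact CharTwo.add_self_eq_zero _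

lemma hilbertTotal_odd_primes {l m : Nat.Primes} (hl : l ≠ primeTwo) (hm : m ≠ primeTwo)
    (hlm : l ≠ m) : hilbertTotal (primeUnit l) (primeUnit m) = 0 := by
  classical
  have hl2 : (l : ℕ) ≠ 2 := fun h => hl (Subtype.ext h)
  have hm2 : (m : ℕ) ≠ 2 := fun h => hm (Subtype.ext h)
  have hzero : ∀ p : Nat.Primes, p ∉ ({primeTwo, l, m} : Finset Nat.Primes) →
      hilbertTerm (primeUnit l) (primeUnit m) p = 0 := fun p hp => by
    simp only [Finset.mem_insert, Finset.mem_singleton, not_or] at hp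
    have h2 : (p : ℕ) ≠ 2 := fun h => hp.1 (Subtype.ext h)
    rw [hilbertTerm, hilbert_odd h2, (ratToPadic_prime_of_ne hp.2.1).1,
      (ratToPadic_prime_of_ne hp.2.2).1]
    ring
  rw [hilbertTotal, hilbertReal_primeUnit, add_zero,
    finsum_eq_sum_of_support_subset _ (s := {primeTwo, l, m}) fun p hp => by
      by_contra h
      exact hp (hzero p h)]
  rw [Finset.sum_insert (by simp [Ne.symm hl, Ne.symm hm]), Finset.sum_pair hlm]
  have hodd : ∀ q : Nat.Primes, q ≠ primeTwo →
      eps8 ((q : ℕ) % 8) = (((q : ℕ) / 2 : ℕ) : ZMod 2) := fun q hq => by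
    have h1 : (q : ℕ) % 2 = 1 := q.2.eq_two_or_odd.resolve_left fun h => hq (Subtype.ext h)
    rw [eps8_eq_half ⟨(q : ℕ) % 8, by omega⟩ (by simp only; omega)]
    exact (ZMod.natCast_eq_natCast_iff' _ _ 2).mpr (by simp only; omega)
  have e2 : hilbertTerm (primeUnit l) (primeUnit m) primeTwo =
      (((l : ℕ) / 2 : ℕ) : ZMod 2) * (((m : ℕ) / 2 : ℕ) : ZMod 2) := by
    change hilbert (p := 2) _ _ = _
    rw [hilbert_two, epsBit, epsBit]
    erw [(ratToPadic_prime_of_ne (Ne.symm hl)).1, (ratToPadic_prime_of_ne (Ne.symm hm)).1,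
      (ratToPadic_prime_of_ne (Ne.symm hl)).2.2, (ratToPadic_prime_of_ne (Ne.symm hm)).2.2,
      natCast_val_eight, natCast_val_eight, hodd l hl, hodd m hm]
    ring
  have el : hilbertTerm (primeUnit l) (primeUnit m) l =
      sgnBit (legendreSym (l : ℕ) (m : ℕ)) := by
    rw [hilbertTerm, hilbert_odd hl2, (ratToPadic_prime_self l).1,
      (ratToPadic_prime_of_ne hlm).1, (ratToPadic_prime_of_ne hlm).2.1, legendreSym, Int.cast_natCast]
    unfold legBit
    ring
  have em : hilbertTerm (primeUnit l) (primeUnit m) m =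
      sgnBit (legendreSym (m : ℕ) (l : ℕ)) := by
    rw [hilbertTerm, hilbert_odd hm2, (ratToPadic_prime_self m).1,
      (ratToPadic_prime_of_ne hlm.symm).1, (ratToPadic_prime_of_ne hlm.symm).2.1, legendreSym,
      Int.cast_natCast]
    unfold legBit
    ring
  have hlm' : ((l : ℕ) : ℕ) ≠ (m : ℕ) := fun h => hlm (Subtype.ext h)
  have hne : ∀ q r : Nat.Primes, (q : ℕ) ≠ (r : ℕ) →
      (((r : ℕ) : ℤ) : ZMod (q : ℕ)) ≠ 0 := fun q r h => by
    rw [Int.cast_natCast]
    exact ZMod.prime_ne_zero (q : ℕ) (r : ℕ) h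
  have hQR := congrArg sgnBit (legendreSym.quadratic_reciprocity hl2 hm2 hlm')
  rw [sgnBit_mul (legendreSym.eq_one_or_neg_one (m : ℕ) (hne m l hlm'.symm))
    (legendreSym.eq_one_or_neg_one (l : ℕ) (hne l m hlm')), sgnBit_neg_one_pow, Nat.cast_mul] at hQR
  rw [e2, el, em, add_comm (sgnBit (legendreSym (l : ℕ) (m : ℕ))), hQR]
  exact CharTwo.add_self_eq_zero _

/-- The product formula for the explicit symbols. -/
theorem hilbertTotal_eq_zero (a b : ℚˣ) : hilbertTotal a b = 0 := by
  have hinv : ∀ (c : ℚˣ) (a : ℚˣ), hilbertTotal a c = 0 → hilbertTotal a⁻¹ c = 0 := by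
    intro c a ha
    have h1 : hilbertTotal 1 c = 0 := by
      have h := hilbertTotal_mul_left 1 1 c
      rw [mul_one] at h
      exact left_eq_add.mp h
    have h := hilbertTotal_mul_left a⁻¹ a c
    rw [inv_mul_cancel, h1, ha, add_zero] at h
    exact h.symm
  have key : ∀ l, hilbertTotal (primeUnit l) (primeUnit l) = 0 := by
    intro l
    have hself : hilbertTotal (primeUnit l) (-primeUnit l) = 0 := by
      rw [hilbertTotal, finsum_eq_zero_of_forall_eq_zero fun p => by
        rw [hilbertTerm, show ratToPadic p (-primeUnit l) = -ratToPadic p (primeUnit l) from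
          Units.ext (by simp [coe_ratToPadic])]
        exact hilbert_neg_self _, zero_add, hilbertReal_comm]
      exact hilbertReal_primeUnit _ l
    rw [← neg_one_mul (primeUnit l), hilbertTotal_mul_right, hilbertTotal_comm _ (-1),
      hilbertTotal_neg_one_prime, zero_add] at hself
    exact hself
  have hgen : ∀ l m, hilbertTotal (primeUnit l) (primeUnit m) = 0 := by
    intro l m
    by_cases hlm : l = m
    · subst hlm
      exact key l
    by_cases hl : l = primeTwo
    · subst hl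
      exact hilbertTotal_two_prime (Ne.symm hlm)
    by_cases hm : m = primeTwo
    · subst hm
      rw [hilbertTotal_comm]
      exact hilbertTotal_two_prime hlm
    exact hilbertTotal_odd_primes hl hm hlm
  have step : ∀ c, hilbertTotal (-1) c = 0 → (∀ l, hilbertTotal (primeUnit l) c = 0) →
      ∀ a, hilbertTotal a c = 0 := fun c h1 h2 a =>
    induction_ratUnit (fun a => hilbertTotal a c = 0)
      (fun x y hx hy => by rw [hilbertTotal_mul_left, hx, hy, add_zero])
      (fun x hx => hinv c x hx) h1 h2 a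
  refine step b ?_ (fun l => ?_) a
  · rw [hilbertTotal_comm]
    exact step (-1) hilbertTotal_neg_one_neg_one
      (fun l => (hilbertTotal_comm _ _).trans (hilbertTotal_neg_one_prime l)) b
  · rw [hilbertTotal_comm]
    exact step _ (hilbertTotal_neg_one_prime l) (fun m => hgen m l) b

lemma hilbertSign_real (a b : ℝˣ) : hilbertSign (a : ℝ) (b : ℝ) = hilbertReal a b := by
  rcases zmod2_cases (hilbertReal a b) with h | h
  · rw [h, hilbertSign_eq_zero_iff]
    rcases (hilbertReal_eq_zero_iff a b).mp h with ha | hb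
    · exact ⟨1, 0, Real.sqrt (a : ℝ), Or.inl one_ne_zero, by rw [Real.sq_sqrt ha.le]; ring⟩
    · exact ⟨0, 1, Real.sqrt (b : ℝ), Or.inr (Or.inl one_ne_zero), by
        rw [Real.sq_sqrt hb.le]; ring⟩
  · rw [h]
    refine (zmod2_cases _).resolve_left fun h0 => ?_
    obtain ⟨x, y, z, hne, hz⟩ := (hilbertSign_eq_zero_iff _ _).mp h0
    have hnot : ¬ (0 < (a : ℝ) ∨ 0 < (b : ℝ)) := fun hp => by
      rw [(hilbertReal_eq_zero_iff a b).mpr hp] at h
      exact zero_ne_one h
    push Not at hnot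
    have ha : (a : ℝ) < 0 := lt_of_le_of_ne hnot.1 a.ne_zero
    have hb : (b : ℝ) < 0 := lt_of_le_of_ne hnot.2 b.ne_zero
    rcases hne with hx | hy | hz'
    · nlinarith [mul_self_pos.mpr hx, sq_nonneg y, sq_nonneg z]
    · nlinarith [mul_self_pos.mpr hy, sq_nonneg x, sq_nonneg z]
    · nlinarith [mul_self_pos.mpr hz', sq_nonneg x, sq_nonneg y]

/-- The quadratic Hilbert reciprocity law over `ℚ`. -/
theorem hilbert_reciprocity (a b : ℚ) (ha : a ≠ 0) (hb : b ≠ 0) :
    {p : Nat.Primes | hilbertSign (a : ℚ_[(p : ℕ)]) (b : ℚ_[(p : ℕ)]) ≠ 0}.Finite ∧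
      (∑ᶠ p : Nat.Primes, hilbertSign (a : ℚ_[(p : ℕ)]) (b : ℚ_[(p : ℕ)])) +
        hilbertSign (a : ℝ) (b : ℝ) = 0 := by
  have h1 : ∀ p : Nat.Primes, hilbertSign (a : ℚ_[(p : ℕ)]) (b : ℚ_[(p : ℕ)]) =
      hilbertTerm (Units.mk0 a ha) (Units.mk0 b hb) p := fun p =>
    hilbertSign_eq_hilbert (ratToPadic p (Units.mk0 a ha)) (ratToPadic p (Units.mk0 b hb))
  refine ⟨?_, ?_⟩
  · simp only [h1]
    exact hilbertTerm_finite _ _
  · rw [finsum_congr h1, show hilbertSign (a : ℝ) (b : ℝ) =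
      hilbertReal (ratToReal (Units.mk0 a ha)) (ratToReal (Units.mk0 b hb)) from
        hilbertSign_real (ratToReal (Units.mk0 a ha)) (ratToReal (Units.mk0 b hb))]
    exact hilbertTotal_eq_zero _ _

end FLTA.LT2
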