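import Fermat.Agent.LT2.ReciprocityForms
import Fermat.Agent.LT2.ReciprocityHilbert
import Fermat.Agent.Galois.Places
import Fermat.Agent.RT.LocalGalois
import Fermat.Prelude.Def_GaloisRep_CompletionBridge

/-!
# The places of `ℚ` as local data, reciprocity of the local signs (LT2, part E)
-/

set_option autoImplicit false

open scoped NNReal

namespace FLTA.LT2

local notation "Qbar" => AlgebraicClosure ℚ
local notation "Γℚ" => AlgebraicClosure ℚ ≃ₐ[ℚ] AlgebraicClosure ℚ

attribute [local instance] factPrimes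

section padic

variable (p : ℕ) [Fact p.Prime]

lemma padicEmbedding_natCast (n : ℕ) : padicEmbedding p (n : Qbar) = n := map_natCast _ n

lemma norm_natCast_padicAlgCl_self : ‖(p : PadicAlgCl p)‖ = (p : ℝ)⁻¹ := by
  rw [← map_natCast (algebraMap ℚ_[p] (PadicAlgCl p)) p]
  show ‖((p : ℚ_[p]) : PadicAlgCl p)‖ = _
  rw [PadicAlgCl.norm_extends, Padic.norm_p]

lemma mem_padicPlace_iff_norm {x : Qbar} : x ∈ padicPlace p ↔ ‖padicEmbedding p x‖ ≤ 1 :=
  (mem_padicPlace_iff p).trans (by rw [← NNReal.coe_le_coe, coe_nnnorm, NNReal.coe_one])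

lemma mem_nonunits_padicPlace_iff {x : Qbar} :
    x ∈ (padicPlace p).nonunits ↔ ‖padicEmbedding p x‖ < 1 := by
  rw [ValuationSubring.mem_nonunits_iff_or, mem_padicPlace_iff_norm, map_inv₀, norm_inv]
  constructor
  · rintro (rfl | h)
    · simp
    · by_contra! h1
      exact h (inv_le_one_of_one_le₀ h1)
  · intro h
    rcases eq_or_ne x 0 with rfl | hx
    · exact Or.inl rfl
    · refine Or.inr fun h1 => ?_
      have hpos : 0 < ‖padicEmbedding p x‖ :=
        norm_pos_iff.mpr ((map_ne_zero _).mpr hx)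
      exact absurd ((inv_le_one₀ hpos).mp h1) (not_le.mpr h)

lemma liesOverPrime_padicPlace : (padicPlace p).LiesOverPrime p := by
  show (p : Qbar) ∈ (padicPlace p).nonunits
  rw [mem_nonunits_padicPlace_iff, padicEmbedding_natCast, norm_natCast_padicAlgCl_self]
  exact inv_lt_one_of_one_lt₀ (by exact_mod_cast (Fact.out : p.Prime).one_lt)

/-- Elements fixed by the decomposition group lie in `ℚ_p`. -/
lemma padicEmbedding_mem_range {x : Qbar}
    (hx : ∀ σ ∈ (padicPlace p).decompositionSubgroup ℚ, σ x = x) :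
    padicEmbedding p x ∈ (algebraMap ℚ_[p] (PadicAlgCl p)).range := by
  have : IsGalois ℚ_[p] (PadicAlgCl p) := isGalois_iff.mpr ⟨inferInstance, normal_iff.mpr fun y =>
    ⟨(Algebra.IsAlgebraic.isAlgebraic y).isIntegral, IsAlgClosed.splits _⟩⟩
  have hmem : padicEmbedding p x ∈
      IntermediateField.fixedField (⊤ : Subgroup (PadicAlgCl p ≃ₐ[ℚ_[p]] PadicAlgCl p)) :=
    fun τ => by
      show (τ : PadicAlgCl p ≃ₐ[ℚ_[p]] PadicAlgCl p).toAlgHom (padicEmbedding p x) = _
      rw [AlgEquiv.toAlgHom_apply, ← padicEmbedding_localGaloisToGlobal,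
        hx _ (localGaloisToGlobal_mem_decompositionSubgroup p _)]
  rw [InfiniteGalois.fixedField_bot, IntermediateField.mem_bot] at hmem
  exact hmem

/-- An element with image in `ℚ_p` is fixed by the decomposition group. -/
lemma apply_eq_of_padicEmbedding_eq {x : Qbar} {t : ℚ_[p]}
    (hx : padicEmbedding p x = algebraMap ℚ_[p] _ t) {σ : Γℚ}
    (hσ : σ ∈ (padicPlace p).decompositionSubgroup ℚ) : σ x = x := by
  by_contra hne
  have hpos : 0 < ‖padicEmbedding p (σ x - x)‖ :=
    norm_pos_iff.mpr ((map_ne_zero _).mpr (sub_ne_zero.mpr hne))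
  have hp1 : (1 : ℝ) < p := by exact_mod_cast (Fact.out : p.Prime).one_lt
  obtain ⟨N, hN⟩ := exists_pow_lt_of_lt_one hpos (inv_lt_one_of_one_lt₀ hp1)
  have hp0 : (p : Qbar) ≠ 0 := Nat.cast_ne_zero.mpr (Fact.out : p.Prime).ne_zero
  obtain ⟨r, hr⟩ := Padic.rat_dense p t (pow_pos (inv_pos.mpr (lt_trans one_pos hp1)) N)
  let y : Qbar := (x - r) / (p : Qbar) ^ N
  have hy : y ∈ padicPlace p := by
    rw [mem_padicPlace_iff_norm, map_div₀, map_sub, map_pow, padicEmbedding_natCast, hx,
      map_ratCast, ← map_ratCast (algebraMap ℚ_[p] (PadicAlgCl p)) r, ← map_sub, norm_div,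
      norm_pow, norm_natCast_padicAlgCl_self]
    show ‖((t - r : ℚ_[p]) : PadicAlgCl p)‖ / _ ≤ 1
    rw [PadicAlgCl.norm_extends]
    exact (div_le_one (pow_pos (inv_pos.mpr (lt_trans one_pos hp1)) N)).mpr hr.le
  have hσy : σ y ∈ padicPlace p :=
    FLTA.Galois.apply_mem_of_mem_decompositionSubgroup hσ hy
  have he : σ x - x = (p : Qbar) ^ N * (σ y - y) := by
    simp only [y, map_div₀, map_sub, map_pow, map_natCast, map_ratCast]
    field_simp
    ring
  have h1 : ‖padicEmbedding p (σ y - y)‖ ≤ 1 :=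
    (mem_padicPlace_iff_norm p).mp (sub_mem hσy hy)
  rw [he, map_mul, map_pow, padicEmbedding_natCast, norm_mul, norm_pow,
    norm_natCast_padicAlgCl_self] at hN
  exact absurd hN (not_lt.mpr (mul_le_of_le_one_right (pow_nonneg (by positivity) N) h1))

/-- The local data at `p`. -/
noncomputable def padicData : LocalData ℚ_[p] (PadicAlgCl p) where
  emb := (padicEmbedding p).toRingHom
  dec := (padicPlace p).decompositionSubgroup ℚ
  fixed := fun _ hx => padicEmbedding_mem_range p hx

variable {p}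

/-- Inertia fixes the square roots of units. -/
lemma inertia_apply_sqrt_unit (hp : p ≠ 2) {r : Qbar} (hr : ‖padicEmbedding p r‖ = 1) {σ : Γℚ}
    (hσ : σ ∈ (padicPlace p).inertiaSubgroupIn ℚ) (h2 : σ (r ^ 2) = r ^ 2) : σ r = r := by
  rcases eq_or_eq_neg_of_sq_eq_sq (σ r) r (by rw [← map_pow, h2]) with h | h
  · exact h
  · exfalso
    have hmem := (FLTA.Galois.mem_inertiaSubgroupIn_iff.mp hσ).2 r
      ((mem_padicPlace_iff_norm p).mpr hr.le)
    rw [h, mem_nonunits_padicPlace_iff, map_sub, map_neg,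
      show -padicEmbedding p r - padicEmbedding p r = -((2 : ℕ) * padicEmbedding p r) by
        push_cast; ring, norm_neg, norm_mul, hr, mul_one] at hmem
    have h21 : ‖((2 : ℕ) : ℚ_[p])‖ = 1 := Padic.norm_natCast_eq_one_iff.mpr
      ((Nat.coprime_primes Fact.out Nat.prime_two).mpr hp)
    rw [← map_natCast (algebraMap ℚ_[p] (PadicAlgCl p))] at hmem
    change ‖(((2 : ℕ) : ℚ_[p]) : PadicAlgCl p)‖ < 1 at hmem
    rw [PadicAlgCl.norm_extends, h21] at hmem
    exact lt_irrefl _ hmem

/-- Inertia fixes a square root exactly when the valuation is even. -/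
theorem inertia_apply_sqrt_iff (hp : p ≠ 2) {x r : Qbar} (hr : r ^ 2 = x) {m : ℤ}
    (hx : ‖padicEmbedding p x‖ = (p : ℝ) ^ (-m))
    (hfix : ∀ σ ∈ (padicPlace p).inertiaSubgroupIn ℚ, σ x = x) :
    (∀ σ ∈ (padicPlace p).inertiaSubgroupIn ℚ, σ r = r) ↔ Even m := by
  have hp0 : (p : Qbar) ≠ 0 := Nat.cast_ne_zero.mpr (Fact.out : p.Prime).ne_zero
  have hpR : (p : ℝ) ≠ 0 := Nat.cast_ne_zero.mpr (Fact.out : p.Prime).ne_zero
  obtain ⟨π, hπ⟩ := IsAlgClosed.exists_pow_nat_eq (p : Qbar) Nat.zero_lt_two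
  let s : Qbar := r / π ^ m
  have hπ0 : π ≠ 0 := fun h => hp0 (by rw [← hπ, h, zero_pow two_ne_zero])
  have hs2 : s ^ 2 = x / (p : Qbar) ^ m := by
    rw [div_pow, hr, ← zpow_natCast (π ^ m) 2, ← zpow_mul, mul_comm, zpow_mul, zpow_natCast, hπ]
  have hs : ‖padicEmbedding p s‖ = 1 := by
    have h : ‖padicEmbedding p s‖ ^ 2 = 1 := by
      rw [← norm_pow, ← map_pow, hs2, map_div₀, map_zpow₀, padicEmbedding_natCast, norm_div,
        norm_zpow, norm_natCast_padicAlgCl_self, hx, inv_zpow, ← zpow_neg, div_self]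
      exact zpow_ne_zero _ hpR
    exact (sq_eq_one_iff.mp h).resolve_right fun hh => by linarith [norm_nonneg (padicEmbedding p s)]
  have hsfix : ∀ σ ∈ (padicPlace p).inertiaSubgroupIn ℚ, σ s = s := fun σ hσ =>
    inertia_apply_sqrt_unit hp hs hσ (by rw [hs2, map_div₀, map_zpow₀, map_natCast, hfix σ hσ])
  have hrs : r = s * π ^ m := (div_mul_cancel₀ r (zpow_ne_zero _ hπ0)).symm
  have hs0 : s ≠ 0 := fun h => by rw [h, map_zero, norm_zero] at hs; norm_num at hs
  constructor
  · intro h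
    obtain ⟨τ, hτ, hmove⟩ := FLTA.RT.LocalGalois.exists_isTameGenerator (q := p) Fact.out
      Nat.prime_two (Ne.symm hp) (liesOverPrime_padicPlace p)
    have hτπ : τ π = -π := (eq_or_eq_neg_of_sq_eq_sq (τ π) π
      (by rw [← map_pow, hπ, map_natCast])).resolve_left (hmove π hπ)
    have h1 := h τ hτ
    rw [hrs, map_mul, hsfix τ hτ, map_zpow₀, hτπ] at h1
    by_contra hodd
    rw [Int.not_even_iff_odd] at hodd
    rw [hodd.neg_zpow] at h1
    have h2 := mul_left_cancel₀ hs0 h1
    exact zpow_ne_zero m hπ0 (by linear_combination (-1 / 2 : Qbar) * h2)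
  · rintro ⟨k, rfl⟩ σ hσ
    rw [hrs, map_mul, hsfix σ hσ, map_zpow₀, ← two_mul, zpow_mul, zpow_mul, zpow_ofNat,
      zpow_ofNat, ← map_pow, hπ, map_natCast]

end padic

section real

/-- An embedding of `ℚ̄` into `ℂ`. -/
noncomputable def realEmbedding : Qbar →ₐ[ℚ] ℂ :=
  haveI : Algebra.IsAlgebraic ℚ Qbar := AlgebraicClosure.isAlgebraic ℚ
  IsAlgClosed.lift

/-- Complex conjugation on `ℚ̄` for `realEmbedding`. -/
noncomputable def realConj : Γℚ :=
  letI := realEmbedding.toRingHom.toAlgebra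
  haveI : IsScalarTower ℚ Qbar ℂ := IsScalarTower.of_algebraMap_eq' (Subsingleton.elim _ _)
  haveI : Normal ℚ Qbar := FLTA.Galois.qbar_isGalois.to_normal
  (Complex.conjAe.restrictScalars ℚ).restrictNormal Qbar

lemma realEmbedding_realConj (x : Qbar) :
    realEmbedding (realConj x) = (starRingEnd ℂ) (realEmbedding x) := by
  letI := realEmbedding.toRingHom.toAlgebra
  haveI : IsScalarTower ℚ Qbar ℂ := IsScalarTower.of_algebraMap_eq' (Subsingleton.elim _ _)
  haveI : Normal ℚ Qbar := FLTA.Galois.qbar_isGalois.to_normal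
  exact AlgEquiv.restrictNormal_commutes (Complex.conjAe.restrictScalars ℚ) Qbar x

lemma realConj_mul_self : realConj * realConj = 1 := by
  apply AlgEquiv.ext
  intro x
  apply realEmbedding.toRingHom.injective
  show realEmbedding (realConj (realConj x)) = realEmbedding x
  rw [realEmbedding_realConj, realEmbedding_realConj, Complex.conj_conj]

lemma mem_zpowers_realConj {σ : Γℚ} :
    σ ∈ Subgroup.zpowers realConj ↔ σ = 1 ∨ σ = realConj := by
  constructor
  · rintro ⟨n, rfl⟩
    rcases Int.even_or_odd n with ⟨k, rfl⟩ | ⟨k, rfl⟩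
    · left; simp [← two_mul, zpow_mul, sq, realConj_mul_self]
    · right; simp [zpow_add, zpow_mul, sq, realConj_mul_self]
  · rintro (rfl | rfl)
    · exact one_mem _
    · exact Subgroup.mem_zpowers _

/-- The local data at the real place. -/
noncomputable def realData : LocalData ℝ ℂ where
  emb := realEmbedding.toRingHom
  dec := Subgroup.zpowers realConj
  fixed := fun x hx => by
    obtain ⟨r, hr⟩ := Complex.conj_eq_iff_real.mp
      ((realEmbedding_realConj x).symm.trans (by rw [hx _ (Subgroup.mem_zpowers _)]))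
    exact ⟨r, hr.symm⟩

end real

section reciprocity

variable {S : Type*} [MulAction Γℚ S] [Fintype S] (e : S → Qbar) (he : IsEquivariantOn ⊤ e)
  (heinj : Function.Injective e) (hcard : Fintype.card S = 3)

include he heinj hcard

theorem sum_sign {a : S → Qbar} (ha : IsEquivariantOn ⊤ a) (ha0 : ∀ P, a P ≠ 0) :
    {p : Nat.Primes | (padicData (p : ℕ)).sign a ≠ 0}.Finite ∧
      (∑ᶠ p : Nat.Primes, (padicData (p : ℕ)).sign a) + realData.sign a = 0 := by
  classical
  obtain ⟨u, v, hu, hv, h⟩ := exists_conic e he heinj hcard ha ha0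
  have hp : ∀ p : Nat.Primes, (padicData (p : ℕ)).sign a =
      hilbertSign (u : ℚ_[(p : ℕ)]) (v : ℚ_[(p : ℕ)]) := fun p => if_congr (h _ _ _) rfl rfl
  have hr : realData.sign a = hilbertSign (u : ℝ) (v : ℝ) := if_congr (h _ _ _) rfl rfl
  simp only [hp, hr]
  exact hilbert_reciprocity u v hu hv

/-- Reciprocity: if the pairing vanishes at all places but `q`, it vanishes at `q`. -/
theorem pairing_eq_zero_of_others {a b : S → Qbar} (ha : IsEquivariantOn ⊤ a)
    (hb : IsEquivariantOn ⊤ b) (ha0 : ∀ P, a P ≠ 0) (hb0 : ∀ P, b P ≠ 0) (q : Nat.Primes)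
    (hothers : ∀ p : Nat.Primes, p ≠ q → (padicData (p : ℕ)).pairing a b = 0)
    (hreal : realData.pairing a b = 0) : (padicData (q : ℕ)).pairing a b = 0 := by
  obtain ⟨f1, s1⟩ := sum_sign e he heinj hcard (ha.mul hb) fun P => mul_ne_zero (ha0 P) (hb0 P)
  obtain ⟨f2, s2⟩ := sum_sign e he heinj hcard ha ha0
  obtain ⟨f3, s3⟩ := sum_sign e he heinj hcard hb hb0
  obtain ⟨f4, s4⟩ := sum_sign e he heinj hcard (S := S) (a := 1) IsEquivariantOn.one
    fun _ => one_ne_zero
  have hsum : (∑ᶠ p : Nat.Primes, (padicData (p : ℕ)).pairing a b) + realData.pairing a b = 0 := by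
    simp only [LocalData.pairing]
    rw [finsum_add_distrib (((f1.union f2).union f3).subset ?_) f4,
      finsum_add_distrib ((f1.union f2).subset ?_) f3, finsum_add_distrib f1 f2]
    · linear_combination s1 + s2 + s3 + s4
    all_goals
      intro p hp
      by_contra hn
      simp only [Set.mem_union, Set.mem_setOf_eq, not_or, not_not] at hn
      exact hp (by simp [hn])
  rwa [finsum_eq_single _ q hothers, hreal, add_zero] at hsum

end reciprocity

end FLTA.LT2
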