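import Fermat.Agent.LT2.Local2
import Fermat.Agent.LT2.LocalResidual
import Fermat.Agent.LT2.ReciprocityDefs
import Fermat.Agent.LT2.ReciprocityPlaces
import Fermat.Agent.TaylorWiles.LocalAway
import Fermat.Agent.PoitouTate.BridgeLevels

/-!
# The line at `2` for classes with the conditions of `StCond`
-/

set_option autoImplicit false

open scoped Matrix

noncomputable section

namespace FLTA.LT2

open FLTA.TaylorWiles.Flat (M2 Tame)
open FLTA.PT (Gl Ql lvlLoc loc lvlQ)

attribute [local instance] FLTA.PT.factPrime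

local notation "Γℚ" => AlgebraicClosure ℚ ≃ₐ[ℚ] AlgebraicClosure ℚ

variable {E : WeierstrassCurve ℤ}

/-- The coordinates of a class at `2`. -/
theorem isVecCoc_coord (e : Tors2 E ≃+ V2) (M : Gl twoP →* M2 (ZMod 2))
    (hM : ∀ g P, e (loc twoP g • P) = M g *ᵥ e P) (c : StCocycle E) :
    IsVecCoc M fun s => e (c.toFun (loc twoP s)) := by
  refine ⟨fun g h => ?_, ?_⟩
  · show e (c.toFun (loc twoP (g * h))) = _
    rw [map_mul, c.map_mul, map_add, hM]
  · obtain ⟨K, hK, h⟩ := c.open_kernel
    refine ⟨(IntermediateField.normalClosure ℚ K (AlgebraicClosure ℚ)).fixingSubgroup.comap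
      (loc twoP), ⟨_, ⟨FLTA.PT.normal_fixingSubgroup_of_normalClosure K, _,
        normalClosure.is_finiteDimensional ℚ K _, le_rfl⟩, rfl⟩, fun u hu => ?_⟩
    show e (c.toFun (loc twoP u)) = 0
    rw [h _ (IntermediateField.fixingSubgroup_antitone K.le_normalClosure hu), map_zero]

theorem low_coord (e : Tors2 E ≃+ V2) {Q : Finset ℕ} {c : StCocycle E} (hc : StCond E Q c) :
    Low fun s => e (c.toFun (loc twoP s)) := fun T hT v =>
  hc.2.2 T hT
    ((AddMonoidHom.mk' (pairV v) (pairV_add_right v)).comp e.toAddMonoidHom)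

theorem locCob_or_locEq_two (hE : Companion E) {Q Q' : Finset ℕ} {x c : StCocycle E}
    (hx : StCond E Q x) (hc : StCond E Q' c) :
    LocCob E ((padicPlace 2).decompositionSubgroup ℚ) x ∨
      LocCob E ((padicPlace 2).decompositionSubgroup ℚ) c ∨
      LocEq E ((padicPlace 2).decompositionSubgroup ℚ) x c := by
  obtain ⟨e, M, hM, hres⟩ := exists_res2 hE
  have key : ∀ (f : Γℚ → Tors2 E), VecTrivial M (fun s => e (f (loc twoP s))) →
      ∃ v : Tors2 E, ∀ σ ∈ (padicPlace 2).decompositionSubgroup ℚ, f σ = σ • v - v := by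
    rintro f ⟨v, hv⟩
    refine ⟨e.symm v, fun σ hσ => ?_⟩
    obtain ⟨g, rfl⟩ := FLTA.TaylorWiles.exists_loc_eq twoP (σ := σ) hσ
    apply e.injective
    have hg : e (f (loc twoP g)) = M g *ᵥ v - v := hv g
    rw [hg, map_sub, hM, e.apply_symm_apply]
  rcases low_line hres (isVecCoc_coord e M hM x) (isVecCoc_coord e M hM c)
    (low_coord e hx) (low_coord e hc) with h | h | h
  · exact Or.inl (key x.toFun h)
  · exact Or.inr (Or.inl (key c.toFun h))
  · refine Or.inr (Or.inr (key (fun σ => x.toFun σ - c.toFun σ) ?_))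
    obtain ⟨v, hv⟩ := h
    refine ⟨v, fun g => ?_⟩
    rw [← hv g]
    show e (x.toFun (loc twoP g) - c.toFun (loc twoP g)) =
      e (x.toFun (loc twoP g)) + e (c.toFun (loc twoP g))
    rw [map_sub, sub_eq_add_neg]
    exact congrArg _ (funext fun _ => ZMod.neg_eq_self_mod_two _)

end FLTA.LT2

end
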