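import Fermat.Agent.LevelRaising.AssemblyLift
import Fermat.Agent.Periods.HomForm
import Fermat.Agent.Hecke.EigenChar
import Fermat.Agent.Periods.HeckeQuot
import Fermat.Prelude.Def_FLTPrelim_ModularRep

/-!
# Mod 2 eigen-systems on the parabolic lattice

`Mod2System M G a`: a nonzero functional `parQuot Γ₀(M) → 𝔽₂` with eigenvalue `a ℓ` for `T_ℓ` at
the primes with `G ℓ`. For the level-lowering steps this is interchangeable with residual
modularity at `2`.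
-/

set_option autoImplicit false

noncomputable section

namespace FLTA.LT2

open CongruenceSubgroup FLTA.Periods
open scoped IsMulCommutative

/-- A mod 2 eigen-system of level `M`. -/
def Mod2System (M : ℕ) (G : ℕ → Prop) (a : ℕ → ℤ) : Prop :=
  ∃ _ : NeZero M, ∃ u : parQuot (Gamma0 M) →+ ZMod 2, u ≠ 0 ∧
    ∀ (ℓ : ℕ) (_ : G ℓ) (hℓ : ℓ.Prime) (hℓM : ¬ ℓ ∣ M) (x : parQuot (Gamma0 M)),
      u (heckeQuot M (CuspForm.heckeAlgebra.T hℓ hℓM (Set.notMem_empty ℓ)) x) =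
        (a ℓ : ZMod 2) * u x

/-- A faithful finite action of a ring has a nonzero mod 2 functional killed by a given proper
ideal containing `2`. -/
theorem exists_functional {R V : Type*} [CommRing R] [AddCommGroup V] [Module.Finite ℤ V]
    (φ : R →+* Module.End ℤ V) (hφ : Function.Injective φ) (P : Ideal R) (hP1 : (1 : R) ∉ P)
    (h2P : ((2 : ℕ) : R) ∈ P) :
    ∃ u : V →+ ZMod 2, u ≠ 0 ∧ ∀ (t : R) (c : ℤ), t - (c : R) ∈ P →
      ∀ x, u (φ t x) = (c : ZMod 2) * u x := by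
  have : Fact (Nat.Prime 2) := ⟨Nat.prime_two⟩
  let : Module R V := Module.compHom V φ
  have hsmul : ∀ (t : R) (x : V), t • x = φ t x := fun _ _ => rfl
  have : IsScalarTower ℤ R V := ⟨fun n t x => by
    rw [hsmul, hsmul, map_zsmul, LinearMap.smul_apply]⟩
  have : Module.Finite R V := Module.Finite.of_restrictScalars_finite ℤ _ _
  have hne : P • (⊤ : Submodule R V) ≠ ⊤ := by
    intro htop
    obtain ⟨t, ht, ht0⟩ := Submodule.exists_sub_one_mem_and_smul_eq_zero_of_fg_of_le_smul P ⊤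
      Module.Finite.fg_top htop.ge
    have : t = 0 := hφ (LinearMap.ext fun x => by
      rw [map_zero, LinearMap.zero_apply, ← hsmul]
      exact ht0 x Submodule.mem_top)
    rw [this, zero_sub] at ht
    exact hP1 (neg_mem_iff.mp ht)
  have : Nontrivial (V ⧸ P • (⊤ : Submodule R V)) := Submodule.Quotient.nontrivial_iff.mpr hne
  have h2 : ∀ y : V ⧸ P • (⊤ : Submodule R V), (2 : ℕ) • y = 0 := fun y => by
    obtain ⟨x, rfl⟩ := Submodule.Quotient.mk_surjective _ y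
    rw [← Submodule.Quotient.mk_smul, Submodule.Quotient.mk_eq_zero,
      ← Nat.cast_smul_eq_nsmul R]
    exact Submodule.smul_mem_smul h2P Submodule.mem_top
  let : Module (ZMod 2) (V ⧸ P • (⊤ : Submodule R V)) := AddCommGroup.zmodModule h2
  obtain ⟨y, hy⟩ := exists_ne (0 : V ⧸ P • (⊤ : Submodule R V))
  obtain ⟨f₀, hf₀⟩ : ∃ f₀ : Module.Dual (ZMod 2) (V ⧸ P • (⊤ : Submodule R V)), f₀ y ≠ 0 := by
    by_contra hall
    push Not at hall
    exact hy ((Module.forall_dual_apply_eq_zero_iff (ZMod 2) y).mp hall)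
  refine ⟨f₀.toAddMonoidHom.comp (Submodule.mkQ _).toAddMonoidHom, fun h0 => ?_,
    fun t c htc x => ?_⟩
  · obtain ⟨x, rfl⟩ := Submodule.Quotient.mk_surjective _ y
    exact hf₀ (DFunLike.congr_fun h0 x)
  have hq : (Submodule.mkQ (P • (⊤ : Submodule R V))) (φ t x) =
      c • Submodule.mkQ (P • (⊤ : Submodule R V)) x := by
    rw [← hsmul, ← map_zsmul, Submodule.mkQ_apply, Submodule.mkQ_apply, Submodule.Quotient.eq,
      ← Int.cast_smul_eq_zsmul R, ← sub_smul]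
    exact Submodule.smul_mem_smul htc Submodule.mem_top
  show f₀ (Submodule.mkQ _ (φ t x)) = _ * f₀ (Submodule.mkQ _ x)
  rw [hq, map_zsmul, zsmul_eq_mul]

/-- An eigenform congruent to `a` modulo a prime over `2` gives a mod 2 eigen-system. -/
theorem mod2System_of_eigenform {M : ℕ} [NeZero M] {G : ℕ → Prop} {a : ℕ → ℤ}
    {f : CuspForm (Gamma0 M) 2} (hf : f.IsNormalizedEigenform)
    {𝔪 : Ideal (integralClosure ℤ ℂ)} (hmax : 𝔪.IsMaximal) (h2 : (2 : integralClosure ℤ ℂ) ∈ 𝔪)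
    (h : ∀ ℓ : ℕ, G ℓ → ℓ.Prime → ¬ ℓ ∣ M → ∃ b : integralClosure ℤ ℂ,
      (b : ℂ) = ModularFormClass.qCoeff f ℓ ∧ b - ((a ℓ : ℤ) : integralClosure ℤ ℂ) ∈ 𝔪) :
    Mod2System M G a := by
  obtain ⟨χ, -, hχT, -⟩ := FLTA.Hecke.exists_char_of_normalized (S := ∅) hf
  let χ₀ : fullHecke M →+* integralClosure ℤ ℂ :=
    χ.codRestrict _ fun t => (Algebra.IsIntegral.isIntegral t).map χ.toIntAlgHom
  let P : Ideal (fullHecke M) := Ideal.comap χ₀ 𝔪
  have hP1 : (1 : fullHecke M) ∉ P := fun h1 =>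
    hmax.ne_top ((Ideal.eq_top_iff_one _).mpr (by simpa [P] using h1))
  have h2P : ((2 : ℕ) : fullHecke M) ∈ P := by
    show χ₀ _ ∈ 𝔪
    rw [map_natCast]
    exact_mod_cast h2
  obtain ⟨u, hu, hut⟩ := exists_functional (heckeQuot M) (heckeQuot_injective M) P hP1 h2P
  refine ⟨inferInstance, u, hu, fun ℓ hG hℓ hℓM x => hut _ (a ℓ) ?_ x⟩
  obtain ⟨b, hb, hbm⟩ := h ℓ hG hℓ hℓM
  have hχ : χ₀ (CuspForm.heckeAlgebra.T hℓ hℓM (Set.notMem_empty ℓ)) = b :=
    Subtype.ext ((hχT ℓ hℓ hℓM (Set.notMem_empty ℓ)).trans hb.symm)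
  show χ₀ (_ - _) ∈ 𝔪
  rwa [map_sub, map_intCast, hχ]

/-- A mod 2 eigen-system gives a congruent eigenform. -/
theorem Mod2System.exists_eigenform {M : ℕ} {G : ℕ → Prop} {a : ℕ → ℤ} (h : Mod2System M G a) :
    ∃ (f : CuspForm (Gamma0 M) 2) (𝔪 : Ideal (integralClosure ℤ ℂ)),
      f.IsNormalizedEigenform ∧ 𝔪.IsMaximal ∧ (2 : integralClosure ℤ ℂ) ∈ 𝔪 ∧
      ∀ ℓ : ℕ, G ℓ → ℓ.Prime → ¬ ℓ ∣ M → ∃ b : integralClosure ℤ ℂ,
        (b : ℂ) = ModularFormClass.qCoeff f ℓ ∧ b - ((a ℓ : ℤ) : integralClosure ℤ ℂ) ∈ 𝔪 := by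
  obtain ⟨hM, u, hu, heig⟩ := h
  have : Fact (Nat.Prime 2) := ⟨Nat.prime_two⟩
  let bas := Module.Free.chooseBasis ℤ (parQuot (Gamma0 M))
  let V := Module.Dual ℤ (parQuot (Gamma0 M))
  have : IsAddTorsionFree V := ⟨fun n hn x y h => LinearMap.ext fun w => by
    exact nsmul_right_injective hn (LinearMap.congr_fun h w)⟩
  let act : fullHecke M →+* Module.End ℤ V :=
    { toFun := fun t => (heckeQuot M t).dualMap
      map_one' := by rw [map_one]; exact LinearMap.dualMap_id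
      map_mul' := fun s t => by
        rw [mul_comm s t, map_mul]
        exact (LinearMap.dualMap_comp_dualMap _ _).symm
      map_zero' := by ext; simp [LinearMap.dualMap_apply]
      map_add' := fun s t => LinearMap.ext fun φ => LinearMap.ext fun x => by
        simp only [LinearMap.dualMap_apply, LinearMap.add_apply, RingHom.map_add]
        exact map_add φ _ _ }
  let z : V := bas.constr ℤ fun i => ((u (bas i)).val : ℤ)
  have hcast : ∀ x, ((z x : ℤ) : ZMod 2) = u x := by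
    intro x
    have : (Int.castAddHom (ZMod 2)).toIntLinearMap ∘ₗ z = u.toIntLinearMap :=
      bas.ext fun i => by simp [z]
    exact LinearMap.congr_fun this x
  have hz0 : ∀ ψ : V, z ≠ ((2 : ℕ) : ℤ) • ψ := fun ψ hψ => hu <| AddMonoidHom.ext fun x => by
    rw [← hcast, hψ, LinearMap.smul_apply, smul_eq_mul, Int.cast_mul, Int.cast_natCast,
      ZMod.natCast_self, zero_mul]
    rfl
  let gens : Set (fullHecke M) := {t | ∃ (ℓ : ℕ) (_ : G ℓ) (hℓ : ℓ.Prime) (hℓM : ¬ ℓ ∣ M),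
    t = CuspForm.heckeAlgebra.T hℓ hℓM (Set.notMem_empty ℓ)}
  have hT : ∀ (ℓ : ℕ) (_ : G ℓ) (hℓ : ℓ.Prime) (hℓM : ¬ ℓ ∣ M), ∃ ψ : V,
      act (CuspForm.heckeAlgebra.T hℓ hℓM (Set.notMem_empty ℓ)) z - a ℓ • z =
        ((2 : ℕ) : ℤ) • ψ := by
    intro ℓ hG hℓ hℓM
    set d := act (CuspForm.heckeAlgebra.T hℓ hℓM (Set.notMem_empty ℓ)) z - a ℓ • z with hd
    have heven : ∀ x, (2 : ℤ) ∣ d x := fun x => by
      rw [show (2 : ℤ) = ((2 : ℕ) : ℤ) from rfl, ← ZMod.intCast_zmod_eq_zero_iff_dvd, hd]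
      show ((z (heckeQuot M (CuspForm.heckeAlgebra.T hℓ hℓM (Set.notMem_empty ℓ)) x) -
        a ℓ * z x : ℤ) : ZMod 2) = 0
      rw [Int.cast_sub, Int.cast_mul, hcast, hcast]
      rw [heig ℓ hG hℓ hℓM x, sub_self]
    refine ⟨bas.constr ℤ fun i => d (bas i) / 2, bas.ext fun i => ?_⟩
    rw [LinearMap.smul_apply, Module.Basis.constr_basis, smul_eq_mul, Nat.cast_ofNat,
      Int.mul_ediv_cancel' (heven (bas i))]
  obtain ⟨χ, 𝔪, hmax, hpm, hcong, -⟩ :=
    LevelRaising.exists_char_of_eigen_mod (p := 2) act gens ⊤ (fun _ _ _ _ => Submodule.mem_top)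
      (z := z) Submodule.mem_top hz0 (by
        rintro g ⟨ℓ, hG, hℓ, hℓM, rfl⟩
        exact ⟨a ℓ, hT ℓ hG hℓ hℓM⟩)
  let χc : fullHecke M →+* ℂ := (integralClosure ℤ ℂ).val.toRingHom.comp χ
  refine ⟨formOfHom M χc, 𝔪, isNormalizedEigenform_formOfHom M χc, hmax, by simpa using hpm,
    fun ℓ hG hℓ hℓM => ?_⟩
  obtain ⟨ψ, hψ⟩ := hT ℓ hG hℓ hℓM
  refine ⟨χ (CuspForm.heckeAlgebra.T hℓ hℓM (Set.notMem_empty ℓ)), ?_,
    hcong _ ⟨ℓ, hG, hℓ, hℓM, rfl⟩ (a ℓ) ψ hψ⟩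
  have hq := qCoeff_one_hecke_formOfHom M χc (CuspForm.heckeAlgebra.T hℓ hℓM (Set.notMem_empty ℓ))
  rw [CuspForm.heckeAlgebra.coe_T, qCoeff_heckeTLin, if_neg hℓ.not_dvd_one, one_mul, add_zero] at hq
  exact hq.symm

end FLTA.LT2

end
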