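import Mathlib

/-!
# Part H: representations with the characteristic polynomials of a plane

If `τ : G → A` satisfies the Cayley-Hamilton relations of `ρ : G → M₂(R)` and some commutator has
image with `trace - 2` a unit, every linear relation between the `ρ g` holds between the `τ g`.
(Boston-Lenstra-Ribet.)
-/

set_option autoImplicit false

noncomputable section

open Matrix

namespace FLTA.LT2.MazurAlg

variable {R : Type*} [CommRing R] {A : Type*} [Ring A] [Algebra R A] {G : Type*} [Group G]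
  (ρ : G →* Matrix (Fin 2) (Fin 2) R) (τ : G →* A)

/-- `τ` satisfies the relation of `ρ` at `g`. -/
def RelAt (P : Matrix (Fin 2) (Fin 2) R × A) : Prop :=
  P.2 * P.2 - P.1.trace • P.2 + P.1.det • (1 : A) = 0

/-- Powers preserve the relation. -/
theorem RelAt.pow {P : Matrix (Fin 2) (Fin 2) R × A} (h : RelAt P) (k : ℕ) : RelAt (P ^ k) := by
  have hP : P.1 * P.1 = P.1.trace • P.1 - P.1.det • 1 := by
    ext i j
    fin_cases i <;> fin_cases j <;>
      simp [Matrix.mul_apply, Matrix.trace_fin_two, Matrix.det_fin_two] <;> ring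
  have hh : P.2 * P.2 = P.1.trace • P.2 - P.1.det • 1 := by
    have h' : P.2 * P.2 - P.1.trace • P.2 + P.1.det • (1 : A) = 0 := h
    rwa [← sub_eq_zero, ← sub_add]
  obtain ⟨u, v, h1, h2⟩ : ∃ u v : R, P.1 ^ k = u • P.1 + v • 1 ∧ P.2 ^ k = u • P.2 + v • 1 := by
    induction k with
    | zero => exact ⟨0, 1, by simp, by simp⟩
    | succ k ih =>
      obtain ⟨u, v, h1, h2⟩ := ih
      refine ⟨u * P.1.trace + v, -(u * P.1.det), ?_, ?_⟩
      · rw [pow_succ, h1, add_mul, smul_mul_assoc, smul_mul_assoc, hP, one_mul]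
        match_scalars <;> ring
      · rw [pow_succ, h2, add_mul, smul_mul_assoc, smul_mul_assoc, hh, one_mul]
        match_scalars <;> ring
  have hd : (u • P.1 + v • (1 : Matrix (Fin 2) (Fin 2) R)).det =
      u * u * P.1.det + u * v * P.1.trace + v * v := by
    simp [Matrix.det_fin_two, Matrix.trace_fin_two]; ring
  have ht : (u • P.1 + v • (1 : Matrix (Fin 2) (Fin 2) R)).trace = u * P.1.trace + 2 * v := by
    simp [Matrix.trace_fin_two]; ring
  show (P ^ k).2 * (P ^ k).2 - (P ^ k).1.trace • (P ^ k).2 + (P ^ k).1.det • (1 : A) = 0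
  rw [Prod.pow_fst, Prod.pow_snd, h1, h2, hd, ht]
  simp only [mul_add, add_mul, smul_mul_assoc, mul_smul_comm, smul_add, smul_smul, hh, one_mul,
    mul_one, smul_sub]
  match_scalars <;> ring

/-- The span of the pairs `(ρ g, τ g)`. -/
def pairs : Submodule R (Matrix (Fin 2) (Fin 2) R × A) :=
  Submodule.span R (Set.range fun g => (ρ g, τ g))

variable {ρ τ}

theorem mem_pairs (g : G) : (ρ g, τ g) ∈ pairs ρ τ := Submodule.subset_span ⟨g, rfl⟩

theorem mul_mem_pairs {x y : Matrix (Fin 2) (Fin 2) R × A} (hx : x ∈ pairs ρ τ)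
    (hy : y ∈ pairs ρ τ) : x * y ∈ pairs ρ τ := by
  refine Submodule.span_induction₂ (p := fun x y _ _ => x * y ∈ pairs ρ τ) ?_ ?_ ?_ ?_ ?_ ?_ ?_
    hx hy
  · rintro _ _ ⟨g, rfl⟩ ⟨h, rfl⟩
    rw [Prod.mk_mul_mk, ← map_mul, ← map_mul]
    exact mem_pairs _
  · intro y _; rw [zero_mul]; exact Submodule.zero_mem _
  · intro x _; rw [mul_zero]; exact Submodule.zero_mem _
  · intro x y z _ _ _ h₁ h₂; rw [add_mul]; exact Submodule.add_mem _ h₁ h₂
  · intro x y z _ _ _ h₁ h₂; rw [mul_add]; exact Submodule.add_mem _ h₁ h₂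
  · intro r x y _ _ h; rw [smul_mul_assoc]; exact Submodule.smul_mem _ r h
  · intro r x y _ _ h; rw [mul_smul_comm]; exact Submodule.smul_mem _ r h

variable (hrel : ∀ g : G, RelAt (ρ g, τ g))

/-- The second component of the main involution. -/
def bar : Matrix (Fin 2) (Fin 2) R × A →ₗ[R] A :=
  ((Matrix.traceLinearMap (Fin 2) R R).comp (LinearMap.fst R _ A)).smulRight (1 : A) -
    LinearMap.snd R _ A

theorem bar_apply (x : Matrix (Fin 2) (Fin 2) R × A) : bar x = x.1.trace • (1 : A) - x.2 := rfl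

include hrel in
theorem bar_mk (g : G) : bar (ρ g, τ g) = (ρ g).det • τ g⁻¹ := by
  have h : τ g * τ g - (ρ g).trace • τ g + (ρ g).det • (1 : A) = 0 := hrel g
  have h1 := congrArg (· * τ g⁻¹) h
  have hinv : τ g * τ g⁻¹ = 1 := by rw [← map_mul, mul_inv_cancel, map_one]
  simp only [add_mul, sub_mul, zero_mul, smul_mul_assoc, mul_assoc, hinv, mul_one, one_mul] at h1
  rw [bar_apply, sub_eq_iff_eq_add, ← sub_eq_zero]
  show (ρ g).trace • (1 : A) - ((ρ g).det • τ g⁻¹ + τ g) = 0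
  linear_combination (norm := abel) (-1 : ℤ) • h1

include hrel in
theorem bar_mul {x y : Matrix (Fin 2) (Fin 2) R × A} (hx : x ∈ pairs ρ τ) (hy : y ∈ pairs ρ τ) :
    bar (x * y) = bar y * bar x := by
  refine Submodule.span_induction₂ (p := fun x y _ _ => bar (x * y) = bar y * bar x)
    ?_ ?_ ?_ ?_ ?_ ?_ ?_ hx hy
  · rintro _ _ ⟨g, rfl⟩ ⟨h, rfl⟩
    rw [Prod.mk_mul_mk, ← map_mul, ← map_mul, bar_mk hrel, bar_mk hrel, bar_mk hrel, map_mul ρ,
      Matrix.det_mul, _root_.mul_inv_rev, map_mul τ, smul_mul_smul_comm, mul_comm (ρ h).det]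
  · intro y _; rw [zero_mul, map_zero, mul_zero]
  · intro x _; rw [mul_zero, map_zero, zero_mul]
  · intro x y z _ _ _ h₁ h₂; rw [add_mul, map_add, map_add, h₁, h₂, mul_add]
  · intro x y z _ _ _ h₁ h₂; rw [mul_add, map_add, map_add, h₁, h₂, add_mul]
  · intro r x y _ _ h; rw [smul_mul_assoc, map_smul, map_smul, h, mul_smul_comm]
  · intro r x y _ _ h; rw [mul_smul_comm, map_smul, map_smul, h, smul_mul_assoc]

include hrel in
/-- Every relation between the `ρ g` holds between the `τ g`. -/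
theorem eq_zero_of_mem_pairs {g h : G} (hu : IsUnit ((ρ (g * h * g⁻¹ * h⁻¹)).trace - 2))
    {a : A} (ha : ((0 : Matrix (Fin 2) (Fin 2) R), a) ∈ pairs ρ τ) : a = 0 := by
  have hcomm : ∀ u : G, a * τ u = (ρ u).det • (τ u⁻¹ * a) := fun u => by
    have e := bar_mul hrel ha (mem_pairs u)
    rw [bar_mk hrel, bar_apply, bar_apply, Prod.mk_mul_mk, zero_mul, Matrix.trace_zero,
      zero_smul, zero_sub, zero_sub, mul_neg, neg_inj, smul_mul_assoc] at e
    exact e
  have hswap : ∀ u v : G, τ u * τ v * a = τ v * τ u * a := fun u v => by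
    have hd : IsUnit ((ρ (u⁻¹ * v⁻¹)).det) :=
      (Matrix.isUnit_iff_isUnit_det _).mp (Group.isUnit (u⁻¹ * v⁻¹) |>.map ρ)
    obtain ⟨d, hd⟩ := hd
    have e1 := hcomm (u⁻¹ * v⁻¹)
    rw [_root_.mul_inv_rev, inv_inv, inv_inv, map_mul τ v u, map_mul τ] at e1
    have e2 : a * (τ u⁻¹ * τ v⁻¹) = (ρ (u⁻¹ * v⁻¹)).det • (τ u * τ v * a) := by
      rw [← mul_assoc, hcomm, smul_mul_assoc, mul_assoc, hcomm, inv_inv, inv_inv, mul_smul_comm,
        smul_smul, ← Matrix.det_mul, ← map_mul, mul_assoc]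
    rw [e2, ← hd] at e1
    exact d.isUnit.smul_left_cancel.mp e1
  have hmove : ∀ u : G, τ u * a = (ρ u).det • (a * τ u⁻¹) := fun u => by
    rw [hcomm, inv_inv, smul_smul, ← Matrix.det_mul, ← map_mul, mul_inv_cancel, map_one,
      Matrix.det_one, one_smul]
  have hfix : τ (g * h * g⁻¹ * h⁻¹) * a = a := by
    have e1 : τ h⁻¹ * a = (ρ h⁻¹).det • (a * τ h) := by rw [hmove h⁻¹, inv_inv]
    have e2 : τ g * τ g⁻¹ = 1 := by rw [← map_mul, mul_inv_cancel, map_one]
    have e3 : τ h * τ h⁻¹ = 1 := by rw [← map_mul, mul_inv_cancel, map_one]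
    calc τ (g * h * g⁻¹ * h⁻¹) * a = τ g * τ h * τ g⁻¹ * (τ h⁻¹ * a) := by
            simp only [map_mul, mul_assoc]
      _ = (ρ h⁻¹).det • (τ g * (τ h * τ g⁻¹ * a) * τ h) := by
            rw [e1, mul_smul_comm]; simp only [mul_assoc]
      _ = (ρ h⁻¹).det • (τ g * τ g⁻¹ * (τ h * (a * τ h))) := by
            rw [hswap h g⁻¹]; simp only [mul_assoc]
      _ = τ h * (τ h⁻¹ * a) := by rw [e2, one_mul, ← mul_smul_comm, ← e1]
      _ = a := by rw [← mul_assoc, e3, one_mul]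
  have hdet : (ρ (g * h * g⁻¹ * h⁻¹)).det = 1 := by
    have e : ∀ u : G, (ρ u).det * (ρ u⁻¹).det = 1 := fun u => by
      rw [← Matrix.det_mul, ← map_mul, mul_inv_cancel, map_one, Matrix.det_one]
    rw [map_mul, map_mul, map_mul, Matrix.det_mul, Matrix.det_mul, Matrix.det_mul]
    linear_combination (ρ h).det * (ρ h⁻¹).det * e g + e h
  have hq : τ (g * h * g⁻¹ * h⁻¹) * τ (g * h * g⁻¹ * h⁻¹) -
      (ρ (g * h * g⁻¹ * h⁻¹)).trace • τ (g * h * g⁻¹ * h⁻¹) +
      (ρ (g * h * g⁻¹ * h⁻¹)).det • (1 : A) = 0 := hrel _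
  generalize hγ : g * h * g⁻¹ * h⁻¹ = γ at hq hfix hdet hu
  have e := congrArg (· * a) hq
  simp only [add_mul, sub_mul, mul_assoc, smul_mul_assoc, hfix, one_mul, zero_mul, hdet,
    one_smul] at e
  obtain ⟨u, hu⟩ := hu
  have e' : (u : R) • a = 0 := by
    rw [hu]
    linear_combination (norm := module) (-1 : R) • e
  exact u.isUnit.smul_eq_zero.mp e'

include hrel in
/-- Elements with the same `ρ` have the same `τ`. -/
theorem eq_of_mem_pairs {g h : G} (hu : IsUnit ((ρ (g * h * g⁻¹ * h⁻¹)).trace - 2))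
    {x y : Matrix (Fin 2) (Fin 2) R × A} (hx : x ∈ pairs ρ τ) (hy : y ∈ pairs ρ τ)
    (h1 : x.1 = y.1) : x.2 = y.2 := by
  refine sub_eq_zero.mp (eq_zero_of_mem_pairs hrel hu (?_ : ((0 : Matrix (Fin 2) (Fin 2) R), _) ∈ _))
  have e : ((0 : Matrix (Fin 2) (Fin 2) R), x.2 - y.2) = x - y :=
    Prod.ext (by rw [Prod.fst_sub, h1, sub_self]) rfl
  rw [e]
  exact Submodule.sub_mem _ hx hy

end FLTA.LT2.MazurAlg

namespace FLTA.LT2.MazurAlg

variable {R : Type*} [CommRing R] {G : Type*} [Group G] {ρ : G →* Matrix (Fin 2) (Fin 2) R}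
  {V : Type*} [AddCommGroup V] [Module R V] {τ : G →* Module.End R V}
  (hrel : ∀ g : G, RelAt (ρ g, τ g))

include hrel in
/-- If `τ φ` commutes with `τ` on the orbit of `Z` and commutators of `ρ φ` spread to a scalar
`d`, then `d` kills `Z`. -/
theorem smul_eq_zero_of_commute {g₀ h₀ : G}
    (hu : IsUnit ((ρ (g₀ * h₀ * g₀⁻¹ * h₀⁻¹)).trace - 2)) {φ : G} {Z : V}
    (hZ : ∀ g h : G, τ φ (τ g (τ h Z)) = τ g (τ φ (τ h Z)))
    {X Y : Matrix (Fin 2) (Fin 2) R} {bX bY : Module.End R V} (hX : (X, bX) ∈ pairs ρ τ)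
    (hY : (Y, bY) ∈ pairs ρ τ) {d : R}
    (hd : X * (ρ φ * Y - Y * ρ φ) + (ρ φ * Y - Y * ρ φ) * X = d • 1) : d • Z = 0 := by
  have hcomm : ∀ a ∈ pairs ρ τ, ∀ b ∈ pairs ρ τ,
      (τ φ * a.2 - a.2 * τ φ) (b.2 Z) = 0 := by
    intro a ha b hb
    refine Submodule.span_induction₂ (p := fun a b _ _ => (τ φ * a.2 - a.2 * τ φ) (b.2 Z) = 0)
      ?_ ?_ ?_ ?_ ?_ ?_ ?_ ha hb
    · rintro _ _ ⟨g, rfl⟩ ⟨h, rfl⟩
      show τ φ (τ g (τ h Z)) - τ g (τ φ (τ h Z)) = 0
      rw [hZ, sub_self]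
    · intro b _; simp
    · intro a _; simp
    · intro a a' b _ _ _ h₁ h₂
      simp only [Prod.snd_add, mul_add, add_mul, LinearMap.sub_apply, LinearMap.add_apply] at h₁ h₂ ⊢
      linear_combination (norm := abel) h₁ + h₂
    · intro a b b' _ _ _ h₁ h₂
      simp only [Prod.snd_add, LinearMap.add_apply, map_add] at h₁ h₂ ⊢
      rw [h₁, h₂, add_zero]
    · intro r a b _ _ h
      simp only [Prod.smul_snd, mul_smul_comm, smul_mul_assoc, ← smul_sub, LinearMap.smul_apply, h,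
        smul_zero]
    · intro r a b _ _ h
      simp only [Prod.smul_snd, LinearMap.smul_apply, map_smul, h, smul_zero]
  have hone : ((1 : Matrix (Fin 2) (Fin 2) R), (1 : Module.End R V)) ∈ pairs ρ τ := by
    have h := mem_pairs (ρ := ρ) (τ := τ) 1
    rwa [map_one, map_one] at h
  have hC : (ρ φ * Y - Y * ρ φ, τ φ * bY - bY * τ φ) ∈ pairs ρ τ :=
    Submodule.sub_mem _ (mul_mem_pairs (mem_pairs φ) hY) (mul_mem_pairs hY (mem_pairs φ))
  have hT : bX * (τ φ * bY - bY * τ φ) + (τ φ * bY - bY * τ φ) * bX =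
      d • (1 : Module.End R V) :=
    eq_of_mem_pairs hrel hu
      (Submodule.add_mem _ (mul_mem_pairs hX hC) (mul_mem_pairs hC hX))
      (Submodule.smul_mem _ d hone) hd
  have e := LinearMap.congr_fun hT Z
  have hY1 : (τ φ * bY - bY * τ φ) Z = 0 := hcomm _ hY _ hone
  have hY2 : (τ φ * bY - bY * τ φ) (bX Z) = 0 := hcomm _ hY _ hX
  rw [LinearMap.add_apply, Module.End.mul_apply, Module.End.mul_apply, hY1, hY2, map_zero,
    add_zero] at e
  exact e.symm

omit hrel in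
/-- If `τ φ` is an operator commuting with `G` on an orbit, it commutes with `τ` there. -/
theorem comm_of_orbit {P : Type*} [SMul G P] (J : V → P) (hinj : Function.Injective J)
    (hJ : ∀ g y, J (τ g y) = g • J y) (w : P → P) (hw : ∀ (g : G) (z : P), w (g • z) = g • w z)
    {φ : G} {Z : V} (hkey : ∀ g, φ • J (τ g Z) = w (J (τ g Z))) (g h : G) :
    τ φ (τ g (τ h Z)) = τ g (τ φ (τ h Z)) := by
  have hgh : τ g (τ h Z) = τ (g * h) Z := by rw [map_mul]; rfl
  apply hinj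
  rw [hgh, hJ φ, hkey, ← hgh, hJ g, hw, ← hkey h, hJ g, hJ φ]

end FLTA.LT2.MazurAlg

end
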