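import Mathlib

/-!
# Hensel's lemma in several variables over a valuation ring of an algebraically closed field

A residual zero of `b` polynomials in `b` variables with invertible Jacobian lifts: the algebra of
the system is etale at it, hence standard etale nearby, and monic polynomials split over the
valuation ring.  A residual zero at which the differential is surjective lifts as well.
-/

set_option autoImplicit false
set_option synthInstance.maxHeartbeats 400000

noncomputable section

open scoped Matrix

namespace FLTA.LT2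

variable {K : Type*} [Field K] [IsAlgClosed K] {A : ValuationSubring K} {k : Type*} [Field k]
  {π : A →+* k}

/-- A residual root of a monic polynomial is the reduction of a root. -/
theorem exists_root_lift (hπ : Function.Surjective π) {f : Polynomial A} (hf : f.Monic) {x₀ : k}
    (hx : f.eval₂ π x₀ = 0) : ∃ r : A, f.eval r = 0 ∧ π r = x₀ := by
  obtain ⟨t, rfl⟩ := hπ x₀
  by_contra hno
  simp only [not_exists, not_and] at hno
  have hint : ∀ a ∈ (f.map A.subtype).roots, ∃ b : A, (b : K) = a ∧ f.eval b = 0 := fun a ha => by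
    have hev : f.eval₂ A.subtype a = 0 := by
      rw [← Polynomial.eval_map]
      exact Polynomial.isRoot_of_mem_roots ha
    obtain ⟨b, hb⟩ := IsIntegrallyClosed.isIntegral_iff.mp
      (show IsIntegral A a from ⟨f, hf, hev⟩)
    refine ⟨b, hb, Subtype.val_injective ?_⟩
    rw [← hb] at hev
    exact ((Polynomial.eval₂_at_apply A.subtype b).symm.trans hev)
  have hprod : ∃ z : A, (z : K) =
      (((f.map A.subtype).roots.map fun a => (t : K) - a)).prod ∧ π z ≠ 0 := by
    refine Multiset.prod_induction (fun u => ∃ z : A, (z : K) = u ∧ π z ≠ 0) _ ?_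
      ⟨1, rfl, by rw [map_one]; exact one_ne_zero⟩ fun u hu => ?_
    · rintro u w ⟨z, rfl, hz⟩ ⟨z', rfl, hz'⟩
      exact ⟨z * z', rfl, by rw [map_mul]; exact mul_ne_zero hz hz'⟩
    · obtain ⟨a, ha, rfl⟩ := Multiset.mem_map.mp hu
      obtain ⟨b, rfl, hb⟩ := hint a ha
      exact ⟨t - b, rfl, by rw [map_sub, sub_ne_zero]; exact fun h => hno b hb h.symm⟩
  obtain ⟨z, hz, hz0⟩ := hprod
  refine hz0 ?_
  have hzt : z = f.eval t := Subtype.val_injective (by
    rw [hz]
    have hsp := (IsAlgClosed.splits (f.map A.subtype)).eq_prod_roots_of_monic (hf.map _)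
    have h := congrArg (Polynomial.eval (t : K)) hsp
    rw [Polynomial.eval_multiset_prod, Multiset.map_map, Polynomial.eval_map] at h
    refine Eq.trans ?_ (Polynomial.eval₂_at_apply A.subtype t)
    refine Eq.trans ?_ h.symm
    simp)
  rw [hzt, ← Polynomial.eval₂_at_apply]
  exact hx

omit [IsAlgClosed K] in
theorem isUnit_of_ne_zero (hπ : Function.Surjective π) {a : A} (ha : π a ≠ 0) : IsUnit a := by
  have hmax : (RingHom.ker π).IsMaximal := RingHom.ker_isMaximal_of_surjective π hπ
  by_contra hu
  exact ha (RingHom.mem_ker.mp (by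
    rw [IsLocalRing.eq_maximalIdeal hmax]
    exact (IsLocalRing.mem_maximalIdeal _).mpr hu))

/-- An etale algebra with a residual point has an integral point above it. -/
theorem exists_point_of_etale (hπ : Function.Surjective π) {S : Type*} [CommRing S] [Algebra A S]
    [Algebra.Etale A S] (φ : S →+* k) (hφ : φ.comp (algebraMap A S) = π) :
    ∃ θ : S →ₐ[A] A, π.comp θ.toRingHom = φ := by
  let Q : Ideal S := RingHom.ker φ
  have : Q.IsPrime := RingHom.ker_isPrime φ
  have : Algebra.IsEtaleAt A Q :=
    Algebra.FormallyEtale.comp A S (Localization.AtPrime Q)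
  obtain ⟨f, hf, hst⟩ := Algebra.IsEtaleAt.exists_isStandardEtale (R := A) Q
  let _ : Algebra A k := π.toAlgebra
  have hfu : IsUnit (φ f) := isUnit_iff_ne_zero.mpr hf
  let φ₁ : Localization.Away f →ₐ[A] k :=
    IsLocalization.liftAlgHom (M := Submonoid.powers f)
      (f := { φ with commutes' := fun a => RingHom.congr_fun hφ a }) fun y => by
        obtain ⟨n, hn⟩ := y.2
        show IsUnit (φ y)
        rw [show (y : S) = f ^ n from hn.symm, map_pow]
        exact hfu.pow n
  obtain ⟨P⟩ := hst.nonempty_standardEtalePresentation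
  let x₀ : k := φ₁ P.x
  have hx : P.P.HasMap x₀ := P.hasMap.map φ₁
  obtain ⟨r, hr, hrx⟩ := exists_root_lift hπ P.monic_f
    (show P.f.eval₂ π x₀ = 0 from hx.1)
  have hg : IsUnit (Polynomial.aeval r P.g) := by
    rw [Polynomial.aeval_def, Algebra.algebraMap_self, Polynomial.eval₂_id]
    refine isUnit_of_ne_zero hπ fun h0 => ?_
    rw [← Polynomial.eval₂_at_apply, hrx] at h0
    exact hx.2.ne_zero h0
  have hr' : P.P.HasMap r :=
    ⟨by rw [Polynomial.aeval_def, Algebra.algebraMap_self, Polynomial.eval₂_id]; exact hr, hg⟩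
  let ψ : Localization.Away f →ₐ[A] A := (P.P.lift r hr').comp P.equivRing.toAlgHom
  refine ⟨ψ.comp (IsScalarTower.toAlgHom A S (Localization.Away f)), ?_⟩
  have key : (Algebra.ofId A k).comp ψ = φ₁ := by
    refine AlgHom.ext fun z => ?_
    obtain ⟨w, rfl⟩ := P.equivRing.symm.surjective z
    have e : ((Algebra.ofId A k).comp ψ).comp P.equivRing.symm.toAlgHom =
        φ₁.comp P.equivRing.symm.toAlgHom := by
      apply StandardEtalePair.hom_ext
      show π (P.P.lift r hr' (P.equivRing (P.equivRing.symm P.P.X))) =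
        φ₁ (P.equivRing.symm P.P.X)
      rw [AlgEquiv.apply_symm_apply, StandardEtalePair.lift_X]
      exact hrx.trans (congrArg φ₁ (P.equivRing_symm_X).symm)
    exact DFunLike.congr_fun e w
  refine RingHom.ext fun s => ?_
  refine (DFunLike.congr_fun key (algebraMap S (Localization.Away f) s)).trans ?_
  exact IsLocalization.lift_eq _ s

/-- **Hensel's lemma**, square case. -/
theorem exists_zero_of_det_ne_zero (hπ : Function.Surjective π) {b : Type} [Fintype b]
    [DecidableEq b] (G : b → MvPolynomial b A) (x₀ : b → k)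
    (h0 : ∀ i, MvPolynomial.eval₂ π x₀ (G i) = 0)
    (hdet : (Matrix.of fun i j => MvPolynomial.eval₂ π x₀ (MvPolynomial.pderiv j (G i))).det ≠ 0) :
    ∃ x : b → A, (∀ i, MvPolynomial.eval x (G i) = 0) ∧ ∀ i, π (x i) = x₀ i := by
  classical
  let σ := b ⊕ Unit
  let J : MvPolynomial b A := (Matrix.of fun i j => MvPolynomial.pderiv j (G i)).det
  let v : σ → MvPolynomial σ A := Sum.elim (fun i => MvPolynomial.rename Sum.inl (G i))
    fun _ => MvPolynomial.X (Sum.inr ()) * MvPolynomial.rename Sum.inl J - 1
  let S := MvPolynomial σ A ⧸ Ideal.span (Set.range v)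
  let P : Algebra.PreSubmersivePresentation A S σ σ :=
    .naive (v := v) id Function.injective_id
  have hpd : ∀ (p : MvPolynomial b A) (j : b), MvPolynomial.pderiv (Sum.inl j)
      (MvPolynomial.rename (Sum.inl : b → σ) p) =
        MvPolynomial.rename Sum.inl (MvPolynomial.pderiv j p) :=
    fun p j => MvPolynomial.pderiv_rename Sum.inl_injective j p
  have hpd' : ∀ (p : MvPolynomial b A),
      MvPolynomial.pderiv (Sum.inr ()) (MvPolynomial.rename (Sum.inl : b → σ) p) = 0 := fun p => by
    refine MvPolynomial.pderiv_eq_zero_of_notMem_vars fun h => ?_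
    obtain ⟨i, -, hi⟩ := Finset.mem_image.mp (MvPolynomial.vars_rename _ _ h)
    exact Sum.inl_ne_inr hi
  have hvar : IsUnit (Ideal.Quotient.mk (Ideal.span (Set.range v))
      (MvPolynomial.rename Sum.inl J)) := by
    have h : Ideal.Quotient.mk (Ideal.span (Set.range v)) (MvPolynomial.X (Sum.inr ())) *
        Ideal.Quotient.mk (Ideal.span (Set.range v)) (MvPolynomial.rename Sum.inl J) = 1 := by
      rw [← map_mul, ← map_one (Ideal.Quotient.mk (Ideal.span (Set.range v))), Ideal.Quotient.eq]
      exact Ideal.subset_span ⟨Sum.inr (), rfl⟩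
    refine ⟨⟨_, _, ?_, h⟩, rfl⟩
    rw [← map_mul, mul_comm, map_mul]
    exact h
  have hunit : IsUnit P.jacobian := by
    rw [P.jacobian_eq_jacobiMatrix_det]
    have hM : P.jacobiMatrix = Matrix.fromBlocks
        ((Matrix.of fun i j => MvPolynomial.pderiv j (G i)).map (MvPolynomial.rename Sum.inl))ᵀ
        (Matrix.of fun j _ => MvPolynomial.pderiv (Sum.inl j) (v (Sum.inr ())))
        0 (Matrix.of fun _ _ => MvPolynomial.rename Sum.inl J) := by
      refine Matrix.ext fun i j => ?_
      rw [Algebra.PreSubmersivePresentation.jacobiMatrix_apply]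
      rcases i with i | ⟨⟩ <;> rcases j with j | ⟨⟩
      · exact hpd _ _
      · rfl
      · exact hpd' _
      · show MvPolynomial.pderiv (Sum.inr ())
          (MvPolynomial.X (Sum.inr ()) * MvPolynomial.rename Sum.inl J - 1) =
            MvPolynomial.rename Sum.inl J
        rw [map_sub, MvPolynomial.pderiv_one, sub_zero, MvPolynomial.pderiv_mul, hpd',
          MvPolynomial.pderiv_X_self, one_mul, mul_zero, add_zero]
    rw [hM, Matrix.det_fromBlocks_zero₂₁, Matrix.det_transpose,
      show ((Matrix.of fun i j => MvPolynomial.pderiv j (G i)).map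
        (MvPolynomial.rename (Sum.inl : b → σ))).det = MvPolynomial.rename Sum.inl J from
        (AlgHom.map_det _ _).symm,
      Matrix.det_unique, Matrix.of_apply]
    show IsUnit (Ideal.Quotient.mk _ _)
    rw [map_mul]
    exact hvar.mul hvar
  have : Algebra.IsStandardSmoothOfRelativeDimension 0 A S :=
    Algebra.SubmersivePresentation.isStandardSmoothOfRelativeDimension
      ⟨P, hunit⟩ (Nat.sub_self _)
  have hJ : MvPolynomial.eval₂ π x₀ J = (Matrix.of fun i j =>
      MvPolynomial.eval₂ π x₀ (MvPolynomial.pderiv j (G i))).det :=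
    RingHom.map_det (MvPolynomial.eval₂Hom π x₀) _
  let y : σ → k := Sum.elim x₀ fun _ => (MvPolynomial.eval₂ π x₀ J)⁻¹
  let φ : S →+* k := Ideal.Quotient.lift _ (MvPolynomial.eval₂Hom π y) fun z hz => by
    refine (Ideal.span_le (I := RingHom.ker (MvPolynomial.eval₂Hom π y))).mpr ?_ hz
    rintro _ ⟨i | ⟨⟩, rfl⟩
    · show MvPolynomial.eval₂ π y (MvPolynomial.rename Sum.inl (G i)) = 0
      rw [MvPolynomial.eval₂_rename]
      exact h0 i
    · show MvPolynomial.eval₂ π y
        (MvPolynomial.X (Sum.inr ()) * MvPolynomial.rename Sum.inl J - 1) = 0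
      rw [MvPolynomial.eval₂_sub, MvPolynomial.eval₂_mul, MvPolynomial.eval₂_X,
        MvPolynomial.eval₂_rename, MvPolynomial.eval₂_one, sub_eq_zero]
      exact inv_mul_cancel₀ (hJ ▸ hdet)
  have : Algebra.Etale A S := inferInstance
  obtain ⟨θ, hθ⟩ := exists_point_of_etale hπ (S := S) φ
    (RingHom.ext fun a => MvPolynomial.eval₂_C π y a)
  refine ⟨fun i => θ (Ideal.Quotient.mk _ (MvPolynomial.X (Sum.inl i))), fun i => ?_, fun i => ?_⟩
  · have e : (θ.comp (Ideal.Quotient.mkₐ A (Ideal.span (Set.range v)))).comp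
        (MvPolynomial.rename Sum.inl) = MvPolynomial.aeval
          fun i => θ (Ideal.Quotient.mk _ (MvPolynomial.X (Sum.inl i))) :=
      MvPolynomial.algHom_ext fun j => by simp; rfl
    rw [← MvPolynomial.aeval_eq_eval, ← e]
    show θ (Ideal.Quotient.mk _ (MvPolynomial.rename Sum.inl (G i))) = 0
    rw [Ideal.Quotient.eq_zero_iff_mem.mpr
      (show MvPolynomial.rename Sum.inl (G i) ∈ Ideal.span (Set.range v) from
        Ideal.subset_span ⟨Sum.inl i, rfl⟩),
      map_zero]
  · refine (RingHom.congr_fun hθ (Ideal.Quotient.mk _ (MvPolynomial.X (Sum.inl i)))).trans ?_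
    exact MvPolynomial.eval₂_X π y (Sum.inl i)

/-- **Hensel's lemma**: a residual zero with surjective differential lifts. -/
theorem exists_zero_of_surjective (hπ : Function.Surjective π) {a b : Type} [Fintype a] [Fintype b]
    (G : b → MvPolynomial a A) (x₀ : a → k)
    (h0 : ∀ i, MvPolynomial.eval₂ π x₀ (G i) = 0)
    (hsurj : ∀ w : b → k, ∃ d : a → k,
      ∀ i, ∑ j, MvPolynomial.eval₂ π x₀ (MvPolynomial.pderiv j (G i)) * d j = w i) :
    ∃ x : a → A, (∀ i, MvPolynomial.eval x (G i) = 0) ∧ ∀ i, π (x i) = x₀ i := by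
  classical
  choose l hl using fun j => hπ (x₀ j)
  let col : a → b → k := fun j i => MvPolynomial.eval₂ π x₀ (MvPolynomial.pderiv j (G i))
  have hspan : ⊤ ≤ Submodule.span k (Set.range col) := fun w _ => by
    obtain ⟨d, hd⟩ := hsurj w
    rw [show w = ∑ j, d j • col j from funext fun i => by
      simp only [Finset.sum_apply, Pi.smul_apply, smul_eq_mul, col, ← hd i, mul_comm]]
    exact Submodule.sum_mem _ fun j _ =>
      Submodule.smul_mem _ _ (Submodule.subset_span ⟨j, rfl⟩)
  obtain ⟨s, hs, hss, hli⟩ := exists_linearIndependent k (Set.range col)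
  let B : Module.Basis s k (b → k) := Module.Basis.mk hli (by
    rw [Subtype.range_coe_subtype, Set.ofPred_mem_eq, hss]
    exact hspan)
  let e : b ≃ s := (Pi.basisFun k b).indexEquiv B
  choose ε hε using fun i => hs (e i).2
  have hεinj : Function.Injective ε := fun i i' h => e.injective (Subtype.ext (by
    rw [← hε i, ← hε i', h]))
  -- fix the coordinates off the chosen ones
  let sub : a → MvPolynomial b A :=
    Function.extend ε MvPolynomial.X fun j => MvPolynomial.C (l j)
  let G' : b → MvPolynomial b A := fun i => MvPolynomial.aeval sub (G i)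
  have hsub : ∀ j, MvPolynomial.eval₂ π (x₀ ∘ ε) (sub j) = x₀ j := fun j => by
    by_cases h : ∃ i, ε i = j
    · obtain ⟨i, rfl⟩ := h
      simp [sub, hεinj.extend_apply]
    · simp [sub, Function.extend_apply' _ _ _ h, hl]
  have hev : ∀ p : MvPolynomial a A, MvPolynomial.eval₂ π (x₀ ∘ ε) (MvPolynomial.aeval sub p) =
      MvPolynomial.eval₂ π x₀ p := fun p => by
    induction p using MvPolynomial.induction_on with
    | C c => simp
    | add p q hp hq => rw [map_add, MvPolynomial.eval₂_add, MvPolynomial.eval₂_add, hp, hq]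
    | mul_X p j hp =>
      rw [map_mul, MvPolynomial.eval₂_mul, MvPolynomial.eval₂_mul, hp, MvPolynomial.aeval_X,
        hsub, MvPolynomial.eval₂_X]
  have hder : ∀ (p : MvPolynomial a A) (i : b),
      MvPolynomial.pderiv i (MvPolynomial.aeval sub p) =
        MvPolynomial.aeval sub (MvPolynomial.pderiv (ε i) p) := fun p i => by
    induction p using MvPolynomial.induction_on with
    | C c => simp
    | add p q hp hq => rw [map_add, map_add, map_add, map_add, hp, hq]
    | mul_X p j hp =>
      rw [map_mul, MvPolynomial.pderiv_mul, MvPolynomial.pderiv_mul, hp, map_add, map_mul,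
        map_mul, MvPolynomial.aeval_X]
      congr 2
      by_cases h : ∃ i', ε i' = j
      · obtain ⟨i', rfl⟩ := h
        by_cases hi : i' = i
        · subst hi
          simp [sub, hεinj.extend_apply]
        · simp [sub, hεinj.extend_apply, MvPolynomial.pderiv_X, hi, hεinj.ne hi]
      · have hne : j ≠ ε i := fun hj => h ⟨i, hj.symm⟩
        simp [sub, Function.extend_apply' _ _ _ h, MvPolynomial.pderiv_X, hne]
  obtain ⟨x, hx, hxπ⟩ := exists_zero_of_det_ne_zero hπ G' (x₀ ∘ ε)
    (fun i => (hev _).trans (h0 i)) (by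
      have hM : (Matrix.of fun i j => MvPolynomial.eval₂ π (x₀ ∘ ε)
          (MvPolynomial.pderiv j (G' i))) = (Matrix.of fun j i => (B (e j) : b → k) i)ᵀ := by
        refine Matrix.ext fun i j => ?_
        simp only [Matrix.of_apply, Matrix.transpose_apply, G', hder, hev, B, Module.Basis.coe_mk]
        exact congrFun (hε j) i
      rw [hM, Matrix.det_transpose]
      refine IsUnit.ne_zero ?_
      rw [← Matrix.isUnit_iff_isUnit_det, ← Matrix.linearIndependent_rows_iff_isUnit]
      exact B.linearIndependent.comp e e.injective)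
  refine ⟨Function.extend ε x l, fun i => ?_, fun j => ?_⟩
  · have h : ∀ p : MvPolynomial a A, MvPolynomial.eval (Function.extend ε x l) p =
        MvPolynomial.eval x (MvPolynomial.aeval sub p) := fun p => by
      induction p using MvPolynomial.induction_on with
      | C c => simp
      | add p q hp hq => simp only [map_add, hp, hq]
      | mul_X p j hp =>
        simp only [map_mul, hp, MvPolynomial.eval_X, MvPolynomial.aeval_X]
        by_cases hj : ∃ i', ε i' = j
        · obtain ⟨i', rfl⟩ := hj
          simp [sub, hεinj.extend_apply]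
        · simp [sub, Function.extend_apply' _ _ _ hj]
    rw [h]
    exact hx i
  · by_cases hj : ∃ i, ε i = j
    · obtain ⟨i, rfl⟩ := hj
      rw [hεinj.extend_apply]
      exact hxπ i
    · rw [Function.extend_apply' _ _ _ hj]
      exact hl j

end FLTA.LT2

end
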