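import Fermat.Agent.BadRed.Ramified.Toricity

/-!
# Reduced orders of fixed Kummer functions with bounded loss

As `BadFibre.dvd_ord_red`, without coprimality: if the valuation difference and the orders at the
unglued points of the auxiliary function have greatest common divisor with `n` dividing `g`, then
the orders of the reductions become divisible by `n` after multiplication by `g`.
-/

set_option autoImplicit false

noncomputable section

open AlgebraicCurve FLTA.Curves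

namespace FLTA.LT2

open FLTA.BadRed FLTA.BadRed.BadFibre

variable {K : Type*} [Field K] [IsAlgClosed K] [CharZero K] {A : ValuationSubring K}
  {k : Type*} [Field k] [IsAlgClosed k] {π : A →+* k}
  {q : ℕ} [NeZero q] [Fact q.Prime] [CharP k q]
  {F : Type*} [Field F] [Algebra K F] {F' : Type*} [Field F'] [Algebra K F']
  {Fk : Type*} [Field Fk] [Algebra k Fk] {g gF : ℕ} {B : BadFibre A π q F F' Fk g gF}
  {S : Finset (Place k Fk)} {m₀ n : ℕ} {J : B.InertiaSys}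

variable (B J) in
/-- An auxiliary function with bounded loss `c` modulo `n`. -/
structure EtaLoss (n : ℕ) (c : ℤ) where
  /-- the function -/
  H : F
  /-- the valuation difference -/
  e : ℤ
  fixed : J.Fixed H
  /-- the other places of the divisor -/
  C : Finset (Place K F)
  dvd_ord : ∀ v : Place K F, v ≠ B.P 0 → v ≠ B.P 1 → v ∉ C → (n : ℤ) ∣ v.ord H
  diffVal : B.DiffVal H e
  /-- points of the components matching `C` -/
  U : Fin 2 → Finset (Place k Fk)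
  card_le : C.card ≤ (U 0).card + (U 1).card
  ne_infk : ∀ i, ∀ u ∈ U i, u ≠ B.infk
  not_node : ∀ (S : Finset (Place k Fk)) (m₀ : ℕ), B.IsGluing S m₀ →
    ∀ i, ∀ u ∈ U i, ∀ Q ∈ S, B.nodePt i Q ≠ u
  gcd_e : (Int.gcd e n : ℤ) ∣ c
  gcd_ord : ∀ (dH : B.ScaledRed H) (i : Fin 2), ∀ u ∈ U i,
    (Int.gcd (u.ord (dH.p i)) n : ℤ) ∣ c

theorem dvd_mul_of_dvd_mul_gcd {n : ℕ} {a o c : ℤ} (h : (n : ℤ) ∣ a * o)
    (hc : (Int.gcd o n : ℤ) ∣ c) : (n : ℤ) ∣ c * a := by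
  have h1 : (n : ℤ) ∣ a * (Int.gcd o n : ℤ) := by
    rw [Int.gcd_eq_gcd_ab o n, mul_add, ← mul_assoc, ← mul_assoc]
    exact dvd_add (dvd_mul_of_dvd_left h _) (dvd_mul_of_dvd_left (dvd_mul_left _ _) _)
  obtain ⟨c', rfl⟩ := hc
  rw [mul_comm _ c', mul_assoc, mul_comm _ a]
  exact dvd_mul_of_dvd_right h1 _

omit [IsAlgClosed K] [CharZero K] [IsAlgClosed k] [Fact q.Prime] [CharP k q] in
/-- Orders of a mixed product. -/
theorem ord_p_pow_mul {f H : F} {i j : ℕ} (d : B.ScaledRed f) (dH : B.ScaledRed H)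
    (dG : B.ScaledRed (f ^ i * H ^ j)) (l : Fin 2) (v : Place k Fk) :
    v.ord (dG.p l) = i * v.ord (d.p l) + j * v.ord (dH.p l) := by
  rw [((d.pow i).mul (dH.pow j)).ord_p_eq dG l,
    show ((d.pow i).mul (dH.pow j)).p l = d.p l ^ i * dH.p l ^ j from rfl,
    Place.ord_mul _ (pow_ne_zero _ (d.p_ne l)) (pow_ne_zero _ (dH.p_ne l)),
    FLTA.Curves.ord_pow, FLTA.Curves.ord_pow]

/-- The node lemma with bounded loss. -/
theorem dvd_mul_ord_node (hS : B.IsGluing S m₀) (hnk : (n : k) ≠ 0) {c : ℤ} (E : EtaLoss B J n c)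
    {f : F} (hfix : J.Fixed f) (hdvd : ∀ v : Place K F, (n : ℤ) ∣ v.ord f) (d : B.ScaledRed f)
    {vf : ℤ} (hvf : B.DiffVal f vf) (hnvf : (n : ℤ) ∣ vf) {Q : Place k Fk} (hQ : Q ∈ S) :
    (n : ℤ) ∣ c * Q.ord (d.p 0) := by
  classical
  have hn : 0 < n := Nat.pos_of_ne_zero fun h => hnk (by rw [h, Nat.cast_zero])
  have hn' : (n : ℤ) ≠ 0 := Int.natCast_ne_zero.mpr hn.ne'
  obtain ⟨dH, -⟩ := exists_fixed_scaledRed (J := J) E.diffVal.ne_zero E.fixed
  set a := Q.ord (d.p 0)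
  set h := Q.ord (dH.p 0)
  set i := (h % (n : ℤ)).toNat
  set j := ((-a) % (n : ℤ)).toNat
  have hi : (i : ℤ) = h % (n : ℤ) := Int.toNat_of_nonneg (Int.emod_nonneg _ hn')
  have hj : (j : ℤ) = (-a) % (n : ℤ) := Int.toNat_of_nonneg (Int.emod_nonneg _ hn')
  have hci : (n : ℤ) ∣ (i : ℤ) - h := by
    rw [hi, ← Int.modEq_iff_dvd]
    exact (Int.mod_modEq _ _).symm
  have hcj : (n : ℤ) ∣ (j : ℤ) + a := by
    rw [hj, ← sub_neg_eq_add, ← Int.modEq_iff_dvd]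
    exact (Int.mod_modEq _ _).symm
  -- `n ∣ c j` is what we want
  suffices hcjn : (n : ℤ) ∣ c * j by
    have := dvd_sub (dvd_mul_of_dvd_right hcj c) hcjn
    rwa [mul_add, add_sub_cancel_left] at this
  by_cases hbad : ∃ l, ∃ u ∈ E.U l, (n : ℤ) ∣ (j : ℤ) * u.ord (dH.p l)
  · obtain ⟨l, u, hu, hd⟩ := hbad
    exact dvd_mul_of_dvd_mul_gcd hd (E.gcd_ord dH l u hu)
  refine dvd_mul_of_dvd_mul_gcd ?_ E.gcd_e
  set G := f ^ i * E.H ^ j
  have hG0 : G ≠ 0 := mul_ne_zero (pow_ne_zero _ d.ne_zero) (pow_ne_zero _ dH.ne_zero)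
  have hGfix : J.Fixed G := (hfix.pow i).mul (E.fixed.pow j)
  obtain ⟨dG, hdG⟩ := exists_fixed_scaledRed hG0 hGfix
  have hgood : Q ∈ dG.good n S 0 := by
    refine ScaledRed.mem_good.mpr ⟨hQ, ?_⟩
    show (n : ℤ) ∣ Q.ord (dG.p 0)
    rw [ord_p_pow_mul d dH dG 0 Q]
    show (n : ℤ) ∣ i * a + j * h
    rw [show (i : ℤ) * a + j * h = ((i : ℤ) - h) * a + ((j : ℤ) + a) * h by ring]
    exact dvd_add (dvd_mul_of_dvd_left hci _) (dvd_mul_of_dvd_left hcj _)
  obtain ⟨δ, hδ⟩ := exists_scalars hn dG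
  have hδ0 : ∀ l, δ l ≠ 0 := fun l h0 => by
    have := hδ l
    rw [h0, zero_pow hn.ne', zero_mul] at this
    exact zero_ne_one this
  have hC : ∀ v : Place K F, v ≠ B.P 0 → v ≠ B.P 1 → v ∉ E.C → (n : ℤ) ∣ v.ord G := by
    intro v h0 h1 hv
    rw [v.ord_mul (pow_ne_zero _ d.ne_zero) (pow_ne_zero _ dH.ne_zero), FLTA.Curves.ord_pow,
      FLTA.Curves.ord_pow]
    exact dvd_add (dvd_mul_of_dvd_right (hdvd v) _) (dvd_mul_of_dvd_right (E.dvd_ord v h0 h1 hv) _)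
  have hU : ∀ l, ∀ u ∈ E.U l, ¬ (n : ℤ) ∣ dG.wDiv l u ∧ ∀ Q' ∈ S, B.nodePt l Q' ≠ u := by
    intro l u hu
    refine ⟨fun hdvdu => hbad ⟨l, u, hu, ?_⟩, E.not_node S m₀ hS l u hu⟩
    have hf := (good_zero_eq_good_one hS hn (fun v _ _ => hdvd v) d).2 l u (E.not_node S m₀ hS l u hu)
    rw [d.wDiv_of_ne l (E.ne_infk l u hu)] at hf
    rw [dG.wDiv_of_ne l (E.ne_infk l u hu), ord_p_pow_mul d dH dG l u,
      dvd_add_right (dvd_mul_of_dvd_right hf _)] at hdvdu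
    exact hdvdu
  obtain ⟨m, hm⟩ := J.exists_val (δ 0 / δ 1) (div_ne_zero (hδ0 0) (hδ0 1))
    fun s hs => ratio_fixed_of_good hS hnk E.C hC hGfix dG E.U hU E.card_le hdG hδ ⟨Q, hgood⟩ hs
  have hpow : HasVal A q (dG.c 1 / dG.c 0) ((n : ℤ) * m) := by
    have e : dG.c 1 / dG.c 0 = (δ 0 / δ 1) ^ n := by
      rw [div_pow, eq_inv_of_mul_eq_one_left (hδ 0), eq_inv_of_mul_eq_one_left (hδ 1), inv_div_inv]
    rw [e]
    exact hm.pow n
  have heq := (((hvf.pow i).mul (E.diffVal.pow j)).hasVal dG).unique π hpow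
  rw [show (j : ℤ) * E.e = (n : ℤ) * m - i * vf by rw [← heq]; ring]
  exact dvd_sub (dvd_mul_right _ _) (dvd_mul_of_dvd_right hnvf _)

/-- The orders of both reductions are divisible by `n` up to the loss `c`. -/
theorem dvd_mul_ord_red (hS : B.IsGluing S m₀) (hnk : (n : k) ≠ 0) {c : ℤ} (E : EtaLoss B J n c)
    {f : F} (hfix : J.Fixed f) (hdvd : ∀ v : Place K F, (n : ℤ) ∣ v.ord f) (d : B.ScaledRed f)
    {vf : ℤ} (hvf : B.DiffVal f vf) (hnvf : (n : ℤ) ∣ vf) (i : Fin 2) (v : Place k Fk) :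
    (n : ℤ) ∣ c * v.ord (d.p i) := by
  classical
  have hn : 0 < n := Nat.pos_of_ne_zero fun h => hnk (by rw [h, Nat.cast_zero])
  have hdvd' : B.DvdOffCusps n f := fun u _ _ => hdvd u
  obtain ⟨-, hout⟩ := good_zero_eq_good_one hS hn hdvd' d
  have hout' : ∀ (l : Fin 2) (w : Place k Fk), (∀ Q ∈ S, B.nodePt l Q ≠ w) →
      (n : ℤ) ∣ w.ord (d.p l) := by
    intro l w hw
    have h := hout l w hw
    rcases eq_or_ne w B.infk with rfl | hv
    · rw [d.wDiv_infk] at h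
      simpa using dvd_add h (hdvd (B.P l))
    · rwa [d.wDiv_of_ne l hv] at h
  by_cases hx : ∃ Q ∈ S, B.nodePt i Q = v
  · obtain ⟨Q, hQ, rfl⟩ := hx
    have h0 := dvd_mul_ord_node hS hnk E hfix hdvd d hvf hnvf hQ
    set g : ℕ := Int.gcd c n
    have hg : 0 < g := Int.gcd_pos_of_ne_zero_right _ (Int.natCast_ne_zero.mpr hn.ne')
    obtain ⟨n', hn'⟩ : g ∣ n := Int.natCast_dvd_natCast.mp (Int.gcd_dvd_right c n)
    have hn'0 : 0 < n' := Nat.pos_of_ne_zero fun h => hn.ne' (by rw [hn', h, mul_zero])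
    have hcast : (n : ℤ) = (g : ℤ) * n' := by exact_mod_cast hn'
    have hiff : ∀ b : ℤ, (n : ℤ) ∣ c * b ↔ (n' : ℤ) ∣ b := fun b => by
      refine ⟨fun h => ?_, fun h => ?_⟩
      · have h1 := dvd_mul_of_dvd_mul_gcd (by rwa [mul_comm]) (dvd_refl (g : ℤ)) (n := n) (a := b)
          (o := c)
        rw [hcast] at h1
        exact Int.dvd_of_mul_dvd_mul_left (by exact_mod_cast hg.ne') h1
      · rw [hcast]
        exact mul_dvd_mul (Int.gcd_dvd_left c n) h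
    have hdvdn : B.DvdOffCusps n' f := fun u _ _ => by
      have h1 := hdvd u
      rw [hcast] at h1
      exact dvd_of_mul_left_dvd h1
    have hgood := (good_zero_eq_good_one hS hn'0 hdvdn d).1
    rw [hiff] at h0 ⊢
    have hmem0 : Q ∈ d.good n' S 0 := ScaledRed.mem_good.mpr ⟨hQ, h0⟩
    have hmem : Q ∈ d.good n' S i := (Fin.forall_fin_two (p := fun l => Q ∈ d.good n' S l)).mpr
      ⟨hmem0, hgood ▸ hmem0⟩ i
    exact (ScaledRed.mem_good.mp hmem).2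
  · exact dvd_mul_of_dvd_right (hout' i v fun Q hQ hQv => hx ⟨Q, hQ, hQv⟩) _

end FLTA.LT2
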