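import Fermat.Agent.LevelLowering.HeckeReduced
import Fermat.Agent.PlaceRed.TorsionLiftModular
import Fermat.Agent.Congruence.Inputs

/-!
# Part H: an eigenfunction of the reduced curve lifts to an eigenclass of the Jacobian

If the divisor of a function `y` on the reduction of `X₀(M)` at `q` is `N` times `E` and `y` is an
eigenfunction of the reduced Hecke operators modulo `N`-th powers, then `E` is the reduction of a
class of `J₀(M)[N]` with the same eigenvalues.
-/

set_option autoImplicit false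
set_option synthInstance.maxHeartbeats 400000
set_option maxHeartbeats 1000000

noncomputable section

open AlgebraicCurve ModularCurve IsLocalRing FLTA.LevelLowering FLTA.PlaceRed

namespace FLTA.LT2

local notation "Qb" => AlgebraicClosure ℚ

variable (M : ℕ) [NeZero M] {q : ℕ} [hq : Fact q.Prime] (hqM : ¬ q ∣ M)
  {A : ValuationSubring (AlgebraicClosure ℚ)} (hA : A.LiesOverPrime q)

/-- The class of a reduced eigenfunction lifts to an eigenclass, with the same order. -/
theorem exists_eigen_lift {N : ℕ} (hqN : ¬ q ∣ N) {S : Finset ℕ}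
    (hSM : ∀ ℓ : ℕ, ℓ.Prime → ℓ ∣ M → ℓ ∈ S) (a : ℕ → ℤ)
    {y : modularFunctionFieldFullC (ResidueField A) M} (hy : y ≠ 0)
    {E : Divisor (ResidueField A) (modularFunctionFieldFullC (ResidueField A) M)}
    (hE : ∀ Q, (N : ℤ) * E Q = Q.ord y)
    (heig : ∀ i : {ℓ : Nat.Primes // (ℓ : ℕ) ∉ S}, ∃ (c : ResidueField A)
      (h : modularFunctionFieldFullC (ResidueField A) M),
      (heckeFamily IsLocalRing.residue_surjective M (natCast_residue_ne_zero M hqM A hA) hSM i).Tk y
        = algebraMap (ResidueField A) _ c * y ^ a (i.1 : ℕ) * h ^ N) :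
    ∃ x : JZero M, N • x = 0 ∧
      (∀ ℓ : Nat.Primes, (ℓ : ℕ) ∉ S → heckeOperatorBar M ℓ x = a ℓ • x) ∧
      ∀ j : ℕ, j • x = 0 → Divisor.IsPrincipal ((j : ℤ) • E) := by
  classical
  haveI := FLTA.Galois.charP_residueField hq.out hA
  haveI := FLTA.Galois.isAlgClosed_residueField A
  have hN : (N : ℤ) ≠ 0 := Int.natCast_ne_zero.mpr fun h => hqN (h ▸ dvd_zero q)
  have hN' : N ≠ 0 := fun h => hqN (h ▸ dvd_zero q)
  have hF := rrCurve_bar M
  have hk := rrCurve_fullC M hqM A hA
  have hr := isPlaceMap_placeRed M hqM A hA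
  have hNE : (N : ℤ) • E = hk.divisorOf y := Finsupp.ext fun Q => by
    rw [Finsupp.smul_apply, smul_eq_mul, hE, RRCurve.divisorOf_apply]
  have hEdeg : E ∈ Divisor.degZero (K := ResidueField A)
      (F := modularFunctionFieldFullC (ResidueField A) M) := by
    have h2 := hk.degree_divisorOf y
    rw [← hNE, map_zsmul, smul_eq_mul] at h2
    exact (mul_eq_zero.mp h2).resolve_left hN
  let E₀ : Divisor.degZero (K := ResidueField A)
      (F := modularFunctionFieldFullC (ResidueField A) M) := ⟨E, hEdeg⟩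
  have hNE0 : N • Pic0.mk E₀ = 0 := by
    rw [show N • Pic0.mk E₀ = Pic0.mk (N • E₀) from (map_nsmul (QuotientAddGroup.mk' _) N E₀).symm]
    refine (QuotientAddGroup.eq_zero_iff _).mpr ⟨y, hy, fun Q => ?_⟩
    rw [AddSubgroup.coe_subtype, AddSubgroupClass.coe_nsmul, Finsupp.smul_apply, nsmul_eq_mul]
    exact hE Q
  obtain ⟨x, hNx, hx⟩ := exists_torsion_lift_modL M hqM hA hqN E₀ hNE0
  obtain ⟨D, hD⟩ := QuotientAddGroup.mk'_surjective _ x
  change Pic0.mk D = x at hD
  -- the reduced divisor of `D` is `E` up to a principal divisor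
  let Pk : AddSubgroup (Divisor (ResidueField A) (modularFunctionFieldFullC (ResidueField A) M)) :=
    Divisor.principal (K := ResidueField A) (F := modularFunctionFieldFullC (ResidueField A) M)
  let r := placeRed M hqM A hA
  have hDE : Finsupp.mapDomain r (D : Divisor Qb (modularFunctionFieldBar M)) - E ∈ Pk := by
    have h := hx
    rw [← hD, reductionModL_mk_placeRed hqM hA D] at h
    have h' := isPrincipal_sub_of_mk_eq (a := 1) (D := E₀) (h.trans (one_zsmul _).symm)
    rw [one_zsmul] at h'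
    exact h'
  refine ⟨_, hNx, fun ℓ hℓ => ?_, fun j hj => ?_⟩
  · haveI : NeZero (ℓ : ℕ) := ⟨ℓ.2.ne_zero⟩
    set O := heckeFamily IsLocalRing.residue_surjective M (natCast_residue_ne_zero M hqM A hA) hSM
      ⟨ℓ, hℓ⟩ with hO
    obtain ⟨s, hs⟩ := (RedOp.surjective_of_isPlaceMap hF hr).hasRightInverse
    obtain ⟨hmem, hmk⟩ := heckeOperatorAlong_mk M (ℓ : ℕ) D
    obtain ⟨c, h, hch⟩ := heig ⟨ℓ, hℓ⟩
    rw [← hO] at hch
    have hT0 : O.Tk y ≠ 0 := O.Tk_ne_zero y hy
    rw [hch] at hT0
    have hh0 : h ≠ 0 := by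
      rintro rfl
      exact hT0 (by rw [zero_pow hN', mul_zero])
    have hc0 : algebraMap (ResidueField A) (modularFunctionFieldFullC (ResidueField A) M) c ≠ 0 :=
      fun h0 => hT0 (by rw [h0, zero_mul, zero_mul])
    have hdiv : O.divk r s E = a (ℓ : ℕ) • E + hk.divisorOf h := by
      ext Q
      have e := O.divk_apply_of_ord hF hk hr hs hy (E := (N : ℤ) • E)
        (fun Q => by rw [Finsupp.smul_apply, smul_eq_mul, hE]) Q
      rw [map_zsmul, Finsupp.smul_apply, smul_eq_mul, hch,
        Q.ord_mul (mul_ne_zero hc0 (zpow_ne_zero _ hy)) (pow_ne_zero _ hh0),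
        Q.ord_mul hc0 (zpow_ne_zero _ hy), Curves.ord_algebraMap, zero_add, Q.ord_zpow, ← hE,
        ← zpow_natCast, Q.ord_zpow] at e
      rw [Finsupp.add_apply, Finsupp.smul_apply, smul_eq_mul, RRCurve.divisorOf_apply]
      apply mul_left_cancel₀ hN
      rw [e]
      ring
    have hDk : ∀ G ∈ Pk, O.divk r s G ∈ Pk := by
      rintro G ⟨u, hu, hG⟩
      exact ⟨O.Tk u, O.Tk_ne_zero u hu, O.divk_apply_of_ord hF hk hr hs hu hG⟩
    let D' : Divisor.degZero (K := Qb) (F := modularFunctionFieldBar M) :=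
      ⟨heckeDiv M (ℓ : ℕ) (D : Divisor Qb (modularFunctionFieldBar M)), hmem⟩ - a (ℓ : ℕ) • D
    have hkey : heckeOperatorBar M ℓ x - a (ℓ : ℕ) • x = Pic0.mk D' := by
      rw [← hD, heckeOperatorBar_apply, hmk]
      exact ((QuotientAddGroup.mk_sub _ _ _).trans (congrArg₂ (· - ·) rfl
        (QuotientAddGroup.mk_zsmul _ _ _))).symm
    refine sub_eq_zero.mp (FLTA.Congruence.eq_zero_of_reductionModL_eq_zero M hq.out hqM A hA N hqN
      _ ?_ ?_)
    · rw [nsmul_sub, ← map_nsmul, hNx, map_zero, smul_comm, hNx, smul_zero, sub_zero]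
    · rw [hkey, reductionModL_mk_eq_zero_iff hqM hA]
      show _ ∈ Pk
      have e : Finsupp.mapDomain r ((D' : Divisor.degZero (K := Qb)
            (F := modularFunctionFieldBar M)) : Divisor Qb (modularFunctionFieldBar M)) =
          O.divk r s (Finsupp.mapDomain r (D : Divisor Qb (modularFunctionFieldBar M)) - E) +
            hk.divisorOf h -
            a (ℓ : ℕ) • (Finsupp.mapDomain r (D : Divisor Qb (modularFunctionFieldBar M)) - E) := by
        rw [map_sub, hdiv, ← O.mapDomain_div hF hk hr hs, smul_sub,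
          show ((D' : Divisor.degZero (K := Qb) (F := modularFunctionFieldBar M)) :
              Divisor Qb (modularFunctionFieldBar M)) =
            O.div (D : Divisor Qb (modularFunctionFieldBar M)) -
              a (ℓ : ℕ) • (D : Divisor Qb (modularFunctionFieldBar M)) from rfl,
          Finsupp.mapDomain_sub, Finsupp.mapDomain_smul]
        abel
      rw [e]
      exact AddSubgroup.sub_mem _ (AddSubgroup.add_mem _ (hDk _ hDE)
        ⟨h, hh0, fun Q => hk.divisorOf_apply h Q⟩) (AddSubgroup.zsmul_mem _ hDE _)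
  · have h1 := congrArg (reductionModL A M) hj
    rw [map_zero, map_nsmul, hx] at h1
    rw [show j • Pic0.mk E₀ = Pic0.mk (j • E₀) from (map_nsmul (QuotientAddGroup.mk' _) j E₀).symm]
      at h1
    have h2 := (QuotientAddGroup.eq_zero_iff _).mp h1
    rw [natCast_zsmul]
    exact h2

end FLTA.LT2

end
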