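import Fermat.Agent.LT2.Defs
import Fermat.Agent.LT2.MazurReduce
import Fermat.Agent.RT.MazurCore

/-!
# Part H: one non-toric inertia-fixed eigenclass lowers the level

A class of `J₀(M q)[2 ^ n]` fixed by inertia at `q` with eigenvalues `a_ℓ(E)`, whose multiple of
order `2` is not toric, reduces on some component to a class of order `2 ^ (n - c)`, which lifts to
an eigenclass of level `M`.
-/

set_option autoImplicit false
set_option synthInstance.maxHeartbeats 400000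
set_option maxHeartbeats 2000000

noncomputable section

open AlgebraicCurve ModularCurve IsLocalRing FLTA.LevelLowering

namespace FLTA.LT2

local notation "Qb" => AlgebraicClosure ℚ

/-- The loss statement at the nodes for the fibre of `X₀(M q)` at `q`. -/
def RedDvdLoss (c₀ M q : ℕ) [NeZero M] [NeZero q] [Fact q.Prime]
    (A : ValuationSubring (AlgebraicClosure ℚ)) (hA : A.LiesOverPrime q) (hqM : ¬ q ∣ M)
    [CharP (ResidueField A) q] [PerfectRing (ResidueField A) q] : Prop :=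
  ∀ (n : ℕ) (f : modularFunctionFieldBar (M * q)), (RT.inertiaSys M q A hA hqM).Fixed f →
    (∀ v : Place Qb (modularFunctionFieldBar (M * q)), (2 : ℤ) ^ n ∣ v.ord f) →
    ∀ (d : (BadRed.badFibre M q A hA hqM).ScaledRed f) (vf : ℤ),
      (BadRed.badFibre M q A hA hqM).DiffVal f vf → (2 : ℤ) ^ n ∣ vf →
      ∀ (i : Fin 2) (v : Place (ResidueField A) (modularFunctionFieldFullC (ResidueField A) M)),
        (2 : ℤ) ^ n ∣ 2 ^ c₀ * v.ord (d.p i)

variable {E : WeierstrassCurve ℤ} {M q : ℕ} [NeZero M] [NeZero q] [hq : Fact q.Prime]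
  {A : ValuationSubring (AlgebraicClosure ℚ)} (hA : A.LiesOverPrime q) (hqM : ¬ q ∣ M)
  [CharP (ResidueField A) q] [PerfectRing (ResidueField A) q]

/-- An element killed by `2 ^ n` has order `2 ^ n` unless half that power kills it. -/
theorem addOrderOf_eq_two_pow {G : Type*} [AddGroup G] {x : G} {m : ℕ}
    (h : 2 ^ (m + 1) • x = 0) (h' : 2 ^ m • x ≠ 0) : addOrderOf x = 2 ^ (m + 1) :=
  haveI : Fact (Nat.Prime 2) := ⟨Nat.prime_two⟩
  addOrderOf_eq_prime_pow h' h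

theorem torsCong_zero (S : Finset ℕ) : TorsCong E M 0 S :=
  ⟨inferInstance, 0, by rw [addOrderOf_zero, pow_zero], fun ℓ _ => by rw [map_zero, smul_zero]⟩

include hA hqM in
/-- An inertia-fixed eigenclass whose multiple of order `2` is not toric gives one of level `M`. -/
theorem torsCong_of_fixed {c₀ : ℕ} (hloss : RedDvdLoss c₀ M q A hA hqM) (hq2 : q ≠ 2)
    {S : Finset ℕ} (hS : ∀ ℓ : ℕ, ℓ.Prime → ℓ ∣ M * q → ℓ ∈ S)
    (hodd : ∃ l : ℕ, l.Prime ∧ l ≠ 2 ∧ l ∉ S ∧ Odd (E.apOfModel l))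
    {n : ℕ} {y : JZero (M * q)} (hy : 2 ^ n • y = 0)
    (hfix : ∀ σ ∈ A.inertiaSubgroupIn ℚ, σ • y = y)
    (heig : ∀ ℓ : Nat.Primes, (ℓ : ℕ) ∉ S →
      heckeOperatorBar (M * q) ℓ y = E.apOfModel ℓ • y)
    (hnt : ¬ (BadRed.badFibre M q A hA hqM).IsToric 2 (2 ^ (n - 1) • y)) :
    TorsCong E M (n - c₀) S := by
  classical
  haveI := FLTA.Galois.isAlgClosed_residueField A
  rcases le_or_gt n c₀ with hnc | hnc
  · rw [Nat.sub_eq_zero_of_le hnc]; exact torsCong_zero S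
  obtain ⟨m, rfl⟩ : ∃ m, n = c₀ + m + 1 := ⟨n - c₀ - 1, by omega⟩
  rw [show c₀ + m + 1 - c₀ = m + 1 by omega]
  rw [show c₀ + m + 1 - 1 = c₀ + m by omega] at hnt
  have hSM : ∀ ℓ : ℕ, ℓ.Prime → ℓ ∣ M → ℓ ∈ S := fun ℓ hℓ h =>
    hS ℓ hℓ (h.trans (dvd_mul_right M q))
  obtain ⟨D, f, hf, hDy, hD, hJ⟩ := RT.exists_fixed_kummer_jZero M q A hA hqM hy hfix
  subst hDy
  obtain ⟨d, -⟩ := BadRed.BadFibre.exists_fixed_scaledRed hf hJ
  obtain ⟨vf, hvf⟩ := (RT.inertiaSys M q A hA hqM).exists_diffVal hf hJ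
  have hvf2 : (2 : ℤ) ^ (c₀ + m + 1) ∣ vf := by
    obtain ⟨l, hl, hl2, hlS, hla⟩ := hodd
    haveI : NeZero l := ⟨hl.ne_zero⟩
    obtain ⟨c, h, -, -, heq⟩ := exists_heckeNormHom_eq (⟨l, hl⟩ : Nat.Primes) hf hD
      (heig ⟨l, hl⟩ hlS) (E.apOfModel l) (by rw [sub_self]; exact dvd_zero _)
    have h1 := BadRed.BadFibre.dvd_of_hecke_eigen (J := RT.inertiaSys M q A hA hqM)
      (RT.heckeData M q A hA hqM l hl (fun e => hlS (e ▸ hS q hq.out (dvd_mul_left q M)))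
        (fun e => hlS (hS l hl (e.trans (dvd_mul_right M q))))) (pow_pos two_pos _) hJ hvf heq
    push_cast at h1
    refine IsCoprime.dvd_of_dvd_mul_left ?_ h1
    refine IsCoprime.pow_left (Int.prime_two.coprime_iff_not_dvd.mpr fun h2 => ?_)
    obtain ⟨k, hk⟩ := hla
    obtain ⟨j, hj⟩ := hl.odd_of_ne_two hl2
    obtain ⟨e, he⟩ := h2
    rw [hk, hj] at he
    push_cast at he
    omega
  have hdvd := fun i v => hloss (c₀ + m + 1) f hJ
    (fun v => ⟨_, by have := hD v; push_cast at this; exact this.symm⟩) d vf hvf hvf2 i v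
  have hm : ∀ i v, (2 : ℤ) ^ (m + 1) ∣ Place.ord v (d.p i) := fun i v => by
    have h := hdvd i v
    rw [add_assoc, pow_add] at h
    exact Int.dvd_of_mul_dvd_mul_left (pow_ne_zero _ two_ne_zero) h
  have hk := FLTA.PlaceRed.rrCurve_fullC M hqM A hA
  -- the reduced divisors
  have hlift : ∀ i, ∃ (Ei : Divisor (ResidueField A) (modularFunctionFieldFullC (ResidueField A) M))
      (x : JZero M), (∀ Q, (2 : ℤ) ^ (m + 1) * Ei Q = Q.ord (d.p i)) ∧ 2 ^ (m + 1) • x = 0 ∧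
      (∀ ℓ : Nat.Primes, (ℓ : ℕ) ∉ S → heckeOperatorBar M ℓ x = E.apOfModel ℓ • x) ∧
      ∀ j : ℕ, j • x = 0 → Divisor.IsPrincipal ((j : ℤ) • Ei) := by
    intro i
    set Ei := (hk.divisorOf (d.p i)).mapRange (fun z => z / (2 : ℤ) ^ (m + 1))
      (Int.zero_ediv _) with hEidef
    have hEi : ∀ Q, (2 : ℤ) ^ (m + 1) * Ei Q = Q.ord (d.p i) := fun Q => by
      rw [hEidef, Finsupp.mapRange_apply, PlaceRed.RRCurve.divisorOf_apply,
        Int.mul_ediv_cancel' (hm i Q)]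
    obtain ⟨x, hx, hxT, hxj⟩ := exists_eigen_lift M hqM hA (N := 2 ^ (m + 1))
      (fun h => hq2 ((Nat.prime_dvd_prime_iff_eq hq.out Nat.prime_two).mp
        (hq.out.dvd_of_dvd_pow h))) hSM (fun ℓ => E.apOfModel ℓ) (d.p_ne i)
      (E := Ei) (fun Q => by push_cast; exact hEi Q) (fun ℓ => by
        haveI : NeZero (ℓ.1 : ℕ) := ⟨ℓ.1.2.ne_zero⟩
        obtain ⟨c, h, -, -, heq⟩ := exists_heckeNormHom_eq ℓ.1 hf hD (heig ℓ.1 ℓ.2)
          (E.apOfModel (ℓ.1 : ℕ)) (by rw [sub_self]; exact dvd_zero _)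
        obtain ⟨u, r, hu⟩ := BadRed.BadFibre.red_hecke_eigen
          (RT.heckeData M q A hA hqM (ℓ.1 : ℕ) ℓ.1.2
            (fun h => ℓ.2 (h ▸ hS q hq.out (dvd_mul_left q M)))
            (fun h => ℓ.2 (hSM _ ℓ.1.2 h))) (pow_pos two_pos _) d heq i
        rw [add_assoc, pow_add, pow_mul] at hu
        exact ⟨u, r ^ (2 ^ c₀), hu⟩)
    exact ⟨Ei, x, hEi, hx, hxT, hxj⟩
  by_cases hex : ∃ i, ∀ (Ei : Divisor (ResidueField A)
      (modularFunctionFieldFullC (ResidueField A) M)), (∀ Q, (2 : ℤ) ^ (m + 1) * Ei Q =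
        Q.ord (d.p i)) → ¬ Divisor.IsPrincipal (((2 ^ m : ℕ) : ℤ) • Ei)
  · obtain ⟨i, hi⟩ := hex
    obtain ⟨Ei, x, hEi, hx, hxT, hxj⟩ := hlift i
    exact ⟨inferInstance, x, addOrderOf_eq_two_pow hx fun h => hi Ei hEi (hxj _ h), hxT⟩
  push Not at hex
  refine absurd ?_ hnt
  refine BadRed.BadFibre.isToric_of_scaledRed (Dv := 2 ^ (c₀ + m) • D)
    (map_nsmul (QuotientAddGroup.mk' _) _ D) (fun v => ?_) d two_pos fun i => ?_
  · rw [AddSubgroupClass.coe_nsmul, Finsupp.smul_apply, nsmul_eq_mul, ← hD v]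
    push_cast
    ring
  obtain ⟨Ei, hEi, η, hη, hηD⟩ := hex i
  obtain ⟨c, hc⟩ := eq_algebraMap_of_forall_ord hk (f := d.p i * (η ^ 2)⁻¹) (fun Q => by
    have e := hηD Q
    rw [Finsupp.smul_apply, smul_eq_mul] at e
    push_cast at e
    rw [Q.ord_mul (d.p_ne i) (inv_ne_zero (pow_ne_zero _ hη)), Q.ord_inv, Curves.ord_pow, ← hEi,
      ← e]
    push_cast
    ring)
  obtain ⟨s, hs⟩ := IsAlgClosed.exists_pow_nat_eq c two_pos
  refine ⟨algebraMap _ _ s * η, ?_⟩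
  rw [mul_pow, ← map_pow, hs, ← hc, inv_mul_cancel_right₀ (pow_ne_zero _ hη)]

end FLTA.LT2

end
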