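import Fermat.Agent.LT2.PatchedBottomSigns

/-!
# Part G of LT2: the bottom of the patching argument
-/

set_option autoImplicit false
set_option linter.unusedSectionVars false
set_option maxSynthPendingDepth 3

noncomputable section

open IsLocalRing CongruenceSubgroup
open scoped MatrixGroups

namespace FLTA.LT2

variable (O : RepTheory.FiniteDVRExt ℤ_[2]) (E : WeierstrassCurve ℤ) (Q : Finset ℕ)

/-- The rank of the bottom module. -/
def bottomRank [NeZero (E.conductorLevel * ∏ q ∈ Q, q)] : ℕ :=
  Module.finrank O.R (bottomF O.R E (E.conductorLevel * ∏ q ∈ Q, q))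

/-- **The bottom.** -/
def bottom (h2 : maximalIdeal O.R = Ideal.span {(2 : O.R)}) (hE : Companion E)
    (G : TraceGeometry E) (hQ : ∀ q ∈ Q, ConjPrime E 1 q)
    [NeZero (E.conductorLevel * ∏ q ∈ Q, q)] : PatchG.Bottom O E Q (bottomRank O E Q) :=
  letI L₀ := E.conductorLevel * ∏ q ∈ Q, q
  have := finite_curvePart O.R E L₀ L₀
  have := free_curvePart O.R E L₀ L₀
  { F := bottomF O.R E L₀
    basis := Module.finBasis O.R (bottomF O.R E L₀)
    π := bottomPi O.R E L₀
    π_surjective := bottomPi_surjective O.R E L₀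
    H := bottomH O.R E L₀
    instCommRing := bottomHCommRing O.R E L₀
    α := (bottomH O.R E L₀).val.toRingHom
    T := bottomGen O.R E L₀
    U := bottomGen O.R E L₀
    z := (letI := bottomHCommRing O.R E L₀; bottomZ O.R E L₀ Q ^ 2)
    π_parOp := fun l hl _ φ => bottomPi_parOp O.R E L₀ hl φ
    exists_signs := exists_signs_bottom O E Q h2 hE G hQ }

end FLTA.LT2
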