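import Fermat.Agent.LT2.PatchedLevel
import Fermat.Agent.RT.RaiseResidual
import Mathlib.RingTheory.Localization.FractionRing

/-!
# Part G of LT2: adding the auxiliary primes to the level

At primes `q` with `a_q(E)` odd the residual Frobenius has the two simple roots of `t² + t + 1`,
so the factor of `Hom(Γ₀(L₀ ∏ q), O)` at a chosen root at every `q` is the factor of
`Hom(Γ₀(L₀), O)`, compatibly with the Hecke operators at the other primes.
-/

set_option autoImplicit false
set_option linter.overlappingInstances false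

noncomputable section

open IsLocalRing CongruenceSubgroup
open scoped MatrixGroups

namespace FLTA.LT2

open FLTA.RT FLTA.Periods FLTA.Gamma0

/-- In characteristic zero parabolic homomorphisms kill the elements of small trace. -/
theorem isParHom0_of_parabolic_charZero {A : Type*} [CommRing A] [IsDomain A] [CharZero A] {N : ℕ}
    {φ : Additive (Gamma0 N) →+ A} (hφ : ModularCurve.Period.IsParabolicHom (Gamma0 N) φ) :
    IsParHom0 (Gamma0 N) φ := by
  have hι := IsFractionRing.injective A (FractionRing A)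
  have : CharZero (FractionRing A) := charZero_of_injective_algebraMap hι
  have h := RT.isParHom0_of_isParabolicHom (k := FractionRing A) (by norm_num)
    (φ := (algebraMap A (FractionRing A)).toAddMonoidHom.comp φ) fun γ hγ => by
      show algebraMap A (FractionRing A) (φ (Additive.ofMul γ)) = 0
      rw [hφ γ hγ, map_zero]
  intro γ hγ
  refine hι ?_
  rw [map_zero]
  exact h γ hγ

variable (O : Type) [CommRing O] [IsDomain O] [CharZero O] [IsLocalRing O] [IsNoetherianRing O]
  [IsAdicComplete (maximalIdeal O) O] {k : ℕ} (L₀ : ℕ) [NeZero L₀] (q : Fin k → ℕ)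
  (E : WeierstrassCurve ℤ)

omit [IsDomain O] [CharZero O] [IsNoetherianRing O] [IsAdicComplete (maximalIdeal O) O] in
theorem isUnit_of_sub_mem {x u : O} (hu : IsUnit u) (h : x - u ∈ maximalIdeal O) : IsUnit x := by
  rw [← IsLocalRing.notMem_maximalIdeal]
  intro hx
  refine (IsLocalRing.notMem_maximalIdeal.mpr hu) ?_
  rw [show u = x - (x - u) by ring]
  exact sub_mem hx h

omit [IsDomain O] [CharZero O] [IsLocalRing O] [IsNoetherianRing O]
  [IsAdicComplete (maximalIdeal O) O] [NeZero L₀] in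
theorem levVal_empty (ω : O) :
    levVal O k L₀ q E ∅ ω = fun l : GoodIdx L₀ => (E.apOfModel l : O) := by
  funext l
  rw [levVal, if_neg (by simp)]

omit [IsDomain O] [CharZero O] [IsLocalRing O] [IsNoetherianRing O]
  [IsAdicComplete (maximalIdeal O) O] [NeZero L₀] in
theorem update_levVal [DecidableEq (GoodIdx L₀)] {i : Fin k} {s : Finset (Fin k)} (ω : O) (sq : GoodIdx L₀)
    (hsq : (sq : ℕ) = q i) :
    Function.update (levVal O k L₀ q E s ω) sq ω = levVal O k L₀ q E (insert i s) ω := by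
  funext l
  by_cases hl : l = sq
  · subst hl
    rw [Function.update_self, levVal, if_pos ⟨i, Finset.mem_insert_self _ _, hsq.symm⟩]
  · rw [Function.update_of_ne hl, levVal, levVal]
    refine if_congr ?_ rfl rfl
    constructor
    · rintro ⟨j, hj, e⟩
      exact ⟨j, Finset.mem_insert_of_mem hj, e⟩
    · rintro ⟨j, hj, e⟩
      rcases Finset.mem_insert.mp hj with rfl | hj
      · exact absurd (Subtype.ext (e.symm.trans hsq.symm)) hl
      · exact ⟨j, hj, e⟩

variable (hinj : Function.Injective q) (hprime : ∀ i, (q i).Prime)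
  (hnd : ∀ i, ¬ q i ∣ 2 * L₀) (hodd : ∀ i, ¬ (2 : ℤ) ∣ E.apOfModel (q i))
  (h2 : (2 : O) ∈ maximalIdeal O) {ω : O} (hω : ω * ω + ω + 1 ∈ maximalIdeal O)

include hinj hprime hnd hodd h2 hω in
/-- **The factor does not change** when the auxiliary primes are added. -/
theorem exists_equiv_levels {L₁ : ℕ} [NeZero L₁] (hL₁ : L₁ ∣ L₀) (l₀ : GoodIdx L₀) (hl₀ : ((l₀ : ℕ) : ZMod (twLev k L₁ q)) = 1)
    (hl₀odd : ¬ (2 : ℤ) ∣ E.apOfModel l₀) [NeZero (twLev k L₁ q)] :
    ∃ Φ : LinearMap.range (localIdem (gamHecke O L₁ fun l : GoodIdx L₀ => (l : ℕ))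
          (fun l : GoodIdx L₀ => (E.apOfModel l : O))) ≃ₗ[O]
        LinearMap.range (localIdem (gamHecke O (twLev k L₁ q) fun l : GoodIdx L₀ => (l : ℕ))
          (levVal O k L₀ q E Finset.univ ω)),
      ∀ r : ℕ, r.Prime → (∀ i, q i ≠ r) → ∀ x y, y.1 = heckeHom O L₁ r x.1 →
        (Φ y).1 = heckeHom O (twLev k L₁ q) r (Φ x).1 := by
  classical
  have hωu : IsUnit ω := by
    rw [← IsLocalRing.notMem_maximalIdeal]
    intro h
    refine (maximalIdeal.isMaximal O).ne_top ((Ideal.eq_top_iff_one _).mpr ?_)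
    rw [show (1 : O) = (ω * ω + ω + 1) - ω * (ω + 1) by ring]
    exact sub_mem hω (Ideal.mul_mem_right _ _ h)
  have hint : ∀ z : ℤ, (2 : ℤ) ∣ z → (z : O) ∈ maximalIdeal O := by
    rintro _ ⟨c, rfl⟩
    push_cast
    exact Ideal.mul_mem_right _ _ h2
  suffices key : ∀ (s : Finset (Fin k)) (M : ℕ), M = L₁ * ∏ i ∈ s, q i → ∀ [NeZero M],
      ∃ Φ : LinearMap.range (localIdem (gamHecke O L₁ fun l : GoodIdx L₀ => (l : ℕ))
            (fun l : GoodIdx L₀ => (E.apOfModel l : O))) ≃ₗ[O]
          LinearMap.range (localIdem (gamHecke O M fun l : GoodIdx L₀ => (l : ℕ))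
            (levVal O k L₀ q E s ω)),
        ∀ r : ℕ, r.Prime → (∀ i ∈ s, q i ≠ r) → ∀ x y, y.1 = heckeHom O L₁ r x.1 →
          (Φ y).1 = heckeHom O M r (Φ x).1 by
    obtain ⟨Φ, hΦ⟩ := key Finset.univ (twLev k L₁ q) rfl
    exact ⟨Φ, fun r hr hrq => hΦ r hr fun i _ => hrq i⟩
  intro s
  induction s using Finset.induction_on with
  | empty =>
    intro M hM _
    rw [Finset.prod_empty, mul_one] at hM
    subst hM
    rw [levVal_empty]
    exact ⟨LinearEquiv.refl O _, fun r _ _ x y h => h⟩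
  | insert i s his ih =>
    intro M hM _
    have hq := hprime i
    rw [Finset.prod_insert his, mul_comm (q i), ← mul_assoc] at hM
    subst hM
    set N := L₁ * ∏ j ∈ s, q j with hN
    have hN0 : NeZero N := ⟨mul_ne_zero (NeZero.ne L₁)
      (Finset.prod_ne_zero_iff.mpr fun j _ => (hprime j).ne_zero)⟩
    have : NeZero (q i) := ⟨hq.ne_zero⟩
    obtain ⟨Φ, hΦ⟩ := ih N rfl
    let sq : GoodIdx L₀ := ⟨q i, hq, hnd i⟩
    have hqN : ¬ q i ∣ N := by
      intro h
      rcases hq.dvd_mul.mp h with h | h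
      · exact hnd i ((h.trans hL₁).mul_left 2)
      · obtain ⟨j, hj, hij⟩ := (hq.prime.dvd_finsetProd_iff _).mp h
        exact his (hinj ((Nat.prime_dvd_prime_iff_eq hq (hprime j)).mp hij) ▸ hj)
    have hlev : levVal O k L₀ q E s ω sq = (E.apOfModel (q i) : O) := by
      rw [levVal, if_neg]
      rintro ⟨j, hj, e⟩
      exact his (hinj e ▸ hj)
    obtain ⟨c, hc⟩ : ∃ c : ℤ, E.apOfModel (q i) = 2 * c + 1 :=
      ⟨(E.apOfModel (q i) - 1) / 2, by have := hodd i; omega⟩
    have hqodd : (2 : ℤ) ∣ (q i : ℤ) - 1 := by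
      have h : ¬ 2 ∣ q i := fun h => hnd i
        (((Nat.prime_dvd_prime_iff_eq Nat.prime_two hq).mp h) ▸ dvd_mul_right 2 L₀)
      omega
    have hdvd : (2 : ℤ) ∣ ((l₀ : ℕ) : ℤ) + 1 := by
      have h : ¬ 2 ∣ (l₀ : ℕ) := fun h => l₀.2.2
        (((Nat.prime_dvd_prime_iff_eq Nat.prime_two l₀.2.1).mp h) ▸ dvd_mul_right 2 L₀)
      omega
    have hdiv : N * q i ∣ twLev k L₁ q := by
      rw [hN, mul_assoc, mul_comm (∏ j ∈ s, q j), ← Finset.prod_insert his]
      exact Nat.mul_dvd_mul_left _ (Finset.prod_dvd_prod_of_subset _ _ _ (Finset.subset_univ _))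
    have hl₀' : ((l₀ : ℕ) : ZMod (N * q i)) = 1 := by
      have h := congrArg (ZMod.castHom hdiv (ZMod (N * q i))) hl₀
      rwa [map_natCast, map_one] at h
    have hne : levVal O k L₀ q E s ω l₀ = (E.apOfModel l₀ : O) := by
      rw [levVal, if_neg]
      rintro ⟨j, -, e⟩
      exact not_dvd_of_natCast_eq_one l₀.2.1 hl₀ (e ▸ dvd_twLev k L₁ q j)
    obtain ⟨Ψ, hΨ⟩ := exists_equiv_addPrime (O := O) (N := N) (q := q i)
      (fun l : GoodIdx L₀ => (l : ℕ)) (fun l => l.2.1) (levVal O k L₀ q E s ω) sq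
      (fun l => ⟨fun h => Subtype.ext h, fun h => congrArg Subtype.val h⟩) hqN ω l₀ hl₀'
      (by
        rw [hne]
        obtain ⟨e, he⟩ : ∃ e : ℤ, E.apOfModel l₀ - ((l₀ : ℕ) + 1) = 2 * e + 1 :=
          ⟨(E.apOfModel l₀ - ((l₀ : ℕ) + 1) - 1) / 2, by omega⟩
        refine isUnit_of_sub_mem O isUnit_one ?_
        have h := hint (E.apOfModel l₀ - ((l₀ : ℕ) + 1) - 1) ⟨e, by omega⟩
        push_cast at h
        exact h)
      (fun x hx => eq_zero_of_add_self O x hx)
      (isUnit_of_sub_mem O isUnit_one (by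
        have h := hint _ hqodd
        push_cast at h
        exact h))
      (fun M _ φ hφ => isParHom0_of_parabolic_charZero hφ)
      (by
        rw [hlev, hc]
        push_cast
        obtain ⟨d, hd⟩ := hqodd
        have hd' : ((q i : ℕ) : O) = 1 + 2 * (d : O) := by
          have := congrArg (Int.cast : ℤ → O) hd
          push_cast at this
          linear_combination this
        rw [show ω * ω - (2 * (c : O) + 1) * ω + ((q i : ℕ) : O) =
          (ω * ω + ω + 1) + 2 * ((d : O) - (c : O) * ω - ω) by rw [hd']; ring]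
        exact add_mem hω (Ideal.mul_mem_right _ _ h2))
      (isUnit_of_sub_mem O isUnit_one.neg (by
        rw [hlev, hc]
        push_cast
        rw [show ω + ω - (2 * (c : O) + 1) - -1 = 2 * (ω - (c : O)) by ring]
        exact Ideal.mul_mem_right _ _ h2))
      (isUnit_of_sub_mem O hωu.neg (by
        rw [show ω * ω - 1 - -ω = (ω * ω + ω + 1) - 2 * 1 by ring]
        exact sub_mem hω (Ideal.mul_mem_right _ _ h2)))
      (isUnit_of_sub_mem O isUnit_one.neg (by
        rw [hlev, hc]
        push_cast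
        have hd := Ideal.mul_mem_right ω _ (hint ((q i : ℤ) + 1) (by omega))
        push_cast at hd
        rw [show ((q i : O) + 1) * ω - (2 * (c : O) + 1) - -1 =
          ((q i : O) + 1) * ω - 2 * (c : O) by ring]
        exact sub_mem hd (Ideal.mul_mem_right _ _ h2)))
    let := Classical.decEq (GoodIdx L₀)
    rw [← update_levVal O L₀ q E ω sq rfl]
    refine ⟨Φ.trans Ψ, fun r hr hrs x y h => ?_⟩
    exact hΨ r hr (fun e => hrs i (Finset.mem_insert_self _ _) e.symm) _ _
      (hΦ r hr (fun j hj => hrs j (Finset.mem_insert_of_mem hj)) x y h)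

end FLTA.LT2
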