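import Fermat.Agent.LT2.PrimesDefs

/-!
# Part F: Taylor–Wiles primes at `2` and the scalar part of the tangent space

The scalar part consists of homomorphisms `χ : Γℚ → 𝔽₂` unramified at the good primes outside the
auxiliary set and proportional on the decomposition groups at the bad primes to a function `ψ`
(in the application the sign of the permutation of `E[2]`).
-/

set_option autoImplicit false

namespace FLTA.LT2

local notation "Γℚ" => AlgebraicClosure ℚ ≃ₐ[ℚ] AlgebraicClosure ℚ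

variable (E : WeierstrassCurve ℤ)

/-- The bad primes. -/
def badPrimes : Finset ℕ := E.Δ.natAbs.primeFactors

/-- A Taylor–Wiles prime at `2` of depth `m`: `q ≡ 1 mod 2ᵐ`, Frobenius of order `3` on `E[2]`. -/
structure TWPrime (m q : ℕ) : Prop where
  prime : q.Prime
  ne_two : q ≠ 2
  good : ¬ (q : ℤ) ∣ E.Δ
  four_dvd : 4 ∣ q - 1
  dvd_pred : 2 ^ m ∣ q - 1
  odd_trace : ¬ (2 : ℤ) ∣ E.apOfModel q

/-- A continuous homomorphism `Γℚ → 𝔽₂`. -/
structure IsCharTwo (χ : Γℚ → ZMod 2) : Prop where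
  map_mul : ∀ σ τ : Γℚ, χ (σ * τ) = χ σ + χ τ
  open_kernel : ∃ K : IntermediateField ℚ (AlgebraicClosure ℚ), FiniteDimensional ℚ K ∧
    ∀ σ ∈ K.fixingSubgroup, χ σ = 0

/-- `χ` is trivial on every inertia group at `ℓ`. -/
def CharUnramAt (ℓ : ℕ) (χ : Γℚ → ZMod 2) : Prop :=
  ∀ A : ValuationSubring (AlgebraicClosure ℚ), A.LiesOverPrime ℓ →
    ∀ σ ∈ A.inertiaSubgroupIn ℚ, χ σ = 0

/-- The conditions on the scalar part for the auxiliary set `Q`. -/
structure ScalarCond (Q : Finset ℕ) (ψ χ : Γℚ → ZMod 2) : Prop where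
  isChar : IsCharTwo χ
  unram : ∀ ℓ : ℕ, ℓ.Prime → ¬ (ℓ : ℤ) ∣ E.Δ → ℓ ∉ Q → CharUnramAt ℓ χ
  bad : ∀ l ∈ badPrimes E, ∀ A : ValuationSubring (AlgebraicClosure ℚ), A.LiesOverPrime l →
    ∃ x : ZMod 2, ∀ σ ∈ A.decompositionSubgroup ℚ, χ σ = x * ψ σ

/-- `Q` separates: a character unramified outside `Q` and trivial on a decomposition group at
every bad prime vanishes. -/
def Separating (Q : Finset ℕ) : Prop :=
  ∀ χ : Γℚ → ZMod 2, IsCharTwo χ → (∀ ℓ : ℕ, ℓ.Prime → ℓ ∉ Q → CharUnramAt ℓ χ) →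
    (∀ l ∈ badPrimes E, ∃ A : ValuationSubring (AlgebraicClosure ℚ), A.LiesOverPrime l ∧
      ∀ σ ∈ A.decompositionSubgroup ℚ, χ σ = 0) →
    ∀ σ : Γℚ, χ σ = 0

end FLTA.LT2
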