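import Fermat.Agent.LT2.Defs
import Fermat.Agent.LT2.PrimesScalarDefs
import Fermat.Agent.RepTheory.DVRExtension
import Fermat.Agent.LevelRaising.AssemblyAdjoint
import Fermat.Agent.EllTate.OrdSign
import Fermat.Prelude.Def_GaloisRep_LocalConditions

/-!
# Part G: the inputs of the patching argument at `p = 2`

For the level `N ∏ Q` of a companion curve and one Taylor–Wiles tuple `qt`:

* `GalSide` is what the deformation rings give, phrased through their points only;
* `Bottom` is the localised module at the level `N ∏ Q`, with the sign operators `U v` and the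
  operator `z` which kills what is old at `Q`;
* `Level` is the module over the diamond ring at the level `N ∏ Q ∏ qt`.

Points are representations over finite extensions of the coefficient ring, cut out by a predicate
`Pt s` for each sign vector `s`.
-/

set_option autoImplicit false

noncomputable section

open IsLocalRing CongruenceSubgroup

namespace FLTA.LT2.PatchG

open FLTA.Gamma0 (homPar0)

local notation "Γℚ" => AlgebraicClosure ℚ ≃ₐ[ℚ] AlgebraicClosure ℚ

variable (O : RepTheory.FiniteDVRExt ℤ_[2])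

/-- The power series in the diamond variables, also used as the Galois side ring. -/
abbrev PS (k : ℕ) : Type := MvPowerSeries (Fin k) O.R

/-- A predicate on representations over extensions of the coefficients, for each sign vector. -/
abbrev PointPred : Type 1 := (ℕ → ℤ) → ∀ A : RepTheory.FiniteDVRExt O.R, GaloisRepAdic A.R → Prop

variable (E : WeierstrassCurve ℤ) (Q : Finset ℕ)

/-- The primes carrying a sign. -/
def signPrimes : Finset ℕ := E.conductorLevel.primeFactors ∪ Q

/-- A sign vector. -/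
def IsSign (s : ℕ → ℤ) : Prop := ∀ v ∈ signPrimes E Q, s v = 1 ∨ s v = -1

/-- The signs of `E` at its bad primes: the sign of the node (`E.apOfModel l` is one more). -/
def HasCurveSigns (s : ℕ → ℤ) : Prop :=
  ∀ l ∈ E.conductorLevel.primeFactors, s l = EllTate.nodeSign E l

/-- An odd number of signs differ from those of `E`. -/
def OddFlips (s : ℕ → ℤ) : Prop :=
  Odd (E.conductorLevel.primeFactors.filter fun l => s l ≠ EllTate.nodeSign E l).card

/-- The excluded primes. -/
def badSet {k : ℕ} (qt : Fin k → ℕ) : Finset ℕ :=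
  (2 * (E.conductorLevel * ∏ q ∈ Q, q)).primeFactors ∪ Finset.univ.image qt

variable {O E}

/-- `γ` is the point of the representation `ρ` in the coordinates `tr ρ(σᵢ) - aᵢ`. -/
def IsPoint {k : ℕ} (E : WeierstrassCurve ℤ) (lv : Fin k → ℕ) (σ : Fin k → Γℚ)
    {A : RepTheory.FiniteDVRExt O.R} (ρ : GaloisRepAdic A.R) (γ : PS O k →ₐ[O.R] A.R) : Prop :=
  ∀ i, γ (MvPowerSeries.X i) = ρ.trace (σ i) - (E.apOfModel (lv i) : A.R)

variable (O E)

/-- What the deformation rings give for one Taylor–Wiles tuple `qt`: generators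
`tr ρ(σᵢ) - aᵢ`, `σᵢ` a Frobenius at `lv i`, the values of the point `E[2ⁿ]`, and parity. -/
structure GalSide (Pt : PointPred O) (n : ℕ) {k : ℕ} (qt : Fin k → ℕ) : Type where
  lv : Fin k → ℕ
  lv_prime : ∀ i, (lv i).Prime
  lv_notMem : ∀ i, lv i ∉ badSet E Q qt
  σ : Fin k → Γℚ
  σ_frob : ∀ i, ∃ P : ValuationSubring (AlgebraicClosure ℚ), P.LiesOverPrime (lv i) ∧
    P.IsFrobeniusAt (σ i) (lv i)
  /-- Frobenius traces as functions of the coordinates -/
  frob : ∀ s, IsSign E Q s → ∀ l : ℕ, l.Prime → l ∉ badSet E Q qt →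
    ∀ P : ValuationSubring (AlgebraicClosure ℚ), P.LiesOverPrime l →
      ∀ τ : Γℚ, P.IsFrobeniusAt τ l →
        ∃ f : PS O k, (2 : O.R) ∣ MvPowerSeries.constantCoeff f - (E.apOfModel l : O.R) ∧
          (HasCurveSigns E s →
            (2 : O.R) ^ n ∣ MvPowerSeries.constantCoeff f - (E.apOfModel l : O.R)) ∧
          ∀ (A : RepTheory.FiniteDVRExt O.R) (ρ : GaloisRepAdic A.R), Pt s A ρ →
            ∀ γ, IsPoint E lv σ ρ γ → γ f = ρ.trace τ
  /-- inertia traces at the Taylor–Wiles primes as functions of the coordinates -/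
  inert : ∀ s, IsSign E Q s → ∀ i, ∀ P : ValuationSubring (AlgebraicClosure ℚ),
    P.LiesOverPrime (qt i) → ∀ τ ∈ P.inertiaSubgroupIn ℚ,
        ∃ f : PS O k, (2 : O.R) ∣ MvPowerSeries.constantCoeff f - 2 ∧
          (HasCurveSigns E s → (2 : O.R) ^ n ∣ MvPowerSeries.constantCoeff f - 2) ∧
          ∀ (A : RepTheory.FiniteDVRExt O.R) (ρ : GaloisRepAdic A.R), Pt s A ρ →
            ∀ γ, IsPoint E lv σ ρ γ → γ f = ρ.trace τ
  /-- with an odd number of flips there is no point modulo `4` at `X = 0` -/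
  parity : ∀ s, IsSign E Q s → OddFlips E s →
    ∃ f : PS O k, ¬ (4 : O.R) ∣ MvPowerSeries.constantCoeff f ∧
      ∀ (A : RepTheory.FiniteDVRExt O.R) (ρ : GaloisRepAdic A.R), Pt s A ρ →
        ∀ γ, IsPoint E lv σ ρ γ → γ f = 0

/-- The localised module at the level `N ∏ Q`. -/
structure Bottom (d : ℕ) : Type 1 where
  F : Type
  [instAddCommGroup : AddCommGroup F]
  [instModule : Module O.R F]
  basis : Module.Basis (Fin d) O.R F
  π : homPar0 O.R (Gamma0 (E.conductorLevel * ∏ q ∈ Q, q)) O.R →ₗ[O.R] F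
  π_surjective : Function.Surjective π
  H : Type
  [instCommRing : CommRing H]
  α : H →+* Module.End O.R F
  T : ℕ → H
  U : ℕ → H
  z : H
  π_parOp : ∀ [NeZero (E.conductorLevel * ∏ q ∈ Q, q)] (l : ℕ), l.Prime →
    l ∉ (2 * (E.conductorLevel * ∏ q ∈ Q, q)).primeFactors → ∀ φ,
      π (LevelRaising.parOp O.R (E.conductorLevel * ∏ q ∈ Q, q) l φ) = α (T l) (π φ)
  /-- if no odd number of flips occurs among the systems new at `Q`, the signs of `E` occur -/
  exists_signs : (∀ s, IsSign E Q s → OddFlips E s →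
      α (z * ∏ v ∈ signPrimes E Q, (1 + (s v : H) * U v)) = 0) →
    ∃ s, IsSign E Q s ∧ HasCurveSigns E s ∧
      α (z * ∏ v ∈ signPrimes E Q, (1 + (s v : H) * U v)) ≠ 0

attribute [instance] Bottom.instAddCommGroup Bottom.instModule Bottom.instCommRing

/-- The relations `(1 + yᵢ) ^ (2 ^ m) = 1`. -/
def diamondRel (k m : ℕ) : Ideal (PS O k) :=
  Ideal.span (Set.range fun i : Fin k =>
    ((1 + MvPowerSeries.X i) ^ 2 ^ m - 1 : PS O k))

/-- The module at one Taylor–Wiles level, above `B`. -/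
structure Level (Pt : PointPred O) {d : ℕ} (B : Bottom O E Q d) (m : ℕ) {k : ℕ}
    (qt : Fin k → ℕ) : Type 1 where
  M : Type
  [instAddCommGroup : AddCommGroup M]
  [instModule : Module (PS O k ⧸ diamondRel O k m) M]
  basis : Module.Basis (Fin d) (PS O k ⧸ diamondRel O k m) M
  H : Type
  [instCommRing : CommRing H]
  [instAlgebra : Algebra O.R H]
  α : H →+* Module.End (PS O k ⧸ diamondRel O k m) M
  δ : PS O k →ₐ[O.R] H
  α_δ : ∀ a (x : M), α (δ a) x = Ideal.Quotient.mk (diamondRel O k m) a • x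
  T : ℕ → H
  U : ℕ → H
  z : H
  /-- the Galois side coordinates act through the Hecke operators -/
  exists_eval : ∀ lv : Fin k → ℕ, (∀ i, (lv i).Prime ∧ lv i ∉ badSet E Q qt) →
    ∃ act : PS O k →ₐ[O.R] H,
      ∀ i, act (MvPowerSeries.X i) = T (lv i) - (E.apOfModel (lv i) : H)
  /-- the points separate on the image of `z` -/
  separated : ∀ h : H,
    (∀ (A : RepTheory.FiniteDVRExt O.R) (ψ : H →ₐ[O.R] A.R), ψ z ≠ 0 → ψ h = 0) → α (h * z) = 0
  /-- at a point new at `Q` the sign operators are signs -/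
  sign_sq : ∀ (A : RepTheory.FiniteDVRExt O.R) (ψ : H →ₐ[O.R] A.R), ψ z ≠ 0 →
    ∀ v ∈ signPrimes E Q, ψ (U v) = 1 ∨ ψ (U v) = -1
  /-- a tame generator at each Taylor–Wiles prime, matching `1 + Xᵢ` -/
  tame : Fin k → Γℚ
  tame_mem : ∀ i, ∃ P : ValuationSubring (AlgebraicClosure ℚ), P.LiesOverPrime (qt i) ∧
    tame i ∈ P.inertiaSubgroupIn ℚ
  /-- the representation of a point new at `Q` -/
  exists_rep : ∀ (A : RepTheory.FiniteDVRExt O.R) (ψ : H →ₐ[O.R] A.R), ψ z ≠ 0 →
    ∀ s, IsSign E Q s → (∀ v ∈ signPrimes E Q, ψ (U v) = (s v : A.R)) →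
      ∃ ρ : GaloisRepAdic A.R, Pt s A ρ ∧
        (∀ l : ℕ, l.Prime → l ∉ badSet E Q qt →
          ∀ P : ValuationSubring (AlgebraicClosure ℚ), P.LiesOverPrime l →
            ∀ τ : Γℚ, P.IsFrobeniusAt τ l → ρ.trace τ = ψ (T l)) ∧
        ∀ i, (ρ.trace (tame i) - 2) * ψ (δ (1 + MvPowerSeries.X i)) =
          ψ (δ (MvPowerSeries.X i)) ^ 2
  red : M →+ B.F
  red_surjective : Function.Surjective red
  ker_red : ∀ x : M, red x = 0 → x ∈ (Ideal.span (Set.range (MvPowerSeries.X : Fin k → PS O k))).map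
    (Ideal.Quotient.mk (diamondRel O k m)) • (⊤ : Submodule (PS O k ⧸ diamondRel O k m) M)
  red_smul : ∀ a (x : M), red (Ideal.Quotient.mk (diamondRel O k m) a • x) =
    MvPowerSeries.constantCoeff a • red x
  red_T : ∀ l : ℕ, l.Prime → l ∉ badSet E Q qt → ∀ x, red (α (T l) x) = B.α (B.T l) (red x)
  red_U : ∀ v ∈ signPrimes E Q, ∀ x, red (α (U v) x) = B.α (B.U v) (red x)
  red_z : ∀ x, red (α z x) = B.α B.z (red x)

attribute [instance] Level.instAddCommGroup Level.instModule Level.instCommRing Level.instAlgebra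

end FLTA.LT2.PatchG
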