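import Fermat.Agent.LT2.TraceDefs
import Mathlib.Algebra.Module.ZMod
import Mathlib.LinearAlgebra.FreeModule.Finite.Basic

/-!
# The geometric inputs with arbitrary coefficients of exponent two and four
-/

set_option autoImplicit false

noncomputable section

namespace FLTA.LT2

open CongruenceSubgroup FLTA.Periods FLTA.Gamma0
open scoped MatrixGroups

theorem comp_heckeHom_pow {L : ℕ} [NeZero L] (l : ℕ) {A B : Type*} [AddCommGroup A]
    [AddCommGroup B] (f : A →+ B) (n : ℕ) (x : Additive (Gamma0 L) →+ A) :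
    f.comp ((heckeHom ℤ L l ^ n) x) = (heckeHom ℤ L l ^ n) (f.comp x) := by
  induction n with
  | zero => rfl
  | succ n ih =>
    rw [pow_succ', pow_succ', Module.End.mul_apply, Module.End.mul_apply, ← heckeHom_comp, ih]

variable {L d : ℕ} {A : Type*} [AddCommGroup A]

theorem isParHom0_sum {ι : Type*} (s : Finset ι) (f : ι → Additive (Gamma0 L) →+ A)
    (h : ∀ i, IsParHom0 (Gamma0 L) (f i)) : IsParHom0 (Gamma0 L) (∑ i ∈ s, f i) :=
  Submodule.sum_mem (homPar0 ℤ (Gamma0 L) A) fun i _ => h i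

/-- `NormsTwo` with coefficients in a finite group of exponent two. -/
theorem NormsTwo.coeff [NeZero L] {l : ℕ} (h : NormsTwo L d l) [Finite A]
    (h2 : ∀ a : A, 2 • a = 0) {x : Additive (Gamma0 L) →+ A} (hx : IsParHom0 (Gamma0 L) x)
    (hw : alOp ℤ A L d x = x) :
    ∃ u, IsParHom0 (Gamma0 L) u ∧ u + alOp ℤ A L d u = (heckeHom ℤ L l ^ 4) x := by
  letI := AddCommGroup.zmodModule (n := 2) h2
  haveI : Module.Finite (ZMod 2) A := Module.Finite.of_finite
  let b := Module.Free.chooseBasis (ZMod 2) A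
  let e : Module.Free.ChooseBasisIndex (ZMod 2) A → (ZMod 2 →+ A) := fun i =>
    (LinearMap.toSpanSingleton (ZMod 2) A (b i)).toAddMonoidHom
  choose u hu hu' using fun i => h ((b.coord i).toAddMonoidHom.comp x) (hx.comp _)
    (by rw [← comp_alOp, hw])
  refine ⟨∑ i, (e i).comp (u i), isParHom0_sum _ _ fun i => (hu i).comp _, ?_⟩
  have hdec : ∀ z : Additive (Gamma0 L) →+ A,
      z = ∑ i, (e i).comp ((b.coord i).toAddMonoidHom.comp z) := fun z =>
    AddMonoidHom.ext fun γ => by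
      rw [AddMonoidHom.finset_sum_apply]
      exact (b.sum_repr (z γ)).symm
  rw [map_sum, ← Finset.sum_add_distrib, hdec ((heckeHom ℤ L l ^ 4) x)]
  refine Finset.sum_congr rfl fun i _ => ?_
  rw [← comp_alOp, ← AddMonoidHom.comp_add, hu', comp_heckeHom_pow, comp_heckeHom_pow,
    comp_heckeHom_pow]

/-- A finite group killed by four in which the two-torsion is the double is free over `ZMod 4`. -/
theorem exists_coords_four [Finite A] (h4 : ∀ a : A, 4 • a = 0)
    (hsat : ∀ a : A, 2 • a = 0 → ∃ b, a = 2 • b) :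
    ∃ (r : ℕ) (π : Fin r → A →+ ZMod 4) (b : Fin r → A),
      ∀ a, a = ∑ i, (π i a).val • b i := by
  letI := AddCommGroup.zmodModule (n := 4) h4
  let D : AddSubgroup A := (nsmulAddMonoidHom 2 : A →+ A).range
  have h2Q : ∀ q : A ⧸ D, 2 • q = 0 := fun q => by
    obtain ⟨a, rfl⟩ := QuotientAddGroup.mk_surjective q
    rw [← QuotientAddGroup.mk_nsmul, QuotientAddGroup.eq_zero_iff]
    exact ⟨a, rfl⟩
  letI := AddCommGroup.zmodModule (n := 2) h2Q
  haveI : Module.Finite (ZMod 2) (A ⧸ D) := Module.Finite.of_finite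
  let bQ := Module.finBasis (ZMod 2) (A ⧸ D)
  choose b hb using fun i => QuotientAddGroup.mk_surjective (bQ i)
  set Φ : (Fin (Module.finrank (ZMod 2) (A ⧸ D)) → ZMod 4) →ₗ[ZMod 4] A :=
    Fintype.linearCombination (ZMod 4) b with hΦ
  have hmk : ∀ c, (QuotientAddGroup.mk (Φ c) : A ⧸ D) =
      ∑ i, (ZMod.castHom (show 2 ∣ 4 by norm_num) (ZMod 2) (c i)) • bQ i := fun c => by
    rw [hΦ, Fintype.linearCombination_apply,
      show (QuotientAddGroup.mk : A → A ⧸ D) = QuotientAddGroup.mk' D from rfl, map_sum]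
    refine Finset.sum_congr rfl fun i _ => ?_
    rw [← ZMod.natCast_zmod_val (c i), map_natCast, Nat.cast_smul_eq_nsmul, Nat.cast_smul_eq_nsmul,
      map_nsmul]
    exact congrArg _ (hb i)
  -- lifting the coordinates of a class
  have hlift : ∀ a : A, ∃ c a', a = Φ c + 2 • a' := by
    intro a
    choose c hc using fun i => ZMod.ringHom_surjective
      (ZMod.castHom (show 2 ∣ 4 by norm_num) (ZMod 2)) (bQ.repr (QuotientAddGroup.mk a) i)
    have : (QuotientAddGroup.mk (Φ c) : A ⧸ D) = QuotientAddGroup.mk a := by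
      rw [hmk]
      simp only [hc]
      exact bQ.sum_repr _
    obtain ⟨a', ha'⟩ := QuotientAddGroup.eq.mp this
    refine ⟨c, a', ?_⟩
    rw [show (2 : ℕ) • a' = -Φ c + a from ha']
    abel
  have hdouble : ∀ c, Φ c ∈ D → ∃ c', c = 2 • c' := by
    intro c hc
    have h0 := hmk c
    rw [(QuotientAddGroup.eq_zero_iff _).mpr hc] at h0
    have := fun i => Fintype.linearIndependent_iff.mp bQ.linearIndependent _ h0.symm i
    have hd : ∀ t : ZMod 4, ZMod.castHom (show 2 ∣ 4 by norm_num) (ZMod 2) t = 0 →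
        ∃ s, t = 2 • s := by decide
    choose c' hc' using fun i => hd (c i) (this i)
    exact ⟨c', funext fun i => hc' i⟩
  have hinj : Function.Injective Φ := by
    rw [injective_iff_map_eq_zero]
    intro c hc
    obtain ⟨c', rfl⟩ := hdouble c (hc ▸ zero_mem _)
    rw [map_nsmul] at hc
    obtain ⟨b', hb'⟩ := hsat _ hc
    obtain ⟨c'', rfl⟩ := hdouble c' ⟨b', hb'.symm⟩
    rw [smul_smul]
    funext i
    rw [Pi.smul_apply, nsmul_eq_mul, show ((2 * 2 : ℕ) : ZMod 4) = 0 from by decide, zero_mul,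
      Pi.zero_apply]
  have hsurj : Function.Surjective Φ := fun a => by
    obtain ⟨c, a', rfl⟩ := hlift a
    obtain ⟨c', a'', rfl⟩ := hlift a'
    refine ⟨c + 2 • c', ?_⟩
    rw [map_add, map_nsmul, nsmul_add, smul_smul, show (2 * 2 : ℕ) = 4 from rfl, h4, add_zero]
  let E := LinearEquiv.ofBijective Φ ⟨hinj, hsurj⟩
  refine ⟨_, fun i => (LinearMap.proj i ∘ₗ E.symm.toLinearMap).toAddMonoidHom, b, fun a => ?_⟩
  conv_lhs => rw [← E.apply_symm_apply a]
  show Φ (E.symm a) = _
  rw [hΦ, Fintype.linearCombination_apply]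
  refine Finset.sum_congr rfl fun i _ => ?_
  conv_lhs => rw [← ZMod.natCast_zmod_val (E.symm a i), Nat.cast_smul_eq_nsmul]
  rfl

/-- `NormsFour` with coefficients: `A` free of exponent four, `r : A → B` killing doubles. -/
theorem NormsFour.coeff (h : NormsFour L d) [Finite A] (h4 : ∀ a : A, 4 • a = 0)
    (hsat : ∀ a : A, 2 • a = 0 → ∃ b, a = 2 • b) {B : Type*} [AddCommGroup B] (r : A →+ B)
    (hr : ∀ a, r (2 • a) = 0) {y : Additive (Gamma0 L) →+ A} (hy : IsParHom0 (Gamma0 L) y)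
    (hw : alOp ℤ A L d y = y) :
    ∃ u, IsParHom0 (Gamma0 L) u ∧ u + alOp ℤ B L d u = r.comp y := by
  obtain ⟨k, π, b, hb⟩ := exists_coords_four h4 hsat
  let e : Fin k → (ZMod 2 →+ B) := fun i => ZMod.lift 2 ⟨zmultiplesHom B (r (b i)), by
    rw [zmultiplesHom_apply, natCast_zsmul, ← map_nsmul, hr]⟩
  have he : ∀ i (t : ZMod 4),
      e i (ZMod.castHom (show 2 ∣ 4 by norm_num) (ZMod 2) t) = t.val • r (b i) := fun i t => by
    conv_lhs => rw [← ZMod.natCast_zmod_val t, map_natCast, ← Int.cast_natCast]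
    rw [ZMod.lift_coe]
    exact natCast_zsmul _ _
  choose u hu hu' using fun i => h ((π i).comp y) (hy.comp _) (by rw [← comp_alOp, hw])
  refine ⟨∑ i, (e i).comp (u i), isParHom0_sum _ _ fun i => (hu i).comp _, ?_⟩
  rw [map_sum, ← Finset.sum_add_distrib]
  refine AddMonoidHom.ext fun γ => ?_
  rw [AddMonoidHom.finset_sum_apply]
  show _ = r (y γ)
  conv_rhs => rw [hb (y γ), map_sum]
  refine Finset.sum_congr rfl fun i _ => ?_
  rw [← comp_alOp, ← AddMonoidHom.comp_add, hu', map_nsmul]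
  exact he i (π i (y γ))

end FLTA.LT2
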