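import Mathlib.LinearAlgebra.Trace
import Mathlib.LinearAlgebra.FreeModule.PID
import Mathlib.LinearAlgebra.FreeModule.Finite.Basic
import Mathlib.LinearAlgebra.Matrix.ToLin
import Mathlib.LinearAlgebra.Dimension.StrongRankCondition
import Mathlib.RingTheory.LocalRing.ResidueField.Basic
import Mathlib.RingTheory.Nakayama

/-!
# Traces of involutions of lattices from their reduction modulo two

Let `w` be an involution of a free lattice `H` over a local principal ideal domain with maximal
ideal `(2)`.  If modulo two the reductions of the fixed vectors are norms, then the fixed vectors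
are norms and the trace of `w` is `p - q` (ranks of the two eigen lattices) with `p ≤ q`; the
trace vanishes exactly when every vector fixed modulo two is a norm modulo two.
-/

set_option autoImplicit false

noncomputable section

namespace FLTA.LT2

open IsLocalRing

variable {O : Type*} [CommRing O]

section matrix

variable [IsLocalRing O] {M N : Type*} [AddCommGroup M] [Module O M] [AddCommGroup N] [Module O N]
  [Module.Free O M] [Module.Finite O M] [Module.Free O N] [Module.Finite O N]

/-- A map of free modules which is injective on residues cannot decrease the rank, and keeping it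
is surjective on residues; if it is surjective on residues the ranks are equal. -/
theorem rank_le_of_injective_residue (c : O) (hc : maximalIdeal O = Ideal.span {c}) (f : M →ₗ[O] N)
    (hf : ∀ x, (∃ y, f x = c • y) → ∃ z, x = c • z) :
    Module.finrank O M ≤ Module.finrank O N ∧
      (Module.finrank O M = Module.finrank O N ↔ ∀ y, ∃ x z, y = f x + c • z) := by
  let bM := Module.finBasis O M
  let bN := Module.finBasis O N
  have hres : ∀ r : O, residue O r = 0 ↔ ∃ s, r = c * s := fun r => by
    rw [residue_eq_zero_iff, hc, Ideal.mem_span_singleton']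
    exact ⟨fun ⟨s, hs⟩ => ⟨s, by rw [← hs, mul_comm]⟩, fun ⟨s, hs⟩ => ⟨s, by rw [hs, mul_comm]⟩⟩
  set A := LinearMap.toMatrix bM bN f with hA
  let g := (A.map (residue O)).mulVecLin
  have hg : ∀ x, g (fun i => residue O (bM.repr x i)) = fun j => residue O (bN.repr (f x) j) := by
    intro x
    funext j
    rw [Matrix.mulVecLin_apply, ← LinearMap.toMatrix_mulVec_repr bM bN f x]
    exact (RingHom.map_mulVec (residue O) A (bM.repr x) j).symm
  have hlift : ∀ {ι : Type} (v : ι → ResidueField O), ∃ w : ι → O, ∀ i, residue O (w i) = v i :=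
    fun v => ⟨fun i => (IsLocalRing.residue_surjective (v i)).choose,
      fun i => (IsLocalRing.residue_surjective (v i)).choose_spec⟩
  have ginj : Function.Injective g := by
    rw [injective_iff_map_eq_zero]
    intro v hv
    obtain ⟨w, hw⟩ := hlift v
    set x := bM.equivFun.symm w with hx
    have hxv : (fun i => residue O (bM.repr x i)) = v := funext fun i => by
      rw [← hw i, hx, ← Module.Basis.equivFun_apply, LinearEquiv.apply_symm_apply]
    rw [← hxv, hg] at hv
    choose s hs using fun j => (hres _).mp (congrFun hv j)
    obtain ⟨z, hz⟩ := hf x ⟨bN.equivFun.symm s, bN.equivFun.injective (funext fun j => by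
      rw [map_smul, LinearEquiv.apply_symm_apply, Pi.smul_apply, smul_eq_mul,
        Module.Basis.equivFun_apply, hs j])⟩
    rw [← hxv]
    funext i
    rw [hz, map_smul, Finsupp.smul_apply, smul_eq_mul]
    exact (hres _).mpr ⟨_, rfl⟩
  have hle : Module.finrank O M ≤ Module.finrank O N := by
    simpa using LinearMap.finrank_le_finrank_of_injective ginj
  refine ⟨hle, fun heq y => ?_, fun hall => le_antisymm hle ?_⟩
  swap
  · have gsurj : Function.Surjective g := fun v => by
      obtain ⟨w, hw⟩ := hlift v
      obtain ⟨x, z, hxz⟩ := hall (bN.equivFun.symm w)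
      refine ⟨fun i => residue O (bM.repr x i), ?_⟩
      rw [hg]
      funext j
      have h := congrArg (fun y => residue O (bN.equivFun y j)) hxz
      simp only [LinearEquiv.apply_symm_apply, map_add, map_smul, Pi.add_apply, Pi.smul_apply,
        smul_eq_mul, hw j] at h
      rw [Module.Basis.equivFun_apply, (hres (c * bN.equivFun z j)).mpr ⟨_, rfl⟩, add_zero] at h
      exact h.symm
    have hr := LinearMap.finrank_range_le g
    rw [LinearMap.range_eq_top.mpr gsurj, finrank_top] at hr
    simpa using hr
  have gsurj : Function.Surjective g :=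
    (LinearMap.injective_iff_surjective_of_finrank_eq_finrank (f := g) (by simpa using heq)).mp ginj
  obtain ⟨v, hv⟩ := gsurj fun j => residue O (bN.repr y j)
  obtain ⟨w, hw⟩ := hlift v
  set x := bM.equivFun.symm w with hx
  have hxv : (fun i => residue O (bM.repr x i)) = v := funext fun i => by
    rw [← hw i, hx, ← Module.Basis.equivFun_apply, LinearEquiv.apply_symm_apply]
  rw [← hxv, hg] at hv
  have h0 : ∀ j, ∃ s, bN.repr y j - bN.repr (f x) j = c * s := fun j => (hres _).mp (by
    rw [map_sub, sub_eq_zero]; exact (congrFun hv j).symm)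
  choose s hs using h0
  refine ⟨x, bN.equivFun.symm s, bN.equivFun.injective (funext fun j => ?_)⟩
  rw [map_add, map_smul, LinearEquiv.apply_symm_apply, Pi.add_apply, Pi.smul_apply, smul_eq_mul,
    Module.Basis.equivFun_apply, Module.Basis.equivFun_apply, ← hs j]
  abel

end matrix

section split

variable {H : Type*} [AddCommGroup H] [Module O H] (w : Module.End O H)

/-- The fixed lattice. -/
abbrev plusPart : Submodule O H := LinearMap.ker (w - 1)

/-- The anti-fixed lattice. -/
abbrev minusPart : Submodule O H := LinearMap.ker (w + 1)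

theorem mem_plusPart {x : H} : x ∈ plusPart w ↔ w x = x := by
  rw [LinearMap.mem_ker, LinearMap.sub_apply, Module.End.one_apply, sub_eq_zero]

theorem mem_minusPart {x : H} : x ∈ minusPart w ↔ w x = -x := by
  rw [LinearMap.mem_ker, LinearMap.add_apply, Module.End.one_apply, add_eq_zero_iff_eq_neg]

variable (hw : w * w = 1)
include hw

theorem apply_invol (x : H) : w (w x) = x := LinearMap.congr_fun hw x

/-- `x ↦ x + w x` into the fixed lattice. -/
def normToPlus : H →ₗ[O] plusPart w :=
  (w + 1).codRestrict _ fun x => (mem_plusPart w).mpr (by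
    rw [LinearMap.add_apply, Module.End.one_apply, map_add, apply_invol w hw, add_comm])

theorem coe_normToPlus (x : H) : (normToPlus w hw x : H) = w x + x := rfl

variable [IsDomain O] [IsPrincipalIdealRing O] [IsLocalRing O] [Module.Free O H] [Module.Finite O H]
  (h2 : maximalIdeal O = Ideal.span {(2 : O)}) (h20 : (2 : O) ≠ 0)
  (hnorm : ∀ y, w y = y → ∃ u z, y = u + w u + (2 : O) • z)

include h2 h20 hnorm in
/-- Fixed vectors are norms. -/
theorem normToPlus_surjective : Function.Surjective (normToPlus w hw) := by
  rw [← LinearMap.range_eq_top, ← top_le_iff]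
  refine Submodule.le_of_le_smul_of_le_jacobson_bot (I := maximalIdeal O) Module.Finite.fg_top
    (maximalIdeal_le_jacobson _) fun y _ => ?_
  obtain ⟨u, z, huz⟩ := hnorm y.1 ((mem_plusPart w).mp y.2)
  have hz : z ∈ plusPart w := (mem_plusPart w).mpr <| smul_right_injective H h20 (by
    have h := congrArg w huz
    rw [(mem_plusPart w).mp y.2, map_add, map_add, apply_invol w hw, map_smul] at h
    exact add_left_cancel (a := u + w u) ((by rw [add_comm u (w u)]; exact h.symm :
      u + w u + (2 : O) • w z = y.1).trans huz))
  have hy : y = normToPlus w hw u + (2 : O) • (⟨z, hz⟩ : plusPart w) := Subtype.ext (by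
    rw [huz, Submodule.coe_add, coe_normToPlus, Submodule.coe_smul]; abel)
  rw [hy]
  exact Submodule.add_mem_sup (LinearMap.mem_range_self _ _)
    (Submodule.smul_mem_smul (h2 ▸ Ideal.mem_span_singleton_self _) Submodule.mem_top)

include h2 h20 hnorm in
/-- The trace of `w` is `p - q`; here `p ≤ q` and `p = q` exactly when every vector fixed modulo
two is a norm modulo two. -/
theorem trace_invol_ranks :
    LinearMap.trace O H w =
        (Module.finrank O (plusPart w) : O) - (Module.finrank O (minusPart w) : O) ∧
      Module.finrank O (plusPart w) ≤ Module.finrank O (minusPart w) ∧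
      (Module.finrank O (plusPart w) = Module.finrank O (minusPart w) ↔
        ∀ x, (∃ z, w x - x = (2 : O) • z) → ∃ u z, x = u + w u + (2 : O) • z) := by
  have hinj := smul_right_injective H h20
  obtain ⟨σ, hσ⟩ := Module.projective_lifting_property (normToPlus w hw) LinearMap.id
    (normToPlus_surjective w hw h2 h20 hnorm)
  have hσ' : ∀ p, w (σ p) + σ p = (p : H) := fun p =>
    congrArg Subtype.val (LinearMap.congr_fun hσ p)
  -- the congruence `f` between the two eigen lattices
  let f : plusPart w →ₗ[O] minusPart w :=
    ((plusPart w).subtype - (2 : O) • σ).codRestrict _ fun p => (mem_minusPart w).mpr (by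
      show w ((p : H) - (2 : O) • σ p) = -((p : H) - (2 : O) • σ p)
      rw [map_sub, map_smul, (mem_plusPart w).mp p.2, eq_sub_of_add_eq (hσ' p), two_smul,
        two_smul]
      abel)
  have hf : ∀ p, (f p : H) = p - (2 : O) • σ p := fun p => rfl
  have hsat : ∀ (p : plusPart w) (z : H), (p : H) = (2 : O) • z → z ∈ plusPart w := fun p z hz =>
    (mem_plusPart w).mpr (hinj (by
      show (2 : O) • w z = (2 : O) • z
      rw [← map_smul, ← hz, (mem_plusPart w).mp p.2]))
  obtain ⟨hle, hsur⟩ := rank_le_of_injective_residue (2 : O) h2 f fun p ⟨y, hy⟩ => by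
    have hp : (p : H) = (2 : O) • ((y : H) + σ p) := by
      have h := congrArg Subtype.val hy
      rw [hf, Submodule.coe_smul, sub_eq_iff_eq_add] at h
      rw [h, smul_add]
    exact ⟨⟨_, hsat p _ hp⟩, Subtype.ext hp⟩
  -- the splitting
  let e : minusPart w × plusPart w →ₗ[O] H := (minusPart w).subtype.coprod σ
  have he : ∀ a p, e (a, p) = (a : H) + σ p := fun a p => rfl
  have hne : ∀ a p, normToPlus w hw (e (a, p)) = p := fun a p => by
    refine Subtype.ext ?_
    rw [coe_normToPlus, he, map_add, (mem_minusPart w).mp a.2, ← hσ' p]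
    abel
  have ebij : Function.Bijective e := by
    refine ⟨?_, fun x => ?_⟩
    · rintro ⟨a, p⟩ ⟨b, q⟩ h
      have hpq : p = q := by rw [← hne a p, h, hne]
      subst hpq
      rw [he, he, add_left_inj] at h
      rw [Subtype.ext h]
    · refine ⟨(⟨x - σ (normToPlus w hw x), (mem_minusPart w).mpr ?_⟩, normToPlus w hw x), ?_⟩
      · have h := hσ' (normToPlus w hw x)
        rw [coe_normToPlus] at h
        rw [map_sub, eq_sub_of_add_eq h]
        abel
      · rw [he]; exact sub_add_cancel x _
  let E := LinearEquiv.ofBijective e ebij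
  have hconj : ∀ a p, w (e (a, p)) = e (-a + f p, p) := fun a p => by
    rw [he, he, map_add, (mem_minusPart w).mp a.2, eq_sub_of_add_eq (hσ' p), Submodule.coe_add,
      Submodule.coe_neg, hf, two_smul]
    abel
  refine ⟨?_, hle, fun heq x hx => ?_, fun hall => ?_⟩
  · let P : Module.End O (minusPart w × plusPart w) :=
      LinearMap.prodMap (-1) 1 + (LinearMap.inl O _ _).comp (f.comp (LinearMap.snd O _ _))
    have hP : E.conj P = w := by
      refine LinearMap.ext fun x => ?_
      obtain ⟨⟨a, p⟩, rfl⟩ := E.surjective x
      rw [LinearEquiv.conj_apply_apply, LinearEquiv.symm_apply_apply]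
      refine Eq.trans ?_ (hconj a p).symm
      show e _ = e _
      exact congrArg e (Prod.ext (by simp [P]) (by simp [P]))
    refine ((congrArg _ hP).symm.trans (LinearMap.trace_conj' P E)).trans ?_
    rw [show P = _ from rfl]
    rw [map_add, LinearMap.trace_prodMap', LinearMap.trace_comp_comm', map_neg,
      LinearMap.trace_one, LinearMap.trace_one, LinearMap.comp_assoc, LinearMap.snd_comp_inl,
      LinearMap.comp_zero, map_zero, add_zero, neg_add_eq_sub]
  · obtain ⟨z, hz⟩ := hx
    obtain ⟨⟨a, p⟩, rfl⟩ := ebij.2 x
    -- `p` is divisible by two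
    have hp : (p : H) = (2 : O) • (z + e (a, p)) := by
      have h := congrArg Subtype.val (hne a p)
      rw [coe_normToPlus] at h
      rw [← h, smul_add, ← hz, two_smul]
      abel
    obtain ⟨p', rfl⟩ : ∃ p' : plusPart w, p = (2 : O) • p' :=
      ⟨⟨_, hsat p _ hp⟩, Subtype.ext hp⟩
    obtain ⟨b, z', hb⟩ := hsur.mp heq a
    have ha : (a : H) = (f b : H) + (2 : O) • (z' : H) := by
      rw [hb, Submodule.coe_add, Submodule.coe_smul]
    refine ⟨σ b, (z' : H) - σ b + σ p', ?_⟩
    rw [he, ha, hf, map_smul, ← hσ' b, smul_add, smul_sub]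
    abel
  · refine hsur.mpr fun a => ?_
    obtain ⟨u, z, huz⟩ := hall (a : H) ⟨-(a : H), by
      rw [(mem_minusPart w).mp a.2, smul_neg, two_smul]; abel⟩
    set P : plusPart w := normToPlus w hw u with hP
    have haP : (a : H) = (f P : H) + (2 : O) • (z + σ P) := by
      rw [hf, huz, hP, coe_normToPlus, smul_add]
      abel
    have hmem : z + σ P ∈ minusPart w := (mem_minusPart w).mpr (hinj (by
      show (2 : O) • w (z + σ P) = (2 : O) • -(z + σ P)
      have h := congrArg w haP
      rw [(mem_minusPart w).mp a.2, map_add, map_smul, (mem_minusPart w).mp (f P).2, haP] at h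
      rw [smul_neg]
      rw [neg_add] at h
      exact (add_left_cancel h).symm))
    exact ⟨P, ⟨_, hmem⟩, Subtype.ext haP⟩

end split

end FLTA.LT2
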