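import Fermat.Agent.LT2.TraceHecke
import Fermat.Agent.LT2.TraceLattice
import Fermat.Agent.LT2.TraceCoeff
import Fermat.Agent.LevelRaising.AssemblyOps
import Fermat.Agent.RT.HeckeLocalDegeneracy
import Fermat.Agent.RT.HeckeLocalIdem
import Fermat.Agent.Gamma0.Complex.Main

/-!
# Part C: traces of Atkin–Lehner operators on the localised lattices

`locPart O L pr a` is the part of `homPar0 O (Γ₀(L)) O` cut out by the residual system `a`.
-/

set_option autoImplicit false

noncomputable section

universe u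

namespace FLTA.LT2

open CongruenceSubgroup FLTA.Periods FLTA.LevelRaising FLTA.Gamma0 FLTA.RT IsLocalRing

variable (O : Type u) [CommRing O] {σ : Type*}

/-- `W_d` on refined parabolic homomorphisms. -/
def parAL (L d : ℕ) : Module.End O (homPar0 O (Gamma0 L) O) :=
  (alOp O O L d).restrict fun _ h => isParHom0_alOp O O h

@[simp] theorem coe_parAL (L d : ℕ) (φ : homPar0 O (Gamma0 L) O) :
    (parAL O L d φ : Additive (Gamma0 L) →+ O) = alOp O O L d φ.1 :=
  rfl

/-- A family of Hecke operators on refined parabolic homomorphisms. -/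
abbrev parFam (L : ℕ) [NeZero L] (pr : σ → ℕ) : σ → Module.End O (homPar0 O (Gamma0 L) O) :=
  fun s => parOp O L (pr s)

/-- The lattice of a residual system. -/
abbrev locPart [IsLocalRing O] (L : ℕ) [NeZero L] (pr : σ → ℕ) (a : σ → O) :
    Submodule O (homPar0 O (Gamma0 L) O) :=
  LinearMap.range (localIdem (parFam O L pr) a)

variable {O}

/-- `a` is the residual system of `E` away from a finite set of primes. -/
structure ResidualSystem [IsLocalRing O] (E : WeierstrassCurve ℤ) (pr : σ → ℕ) (a : σ → O) :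
    Prop where
  prime : ∀ s, (pr s).Prime
  not_dvd : ∀ s, ¬ pr s ∣ 2 * E.conductorLevel
  residual : ∀ s, a s - (E.apOfModel (pr s) : O) ∈ maximalIdeal O
  cofinite : ∃ S : Finset ℕ, ∀ l : ℕ, l.Prime → l ∉ S → ∃ s, pr s = l

theorem commute_parAL {L d : ℕ} [NeZero L] {l : ℕ} (hl : l.Prime) (hlL : ¬ l ∣ L) :
    Commute (parAL O L d) (parOp O L l) :=
  LinearMap.ext fun φ => Subtype.ext
    (heckeHom_alOp hl hlL (homPar0_le_parabolicHoms O _ O φ.2)).symm

theorem parAL_parAL (L d : ℕ) : parAL O L d * parAL O L d = 1 :=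
  LinearMap.ext fun φ => Subtype.ext (alOp_alOp_self O L d φ.1)

variable [IsDomain O] [IsPrincipalIdealRing O] [IsLocalRing O]
  [IsAdicComplete (maximalIdeal O) O]

theorem commute_parOp {L : ℕ} [NeZero L] {l m : ℕ} (hl : l.Prime) (hm : m.Prime) :
    Commute (parOp O L l) (parOp O L m) :=
  LinearMap.ext fun φ => Subtype.ext (LinearMap.congr_fun (commute_heckeHom hl hm).eq φ.1)

theorem parAL_mem_locPart {L d : ℕ} [NeZero L] {pr : σ → ℕ} (hp : ∀ s, (pr s).Prime)
    (hL : ∀ s, ¬ pr s ∣ L) {a : σ → O} {φ : homPar0 O (Gamma0 L) O}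
    (hφ : φ ∈ locPart O L pr a) : parAL O L d φ ∈ locPart O L pr a := by
  have := FLTA.Gamma0.finite_homPar0 L O
  obtain ⟨y, rfl⟩ := hφ
  have hc : Commute (parAL O L d) (localIdem (parFam O L pr) a) :=
    commute_localIdem (fun s t => commute_parOp (hp s) (hp t)) a
      fun s => commute_parAL (hp s) (hL s)
  exact ⟨parAL O L d y, (LinearMap.congr_fun hc.eq y).symm⟩

/-- `W_d` on the lattice of a residual system. -/
def alLoc (L : ℕ) [NeZero L] (pr : σ → ℕ) (a : σ → O) (hp : ∀ s, (pr s).Prime)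
    (hL : ∀ s, ¬ pr s ∣ L) (d : ℕ) : Module.End O (locPart O L pr a) :=
  (parAL O L d).restrict fun _ h => parAL_mem_locPart hp hL h

section local_lattice

/-! ### Lattice lemmas -/

omit [IsDomain O] [IsPrincipalIdealRing O] [IsLocalRing O] [IsAdicComplete (maximalIdeal O) O] in
theorem coe_parOp_pow (L : ℕ) [NeZero L] (l n : ℕ) (φ : homPar0 O (Gamma0 L) O) :
    ((parOp O L l ^ n) φ : homPar0 O (Gamma0 L) O).1 = (heckeHom ℤ L l ^ n) φ.1 := by
  induction n with
  | zero => rfl
  | succ n ih =>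
    rw [pow_succ', pow_succ', Module.End.mul_apply, Module.End.mul_apply, coe_parOp,
      heckeHom_eq_int, ih]

/-- The residue map as a map of groups. -/
abbrev resHom (O : Type u) [CommRing O] [IsLocalRing O] : O →+ ResidueField O :=
  (residue O).toAddMonoidHom

section residue

variable (h2 : maximalIdeal O = Ideal.span {(2 : O)})
include h2

omit [IsDomain O] [IsPrincipalIdealRing O] [IsAdicComplete (maximalIdeal O) O] in
theorem residue_two : residue O (2 : O) = 0 :=
  (residue_eq_zero_iff _).mpr (h2 ▸ Ideal.mem_span_singleton_self _)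

omit [IsDomain O] [IsPrincipalIdealRing O] [IsAdicComplete (maximalIdeal O) O] in
theorem two_nsmul_residueField (x : ResidueField O) : 2 • x = 0 := by
  have h : ((2 : ℕ) : ResidueField O) = 0 := by
    rw [← map_natCast (residue O), Nat.cast_ofNat, residue_two h2]
  rw [nsmul_eq_mul, h, zero_mul]

omit [IsDomain O] [IsPrincipalIdealRing O] [IsAdicComplete (maximalIdeal O) O] in
theorem exists_eq_two_smul_of_residue {L : ℕ} [NeZero L] (φ : homPar0 O (Gamma0 L) O)
    (h : (resHom O).comp φ.1 = 0) : ∃ ψ, φ = (2 : O) • ψ := by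
  have hc : ∀ i, ∃ s, homPar0Equiv L O O φ i = 2 * s := fun i => by
    have hi : residue O (homPar0Equiv L O O φ i) = 0 := DFunLike.congr_fun h _
    rw [residue_eq_zero_iff, h2, Ideal.mem_span_singleton'] at hi
    obtain ⟨s, hs⟩ := hi
    exact ⟨s, by rw [← hs, mul_comm]⟩
  choose s hs using hc
  refine ⟨(homPar0Equiv L O O).symm s, (homPar0Equiv L O O).injective (funext fun i => ?_)⟩
  rw [hs i, map_smul, LinearEquiv.apply_symm_apply, Pi.smul_apply, smul_eq_mul]

omit [IsDomain O] [IsPrincipalIdealRing O] [IsAdicComplete (maximalIdeal O) O] in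
/-- A mod two relation lifts. -/
theorem exists_lift_norm {L d : ℕ} [NeZero L] (φ : homPar0 O (Gamma0 L) O)
    {u : Additive (Gamma0 L) →+ ResidueField O} (hu : IsParHom0 (Gamma0 L) u)
    (hφ : u + alOp ℤ (ResidueField O) L d u = (resHom O).comp φ.1) :
    ∃ U r, φ = U + parAL O L d U + (2 : O) • r := by
  obtain ⟨U₀, hU₀⟩ := homPar0Map_surjective L (resHom O) IsLocalRing.residue_surjective ⟨u, hu⟩
  have hU : (resHom O).comp U₀.1 = u := congrArg Subtype.val hU₀
  set U : homPar0 O (Gamma0 L) O := ⟨U₀.1, U₀.2⟩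
  obtain ⟨r, hr⟩ := exists_eq_two_smul_of_residue h2 (φ - (U + parAL O L d U)) (by
    show (resHom O).comp (φ.1 - (U₀.1 + alOp ℤ O L d U₀.1)) = 0
    rw [AddMonoidHom.comp_sub, AddMonoidHom.comp_add, comp_alOp, hU, hφ, sub_self])
  exact ⟨U, r, by rw [← hr]; abel⟩

omit [IsDomain O] [IsPrincipalIdealRing O] [IsAdicComplete (maximalIdeal O) O] in
theorem residue_comp_two_smul {L : ℕ} (z : homPar0 O (Gamma0 L) O) :
    (resHom O).comp ((2 : O) • z).1 = 0 :=
  AddMonoidHom.ext fun γ => by
    show residue O ((2 : O) * z.1 γ) = 0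
    rw [map_mul, residue_two h2, zero_mul]

omit [IsDomain O] [IsPrincipalIdealRing O] [IsAdicComplete (maximalIdeal O) O] in
/-- The residue ring modulo four is finite and free of exponent four. -/
theorem finite_mod_four [Finite (ResidueField O)] : Finite (O ⧸ Ideal.span {(4 : O)}) := by
  choose sec hsec using (IsLocalRing.residue_surjective : Function.Surjective (residue O))
  have hs : ∀ x : O, ∃ y, x = sec (residue O x) + 2 * y := fun x => by
    have h0 : x - sec (residue O x) ∈ maximalIdeal O := by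
      rw [← residue_eq_zero_iff, map_sub, hsec, sub_self]
    rw [h2, Ideal.mem_span_singleton'] at h0
    obtain ⟨y, hy⟩ := h0
    exact ⟨y, by linear_combination -hy⟩
  refine Finite.of_surjective (fun p : ResidueField O × ResidueField O =>
    Ideal.Quotient.mk (Ideal.span {(4 : O)}) (sec p.1 + 2 * sec p.2)) fun q => ?_
  obtain ⟨x, rfl⟩ := Ideal.Quotient.mk_surjective q
  obtain ⟨y, hy⟩ := hs x
  obtain ⟨z, hz⟩ := hs y
  refine ⟨(residue O x, residue O y), Ideal.Quotient.eq.mpr ?_⟩
  rw [Ideal.mem_span_singleton']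
  exact ⟨-z, by linear_combination hy + 2 * hz⟩

end residue

variable {L d : ℕ} [NeZero L] {pr : σ → ℕ} (hp : ∀ s, (pr s).Prime) (hL : ∀ s, ¬ pr s ∣ L)
  {a : σ → O}

include hp in
theorem localIdem_apply_mem {x : homPar0 O (Gamma0 L) O} (hx : x ∈ locPart O L pr a) :
    localIdem (parFam O L pr) a x = x := by
  have := finite_homPar0 L O
  obtain ⟨y, rfl⟩ := hx
  have hT : ∀ s t, Commute (parFam O L pr s) (parFam O L pr t) :=
    fun s t => commute_parOp (hp s) (hp t)
  exact LinearMap.congr_fun (isIdempotentElem_localIdem (T := parFam O L pr) hT a).eq y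

include hp hL in
/-- Norms modulo two in the big lattice are norms modulo two in the local one. -/
theorem exists_norm_locPart (x : locPart O L pr a)
    (hx : ∃ U r, (x : homPar0 O (Gamma0 L) O) = U + parAL O L d U + (2 : O) • r) :
    ∃ u z, x = u + alLoc L pr a hp hL d u + (2 : O) • z := by
  have := finite_homPar0 L O
  obtain ⟨U, r, hUr⟩ := hx
  set e := localIdem (parFam O L pr) a
  have hc : Commute (parAL O L d) e :=
    commute_localIdem (fun s t => commute_parOp (hp s) (hp t)) a
      fun s => commute_parAL (hp s) (hL s)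
  refine ⟨⟨e U, U, rfl⟩, ⟨e r, r, rfl⟩, Subtype.ext ?_⟩
  show (x : homPar0 O (Gamma0 L) O) = e U + parAL O L d (e U) + (2 : O) • e r
  rw [← map_smul, ← Module.End.mul_apply, hc.eq, Module.End.mul_apply, ← map_add, ← map_add,
    ← hUr, localIdem_apply_mem hp x.2]

include hp hL in
theorem alLoc_mul_alLoc : alLoc L pr a hp hL d * alLoc L pr a hp hL d = 1 :=
  LinearMap.ext fun x => Subtype.ext (LinearMap.congr_fun (parAL_parAL L d) x.1)

include hp hL in
/-- A Hecke operator with odd eigenvalue may be removed. -/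
theorem exists_norm_of_pow {s : σ} (hs : IsUnit (a s)) (x : locPart O L pr a)
    (hx : ∃ U r, (parOp O L (pr s) ^ 4) (x : homPar0 O (Gamma0 L) O) =
      U + parAL O L d U + (2 : O) • r) :
    ∃ u z, x = u + alLoc L pr a hp hL d u + (2 : O) • z := by
  have := finite_homPar0 L O
  have hT : ∀ s t, Commute (parFam O L pr s) (parFam O L pr t) :=
    fun s t => commute_parOp (hp s) (hp t)
  obtain ⟨U, r, hUr⟩ := hx
  set e := localIdem (parFam O L pr) a
  obtain ⟨z, hz, hze⟩ := exists_mul_sub_eq_localIdem (T := parFam O L pr) hT a s (c := 0) (by rwa [sub_zero])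
  rw [map_zero] at hze
  replace hze : e = z * parFam O L pr s :=
    hze.trans (congrArg (z * ·) (LinearMap.ext fun y => sub_zero _))
  have hzT : Commute z (parFam O L pr s) :=
    (Algebra.commute_of_mem_adjoin_of_forall_mem_commute hz fun b hb => by
      obtain ⟨t, rfl⟩ := hb
      exact hT s t).symm
  have hzW : Commute (parAL O L d) z :=
    Algebra.commute_of_mem_adjoin_of_forall_mem_commute hz fun b hb => by
      obtain ⟨t, rfl⟩ := hb
      exact commute_parAL (hp t) (hL t)
  refine exists_norm_locPart hp hL x ⟨(z ^ 4) U, (z ^ 4) r, ?_⟩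
  have he : (z ^ 4 * parFam O L pr s ^ 4) (x : homPar0 O (Gamma0 L) O) = x := by
    rw [← hzT.mul_pow, ← hze, (isIdempotentElem_localIdem hT a).pow_eq (by norm_num)]
    exact localIdem_apply_mem hp x.2
  rw [← he, Module.End.mul_apply, hUr, map_add, map_add, map_smul, ← Module.End.mul_apply,
    ← (hzW.pow_right 4).eq, Module.End.mul_apply]

variable (O L pr a) in
omit [IsAdicComplete (maximalIdeal O) O] in
theorem free_locPart : Module.Free O (locPart O L pr a) := by
  have := finite_homPar0 L O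
  have : Module.Free O (homPar0 O (Gamma0 L) O) :=
    Module.Free.of_equiv (homPar0Equiv L O O).symm
  have : Module.Finite O (locPart O L pr a) := Module.Finite.range _
  have : Module.IsTorsionFree O (locPart O L pr a) := inferInstance
  exact Module.free_of_finite_type_torsion_free' (R := O) (M := locPart O L pr a)

end local_lattice

variable [Finite (ResidueField O)] (h2 : maximalIdeal O = Ideal.span {(2 : O)}) (h20 : (2 : O) ≠ 0)
  {E : WeierstrassCurve ℤ} {pr : σ → ℕ} {a : σ → O}

include h2 h20 in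
/-- The trace of `W_d`, `1 < d ∣ N`, at level `N ∏ Q` vanishes unless `d = N` and `Q = ∅`. -/
theorem trace_alLoc_eq_zero (G : TraceGeometry E) (hR : ResidualSystem E pr a) (Q : Finset ℕ)
    (hQ : ∀ q ∈ Q, ConjPrime E 1 q) [NeZero (E.conductorLevel * ∏ q ∈ Q, q)]
    (hL : ∀ s, ¬ pr s ∣ E.conductorLevel * ∏ q ∈ Q, q) {d : ℕ} (hd : d ∣ E.conductorLevel)
    (hd1 : d ≠ 1) (hdQ : d ≠ E.conductorLevel ∨ Q.Nonempty) :
    LinearMap.trace O _ (alLoc (E.conductorLevel * ∏ q ∈ Q, q) pr a hR.prime hL d) = 0 := by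
  set N := E.conductorLevel
  set L := N * ∏ q ∈ Q, q
  obtain ⟨S, hS⟩ := hR.cofinite
  obtain ⟨l, hl, hlS, hodd, hnt⟩ := G.norms_two Q hQ d hd hd1 hdQ S
  obtain ⟨s, rfl⟩ := hS l hl hlS
  have hunit : IsUnit (a s) := by
    obtain ⟨m, hm⟩ := hodd
    refine (notMem_maximalIdeal.mp fun h => ?_)
    have h1 := sub_mem h (hR.residual s)
    rw [sub_sub_cancel, hm, h2, Ideal.mem_span_singleton'] at h1
    obtain ⟨c, hc⟩ := h1
    push_cast at hc
    exact (maximalIdeal.isMaximal O).ne_top ((Ideal.eq_top_iff_one _).mpr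
      (h2 ▸ Ideal.mem_span_singleton'.mpr ⟨c - m, by linear_combination hc⟩))
  have hfix : ∀ x : locPart O L pr a,
      (∃ z, alLoc L pr a hR.prime hL d x - x = (2 : O) • z) →
        ∃ u z, x = u + alLoc L pr a hR.prime hL d u + (2 : O) • z := by
    intro x ⟨z, hz⟩
    set φ : homPar0 O (Gamma0 L) O := x.1 with hφ
    have hφz : parAL O L d φ = φ + (2 : O) • (z : homPar0 O (Gamma0 L) O) := by
      rw [← sub_eq_iff_eq_add']
      exact congrArg Subtype.val hz
    have hfixed : alOp ℤ (ResidueField O) L d ((resHom O).comp φ.1) = (resHom O).comp φ.1 := by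
      rw [← comp_alOp]
      show (resHom O).comp (parAL O L d φ).1 = _
      rw [hφz, Submodule.coe_add, AddMonoidHom.comp_add, residue_comp_two_smul h2, add_zero]
    obtain ⟨u, hu, hu'⟩ := hnt.coeff (two_nsmul_residueField h2) (φ.2.comp (resHom O)) hfixed
    refine exists_norm_of_pow hR.prime hL hunit x (exists_lift_norm h2 _ hu ?_)
    rw [hu', ← comp_heckeHom_pow, coe_parOp_pow]
  have := finite_homPar0 L O
  have : Module.Free O (homPar0 O (Gamma0 L) O) :=
    Module.Free.of_equiv (homPar0Equiv L O O).symm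
  have : Module.Finite O (locPart O L pr a) := Module.Finite.range _
  have : Module.Free O (locPart O L pr a) := free_locPart O L pr a
  obtain ⟨htr, -, hiff⟩ := trace_invol_ranks (alLoc L pr a hR.prime hL d)
    (alLoc_mul_alLoc hR.prime hL) h2 h20
    fun y hy => hfix y ⟨0, by rw [smul_zero]; exact sub_eq_zero.mpr hy⟩
  rw [htr, hiff.mpr hfix, sub_self]

include h2 h20 in
/-- The trace of `W_N` at level `N` does not vanish. -/
theorem trace_alLoc_ne_zero [CharZero O] (G : TraceGeometry E) (hR : ResidualSystem E pr a)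
    [NeZero E.conductorLevel] (hL : ∀ s, ¬ pr s ∣ E.conductorLevel) :
    LinearMap.trace O _ (alLoc E.conductorLevel pr a hR.prime hL E.conductorLevel) ≠ 0 := by
  set N := E.conductorLevel
  have := finite_homPar0 N O
  have : Module.Free O (homPar0 O (Gamma0 N) O) :=
    Module.Free.of_equiv (homPar0Equiv N O O).symm
  have : Finite (O ⧸ Ideal.span {(4 : O)}) := finite_mod_four h2
  set W := parAL O N N
  let q4 : O →+ O ⧸ Ideal.span {(4 : O)} :=
    (Ideal.Quotient.mk (Ideal.span {(4 : O)})).toAddMonoidHom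
  let r : O ⧸ Ideal.span {(4 : O)} →+ ResidueField O :=
    (Ideal.Quotient.lift (Ideal.span {(4 : O)}) (residue O) fun x hx => by
      obtain ⟨c, rfl⟩ := Ideal.mem_span_singleton'.mp hx
      rw [show c * (4 : O) = c * 2 * 2 by ring, map_mul, residue_two h2, mul_zero]).toAddMonoidHom
  have hnorm : ∀ y : locPart O N pr a, alLoc N pr a hR.prime hL N y = y →
      ∃ u z, y = u + alLoc N pr a hR.prime hL N u + (2 : O) • z := by
    intro y hy
    have h4 : ∀ x : O ⧸ Ideal.span {(4 : O)}, 4 • x = 0 := fun x => by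
      obtain ⟨x, rfl⟩ := Ideal.Quotient.mk_surjective x
      rw [← map_nsmul, Ideal.Quotient.eq_zero_iff_mem, nsmul_eq_mul]
      exact Ideal.mem_span_singleton'.mpr ⟨x, by push_cast; ring⟩
    have hsat : ∀ x : O ⧸ Ideal.span {(4 : O)}, 2 • x = 0 → ∃ b, x = 2 • b := fun x hx => by
      obtain ⟨x, rfl⟩ := Ideal.Quotient.mk_surjective x
      rw [← map_nsmul, Ideal.Quotient.eq_zero_iff_mem, Ideal.mem_span_singleton', nsmul_eq_mul]
        at hx
      obtain ⟨c, hc⟩ := hx
      push_cast at hc
      refine ⟨Ideal.Quotient.mk _ c, ?_⟩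
      rw [← map_nsmul, nsmul_eq_mul]
      exact congrArg _ (mul_left_cancel₀ h20 (by push_cast; linear_combination -hc))
    obtain ⟨u, hu, hu'⟩ := G.norms_four.coeff h4 hsat r
      (fun x => by rw [map_nsmul]; exact two_nsmul_residueField h2 _)
      ((y : homPar0 O (Gamma0 N) O).2.comp q4)
      (by rw [← comp_alOp]; exact congrArg (fun v : locPart O N pr a => q4.comp v.1.1) hy)
    refine exists_norm_locPart hR.prime hL y (exists_lift_norm h2 _ hu ?_)
    rw [hu']
    exact AddMonoidHom.ext fun γ => rfl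
  have : Module.Finite O (locPart O N pr a) := Module.Finite.range _
  have : Module.Free O (locPart O N pr a) := free_locPart O N pr a
  have hww : alLoc N pr a hR.prime hL N * alLoc N pr a hR.prime hL N = 1 :=
    alLoc_mul_alLoc hR.prime hL
  obtain ⟨htr, -, hiff⟩ := trace_invol_ranks (O := O) (H := locPart O N pr a)
    (alLoc N pr a hR.prime hL N) hww h2 h20 hnorm
  rw [htr, sub_ne_zero, Ne, Nat.cast_inj, hiff]
  intro hall
  obtain ⟨x, hx, hxw, hxn, hxe⟩ := G.delta
  -- the coefficient map and a retraction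
  letI := AddCommGroup.zmodModule (n := 2) (two_nsmul_residueField h2)
  let ι : ZMod 2 →ₗ[ZMod 2] ResidueField O := LinearMap.toSpanSingleton _ _ 1
  obtain ⟨π, hπ⟩ := ι.exists_leftInverse_of_injective
    (LinearMap.ker_toSpanSingleton (ZMod 2) one_ne_zero)
  obtain ⟨X₀, hX₀⟩ := homPar0Map_surjective N (resHom O) IsLocalRing.residue_surjective
    ⟨ι.toAddMonoidHom.comp x, hx.comp _⟩
  have hX : (resHom O).comp X₀.1 = ι.toAddMonoidHom.comp x := congrArg Subtype.val hX₀
  set X : homPar0 O (Gamma0 N) O := ⟨X₀.1, X₀.2⟩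
  obtain ⟨z, hz⟩ := exists_eq_two_smul_of_residue h2 (W X - X) (by
    show (resHom O).comp (alOp ℤ O N N X₀.1 - X₀.1) = 0
    rw [AddMonoidHom.comp_sub, comp_alOp, hX, ← comp_alOp, hxw, sub_self])
  set B : Submodule O (homPar0 O (Gamma0 N) O) :=
    LinearMap.range (1 + W) ⊔ LinearMap.range ((2 : O) • (1 : Module.End O _)) with hB
  have hBmem : ∀ φ, φ ∈ B ↔ ∃ U t, φ = U + W U + (2 : O) • t := fun φ => by
    rw [hB, Submodule.mem_sup]
    constructor
    · rintro ⟨_, ⟨U, rfl⟩, _, ⟨t, rfl⟩, rfl⟩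
      exact ⟨U, t, rfl⟩
    · rintro ⟨U, t, rfl⟩
      exact ⟨_, ⟨U, rfl⟩, _, ⟨t, rfl⟩, rfl⟩
  have hT : ∀ s t, Commute (parFam O N pr s) (parFam O N pr t) :=
    fun s t => commute_parOp (hR.prime s) (hR.prime t)
  set e := localIdem (parFam O N pr) a with he
  have hTB : ∀ s, B ≤ B.comap (parFam O N pr s) := fun s φ hφ => by
    obtain ⟨U, t, rfl⟩ := (hBmem φ).mp hφ
    refine (hBmem _).mpr ⟨parFam O N pr s U, parFam O N pr s t, ?_⟩
    rw [map_add, map_add, map_smul]
    congr 2
    exact (LinearMap.congr_fun (commute_parAL (hR.prime s) (hL s)).eq U).symm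
  have heig : ∀ s, parFam O N pr s X - a s • X ∈ B := by
    intro s
    obtain ⟨u, hu, hu'⟩ := hxe (pr s) (hR.prime s) (hR.not_dvd s)
    obtain ⟨U, t, hUt⟩ := exists_lift_norm h2 (d := N)
      (parFam O N pr s X - (E.apOfModel (pr s) : O) • X) (hu.comp ι.toAddMonoidHom) (by
      show _ = (resHom O).comp (heckeHom O N (pr s) X₀.1 - (E.apOfModel (pr s) : O) • X₀.1)
      rw [Int.cast_smul_eq_zsmul, AddMonoidHom.comp_sub, heckeHom_eq_int, ← heckeHom_comp, hX,
        heckeHom_comp, ← comp_alOp, ← AddMonoidHom.comp_add, hu', AddMonoidHom.comp_sub]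
      congr 1
      refine AddMonoidHom.ext fun γ => ?_
      show ι (E.apOfModel (pr s) • x γ) = residue O (E.apOfModel (pr s) • X₀.1 γ)
      rw [map_zsmul, map_zsmul]
      exact congrArg _ (DFunLike.congr_fun hX γ).symm)
    have hmax : (E.apOfModel (pr s) : O) - a s ∈ maximalIdeal O := by
      rw [← neg_sub]; exact neg_mem (hR.residual s)
    rw [h2, Ideal.mem_span_singleton'] at hmax
    obtain ⟨c, hc⟩ := hmax
    refine (hBmem _).mpr ⟨U, t + c • X, ?_⟩
    rw [smul_add, smul_smul, mul_comm 2 c, hc, sub_smul, ← add_assoc, ← hUt]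
    abel
  -- `e X ≡ X` modulo `B`
  have heX : e X - X ∈ B := by
    let Tb : σ → Module.End O (_ ⧸ B) := fun s => B.mapQ B (parFam O N pr s) (hTB s)
    have hTb : ∀ s t, Commute (Tb s) (Tb t) := fun s t => LinearMap.ext fun q => by
      obtain ⟨q, rfl⟩ := B.mkQ_surjective q
      exact congrArg B.mkQ (LinearMap.congr_fun (hT s t).eq q)
    set v := B.mkQ X
    let Tv : σ → Module.End O (Submodule.span O {v}) := fun s => algebraMap O _ (a s)
    have hev : (Submodule.span O {v}).subtype
        (localIdem Tv a ⟨v, Submodule.mem_span_singleton_self v⟩) = localIdem Tb a v := by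
      refine localIdem_comm_map (fun s t => Algebra.commutes _ _) hTb a _ (fun s y => ?_) _
      obtain ⟨y, hy⟩ := y
      obtain ⟨c, rfl⟩ := Submodule.mem_span_singleton.mp hy
      show a s • c • v = Tb s (c • v)
      rw [map_smul, smul_comm]
      refine congrArg (c • ·) (((Submodule.Quotient.eq B).mpr ?_ : B.mkQ (a s • X) = _))
      rw [← neg_sub]; exact neg_mem (heig s)
    rw [localIdem_eq_one (fun s t => Algebra.commutes _ _) a (fun _ => rfl)
      (fun r hr => LinearMap.ext fun y => Subtype.ext ?_)] at hev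
    · rw [← Submodule.Quotient.eq]
      exact ((localIdem_comm_map hT hTb a B.mkQ (fun s y => rfl) X).trans hev.symm :)
    · obtain ⟨y, hy⟩ := y
      obtain ⟨c, rfl⟩ := Submodule.mem_span_singleton.mp hy
      show r • c • v = 0
      rw [h2, Ideal.mem_span_singleton'] at hr
      obtain ⟨r, rfl⟩ := hr
      rw [smul_smul]
      refine (Submodule.Quotient.mk_eq_zero B).mpr ((hBmem _).mpr ⟨0, (r * c) • X, ?_⟩)
      rw [map_zero, add_zero, zero_add, smul_smul]
      congr 1
      ring
  have hc : Commute W e :=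
    commute_localIdem hT a fun s => commute_parAL (hR.prime s) (hL s)
  obtain ⟨u, t, hut⟩ := hall ⟨e X, X, rfl⟩ ⟨⟨e z, z, rfl⟩, Subtype.ext (by
    show W (e X) - e X = (2 : O) • e z
    rw [← Module.End.mul_apply, hc.eq, Module.End.mul_apply, ← map_sub, hz, map_smul])⟩
  have hXB : X ∈ B := by
    have h1 : e X ∈ B := (hBmem _).mpr ⟨u.1, t.1, congrArg Subtype.val hut⟩
    simpa using sub_mem h1 heX
  obtain ⟨U, t, hUt⟩ := (hBmem X).mp hXB
  refine hxn (π.toAddMonoidHom.comp ((resHom O).comp U.1)) ((U.2.comp _).comp _) ?_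
  rw [← comp_alOp, ← comp_alOp, ← AddMonoidHom.comp_add, ← AddMonoidHom.comp_add]
  have hres : (resHom O).comp X.1 = (resHom O).comp (U.1 + alOp ℤ O N N U.1) := by
    rw [hUt, Submodule.coe_add, AddMonoidHom.comp_add, residue_comp_two_smul h2, add_zero]
    rfl
  rw [← hres]
  show π.toAddMonoidHom.comp ((resHom O).comp X₀.1) = x
  rw [hX]
  exact AddMonoidHom.ext fun γ => LinearMap.congr_fun hπ (x γ)

end FLTA.LT2
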