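import Fermat.Agent.LT2.PatchedKill
import Fermat.Agent.LT2.PatchedChain
import Fermat.Agent.LT2.TraceLocal
import Fermat.Agent.LT2.PatchedInterface
import Mathlib.LinearAlgebra.FreeModule.PID

/-!
# Part G of LT2: the bottom module

The factor of the residual system of `E` in `Hom(Γ₀(L₀), O)`, with the restrictions of all the
Hecke operators at primes and the operator which kills what is old at a set of primes.
-/

set_option autoImplicit false
set_option linter.unusedSectionVars false
set_option maxSynthPendingDepth 3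

noncomputable section

open IsLocalRing CongruenceSubgroup
open scoped MatrixGroups

namespace FLTA.LT2

open FLTA.RT FLTA.Periods FLTA.Gamma0 FLTA.LevelRaising

variable (O : Type) [CommRing O] [IsLocalRing O] (E : WeierstrassCurve ℤ)

/-- The residual values of `E` at the good primes of level `L₀`. -/
abbrev goodVal (L₀ : ℕ) : GoodIdx L₀ → O := fun l => (E.apOfModel l : O)

/-- The factor of `E` at level `L`, cut out by the good primes of level `L₀`. -/
abbrev curvePart (L₀ L : ℕ) [NeZero L] : Submodule O (homPar0 O (Gamma0 L) O) :=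
  locPart O L (fun l : GoodIdx L₀ => (l : ℕ)) (goodVal O E L₀)

/-- The bottom module. -/
abbrev bottomF (L₀ : ℕ) [NeZero L₀] : Submodule O (homPar0 O (Gamma0 L₀) O) := curvePart O E L₀ L₀

variable [IsDomain O] [CharZero O] [IsPrincipalIdealRing O] [IsAdicComplete (maximalIdeal O) O]

theorem parOp_mem_curvePart {L₀ L r : ℕ} [NeZero L] (hr : r.Prime)
    {φ : homPar0 O (Gamma0 L) O} (hφ : φ ∈ curvePart O E L₀ L) :
    parOp O L r φ ∈ curvePart O E L₀ L := by
  have := FLTA.Gamma0.finite_homPar0 L O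
  obtain ⟨y, rfl⟩ := hφ
  have hc : Commute (parOp O L r)
      (localIdem (parFam O L fun l : GoodIdx L₀ => (l : ℕ)) (goodVal O E L₀)) :=
    commute_localIdem (fun s t => LT2.commute_parOp s.2.1 t.2.1) _
      fun s => LT2.commute_parOp hr s.2.1
  exact ⟨parOp O L r y, (LinearMap.congr_fun hc.eq y).symm⟩

/-- The restriction of `parOp` at a prime; zero otherwise. -/
def curveOp (L₀ L : ℕ) [NeZero L] (r : ℕ) : Module.End O (curvePart O E L₀ L) :=
  if hr : r.Prime then (parOp O L r).restrict fun _ h => parOp_mem_curvePart O E hr h else 0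

theorem coe_curveOp {L₀ L r : ℕ} [NeZero L] (hr : r.Prime) (φ : curvePart O E L₀ L) :
    (curveOp O E L₀ L r φ : homPar0 O (Gamma0 L) O) = parOp O L r φ := by
  rw [curveOp, dif_pos hr]; rfl

theorem commute_curveOp (L₀ L : ℕ) [NeZero L] (r s : ℕ) :
    Commute (curveOp O E L₀ L r) (curveOp O E L₀ L s) := by
  by_cases hr : r.Prime
  swap
  · rw [curveOp, dif_neg hr]; exact Commute.zero_left _
  by_cases hs : s.Prime
  swap
  · rw [show curveOp O E L₀ L s = 0 from dif_neg hs]; exact Commute.zero_right _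
  refine LinearMap.ext fun x => Subtype.ext ?_
  simp only [Module.End.mul_apply, coe_curveOp O E hr, coe_curveOp O E hs]
  exact LinearMap.congr_fun (LT2.commute_parOp hr hs).eq _

theorem finite_curvePart (L₀ L : ℕ) [NeZero L] : Module.Finite O (curvePart O E L₀ L) :=
  have := FLTA.Gamma0.finite_homPar0 L O
  inferInstance

theorem free_curvePart (L₀ L : ℕ) [NeZero L] : Module.Free O (curvePart O E L₀ L) :=
  have := FLTA.Gamma0.finite_homPar0 L O
  have := FLTA.Gamma0.free_homPar0 L O
  Module.Free.of_basis (Submodule.basisOfPid (Module.Free.chooseBasis O _) _).2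

variable (L₀ : ℕ) [NeZero L₀]

/-- The Hecke operators on the bottom module. -/
abbrev bottomOp : ℕ → Module.End O (bottomF O E L₀) := curveOp O E L₀ L₀

/-- The Hecke algebra of the bottom module. -/
abbrev bottomH : Subalgebra O (Module.End O (bottomF O E L₀)) := opAlg O (bottomOp O E L₀)

/-- It is commutative. -/
abbrev bottomHCommRing : CommRing (bottomH O E L₀) :=
  opAlgCommRing (fun r s => commute_curveOp O E L₀ L₀ r s)

/-- The operators as elements of the algebra. -/
def bottomGen (r : ℕ) : bottomH O E L₀ := opGen O (bottomOp O E L₀) r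

@[simp] theorem coe_bottomGen (r : ℕ) :
    (bottomGen O E L₀ r : Module.End O (bottomF O E L₀)) = bottomOp O E L₀ r := rfl

/-- The polynomial killing what comes from level `L`. -/
def oldPolyAt (L : ℕ) [NeZero L] (q : ℕ) : Polynomial O :=
  have := finite_curvePart O E L₀ L
  have := free_curvePart O E L₀ L
  oldPoly (curveOp O E L₀ L q) (q : O) 1 1

/-- The polynomial killing what is old at `q`. -/
def bottomPoly (q : ℕ) : Polynomial O :=
  if h : L₀ / q ≠ 0 then (have : NeZero (L₀ / q) := ⟨h⟩; oldPolyAt O E L₀ (L₀ / q) q) else 1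

theorem bottomPoly_eq {L q : ℕ} [NeZero L] (hq : q ≠ 0) (hL : L₀ = L * q) :
    bottomPoly O E L₀ q = oldPolyAt O E L₀ L q := by
  have e : L₀ / q = L := by rw [hL, Nat.mul_div_cancel _ (Nat.pos_of_ne_zero hq)]
  obtain rfl : L = L₀ / q := e.symm
  rw [bottomPoly, dif_pos (NeZero.ne _)]

/-- The operator killing what is old at some prime of `Q`. -/
def bottomZ (Q : Finset ℕ) : bottomH O E L₀ :=
  letI := bottomHCommRing O E L₀
  ∏ q ∈ Q, Polynomial.aeval (bottomGen O E L₀ q) (bottomPoly O E L₀ q)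

/-- The projection of all refined parabolic homomorphisms onto the bottom module. -/
def bottomPi : homPar0 O (Gamma0 L₀) O →ₗ[O] bottomF O E L₀ :=
  LinearMap.rangeRestrict _

theorem bottomPi_surjective : Function.Surjective (bottomPi O E L₀) :=
  LinearMap.surjective_rangeRestrict _

theorem bottomPi_parOp {r : ℕ} (hr : r.Prime) (φ : homPar0 O (Gamma0 L₀) O) :
    bottomPi O E L₀ (parOp O L₀ r φ) = bottomOp O E L₀ r (bottomPi O E L₀ φ) := by
  have := FLTA.Gamma0.finite_homPar0 L₀ O
  refine Subtype.ext ?_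
  rw [coe_curveOp O E hr]
  exact (LinearMap.congr_fun (commute_localIdem (fun s t => LT2.commute_parOp s.2.1 t.2.1) _
    fun s : GoodIdx L₀ => LT2.commute_parOp (O := O) hr s.2.1).eq φ).symm

/-- The factor inside all homomorphisms is the factor inside the refined parabolic ones. -/
theorem exists_locEquiv (h2 : (2 : O) ∈ maximalIdeal O) (L : ℕ) [NeZero L] (hL : L ∣ L₀)
    (l₀ : GoodIdx L₀) (hl₀ : ((l₀ : ℕ) : ZMod L) = 1) (hodd : ¬ (2 : ℤ) ∣ E.apOfModel l₀) :
    ∃ ι : curvePart O E L₀ L ≃ₗ[O]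
        LinearMap.range (localIdem (gamHecke O L fun l : GoodIdx L₀ => (l : ℕ)) (goodVal O E L₀)),
      (∀ x, (ι x : Additive (Gamma0 L) →+ O) = ((x : homPar0 O (Gamma0 L) O) : _)) ∧
      ∀ r : ℕ, r.Prime → ∀ x,
        (ι (curveOp O E L₀ L r x) : Additive (Gamma0 L) →+ O) = heckeHom O L r (ι x).1 := by
  have := finite_addHom (L := L) (O := O) O
  have hint : ∀ z : ℤ, (2 : ℤ) ∣ z → (z : O) ∈ maximalIdeal O := by
    rintro _ ⟨c, rfl⟩
    push_cast
    exact Ideal.mul_mem_right _ _ h2
  have hlodd : (2 : ℤ) ∣ ((l₀ : ℕ) : ℤ) + 1 := by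
    rcases l₀.2.1.eq_two_or_odd' with e | ⟨c, hc⟩
    · exact absurd (Dvd.intro L₀ (by rw [e])) l₀.2.2
    · exact ⟨(c : ℤ) + 1, by rw [hc]; push_cast; ring⟩
  have hu : IsUnit (goodVal O E L₀ l₀ - (((l₀ : ℕ) : O) + 1)) := by
    refine isUnit_of_sub_mem O (u := 1) isUnit_one ?_
    convert hint (E.apOfModel l₀ - (((l₀ : ℕ) : ℤ) + 1) - 1) (by omega) using 1
    push_cast; rfl
  have hT : ∀ s t : GoodIdx L₀,
      Commute (heckeHom O L (s : ℕ) : Module.End O (Additive (Gamma0 L) →+ O)) (heckeHom O L t) :=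
    fun s t => RT.commute_heckeHom s.2.1 t.2.1
  obtain ⟨ι, hι⟩ := exists_equiv_restrict (T := gamHecke O L fun l : GoodIdx L₀ => (l : ℕ)) hT
    (goodVal O E L₀) (homPar0 O (Gamma0 L) O) (fun s _ hx => heckeHom_mem_homPar0 O (s : ℕ) hx)
    fun φ => localIdem_mem_homPar0 _ (fun s => s.2.1) _ l₀ hl₀
      (fun h => l₀.2.2 ((h.trans hL).trans (dvd_mul_left L₀ 2))) hu
      (fun x hx => by
        rw [← two_mul] at hx
        exact (mul_eq_zero.mp hx).resolve_left two_ne_zero)
      (fun φ hφ => isParHom0_of_parabolic_charZero hφ) φ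
  exact ⟨ι, hι, fun r hr x =>
    (hι (curveOp O E L₀ L r x)).trans ((congrArg Subtype.val (coe_curveOp O E hr x)).trans
      (congrArg (heckeHom O L r) (hι x)).symm)⟩

end FLTA.LT2
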