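import Fermat.Agent.LT2.TraceLocal
import Fermat.Agent.LevelRaising.AssemblyAdjoint
import Fermat.Agent.LT2.PatchedCup

/-!
# The calculus of Atkin–Lehner operators and degeneracy maps on characters

Two homomorphisms into `Γ₀(L)` given by conjugation with matrices differing by an element of
`Γ₀(L)` agree after composing with a character.  As Atkin–Lehner matrices are stable under
products and under the change of level, this gives the rules `W_d W_d' = W_{dd'}` and the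
commutation of `W_d` with the degeneracy maps and the Hecke operators.
-/

set_option autoImplicit false

noncomputable section

namespace FLTA.LT2

open CongruenceSubgroup FLTA.LevelRaising FLTA.Periods
open FLTA.Gamma0 (homPar0 IsParHom0 corHom corElt)
open scoped MatrixGroups

variable {A : Type*} [AddCommGroup A]

/-- `φ` is the conjugation by `g`. -/
def ConjBy {M M' : ℕ} (g : QMat) (φ : Gamma0 M →* Gamma0 M') : Prop :=
  ∀ γ : Gamma0 M, g * QMat.ofSL (γ : SL(2, ℤ)) = QMat.ofSL (φ γ : SL(2, ℤ)) * g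

theorem ConjBy.comp {M M' M'' : ℕ} {g g' : QMat} {φ : Gamma0 M →* Gamma0 M'}
    {ψ : Gamma0 M' →* Gamma0 M''} (hφ : ConjBy g φ) (hψ : ConjBy g' ψ) :
    ConjBy (g' * g) (ψ.comp φ) := fun γ => by
  rw [qmat_mul_assoc, hφ γ, ← qmat_mul_assoc, hψ (φ γ), qmat_mul_assoc, MonoidHom.comp_apply]

theorem qmat_mul_one (g : QMat) : g * 1 = g := by
  ext <;> simp [QMat.mul_def, QMat.one_def]

theorem qmat_one_mul (g : QMat) : (1 : QMat) * g = g := by
  ext <;> simp [QMat.mul_def, QMat.one_def]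

theorem conjBy_inclHom (N q : ℕ) : ConjBy 1 (inclHom N q) := fun γ => by
  rw [qmat_one_mul, qmat_mul_one, inclHom_coe]

theorem conjBy_conjHom (N q : ℕ) [NeZero q] : ConjBy (degMat q) (conjHom N q) :=
  degMat_mul_ofSL

theorem conjBy_levelHom {M M' : ℕ} (h : M = M') : ConjBy 1 (levelHom h) := fun γ => by
  rw [qmat_one_mul, qmat_mul_one, coe_levelHom]

/-- Conjugations by matrices which differ by an element of the group agree on characters. -/
theorem ConjBy.comp_eq {M M' : ℕ} {g g' : QMat} {φ ψ : Gamma0 M →* Gamma0 M'}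
    (hφ : ConjBy g φ) (hψ : ConjBy g' ψ) (hdet : g.det ≠ 0) {δ : Gamma0 M'}
    (he : g' = QMat.ofSL (δ : SL(2, ℤ)) * g) (x : Additive (Gamma0 M') →+ A) :
    x.comp (MonoidHom.toAdditive ψ) = x.comp (MonoidHom.toAdditive φ) := by
  refine AddMonoidHom.ext fun z => ?_
  obtain ⟨γ, rfl⟩ := Additive.ofMul.surjective z
  have key : ψ γ = δ * φ γ * δ⁻¹ := by
    apply Subtype.ext
    apply ofSL_injective
    refine qmat_mul_right_cancel (h := g')
      (by rw [he, QMat.det_mul, QMat.det_ofSL, one_mul]; exact hdet) ?_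
    rw [← hψ γ, he, qmat_mul_assoc, hφ γ]
    simp only [← qmat_mul_assoc, ← QMat.ofSL_mul, Subgroup.coe_mul, InvMemClass.coe_inv,
      inv_mul_cancel_right]
  show x (Additive.ofMul (ψ γ)) = x (Additive.ofMul (φ γ))
  rw [key, apply_conj_eq]

/-- An Atkin–Lehner matrix of `d` at level `L`. -/
def IsALQ (L d : ℕ) (g : QMat) : Prop :=
  ∃ a b c e : ℤ, g = ⟨d * a, b, L * c, d * e⟩ ∧ g.det = d

theorem IsALQ.det_ne {L d : ℕ} {g : QMat} (hg : IsALQ L d g) (hd : d ≠ 0) : g.det ≠ 0 := by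
  obtain ⟨a, b, c, e, -, hdet⟩ := hg
  rw [hdet]
  exact_mod_cast hd

theorem isALQ_alMat {N q : ℕ} (h : Nat.Coprime q N) : IsALQ (N * q) q (alMat h) := by
  refine ⟨(exists_alData h).choose.1, (exists_alData h).choose.2, 1, 1, ?_, ?_⟩
  · simp [alMat, alGamma, QMat.ofSL, QMat.diag, QMat.mul_def, mul_comm]
  · simp only [alMat, QMat.det_mul, QMat.det_ofSL, one_mul]
    simp [QMat.det, QMat.diag]

theorem IsALQ.eq_ofSL_mul {L d : ℕ} {g g' : QMat} (hg : IsALQ L d g) (hg' : IsALQ L d g')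
    (hd : d ≠ 0) (hdL : d ∣ L) : ∃ δ : Gamma0 L, g' = QMat.ofSL (δ : SL(2, ℤ)) * g := by
  obtain ⟨a, b, c, e, rfl, hdet⟩ := hg
  obtain ⟨a', b', c', e', rfl, hdet'⟩ := hg'
  obtain ⟨k, rfl⟩ := hdL
  simp only [QMat.det, Nat.cast_mul] at hdet hdet'
  have hd' : (d : ℚ) ≠ 0 := by exact_mod_cast hd
  have h1 : (d : ℚ) * a * e - k * b * c = 1 :=
    mul_left_cancel₀ hd' (by linear_combination hdet)
  have h2 : (d : ℚ) * a' * e' - k * b' * c' = 1 :=
    mul_left_cancel₀ hd' (by linear_combination hdet')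
  have h1' : (d : ℤ) * a * e - k * b * c = 1 := by exact_mod_cast h1
  have h2' : (d : ℤ) * a' * e' - k * b' * c' = 1 := by exact_mod_cast h2
  refine ⟨⟨⟨!![(d : ℤ) * a' * e - k * b' * c, b' * a - a' * b;
      (d : ℤ) * k * (c' * e - e' * c), (d : ℤ) * e' * a - k * c' * b], ?_⟩,
    mem_Gamma0_of_dvd (by simp)⟩, ?_⟩
  · rw [Matrix.det_fin_two_of]
    linear_combination ((d : ℤ) * a' * e' - k * b' * c') * h1' + h2'
  · simp only [QMat.ofSL, QMat.mul_def, QMat.mk.injEq, 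
      Matrix.of_apply, Matrix.cons_val', Matrix.cons_val_zero, Matrix.cons_val_one,
      Matrix.empty_val', Matrix.cons_val_fin_one, Int.cast_mul, Int.cast_sub, Int.cast_natCast,
      Nat.cast_mul]
    refine ⟨?_, ?_, ?_, ?_⟩
    · linear_combination -((d : ℚ) * a') * h1
    · linear_combination -(b' : ℚ) * h1
    · linear_combination -((d : ℚ) * k * c') * h1
    · linear_combination -((d : ℚ) * e') * h1

theorem IsALQ.mul {L d d' : ℕ} {g g' : QMat} (hg : IsALQ L d g) (hg' : IsALQ L d' g')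
    (hL : d * d' ∣ L) : IsALQ L (d * d') (g' * g) := by
  obtain ⟨a, b, c, e, rfl, hdet⟩ := hg
  obtain ⟨a', b', c', e', rfl, hdet'⟩ := hg'
  obtain ⟨k, rfl⟩ := hL
  refine ⟨a' * a + k * b' * c, d' * a' * b + d * b' * e, d * c' * a + d' * e' * c,
    k * c' * b + e' * e, ?_, ?_⟩
  · simp only [QMat.mul_def, QMat.mk.injEq]
    push_cast
    refine ⟨?_, ?_, ?_, ?_⟩ <;> ring
  · rw [QMat.det_mul, hdet, hdet', mul_comm, Nat.cast_mul]

theorem IsALQ.of_dvd {M L d : ℕ} {g : QMat} (hg : IsALQ L d g) (hM : M ∣ L) : IsALQ M d g := by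
  obtain ⟨a, b, c, e, rfl, hdet⟩ := hg
  obtain ⟨k, rfl⟩ := hM
  exact ⟨a, b, k * c, e, by push_cast; simp [mul_assoc], hdet⟩

theorem isALQ_one (L : ℕ) : IsALQ L 1 1 :=
  ⟨1, 0, 0, 1, by simp [QMat.one_def], by simp [QMat.one_def, QMat.det]⟩

/-- The automorphism `alAuto L d` is the conjugation by an Atkin–Lehner matrix. -/
theorem exists_isALQ_conjBy {L d : ℕ} (hL : Squarefree L) (hd : d ∣ L) :
    ∃ g : QMat, IsALQ L d g ∧ ConjBy g (alAuto L d) := by
  obtain ⟨M, rfl⟩ := hd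
  have hd0 : d ≠ 0 := fun h => hL.ne_zero (by simp [h])
  have : NeZero d := ⟨hd0⟩
  have hco : Nat.Coprime d M := Nat.coprime_of_squarefree_mul hL
  rw [mul_comm d M, alAuto_mul M d hco]
  exact ⟨alMat hco, isALQ_alMat hco, alMat_mul hco⟩

theorem alOp_eq_comp (𝕜 : Type*) [Semiring 𝕜] [Module 𝕜 A] (L d : ℕ)
    (x : Additive (Gamma0 L) →+ A) :
    alOp 𝕜 A L d x = x.comp (MonoidHom.toAdditive (alAuto L d)) :=
  rfl

variable (𝕜 : Type*) [Semiring 𝕜] [Module 𝕜 A]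

/-- `alOp` is computed by any Atkin–Lehner matrix. -/
theorem alOp_eq_of_conjBy {L d : ℕ} (hL : Squarefree L) (hd : d ∣ L) {g : QMat}
    (hg : IsALQ L d g) {φ : Gamma0 L →* Gamma0 L} (hφ : ConjBy g φ)
    (x : Additive (Gamma0 L) →+ A) :
    alOp 𝕜 A L d x = x.comp (MonoidHom.toAdditive φ) := by
  obtain ⟨g₀, hg₀, hc₀⟩ := exists_isALQ_conjBy hL hd
  have hd0 : d ≠ 0 := fun h => hL.ne_zero (by rw [h] at hd; exact Nat.eq_zero_of_zero_dvd hd)
  obtain ⟨δ, hδ⟩ := hg.eq_ofSL_mul hg₀ hd0 hd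
  exact hφ.comp_eq hc₀ (hg.det_ne hd0) hδ x

theorem alOp_one {L : ℕ} (hL : Squarefree L) (x : Additive (Gamma0 L) →+ A) :
    alOp 𝕜 A L 1 x = x := by
  rw [alOp_eq_of_conjBy 𝕜 hL (one_dvd L) (isALQ_one L) (φ := MonoidHom.id _)
    (fun γ => by rw [qmat_one_mul, qmat_mul_one, MonoidHom.id_apply]) x]
  rfl

/-- `W_d W_d' = W_{dd'}`. -/
theorem alOp_mul_of_squarefree {L d d' : ℕ} (hL : Squarefree L) (hdd : d * d' ∣ L)
    (x : Additive (Gamma0 L) →+ A) :
    alOp 𝕜 A L d (alOp 𝕜 A L d' x) = alOp 𝕜 A L (d * d') x := by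
  obtain ⟨g, hg, hc⟩ := exists_isALQ_conjBy hL (dvd_of_mul_right_dvd hdd)
  obtain ⟨g', hg', hc'⟩ := exists_isALQ_conjBy hL (dvd_of_mul_left_dvd hdd)
  rw [alOp_eq_of_conjBy 𝕜 hL hdd (hg.mul hg' hdd) (hc.comp hc') x]
  rfl

theorem alOp_comm {L d d' : ℕ} (hL : Squarefree L) (hdd : d * d' ∣ L)
    (x : Additive (Gamma0 L) →+ A) :
    alOp 𝕜 A L d (alOp 𝕜 A L d' x) = alOp 𝕜 A L d' (alOp 𝕜 A L d x) := by
  rw [alOp_mul_of_squarefree 𝕜 hL hdd, alOp_mul_of_squarefree 𝕜 hL (by rwa [mul_comm]), mul_comm]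

section Degeneracy

variable {N q : ℕ}

theorem inclRes_alOp {d : ℕ} (hL : Squarefree (N * q)) (hd : d ∣ N)
    (x : Additive (Gamma0 N) →+ A) :
    inclRes N q (alOp 𝕜 A N d x) = alOp 𝕜 A (N * q) d (inclRes N q x) := by
  have hN : Squarefree N := hL.squarefree_of_dvd (dvd_mul_right N q)
  have hd0 : d ≠ 0 := fun h => hN.ne_zero (by rw [h] at hd; exact Nat.eq_zero_of_zero_dvd hd)
  obtain ⟨g, hg, hc⟩ := exists_isALQ_conjBy hN hd
  obtain ⟨g', hg', hc'⟩ := exists_isALQ_conjBy hL (hd.mul_right q)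
  obtain ⟨δ, hδ⟩ := (hg'.of_dvd (dvd_mul_right N q)).eq_ofSL_mul hg hd0 hd
  have h := ConjBy.comp_eq (hc'.comp (conjBy_inclHom N q)) ((conjBy_inclHom N q).comp hc)
    (by rw [qmat_one_mul]; exact hg'.det_ne hd0) (δ := δ) (by rw [qmat_one_mul, qmat_mul_one, hδ]) x
  exact h

theorem conjRes_alOp [NeZero q] {d : ℕ} (hL : Squarefree (N * q)) (hd : d ∣ N)
    (x : Additive (Gamma0 N) →+ A) :
    conjRes N q (alOp 𝕜 A N d x) = alOp 𝕜 A (N * q) d (conjRes N q x) := by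
  have hN : Squarefree N := hL.squarefree_of_dvd (dvd_mul_right N q)
  have hd0 : d ≠ 0 := fun h => hN.ne_zero (by rw [h] at hd; exact Nat.eq_zero_of_zero_dvd hd)
  obtain ⟨g, hg, hc⟩ := exists_isALQ_conjBy hN hd
  obtain ⟨g', hg', hc'⟩ := exists_isALQ_conjBy hL (hd.mul_right q)
  obtain ⟨a, b, c, e, he, hdet⟩ := hg'
  have hq : (q : ℚ) ≠ 0 := by exact_mod_cast NeZero.ne q
  have hdiag : degMat q * g' = (⟨d * a, q * b, N * c, d * e⟩ : QMat) * degMat q := by
    rw [he]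
    simp only [QMat.diag, QMat.mul_def, QMat.mk.injEq, Nat.cast_mul]
    refine ⟨?_, ?_, ?_, ?_⟩ <;> ring
  have hal : IsALQ N d (⟨d * a, q * b, N * c, d * e⟩ : QMat) := by
    refine ⟨a, q * b, c, e, by push_cast; rfl, ?_⟩
    have hdet' := hdet
    rw [he] at hdet'
    simp only [QMat.det, Nat.cast_mul] at hdet' ⊢
    linear_combination hdet'
  obtain ⟨δ, hδ⟩ := hal.eq_ofSL_mul hg hd0 hd
  have hne : (degMat q * g').det ≠ 0 := by
    rw [QMat.det_mul]
    exact mul_ne_zero det_degMat_ne (by rw [hdet]; exact_mod_cast hd0)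
  exact ConjBy.comp_eq (hc'.comp (conjBy_conjHom N q)) ((conjBy_conjHom N q).comp hc) hne (δ := δ)
    (by rw [hdiag, hδ, qmat_mul_assoc]) x

end Degeneracy

/-! ### Operators on refined parabolic homomorphisms -/

section Par

open FLTA.Gamma0 (resHom0 corHom_isParHom0 cupPairing_res_left)

variable (R : Type*) [CommRing R]

/-- Refined parabolic homomorphisms of `Γ₀(L)`. -/
abbrev PH (L : ℕ) : Type _ := homPar0 R (Gamma0 L) R

theorem gamma0_le_of_dvd {M L : ℕ} (h : M ∣ L) : Gamma0 L ≤ Gamma0 M := fun _ hγ =>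
  mem_Gamma0_of_dvd ((Int.natCast_dvd_natCast.mpr h).trans (dvd_of_mem_Gamma0 hγ))

/-- Restriction to a higher level. -/
def resPar {M L : ℕ} (h : M ∣ L) : PH R M →ₗ[R] PH R L where
  toFun := resHom0 (gamma0_le_of_dvd h)
  map_add' _ _ := rfl
  map_smul' _ _ := rfl

/-- Corestriction to a lower level. -/
def corPar (M L : ℕ) [NeZero L] : PH R L →ₗ[R] PH R M where
  toFun φ := ⟨corHom φ.1, corHom_isParHom0 φ.2⟩
  map_add' φ ψ := by
    have := Fintype.ofFinite (Gamma0 M ⧸ (Gamma0 L).subgroupOf (Gamma0 M))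
    refine Subtype.ext (AddMonoidHom.ext fun z => ?_)
    show ∑ᶠ y, (φ.1 + ψ.1) _ = (∑ᶠ y, φ.1 _) + ∑ᶠ y, ψ.1 _
    simp only [finsum_eq_sum_of_fintype, AddMonoidHom.add_apply, Finset.sum_add_distrib]
  map_smul' c φ := by
    have := Fintype.ofFinite (Gamma0 M ⧸ (Gamma0 L).subgroupOf (Gamma0 M))
    refine Subtype.ext (AddMonoidHom.ext fun z => ?_)
    show ∑ᶠ y, (c • φ.1) _ = c • ∑ᶠ y, φ.1 _
    simp only [finsum_eq_sum_of_fintype, AddMonoidHom.smul_apply, Finset.smul_sum]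

variable {R}

theorem resPar_mul {M q : ℕ} (φ : PH R M) :
    resPar R (dvd_mul_right M q) φ = incl0 M q φ :=
  rfl

theorem corPar_mul {M q : ℕ} [NeZero M] [NeZero q] (φ : PH R (M * q)) :
    corPar R M (M * q) φ = cor0 M q φ :=
  rfl

theorem alPar_mul {M q : ℕ} [NeZero q] (h : Nat.Coprime q M) (φ : PH R (M * q)) :
    parAL R (M * q) q φ = al0 h φ :=
  Subtype.ext (alOp_eq_alRes R R M q h φ.1)

theorem resPar_trans {M M' L : ℕ} (h : M ∣ M') (h' : M' ∣ L) (φ : PH R M) :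
    resPar R h' (resPar R h φ) = resPar R (h.trans h') φ :=
  rfl

variable {M L : ℕ}

theorem alPar_alPar {d : ℕ} (φ : PH R L) : parAL R L d (parAL R L d φ) = φ :=
  Subtype.ext (alOp_alOp_self R L d φ.1)

theorem alPar_one (hL : Squarefree L) (φ : PH R L) : parAL R L 1 φ = φ :=
  Subtype.ext (alOp_one R hL φ.1)

theorem alPar_alPar_mul {d d' : ℕ} (hL : Squarefree L) (hdd : d * d' ∣ L) (φ : PH R L) :
    parAL R L d (parAL R L d' φ) = parAL R L (d * d') φ :=
  Subtype.ext (alOp_mul_of_squarefree R hL hdd φ.1)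

theorem alPar_comm {d d' : ℕ} (hL : Squarefree L) (hdd : d * d' ∣ L) (φ : PH R L) :
    parAL R L d (parAL R L d' φ) = parAL R L d' (parAL R L d φ) :=
  Subtype.ext (alOp_comm R hL hdd φ.1)

theorem resPar_alPar {d : ℕ} (hL : Squarefree L) (h : M ∣ L) (hd : d ∣ M) (φ : PH R M) :
    resPar R h (parAL R M d φ) = parAL R L d (resPar R h φ) := by
  obtain ⟨q, rfl⟩ := h
  exact Subtype.ext (inclRes_alOp R hL hd φ.1)

theorem cupB_alPar [NeZero L] {d : ℕ} (hL : Squarefree L) (hd : d ∣ L) (φ ψ : PH R L) :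
    cupB R L (parAL R L d φ) (parAL R L d ψ) = cupB R L φ ψ := by
  obtain ⟨k, rfl⟩ := hd
  have hk : NeZero k := ⟨fun h => NeZero.ne (d * k) (by simp [h])⟩
  have : NeZero d := ⟨fun h => NeZero.ne (d * k) (by simp [h])⟩
  have hco : Nat.Coprime d k := Nat.coprime_of_squarefree_mul hL
  revert φ ψ
  generalize hm : d * k = m at *
  obtain rfl : m = k * d := by rw [← hm, mul_comm]
  intro φ ψ
  rw [alPar_mul hco, alPar_mul hco, cupB_al0_al0]

theorem cupB_resPar [NeZero M] [NeZero L] (h : M ∣ L) (φ : PH R M) (ψ : PH R L) :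
    cupB R L (resPar R h φ) ψ = cupB R M φ (corPar R M L ψ) :=
  cupPairing_res_left (gamma0_le_of_dvd h) (neg_one_mem_gamma0 M) (neg_one_mem_gamma0 L) φ ψ

variable {S : Type*} [CommRing S]

theorem mapCoeff_alPar (f : R →+* S) {d : ℕ} (φ : PH R L) :
    mapCoeff f (parAL R L d φ) = parAL S L d (mapCoeff f φ) :=
  rfl

theorem mapCoeff_resPar (f : R →+* S) (h : M ∣ L) (φ : PH R M) :
    mapCoeff f (resPar R h φ) = resPar S h (mapCoeff f φ) :=
  rfl

theorem mapCoeff_corPar (f : R →+* S) [NeZero L] (φ : PH R L) :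
    mapCoeff f (corPar R M L φ) = corPar S M L (mapCoeff f φ) := by
  have := Fintype.ofFinite (Gamma0 M ⧸ (Gamma0 L).subgroupOf (Gamma0 M))
  refine Subtype.ext (AddMonoidHom.ext fun z => ?_)
  show f (∑ᶠ y, φ.1 _) = ∑ᶠ y, f (φ.1 _)
  simp only [finsum_eq_sum_of_fintype, map_sum]

theorem eq_of_cupB {F : Type*} [Field F] [NeZero M] {a b : PH F M}
    (h : ∀ ψ, cupB F M ψ a = cupB F M ψ b) : a = b :=
  sub_eq_zero.mp (cupB_nondeg _ fun ψ => by rw [map_sub, h, sub_self])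

theorem corPar_alPar_field {F : Type*} [Field F] [NeZero M] [NeZero L] {d : ℕ}
    (hL : Squarefree L) (h : M ∣ L) (hd : d ∣ M) (φ : PH F L) :
    corPar F M L (parAL F L d φ) = parAL F M d (corPar F M L φ) := by
  have hM : Squarefree M := hL.squarefree_of_dvd h
  refine eq_of_cupB fun ψ => ?_
  rw [← cupB_resPar h, ← cupB_alPar hL (hd.trans h), alPar_alPar,
    ← resPar_alPar hL h hd, cupB_resPar h, ← cupB_alPar hM hd, alPar_alPar]

/-- Corestriction commutes with `W_d`. -/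
theorem corPar_alPar [IsDomain R] [NeZero M] [NeZero L] {d : ℕ} (hL : Squarefree L) (h : M ∣ L)
    (hd : d ∣ M) (φ : PH R L) :
    corPar R M L (parAL R L d φ) = parAL R M d (corPar R M L φ) := by
  refine mapCoeff_injective (IsFractionRing.injective R (FractionRing R)) ?_
  rw [mapCoeff_corPar, mapCoeff_alPar, mapCoeff_alPar, mapCoeff_corPar,
    corPar_alPar_field hL h hd]

theorem corPar_trans_field {F : Type*} [Field F] {M' : ℕ} [NeZero M] [NeZero M'] [NeZero L]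
    (h : M ∣ M') (h' : M' ∣ L) (φ : PH F L) :
    corPar F M M' (corPar F M' L φ) = corPar F M L φ :=
  eq_of_cupB fun ψ => by
    rw [← cupB_resPar h, ← cupB_resPar h', resPar_trans, cupB_resPar (h.trans h')]

/-- Corestriction is transitive. -/
theorem corPar_trans [IsDomain R] {M' : ℕ} [NeZero M] [NeZero M'] [NeZero L]
    (h : M ∣ M') (h' : M' ∣ L) (φ : PH R L) :
    corPar R M M' (corPar R M' L φ) = corPar R M L φ := by
  refine mapCoeff_injective (IsFractionRing.injective R (FractionRing R)) ?_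
  rw [mapCoeff_corPar, mapCoeff_corPar, mapCoeff_corPar, corPar_trans_field h h']

end Par

/-! ### Corestriction and restriction at coprime primes -/

/-- Transfer commutes with restriction when the cosets are the same. -/
theorem corHom_comp_inclusion {Γ Γ' Δ Δ' : Subgroup SL(2, ℤ)} (h1 : Δ ≤ Γ) (h2 : Δ' ≤ Γ')
    [(Γ'.subgroupOf Γ).FiniteIndex] [(Δ'.subgroupOf Δ).FiniteIndex] (hinj : Δ ⊓ Γ' ≤ Δ')
    (hcard : Nat.card (Δ ⧸ Δ'.subgroupOf Δ) = Nat.card (Γ ⧸ Γ'.subgroupOf Γ))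
    (ψ : Additive Γ' →+ A) :
    (corHom ψ : Additive Γ →+ A).comp (MonoidHom.toAdditive (Subgroup.inclusion h1)) =
      corHom (ψ.comp (MonoidHom.toAdditive (Subgroup.inclusion h2))) := by
  classical
  have := Fintype.ofFinite (Γ ⧸ Γ'.subgroupOf Γ)
  have := Fintype.ofFinite (Δ ⧸ Δ'.subgroupOf Δ)
  set ι : Δ ⧸ Δ'.subgroupOf Δ → Γ ⧸ Γ'.subgroupOf Γ :=
    fun y => ((Subgroup.inclusion h1 y.out : Γ) : Γ ⧸ Γ'.subgroupOf Γ)
  have hι : ∀ a : Δ, ι (a : Δ ⧸ Δ'.subgroupOf Δ) =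
      ((Subgroup.inclusion h1 a : Γ) : Γ ⧸ Γ'.subgroupOf Γ) := fun a => by
    refine QuotientGroup.eq.mpr (Subgroup.mem_subgroupOf.mpr ?_)
    have e0 := QuotientGroup.eq.mp (QuotientGroup.out_eq' (a : Δ ⧸ Δ'.subgroupOf Δ))
    exact h2 (Subgroup.mem_subgroupOf.mp e0)
  have hinjι : Function.Injective ι := fun y y' e => by
    rw [← QuotientGroup.out_eq' y, ← QuotientGroup.out_eq' y']
    refine QuotientGroup.eq.mpr (Subgroup.mem_subgroupOf.mpr (hinj ⟨(y.out⁻¹ * y'.out).2, ?_⟩))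
    have e0 := QuotientGroup.eq.mp (show ((Subgroup.inclusion h1 y.out : Γ) : Γ ⧸ Γ'.subgroupOf Γ) =
      ((Subgroup.inclusion h1 y'.out : Γ) : Γ ⧸ Γ'.subgroupOf Γ) from e)
    exact Subgroup.mem_subgroupOf.mp e0
  have hbij : Function.Bijective ι :=
    (Fintype.bijective_iff_injective_and_card ι).mpr
      ⟨hinjι, by rwa [← Nat.card_eq_fintype_card, ← Nat.card_eq_fintype_card]⟩
  have hk : ∀ y, ((ι y).out : SL(2, ℤ))⁻¹ * (y.out : SL(2, ℤ)) ∈ Γ' := fun y =>
    Subgroup.mem_subgroupOf.mp (QuotientGroup.eq.mp (QuotientGroup.out_eq' (ι y)))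
  set k : Δ ⧸ Δ'.subgroupOf Δ → Γ' := fun y => ⟨_, hk y⟩
  refine AddMonoidHom.ext fun z => ?_
  obtain ⟨g, rfl⟩ := Additive.ofMul.surjective z
  show ∑ᶠ y, ψ (Additive.ofMul (corElt (Subgroup.inclusion h1 g) y)) =
    ∑ᶠ y, ψ (Additive.ofMul (Subgroup.inclusion h2 (corElt g y)))
  simp only [finsum_eq_sum_of_fintype]
  rw [← (Equiv.ofBijective ι hbij).sum_comp]
  have hsmul : ∀ y, Subgroup.inclusion h1 g • ι y = ι (g • y) := fun y => by
    conv_rhs => rw [← QuotientGroup.out_eq' y, MulAction.Quotient.smul_coe, smul_eq_mul, hι,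
      map_mul]
    rfl
  have key : ∀ y, Subgroup.inclusion h2 (corElt g y) =
      (k (g • y))⁻¹ * corElt (Subgroup.inclusion h1 g) (ι y) * k y := fun y => by
    apply Subtype.ext
    simp only [k, corElt, hsmul, Subgroup.coe_mul, InvMemClass.coe_inv, Subgroup.coe_inclusion]
    group
  simp only [key, ofMul_mul, ofMul_inv, map_add, map_neg, Finset.sum_add_distrib,
    Finset.sum_neg_distrib, Equiv.ofBijective_apply]
  rw [Fintype.sum_equiv (MulAction.toPerm g) (fun y => ψ (Additive.ofMul (k (g • y))))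
    (fun y => ψ (Additive.ofMul (k y))) fun y => rfl]
  abel

theorem natCard_cosets {N q : ℕ} [NeZero N] (hq : q.Prime) (hqN : ¬ q ∣ N) :
    Nat.card (Gamma0 N ⧸ (Gamma0 (N * q)).subgroupOf (Gamma0 N)) = q + 1 := by
  have := Fact.mk hq
  have : NeZero q := ⟨hq.ne_zero⟩
  obtain ⟨σ, -, -⟩ := degCosets_rep (N := N) hqN
  rw [Nat.card_congr σ, show Nat.card (OnePoint (ZMod q)) = Nat.card (Option (ZMod q)) from rfl,
    Nat.card_eq_fintype_card, Fintype.card_option, ZMod.card]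

/-- Corestriction at `q` commutes with restriction at a prime-to-`q` level. -/
theorem corPar_resPar {R : Type*} [CommRing R] {M q M' : ℕ} [NeZero M] [NeZero M']
    [NeZero (M * q)] [NeZero (M' * q)] (hq : q.Prime) (hqM' : ¬ q ∣ M') (h : M ∣ M')
    (φ : PH R (M * q)) :
    corPar R M' (M' * q) (resPar R (mul_dvd_mul_right h q) φ) =
      resPar R h (corPar R M (M * q) φ) := by
  refine Subtype.ext (corHom_comp_inclusion (gamma0_le_of_dvd h)
    (gamma0_le_of_dvd (mul_dvd_mul_right h q)) ?_ ?_ φ.1).symm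
  · rintro γ ⟨h1, h2⟩
    refine mem_Gamma0_of_dvd ?_
    push_cast
    exact IsCoprime.mul_dvd (Int.isCoprime_iff_nat_coprime.mpr
      (by simpa using (hq.coprime_iff_not_dvd.mpr hqM').symm))
      (dvd_of_mem_Gamma0 h1) (dvd_lowerLeft_right h2)
  · rw [natCard_cosets hq hqM', natCard_cosets hq fun hh => hqM' (hh.trans h)]

end FLTA.LT2

end
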