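import Fermat.Agent.LT2.PatchedBottomModel
import Fermat.Agent.LT2.TraceALOps
import Fermat.Agent.RT.RaiseBase

/-!
# Part G of LT2: vectors of the bottom module which are new at `Q`

On a vector killed by both pushforwards at `q` the operator `U_q` is `-W_q`, so it is an
involution.  Hence a new eigenvector of the `U_l`, `l ∣ N`, may be refined to an eigenvector of
all the sign operators, and on such a vector the operator killing what is old does not vanish.
-/

set_option autoImplicit false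
set_option linter.unusedSectionVars false
set_option maxSynthPendingDepth 3

noncomputable section

open IsLocalRing CongruenceSubgroup
open scoped MatrixGroups

namespace FLTA.LT2

open FLTA.RT FLTA.Periods FLTA.Gamma0 FLTA.LevelRaising

/-- A product of commuting operators acts on a common eigenvector by the product of the values. -/
theorem subalgebra_prod_apply_of_eigen {R M : Type*} [CommRing R] [AddCommGroup M] [Module R M]
    {H : Subalgebra R (Module.End R M)} (hc : ∀ a b : H, a * b = b * a) {ι : Type*}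
    (S : Finset ι) (f : ι → H) (c : ι → R) (v : M)
    (h : ∀ i ∈ S, (f i : Module.End R M) v = c i • v) :
    letI : CommRing H := { (inferInstance : Ring H) with mul_comm := hc }
    ((∏ i ∈ S, f i : H) : Module.End R M) v = (∏ i ∈ S, c i) • v := by
  classical
  letI : CommRing H := { (inferInstance : Ring H) with mul_comm := hc }
  induction S using Finset.induction_on with
  | empty => simp
  | insert a S ha ih =>
    rw [Finset.prod_insert ha, Finset.prod_insert ha, Subalgebra.coe_mul, Module.End.mul_apply,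
      ih fun i hi => h i (Finset.mem_insert_of_mem hi), map_smul,
      h a (Finset.mem_insert_self a S), smul_smul, mul_comm]

/-- A polynomial in an operator on an eigenvector. -/
theorem bottom_aeval_of_eigen {R M : Type*} [CommRing R] [AddCommGroup M] [Module R M]
    {f : Module.End R M} {c : R} {v : M} (h : f v = c • v) (P : Polynomial R) :
    Polynomial.aeval f P v = P.eval c • v := by
  have := aeval_apply_of_intertwine (c • (1 : Module.End R R)) f (LinearMap.toSpanSingleton R M v)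
    (fun x => by simp [h, smul_smul, mul_comm]) P 1
  have e : Polynomial.aeval (c • (1 : Module.End R R)) P (1 : R) = P.eval c := by
    rw [show c • (1 : Module.End R R) = algebraMap R (Module.End R R) c from
      (Algebra.algebraMap_eq_smul_one c).symm, Polynomial.aeval_algebraMap_apply_eq_algebraMap_eval]
    simp [Module.algebraMap_end_apply]
  simpa [e] using this

/-- Splitting off an eigenvector of an involution. -/
theorem exists_invol_eigen {R M : Type*} [CommRing R] [IsDomain R] [AddCommGroup M] [Module R M]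
    [Module.IsTorsionFree R M] (h2 : (2 : R) ≠ 0) (U : Module.End R M) {w : M} (hw : w ≠ 0)
    (hUU : U (U w) = w) :
    ∃ c : ℤ, (c = 1 ∨ c = -1) ∧ w + (c : R) • U w ≠ 0 ∧
      U (w + (c : R) • U w) = (c : R) • (w + (c : R) • U w) := by
  have h : ∀ c : ℤ, (c = 1 ∨ c = -1) →
      U (w + (c : R) • U w) = (c : R) • (w + (c : R) • U w) := by
    intro c hc
    rw [map_add, map_smul, hUU, smul_add, smul_smul,
      show (c : R) * c = 1 by rcases hc with rfl | rfl <;> simp, one_smul, add_comm]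
  by_cases hp : w + ((1 : ℤ) : R) • U w = 0
  · refine ⟨-1, Or.inr rfl, fun hm => hw ?_, h _ (Or.inr rfl)⟩
    simp only [Int.cast_one, one_smul] at hp
    simp only [Int.cast_neg, Int.cast_one, neg_smul, one_smul] at hm
    refine (smul_eq_zero.mp (?_ : (2 : R) • w = 0)).resolve_left h2
    calc (2 : R) • w = (w + U w) + (w + -U w) := by rw [two_smul]; abel
      _ = 0 := by rw [hp, hm, add_zero]
  · exact ⟨1, Or.inl rfl, hp, h _ (Or.inl rfl)⟩

/-- The product of a killing operator and of sign projectors on a common eigenvector. -/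
theorem signOp_apply_ne_zero {R M : Type*} [CommRing R] [IsDomain R] [AddCommGroup M]
    [Module R M] [Module.IsTorsionFree R M] {H : Subalgebra R (Module.End R M)}
    (hc : ∀ a b : H, a * b = b * a) (g : ℕ → H) (G : ℕ → Polynomial R) {P Q : Finset ℕ}
    (hQP : Q ⊆ P) (h2 : (2 : R) ≠ 0) (s : ℕ → ℤ) (hs : ∀ l ∈ P, s l = 1 ∨ s l = -1)
    (hG : ∀ q ∈ Q, (G q).eval (s q : R) ≠ 0) {w : M} (hw : w ≠ 0)
    (hsw : ∀ l ∈ P, (g l : Module.End R M) w = (s l : R) • w) :
    H.val (letI : CommRing H := { (inferInstance : Ring H) with mul_comm := hc }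
      (∏ q ∈ Q, Polynomial.aeval (g q) (G q)) * ∏ v ∈ P, (1 + (s v : H) * g v)) w ≠ 0 := by
  letI : CommRing H := { (inferInstance : Ring H) with mul_comm := hc }
  have h1 : ((∏ q ∈ Q, Polynomial.aeval (g q) (G q) : H) : Module.End R M) w =
      (∏ q ∈ Q, (G q).eval (s q : R)) • w := by
    refine subalgebra_prod_apply_of_eigen hc Q _ _ w fun q hq => ?_
    rw [Polynomial.aeval_subalgebra_coe]
    exact bottom_aeval_of_eigen (hsw q (hQP hq)) _
  have h2' : ((∏ v ∈ P, (1 + (s v : H) * g v) : H) : Module.End R M) w =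
      (∏ _v ∈ P, (2 : R)) • w := by
    refine subalgebra_prod_apply_of_eigen hc P _ _ w fun v hv => ?_
    rw [Subalgebra.coe_add, Subalgebra.coe_one, Subalgebra.coe_mul, SubringClass.coe_intCast,
      LinearMap.add_apply, Module.End.one_apply, Module.End.mul_apply, hsw v hv,
      Module.End.intCast_apply, ← Int.cast_smul_eq_zsmul R, smul_smul,
      show (s v : R) * s v = 1 by rcases hs v hv with h | h <;> simp [h], one_smul, two_smul]
  rw [map_mul, Module.End.mul_apply, Subalgebra.coe_val, h2', map_smul, h1, smul_smul]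
  exact smul_ne_zero (mul_ne_zero (Finset.prod_ne_zero_iff.mpr fun _ _ => h2)
    (Finset.prod_ne_zero_iff.mpr hG)) hw

variable (O : Type) [CommRing O] [IsLocalRing O] [IsDomain O] [CharZero O] [IsPrincipalIdealRing O]
  [IsAdicComplete (maximalIdeal O) O] (E : WeierstrassCurve ℤ)

section general

variable {L M q : ℕ}

/-- `U_q` is `-W_q` on what the twisted corestriction kills. -/
theorem parOp_eq_neg_of_corPar_eq_zero [NeZero L] (hq : q.Prime) (hL : L = M * q) (hqM : ¬ q ∣ M) (φ : PH O L)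
    (h : corPar O M L (parAL O L q φ) = 0) : parOp O L q φ = -parAL O L q φ := by
  subst hL
  have : NeZero q := ⟨hq.ne_zero⟩
  have : NeZero M := ⟨left_ne_zero_of_mul (NeZero.ne (M * q))⟩
  have := Fact.mk hq
  have hco : Nat.Coprime q M := hq.coprime_iff_not_dvd.mpr hqM
  rw [alPar_mul hco, corPar_mul] at h
  rw [alPar_mul hco, eq_neg_iff_add_eq_zero]
  refine Subtype.ext ?_
  have h1 : corRes (alRes hco φ.1) = 0 := congrArg Subtype.val h
  have h2 := inclRes_corRes_alRes O hqM hco (isParabolicHom_of_isParHom0 φ.2)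
  rw [h1] at h2
  exact h2.symm.trans rfl

end general

variable {L₀ : ℕ} [NeZero L₀]

variable (Q : Finset ℕ)

/-- Killed by both pushforwards at every prime of `Q`. -/
def IsNewVec (φ : PH O L₀) : Prop :=
  ∀ q ∈ Q, corPar O (L₀ / q) L₀ φ = 0 ∧ corPar O (L₀ / q) L₀ (parAL O L₀ q φ) = 0

variable {Q}

theorem parOp_eq_neg_of_isNew (hsq : Squarefree L₀) {q : ℕ} (hq : q ∈ Q) (hqp : q.Prime)
    (hqL : q ∣ L₀) {φ : PH O L₀} (h : IsNewVec O Q φ) :
    parOp O L₀ q φ = -parAL O L₀ q φ := by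
  have hL : L₀ = L₀ / q * q := (Nat.div_mul_cancel hqL).symm
  refine parOp_eq_neg_of_corPar_eq_zero O hqp hL (fun hd => ?_) φ (h q hq).2
  have := (Nat.squarefree_mul_iff.mp (hL ▸ hsq)).1
  exact hqp.ne_one (Nat.Coprime.eq_one_of_dvd this.symm hd)

/-- `W_q` preserves the new vectors. -/
theorem IsNewVec.parAL (hsq : Squarefree L₀) (hQp : ∀ r ∈ Q, r.Prime) (hQL : ∀ r ∈ Q, r ∣ L₀)
    {q : ℕ} (hq : q ∈ Q) {φ : PH O L₀} (h : IsNewVec O Q φ) :
    IsNewVec O Q (parAL O L₀ q φ) := by
  intro r hr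
  rcases eq_or_ne r q with rfl | hne
  · exact ⟨(h r hr).2, by rw [alPar_alPar]; exact (h r hr).1⟩
  · have hco : Nat.Coprime q r := (Nat.coprime_primes (hQp q hq) (hQp r hr)).mpr hne.symm
    have : NeZero (L₀ / r) :=
      ⟨(Nat.div_pos (Nat.le_of_dvd (NeZero.pos L₀) (hQL r hr)) (hQp r hr).pos).ne'⟩
    have hd : q ∣ L₀ / r :=
      Nat.dvd_div_of_mul_dvd (hco.symm.mul_dvd_of_dvd_of_dvd (hQL r hr) (hQL q hq))
    have hM : L₀ / r ∣ L₀ := Nat.div_dvd_of_dvd (hQL r hr)
    have hrq : r * q ∣ L₀ := hco.symm.mul_dvd_of_dvd_of_dvd (hQL r hr) (hQL q hq)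
    exact ⟨by rw [corPar_alPar hsq hM hd, (h r hr).1, map_zero],
      by rw [alPar_comm hsq hrq, corPar_alPar hsq hM hd, (h r hr).2, map_zero]⟩

theorem IsNewVec.add {φ ψ : PH O L₀} (h : IsNewVec O Q φ) (h' : IsNewVec O Q ψ) :
    IsNewVec O Q (φ + ψ) := fun q hq => by
  simp [(h q hq).1, (h q hq).2, (h' q hq).1, (h' q hq).2]

theorem IsNewVec.neg {φ : PH O L₀} (h : IsNewVec O Q φ) : IsNewVec O Q (-φ) := fun q hq => by
  simp [(h q hq).1, (h q hq).2]

variable {P : Finset ℕ}

set_option maxHeartbeats 1000000 in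
/-- A new eigenvector at `P` refines to one at `P ∪ Q`. -/
theorem exists_eigen_of_isNew (hsq : Squarefree L₀) (hQp : ∀ r ∈ Q, r.Prime)
    (hQL : ∀ r ∈ Q, r ∣ L₀) (hdisj : Disjoint P Q) (s₀ : ℕ → ℤ) {v : bottomF O E L₀}
    (hv : v ≠ 0) (hnew : IsNewVec O Q (v : PH O L₀))
    (hs₀ : ∀ l ∈ P, bottomOp O E L₀ l v = (s₀ l : O) • v) :
    ∃ (s : ℕ → ℤ) (w : bottomF O E L₀), (∀ l ∈ P, s l = s₀ l) ∧
      (∀ q ∈ Q, s q = 1 ∨ s q = -1) ∧ w ≠ 0 ∧
      ∀ l ∈ P ∪ Q, bottomOp O E L₀ l w = (s l : O) • w := by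
  classical
  suffices ∀ S ⊆ Q, ∃ (s : ℕ → ℤ) (w : bottomF O E L₀), (∀ l ∈ P, s l = s₀ l) ∧
      (∀ q ∈ S, s q = 1 ∨ s q = -1) ∧ w ≠ 0 ∧ IsNewVec O Q (w : PH O L₀) ∧
      ∀ l ∈ P ∪ S, bottomOp O E L₀ l w = (s l : O) • w by
    obtain ⟨s, w, h1, h2, h3, -, h4⟩ := this Q subset_rfl
    exact ⟨s, w, h1, h2, h3, h4⟩
  intro S hS
  induction S using Finset.induction_on with
  | empty => exact ⟨s₀, v, fun _ _ => rfl, by simp, hv, hnew, by simpa using hs₀⟩
  | insert q S hqS ih =>
    obtain ⟨s, w, h1, h2, h3, h4, h5⟩ := ih fun x hx => hS (Finset.mem_insert_of_mem hx)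
    have hq : q ∈ Q := hS (Finset.mem_insert_self q S)
    set U := bottomOp O E L₀ q
    have hU : ∀ z : bottomF O E L₀, IsNewVec O Q (z : PH O L₀) →
        (U z : PH O L₀) = -parAL O L₀ q z := fun z hz => by
      rw [coe_curveOp O E (hQp q hq)]
      exact parOp_eq_neg_of_isNew O hsq hq (hQp q hq) (hQL q hq) hz
    have hUnew : IsNewVec O Q (U w : PH O L₀) := by
      rw [hU w h4]
      exact IsNewVec.neg O (IsNewVec.parAL O hsq hQp hQL hq h4)
    have hUU : U (U w) = w := Subtype.ext (by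
      rw [hU _ hUnew, hU w h4, map_neg, alPar_alPar, neg_neg])
    have hqP : q ∉ P := Finset.disjoint_right.mp hdisj hq
    have := free_curvePart O E L₀ L₀
    obtain ⟨c, hc, hne, heig⟩ := exists_invol_eigen (two_ne_zero : (2 : O) ≠ 0) U h3 hUU
    refine ⟨Function.update s q c, w + (c : O) • U w, fun l hl => ?_, fun x hx => ?_, hne, ?_,
      fun l hl => ?_⟩
    · rw [Function.update_of_ne (ne_of_mem_of_not_mem hl hqP)]
      exact h1 l hl
    · rcases Finset.mem_insert.mp hx with rfl | hx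
      · rw [Function.update_self]; exact hc
      · rw [Function.update_of_ne (ne_of_mem_of_not_mem hx hqS)]
        exact h2 x hx
    · rcases hc with rfl | rfl
      · rw [Int.cast_one, one_smul]
        exact IsNewVec.add O h4 hUnew
      · have e : (((w + ((-1 : ℤ) : O) • U w : bottomF O E L₀)) : PH O L₀) =
            (w : PH O L₀) + -(U w : PH O L₀) := by
          rw [Submodule.coe_add, Submodule.coe_smul, Int.cast_neg, Int.cast_one, neg_one_smul]
        rw [e]
        exact IsNewVec.add O (ψ := -(U w : PH O L₀)) h4 (IsNewVec.neg O (φ := (U w : PH O L₀)) hUnew)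
    · rcases eq_or_ne l q with rfl | hlq
      · rw [Function.update_self]; exact heig
      · have hl' : l ∈ P ∪ S := by
          simp only [Finset.mem_union, Finset.mem_insert] at hl ⊢
          tauto
        have hcomm : bottomOp O E L₀ l (U w) = U (bottomOp O E L₀ l w) :=
          LinearMap.congr_fun (commute_curveOp O E L₀ L₀ l q).eq w
        rw [Function.update_of_ne hlq, map_add, map_smul, hcomm, h5 l hl', map_smul,
          smul_comm, ← smul_add]

/-- The polynomial killing what is old does not vanish at signs. -/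
theorem eval_bottomPoly_ne_zero (hsq : Squarefree L₀) {q : ℕ} (hq : q.Prime) (hqL : q ∣ L₀)
    {s : O} (hs : s * s = 1) : (bottomPoly O E L₀ q).eval s ≠ 0 := by
  have hL : L₀ = L₀ / q * q := (Nat.div_mul_cancel hqL).symm
  have hne : L₀ / q ≠ 0 := (Nat.div_pos (Nat.le_of_dvd (NeZero.pos L₀) hqL) hq.pos).ne'
  have hqM : ¬ q ∣ L₀ / q := fun hd => hq.ne_one
    (Nat.Coprime.eq_one_of_dvd (Nat.squarefree_mul_iff.mp (hL ▸ hsq)).1.symm hd)
  have : NeZero (L₀ / q) := ⟨hne⟩
  rw [bottomPoly_eq O E L₀ hq.ne_zero hL, oldPolyAt]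
  have := finite_curvePart O E L₀ (L₀ / q)
  have := free_curvePart O E L₀ (L₀ / q)
  refine eval_oldPoly_ne_zero (fun x hx => Subtype.ext (Subtype.ext ?_)) hs
  refine RT.eq_zero_of_heckeHom_sq hq hqM x.1.2 ?_
  have e := congrArg (fun z : curvePart O E L₀ (L₀ / q) => (z : PH O (L₀ / q))) hx
  simp only [coe_curveOp O E hq, Submodule.coe_smul] at e
  exact congrArg Subtype.val e

/-- **`z` does not vanish on a common eigenvector.** -/
theorem bottomZ_mul_prod_apply_ne_zero (hsq : Squarefree L₀) (hQp : ∀ r ∈ Q, r.Prime)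
    (hQL : ∀ r ∈ Q, r ∣ L₀) (hQP : Q ⊆ P) (s : ℕ → ℤ) (hs : ∀ l ∈ P, s l = 1 ∨ s l = -1)
    {w : bottomF O E L₀} (hw : w ≠ 0)
    (hsw : ∀ l ∈ P, bottomOp O E L₀ l w = (s l : O) • w) :
    (bottomH O E L₀).val
      (letI := bottomHCommRing O E L₀
       bottomZ O E L₀ Q * ∏ v ∈ P, (1 + (s v : bottomH O E L₀) * bottomGen O E L₀ v)) w ≠ 0 := by
  have := free_curvePart O E L₀ L₀
  exact signOp_apply_ne_zero (H := bottomH O E L₀)
    (fun x y => @mul_comm _ (bottomHCommRing O E L₀).toCommMagma x y) (bottomGen O E L₀)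
    (bottomPoly O E L₀) hQP two_ne_zero s hs
    (fun q hq => eval_bottomPoly_ne_zero O E hsq (hQp q hq) (hQL q hq)
      (by rcases hs q (hQP hq) with h | h <;> simp [h])) hw hsw

/-- If `Z * X` is non-zero on all common eigenvectors, then so is `Z ^ 2 * X`. -/
theorem val_sq_mul_apply_ne_zero {R M : Type*} [CommRing R] [AddCommGroup M] [Module R M]
    {H : Subalgebra R (Module.End R M)} (hc : ∀ a b : H, a * b = b * a) (Z X : H) {ι : Type*}
    (P : Finset ι) (g : ι → H) (c : ι → R)
    (h : ∀ w : M, w ≠ 0 → (∀ l ∈ P, (g l : Module.End R M) w = c l • w) → H.val (Z * X) w ≠ 0)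
    {w : M} (hw : w ≠ 0) (hsw : ∀ l ∈ P, (g l : Module.End R M) w = c l • w) :
    H.val (Z ^ 2 * X) w ≠ 0 := by
  have hval : ∀ (a b : H) (x : M), H.val (a * b) x = H.val a (H.val b x) := fun a b x => rfl
  have h2 := h _ (h w hw hsw) fun l hl => by
    rw [show (g l : Module.End R M) = H.val (g l) from rfl, ← hval, hc, hval, Subalgebra.coe_val,
      hsw l hl, map_smul]
  intro h0
  have e : Z * X * (Z * X) = X * (Z ^ 2 * X) := by
    rw [pow_two, mul_assoc Z Z X, mul_assoc Z X (Z * X), hc Z (X * (Z * X)), mul_assoc X,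
      hc (Z * X) Z]
  exact h2 (by rw [← hval, e, hval, h0, map_zero])

/-- **`z ^ 2` does not vanish on a common eigenvector.** -/
theorem bottomZ_sq_mul_prod_apply_ne_zero (hsq : Squarefree L₀) (hQp : ∀ r ∈ Q, r.Prime)
    (hQL : ∀ r ∈ Q, r ∣ L₀) (hQP : Q ⊆ P) (s : ℕ → ℤ) (hs : ∀ l ∈ P, s l = 1 ∨ s l = -1)
    {w : bottomF O E L₀} (hw : w ≠ 0)
    (hsw : ∀ l ∈ P, bottomOp O E L₀ l w = (s l : O) • w) :
    (bottomH O E L₀).val
      (letI := bottomHCommRing O E L₀
       bottomZ O E L₀ Q ^ 2 * ∏ v ∈ P, (1 + (s v : bottomH O E L₀) * bottomGen O E L₀ v)) w ≠ 0 :=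
  letI := bottomHCommRing O E L₀
  val_sq_mul_apply_ne_zero (H := bottomH O E L₀)
    (fun x y => @mul_comm _ (bottomHCommRing O E L₀).toCommMagma x y) _ _ P (bottomGen O E L₀)
    (fun l => (s l : O))
    (fun _ h0 h1 => bottomZ_mul_prod_apply_ne_zero O E hsq hQp hQL hQP s hs h0 h1) hw hsw

end FLTA.LT2
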