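import Fermat.Agent.LT2.TraceAlg
import Mathlib.LinearAlgebra.TensorProduct.Tower
import Mathlib.LinearAlgebra.Dimension.Constructions
import Mathlib.RingTheory.TensorProduct.Free
import Mathlib.RingTheory.Localization.FractionRing
import Mathlib.RingTheory.Flat.Basic

/-!
# Sign vectors on the part new at `Q` of a family of lattices

A family of lattices with degeneracy maps and commuting involutions becomes, over the fraction
field, the situation of `TraceData`.  If every proper product of the involutions has trace zero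
and the full product at the bottom has nonzero trace, one of the two parities of sign vectors
occurs completely among the vectors new at `Q`.
-/

set_option autoImplicit false

noncomputable section

namespace FLTA.LT2

open scoped TensorProduct

section extend

variable (K : Type*) {O : Type*} [CommRing O] [CommRing K] [Algebra O K]
  {M N M' : Type*} [AddCommGroup M] [Module O M] [AddCommGroup N] [Module O N]
  [AddCommGroup M'] [Module O M']

/-- Extension of scalars to the pullbacks from a pair. -/
def extPull (f : M × M →ₗ[O] N) : (K ⊗[O] M) × (K ⊗[O] M) →ₗ[K] K ⊗[O] N :=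
  ((f ∘ₗ LinearMap.inl O M M).baseChange K).coprod ((f ∘ₗ LinearMap.inr O M M).baseChange K)

/-- Extension of scalars to the pushforwards to a pair. -/
def extPush (g : N →ₗ[O] M × M) : K ⊗[O] N →ₗ[K] (K ⊗[O] M) × (K ⊗[O] M) :=
  ((LinearMap.fst O M M ∘ₗ g).baseChange K).prod ((LinearMap.snd O M M ∘ₗ g).baseChange K)

variable {K}

@[simp] theorem extPull_one (f : M × M →ₗ[O] N) (x y : M) :
    extPull K f (1 ⊗ₜ x, 1 ⊗ₜ y) = 1 ⊗ₜ f (x, y) := by
  rw [extPull, LinearMap.coprod_apply, LinearMap.baseChange_tmul, LinearMap.baseChange_tmul,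
    ← TensorProduct.tmul_add, LinearMap.comp_apply, LinearMap.comp_apply, ← map_add]
  simp

@[simp] theorem extPush_one (g : N →ₗ[O] M × M) (z : N) :
    extPush K g (1 ⊗ₜ z) = (1 ⊗ₜ (g z).1, 1 ⊗ₜ (g z).2) := by
  simp [extPush]

theorem ext_one {F : Type*} [AddCommGroup F] [Module K F] {f g : K ⊗[O] M →ₗ[K] F}
    (h : ∀ x : M, f (1 ⊗ₜ x) = g (1 ⊗ₜ x)) : f = g := by
  refine LinearMap.ext fun z => ?_
  induction z using TensorProduct.induction_on with
  | zero => rw [map_zero, map_zero]
  | tmul c x =>
    rw [show c ⊗ₜ[O] x = c • ((1 : K) ⊗ₜ[O] x) by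
      rw [TensorProduct.smul_tmul', smul_eq_mul, mul_one], map_smul, map_smul, h]
  | add a b ha hb => rw [map_add, map_add, ha, hb]

theorem ext_pair {F : Type*} [AddCommGroup F] [Module K F]
    {f g : (K ⊗[O] M) × (K ⊗[O] M) →ₗ[K] F}
    (h : ∀ x y : M, f (1 ⊗ₜ x, 1 ⊗ₜ y) = g (1 ⊗ₜ x, 1 ⊗ₜ y)) : f = g := by
  refine LinearMap.prod_ext (ext_one fun x => ?_) (ext_one fun y => ?_)
  · simpa using h x 0
  · simpa using h 0 y

end extend

variable {O : Type*} [CommRing O] [IsDomain O]

theorem one_tmul_injective {K : Type*} [Field K] [Algebra O K] [IsFractionRing O K] (M : Type*)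
    [AddCommGroup M] [Module O M] [Module.Free O M] :
    Function.Injective fun x : M => (1 : K) ⊗ₜ[O] x := by
  let b := Module.Free.chooseBasis O M
  refine fun x y h => b.ext_elem fun i => IsFractionRing.injective O K ?_
  have hi := congrArg (fun z => (b.baseChange K).repr z i) h
  simpa [Algebra.algebraMap_eq_smul_one] using hi

variable {ι : Type*} [DecidableEq ι] {V : Finset ι → Type*} [∀ A, AddCommGroup (V A)]
  [∀ A, Module O (V A)] [∀ A, Module.Free O (V A)] [∀ A, Module.Finite O (V A)]

theorem exists_smul_eq_one_tmul {K : Type*} [Field K] [Algebra O K] [IsFractionRing O K]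
    {M : Type*} [AddCommGroup M] [Module O M] (z : K ⊗[O] M) :
    ∃ (c : O) (x : M), c ≠ 0 ∧ c • z = (1 : K) ⊗ₜ[O] x := by
  induction z using TensorProduct.induction_on with
  | zero => exact ⟨1, 0, one_ne_zero, by simp⟩
  | tmul k x =>
    obtain ⟨⟨n, c, hc⟩, h⟩ := IsLocalization.surj (nonZeroDivisors O) k
    refine ⟨c, n • x, nonZeroDivisors.ne_zero hc, ?_⟩
    rw [TensorProduct.smul_tmul', Algebra.smul_def, mul_comm, h, TensorProduct.tmul_smul,
      TensorProduct.smul_tmul', Algebra.algebraMap_eq_smul_one]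
  | add a b ha hb =>
    obtain ⟨c, x, hc, hx⟩ := ha
    obtain ⟨d, y, hd, hy⟩ := hb
    refine ⟨c * d, d • x + c • y, mul_ne_zero hc hd, ?_⟩
    rw [smul_add, TensorProduct.tmul_add, TensorProduct.tmul_smul, TensorProduct.tmul_smul, ← hx,
      ← hy, smul_smul, smul_smul, mul_comm d c]

variable (K : Type*) [Field K] [Algebra O K] [IsFractionRing O K]

/-- `TraceData` over the fraction field. -/
def TraceData.extend (D : TraceData (K := O) V) : TraceData (K := K) fun A => K ⊗[O] V A where
  pull h := extPull K (D.pull h)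
  push h := extPush K (D.push h)
  op A := (D.op A).baseChange K
  push_pull_injective := fun {r A₀ A} h => by
    rw [injective_iff_map_eq_zero]
    rintro ⟨z, w⟩ hzw
    obtain ⟨c, x, hc, hx⟩ := exists_smul_eq_one_tmul (O := O) z
    obtain ⟨d, y, hd, hy⟩ := exists_smul_eq_one_tmul (O := O) w
    have e := congrArg (fun v => (c * d) • v) hzw
    rw [smul_zero, ← algebraMap_smul K (c * d), ← map_smul, Prod.smul_mk, algebraMap_smul,
      algebraMap_smul, show (c * d) • z = d • c • z by rw [smul_smul, mul_comm],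
      show (c * d) • w = c • d • w by rw [smul_smul], hx, hy, ← TensorProduct.tmul_smul,
      ← TensorProduct.tmul_smul, LinearMap.comp_apply,
      extPull_one, extPush_one, Prod.mk_eq_zero] at e
    have h1 := one_tmul_injective (K := K) (V A₀) (e.1.trans (TensorProduct.tmul_zero _ 1).symm)
    have h2 := one_tmul_injective (K := K) (V A₀) (e.2.trans (TensorProduct.tmul_zero _ 1).symm)
    have h3 : (d • x, c • y) = 0 :=
      D.push_pull_injective h (by rw [map_zero]; exact Prod.ext h1 h2)
    rw [Prod.mk_eq_zero] at h3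
    have hcK : algebraMap O K c ≠ 0 := by simpa using hc
    have hdK : algebraMap O K d ≠ 0 := by simpa using hd
    refine Prod.ext ?_ ?_
    · have := congrArg (fun v => (1 : K) ⊗ₜ[O] v) h3.1
      simp only [TensorProduct.tmul_smul, TensorProduct.tmul_zero, ← hx, smul_smul] at this
      rw [← algebraMap_smul K (d * c), map_mul] at this
      exact (smul_eq_zero.mp this).resolve_left (mul_ne_zero hdK hcK)
    · have := congrArg (fun v => (1 : K) ⊗ₜ[O] v) h3.2
      simp only [TensorProduct.tmul_smul, TensorProduct.tmul_zero, ← hy, smul_smul] at this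
      rw [← algebraMap_smul K (c * d), map_mul] at this
      exact (smul_eq_zero.mp this).resolve_left (mul_ne_zero hcK hdK)
  push_pull_comm := fun {r s A₀₀ A₀ A₁ A} h h' g g' x hne => by
    refine LinearMap.congr_fun (f := extPush K (D.push h) ∘ₗ extPull K (D.pull h'))
      (g := (extPull K (D.pull g) ∘ₗ
          ((LinearMap.fst K _ _ ∘ₗ extPush K (D.push g') ∘ₗ LinearMap.fst K _ _).prod
            (LinearMap.fst K _ _ ∘ₗ extPush K (D.push g') ∘ₗ LinearMap.snd K _ _))).prod
        (extPull K (D.pull g) ∘ₗ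
          ((LinearMap.snd K _ _ ∘ₗ extPush K (D.push g') ∘ₗ LinearMap.fst K _ _).prod
            (LinearMap.snd K _ _ ∘ₗ extPush K (D.push g') ∘ₗ LinearMap.snd K _ _))))
      (ext_pair fun a b => ?_) x
    simp [D.push_pull_comm h h' g g' (a, b) hne]
  push_push := fun {r s A₀₀ A₀ A₁ A} h h' g g' z => by
    constructor
    · refine LinearMap.congr_fun
        (f := extPush K (D.push g) ∘ₗ LinearMap.fst K _ _ ∘ₗ extPush K (D.push h))
        (g := (LinearMap.fst K _ _ ∘ₗ extPush K (D.push g') ∘ₗ LinearMap.fst K _ _ ∘ₗ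
          extPush K (D.push h')).prod (LinearMap.fst K _ _ ∘ₗ extPush K (D.push g') ∘ₗ
          LinearMap.snd K _ _ ∘ₗ extPush K (D.push h'))) (ext_one fun a => ?_) z
      simp [(D.push_push h h' g g' a).1]
    · refine LinearMap.congr_fun
        (f := extPush K (D.push g) ∘ₗ LinearMap.snd K _ _ ∘ₗ extPush K (D.push h))
        (g := (LinearMap.snd K _ _ ∘ₗ extPush K (D.push g') ∘ₗ LinearMap.fst K _ _ ∘ₗ
          extPush K (D.push h')).prod (LinearMap.snd K _ _ ∘ₗ extPush K (D.push g') ∘ₗ
          LinearMap.snd K _ _ ∘ₗ extPush K (D.push h'))) (ext_one fun a => ?_) z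
      simp [(D.push_push h h' g g' a).2]
  op_pull := fun {r A₀ A} h x => by
    refine LinearMap.congr_fun (f := (D.op A).baseChange K ∘ₗ extPull K (D.pull h))
      (g := extPull K (D.pull h) ∘ₗ
        ((D.op A₀).baseChange K).prodMap ((D.op A₀).baseChange K))
      (ext_pair fun a b => ?_) x
    simp [D.op_pull h (a, b)]
  op_push := fun {r A₀ A} h z => by
    refine LinearMap.congr_fun (f := extPush K (D.push h) ∘ₗ (D.op A).baseChange K)
      (g := ((D.op A₀).baseChange K).prodMap ((D.op A₀).baseChange K) ∘ₗ extPush K (D.push h))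
      (ext_one fun a => ?_) z
    simp [D.op_push h a]

/-- A system of lattices with the operators of all subsets of a set `P`. -/
structure SignData (π : Type*) [DecidableEq π] (P : Finset π) (V : Finset ι → Type*)
    [∀ A, AddCommGroup (V A)] [∀ A, Module O (V A)] where
  /-- the degeneracy maps, with a dummy operator -/
  deg : TraceData (K := O) V
  /-- the operators -/
  W : Finset π → ∀ A, Module.End O (V A)
  W_pull : ∀ (d : Finset π) {r : ι} {A₀ A : Finset ι} (h : RaiseStep r A₀ A) (x : V A₀ × V A₀),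
    W d A (deg.pull h x) = deg.pull h (W d A₀ x.1, W d A₀ x.2)
  W_push : ∀ (d : Finset π) {r : ι} {A₀ A : Finset ι} (h : RaiseStep r A₀ A) (z : V A),
    deg.push h (W d A z) = (W d A₀ (deg.push h z).1, W d A₀ (deg.push h z).2)
  W_empty : ∀ A, W ∅ A = 1
  W_insert : ∀ A, ∀ l ∈ P, ∀ d ⊆ P, l ∉ d → W (insert l d) A = W {l} A * W d A
  W_sq : ∀ A, ∀ l ∈ P, W {l} A * W {l} A = 1

variable {K} {π : Type*} [DecidableEq π] {P : Finset π}

/-- The trace data of one operator. -/
def SignData.data (S : SignData (O := O) π P V) (d : Finset π) : TraceData (K := O) V :=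
  { S.deg with op := S.W d, op_pull := S.W_pull d, op_push := S.W_push d }

/-- Vectors new at `A` with the signs `s`. -/
def SignData.Occurs (S : SignData (O := O) π P V) (A : Finset ι) (s : π → O) : Prop :=
  ∃ v : V A, v ≠ 0 ∧ (∀ (r : ι) (A₀ : Finset ι) (h : RaiseStep r A₀ A), S.deg.push h v = 0) ∧
    ∀ l ∈ P, S.W {l} A v = s l • v

/-- If no vector new at `A` has the opposite parity to `s`, one has the signs `s`. -/
theorem SignData.occurs_aux (K : Type*) [Field K] [Algebra O K] [IsFractionRing O K]
    (S : SignData (O := O) π P V) [CharZero O] (hP : P.Nonempty) (A : Finset ι)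
    (hzero : ∀ d ⊆ P, d.Nonempty → ∀ B ⊆ A, (d ≠ P ∨ B.Nonempty) →
      LinearMap.trace O _ (S.W d B) = 0)
    (hne : LinearMap.trace O _ (S.W P ∅) ≠ 0) {s : π → O} (hs : ∀ l ∈ P, s l * s l = 1)
    (hno : ∀ s' : π → O, (∀ l ∈ P, s' l * s' l = 1) →
      ∏ l ∈ P, s' l = -∏ l ∈ P, s l → ¬ S.Occurs A s') : S.Occurs A s := by
  have inj := IsFractionRing.injective O K
  have : CharZero K := ⟨fun a b h => Nat.cast_injective (R := O) (inj (by simpa using h))⟩
  let D : Finset π → TraceData (K := K) fun B => K ⊗[O] V B := fun d => (S.data d).extend K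
  let E := (D ∅).newPart A A
  let U : Finset π → Module.End K E := fun d => (D d).opNew A A
  have hU : SignFamily (K := K) (E := ↥E) P U := by
    refine ⟨LinearMap.ext fun z => Subtype.ext ?_, fun l d hl hd hld => LinearMap.ext fun z =>
      Subtype.ext ?_, fun l hl => LinearMap.ext fun z => Subtype.ext ?_⟩
    · show (S.W ∅ A).baseChange K z.1 = z.1
      rw [S.W_empty, LinearMap.baseChange_one]
      rfl
    · show (S.W (insert l d) A).baseChange K z.1 =
        (S.W {l} A).baseChange K ((S.W d A).baseChange K z.1)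
      rw [S.W_insert A l hl d hd hld, LinearMap.baseChange_mul]
      rfl
    · show (S.W {l} A).baseChange K ((S.W {l} A).baseChange K z.1) = z.1
      rw [← Module.End.mul_apply, ← LinearMap.baseChange_mul, S.W_sq A l hl,
        LinearMap.baseChange_one]
      rfl
  have htr : ∀ d ⊆ P, d.Nonempty → LinearMap.trace K E (U d) =
      if d = P then (-2 : K) ^ A.card * algebraMap O K (LinearMap.trace O _ (S.W P ∅)) else 0 := by
    intro d hd hd0
    refine ((D d).trace_opNew_eq A A subset_rfl).trans ?_
    have h0 : ∀ B ⊆ A, (d ≠ P ∨ B.Nonempty) →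
        LinearMap.trace K _ ((D d).op B) = 0 := fun B hB hor => by
      show LinearMap.trace K _ ((S.W d B).baseChange K) = 0
      rw [LinearMap.trace_baseChange, hzero d hd hd0 B hB hor, map_zero]
    split_ifs with hdP
    · subst hdP
      rw [Finset.sum_eq_single_of_mem A (Finset.mem_powerset.mpr subset_rfl) fun T hT hne' => by
        rw [h0 _ Finset.sdiff_subset (Or.inr (Finset.sdiff_nonempty.mpr fun h =>
          hne' (subset_antisymm (Finset.mem_powerset.mp hT) h))), mul_zero], Finset.sdiff_self]
      show _ * LinearMap.trace K _ ((S.W d ∅).baseChange K) = _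
      rw [LinearMap.trace_baseChange]
    · exact Finset.sum_eq_zero fun T _ => by
        rw [h0 _ Finset.sdiff_subset (Or.inl hdP), mul_zero]
  have hz : ∀ d ⊆ P, d.Nonempty → d ≠ P → LinearMap.trace K E (U d) = 0 :=
    fun d hd hd0 hdP => by rw [htr d hd hd0, if_neg hdP]
  have htP : LinearMap.trace K E (U P) ≠ 0 := by
    rw [htr P subset_rfl hP, if_pos rfl]
    exact mul_ne_zero (pow_ne_zero _ (neg_ne_zero.mpr two_ne_zero))
      (fun h => hne (inj (by rw [h, map_zero])))
  -- descent of sign vectors
  have hdesc : ∀ s' : π → O, (∃ v : E, v ≠ 0 ∧ ∀ l ∈ P, U {l} v = algebraMap O K (s' l) • v) →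
      S.Occurs A s' := by
    rintro s' ⟨⟨z, hz⟩, hz0, hzU⟩
    obtain ⟨c, x, hc, hx⟩ := exists_smul_eq_one_tmul (O := O) z
    refine ⟨x, fun h => hz0 (Subtype.ext ?_), fun r A₀ h => ?_, fun l hl => ?_⟩
    · rw [h, TensorProduct.tmul_zero, ← algebraMap_smul K c, smul_eq_zero] at hx
      exact hx.resolve_left (by simpa using hc)
    · have hk : extPush K (S.deg.push h) z = 0 := hz r h.mem A₀ h
      have := congrArg (extPush K (S.deg.push h)) hx
      rw [← algebraMap_smul K c, map_smul, hk, smul_zero, extPush_one, eq_comm,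
        Prod.mk_eq_zero] at this
      exact Prod.ext
        (one_tmul_injective (K := K) _ (this.1.trans (TensorProduct.tmul_zero _ 1).symm))
        (one_tmul_injective (K := K) _ (this.2.trans (TensorProduct.tmul_zero _ 1).symm))
    · refine one_tmul_injective (O := O) (K := K) (V A) ?_
      have e : (S.W {l} A).baseChange K z = algebraMap O K (s' l) • z :=
        congrArg Subtype.val (hzU l hl)
      have := congrArg ((S.W {l} A).baseChange K) hx
      rw [LinearMap.baseChange_tmul, ← algebraMap_smul K c, map_smul, e, smul_comm,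
        algebraMap_smul, algebraMap_smul, hx] at this
      simp only [TensorProduct.tmul_smul]
      exact this.symm
  -- the parity
  have hpm : ∀ s' : π → O, (∀ l ∈ P, s' l * s' l = 1) →
      ∀ l ∈ P, algebraMap O K (s' l) * algebraMap O K (s' l) = 1 :=
    fun s' hs' l hl => by rw [← map_mul, hs' l hl, map_one]
  refine hdesc s ((hU.exists_sign_vector_iff (s := fun l => algebraMap O K (s l)) (hpm s hs) hz
    hP).mpr fun h0 => ?_)
  obtain ⟨l₀, hl₀⟩ := hP
  set s' : π → O := Function.update s l₀ (-s l₀)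
  have hs' : ∀ l ∈ P, s' l * s' l = 1 := fun l hl => by
    by_cases h : l = l₀
    · subst h; simp [s', hs _ hl]
    · simp [s', h, hs l hl]
  have hprod : ∏ l ∈ P, s' l = -∏ l ∈ P, s l := by
    rw [← Finset.mul_prod_erase P _ hl₀, ← Finset.mul_prod_erase P _ hl₀,
      Finset.prod_congr rfl fun l hl => show s' l = s l by simp [s', Finset.ne_of_mem_erase hl],
      show s' l₀ = -s l₀ by simp [s'], neg_mul]
  refine hno s' hs' hprod (hdesc s' ((hU.exists_sign_vector_iff
    (s := fun l => algebraMap O K (s' l)) (hpm s' hs') hz ⟨l₀, hl₀⟩).mpr fun h1 => htP ?_))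
  rw [← map_prod, hprod, map_neg, map_prod] at h1
  have hp : (∏ l ∈ P, algebraMap O K (s l)) ≠ 0 :=
    Finset.prod_ne_zero_iff.mpr fun l hl h => by simpa [h] using hpm s hs l hl
  refine (mul_eq_zero.mp (mul_left_cancel₀ (two_ne_zero (α := K)) ?_ :
    (∏ l ∈ P, algebraMap O K (s l)) * LinearMap.trace K E (U P) = 0)).resolve_left hp
  linear_combination h0 - h1

/-- If no vector new at `A` has the opposite parity to `s`, one has the signs `s`. -/
theorem SignData.occurs (S : SignData (O := O) π P V) [CharZero O] (hP : P.Nonempty)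
    (A : Finset ι) (hzero : ∀ d ⊆ P, d.Nonempty → ∀ B ⊆ A, (d ≠ P ∨ B.Nonempty) →
      LinearMap.trace O _ (S.W d B) = 0)
    (hne : LinearMap.trace O _ (S.W P ∅) ≠ 0) {s : π → O} (hs : ∀ l ∈ P, s l * s l = 1)
    (hno : ∀ s' : π → O, (∀ l ∈ P, s' l * s' l = 1) →
      ∏ l ∈ P, s' l = -∏ l ∈ P, s l → ¬ S.Occurs A s') : S.Occurs A s :=
  S.occurs_aux (FractionRing O) hP A hzero hne hs hno

end FLTA.LT2

end
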