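import Fermat.Agent.LT2.TraceALOps
import Fermat.Agent.LT2.TraceNewAlg
import Fermat.Agent.RT.RaiseBase

/-!
# Part C: the sign vectors of the systems new at `Q`

At the level `N ∏ Q` the residual system of `E` has, among the vectors killed by both
pushforwards at every prime of `Q`, vectors with the signs `s` of the operators `U_l`, `l ∣ N`, as
soon as it has none with the opposite parity.
-/

set_option autoImplicit false

noncomputable section

namespace FLTA.LT2

open CongruenceSubgroup FLTA.Periods FLTA.LevelRaising FLTA.Gamma0 FLTA.RT IsLocalRing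

variable {O : Type} [CommRing O] [IsDomain O] [IsPrincipalIdealRing O] [IsLocalRing O]
  [IsAdicComplete (maximalIdeal O) O]

theorem corPar_parOp {M L : ℕ} [NeZero M] [NeZero L] (h : M ∣ L) {ℓ : ℕ} (hℓ : ℓ.Prime)
    (hℓL : ¬ ℓ ∣ L) (φ : PH O L) :
    corPar O M L (parOp O L ℓ φ) = parOp O M ℓ (corPar O M L φ) := by
  obtain ⟨q, rfl⟩ := h
  have : NeZero q := ⟨fun h => NeZero.ne (M * q) (by simp [h])⟩
  refine mapCoeff_injective (IsFractionRing.injective O (FractionRing O)) ?_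
  rw [mapCoeff_corPar, mapCoeff_parOp, mapCoeff_parOp, mapCoeff_corPar, corPar_mul, corPar_mul,
    cor0_parOp_of_nondeg cupB_nondeg hℓ hℓL]

theorem resPar_parOp {M L : ℕ} [NeZero M] [NeZero L] (h : M ∣ L) {ℓ : ℕ} (hℓ : ℓ.Prime)
    (hℓL : ¬ ℓ ∣ L) (φ : PH O M) :
    resPar O h (parOp O M ℓ φ) = parOp O L ℓ (resPar O h φ) := by
  obtain ⟨q, rfl⟩ := h
  have : NeZero q := ⟨fun h => NeZero.ne (M * q) (by simp [h])⟩
  exact (parOp_incl0 hℓ hℓL φ).symm

variable {σ : Type*} {pr : σ → ℕ} {a : σ → O}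

/-- Intertwining maps carry lattices to lattices. -/
theorem map_mem_locPart {M L : ℕ} [NeZero M] [NeZero L] (hp : ∀ s, (pr s).Prime)
    (f : PH O M →ₗ[O] PH O L) (hf : ∀ s x, f (parOp O M (pr s) x) = parOp O L (pr s) (f x))
    {φ : PH O M} (hφ : φ ∈ locPart O M pr a) : f φ ∈ locPart O L pr a := by
  have := FLTA.Gamma0.finite_homPar0 M O
  have := FLTA.Gamma0.finite_homPar0 L O
  obtain ⟨y, rfl⟩ := hφ
  exact ⟨f y, (localIdem_comm_map (T := parFam O M pr) (T' := parFam O L pr)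
    (fun s t => commute_parOp (hp s) (hp t)) (fun s t => commute_parOp (hp s) (hp t)) a f hf y).symm⟩

/-- `U_l = -W_l` where no system lives at the level without `l`. -/
theorem parOp_eq_neg_parAL {M l : ℕ} [NeZero M] [NeZero (M * l)] (hl : l.Prime) (hlM : ¬ l ∣ M)
    (hp : ∀ s, (pr s).Prime) (hL : ∀ s, ¬ pr s ∣ M * l) (hold : locPart O M pr a = ⊥)
    {v : PH O (M * l)} (hv : v ∈ locPart O (M * l) pr a) :
    parOp O (M * l) l v = -parAL O (M * l) l v := by
  have := Fact.mk hl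
  have : NeZero l := ⟨hl.ne_zero⟩
  have h : Nat.Coprime l M := hl.coprime_iff_not_dvd.mpr hlM
  have h0 : corPar O M (M * l) (parAL O (M * l) l v) = 0 := (Submodule.mem_bot O).mp
    (hold ▸ map_mem_locPart hp (corPar O M (M * l))
      (fun s x => corPar_parOp (dvd_mul_right M l) (hp s) (hL s) x) (parAL_mem_locPart hp hL hv))
  refine Subtype.ext ?_
  show heckeHom O (M * l) l v.1 = -alOp O O (M * l) l v.1
  rw [eq_neg_iff_add_eq_zero, alOp_eq_alRes O O M l h,
    ← inclRes_corRes_alRes O hlM h (isParabolicHom_of_isParHom0 v.2)]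
  have e : corRes (alRes h v.1) = 0 := by
    rw [corPar_mul, alPar_mul h] at h0
    exact congrArg Subtype.val h0
  rw [e]
  exact AddMonoidHom.zero_comp _

section Lattices

variable (N : ℕ) {Q : Finset ℕ}

/-- The level attached to a subset of the auxiliary primes. -/
def lev (A : Finset {q // q ∈ Q}) : ℕ := N * ∏ q ∈ A, (q : ℕ)

variable {N}

theorem lev_step {r : {q // q ∈ Q}} {A₀ A : Finset {q // q ∈ Q}} (h : RaiseStep r A₀ A) :
    lev N A = lev N A₀ * r := by
  rw [lev, lev, h.eq_insert, Finset.prod_insert h.notMem]; ring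

theorem lev_dvd {r : {q // q ∈ Q}} {A₀ A : Finset {q // q ∈ Q}} (h : RaiseStep r A₀ A) :
    lev N A₀ ∣ lev N A :=
  ⟨r, lev_step h⟩

theorem dvd_lev_of_mem {q : {q // q ∈ Q}} {A : Finset {q // q ∈ Q}} (h : q ∈ A) :
    (q : ℕ) ∣ lev N A :=
  (Finset.dvd_prod_of_mem (fun q : {q // q ∈ Q} => (q : ℕ)) h).mul_left N

variable [∀ A : Finset {q // q ∈ Q}, NeZero (lev N A)]
  (hp : ∀ s, (pr s).Prime) (hL : ∀ A : Finset {q // q ∈ Q}, ∀ s, ¬ pr s ∣ lev N A)
  (hsq : ∀ A : Finset {q // q ∈ Q}, Squarefree (lev N A)) (hQ : ∀ q ∈ Q, q.Prime)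

variable (pr a N) in
/-- The lattice at the level attached to `A`. -/
abbrev Lat (A : Finset {q // q ∈ Q}) : Type := locPart O (lev N A) pr a

include hp hL in
/-- Restriction between the lattices. -/
def latRes {r : {q // q ∈ Q}} {A₀ A : Finset {q // q ∈ Q}} (h : RaiseStep r A₀ A) :
    Lat pr a N A₀ →ₗ[O] Lat pr a N A :=
  (resPar O (lev_dvd h)).restrict fun _ hx => map_mem_locPart hp _
    (fun s x => resPar_parOp (lev_dvd h) (hp s) (hL A s) x) hx

include hp hL in
/-- Corestriction between the lattices. -/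
def latCor {r : {q // q ∈ Q}} {A₀ A : Finset {q // q ∈ Q}} (h : RaiseStep r A₀ A) :
    Lat pr a N A →ₗ[O] Lat pr a N A₀ :=
  (corPar O (lev N A₀) (lev N A)).restrict fun _ hx => map_mem_locPart hp _
    (fun s x => corPar_parOp (lev_dvd h) (hp s) (hL A s) x) hx

include hp hL in
/-- Atkin–Lehner operators of the lattices. -/
abbrev latAL (d : ℕ) (A : Finset {q // q ∈ Q}) : Module.End O (Lat pr a N A) :=
  alLoc (lev N A) pr a hp (hL A) d

theorem coe_latRes {r : {q // q ∈ Q}} {A₀ A : Finset {q // q ∈ Q}} (h : RaiseStep r A₀ A)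
    (x : Lat pr a N A₀) : (latRes hp hL h x : PH O (lev N A)) = resPar O (lev_dvd h) x.1 :=
  rfl

theorem coe_latCor {r : {q // q ∈ Q}} {A₀ A : Finset {q // q ∈ Q}} (h : RaiseStep r A₀ A)
    (x : Lat pr a N A) :
    (latCor hp hL h x : PH O (lev N A₀)) = corPar O (lev N A₀) (lev N A) x.1 :=
  rfl

theorem coe_latAL (d : ℕ) (A : Finset {q // q ∈ Q}) (x : Lat pr a N A) :
    (latAL hp hL d A x : PH O (lev N A)) = parAL O (lev N A) d x.1 :=
  rfl

include hQ in
theorem corPar_parAL_resPar {r : {q // q ∈ Q}} {A₀ A : Finset {q // q ∈ Q}} (h : RaiseStep r A₀ A)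
    (hsq : Squarefree (lev N A)) (φ : PH O (lev N A₀)) :
    corPar O (lev N A₀) (lev N A) (resPar O (lev_dvd h) φ) = ((r : O) + 1) • φ ∧
    corPar O (lev N A₀) (lev N A) (parAL O (lev N A) r (resPar O (lev_dvd h) φ)) =
      parOp O (lev N A₀) r φ := by
  have hr : (r : ℕ).Prime := hQ r.1 r.2
  have := Fact.mk hr
  have : NeZero (r : ℕ) := ⟨hr.ne_zero⟩
  have : NeZero (lev N A₀ * r) := ⟨mul_ne_zero (NeZero.ne _) hr.ne_zero⟩
  have hco : Nat.Coprime (r : ℕ) (lev N A₀) := by
    rw [lev_step h] at hsq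
    exact (Nat.coprime_of_squarefree_mul hsq).symm
  have hn : ¬ (r : ℕ) ∣ lev N A₀ := (hr.coprime_iff_not_dvd).mp hco
  have key : ∀ (L : ℕ) [NeZero L] (e : L = lev N A₀ * r) (hd : lev N A₀ ∣ L),
      corPar O (lev N A₀) L (resPar O hd φ) = ((r : O) + 1) • φ ∧
      corPar O (lev N A₀) L (parAL O L r (resPar O hd φ)) = parOp O (lev N A₀) r φ := by
    intro L _ e hd
    subst e
    constructor
    · rw [resPar_mul, corPar_mul, cor0_incl0 hn]
    · rw [resPar_mul, alPar_mul hco, al0_incl0, corPar_mul, cor0_conj0 hn]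
  exact key (lev N A) (lev_step h) (lev_dvd h)

include hQ in
theorem corPar_resPar_square {r s : {q // q ∈ Q}} {A₀₀ A₀ A₁ A : Finset {q // q ∈ Q}}
    (h : RaiseStep r A₀ A) (h' : RaiseStep s A₁ A) (g : RaiseStep s A₀₀ A₀)
    (g' : RaiseStep r A₀₀ A₁) (hsq : Squarefree (lev N A)) (φ : PH O (lev N A₁)) :
    corPar O (lev N A₀) (lev N A) (resPar O (lev_dvd h') φ) =
      resPar O (lev_dvd g) (corPar O (lev N A₀₀) (lev N A₁) φ) := by
  have hr : (r : ℕ).Prime := hQ r.1 r.2
  have hco : ¬ (r : ℕ) ∣ lev N A₀ := by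
    rw [lev_step h] at hsq
    exact hr.coprime_iff_not_dvd.mp (Nat.coprime_of_squarefree_mul hsq).symm
  have key : ∀ (L L' : ℕ) [NeZero L] [NeZero L'] (e : L = lev N A₀ * r)
      (e' : L' = lev N A₀₀ * r) (hd : L' ∣ L) (φ : PH O L'),
      corPar O (lev N A₀) L (resPar O hd φ) =
        resPar O (lev_dvd g) (corPar O (lev N A₀₀) L' φ) := by
    intro L L' _ _ e e' hd φ
    subst e e'
    exact corPar_resPar hr hco (lev_dvd g) φ
  exact key (lev N A) (lev N A₁) (lev_step h) (lev_step g') (lev_dvd h') φ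

include hp hL hsq hQ in
/-- The degeneracy maps between the lattices. -/
def latDeg [CharZero O] :
    TraceData (K := O) (Lat pr a N (Q := Q)) where
  pull {r A₀ A} h := (latRes hp hL h).coprod (latAL hp hL r A ∘ₗ latRes hp hL h)
  push {r A₀ A} h := (latCor hp hL h).prod (latCor hp hL h ∘ₗ latAL hp hL r A)
  op _ := 1
  op_pull _ _ := rfl
  op_push _ _ := rfl
  push_pull_injective := fun {r A₀ A} h => by
    rw [injective_iff_map_eq_zero]
    rintro ⟨⟨x, hx⟩, ⟨y, hy⟩⟩ hxy
    have e1 : corPar O (lev N A₀) (lev N A) (resPar O (lev_dvd h) x +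
        parAL O (lev N A) r (resPar O (lev_dvd h) y)) = 0 := congrArg (fun v => v.1.1) hxy
    have e2 : corPar O (lev N A₀) (lev N A) (parAL O (lev N A) r (resPar O (lev_dvd h) x +
        parAL O (lev N A) r (resPar O (lev_dvd h) y))) = 0 := congrArg (fun v => v.2.1) hxy
    obtain ⟨a1, a2⟩ := corPar_parAL_resPar hQ h (hsq A) x
    obtain ⟨b1, b2⟩ := corPar_parAL_resPar hQ h (hsq A) y
    rw [map_add, a1, b2] at e1
    rw [map_add, map_add, alPar_alPar, a2, b1] at e2
    have hn : ¬ (r : ℕ) ∣ lev N A₀ := by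
      have := hsq A
      rw [lev_step h] at this
      exact (hQ r.1 r.2).coprime_iff_not_dvd.mp (Nat.coprime_of_squarefree_mul this).symm
    have hy0 : y = 0 := Subtype.ext (eq_zero_of_heckeHom_sq (hQ r.1 r.2) hn y.2 (by
      show (parOp O (lev N A₀) r (parOp O (lev N A₀) r y)).1 = ((((r : O) + 1) ^ 2) • y).1
      rw [eq_neg_of_add_eq_zero_right e1, map_neg, map_smul, eq_neg_of_add_eq_zero_left e2,
        smul_neg, neg_neg, smul_smul, sq]))
    subst hy0
    rw [map_zero, add_zero] at e1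
    obtain rfl : x = 0 := by
      refine Subtype.ext (AddMonoidHom.ext fun z => ?_)
      have e : ((r : O) + 1) * x.1 z = 0 := DFunLike.congr_fun (congrArg Subtype.val e1) z
      refine (mul_eq_zero.mp e).resolve_left fun h0 => ?_
      have : ((r.1 + 1 : ℕ) : O) = 0 := by push_cast; exact h0
      exact Nat.cast_ne_zero.mpr (Nat.succ_ne_zero _) this
    rfl
  push_pull_comm := fun {r s A₀₀ A₀ A₁ A} h h' g g' x hne => by
    have hrA : (r : ℕ) ∣ lev N A := dvd_lev_of_mem h.mem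
    have hrs : (r : ℕ) * (s : ℕ) ∣ lev N A :=
      ((Nat.coprime_primes (hQ r.1 r.2) (hQ s.1 s.2)).mpr fun e => hne (Subtype.ext e)).mul_dvd_of_dvd_of_dvd
        hrA (dvd_lev_of_mem h'.mem)
    obtain ⟨⟨x, hx⟩, ⟨y, hy⟩⟩ := x
    refine Prod.ext (Subtype.ext ?_) (Subtype.ext ?_)
    · show corPar O (lev N A₀) (lev N A) (resPar O (lev_dvd h') x +
          parAL O (lev N A) s (resPar O (lev_dvd h') y)) =
        resPar O (lev_dvd g) (corPar O (lev N A₀₀) (lev N A₁) x) +
          parAL O (lev N A₀) s (resPar O (lev_dvd g) (corPar O (lev N A₀₀) (lev N A₁) y))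
      rw [map_add, corPar_alPar (hsq A) (lev_dvd h) (dvd_lev_of_mem g.mem),
        corPar_resPar_square hQ h h' g g' (hsq A), corPar_resPar_square hQ h h' g g' (hsq A)]
    · show corPar O (lev N A₀) (lev N A) (parAL O (lev N A) r (resPar O (lev_dvd h') x +
          parAL O (lev N A) s (resPar O (lev_dvd h') y))) =
        resPar O (lev_dvd g) (corPar O (lev N A₀₀) (lev N A₁) (parAL O (lev N A₁) r x)) +
          parAL O (lev N A₀) s (resPar O (lev_dvd g)
            (corPar O (lev N A₀₀) (lev N A₁) (parAL O (lev N A₁) r y)))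
      rw [map_add, map_add, alPar_comm (hsq A) hrs,
        corPar_alPar (hsq A) (lev_dvd h) (dvd_lev_of_mem g.mem),
        ← resPar_alPar (hsq A) (lev_dvd h') (dvd_lev_of_mem g'.mem),
        ← resPar_alPar (hsq A) (lev_dvd h') (dvd_lev_of_mem g'.mem),
        corPar_resPar_square hQ h h' g g' (hsq A), corPar_resPar_square hQ h h' g g' (hsq A)]
  push_push := fun {r s A₀₀ A₀ A₁ A} h h' g g' z => by
    have hrs : (r : ℕ) * (s : ℕ) ∣ lev N A :=
      ((Nat.coprime_primes (hQ r.1 r.2) (hQ s.1 s.2)).mpr fun e => h.notMem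
        (Subtype.ext e ▸ g.mem)).mul_dvd_of_dvd_of_dvd (dvd_lev_of_mem h.mem) (dvd_lev_of_mem h'.mem)
    obtain ⟨z, hz⟩ := z
    have c₀ := fun w : PH O (lev N A) => corPar_trans (R := O) (lev_dvd g) (lev_dvd h) w
    have c₁ := fun w : PH O (lev N A) => corPar_trans (R := O) (lev_dvd g') (lev_dvd h') w
    refine ⟨Prod.ext (Subtype.ext ?_) (Subtype.ext ?_), Prod.ext (Subtype.ext ?_) (Subtype.ext ?_)⟩
    · show corPar O (lev N A₀₀) (lev N A₀) (corPar O (lev N A₀) (lev N A) z) =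
        corPar O (lev N A₀₀) (lev N A₁) (corPar O (lev N A₁) (lev N A) z)
      rw [c₀, c₁]
    · show corPar O (lev N A₀₀) (lev N A₀)
          (parAL O (lev N A₀) s (corPar O (lev N A₀) (lev N A) z)) =
        corPar O (lev N A₀₀) (lev N A₁) (corPar O (lev N A₁) (lev N A) (parAL O (lev N A) s z))
      rw [← corPar_alPar (hsq A) (lev_dvd h) (dvd_lev_of_mem g.mem), c₀, c₁]
    · show corPar O (lev N A₀₀) (lev N A₀)
          (corPar O (lev N A₀) (lev N A) (parAL O (lev N A) r z)) =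
        corPar O (lev N A₀₀) (lev N A₁)
          (parAL O (lev N A₁) r (corPar O (lev N A₁) (lev N A) z))
      rw [← corPar_alPar (hsq A) (lev_dvd h') (dvd_lev_of_mem g'.mem), c₀, c₁]
    · show corPar O (lev N A₀₀) (lev N A₀) (parAL O (lev N A₀) s
          (corPar O (lev N A₀) (lev N A) (parAL O (lev N A) r z))) =
        corPar O (lev N A₀₀) (lev N A₁) (parAL O (lev N A₁) r
          (corPar O (lev N A₁) (lev N A) (parAL O (lev N A) s z)))
      rw [← corPar_alPar (hsq A) (lev_dvd h) (dvd_lev_of_mem g.mem),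
        ← corPar_alPar (hsq A) (lev_dvd h') (dvd_lev_of_mem g'.mem), c₀, c₁,
        alPar_comm (hsq A) hrs]

theorem prod_inter_dvd_lev (d : Finset ℕ) (A : Finset {q // q ∈ Q}) :
    ∏ p ∈ d ∩ N.primeFactors, p ∣ lev N A := by
  refine dvd_trans ?_ (dvd_mul_right N _)
  exact (Finset.prod_dvd_prod_of_subset _ _ _ Finset.inter_subset_right).trans
    (Nat.prod_primeFactors_dvd N)

include hp hL hsq hQ in
/-- The lattices with the operators `W_d`, `d ∣ N`. -/
def latSign [CharZero O] :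
    SignData (O := O) ℕ N.primeFactors (Lat pr a N (Q := Q)) where
  deg := latDeg hp hL hsq hQ
  W d A := latAL hp hL (∏ p ∈ d ∩ N.primeFactors, p) A
  W_pull := fun d {r A₀ A} h x => by
    obtain ⟨⟨x, hx⟩, ⟨y, hy⟩⟩ := x
    have hd : ∏ p ∈ d ∩ N.primeFactors, p ∣ lev N A₀ := prod_inter_dvd_lev d A₀
    have hdr : (∏ p ∈ d ∩ N.primeFactors, p) * (r : ℕ) ∣ lev N A := by
      rw [lev_step h]; exact mul_dvd_mul_right hd _
    refine Subtype.ext ?_
    show parAL O (lev N A) _ (resPar O (lev_dvd h) x + parAL O (lev N A) r (resPar O (lev_dvd h) y)) =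
      resPar O (lev_dvd h) (parAL O (lev N A₀) _ x) +
        parAL O (lev N A) r (resPar O (lev_dvd h) (parAL O (lev N A₀) _ y))
    rw [map_add, resPar_alPar (hsq A) (lev_dvd h) hd, resPar_alPar (hsq A) (lev_dvd h) hd,
      alPar_comm (hsq A) hdr]
  W_push := fun d {r A₀ A} h z => by
    obtain ⟨z, hz⟩ := z
    have hd : ∏ p ∈ d ∩ N.primeFactors, p ∣ lev N A₀ := prod_inter_dvd_lev d A₀
    have hdr : (∏ p ∈ d ∩ N.primeFactors, p) * (r : ℕ) ∣ lev N A := by
      rw [lev_step h]; exact mul_dvd_mul_right hd _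
    refine Prod.ext (Subtype.ext ?_) (Subtype.ext ?_)
    · show corPar O (lev N A₀) (lev N A) (parAL O (lev N A) _ z) =
        parAL O (lev N A₀) _ (corPar O (lev N A₀) (lev N A) z)
      exact corPar_alPar (hsq A) (lev_dvd h) hd z
    · show corPar O (lev N A₀) (lev N A) (parAL O (lev N A) r (parAL O (lev N A) _ z)) =
        parAL O (lev N A₀) _ (corPar O (lev N A₀) (lev N A) (parAL O (lev N A) r z))
      rw [← alPar_comm (hsq A) hdr, corPar_alPar (hsq A) (lev_dvd h) hd]
  W_empty A := LinearMap.ext fun x => Subtype.ext (by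
    show parAL O (lev N A) _ x.1 = x.1
    rw [Finset.empty_inter, Finset.prod_empty, alPar_one (hsq A)])
  W_insert A l hl d hd hld := LinearMap.ext fun x => Subtype.ext (by
    show parAL O (lev N A) _ x.1 = parAL O (lev N A) _ (parAL O (lev N A) _ x.1)
    rw [Finset.singleton_inter_of_mem hl, Finset.prod_singleton, Finset.inter_eq_left.mpr hd,
      Finset.inter_eq_left.mpr (Finset.insert_subset hl hd), Finset.prod_insert hld,
      alPar_alPar_mul (hsq A)]
    rw [← Finset.prod_insert (f := fun p : ℕ => p) hld,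
      ← Finset.inter_eq_left.mpr (Finset.insert_subset hl hd)]
    exact prod_inter_dvd_lev _ A)
  W_sq A l hl := LinearMap.ext fun x => Subtype.ext (alPar_alPar x.1)

end Lattices

variable [Finite (ResidueField O)] {E : WeierstrassCurve ℤ}

/-- **Part C for part G.** If no vector new at `Q` has signs of the parity opposite to `s`, some
vector new at `Q` has the signs `s`. -/
theorem exists_new_signs [CharZero O] (h2 : maximalIdeal O = Ideal.span {(2 : O)})
    (G : TraceGeometry E) (hR : ResidualSystem E pr a) (hN : 1 < E.conductorLevel) (Q : Finset ℕ)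
    (hQ : ∀ q ∈ Q, ConjPrime E 1 q) (hQN : ∀ q ∈ Q, ¬ q ∣ E.conductorLevel)
    [NeZero (E.conductorLevel * ∏ q ∈ Q, q)]
    (hL : ∀ s, ¬ pr s ∣ E.conductorLevel * ∏ q ∈ Q, q)
    (hold : ∀ l ∈ E.conductorLevel.primeFactors, ∀ (M : ℕ) [NeZero M],
      E.conductorLevel * ∏ q ∈ Q, q = M * l → locPart O M pr a = ⊥)
    (s : ℕ → O) (hs : ∀ l ∈ E.conductorLevel.primeFactors, s l * s l = 1)
    (hno : ∀ s' : ℕ → O, (∀ l ∈ E.conductorLevel.primeFactors, s' l * s' l = 1) →
      ∏ l ∈ E.conductorLevel.primeFactors, s' l = -∏ l ∈ E.conductorLevel.primeFactors, s l →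
      ∀ v ∈ locPart O (E.conductorLevel * ∏ q ∈ Q, q) pr a,
        (∀ q ∈ Q, ∀ (M : ℕ) [NeZero M], E.conductorLevel * ∏ q ∈ Q, q = M * q →
          corPar O M (E.conductorLevel * ∏ q ∈ Q, q) v = 0 ∧
          corPar O M (E.conductorLevel * ∏ q ∈ Q, q)
            (parAL O (E.conductorLevel * ∏ q ∈ Q, q) q v) = 0) →
        (∀ l ∈ E.conductorLevel.primeFactors,
          parOp O (E.conductorLevel * ∏ q ∈ Q, q) l v = s' l • v) → v = 0) :
    ∃ v ∈ locPart O (E.conductorLevel * ∏ q ∈ Q, q) pr a, v ≠ 0 ∧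
      (∀ q ∈ Q, ∀ (M : ℕ) [NeZero M], E.conductorLevel * ∏ q ∈ Q, q = M * q →
        corPar O M (E.conductorLevel * ∏ q ∈ Q, q) v = 0 ∧
        corPar O M (E.conductorLevel * ∏ q ∈ Q, q)
          (parAL O (E.conductorLevel * ∏ q ∈ Q, q) q v) = 0) ∧
      ∀ l ∈ E.conductorLevel.primeFactors,
        parOp O (E.conductorLevel * ∏ q ∈ Q, q) l v = s l • v := by
  classical
  set N := E.conductorLevel
  have h20 : (2 : O) ≠ 0 := two_ne_zero
  have hQp : ∀ q ∈ Q, q.Prime := fun q hq => (hQ q hq).prime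
  have hN0 : N ≠ 0 := by omega
  have hsqN : Squarefree N := E.squarefree_conductorLevel
  have : ∀ A : Finset {q // q ∈ Q}, NeZero (lev N A) := fun A =>
    ⟨mul_ne_zero hN0 (Finset.prod_ne_zero_iff.mpr fun q _ => (hQp q.1 q.2).ne_zero)⟩
  have hlevQ : lev N (Finset.univ : Finset {q // q ∈ Q}) = N * ∏ q ∈ Q, q := by
    rw [lev, Finset.univ_eq_attach, Finset.prod_attach Q (fun q => q)]
  have hdvd : ∀ A : Finset {q // q ∈ Q}, lev N A ∣ N * ∏ q ∈ Q, q := fun A =>
    hlevQ ▸ mul_dvd_mul_left N (Finset.prod_dvd_prod_of_subset _ _ _ (Finset.subset_univ A))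
  have hsqtop : Squarefree (N * ∏ q ∈ Q, q) := by
    refine (Nat.squarefree_mul (Nat.Coprime.prod_right fun q hq => ?_)).mpr
      ⟨hsqN, Finset.squarefree_prod_of_pairwise_isCoprime ?_ fun q hq => (hQp q hq).squarefree⟩
    · exact ((hQp q hq).coprime_iff_not_dvd.mpr (hQN q hq)).symm
    · exact fun x hx y hy hxy => Nat.coprime_iff_isRelPrime.mp
        ((Nat.coprime_primes (hQp x hx) (hQp y hy)).mpr hxy)
  have hsqA : ∀ A : Finset {q // q ∈ Q}, Squarefree (lev N A) := fun A =>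
    hsqtop.squarefree_of_dvd (hdvd A)
  have hLA : ∀ A : Finset {q // q ∈ Q}, ∀ i, ¬ pr i ∣ lev N A := fun A i h =>
    hL i (h.trans (hdvd A))
  set P := N.primeFactors
  let S := latSign (O := O) (a := a) (N := N) (Q := Q) hR.prime hLA hsqA hQp
  have : ∀ A : Finset {q // q ∈ Q}, Module.Finite O (Lat pr a N A) := fun A => by
    have := FLTA.Gamma0.finite_homPar0 (lev N A) O
    exact inferInstance
  have : ∀ A : Finset {q // q ∈ Q}, Module.Free O (Lat pr a N A) := fun A => by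
    have := FLTA.Gamma0.finite_homPar0 (lev N A) O
    have := Module.Free.of_equiv (homPar0Equiv (lev N A) O O).symm
    exact Module.Free.of_equiv
      ((Submodule.basisOfPid (Module.Free.chooseBasis O (homPar0 O (Gamma0 (lev N A)) O))
        (locPart O (lev N A) pr a)).2.equivFun).symm
  have hP : P.Nonempty := Nat.nonempty_primeFactors.mpr hN
  have key : ∀ (L : ℕ) [NeZero L] (hLi : ∀ i, ¬ pr i ∣ L) (B : Finset ℕ)
      (hB : ∀ q ∈ B, ConjPrime E 1 q), L = N * ∏ q ∈ B, q → ∀ d : ℕ, d ∣ N → d ≠ 1 →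
      (d ≠ N ∨ B.Nonempty) → LinearMap.trace O _ (alLoc L pr a hR.prime hLi d) = 0 := by
    intro L _ hLi B hB e d hd hd1 hor
    subst e
    exact trace_alLoc_eq_zero h2 h20 G hR B hB hLi hd hd1 hor
  have hzero : ∀ d ⊆ P, d.Nonempty → ∀ B ⊆ (Finset.univ : Finset {q // q ∈ Q}),
      (d ≠ P ∨ B.Nonempty) → LinearMap.trace O _ (S.W d B) = 0 := by
    intro d hd hd0 B _ hor
    show LinearMap.trace O _ (latAL (a := a) hR.prime hLA (∏ p ∈ d ∩ P, p) B) = 0
    rw [Finset.inter_eq_left.mpr hd]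
    have hpr : ∀ p ∈ d, p.Prime := fun p hp => Nat.prime_of_mem_primeFactors (hd hp)
    refine key (lev N B) (hLA B) (B.map (Function.Embedding.subtype _))
      (fun q hq => ?_) (by rw [lev, Finset.prod_map]; rfl) _ ?_ ?_ ?_
    · obtain ⟨q, -, rfl⟩ := Finset.mem_map.mp hq
      exact hQ q.1 q.2
    · exact (Finset.prod_dvd_prod_of_subset _ _ _ hd).trans (Nat.prod_primeFactors_dvd N)
    · intro h
      obtain ⟨p, hp⟩ := hd0
      exact (hpr p hp).ne_one (Nat.dvd_one.mp (h ▸ Finset.dvd_prod_of_mem (fun p => p) hp))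
    · refine hor.imp (fun h e => h ?_) Finset.Nonempty.map
      rw [← Nat.primeFactors_prod hpr]
      exact congrArg Nat.primeFactors e
  have hne : LinearMap.trace O _ (S.W P ∅) ≠ 0 := by
    show LinearMap.trace O _ (latAL (a := a) hR.prime hLA (∏ p ∈ P ∩ P, p) ∅) ≠ 0
    rw [Finset.inter_self, Nat.prod_primeFactors_of_squarefree hsqN]
    have : NeZero N := ⟨hN0⟩
    have key0 : ∀ (L : ℕ) [NeZero L] (hLi : ∀ i, ¬ pr i ∣ L), L = N →
        LinearMap.trace O _ (alLoc L pr a hR.prime hLi N) ≠ 0 := by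
      intro L _ hLi e
      subst e
      exact trace_alLoc_ne_zero h2 h20 G hR hLi
    exact key0 (lev N ∅) (hLA ∅) (by simp [lev])
  -- the meaning of a vector with signs, at any level equal to the top one
  have conv : ∀ (L : ℕ) [NeZero L], L = N * ∏ q ∈ Q, q → ∀ l ∈ P, ∀ v ∈ locPart O L pr a,
      parOp O L l v = -parAL O L l v := by
    intro L _ e l hl v hv
    have hlp := Nat.prime_of_mem_primeFactors hl
    have hlL : l ∣ L := e ▸ (Nat.dvd_of_mem_primeFactors hl).mul_right _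
    obtain ⟨M, rfl⟩ : ∃ M, L = M * l := ⟨L / l, (Nat.div_mul_cancel hlL).symm⟩
    have : NeZero M := ⟨fun h => NeZero.ne (M * l) (by simp [h])⟩
    refine parOp_eq_neg_parAL hlp (fun h => ?_) hR.prime (fun i => e ▸ hL i) (hold l hl M e.symm) hv
    have hsqM : Squarefree (M * l) := e ▸ hsqtop
    exact hlp.coprime_iff_not_dvd.mp (Nat.coprime_of_squarefree_mul hsqM).symm h
  have hWl : ∀ l ∈ P, ∀ x : Lat pr a N Finset.univ,
      (S.W {l} Finset.univ x).1 = parAL O (lev N Finset.univ) l x.1 := fun l hl x => by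
    show parAL O (lev N Finset.univ) (∏ p ∈ {l} ∩ N.primeFactors, p) x.1 = _
    rw [Finset.singleton_inter_of_mem (show l ∈ N.primeFactors from hl), Finset.prod_singleton]
  -- signs of `W` are the opposite of those of `U`
  have hneg : ∀ t : ℕ → O, ∏ l ∈ P, (-t l) = (-1) ^ P.card * ∏ l ∈ P, t l := fun t => by
    rw [Finset.prod_neg]
  obtain ⟨v, hv0, hvnew, hvW⟩ := S.occurs hP Finset.univ hzero hne
    (s := fun l => -s l) (fun l hl => by rw [neg_mul_neg, hs l hl]) fun t ht hpar ⟨w, hw0, hwnew, hwW⟩ => by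
      refine hw0 (Subtype.ext ?_)
      have hwp : ∀ l ∈ P, parOp O (lev N Finset.univ) l w.1 = (-t l) • w.1 := fun l hl => by
        have e := (hWl l hl w).symm.trans (congrArg Subtype.val (hwW l hl))
        rw [conv _ hlevQ l hl w.1 w.2, e]
        exact (neg_smul (t l) w.1).symm
      have hwq : ∀ q ∈ Q, ∀ (M : ℕ) [NeZero M], N * ∏ q ∈ Q, q = M * q →
          corPar O M (lev N Finset.univ) w.1 = 0 ∧
          corPar O M (lev N Finset.univ) (parAL O (lev N Finset.univ) q w.1) = 0 := by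
        intro q hq M _ e
        have hst := RaiseStep.of_mem (Finset.mem_univ (⟨q, hq⟩ : {q // q ∈ Q}))
        obtain rfl : M = lev N (Finset.univ.erase (⟨q, hq⟩ : {q // q ∈ Q})) := by
          refine mul_right_cancel₀ (hQp q hq).ne_zero ?_
          rw [← e, ← hlevQ]
          exact lev_step hst
        have := hwnew _ _ hst
        exact ⟨congrArg (fun z => z.1.1) this, congrArg (fun z => z.2.1) this⟩
      have fin : ∀ (L : ℕ) [NeZero L] (w : PH O L), L = N * ∏ q ∈ Q, q → w ∈ locPart O L pr a →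
          (∀ q ∈ Q, ∀ (M : ℕ) [NeZero M], N * ∏ q ∈ Q, q = M * q →
            corPar O M L w = 0 ∧ corPar O M L (parAL O L q w) = 0) →
          (∀ l ∈ P, parOp O L l w = (-t l) • w) → w = 0 := by
        intro L _ w e
        subst e
        refine hno (fun l => -t l) (fun l hl => by rw [neg_mul_neg, ht l hl]) ?_ w
        rw [hneg, hpar, hneg, mul_neg, ← mul_assoc, ← mul_pow, neg_one_mul, neg_neg, one_pow, one_mul]
      exact fin _ w.1 hlevQ w.2 hwq hwp
  have hvp : ∀ l ∈ P, parOp O (lev N Finset.univ) l v.1 = s l • v.1 := fun l hl => by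
    rw [conv _ hlevQ l hl v.1 v.2]
    have e := (hWl l hl v).symm.trans (congrArg Subtype.val (hvW l hl))
    rw [e]
    exact (neg_eq_iff_eq_neg).mpr (neg_smul (s l) v.1)
  have hvq : ∀ q ∈ Q, ∀ (M : ℕ) [NeZero M], N * ∏ q ∈ Q, q = M * q →
      corPar O M (lev N Finset.univ) v.1 = 0 ∧
      corPar O M (lev N Finset.univ) (parAL O (lev N Finset.univ) q v.1) = 0 := by
    intro q hq M _ e
    have hst := RaiseStep.of_mem (Finset.mem_univ (⟨q, hq⟩ : {q // q ∈ Q}))
    obtain rfl : M = lev N (Finset.univ.erase (⟨q, hq⟩ : {q // q ∈ Q})) := by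
      refine mul_right_cancel₀ (hQp q hq).ne_zero ?_
      rw [← e, ← hlevQ]
      exact lev_step hst
    have := hvnew _ _ hst
    exact ⟨congrArg (fun z => z.1.1) this, congrArg (fun z => z.2.1) this⟩
  have fin : ∀ (L : ℕ) [NeZero L] (v : PH O L), L = N * ∏ q ∈ Q, q → v ∈ locPart O L pr a → v ≠ 0 →
      (∀ q ∈ Q, ∀ (M : ℕ) [NeZero M], N * ∏ q ∈ Q, q = M * q →
        corPar O M L v = 0 ∧ corPar O M L (parAL O L q v) = 0) →
      (∀ l ∈ P, parOp O L l v = s l • v) →
      ∃ v ∈ locPart O (N * ∏ q ∈ Q, q) pr a, v ≠ 0 ∧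
        (∀ q ∈ Q, ∀ (M : ℕ) [NeZero M], N * ∏ q ∈ Q, q = M * q →
          corPar O M (N * ∏ q ∈ Q, q) v = 0 ∧
          corPar O M (N * ∏ q ∈ Q, q) (parAL O (N * ∏ q ∈ Q, q) q v) = 0) ∧
        ∀ l ∈ P, parOp O (N * ∏ q ∈ Q, q) l v = s l • v := by
    intro L _ v e hm h0 hq hl
    subst e
    exact ⟨v, hm, h0, hq, hl⟩
  exact fin _ v.1 hlevQ v.2 (fun h => hv0 (Subtype.ext h)) hvq hvp

end FLTA.LT2

end
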