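import Fermat.Agent.LT2.PrimesGroup
import Fermat.Agent.LT2.PrimesTwoTorsion
import Fermat.Agent.LT2.ImageRep

/-!
# Part F: `E[2]` as the reduction of `E[2ⁿ]`
-/

set_option autoImplicit false

open scoped WeierstrassCurve.Affine
open WeierstrassCurve WeierstrassCurve.Affine.Point Matrix

noncomputable section

namespace FLTA.LT2.Primes

open FLTA.LT2.Image FLTA.EllReduction

noncomputable local instance : DecidableEq (AlgebraicClosure ℚ) := Classical.decEq _

local notation "Γℚ" => AlgebraicClosure ℚ ≃ₐ[ℚ] AlgebraicClosure ℚ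

variable {E : WeierstrassCurve ℤ}

/-- An equivariant identification of `E[2]` with the reduction of `(ℤ/2ⁿ)²`. -/
theorem exists_tors2_equiv (hE : Companion E) {n : ℕ} (hn : n ≠ 0) :
    ∃ e : Tors2 E ≃+ (Fin 2 → ZMod 2), ∀ (σ : Γℚ) (P : Tors2 E),
      e (σ • P) = redRho hn (repGL hE.Δ_ne_zero n) σ *ᵥ e P := by
  have : NeZero (2 ^ n) := ⟨pow_ne_zero _ two_ne_zero⟩
  set T := torsEquiv hE.Δ_ne_zero n with hT
  have hmem : ∀ x : Tors E n, (2 ^ (n - 1)) • (x : GeomPoint E) ∈
      EllReducible.Tors (E.map (Int.castRingHom ℚ)) 2 := fun x => by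
    refine (Submodule.mem_torsionBy_iff (R := ℤ)
      (M := ((E.map (Int.castRingHom ℚ))⁄(AlgebraicClosure ℚ)).Point) _ _).mpr ?_
    refine (natCast_zsmul _ 2).trans ((mul_nsmul (x : GeomPoint E) (2 ^ (n - 1)) 2).symm.trans ?_)
    rw [← pow_succ, Nat.sub_add_cancel (Nat.one_le_iff_ne_zero.mpr hn)]
    exact mem_tors.mp x.2
  let f : Tors E n →+ Tors2 E :=
    { toFun := fun x => ⟨_, hmem x⟩
      map_zero' := Subtype.ext (nsmul_zero _)
      map_add' := fun x y => Subtype.ext (nsmul_add (x : GeomPoint E) (y : GeomPoint E) _) }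
  have hf : ∀ (σ : Γℚ) (x : Tors E n), f (σ • x) = σ • f x := fun σ x => Subtype.ext (by
    show (2 ^ (n - 1)) • (σ • (x : GeomPoint E)) = σ • ((2 ^ (n - 1)) • (x : GeomPoint E))
    exact ((actHom E σ).map_nsmul _ (x : GeomPoint E)).symm)
  let g : Tors E n →+ (Fin 2 → ZMod 2) :=
    { toFun := fun x => mod2 hn ∘ T x
      map_zero' := funext fun i => by simp
      map_add' := fun x y => funext fun i => by simp }
  have hker : ∀ x, f x = 0 ↔ g x = 0 := by
    intro x
    have h1 : f x = 0 ↔ (2 ^ (n - 1)) • x = 0 :=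
      ⟨fun h => Subtype.ext (congrArg Subtype.val h :), fun h => Subtype.ext (congrArg Subtype.val h :)⟩
    rw [h1, ← T.map_eq_zero_iff, map_nsmul]
    constructor
    · exact fun h => funext fun i => (two_pow_pred_mul_eq_zero_iff hn _).mp (congrFun h i)
    · exact fun h => funext fun i => (two_pow_pred_mul_eq_zero_iff hn _).mpr (congrFun h i)
  have hg : Function.Surjective g := fun v => by
    refine ⟨T.symm fun i => ((v i).val : ℕ), funext fun i => ?_⟩
    show mod2 hn (T (T.symm _) i) = v i
    rw [LinearEquiv.apply_symm_apply, map_natCast, ZMod.natCast_zmod_val]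
  let lft : (Fin 2 → ZMod 2) → Tors E n := Function.surjInv hg
  have hlft : ∀ v, g (lft v) = v := Function.surjInv_eq hg
  have hwd : ∀ x, f (lft (g x)) = f x := fun x => by
    rw [← sub_eq_zero, ← map_sub, hker, map_sub, hlft, sub_self]
  let j : (Fin 2 → ZMod 2) →+ Tors2 E :=
    { toFun := fun v => f (lft v)
      map_zero' := by rw [hker, hlft]
      map_add' := fun v w => by
        rw [← map_add, ← sub_eq_zero, ← map_sub, hker, map_sub, map_add, hlft, hlft, hlft,
          sub_self] }
  have hj : ∀ (σ : Γℚ) v, j (redRho hn (repGL hE.Δ_ne_zero n) σ *ᵥ v) = σ • j v := fun σ v => by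
    have hgs : g (σ • lft v) = redRho hn (repGL hE.Δ_ne_zero n) σ *ᵥ v := by
      conv_rhs => rw [← hlft v]
      funext i
      show mod2 hn (T (σ • lft v) i) = _
      rw [hT, torsEquiv_smul, RingHom.map_mulVec]
      rfl
    show f (lft _) = σ • f (lft v)
    rw [← hgs, hwd, hf]
  have hinj : Function.Injective j := (injective_iff_map_eq_zero j).mpr fun v hv => by
    rw [← hlft v]; exact (hker _).mp hv
  have := finite_tors2 hE
  have hbij : Function.Bijective j := by
    rw [Nat.bijective_iff_injective_and_card]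
    refine ⟨hinj, ?_⟩
    rw [natCard_tors2 hE, Nat.card_fun, Nat.card_zmod, Nat.card_eq_fintype_card, Fintype.card_fin]
    norm_num
  let e := (AddEquiv.ofBijective j hbij).symm
  refine ⟨e, fun σ P => ?_⟩
  apply (AddEquiv.ofBijective j hbij).injective
  rw [AddEquiv.apply_symm_apply]
  show σ • P = j _
  rw [hj]
  exact congrArg (σ • ·) ((AddEquiv.ofBijective j hbij).apply_symm_apply P).symm

end FLTA.LT2.Primes

end
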