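import Fermat.Agent.LT2.PrimesTwoTorsion

/-!
# Part F: a transposition of `E[2]` negates the square root of the discriminant

Consequently the discriminant is a nonsquare modulo a prime at which Frobenius acts on `E[2]` as a
transposition.
-/

set_option autoImplicit false

open WeierstrassCurve WeierstrassCurve.Affine
open scoped WeierstrassCurve.Affine
open scoped Classical

noncomputable section

namespace FLTA.LT2

local notation "Qbar" => AlgebraicClosure ℚ
local notation "Γℚ" => AlgebraicClosure ℚ ≃ₐ[ℚ] AlgebraicClosure ℚ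

variable {E : WeierstrassCurve ℤ}

/-- A root of the `2`-division cubic is one of the three roots. -/
theorem eq_or_eq_or_eq_of_two_division {F : Type*} [Field F] [CharZero F] {W : WeierstrassCurve F}
    {x₁ x₂ x : F} (hx : x₁ ≠ x₂)
    (r₁ : 4 * x₁ ^ 3 + W.b₂ * x₁ ^ 2 + 2 * W.b₄ * x₁ + W.b₆ = 0)
    (r₂ : 4 * x₂ ^ 3 + W.b₂ * x₂ ^ 2 + 2 * W.b₄ * x₂ + W.b₆ = 0)
    (r : 4 * x ^ 3 + W.b₂ * x ^ 2 + 2 * W.b₄ * x + W.b₆ = 0) :
    x = x₁ ∨ x = x₂ ∨ x = -W.b₂ / 4 - x₁ - x₂ := by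
  obtain ⟨x₃, h₃⟩ : ∃ x₃, -W.b₂ / 4 - x₁ - x₂ = x₃ := ⟨_, rfl⟩
  rw [h₃]
  have hb2 : W.b₂ = -4 * (x₁ + x₂ + x₃) := by rw [← h₃]; field_simp; ring
  have hb4 : W.b₄ = 2 * (x₁ * x₂ + x₁ * x₃ + x₂ * x₃) := by
    refine mul_left_cancel₀ (mul_ne_zero two_ne_zero (sub_ne_zero.2 hx)) ?_
    linear_combination r₁ - r₂ - (x₁ ^ 2 - x₂ ^ 2) * hb2
  have hb6 : W.b₆ = -4 * (x₁ * x₂ * x₃) := by
    linear_combination r₁ - x₁ ^ 2 * hb2 - 2 * x₁ * hb4
  have h : (x - x₁) * ((x - x₂) * (x - x₃)) = 0 := by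
    refine mul_left_cancel₀ (OfNat.ofNat_ne_zero 4 : (4 : F) ≠ 0) ?_
    linear_combination r - x ^ 2 * hb2 - 2 * x * hb4 - hb6
  rcases mul_eq_zero.mp h with h | h
  · exact Or.inl (sub_eq_zero.mp h)
  rcases mul_eq_zero.mp h with h | h
  · exact Or.inr (Or.inl (sub_eq_zero.mp h))
  · exact Or.inr (Or.inr (sub_eq_zero.mp h))

/-- An involution of `E[2]` other than the identity negates a square root of the discriminant. -/
theorem exists_sqrt_disc_neg {σ : Γℚ} (hmove : ∃ P : Tors2 E, σ • P ≠ P)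
    (hinv : ∀ P : Tors2 E, σ • σ • P = P) :
    ∃ δ : Qbar, δ ^ 2 = ((E.Δ : ℤ) : Qbar) ∧ σ δ = -δ := by
  obtain ⟨Q, hQ⟩ := hmove
  have hQ0 : Q ≠ 0 := fun h => hQ (by rw [h, smul_zero])
  set P := Q + σ • Q with hPdef
  have hneg : ∀ R : Tors2 E, -R = R := fun R =>
    neg_eq_of_add_eq_zero_left (by rw [← two_nsmul]; exact two_nsmul_tors2 R)
  have hP0 : P ≠ 0 := fun h => hQ ((eq_neg_of_add_eq_zero_right (hPdef ▸ h)).trans (hneg Q))
  have hPfix : σ • P = P := by rw [hPdef, smul_add, hinv, add_comm]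
  have hord : ∀ R : Tors2 E, R ≠ 0 →
      addOrderOf R.1 = 2 := fun R hR =>
    addOrderOf_eq_prime (congrArg Subtype.val (two_nsmul_tors2 R))
      (fun h => hR (Subtype.ext h))
  obtain ⟨x₁, y₁, n₁, e₁, l₁, r₁⟩ := EllPoints.exists_coords_of_addOrderOf_two (hord P hP0)
  obtain ⟨x₂, y₂, n₂, e₂, l₂, r₂⟩ := EllPoints.exists_coords_of_addOrderOf_two (hord Q hQ0)
  have hx : x₁ ≠ x₂ := fun hx => by
    subst hx
    have : (2 : Qbar) * (y₁ - y₂) = 0 := by linear_combination l₁ - l₂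
    obtain rfl : y₁ = y₂ := sub_eq_zero.1 ((mul_eq_zero.1 this).resolve_left two_ne_zero)
    have hPQ : P = Q := Subtype.ext (e₁.trans e₂.symm)
    exact hQ (by rw [← hPQ]; exact hPfix)
  have h1 : σ x₁ = x₁ := by
    have h := congrArg Subtype.val hPfix
    change σ • P.1 = P.1 at h
    rw [e₁, Affine.Point.algEquiv_smul_def, Affine.Point.map_some,
      Affine.Point.some.injEq] at h
    exact h.1
  have h22 : σ (σ x₂) = x₂ := by
    have h := congrArg Subtype.val (hinv Q)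
    change σ • σ • Q.1 = Q.1 at h
    rw [e₂, Affine.Point.algEquiv_smul_def, Affine.Point.algEquiv_smul_def,
      Affine.Point.map_some, Affine.Point.map_some, Affine.Point.some.injEq] at h
    exact h.1
  set W : WeierstrassCurve Qbar := ((E.map (Int.castRingHom ℚ))⁄Qbar) with hW
  have hr : ∀ x : Qbar, 4 * x ^ 3 + W.b₂ * x ^ 2 + 2 * W.b₄ * x + W.b₆ = 0 →
      4 * σ x ^ 3 + W.b₂ * σ x ^ 2 + 2 * W.b₄ * σ x + W.b₆ = 0 := by
    intro x hx
    have h := congrArg σ hx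
    simpa only [hW, WeierstrassCurve.baseChange, WeierstrassCurve.map_b₂, WeierstrassCurve.map_b₄,
      WeierstrassCurve.map_b₆, map_add, map_mul, map_pow, map_ofNat, eq_intCast, map_intCast,
      map_zero] using h
  have hb : σ W.b₂ = W.b₂ := by
    simp [hW, WeierstrassCurve.baseChange]
  have hs : σ x₂ ≠ x₂ := fun h => hQ <| by
    apply Subtype.ext
    show σ • Q.1 = Q.1
    rw [e₂, Affine.Point.algEquiv_smul_def, Affine.Point.map_some, Affine.Point.some.injEq]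
    refine ⟨h, ?_⟩
    have l := congrArg σ l₂
    simp only [WeierstrassCurve.baseChange, WeierstrassCurve.map_a₁, WeierstrassCurve.map_a₃,
      map_add, map_mul, map_ofNat, eq_intCast, map_intCast, map_zero] at l l₂
    change σ y₂ = y₂
    have : (2 : Qbar) * (σ y₂ - y₂) = 0 := by rw [h] at l; linear_combination l - l₂
    exact sub_eq_zero.1 ((mul_eq_zero.1 this).resolve_left two_ne_zero)
  have h2 : σ x₂ = -W.b₂ / 4 - x₁ - x₂ := by
    rcases eq_or_eq_or_eq_of_two_division hx r₁ r₂ (hr x₂ r₂) with e | e | e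
    · exact absurd (σ.injective (h1.trans e.symm)) hx
    · exact absurd e hs
    · exact e
  refine ⟨_, (sq_prod_eq_disc hx r₁ r₂).trans ?_, ?_⟩
  · rw [WeierstrassCurve.baseChange, WeierstrassCurve.map_Δ, WeierstrassCurve.map_Δ]
    simp
  · rw [← h2]
    simp only [map_mul, map_sub, map_ofNat, h1, h22]
    ring

/-- If Frobenius at `q` acts on `E[2]` as a transposition, the discriminant is a nonsquare
modulo `q`. -/
theorem not_isSquare_disc_of_frobenius {q : ℕ} (hq : q.Prime) (hq2 : q ≠ 2)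
    (hgood : ¬ (q : ℤ) ∣ E.Δ) {A : ValuationSubring Qbar} (hA : A.LiesOverPrime q) {σ : Γℚ}
    (hσ : A.IsFrobeniusAt σ q) (hmove : ∃ P : Tors2 E, σ • P ≠ P)
    (hinv : ∀ P : Tors2 E, σ • σ • P = P) : ¬ IsSquare (E.Δ : ZMod q) := by
  rintro ⟨s, hs⟩
  obtain ⟨δ, hδ, hσδ⟩ := exists_sqrt_disc_neg hmove hinv
  have : Fact q.Prime := ⟨hq⟩
  have : CharP (IsLocalRing.ResidueField A) q := FLTA.Galois.charP_residueField hq hA
  have hint : IsIntegral ℤ δ := IsIntegral.of_pow two_pos (by rw [hδ]; exact isIntegral_algebraMap)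
  have hmem : δ ∈ A := FLTA.Galois.mem_of_isIntegral hint
  obtain ⟨hd, hF⟩ := hσ
  set r := IsLocalRing.residue A ⟨δ, hmem⟩ with hr
  have hmem' : σ δ ∈ A := by rw [hσδ]; exact neg_mem hmem
  have hfr : IsLocalRing.residue A ⟨σ δ, hmem'⟩ = r ^ q := hF r
  rw [show (⟨σ δ, hmem'⟩ : A) = -⟨δ, hmem⟩ from Subtype.ext hσδ, map_neg, ← hr] at hfr
  let ι : ZMod q →+* IsLocalRing.ResidueField A := ZMod.castHom (dvd_refl q) _
  have hr2 : r ^ 2 = ι s ^ 2 := by
    rw [← map_pow ι, pow_two s, ← hs, map_intCast, hr, ← map_pow,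
      ← map_intCast (IsLocalRing.residue A)]
    congr 1
    exact Subtype.ext (hδ.trans (map_intCast A.subtype _).symm)
  have hs0 : ι s ≠ 0 := by
    intro h
    rw [map_eq_zero] at h
    rw [h, mul_zero] at hs
    exact hgood ((ZMod.intCast_zmod_eq_zero_iff_dvd _ _).mp hs)
  have hq' : r ^ q = r := by
    rcases eq_or_eq_neg_of_sq_eq_sq r (ι s) hr2 with h | h <;> rw [h]
    · rw [← map_pow, ZMod.pow_card]
    · rw [(hq.odd_of_ne_two hq2).neg_pow, ← map_pow, ZMod.pow_card]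
  have hr0 : r ≠ 0 := fun h => hs0 (by
    rw [h, zero_pow two_ne_zero] at hr2; exact (pow_eq_zero_iff two_ne_zero).mp hr2.symm)
  rw [hq'] at hfr
  have h2r : (2 : IsLocalRing.ResidueField A) * r = 0 := by linear_combination -hfr
  refine hr0 ((mul_eq_zero.mp h2r).resolve_left fun h => hq2 ?_)
  have := (CharP.cast_eq_zero_iff (IsLocalRing.ResidueField A) q 2).mp (by exact_mod_cast h)
  exact (Nat.prime_dvd_prime_iff_eq hq Nat.prime_two).mp this

end FLTA.LT2

end
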