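import Fermat.Agent.LT2.PrimesGroup
import Fermat.Agent.Density.Frobenius

/-!
# Part F: Ramakrishna primes for a surjective representation modulo `2ⁿ`

Given an involution `M₀` which is not `1` modulo two and a crossed homomorphism which is not a
coboundary but is one at a transvection, some Frobenius element has image `M₀` and sees the class.
-/

set_option autoImplicit false

noncomputable section

open Matrix

namespace FLTA.LT2.Primes

open FLTA.LT2.Image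

local notation "Qb" => AlgebraicClosure ℚ
local notation "GQ" => AlgebraicClosure ℚ ≃ₐ[ℚ] AlgebraicClosure ℚ

variable {n : ℕ} (hn : n ≠ 0) (ρ : GQ →* GL (Fin 2) (ZMod (2 ^ n)))

theorem redRho_pow (g : GQ) (k : ℕ) : redRho hn ρ (g ^ k) = redRho hn ρ g ^ k := by
  induction k with
  | zero => rw [pow_zero, pow_zero, redRho_one]
  | succ k ih => rw [pow_succ, pow_succ, redRho_mul, ih]

/-- Some element with image `M₀` sees the class. -/
theorem exists_element_visible (hs : Function.Surjective ρ) {x : GQ → Fin 2 → ZMod 2}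
    (hx : ∀ g h, x (g * h) = x g + redRho hn ρ g *ᵥ x h) {σ : GQ}
    (hsq : (((ρ σ : GL (Fin 2) (ZMod (2 ^ n))) : Matrix (Fin 2) (Fin 2) (ZMod (2 ^ n))) - 1) *
      (((ρ σ : GL (Fin 2) (ZMod (2 ^ n))) : Matrix (Fin 2) (Fin 2) (ZMod (2 ^ n))) - 1) = 0)
    (hσ : redRho hn ρ σ ≠ 1) {v : Fin 2 → ZMod 2} (hv : x σ = redRho hn ρ σ *ᵥ v - v)
    (hne : ¬ ∃ w, ∀ g, x g = redRho hn ρ g *ᵥ w - w) (M₀ : GL (Fin 2) (ZMod (2 ^ n)))
    (hM : M₀ * M₀ = 1)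
    (hM1 : (M₀ : Matrix (Fin 2) (Fin 2) (ZMod (2 ^ n))).map (mod2 hn) ≠ 1) :
    ∃ g, ρ g = M₀ ∧ ¬ ∃ m, x g = redRho hn ρ g *ᵥ m - m := by
  obtain ⟨h, hh, hu⟩ : ∃ h, ρ h = 1 ∧ x h ≠ 0 := by
    by_contra! hker
    exact hne (exists_cob_of_inflated hn ρ x hx hker hs hsq hσ hv)
  obtain ⟨g₀, hg₀⟩ := hs M₀
  set M := redRho hn ρ g₀ with hMdef
  have hMM : M * M = 1 := by
    rw [hMdef, ← redRho_mul, redRho, map_mul, hg₀, hM, Units.val_one,
      Matrix.map_one _ (map_zero _) (map_one _)]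
  have hMne : M ≠ 1 := by rw [hMdef, redRho, hg₀]; exact hM1
  have key : ∀ (M : Matrix (Fin 2) (Fin 2) (ZMod 2)) (a u : Fin 2 → ZMod 2), M * M = 1 → M ≠ 1 →
      u ≠ 0 → ∃ G : Matrix (Fin 2) (Fin 2) (ZMod 2), G.det = 1 ∧
        ¬ ∃ m, a + M *ᵥ (G *ᵥ u) = M *ᵥ m - m := by
    set_option synthInstance.maxSize 2000 in decide
  obtain ⟨G, hG, hGu⟩ := key M (x g₀) (x h) hMM hMne hu
  obtain ⟨g, hg⟩ := exists_lift hn ρ hs G hG
  have hc : ρ (g * h * g⁻¹) = 1 := by rw [map_mul, map_mul, hh, mul_one, map_inv, mul_inv_cancel]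
  refine ⟨g₀ * (g * h * g⁻¹), by rw [map_mul, hc, mul_one, hg₀], ?_⟩
  have hrh : redRho hn ρ h = 1 := by
    rw [redRho, hh, Units.val_one, Matrix.map_one _ (map_zero _) (map_one _)]
  rw [hx, x_conj hn ρ x hx g h hrh, hg, ← hMdef,
    show redRho hn ρ (g₀ * (g * h * g⁻¹)) = M by rw [redRho, map_mul, hc, mul_one]; rfl]
  exact hGu

/-- **Ramakrishna primes.** -/
theorem exists_frobenius_visible (hρ : GaloisFactorsThroughFiniteLevel ρ)
    (hs : Function.Surjective ρ) {x : GQ → Fin 2 → ZMod 2}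
    (hx : ∀ g h, x (g * h) = x g + redRho hn ρ g *ᵥ x h)
    (hxlev : ∃ F : IntermediateField ℚ Qb, FiniteDimensional ℚ F ∧
      ∀ s ∈ F.fixingSubgroup, x s = 0) {σ : GQ}
    (hsq : (((ρ σ : GL (Fin 2) (ZMod (2 ^ n))) : Matrix (Fin 2) (Fin 2) (ZMod (2 ^ n))) - 1) *
      (((ρ σ : GL (Fin 2) (ZMod (2 ^ n))) : Matrix (Fin 2) (Fin 2) (ZMod (2 ^ n))) - 1) = 0)
    (hσ : redRho hn ρ σ ≠ 1) {v : Fin 2 → ZMod 2} (hv : x σ = redRho hn ρ σ *ᵥ v - v)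
    (hne : ¬ ∃ w, ∀ g, x g = redRho hn ρ g *ᵥ w - w) (M₀ : GL (Fin 2) (ZMod (2 ^ n)))
    (hM : M₀ * M₀ = 1)
    (hM1 : (M₀ : Matrix (Fin 2) (Fin 2) (ZMod (2 ^ n))).map (mod2 hn) ≠ 1) (S : Finset ℕ) :
    ∃ ℓ : ℕ, ℓ.Prime ∧ ℓ ∉ S ∧ ∃ A : ValuationSubring Qb, A.LiesOverPrime ℓ ∧
      ∃ τ : GQ, A.IsFrobeniusAt τ ℓ ∧ ρ τ = M₀ ∧ ¬ ∃ m, x τ = redRho hn ρ τ *ᵥ m - m := by
  obtain ⟨g, hg, hgx⟩ := exists_element_visible hn ρ hs hx hsq hσ hv hne M₀ hM hM1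
  obtain ⟨L₁, hL₁, h₁⟩ := hρ
  obtain ⟨F, hF, hxF⟩ := hxlev
  obtain ⟨ℓ, hℓ, hS, A, hA, τ, hτ, j, k, hk, hj⟩ :=
    Density.exists_frobenius_generator (L₁ ⊔ F) S g
  have hcong : ∀ a b : GQ, (∀ y ∈ L₁ ⊔ F, a y = b y) → ρ a = ρ b ∧ x a = x b := by
    intro a b hab
    have hfix : ∀ y ∈ L₁ ⊔ F, (b⁻¹ * a) y = y := fun y hy => by
      show b⁻¹ (a y) = y
      rw [hab y hy]
      exact b.symm_apply_apply y
    have e1 := h₁ (b⁻¹ * a) fun y hy => hfix y (le_sup_left (a := L₁) (b := F) hy)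
    have e2 := hxF (b⁻¹ * a) ((IntermediateField.mem_fixingSubgroup_iff _ _).2
      fun y hy => hfix y (le_sup_right (a := L₁) (b := F) hy))
    refine ⟨?_, ?_⟩
    · calc ρ a = ρ b * ρ (b⁻¹ * a) := by rw [← map_mul, mul_inv_cancel_left]
        _ = ρ b := by rw [e1, mul_one]
    · have h := hx b (b⁻¹ * a)
      rwa [mul_inv_cancel_left, e2, Matrix.mulVec_zero, add_zero] at h
  have hτρ : ρ τ = M₀ := by
    have h := (hcong _ _ hj).1
    rw [map_pow, hg] at h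
    rcases Nat.even_or_odd j with ⟨i, rfl⟩ | ⟨i, rfl⟩
    · exfalso
      rw [← two_mul, pow_mul, pow_two, hM, one_pow] at h
      have h' := (hcong _ _ hk).1
      rw [map_pow, ← h, one_pow, hg] at h'
      apply hM1
      rw [← h', Units.val_one, Matrix.map_one _ (map_zero _) (map_one _)]
    · rw [pow_succ, pow_mul, pow_two, hM, one_pow, one_mul] at h
      exact h.symm
  refine ⟨ℓ, hℓ, hS, A, hA, τ, hτ, hτρ, ?_⟩
  rintro ⟨m, hm⟩
  refine hgx ⟨m, ?_⟩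
  have hpow : ∀ i : ℕ, x (τ ^ i) = redRho hn ρ (τ ^ i) *ᵥ m - m := by
    intro i
    induction i with
    | zero => rw [pow_zero, x_one hn ρ x hx, redRho_one, Matrix.one_mulVec, sub_self]
    | succ i ih =>
      rw [pow_succ, hx, ih, hm, redRho_mul, Matrix.mulVec_sub, Matrix.mulVec_mulVec]
      abel
  have e := hcong _ _ hk
  rw [← e.2, hpow k, redRho, redRho, e.1]

end FLTA.LT2.Primes

end
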