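import Fermat.Agent.LT2.ImageCompanion
import Fermat.Agent.LT2.PrimesBasis
import Fermat.Agent.LT2.PrimesDiscriminant
import Fermat.Agent.LT2.PrimesFrobenius
import Fermat.Agent.LT2.PrimesRamakrishna

/-!
# Part F: conjugation primes at which a given class is visible

By surjectivity on `E[2ⁿ]` and the Frobenius density theorem some Frobenius element acts as
`!![1, 1; 0, -1]`, and may be chosen to see a given class.
-/

set_option autoImplicit false

open Matrix

noncomputable section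

namespace FLTA.LT2

open FLTA.LT2.Image

local notation "Γℚ" => AlgebraicClosure ℚ ≃ₐ[ℚ] AlgebraicClosure ℚ

variable {E : WeierstrassCurve ℤ}

variable (n : ℕ)

/-- The image of a Frobenius element at a conjugation prime. -/
def conjElt : GL (Fin 2) (ZMod (2 ^ n)) :=
  ⟨!![1, 1; 0, -1], !![1, 1; 0, -1], by simp [← Matrix.one_fin_two], by simp [← Matrix.one_fin_two]⟩

variable {n}

theorem conjElt_sq : conjElt n * conjElt n = 1 := Units.ext (conjElt n).mul_inv

theorem conjElt_map_ne_one (hn : n ≠ 0) :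
    (conjElt n : Matrix (Fin 2) (Fin 2) (ZMod (2 ^ n))).map (mod2 hn) ≠ 1 := fun h => by
  have := congrFun (congrFun h 0) 1
  simp [conjElt] at this

theorem repGL_finiteLevel (hΔ : E.Δ ≠ 0) (n : ℕ) :
    GaloisFactorsThroughFiniteLevel (repGL hΔ n) := by
  obtain ⟨L, hL, h⟩ := rep_finiteLevel hΔ n
  exact ⟨L, hL, fun σ hσ => Units.ext (h σ hσ)⟩

/-- A prime whose Frobenius has image `conjElt` is a conjugation prime. -/
theorem conjPrime_of_frobenius (hE : Companion E) (hn : n ≠ 0) {q : ℕ} (hq : q.Prime)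
    (hS : q ∉ insert 2 E.Δ.natAbs.primeFactors) {A : ValuationSubring (AlgebraicClosure ℚ)}
    (hA : A.LiesOverPrime q) {τ : Γℚ} (hτ : A.IsFrobeniusAt τ q)
    (hρ : repGL hE.Δ_ne_zero n τ = conjElt n) : ConjPrime E n q := by
  rw [Finset.mem_insert, not_or, Nat.mem_primeFactors] at hS
  have hgood : ¬ (q : ℤ) ∣ E.Δ := fun hd =>
    hS.2 ⟨hq, Int.natCast_dvd.mp hd, Int.natAbs_ne_zero.mpr hE.Δ_ne_zero⟩
  obtain ⟨hdet, htr⟩ := hE.det_trace_rep_frobenius hn hq hS.1 hgood hA hτ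
  rw [← coe_repGL, hρ] at hdet htr
  have hfix : ∀ σ : Γℚ, rep hE.Δ_ne_zero n σ = 1 → ∀ P : Tors2 E, σ • P = P := fun σ h P =>
    Subtype.ext ((map_mod2_rep_eq_one_iff hE.Δ_ne_zero hn σ).mp
      (by rw [h, Matrix.map_one _ (map_zero _) (map_one _)]) P.1
      (congrArg Subtype.val (two_nsmul_tors2 P)))
  refine ⟨hq, hS.1, hgood, ?_, ?_, not_isSquare_disc_of_frobenius hq hS.1 hgood hA hτ ?_ ?_⟩
  · rw [← ZMod.natCast_eq_zero_iff, Nat.cast_add, Nat.cast_one, ← hdet]
    simp [conjElt, Matrix.det_fin_two]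
  · have h : (E.apOfModel q : ZMod (2 ^ n)) = 0 := by
      rw [← htr]; simp [conjElt, Matrix.trace_fin_two]
    simpa using (ZMod.intCast_zmod_eq_zero_iff_dvd _ _).mp h
  · by_contra! hall
    refine conjElt_map_ne_one hn ?_
    rw [← hρ, coe_repGL]
    refine (map_mod2_rep_eq_one_iff hE.Δ_ne_zero hn τ).mpr fun P hP => ?_
    exact congrArg Subtype.val
      (hall ⟨P, (Submodule.mem_torsionBy_iff _ _).mpr ((natCast_zsmul _ 2).trans hP)⟩)
  · intro P
    rw [← mul_smul]
    refine hfix _ ?_ P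
    rw [← coe_repGL, map_mul, hρ, conjElt_sq, Units.val_one]

/-- There are conjugation primes outside any finite set. -/
theorem exists_conjPrime (hE : Companion E) (n : ℕ) (hn : 2 ≤ n) (S : Finset ℕ) :
    ∃ q : ℕ, q ∉ S ∧ ConjPrime E n q := by
  have hn0 : n ≠ 0 := by omega
  obtain ⟨g, hg⟩ := hE.repGL_surjective hn0 (conjElt n)
  obtain ⟨q, hq, hS, A, hA, τ, hτ, j, k, hj, hk⟩ :=
    exists_frobenius_map_pow (repGL hE.Δ_ne_zero n) (repGL_finiteLevel hE.Δ_ne_zero n)
      (S ∪ insert 2 E.Δ.natAbs.primeFactors) g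
  rw [Finset.mem_union, not_or] at hS
  refine ⟨q, hS.1, conjPrime_of_frobenius hE hn0 hq hS.2 hA hτ ?_⟩
  rw [hg] at hj hk
  rcases Nat.even_or_odd j with ⟨i, rfl⟩ | ⟨i, rfl⟩
  · exfalso
    rw [← two_mul, pow_mul, pow_two, conjElt_sq, one_pow] at hj
    rw [hj, one_pow] at hk
    refine conjElt_map_ne_one hn0 ?_
    rw [← hk, Units.val_one, Matrix.map_one _ (map_zero _) (map_one _)]
  · rwa [pow_succ, pow_mul, pow_two, conjElt_sq, one_pow, one_mul] at hj

/-- A class which is not a coboundary and is unramified at the bad primes is visible at some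
conjugation prime. -/
theorem exists_conjPrime_not_frobNull (hE : Companion E) (n : ℕ) (hn : 2 ≤ n) {Q : Finset ℕ}
    (hQ : ∀ q ∈ Q, ConjPrime E n q) {x : StCocycle E} (hx : StCond E Q x) (hne : ¬ IsCob E x)
    (S : Finset ℕ) : ∃ q : ℕ, q ∉ S ∧ ConjPrime E n q ∧ ¬ FrobNull E q x := by
  have hn0 : n ≠ 0 := by omega
  obtain ⟨l, hl, hd⟩ := hE.exists_bad_prime
  have hl2 : l ≠ 2 := fun h => hE.goodTwo (by subst h; exact_mod_cast hd)
  have hlQ : l ∉ Q := fun h => (hQ l h).good hd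
  obtain ⟨A, hA⟩ := Galois.exists_liesOverPrime hl
  obtain ⟨σ, hσI, hσ1, hσsq, -⟩ := hE.exists_inertia_transvection
    hn0 hl hd hA
  obtain ⟨v, hv⟩ := hx.unramAt hl hl2 hlQ A hA
  obtain ⟨e, he⟩ := Primes.exists_tors2_equiv hE hn0
  obtain ⟨q, hq, hS, B, hB, τ, hτ, hρτ, hvis⟩ :=
    Primes.exists_frobenius_visible hn0 (repGL hE.Δ_ne_zero n) (repGL_finiteLevel hE.Δ_ne_zero n)
      (hE.repGL_surjective hn0) (x := fun g => e (x.toFun g))
      (fun g h => by rw [x.map_mul, map_add, he])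
      (by
        obtain ⟨K, hK, hK0⟩ := x.open_kernel
        exact ⟨K, hK, fun s hs => by rw [hK0 s hs, map_zero]⟩)
      (σ := σ) (by rw [coe_repGL]; exact hσsq)
      (by rw [Primes.redRho, coe_repGL]; exact hσ1) (v := e v)
      (by rw [hv σ hσI, map_sub, he])
      (fun ⟨w, hw⟩ => hne ⟨e.symm w, fun g => e.injective (by
        rw [hw g, map_sub, he, AddEquiv.apply_symm_apply])⟩)
      (conjElt n) conjElt_sq (conjElt_map_ne_one hn0)
      (S ∪ insert 2 E.Δ.natAbs.primeFactors)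
  rw [Finset.mem_union, not_or] at hS
  refine ⟨q, hS.1, conjPrime_of_frobenius hE hn0 hq hS.2 hB hτ hρτ, fun hnull => hvis ?_⟩
  obtain ⟨m, hm⟩ := hnull B hB τ hτ
  exact ⟨e m, by rw [hm, map_sub, he]⟩

end FLTA.LT2

end
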