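import Fermat.Agent.LT2.TraceLocal
import Fermat.Agent.LT2.PatchedDual
import Fermat.Agent.LT2.PrimesChebotarev
import Fermat.Agent.GaloisReps.TateConstructCommute
import Fermat.Agent.GaloisReps.TateConstructTorsion
import Fermat.Agent.Congruence.Torsion

/-!
# Part C: the residual system of `E` is empty at levels missing a bad prime

If the residual system of `E` occurs at level `L` then `J₀(L)[2]` has a nonzero eigenclass.  Its
Galois orbit is unramified at `l ∤ L` and satisfies the Eichler–Shimura relation, so an element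
`h` of order three on `E[2]` satisfies `h² + h + 1 = 0` on it; multiplying `h` by an inertia
transvection at `l` gives `h² = 1` on it, so it is zero.
-/

set_option autoImplicit false

noncomputable section

universe u

namespace FLTA.LT2

open ModularCurve CongruenceSubgroup FLTA.Periods FLTA.LevelRaising FLTA.Gamma0 FLTA.RT IsLocalRing
open scoped Matrix

local notation "Γℚ" => AlgebraicClosure ℚ ≃ₐ[ℚ] AlgebraicClosure ℚ

/-- The element of order three used below. -/
def threeElt : GL (Fin 2) (ZMod (2 ^ 1)) :=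
  ⟨!![0, 1; 1, 1], !![1, 1; 1, 0], by decide, by decide⟩

theorem threeElt_facts : threeElt ^ 3 = 1 ∧ threeElt ≠ 1 ∧
    (threeElt : Matrix (Fin 2) (Fin 2) (ZMod (2 ^ 1))).trace = 1 ∧
    ((threeElt ^ 2 : GL (Fin 2) (ZMod (2 ^ 1))) :
      Matrix (Fin 2) (Fin 2) (ZMod (2 ^ 1))).trace = 1 := by
  refine ⟨Units.ext ?_, fun h => ?_, ?_, ?_⟩
  · decide
  · exact absurd (congrArg Units.val h) (by decide)
  · decide
  · decide

theorem transvection_mul_threeElt : ∀ t : Matrix (Fin 2) (Fin 2) (ZMod (2 ^ 1)),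
    (t - 1) * (t - 1) = 0 → t ≠ 1 →
      t * !![0, 1; 1, 1] * (t * !![0, 1; 1, 1]) = 1 ∧ (t * !![0, 1; 1, 1]).trace = 0 ∧
        t * !![0, 1; 1, 1] ≠ 1 := by
  decide

/-- If `τ² + τ + 1` kills every `τ`-translate then so does `g = τ ^ k`, `3 ∤ k`. -/
theorem quadratic_pow {G V : Type*} [Monoid G] [AddCommGroup V] [DistribMulAction G V] (τ : G)
    (P : V → Prop) (hP : ∀ y, P y → P (τ • y)) (hq : ∀ y, P y → τ • τ • y + τ • y + y = 0)
    (k : ℕ) (hk : k % 3 ≠ 0) {y : V} (hy : P y) :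
    τ ^ k • τ ^ k • y + τ ^ k • y + y = 0 := by
  have h3 : ∀ z, P z → τ • τ • τ • z = z := fun z hz => by
    have e1 := hq z hz
    have e2 := hq (τ • z) (hP z hz)
    linear_combination (norm := abel) e2 - e1
  have hmod : ∀ m z, P z → τ ^ m • z = τ ^ (m % 3) • z := by
    intro m
    induction m using Nat.strong_induction_on with
    | _ m ih =>
      intro z hz
      rcases Nat.lt_or_ge m 3 with h | h
      · rw [Nat.mod_eq_of_lt h]
      · rw [Nat.mod_eq_sub_mod h, ← ih (m - 3) (by omega) z hz]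
        conv_lhs => rw [show m = m - 3 + 3 by omega, pow_add, mul_smul, show τ ^ 3 • z = z by
          rw [pow_succ, pow_two, mul_smul, mul_smul]; exact h3 z hz]
  rcases (show k % 3 = 1 ∨ k % 3 = 2 by omega) with h | h
  · rw [← mul_smul, ← pow_add, hmod k y hy, hmod (k + k) y hy, h,
      show (k + k) % 3 = 2 by omega, pow_one, pow_two, mul_smul]
    exact hq y hy
  · rw [← mul_smul, ← pow_add, hmod k y hy, hmod (k + k) y hy, h,
      show (k + k) % 3 = 1 by omega, pow_one, pow_two, mul_smul]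
    linear_combination (norm := abel) hq y hy

variable {E : WeierstrassCurve ℤ}

/-- No nonzero class in `J₀(L)[2]` has the eigenvalues of `E` when a bad prime does not
divide `L`. -/
theorem eq_zero_of_eigen_two (hE : Companion E) {L : ℕ} [NeZero L] {l : ℕ} (hl : l.Prime)
    (hlN : l ∣ E.conductorLevel) (hlL : ¬ l ∣ L) (S : Finset ℕ) (x : JZero L) (hx2 : 2 • x = 0)
    (hx : ∀ p : Nat.Primes, (p : ℕ) ∉ S → heckeOperatorBar L p x = E.apOfModel p • x) :
    x = 0 := by
  have hlΔ : (l : ℤ) ∣ E.Δ := (E.prime_dvd_conductorLevel_iff hE.Δ_ne_zero hl).mp hlN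
  have hl2 : ¬ l ∣ 2 := fun h => hE.goodTwo (by
    rw [(Nat.prime_dvd_prime_iff_eq hl Nat.prime_two).mp h] at hlΔ
    exact_mod_cast hlΔ)
  set ρ := Image.repGL hE.Δ_ne_zero 1
  let ψ : Γℚ →* GL (Fin 2) (ZMod (2 ^ 1)) ×
      Matrix (Fin (FLTA.Gamma0.homRank L)) (Fin (FLTA.Gamma0.homRank L)) (ZMod 2) :=
    ρ.prod (GaloisReps.galMat L 2)
  have hψ : GaloisFactorsThroughFiniteLevel ψ := by
    obtain ⟨K₁, hK₁, h1⟩ := repGL_finiteLevel hE.Δ_ne_zero 1
    obtain ⟨K₂, hK₂, h2⟩ := GaloisReps.exists_level_galMat (N := L) (n := 2)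
    exact ⟨K₁ ⊔ K₂, inferInstance, fun σ hσ => Prod.ext
      (h1 σ fun z hz => hσ z ((le_sup_left : K₁ ≤ K₁ ⊔ K₂) hz))
      (h2 σ fun z hz => hσ z ((le_sup_right : K₂ ≤ K₁ ⊔ K₂) hz))⟩
  let V : JZero L → Prop := fun y => 2 • y = 0 ∧
    ∀ p : Nat.Primes, (p : ℕ) ∉ S → heckeOperatorBar L p y = E.apOfModel p • y
  have hVsmul : ∀ (g : Γℚ) y, V y → V (g • y) := fun g y hy => by
    refine ⟨?_, fun p hp => ?_⟩
    · exact (map_nsmul (DistribMulAction.toAddMonoidHom (JZero L) g) 2 y).symm.trans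
        ((congrArg _ hy.1).trans (map_zero _))
    · rw [← GaloisReps.heckeOperatorBar_galois, hy.2 p hp]
      exact map_zsmul (DistribMulAction.toAddMonoidHom (JZero L) g) (E.apOfModel p) y
  have hact : ∀ {a b : Γℚ}, GaloisReps.galMat L 2 a = GaloisReps.galMat L 2 b →
      ∀ y, V y → a • y = b • y := fun {a b} hab y hy => by
    have hmem : y ∈ AlgebraicCurve.Pic0.torsion (AlgebraicClosure ℚ)
        (modularFunctionFieldBar L) 2 :=
      AlgebraicCurve.Pic0.mem_torsion.mpr (by rw [natCast_zsmul]; exact hy.1)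
    have h : GaloisReps.galMat L 2 (b⁻¹ * a) = 1 := by
      rw [map_mul, hab, ← map_mul, inv_mul_cancel, map_one]
    have h' := (GaloisReps.galMat_eq_one_iff L 2 _).mp h ⟨y, hmem⟩
    rw [mul_smul, inv_smul_eq_iff] at h'
    exact h'
  -- Eichler–Shimura at a Frobenius with the image of `g`
  have hfrob : ∀ g : Γℚ, ∃ (τ : Γℚ) (j k : ℕ), ρ τ = ρ g ^ j ∧ ρ τ ^ k = ρ g ∧
      (∀ y, V y → g • y = τ ^ k • y) ∧ ∀ (c : ℤ),
        (ρ τ : Matrix (Fin 2) (Fin 2) (ZMod (2 ^ 1))).trace = (c : ZMod (2 ^ 1)) →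
          ∀ y, V y → τ • τ • y + c • τ • y + y = 0 := by
    intro g
    obtain ⟨p, hp, hpS, A, hA, τ, hτ, j, k, hj, hk⟩ :=
      exists_frobenius_map_pow ψ hψ (S ∪ insert 2 (L.primeFactors ∪ E.Δ.natAbs.primeFactors)) g
    simp only [Finset.mem_union, Finset.mem_insert, Nat.mem_primeFactors, not_or] at hpS
    obtain ⟨hpS, hp2, hpL', hpΔ'⟩ := hpS
    have hpL : ¬ p ∣ L := fun h => hpL' ⟨hp, h, NeZero.ne L⟩
    have hpΔ : ¬ (p : ℤ) ∣ E.Δ := fun h =>
      hpΔ' ⟨hp, Int.natCast_dvd.mp h, Int.natAbs_ne_zero.mpr hE.Δ_ne_zero⟩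
    refine ⟨τ, j, k, congrArg Prod.fst hj, congrArg Prod.fst hk, fun y hy => ?_, fun c hc y hy => ?_⟩
    · refine hact ?_ y hy
      rw [map_pow]
      exact (congrArg Prod.snd hk).symm
    · obtain ⟨-, htr⟩ := hE.det_trace_rep_frobenius (n := 1) one_ne_zero hp hp2 hpΔ hA hτ
      rw [← Image.coe_repGL, hc] at htr
      have hq := FLTA.Congruence.frobenius_quadratic_torsion hp hpL hA
        (m := 2) (fun h => hp2 ((Nat.prime_dvd_prime_iff_eq hp Nat.prime_two).mp h)) hτ hy.1
      rw [(hVsmul τ y hy).2 ⟨p, hp⟩ hpS] at hq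
      obtain ⟨d, hd⟩ := (ZMod.intCast_eq_intCast_iff_dvd_sub c _ _).mp htr
      obtain ⟨e, he⟩ := hp.odd_of_ne_two hp2
      have h2y : ∀ (z : JZero L) (n : ℤ), V z → (2 * n) • z = 0 := fun z n hz => by
        rw [mul_comm, mul_zsmul, show (2 : ℤ) • z = 0 by exact_mod_cast hz.1, zsmul_zero]
      have hsub : E.apOfModel p • τ • y = c • τ • y := by
        rw [show E.apOfModel p = c + 2 * d by rw [← sub_eq_iff_eq_add']; simpa using hd, add_zsmul,
          h2y _ d (hVsmul τ y hy), add_zero]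
      have hpy : (p : ℤ) • y = y := by
        rw [he]; push_cast
        rw [add_zsmul, one_zsmul, h2y _ _ hy, zero_add]
      have hneg : -(c • τ • y) = c • τ • y := by
        rw [neg_eq_iff_add_eq_zero, ← add_zsmul, ← two_mul, h2y _ c (hVsmul τ y hy)]
      rw [show E.apOfModel (((⟨p, hp⟩ : Nat.Primes) : ℕ)) = E.apOfModel p from rfl, hsub, hpy,
        sub_eq_add_neg, hneg] at hq
      exact hq
  obtain ⟨h, hh⟩ := hE.repGL_surjective (n := 1) one_ne_zero threeElt
  obtain ⟨hC3, hC1, hCtr, hC2tr⟩ := threeElt_facts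
  -- `h² + h + 1 = 0`
  have step1 : ∀ y, V y → h • h • y + h • y + y = 0 := by
    intro y hy
    obtain ⟨τ, j, k, hj, hk, hgy, hq⟩ := hfrob h
    rw [hh] at hj hk
    rw [pow_eq_pow_mod j hC3] at hj
    have hk3 : k % 3 ≠ 0 ∧ ((ρ τ : GL (Fin 2) (ZMod (2 ^ 1))) :
        Matrix (Fin 2) (Fin 2) (ZMod (2 ^ 1))).trace = ((1 : ℤ) : ZMod (2 ^ 1)) := by
      rw [Int.cast_one]
      have hτ3 : ρ τ ^ 3 = 1 := by rw [hj, ← pow_mul, mul_comm, pow_mul, hC3, one_pow]
      refine ⟨fun h0 => hC1 ?_, ?_⟩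
      · rw [← hk, pow_eq_pow_mod k hτ3, h0, pow_zero]
      · rcases (show j % 3 = 0 ∨ j % 3 = 1 ∨ j % 3 = 2 by omega) with e | e | e <;> rw [e] at hj
        · rw [pow_zero] at hj
          exact absurd (by rw [← hk, hj, one_pow]) hC1
        · rw [hj, pow_one threeElt]; exact hCtr
        · rw [hj]; exact hC2tr
    have hq1 : ∀ z, V z → τ • τ • z + τ • z + z = 0 := fun z hz => by
      simpa using hq 1 hk3.2 z hz
    rw [hgy _ (hVsmul h y hy), hgy y hy]
    exact quadratic_pow τ V (hVsmul τ) hq1 k hk3.1 hy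
  -- `h² = 1`
  have step2 : ∀ y, V y → h • h • y = y := by
    obtain ⟨A, hA⟩ := Galois.exists_liesOverPrime hl
    obtain ⟨σ, hσI, hσ1, hσsq, -⟩ :=
      hE.exists_inertia_transvection (n := 1) one_ne_zero hl hlΔ hA
    have hσy : ∀ y, V y → σ • y = y := fun y hy =>
      FLTA.Congruence.smul_eq_of_mem_inertia hl hlL hA hl2 hσI hy.1
    have ht : Image.rep hE.Δ_ne_zero 1 σ ≠ 1 := fun e =>
      hσ1 (by rw [e, Matrix.map_one _ (map_zero _) (map_one _)])
    obtain ⟨hD2, hDtr, hD1⟩ := transvection_mul_threeElt _ hσsq ht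
    set D := ρ (σ * h)
    have hDcoe : (D : Matrix (Fin 2) (Fin 2) (ZMod (2 ^ 1))) =
        Image.rep hE.Δ_ne_zero 1 σ * !![0, 1; 1, 1] := by
      rw [show D = ρ σ * ρ h from map_mul ρ σ h, Units.val_mul, Image.coe_repGL, hh]
      rfl
    have hD2' : D ^ 2 = 1 := Units.ext (by rw [Units.val_pow_eq_pow_val, pow_two, hDcoe]; exact hD2)
    have hD1' : D ≠ 1 := fun e => hD1 (by rw [← hDcoe, e, Units.val_one])
    obtain ⟨τ, j, k, hj, hk, hgy, hq⟩ := hfrob (σ * h)
    replace hj : ρ τ = D ^ j := hj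
    replace hk : ρ τ ^ k = D := hk
    rw [pow_eq_pow_mod j hD2'] at hj
    rcases Nat.mod_two_eq_zero_or_one j with e | e <;> rw [e] at hj
    · rw [pow_zero] at hj
      exact absurd (by rw [← hk, hj, one_pow]) hD1'
    rw [pow_one D] at hj
    have hkodd : k % 2 = 1 := by
      refine (Nat.mod_two_eq_zero_or_one k).resolve_left fun e => hD1' ?_
      rw [← hk, hj, pow_eq_pow_mod k hD2', e, pow_zero]
    have hττ : ∀ z, V z → τ • τ • z = z := fun z hz => by
      have e := hq 0 (by rw [Int.cast_zero, hj, hDcoe]; exact hDtr) z hz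
      rw [zero_zsmul, add_zero] at e
      rw [eq_neg_of_add_eq_zero_left e, neg_eq_iff_add_eq_zero, ← two_nsmul]
      exact hz.1
    have hev : ∀ m z, V z → τ ^ (2 * m) • z = z := fun m => by
      induction m with
      | zero => intro z _; rw [mul_zero, pow_zero, one_smul]
      | succ m ih =>
        intro z hz
        rw [mul_add, mul_one, pow_add, mul_smul, pow_two, mul_smul, hττ z hz, ih z hz]
    intro y hy
    have hhy : ∀ z, V z → h • z = τ • z := fun z hz => by
      rw [← hσy _ (hVsmul h z hz), ← mul_smul, hgy z hz, show k = 2 * (k / 2) + 1 by omega, pow_add,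
        pow_one, mul_smul, hev _ _ (hVsmul τ z hz)]
    rw [hhy _ (hVsmul h y hy), hhy y hy, hττ y hy]
  have e1 := step1 x ⟨hx2, hx⟩
  rw [step2 x ⟨hx2, hx⟩] at e1
  have e2 : h • x = 0 := by
    have h2 : x + x = 0 := by rw [← two_nsmul]; exact hx2
    linear_combination (norm := abel) e1 - h2
  exact (smul_eq_zero_iff_eq h).mp e2

/-- The eigen ideal and `e - 1` generate a proper ideal when the idempotent `e` is not zero. -/
theorem one_notMem_eigIdeal_sup {R : Type u} [CommRing R] [IsLocalRing R] [IsNoetherianRing R]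
    [IsAdicComplete (maximalIdeal R) R] {A : Type u} [Ring A] [Algebra R A] [Module.Finite R A]
    {σ : Type*} {T : σ → A} (hT : ∀ s t, Commute (T s) (T t)) (a : σ → R)
    (hne : localIdem T a ≠ 0) :
    letI := opAlgCommRing (R := R) hT
    (1 : opAlg R T) ∉
      eigIdeal T a ⊔ Ideal.span {(⟨_, localIdem_mem hT a⟩ : opAlg R T) - 1} := by
  letI := opAlgCommRing (R := R) hT
  set e : opAlg R T := ⟨_, localIdem_mem hT a⟩
  intro h1
  have hee : e * e = e := Subtype.ext (isIdempotentElem_localIdem hT a).eq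
  have he0 : e * (e - 1) = 0 := by rw [mul_sub, mul_one, hee, sub_self]
  have hall : ∀ P : Ideal (opAlg R T), P.IsMaximal → e ∈ P := fun P hP => by
    refine ((isLocalIdem_localIdem hT a).mem_iff P hP).mpr fun hle => ?_
    have h0 : e * (e - 1) ∈ P := by rw [he0]; exact P.zero_mem
    have he1 : e - 1 ∈ P := (hP.isPrime.mem_or_mem h0).resolve_left
      fun h => ((isLocalIdem_localIdem hT a).mem_iff P hP).mp h hle
    exact hP.ne_top (P.eq_top_iff_one.mpr
      ((sup_le hle ((Ideal.span_singleton_le_iff_mem _).mpr he1) :) h1))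
  have hu : IsUnit (e - 1) := by
    by_contra hu
    obtain ⟨P, hP, hPm⟩ := exists_max_ideal_of_mem_nonunits (mem_nonunits_iff.mpr hu)
    exact hP.ne_top (P.eq_top_iff_one.mpr (by simpa using sub_mem (hall P hP) hPm))
  exact hne (congrArg Subtype.val (hu.mul_left_eq_zero.mp he0))

variable {O : Type u} [CommRing O] [IsDomain O] [IsPrincipalIdealRing O] [IsLocalRing O]
  [IsAdicComplete (maximalIdeal O) O] {σ : Type*} {pr : σ → ℕ} {a : σ → O}

/-- The residual system of `E` is empty at a level which a bad prime of `E` does not divide. -/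
theorem locPart_eq_bot_of_not_dvd (hE : Companion E)
    (h2 : maximalIdeal O = Ideal.span {(2 : O)}) (hR : ResidualSystem E pr a) {L : ℕ} [NeZero L]
    {l : ℕ} (hl : l.Prime) (hlN : l ∣ E.conductorLevel)
    (hlL : ¬ l ∣ L) : locPart O L pr a = ⊥ := by
  by_contra hne
  have := FLTA.Gamma0.finite_homPar0 L O
  have hT : ∀ s t, Commute (parFam O L pr s) (parFam O L pr t) :=
    fun s t => commute_parOp (hR.prime s) (hR.prime t)
  letI := opAlgCommRing (R := O) (T := parFam O L pr) hT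
  set I : Ideal (opAlg O (parFam O L pr)) := eigIdeal (parFam O L pr) a ⊔
    Ideal.span {(⟨_, localIdem_mem (T := parFam O L pr) hT a⟩ : opAlg O (parFam O L pr)) - 1}
  have hI1 : (1 : opAlg O (parFam O L pr)) ∉ I :=
    one_notMem_eigIdeal_sup (T := parFam O L pr) hT a fun h0 => hne (LinearMap.range_eq_bot.mpr h0)
  set W : Submodule (opAlg O (parFam O L pr)) (homPar0 O (Gamma0 L) O) := I • ⊤
  have hW : W ≠ ⊤ := by
    intro htop
    have : Module.Finite (opAlg O (parFam O L pr)) (homPar0 O (Gamma0 L) O) :=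
      Module.Finite.of_restrictScalars_finite O _ _
    obtain ⟨r, hr, hr0⟩ := Submodule.exists_sub_one_mem_and_smul_eq_zero_of_fg_of_le_smul I ⊤
      Module.Finite.fg_top htop.ge
    have : r = 0 := Subtype.ext (LinearMap.ext fun z => hr0 z Submodule.mem_top)
    rw [this, zero_sub, neg_mem_iff] at hr
    exact hI1 hr
  obtain ⟨S, hS⟩ := hR.cofinite
  have h2' : ¬ IsUnit (2 : O) :=
    (mem_maximalIdeal _).mp (h2 ▸ Ideal.mem_span_singleton_self _)
  obtain ⟨hne', x, hx, hxT⟩ := torsCong_of_quotient (E := E) (M := L) (j := 1)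
    (S := S ∪ L.primeFactors)
    (fun p hp hpL => Finset.mem_union_right _ (Nat.mem_primeFactors.mpr ⟨hp, hpL, NeZero.ne L⟩))
    h2' (W.restrictScalars O).mkQ (Submodule.mkQ_surjective _)
    (fun p hp φ => by
      rw [Finset.mem_union, not_or] at hp
      obtain ⟨s, hs⟩ := hS p p.2 hp.1
      rw [← map_zsmul, Submodule.mkQ_apply, Submodule.mkQ_apply, Submodule.Quotient.eq,
        ← hs, ← Int.cast_smul_eq_zsmul O]
      have e1 : opGen O (parFam O L pr) s - algebraMap O _ (E.apOfModel (pr s) : O) ∈ I := by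
        have := add_mem (opGen_sub_mem (parFam O L pr) a s)
          (algebraMap_mem_eigIdeal (parFam O L pr) a (hR.residual s))
        rw [map_sub, sub_add_sub_cancel] at this
        exact Ideal.mem_sup_left this
      have := Submodule.smul_mem_smul e1 (Submodule.mem_top (x := φ))
      rw [sub_smul, algebraMap_smul] at this
      exact this)
    (by
      obtain ⟨z, hz⟩ := not_forall.mp fun h => hW (Submodule.eq_top_iff'.mpr h)
      exact ⟨(W.restrictScalars O).mkQ z, by simpa using hz⟩)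
  have hx0 : x = 0 := eq_zero_of_eigen_two hE hl hlN hlL _ x
    (by simpa using (hx ▸ addOrderOf_nsmul_eq_zero x :)) hxT
  rw [hx0, addOrderOf_zero] at hx
  exact absurd hx (by norm_num)

end FLTA.LT2

end
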