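import Fermat.Agent.LT2.PatchedBottomNew
import Fermat.Agent.LT2.ImageCompanion
import Fermat.Agent.LT2.TraceNew
import Fermat.Agent.LT2.TraceRamified

/-!
# Part G of LT2: the signs which occur among the systems new at `Q`

If no sign vector with an odd number of flips at the primes of the conductor occurs among the
systems new at `Q`, then one with the signs of `E` does.
-/

set_option autoImplicit false
set_option linter.unusedSectionVars false
set_option maxSynthPendingDepth 3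

noncomputable section

open IsLocalRing CongruenceSubgroup
open scoped MatrixGroups

namespace FLTA.LT2

open FLTA.RT FLTA.Periods FLTA.Gamma0 FLTA.LevelRaising

variable (O : RepTheory.FiniteDVRExt ℤ_[2]) (E : WeierstrassCurve ℤ) (Q : Finset ℕ)

/-- The operator `z ∏ (1 + s_v U_v)` on the bottom module, `z` the square of `bottomZ`. -/
def bottomSignOp [NeZero (E.conductorLevel * ∏ q ∈ Q, q)] (s : ℕ → ℤ) :
    Module.End O.R (bottomF O.R E (E.conductorLevel * ∏ q ∈ Q, q)) :=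
  (bottomH O.R E (E.conductorLevel * ∏ q ∈ Q, q)).val
    (letI := bottomHCommRing O.R E (E.conductorLevel * ∏ q ∈ Q, q)
     bottomZ O.R E (E.conductorLevel * ∏ q ∈ Q, q) Q ^ 2 * ∏ v ∈ PatchG.signPrimes E Q,
      (1 + (s v : bottomH O.R E (E.conductorLevel * ∏ q ∈ Q, q)) *
        bottomGen O.R E (E.conductorLevel * ∏ q ∈ Q, q) v))

/-- A new eigenvector at the primes of `N` gives a sign operator which does not vanish. -/
theorem exists_signOp_ne_zero (hQ : ∀ q ∈ Q, ConjPrime E 1 q)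
    (hQN : ∀ q ∈ Q, ¬ q ∣ E.conductorLevel)
    [NeZero (E.conductorLevel * ∏ q ∈ Q, q)]
    (s₀ : ℕ → ℤ) (hs₀ : ∀ l ∈ E.conductorLevel.primeFactors, s₀ l = 1 ∨ s₀ l = -1)
    {v : PH O.R (E.conductorLevel * ∏ q ∈ Q, q)}
    (hv : v ∈ bottomF O.R E (E.conductorLevel * ∏ q ∈ Q, q)) (hv0 : v ≠ 0)
    (hnew : ∀ q ∈ Q, ∀ (M : ℕ) [NeZero M], E.conductorLevel * ∏ q ∈ Q, q = M * q →
      corPar O.R M (E.conductorLevel * ∏ q ∈ Q, q) v = 0 ∧
      corPar O.R M (E.conductorLevel * ∏ q ∈ Q, q)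
        (parAL O.R (E.conductorLevel * ∏ q ∈ Q, q) q v) = 0)
    (hev : ∀ l ∈ E.conductorLevel.primeFactors,
      parOp O.R (E.conductorLevel * ∏ q ∈ Q, q) l v = (s₀ l : O.R) • v) :
    ∃ s, PatchG.IsSign E Q s ∧ (∀ l ∈ E.conductorLevel.primeFactors, s l = s₀ l) ∧
      bottomSignOp O E Q s ≠ 0 := by
  classical
  have hQp : ∀ q ∈ Q, q.Prime := fun q hq => (hQ q hq).prime
  have hsq : Squarefree (E.conductorLevel * ∏ q ∈ Q, q) := by
    refine (Nat.squarefree_mul (Nat.Coprime.prod_right fun q hq => ?_)).mpr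
      ⟨E.squarefree_conductorLevel,
        Finset.squarefree_prod_of_pairwise_isCoprime ?_ fun q hq => (hQp q hq).squarefree⟩
    · exact ((hQp q hq).coprime_iff_not_dvd.mpr (hQN q hq)).symm
    · exact fun x hx y hy hxy => Nat.coprime_iff_isRelPrime.mp
        ((Nat.coprime_primes (hQp x hx) (hQp y hy)).mpr hxy)
  have hQL : ∀ q ∈ Q, q ∣ E.conductorLevel * ∏ q ∈ Q, q := fun q hq =>
    (Finset.dvd_prod_of_mem (fun q => q) hq).mul_left _
  have hdisj : Disjoint E.conductorLevel.primeFactors Q := Finset.disjoint_right.mpr fun q hq h =>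
    hQN q hq (Nat.dvd_of_mem_primeFactors h)
  have hnew' : IsNewVec O.R Q v := fun q hq => by
    have hne : (E.conductorLevel * ∏ q ∈ Q, q) / q ≠ 0 :=
      (Nat.div_pos (Nat.le_of_dvd (NeZero.pos _) (hQL q hq)) (hQp q hq).pos).ne'
    have : NeZero ((E.conductorLevel * ∏ q ∈ Q, q) / q) := ⟨hne⟩
    exact hnew q hq _ (Nat.div_mul_cancel (hQL q hq)).symm
  obtain ⟨s, w, h1, h2, h3, h4⟩ := exists_eigen_of_isNew O.R E hsq hQp hQL hdisj s₀
    (v := ⟨v, hv⟩) (fun h => hv0 (congrArg Subtype.val h)) hnew' fun l hl => Subtype.ext (by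
      rw [coe_curveOp O.R E (Nat.prime_of_mem_primeFactors hl)]
      exact hev l hl)
  have hs : ∀ l ∈ E.conductorLevel.primeFactors ∪ Q, s l = 1 ∨ s l = -1 := fun l hl => by
    rcases Finset.mem_union.mp hl with hl | hl
    · rw [h1 l hl]; exact hs₀ l hl
    · exact h2 l hl
  exact ⟨s, hs, h1, fun h => bottomZ_sq_mul_prod_apply_ne_zero O.R E hsq hQp hQL
    Finset.subset_union_right s hs h3 h4 (LinearMap.congr_fun h w)⟩

theorem prod_intCast_eq_iff {R : Type*} [CommRing R] [CharZero R] (P : Finset ℕ) (a b : ℕ → ℤ) :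
    ∏ l ∈ P, (a l : R) = -∏ l ∈ P, (b l : R) ↔ ∏ l ∈ P, a l = -∏ l ∈ P, b l := by
  rw [← Int.cast_prod, ← Int.cast_prod, ← Int.cast_neg, Int.cast_inj]

/-- Opposite products mean an odd number of flips. -/
theorem odd_card_ne_of_prod (P : Finset ℕ) (s t : ℕ → ℤ) (hs : ∀ l ∈ P, s l = 1 ∨ s l = -1)
    (ht : ∀ l ∈ P, t l = 1 ∨ t l = -1) (h : ∏ l ∈ P, s l = -∏ l ∈ P, t l) :
    Odd (P.filter fun l => s l ≠ t l).card := by
  have e : ∏ l ∈ P, s l * t l = (-1 : ℤ) ^ (P.filter fun l => s l ≠ t l).card := by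
    rw [← Finset.prod_filter_mul_prod_filter_not P (fun l => s l ≠ t l),
      Finset.prod_eq_pow_card (b := (-1 : ℤ)) fun l hl => ?_, Finset.prod_eq_one fun l hl => ?_,
      mul_one]
    · simp only [Finset.mem_filter] at hl
      rcases hs l hl.1 with a | a <;> rcases ht l hl.1 with b | b <;> simp [a, b] at hl ⊢
    · simp only [Finset.mem_filter] at hl
      rcases hs l hl.1 with a | a <;> rcases ht l hl.1 with b | b <;> simp [a, b] at hl ⊢
  rw [Finset.prod_mul_distrib, h, neg_mul, ← Finset.prod_mul_distrib,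
    Finset.prod_eq_one fun l hl => by rcases ht l hl with b | b <;> simp [b]] at e
  exact neg_one_pow_eq_neg_one_iff_odd (by norm_num) |>.mp e.symm

/-- The residual system does not occur below a prime of the conductor. -/
theorem bottom_hold (h2 : maximalIdeal O.R = Ideal.span {(2 : O.R)}) (hE : Companion E)
    (hQ : ∀ q ∈ Q, ConjPrime E 1 q) (hQN : ∀ q ∈ Q, ¬ q ∣ E.conductorLevel)
    [NeZero (E.conductorLevel * ∏ q ∈ Q, q)] :
    ∀ l ∈ E.conductorLevel.primeFactors, ∀ (M : ℕ) [NeZero M],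
      E.conductorLevel * ∏ q ∈ Q, q = M * l →
      locPart O.R M (fun l : GoodIdx (E.conductorLevel * ∏ q ∈ Q, q) => (l : ℕ))
        (goodVal O.R E (E.conductorLevel * ∏ q ∈ Q, q)) = ⊥ := by
  intro l hl M _ e
  have hlp := Nat.prime_of_mem_primeFactors hl
  refine locPart_eq_bot_of_not_dvd hE h2
    { prime := fun l => l.2.1
      not_dvd := fun l hd => l.2.2 (hd.trans (mul_dvd_mul_left 2 (dvd_mul_right _ _)))
      residual := fun l => by rw [sub_self]; exact zero_mem _
      cofinite := ⟨(2 * (E.conductorLevel * ∏ q ∈ Q, q)).primeFactors, fun l hl hn => ⟨⟨l, hl,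
        fun hd => hn (Nat.mem_primeFactors.mpr
          ⟨hl, hd, mul_ne_zero two_ne_zero (NeZero.ne _)⟩)⟩, rfl⟩⟩ }
    hlp (Nat.dvd_of_mem_primeFactors hl) fun hd => ?_
  have hsqQ : Squarefree (E.conductorLevel * ∏ q ∈ Q, q) := by
    refine (Nat.squarefree_mul (Nat.Coprime.prod_right fun q hq => ?_)).mpr
      ⟨E.squarefree_conductorLevel,
        Finset.squarefree_prod_of_pairwise_isCoprime ?_ fun q hq => (hQ q hq).prime.squarefree⟩
    · exact ((hQ q hq).prime.coprime_iff_not_dvd.mpr (hQN q hq)).symm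
    · exact fun x hx y hy hxy => Nat.coprime_iff_isRelPrime.mp
        ((Nat.coprime_primes (hQ x hx).prime (hQ y hy).prime).mpr hxy)
  exact hlp.ne_one (Nat.Coprime.eq_one_of_dvd
    (Nat.coprime_of_squarefree_mul (e ▸ hsqQ)).symm hd)

/-- **The signs of `E` occur.** -/
theorem exists_signs_bottom (h2 : maximalIdeal O.R = Ideal.span {(2 : O.R)}) (hE : Companion E)
    (G : TraceGeometry E) (hQ : ∀ q ∈ Q, ConjPrime E 1 q)
    [NeZero (E.conductorLevel * ∏ q ∈ Q, q)]
    (h : ∀ s, PatchG.IsSign E Q s → PatchG.OddFlips E s → bottomSignOp O E Q s = 0) :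
    ∃ s, PatchG.IsSign E Q s ∧ PatchG.HasCurveSigns E s ∧ bottomSignOp O E Q s ≠ 0 := by
  have hQN : ∀ q ∈ Q, ¬ q ∣ E.conductorLevel := fun q hq hd =>
    (hQ q hq).good ((E.prime_dvd_conductorLevel_iff hE.Δ_ne_zero (hQ q hq).prime).mp hd)
  have hN : 1 < E.conductorLevel := by
    obtain ⟨p, hp, hpΔ⟩ := Companion.exists_bad_prime hE
    exact hp.one_lt.trans_le (Nat.le_of_dvd E.conductorLevel_pos
      ((E.prime_dvd_conductorLevel_iff hE.Δ_ne_zero hp).mpr hpΔ))
  set L₀ := E.conductorLevel * ∏ q ∈ Q, q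
  have hR : ResidualSystem E (fun l : GoodIdx L₀ => (l : ℕ)) (goodVal O.R E L₀) :=
    { prime := fun l => l.2.1
      not_dvd := fun l hd => l.2.2 (hd.trans (mul_dvd_mul_left 2 (dvd_mul_right _ _)))
      residual := fun l => by rw [sub_self]; exact zero_mem _
      cofinite := ⟨(2 * L₀).primeFactors, fun l hl hn => ⟨⟨l, hl, fun hd =>
        hn (Nat.mem_primeFactors.mpr ⟨hl, hd, mul_ne_zero two_ne_zero (NeZero.ne L₀)⟩)⟩, rfl⟩⟩ }
  have hL : ∀ l : GoodIdx L₀, ¬ (l : ℕ) ∣ L₀ := fun l hd =>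
    l.2.2 (hd.trans (dvd_mul_left _ 2))
  have hold := bottom_hold O E Q h2 hE hQ hQN
  set P := E.conductorLevel.primeFactors
  have hnode : ∀ l, EllTate.nodeSign E l = 1 ∨ EllTate.nodeSign E l = -1 := fun l =>
    sq_eq_one_iff.mp (EllTate.nodeSign_sq E l)
  obtain ⟨v, hv, hv0, hvnew, hvs⟩ := exists_new_signs h2 G hR hN Q hQ hQN hL hold
    (fun l => (EllTate.nodeSign E l : O.R))
    (fun l _ => by rcases hnode l with e | e <;> simp [e]) fun s' hs' hpar v hv hvnew hvs => by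
    by_contra hv0
    classical
    let t : ℕ → ℤ := fun l => if s' l = 1 then 1 else -1
    have ht : ∀ l, t l = 1 ∨ t l = -1 := fun l => by simp only [t]; split_ifs <;> simp
    have hst : ∀ l ∈ P, (t l : O.R) = s' l := fun l hl => by
      simp only [t]
      split_ifs with e
      · simp [e]
      · simpa [eq_comm] using ((mul_self_eq_one_iff.mp (hs' l hl)).resolve_left e).symm
    obtain ⟨s, hs, hs0, hne⟩ := exists_signOp_ne_zero O E Q hQ hQN t (fun l _ => ht l) hv hv0 hvnew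
      fun l hl => by rw [hst l hl]; exact hvs l hl
    refine hne (h s hs ?_)
    refine odd_card_ne_of_prod P s (EllTate.nodeSign E) (fun l hl => hs0 l hl ▸ ht l)
      (fun l _ => hnode l) ((prod_intCast_eq_iff (R := O.R) P s _).mp ?_)
    rw [Finset.prod_congr rfl fun l hl => show (s l : O.R) = s' l by rw [hs0 l hl, hst l hl]]
    exact hpar
  obtain ⟨s, hs, hs0, hne⟩ := exists_signOp_ne_zero O E Q hQ hQN _ (fun l _ => hnode l) hv hv0
    hvnew hvs
  exact ⟨s, hs, hs0, hne⟩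

end FLTA.LT2
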