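import Fermat.Agent.LT2.PatchedProjective
import Fermat.Agent.RT.HeckeLocalControl

/-!
# Part G of LT2: the localised level module and its reduction

For a residual system `a` which is not Eisenstein, the factor of the twisted cohomology of
`Γ₀(L)/±1` over the coefficient ring `R` is free, and its reduction along a quotient `R → O`
without two-torsion which kills the twist is the factor of the Hecke operators on `Hom(Γ₀(L), O)`.
-/

set_option autoImplicit false

noncomputable section

open IsLocalRing CongruenceSubgroup

universe u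

namespace FLTA.LT2

open FLTA.RT FLTA.Periods

variable {L : ℕ} [NeZero L] {R : Type u} [CommRing R] [IsLocalRing R] [IsNoetherianRing R]
  [IsAdicComplete (maximalIdeal R) R] {χ : (ZMod L)ˣ →* Rˣ} {hχ : χ (-1) = 1} {σ : Type*}
  {T : σ → NatEnd (pgamChar χ hχ)} (hcomm : CommAtRing T) (a : σ → R)
  (hlift : HasLifts (pgamChar χ hχ))

include hcomm hlift in
/-- A non-Eisenstein prime kills the obstruction to exactness. -/
theorem killsObstruction_pLocalEnd {l : ℕ} (hl : l.Prime) (hlL : ¬ l ∣ L) (s : σ)
    (hs : T s = pNatHecke χ hχ l) (ha : IsUnit (a s - ((l : R) + 1))) :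
    KillsObstruction (localEnd T a) := by
  haveI := group_fg_PGamma0 L
  obtain ⟨g, hg⟩ := exists_natEnd_mul_sub hcomm a s ha
  exact killsObstruction_pgamChar χ hχ hlift hl hlL _ g fun x => by rw [hg, hs]

include hcomm hlift in
/-- **Freeness** of the level module over the coefficient ring. -/
theorem free_pLocalEnd {l : ℕ} (hl : l.Prime) (hlL : ¬ l ∣ L) (s : σ)
    (hs : T s = pNatHecke χ hχ l) (ha : IsUnit (a s - ((l : R) + 1))) :
    Module.Free R (eImage (localEnd T a) R) ∧ Module.Finite R (eImage (localEnd T a) R) := by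
  haveI := group_fg_PGamma0 L
  haveI := finite_eImage (e := localEnd T a) R
  exact ⟨free_eImage hlift (eqAtRing_localEnd_sq hcomm a)
    (killsObstruction_pLocalEnd hcomm a hlift hl hlL s hs ha), inferInstance⟩

variable {O : Type u} [CommRing O] [Algebra R O] [IsLocalRing O] [IsNoetherianRing O]
  [IsAdicComplete (maximalIdeal O) O]
  (hO : Function.Surjective (algebraMap R O))
  (htriv : ∀ γ (v : O), ((gamChar χ γ : Rˣ) : R) • v = v) (h2 : ∀ v : O, v + v = 0 → v = 0)
  (T' : σ → Module.End O (Additive (Gamma0 L) →+ O))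
  (hT' : ∀ s x, pH1EquivHom χ hχ htriv h2 ((T s).app O x) =
    T' s (pH1EquivHom χ hχ htriv h2 x))

include hcomm hlift hT' in
omit [IsLocalRing O] [IsNoetherianRing O] [IsAdicComplete (maximalIdeal O) O] [IsLocalRing R]
  [IsAdicComplete (maximalIdeal R) R] in
theorem commute_reduced [Module.Finite R O] (s t : σ) : Commute (T' s) (T' t) := by
  haveI := group_fg_PGamma0 L
  refine LinearMap.ext fun φ => ?_
  obtain ⟨x, rfl⟩ := (pH1EquivHom χ hχ htriv h2).surjective φ
  rw [Module.End.mul_apply, Module.End.mul_apply, ← hT', ← hT', ← hT', ← hT']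
  exact congrArg (pH1EquivHom χ hχ htriv h2)
    (eq_at_finite hlift (T s * T t) (T t * T s)
      (fun y => congrArg (fun f : Module.End R (tH1 (pgamChar χ hχ) R) => f y) (hcomm s t).eq) x)

include hcomm hlift hO hT' in
/-- Downstairs the idempotent is that of the operators on homomorphisms. -/
theorem pH1EquivHom_localEnd (x : tH1 (pgamChar χ hχ) O) :
    pH1EquivHom χ hχ htriv h2 ((localEnd T a).app O x) =
      localIdem T' (fun s => algebraMap R O (a s)) (pH1EquivHom χ hχ htriv h2 x) := by
  haveI := group_fg_PGamma0 L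
  haveI : Module.Finite R O := Module.Finite.of_surjective (Algebra.linearMap R O) hO
  haveI := finite_addHom (L := L) (O := O) O
  haveI := finite_tH1 (χ := pgamChar χ hχ) (R := R) O
  haveI : Module.Finite R (Additive (Gamma0 L) →+ O) := Module.Finite.trans O _
  have hc1 := commute_opsAt hcomm hlift O
  have hc2 := commute_reduced hcomm hlift htriv h2 T' hT'
  let res : Module.End O (Additive (Gamma0 L) →+ O) →ₐ[R]
      Module.End R (Additive (Gamma0 L) →+ O) :=
    { toFun := fun f => f.restrictScalars R
      map_one' := rfl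
      map_mul' := fun _ _ => rfl
      map_zero' := rfl
      map_add' := fun _ _ => rfl
      commutes' := fun r => LinearMap.ext fun φ => by
        simp [Module.algebraMap_end_apply] }
  haveI : Module.Finite R (Module.End O (Additive (Gamma0 L) →+ O)) := Module.Finite.trans O _
  rw [localEnd_app_finite hcomm a hlift O, ← localIdem_of_surjective hO hc2 a]
  refine (localIdem_comm_map hc1 (fun s t => (hc2 s t).map res) a
    (pH1EquivHom χ hχ htriv h2).toLinearMap (fun s y => hT' s y) x).trans ?_
  rw [← map_localIdem (A := Module.End O (Additive (Gamma0 L) →+ O))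
    (A' := Module.End R (Additive (Gamma0 L) →+ O)) (T' := fun s => res (T' s)) hc2 a res
    (fun _ => rfl)]
  rfl

include hcomm hlift hO hT' in
/-- **Control**: bases of the level module reduce to bases of the factor downstairs. -/
theorem exists_basis_reduced {ι : Type*} (b : Module.Basis ι R (eImage (localEnd T a) R)) :
    ∃ c : Module.Basis ι O (LinearMap.range (localIdem T' (fun s => algebraMap R O (a s)))),
      ∀ i, (c i : Additive (Gamma0 L) →+ O) = pH1EquivHom χ hχ htriv h2
        (tH1Map _ (Algebra.linearMap R O) (b i : tH1 (pgamChar χ hχ) R)) := by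
  haveI := group_fg_PGamma0 L
  haveI : Module.Finite R O := Module.Finite.of_surjective (Algebra.linearMap R O) hO
  have hidem := eqAtRing_localEnd_sq hcomm a
  have key := pH1EquivHom_localEnd hcomm a hlift hO htriv h2 T' hT'
  set W := LinearMap.range (localIdem T' (fun s => algebraMap R O (a s)))
  let π : R →ₗ[R] O := Algebra.linearMap R O
  let E := pH1EquivHom χ hχ htriv h2
  have hmemW : ∀ x : eImage (localEnd T a) R, E (tH1Map _ π x.1) ∈ W := fun x => by
    obtain ⟨y, hy⟩ := tH1Map_mem_eImage π x.2
    rw [← hy, key]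
    exact LinearMap.mem_range_self _ _
  let g : eImage (localEnd T a) R →ₗ[R] W :=
    { toFun := fun x => ⟨_, hmemW x⟩
      map_add' := fun x y => Subtype.ext (by simp only [Submodule.coe_add, map_add])
      map_smul' := fun r x => Subtype.ext (by
        simp only [map_smul, RingHom.id_apply, SetLike.val_smul_of_tower]) }
  have hg : Function.Surjective g := by
    rintro ⟨_, ψ, rfl⟩
    obtain ⟨y, rfl⟩ := E.surjective ψ
    obtain ⟨x, hx, hxy⟩ := eImage_surjective hlift π hO (e := localEnd T a)
      (LinearMap.mem_range_self _ y)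
    refine ⟨⟨x, hx⟩, Subtype.ext ?_⟩
    show E (tH1Map _ π x) = _
    rw [hxy, key]
  let I : Ideal R := RingHom.ker (algebraMap R O)
  let qe : (R ⧸ I) ≃ₗ[R] O := LinearEquiv.ofBijective (I.liftQ π fun r hr => hr)
    ⟨LinearMap.ker_eq_bot.mp (Submodule.ker_liftQ_eq_bot _ _ _ fun r hr => hr),
      fun o => (hO o).imp' (Submodule.Quotient.mk) fun r hr => hr⟩
  have hker : LinearMap.ker g = (I • ⊤ : Submodule R (eImage (localEnd T a) R)) := by
    ext x
    rw [Submodule.mem_smul_top_iff I (eImage (localEnd T a) R) x, LinearMap.mem_ker,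
      Subtype.ext_iff]
    show E (tH1Map _ π x.1) = 0 ↔ _
    rw [LinearEquiv.map_eq_zero_iff, show π = qe.toLinearMap.comp I.mkQ from rfl, tH1Map_comp]
    refine ⟨fun h => mem_smul_of_map_mk_eq_zero hlift hidem I x.2 ?_, fun h => ?_⟩
    · have h' := congrArg (tH1Map _ qe.symm.toLinearMap) h
      rwa [map_zero, ← tH1Map_comp, LinearEquiv.symm_comp, tH1Map_id] at h'
    · rw [map_mk_eq_zero_of_mem_smul I h, map_zero]
  obtain ⟨c, hc⟩ := exists_basis_of_reduction (W := W) hO g hg hker b
  exact ⟨c, fun i => congrArg Subtype.val (hc i)⟩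

end FLTA.LT2
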