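import Fermat.Agent.RT.DeformRing
import Fermat.Agent.RT.HeckeLocalIdem
import Mathlib.LinearAlgebra.Charpoly.ToMatrix
import Mathlib.RingTheory.Artinian.Module
import Mathlib.RingTheory.Jacobson.Ideal

/-!
# Part G of LT2: power series in topologically nilpotent endomorphisms

On the factor cut out by `localIdem T a` every `T s - a s` is topologically nilpotent, and power
series can be evaluated at commuting topologically nilpotent endomorphisms of a finite free module
over a complete local algebra with the residue field of the coefficients.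
-/

set_option autoImplicit false
set_option linter.unusedSectionVars false
set_option linter.style.haveILetI false

noncomputable section

universe u

open IsLocalRing

namespace FLTA.LT2

section nilpotent

variable {R : Type u} [CommRing R] [IsLocalRing R] [IsNoetherianRing R]
  [IsAdicComplete (maximalIdeal R) R] {A : Type u} [Ring A] [Algebra R A] [Module.Finite R A]
  {σ : Type*} {T : σ → A}

open FLTA.RT in
/-- `(T s - a s) e` is topologically nilpotent, `e` the idempotent of `a`. -/
theorem exists_pow_sub_mul_mem (hT : ∀ s t, Commute (T s) (T t)) (a : σ → R) (s : σ) :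
    ∃ n, ((T s - algebraMap R A (a s)) * localIdem T a) ^ n ∈
      maximalIdeal R • (⊤ : Submodule R A) := by
  letI := opAlgCommRing (R := R) hT
  haveI : Module.Finite R (opAlg R T) := finite_opAlg T
  have he := isLocalIdem_localIdem hT a
  let w : opAlg R T :=
    (opGen R T s - algebraMap R (opAlg R T) (a s)) * ⟨localIdem T a, he.mem⟩
  let I := (maximalIdeal R).map (algebraMap R (opAlg R T))
  have hw : w ∈ I.radical := by
    rw [Ideal.radical_eq_sInf, Ideal.mem_sInf]
    rintro P ⟨hIP, hP⟩
    have := hP
    have h2 : maximalIdeal R ≤ P.comap (algebraMap R (opAlg R T)) := Ideal.map_le_iff_le_comap.mp hIP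
    have h3 : P.comap (algebraMap R (opAlg R T)) = maximalIdeal R :=
      ((maximalIdeal.isMaximal R).eq_of_le (Ideal.IsPrime.ne_top inferInstance) h2).symm
    have hmax : P.IsMaximal :=
      Ideal.isMaximal_of_isIntegral_of_isMaximal_comap P (h3 ▸ maximalIdeal.isMaximal R)
    by_cases h : (⟨localIdem T a, he.mem⟩ : opAlg R T) ∈ P
    · exact P.mul_mem_left _ h
    · have hle : eigIdeal T a ≤ P := not_not.mp fun hn => h ((he.mem_iff P hmax).mpr hn)
      exact P.mul_mem_right _ (hle (opGen_sub_mem T a s))
  obtain ⟨n, hn⟩ := hw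
  refine ⟨n, ?_⟩
  have h := Submodule.mem_map_of_mem (f := (opAlg R T).val.toLinearMap)
    (show w ^ n ∈ maximalIdeal R • (⊤ : Submodule R (opAlg R T)) by
      rw [Ideal.smul_top_eq_map]; exact hn)
  rw [Submodule.map_smul''] at h
  exact Submodule.smul_mono le_rfl le_top h

end nilpotent

section eval

variable {O : Type} [CommRing O] [IsDomain O] [IsDiscreteValuationRing O] {R : Type} [CommRing R]
  [IsLocalRing R] [IsNoetherianRing R] [IsAdicComplete (maximalIdeal R) R] [Algebra O R]
  (hres : Function.Surjective (residue R ∘ algebraMap O R))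
  {M : Type} [AddCommGroup M] [Module R M] [Module.Free R M] [Module.Finite R M] [Nontrivial M]
  {r : ℕ} (t : Fin r → Module.End R M) (hcomm : ∀ i j, Commute (t i) (t j))
  (hnil : ∀ i, ∃ n, t i ^ n ∈ maximalIdeal R • (⊤ : Submodule R (Module.End R M)))

include hres hcomm hnil in
/-- **Evaluation.** -/
theorem exists_eval_end :
    ∃ γ : MvPowerSeries (Fin r) O →+* Module.End R M,
      (∀ c, γ (MvPowerSeries.C c) = algebraMap R (Module.End R M) (algebraMap O R c)) ∧
      (∀ i, γ (MvPowerSeries.X i) = t i) ∧
      ∀ f, γ f ∈ Algebra.adjoin R (Set.range t) := by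
  classical
  letI := RT.opAlgCommRing (R := R) hcomm
  haveI : Module.Finite R (RT.opAlg R t) :=
    Module.Finite.of_injective (RT.opAlg R t).val.toLinearMap Subtype.val_injective
  let C := RT.opAlg R t
  let b := Module.Free.chooseBasis R M
  -- the generators are nilpotent modulo the maximal ideal, inside the algebra
  have hgen : ∀ i, ∃ n, RT.opGen R t i ^ n ∈ (maximalIdeal R).map (algebraMap R C) := by
    intro i
    obtain ⟨n, hn⟩ := hnil i
    set B := LinearMap.toMatrix b b (t i ^ n) with hB
    have hB0 : B.map (residue R) = 0 := by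
      have key : ∀ f ∈ maximalIdeal R • (⊤ : Submodule R (Module.End R M)),
          (LinearMap.toMatrix b b f).map (residue R) = 0 := fun f hf => by
        refine Submodule.smul_induction_on hf (fun c hc g _ => ?_) fun f g hf hg => ?_
        · ext i j
          simp [(residue_eq_zero_iff c).mpr hc]
        · rw [map_add, Matrix.map_add _ (map_add _), hf, hg, add_zero]
      exact key _ hn
    let P := B.charpoly
    have hP : P.map (residue R) = Polynomial.X ^ Fintype.card (Module.Free.ChooseBasisIndex R M) := by
      show B.charpoly.map _ = _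
      rw [← Matrix.charpoly_map, hB0, Matrix.charpoly_zero]
    refine ⟨n * Fintype.card (Module.Free.ChooseBasisIndex R M), ?_⟩
    have hzero : Polynomial.aeval (RT.opGen R t i ^ n : C) P = 0 := by
      refine Subtype.ext ?_
      show C.val (Polynomial.aeval (RT.opGen R t i ^ n : C) P) = 0
      rw [← Polynomial.aeval_algHom_apply]
      show Polynomial.aeval (t i ^ n) B.charpoly = 0
      rw [hB, LinearMap.charpoly_toMatrix]
      exact LinearMap.aeval_self_charpoly _
    set x : C := RT.opGen R t i ^ n with hx
    rw [pow_mul, ← hx, show x ^ Fintype.card (Module.Free.ChooseBasisIndex R M) =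
      Polynomial.aeval x (Polynomial.X ^ Fintype.card (Module.Free.ChooseBasisIndex R M) - P) by
        rw [map_sub, hzero, sub_zero, map_pow, Polynomial.aeval_X]]
    rw [Polynomial.aeval_eq_sum_range]
    refine Ideal.sum_mem _ fun j _ => ?_
    rw [Algebra.smul_def]
    refine Ideal.mul_mem_right _ _ (Ideal.mem_map_of_mem _ ((residue_eq_zero_iff _).mp ?_))
    rw [← Polynomial.coeff_map, Polynomial.map_sub, hP, Polynomial.map_pow, Polynomial.map_X,
      sub_self, Polynomial.coeff_zero]
  -- every maximal ideal contains the maximal ideal of `R` and the generators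
  have hI : ∀ P : Ideal C, P.IsMaximal → (maximalIdeal R).map (algebraMap R C) ≤ P := fun P hP =>
    Ideal.map_le_iff_le_comap.mpr
      (IsLocalRing.eq_maximalIdeal (Ideal.isMaximal_comap_of_isIntegral_of_isMaximal P)).ge
  have hmem : ∀ P : Ideal C, P.IsMaximal → ∀ i, RT.opGen R t i ∈ P := fun P hP i => by
    obtain ⟨n, hn⟩ := hgen i
    exact hP.isPrime.mem_of_pow_mem n (hI P hP hn)
  have hscal : ∀ x : C, ∃ c : R, ∀ P : Ideal C, P.IsMaximal → x - algebraMap R C c ∈ P := by
    rintro ⟨x, hx⟩
    induction hx using Algebra.adjoin_induction with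
    | mem y hy =>
      obtain ⟨i, rfl⟩ := hy
      exact ⟨0, fun P hP => by rw [map_zero, sub_zero]; exact hmem P hP i⟩
    | algebraMap c => exact ⟨c, fun P _ => by
        show algebraMap R C c - algebraMap R C c ∈ P
        rw [sub_self]; exact zero_mem P⟩
    | add y z hy hz ihy ihz =>
      obtain ⟨c, hc⟩ := ihy
      obtain ⟨c', hc'⟩ := ihz
      refine ⟨c + c', fun P hP => ?_⟩
      have := add_mem (hc P hP) (hc' P hP)
      rwa [show (⟨y + z, add_mem hy hz⟩ : C) = ⟨y, hy⟩ + ⟨z, hz⟩ from rfl, map_add,
        add_sub_add_comm]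
    | mul y z hy hz ihy ihz =>
      obtain ⟨c, hc⟩ := ihy
      obtain ⟨c', hc'⟩ := ihz
      refine ⟨c * c', fun P hP => ?_⟩
      rw [show (⟨y * z, mul_mem hy hz⟩ : C) = ⟨y, hy⟩ * ⟨z, hz⟩ from rfl, map_mul]
      convert add_mem (P.mul_mem_left (⟨y, hy⟩ : C) (hc' P hP))
        (P.mul_mem_left (algebraMap R C c') (hc P hP)) using 1
      ring
  have : Nontrivial C := (RT.opAlg R t).val.toRingHom.domain_nontrivial
  haveI : IsLocalRing C := by
    refine IsLocalRing.of_unique_max_ideal ?_
    obtain ⟨P, hP⟩ := Ideal.exists_maximal C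
    refine ⟨P, hP, fun P' hP' => hP'.eq_of_le hP.ne_top fun x hx => ?_⟩
    obtain ⟨c, hc⟩ := hscal x
    have hcm : c ∈ maximalIdeal R := by
      rw [← IsLocalRing.eq_maximalIdeal (Ideal.isMaximal_comap_of_isIntegral_of_isMaximal P'),
        Ideal.mem_comap]
      simpa using sub_mem hx (hc P' hP')
    simpa using add_mem (hc P hP) (hI P hP (Ideal.mem_map_of_mem _ hcm))
  haveI : IsAdicComplete (maximalIdeal C) C := RepTheory.isAdicComplete_maximalIdeal_of_finite R C
  haveI : IsNoetherianRing C := isNoetherian_of_tower R (inferInstance : IsNoetherian R C)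
  letI : Algebra O C := ((algebraMap R C).comp (algebraMap O R)).toAlgebra
  have hresC : Function.Surjective (residue C ∘ algebraMap O C) := by
    intro y
    obtain ⟨x, rfl⟩ := residue_surjective y
    obtain ⟨c, hc⟩ := hscal x
    obtain ⟨o, ho⟩ := hres (residue R c)
    refine ⟨o, sub_eq_zero.mp ?_⟩
    have h1 := hc (maximalIdeal C) inferInstance
    have h2 := hI (maximalIdeal C) inferInstance
      (Ideal.mem_map_of_mem _ (x := algebraMap O R o - c)
        ((residue_eq_zero_iff _).mp (by rw [map_sub]; exact sub_eq_zero.mpr ho)))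
    rw [Function.comp_apply, ← map_sub, residue_eq_zero_iff]
    rw [map_sub] at h2
    convert sub_mem h2 h1 using 1
    show algebraMap R C (algebraMap O R o) - x = _
    ring
  obtain ⟨γ, hγ⟩ := RT.exists_eval (𝒪 := O) (A := C) hresC (RT.opGen R t) fun i =>
    hmem _ inferInstance i
  refine ⟨(RT.opAlg R t).val.toRingHom.comp γ.toRingHom, fun c => ?_, fun i => ?_, fun f => (γ f).2⟩
  · show ((γ (MvPowerSeries.C c) : C) : Module.End R M) = _
    rw [show MvPowerSeries.C c = algebraMap O (MvPowerSeries (Fin r) O) c from rfl, γ.commutes]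
    rfl
  · exact congrArg Subtype.val (hγ i)

end eval

end FLTA.LT2
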