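import Fermat.Agent.RepTheory.DVRExtension
import Mathlib.Algebra.Polynomial.Div
import Mathlib.RingTheory.Nilpotent.Lemmas

/-!
# Part G of LT2: points separate on the image of `z`

An algebra generated by a reduced subalgebra and by elements which are involutions on the image of
`w` is, after multiplication by `w`, reduced.  So in a finite torsion-free algebra what vanishes at
every point where `w` does not is killed by `w ^ 2`.
-/

set_option autoImplicit false
set_option linter.unusedSectionVars false

noncomputable section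

open Polynomial

namespace FLTA.LT2

variable {O : Type} [CommRing O] [IsDomain O] {R H : Type} [CommRing R] [CommRing H]
  [Algebra O R] [Algebra O H] [Algebra R H] [IsScalarTower O R H] [Module.IsTorsionFree O H]

/-- In a reduced algebra an integral element differs from its square times something by a
non-zero scalar. -/
theorem exists_smul_eq_sq_mul (G : Subalgebra R H) (hG : ∀ x ∈ G, IsNilpotent x → x = 0)
    {b : H} (hb : b ∈ G) (hint : IsIntegral O b) :
    ∃ s : O, s ≠ 0 ∧ ∃ c : H, s • b = b * b * c := by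
  obtain ⟨P, hP, hP0⟩ := hint
  rw [← aeval_def] at hP0
  obtain ⟨Q, hQ, hX⟩ := exists_eq_pow_rootMultiplicity_mul_and_not_dvd P hP.ne_zero 0
  rw [map_zero, sub_zero] at hQ hX
  set n := P.rootMultiplicity 0
  have haev : ∀ p : O[X], aeval b p ∈ G := fun p =>
    Algebra.adjoin_le (S := G.restrictScalars O) (Set.singleton_subset_iff.mpr hb)
      (aeval_mem_adjoin_singleton O b)
  have hnil : IsNilpotent (b * aeval b Q) := by
    refine ⟨n + 1, ?_⟩
    rw [hQ, map_mul, map_pow, aeval_X] at hP0
    rw [mul_pow, pow_succ b, pow_succ (aeval b Q)]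
    linear_combination (b * (aeval b Q) ^ n) * hP0
  have h0 := hG _ (G.mul_mem hb (haev Q)) hnil
  have hc : Q.coeff 0 ≠ 0 := fun h => hX (X_dvd_iff.mpr h)
  refine ⟨Q.coeff 0, hc, -aeval b Q.divX, ?_⟩
  have e := congrArg (aeval b) (X_mul_divX_add Q)
  rw [map_add, map_mul, aeval_X, aeval_C] at e
  rw [Algebra.smul_def]
  linear_combination b * e + h0

/-- A reduced algebra stays reduced after multiplication. -/
theorem mul_eq_zero_of_pow_mul (G : Subalgebra R H) (hG : ∀ x ∈ G, IsNilpotent x → x = 0)
    {b : H} (hb : b ∈ G) (hint : IsIntegral O b) {w : H} :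
    ∀ n : ℕ, b ^ n * w = 0 → b * w = 0 := by
  obtain ⟨s, hs, c, hc⟩ := exists_smul_eq_sq_mul G hG hb hint
  intro n
  induction n with
  | zero => intro h; rw [pow_zero, one_mul] at h; rw [h, mul_zero]
  | succ n ih =>
    intro h
    cases n with
    | zero => simpa using h
    | succ n =>
      refine ih ((smul_eq_zero.mp (?_ : s • (b ^ (n + 1) * w) = 0)).resolve_left hs)
      rw [pow_succ, mul_assoc, ← mul_smul_comm, ← smul_mul_assoc, hc]
      linear_combination c * h

variable [Module.Finite O H]

variable (O) in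
include O in
/-- Adjoining elements which are involutions on the image of `w` keeps `w` reduced. -/
theorem mul_eq_zero_of_pow_mul_adjoin (G : Subalgebra R H)
    (hG : ∀ x ∈ G, IsNilpotent x → x = 0) (h2 : ∀ x : H, x + x = 0 → x = 0) (U : Finset H) :
    ∀ w : H, (∀ u ∈ U, u * u * w = w) → ∀ g ∈ Algebra.adjoin R ((G : Set H) ∪ U),
      ∀ n : ℕ, g ^ n * w = 0 → g * w = 0 := by
  classical
  induction U using Finset.induction_on with
  | empty =>
    intro w _ g hg
    rw [Finset.coe_empty, Set.union_empty, Algebra.adjoin_eq] at hg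
    exact mul_eq_zero_of_pow_mul G hG hg (IsIntegral.of_finite O g)
  | insert u U _ ih =>
    intro w hw g hg n hn
    set A := Algebra.adjoin R ((G : Set H) ∪ (U : Set H))
    have hu : u * u * w = w := hw u (Finset.mem_insert_self u U)
    have hsplit : ∃ a ∈ A, ∃ b ∈ A, g * w = (a + b * u) * w := by
      clear hn
      induction hg using Algebra.adjoin_induction with
      | mem x hx =>
        rw [Finset.coe_insert] at hx
        rcases hx with hx | rfl | hx
        · exact ⟨x, Algebra.subset_adjoin (Or.inl hx), 0, A.zero_mem, by ring⟩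
        · exact ⟨0, A.zero_mem, 1, A.one_mem, by ring⟩
        · exact ⟨x, Algebra.subset_adjoin (Or.inr hx), 0, A.zero_mem, by ring⟩
      | algebraMap r => exact ⟨_, A.algebraMap_mem r, 0, A.zero_mem, by ring⟩
      | add x y _ _ hx hy =>
        obtain ⟨a, ha, b, hb, e⟩ := hx
        obtain ⟨c, hc, d, hd, f⟩ := hy
        exact ⟨a + c, A.add_mem ha hc, b + d, A.add_mem hb hd, by linear_combination e + f⟩
      | mul x y _ _ hx hy =>
        obtain ⟨a, ha, b, hb, e⟩ := hx
        obtain ⟨c, hc, d, hd, f⟩ := hy
        exact ⟨a * c + b * d, A.add_mem (A.mul_mem ha hc) (A.mul_mem hb hd),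
          a * d + b * c, A.add_mem (A.mul_mem ha hd) (A.mul_mem hb hc),
          by linear_combination x * f + (c + d * u) * e + b * d * hu⟩
    obtain ⟨a, ha, b, hb, e⟩ := hsplit
    have key : ∀ c ∈ A, ∀ w' : H, (∀ v ∈ U, v * v * w' = w') → g * w' = c * w' →
        g ^ n * w' = 0 → g * w' = 0 := fun c hc w' hw' he h0 => by
      have hp : ∀ j : ℕ, g ^ j * w' = c ^ j * w' := fun j => by
        induction j with
        | zero => simp
        | succ j ihj => linear_combination g * ihj + c ^ j * he
      rw [he]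
      exact ih w' hw' c hc n ((hp n).symm.trans h0)
    have hp := key (a + b) (A.add_mem ha hb) ((1 + u) * w)
      (fun v hv => by linear_combination (1 + u) * hw v (Finset.mem_insert_of_mem hv))
      (by linear_combination (1 + u) * e + b * hu) (by linear_combination (1 + u) * hn)
    have hm := key (a - b) (A.sub_mem ha hb) ((1 - u) * w)
      (fun v hv => by linear_combination (1 - u) * hw v (Finset.mem_insert_of_mem hv))
      (by linear_combination (1 - u) * e - b * hu) (by linear_combination (1 - u) * hn)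
    exact h2 _ (by linear_combination hp + hm)

variable [IsDiscreteValuationRing O] [IsAdicComplete (IsLocalRing.maximalIdeal O) O]
  [CharZero O] [Finite (IsLocalRing.ResidueField O)]

/-- What vanishes at every point where `z` does not is nilpotent after multiplication by `z`. -/
theorem isNilpotent_mul_of_points (z h : H)
    (hh : ∀ (A : RepTheory.FiniteDVRExt O) (ψ : H →ₐ[O] A.R), ψ z ≠ 0 → ψ h = 0) :
    IsNilpotent (h * z) := by
  by_contra hne
  let T := H ⧸ nilradical H
  have : IsReduced T :=
    (Ideal.isRadical_iff_quotient_reduced _).mp (by rw [nilradical]; exact Ideal.radical_isRadical _)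
  have : Module.IsTorsionFree O T := by
    refine Module.IsTorsionFree.mk fun r hr => fun x y hxy => sub_eq_zero.mp ?_
    obtain ⟨a, rfl⟩ := Ideal.Quotient.mk_surjective x
    obtain ⟨b, rfl⟩ := Ideal.Quotient.mk_surjective y
    rw [← map_sub, Ideal.Quotient.eq_zero_iff_mem]
    have : Ideal.Quotient.mk (nilradical H) (r • a - r • b) = 0 := by
      rw [map_sub, sub_eq_zero]
      exact hxy
    rw [Ideal.Quotient.eq_zero_iff_mem, mem_nilradical] at this
    obtain ⟨n, hn⟩ := this
    refine mem_nilradical.mpr ⟨n, ?_⟩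
    rw [← smul_sub, smul_pow] at hn
    exact (smul_eq_zero.mp hn).resolve_left (pow_ne_zero n hr.ne_zero)
  obtain ⟨A, hA⟩ := RepTheory.exists_points_of_isReduced O T
  obtain ⟨ψ, hψ⟩ := hA (Ideal.Quotient.mk _ (h * z)) fun h0 =>
    hne (mem_nilradical.mp (Ideal.Quotient.eq_zero_iff_mem.mp h0))
  let ψ' : H →ₐ[O] A.R := ψ.comp (Ideal.Quotient.mkₐ O _)
  have hψ' : ψ' (h * z) ≠ 0 := hψ
  rw [map_mul] at hψ'
  exact left_ne_zero_of_mul hψ' (hh A ψ' (right_ne_zero_of_mul hψ'))

/-- **The points separate on the image of `z ^ 2`.** -/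
theorem mul_sq_eq_zero_of_points (G : Subalgebra R H) (hG : ∀ x ∈ G, IsNilpotent x → x = 0)
    (U : Finset H) (hgen : ∀ g : H, g ∈ Algebra.adjoin R ((G : Set H) ∪ U)) (z : H)
    (hz : ∀ u ∈ U, u * u * z = z) (h : H)
    (hh : ∀ (A : RepTheory.FiniteDVRExt O) (ψ : H →ₐ[O] A.R), ψ (z ^ 2) ≠ 0 → ψ h = 0) :
    h * z ^ 2 = 0 := by
  have h2 : ∀ x : H, x + x = 0 → x = 0 := fun x hx => by
    rw [← two_smul O] at hx
    exact (smul_eq_zero.mp hx).resolve_left two_ne_zero
  obtain ⟨n, hn⟩ := isNilpotent_mul_of_points z h fun A ψ hψ => hh A ψ (by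
    rw [map_pow]; exact pow_ne_zero 2 hψ)
  rw [pow_two, ← mul_assoc]
  exact mul_eq_zero_of_pow_mul_adjoin O G hG h2 U z hz (h * z) (hgen _) n
    (by rw [hn, zero_mul])

end FLTA.LT2
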