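import Fermat.Agent.LT2.PatchedEval
import Fermat.Agent.LT2.PatchedSeparated

/-!
# Part G of LT2: algebras of endomorphisms of a free module over the coefficient ring of the level

General lemmas for an algebra of commuting endomorphisms: it is torsion-free over the coefficients,
power series evaluate at topologically nilpotent elements, and points separate on the image of `z`.
-/

set_option autoImplicit false
set_option linter.unusedSectionVars false
set_option linter.style.haveILetI false

noncomputable section

open IsLocalRing

namespace FLTA.LT2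

open FLTA.RT

section generic

variable {R : Type} [CommRing R] {M : Type} [AddCommGroup M] [Module R M]

/-- `I • ⊤` is stable under multiplication on the right. -/
theorem mul_mem_smul_top {A : Type} [Ring A] [Algebra R A] (I : Ideal R) {x : A}
    (hx : x ∈ I • (⊤ : Submodule R A)) (y : A) :
    x * y ∈ I • (⊤ : Submodule R A) ∧ y * x ∈ I • (⊤ : Submodule R A) := by
  refine Submodule.smul_induction_on hx (fun c hc a _ => ?_) fun a b ha hb => ?_
  · rw [smul_mul_assoc, mul_smul_comm]
    exact ⟨Submodule.smul_mem_smul hc trivial, Submodule.smul_mem_smul hc trivial⟩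
  · rw [add_mul, mul_add]
    exact ⟨add_mem ha.1 hb.1, add_mem ha.2 hb.2⟩

/-- Topological nilpotence does not see a perturbation by a small element. -/
theorem add_pow_mem_smul_top {A : Type} [Ring A] [Algebra R A] (I : Ideal R) {x y : A} {n : ℕ}
    (hx : x ^ n ∈ I • (⊤ : Submodule R A)) (hy : y ∈ I • (⊤ : Submodule R A)) :
    (x + y) ^ n ∈ I • (⊤ : Submodule R A) := by
  have key : ∀ j : ℕ, (x + y) ^ j - x ^ j ∈ I • (⊤ : Submodule R A) := fun j => by
    induction j with
    | zero => simp
    | succ j ih =>
      rw [pow_succ, pow_succ, show (x + y) ^ j * (x + y) - x ^ j * x =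
        ((x + y) ^ j - x ^ j) * (x + y) + x ^ j * y by noncomm_ring]
      exact add_mem (mul_mem_smul_top I ih _).1 (mul_mem_smul_top I hy _).2
  simpa using add_mem (key n) hx

/-- An endomorphism nilpotent on the cut-out part modulo `I` is so on that part. -/
theorem exists_pow_restrict_mem (I : Ideal R) {e f : Module.End R M} (he : e * e = e)
    (N : Submodule R M) (hN : N = LinearMap.range e) (g : Module.End R N)
    (hg : ∀ x, (g x : M) = f x) {n : ℕ} (hn : (f * e) ^ n ∈ I • (⊤ : Submodule R (Module.End R M))) :
    g ^ n ∈ I • (⊤ : Submodule R (Module.End R N)) := by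
  have hmem : ∀ x, e x ∈ N := fun x => hN ▸ LinearMap.mem_range_self e x
  have hfix : ∀ x : N, e x = x := fun x => by
    obtain ⟨y, hy⟩ := hN.le x.2
    rw [← hy, ← Module.End.mul_apply, he]
  let Φ : Module.End R M →ₗ[R] Module.End R N :=
    { toFun := fun h => (e.codRestrict N hmem).comp (h.comp N.subtype)
      map_add' := fun h h' => by ext x; simp
      map_smul' := fun c h => by ext x; simp }
  have hΦ : Φ ((f * e) ^ n) = g ^ n := by
    refine LinearMap.ext fun x => Subtype.ext ?_
    show e (((f * e) ^ n) x) = _
    have : ∀ j : ℕ, ((f * e) ^ j) (x : M) = ((g ^ j) x : N) := fun j => by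
      induction j generalizing x with
      | zero => rfl
      | succ j ih =>
        rw [pow_succ, pow_succ, Module.End.mul_apply, Module.End.mul_apply, Module.End.mul_apply,
          hfix, ← hg]
        exact ih (g x)
    rw [this, hfix]
  rw [← hΦ]
  exact Submodule.smul_top_le_comap_smul_top I Φ hn

/-- Topological nilpotence of `c T - a` on the part cut out, for `c ≡ 1`. -/
theorem exists_pow_smul_sub_mem [IsLocalRing R] [IsNoetherianRing R]
    [IsAdicComplete (maximalIdeal R) R] [Module.Finite R (Module.End R M)] {σ : Type*}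
    {T : σ → Module.End R M} (hT : ∀ s t, Commute (T s) (T t)) (a : σ → R) (s : σ)
    (N : Submodule R M) (hN : N = LinearMap.range (localIdem T a)) (g : Module.End R N)
    (hg : ∀ x, (g x : M) = T s x) {c : R} (hc : c - 1 ∈ maximalIdeal R) :
    ∃ n, (c • g - algebraMap R (Module.End R N) (a s)) ^ n ∈
      maximalIdeal R • (⊤ : Submodule R (Module.End R N)) := by
  obtain ⟨n, hn⟩ := exists_pow_sub_mul_mem hT a s
  have hg' : ∀ x : N, ((g - algebraMap R (Module.End R N) (a s)) x : M) =
      (T s - algebraMap R (Module.End R M) (a s)) x := fun x => by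
    rw [LinearMap.sub_apply, LinearMap.sub_apply, Submodule.coe_sub, hg]
    rfl
  have h1 := exists_pow_restrict_mem (maximalIdeal R) (isIdempotentElem_localIdem hT a).eq
    N hN _ hg' hn
  have e : c • g - algebraMap R (Module.End R N) (a s) =
      c • (g - algebraMap R (Module.End R N) (a s)) + ((c - 1) * a s) • 1 := by
    rw [Algebra.algebraMap_eq_smul_one, smul_sub, smul_smul, sub_mul, one_mul]
    module
  refine ⟨n, ?_⟩
  rw [e]
  refine add_pow_mem_smul_top _ ?_ (Submodule.smul_mem_smul (Ideal.mul_mem_right _ _ hc) trivial)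
  rw [smul_pow]
  exact Submodule.smul_mem _ _ h1

end generic

section algebra

variable {O : Type} [CommRing O] {R : Type} [CommRing R] [Algebra O R] {M : Type}
  [AddCommGroup M] [Module R M] [Module.Free R M] {H : Type} [CommRing H] [Algebra R H]
  [Algebra O H] [IsScalarTower O R H] (α : H →ₐ[R] Module.End R M) (hα : Function.Injective α)

include hα in
/-- A faithful algebra is torsion-free. -/
theorem isTorsionFree_of_end (h : ∀ (c : O), c ≠ 0 → ∀ r : R, algebraMap O R c * r = 0 → r = 0) :
    Module.IsTorsionFree O H := by
  refine Module.IsTorsionFree.mk fun c hc => fun x y hxy => ?_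
  refine hα (LinearMap.ext fun v => ?_)
  let b := Module.Free.chooseBasis R M
  refine b.repr.injective (Finsupp.ext fun i => ?_)
  rcases subsingleton_or_nontrivial O with hO | hO
  · have : (1 : R) = 0 := by
      rw [← map_one (algebraMap O R), Subsingleton.elim (1 : O) 0, map_zero]
    have := subsingleton_of_zero_eq_one this.symm
    exact Subsingleton.elim _ _
  refine sub_eq_zero.mp (h c hc.ne_zero _ ?_)
  have h' := congrArg (fun z : H => b.repr (α z v) i)
    (show algebraMap O H c * x = algebraMap O H c * y by
      rw [← Algebra.smul_def, ← Algebra.smul_def]; exact hxy)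
  simp only [IsScalarTower.algebraMap_apply O R H, map_mul, AlgHom.commutes,
    Module.End.mul_apply, Module.algebraMap_end_apply, map_smul, Finsupp.smul_apply,
    smul_eq_mul] at h'
  rw [mul_sub, h', sub_self]

variable [IsDomain O] [IsDiscreteValuationRing O] [IsLocalRing R] [IsNoetherianRing R]
  [IsAdicComplete (maximalIdeal R) R] [Module.Finite R M]

include hα in
/-- Power series evaluate at topologically nilpotent elements of a faithful algebra. -/
theorem exists_eval_alg (hres : Function.Surjective (residue R ∘ algebraMap O R)) {r : ℕ}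
    (t : Fin r → H)
    (hnil : ∀ i, ∃ n, α (t i) ^ n ∈ maximalIdeal R • (⊤ : Submodule R (Module.End R M))) :
    ∃ act : MvPowerSeries (Fin r) O →ₐ[O] H, ∀ i, act (MvPowerSeries.X i) = t i := by
  rcases subsingleton_or_nontrivial M with hM | hM
  · exact ⟨(Algebra.ofId O _).comp
      { (MvPowerSeries.constantCoeff : MvPowerSeries (Fin r) O →+* O) with
        commutes' := fun c => MvPowerSeries.constantCoeff_C c },
      fun i => hα (LinearMap.ext fun x => Subsingleton.elim _ _)⟩
  obtain ⟨γ, hC, hX, hmem⟩ := exists_eval_end hres (fun i => α (t i))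
    (fun i j => (Commute.all (t i) (t j)).map α) hnil
  have hle : Algebra.adjoin R (Set.range fun i => α (t i)) ≤ α.range :=
    Algebra.adjoin_le (Set.range_subset_iff.mpr fun i => ⟨t i, rfl⟩)
  choose f hf using fun p => hle (hmem p)
  have hf' : ∀ p, α (f p) = γ p := hf
  exact ⟨
    { toFun := f
      map_one' := hα (by rw [hf', map_one, map_one])
      map_mul' := fun p p' => hα (by rw [hf', map_mul, map_mul, hf', hf'])
      map_zero' := hα (by rw [hf', map_zero, map_zero])
      map_add' := fun p p' => hα (by rw [hf', map_add, map_add, hf', hf'])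
      commutes' := fun c => hα (by
        rw [IsScalarTower.algebraMap_apply O R H, AlgHom.commutes, ← hC c]
        exact hf' _) },
    fun i => hα ((hf' _).trans (hX i))⟩

end algebra

section separated

variable {O : Type} [CommRing O] [IsDomain O] [IsDiscreteValuationRing O]
  [IsAdicComplete (maximalIdeal O) O] [CharZero O] [Finite (ResidueField O)]
  {R : Type} [CommRing R] [Algebra O R] {A : Type} [Ring A] [Algebra R A] {σ : Type*}
  {T : σ → A}

/-- Separation in an algebra of commuting operators: the operators are good, or involutions on the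
image of `w`. -/
theorem opAlg_mul_sq_eq_zero {H : Type} [CommRing H] [Algebra R H]
    (α : H →ₐ[R] A) (hα : Function.Injective α) (gen : σ → H)
    (hgenα : ∀ s, α (gen s) = T s) [Algebra O H] [IsScalarTower O R H]
    [Module.Finite O H] [Module.IsTorsionFree O H] (good : Set σ)
    (hgood : ∀ x ∈ Algebra.adjoin R (T '' good), IsNilpotent x → x = 0) (S : Finset σ)
    (hcov : ∀ s, s ∈ good ∨ s ∈ S) (w : H) (hinv : ∀ s ∈ S, gen s * gen s * w = w)
    (h : H)
    (hh : ∀ (B : RepTheory.FiniteDVRExt O) (ψ : H →ₐ[O] B.R), ψ (w ^ 2) ≠ 0 → ψ h = 0)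
    (hrange : ∀ g, α g ∈ Algebra.adjoin R (Set.range T)) :
    h * w ^ 2 = 0 := by
  classical
  let G := Algebra.adjoin R (gen '' good)
  have himage : ∀ (S' : Set σ), (Algebra.adjoin R (gen '' S')).map α = Algebra.adjoin R (T '' S') :=
    fun S' => by
      rw [AlgHom.map_adjoin, ← Set.image_comp]
      exact congrArg _ (Set.image_congr fun s _ => hgenα s)
  have hG : ∀ x ∈ G, IsNilpotent x → x = 0 := fun x hx hn => hα (by
    rw [map_zero]
    exact hgood _ (himage good ▸ Subalgebra.mem_map.mpr ⟨x, hx, rfl⟩) (hn.map α))
  refine mul_sq_eq_zero_of_points G hG (S.image gen) (fun g => ?_) w (fun u hu => ?_) h hh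
  · have h1 := hrange g
    rw [← Set.image_univ, ← himage, Subalgebra.mem_map] at h1
    obtain ⟨g', hg', e⟩ := h1
    rw [← hα e]
    refine Algebra.adjoin_mono ?_ hg'
    rintro _ ⟨s, -, rfl⟩
    rcases hcov s with h' | h'
    · exact Or.inl (Algebra.subset_adjoin ⟨s, h', rfl⟩)
    · exact Or.inr (Finset.mem_coe.mpr (Finset.mem_image_of_mem gen h'))
  · obtain ⟨s, hs, rfl⟩ := Finset.mem_image.mp hu
    exact hinv s hs

end separated

end FLTA.LT2
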