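import Fermat.Agent.LT2.PatchedOps

/-!
# Part G of LT2: the level algebra over the coefficients
-/

set_option autoImplicit false
set_option linter.unusedSectionVars false

noncomputable section

open IsLocalRing

namespace FLTA.LT2

/-- The level algebra over the coefficients `O`. -/
instance twHAlgebra (O : Type) [CommRing O] [IsDomain O] [IsDiscreteValuationRing O]
    [IsAdicComplete (maximalIdeal O) O] (k m L₀ : ℕ) (q : Fin k → ℕ) (E : WeierstrassCurve ℤ)
    (L₁ : ℕ) [NeZero (twLev k L₁ q)] (ω : O) : Algebra O (twH O k m L₀ q E L₁ ω) :=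
  ((algebraMap (DiaRing O k m) (twH O k m L₀ q E L₁ ω)).comp (algebraMap O (DiaRing O k m))).toAlgebra'
    fun c x => by rw [RingHom.comp_apply]; exact Algebra.commutes (algebraMap O (DiaRing O k m) c) x

end FLTA.LT2

end
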