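import Fermat.Agent.LT2.PatchedSigns
import Fermat.Agent.LT2.PatchedHeckeAlg
import Fermat.Agent.LT2.PointsAlgebra

/-!
# Part G of LT2: the level algebra over the coefficients

`twH` is finite and torsion-free over `O`; power series evaluate at the `T_l - a_l` in it; and if
the good algebra is reduced and every `U_v` is an involution on the image of `twZ`, then what
vanishes at all points where `twZ ^ 2` does not is killed by it.
-/

set_option autoImplicit false
set_option linter.overlappingInstances false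
set_option linter.unusedSectionVars false
set_option linter.style.haveILetI false
set_option maxSynthPendingDepth 3

noncomputable section

open IsLocalRing CongruenceSubgroup

namespace FLTA.LT2

open FLTA.RT FLTA.Periods

variable (O : Type) [CommRing O] [IsDomain O] [IsDiscreteValuationRing O]
  [IsAdicComplete (maximalIdeal O) O] [Finite (ResidueField O)] [CharZero O]
  (k m : ℕ) (L₀ : ℕ) [NeZero L₀] (q : Fin k → ℕ) (E : WeierstrassCurve ℤ) (ω : O)
  [NeZero (twLev k L₀ q)]

/-- Scalars act through the coefficient ring of the level. -/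
instance twH_isScalarTower : IsScalarTower O (DiaRing O k m) (twH O k m L₀ q E L₀ ω) :=
  IsScalarTower.of_algebraMap_eq' rfl

theorem finite_twH (h2 : (2 : O) ∈ maximalIdeal O)
    [Module.Free (DiaRing O k m) (twMod O k m L₀ q E L₀ ω)]
    [Module.Finite (DiaRing O k m) (twMod O k m L₀ q E L₀ ω)] :
    Module.Finite O (twH O k m L₀ q E L₀ ω) :=
  have := finite_diaRing O k m h2
  have : Module.Finite (DiaRing O k m) (twH O k m L₀ q E L₀ ω) :=
    Module.Finite.of_injective (twH O k m L₀ q E L₀ ω).val.toLinearMap Subtype.val_injective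
  Module.Finite.trans (DiaRing O k m) _

theorem diaRing_torsionFree (h2 : (2 : O) ∈ maximalIdeal O) (c : O) (hc : c ≠ 0)
    (r : DiaRing O k m) (h : algebraMap O (DiaRing O k m) c * r = 0) : r = 0 := by
  refine eq_zero_of_diaPoint O k m h2 r fun ψ => ?_
  have h' := congrArg ψ h
  rw [map_mul, map_zero, AlgHom.commutes] at h'
  exact (mul_eq_zero.mp h').resolve_left fun h0 =>
    hc (RepTheory.algebraMap_algClosure_injective O (h0.trans (map_zero _).symm))

theorem isTorsionFree_twH (h2 : (2 : O) ∈ maximalIdeal O)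
    [Module.Free (DiaRing O k m) (twMod O k m L₀ q E L₀ ω)] :
    Module.IsTorsionFree O (twH O k m L₀ q E L₀ ω) :=
  letI := twHCommRing O k m L₀ q E L₀ ω
  isTorsionFree_of_end (twH O k m L₀ q E L₀ ω).val Subtype.val_injective
    (diaRing_torsionFree O k m h2)

/-- The power series in the diamond variables act through the algebra. -/
def twDelta : letI := twHCommRing O k m L₀ q E L₀ ω
    MvPowerSeries (Fin k) O →ₐ[O] twH O k m L₀ q E L₀ ω :=
  letI := twHCommRing O k m L₀ q E L₀ ω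
  { (algebraMap (DiaRing O k m) (twH O k m L₀ q E L₀ ω)).comp (diaMk O k m) with
    commutes' := fun _ => rfl }

theorem residue_diaRing_surjective :
    Function.Surjective (residue (DiaRing O k m) ∘ algebraMap O (DiaRing O k m)) := by
  intro y
  obtain ⟨x, rfl⟩ := residue_surjective y
  refine ⟨algebraMap (DiaRing O k m) O x, ?_⟩
  rw [Function.comp_apply, ← sub_eq_zero, ← map_sub, residue_eq_zero_iff,
    mem_maximalIdeal_diaRing, map_sub,
    show algebraMap O (DiaRing O k m) (algebraMap (DiaRing O k m) O x) =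
      diaMk O k m (MvPowerSeries.C (algebraMap (DiaRing O k m) O x)) from rfl,
    algebraMap_diaMk, MvPowerSeries.constantCoeff_C, sub_self]
  exact zero_mem _

set_option maxHeartbeats 1600000 in
/-- `T_l - a_l` is topologically nilpotent on the level module. -/
theorem exists_pow_twN_sub_mem {l : ℕ} (hl : l.Prime) (hlL : ¬ l ∣ 2 * L₀) (hlq : ∀ i, q i ≠ l) :
    ∃ n, (twN O k m L₀ q E L₀ ω l -
      algebraMap (DiaRing O k m) _ (algebraMap O (DiaRing O k m) (E.apOfModel l : O))) ^ n ∈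
      maximalIdeal (DiaRing O k m) •
        (⊤ : Submodule (DiaRing O k m) (Module.End (DiaRing O k m) (twMod O k m L₀ q E L₀ ω))) := by
  have := group_fg_PGamma0 (twLev k L₀ q)
  have := finite_tH1 (χ := pgamChar (twChar O k m L₀ q) (twChar_neg_one O k m L₀ q))
    (DiaRing O k m)
  have has : topVal O k m L₀ q E ω ⟨l, hl, hlL⟩ =
      algebraMap O (DiaRing O k m) (E.apOfModel l : O) := by
    show diaMk O k m (MvPowerSeries.C _) = _
    rw [levVal, if_neg (fun ⟨i, _, hi⟩ => hlq i hi)]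
    rfl
  rw [← has]
  exact exists_pow_smul_sub_mem (T := opsAt (twOps O k m L₀ q L₀) (DiaRing O k m))
    (commAtRing_twOps O k m L₀ q L₀) (topVal O k m L₀ q E ω)
    ⟨l, hl, hlL⟩ _ (twMod_eq_range O k m L₀ q E L₀ ω) (twOp O k m L₀ q E L₀ ω l)
    (fun x => coe_twOp O k m L₀ q E L₀ ω hl x) (by
      rw [mem_maximalIdeal_diaRing, map_sub, map_one, aug_kap, sub_self]
      exact zero_mem _)

set_option maxHeartbeats 1600000 in
/-- **Power series evaluate at the `T_l - a_l`.** -/
theorem exists_twAct [Module.Free (DiaRing O k m) (twMod O k m L₀ q E L₀ ω)]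
    [Module.Finite (DiaRing O k m) (twMod O k m L₀ q E L₀ ω)] {r : ℕ} (lv : Fin r → ℕ)
    (hlv : ∀ i, (lv i).Prime ∧ ¬ lv i ∣ 2 * L₀ ∧ ∀ j, q j ≠ lv i) :
    letI := twHCommRing O k m L₀ q E L₀ ω
    ∃ act : MvPowerSeries (Fin r) O →ₐ[O] twH O k m L₀ q E L₀ ω,
      ∀ i, act (MvPowerSeries.X i) =
        twGen O k m L₀ q E L₀ ω (lv i) - (E.apOfModel (lv i) : twH O k m L₀ q E L₀ ω) := by
  letI := twHCommRing O k m L₀ q E L₀ ω
  refine exists_eval_alg (twH O k m L₀ q E L₀ ω).val Subtype.val_injective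
    (residue_diaRing_surjective O k m)
    (fun i => twGen O k m L₀ q E L₀ ω (lv i) - (E.apOfModel (lv i) : twH O k m L₀ q E L₀ ω))
    fun i => ?_
  obtain ⟨n, hn⟩ := exists_pow_twN_sub_mem O k m L₀ q E ω (hlv i).1 (hlv i).2.1 (hlv i).2.2
  refine ⟨n, ?_⟩
  rw [map_intCast, map_intCast] at hn
  rwa [map_sub, Subalgebra.coe_val, coe_twGen O k m L₀ q E L₀ ω ⟨(hlv i).1,
    fun h => (hlv i).2.1 (h ▸ dvd_mul_right 2 L₀), (hlv i).2.2⟩, SubringClass.coe_intCast]

/-- **Separation.** If the good algebra is reduced and the other operators are involutions on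
the image of `twZ`, then what vanishes at the points where `twZ ^ 2` does not is killed by it. -/
theorem twH_mul_sq_eq_zero (Q : Finset ℕ) (h2 : (2 : O) ∈ maximalIdeal O)
    [Module.Free (DiaRing O k m) (twMod O k m L₀ q E L₀ ω)]
    [Module.Finite (DiaRing O k m) (twMod O k m L₀ q E L₀ ω)]
    (hgood : ∀ x ∈ Algebra.adjoin (DiaRing O k m)
        (twN O k m L₀ q E L₀ ω '' {l : ℕ | l.Prime ∧ ¬ l ∣ 2 * twLev k L₀ q}),
      IsNilpotent x → x = 0)
    (hinv : letI := twHCommRing O k m L₀ q E L₀ ω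
      ∀ v ∈ L₀.primeFactors, v ≠ 2 → (∀ i, q i ≠ v) →
        twGen O k m L₀ q E L₀ ω v * twGen O k m L₀ q E L₀ ω v * twZ O k m L₀ q E ω Q =
          twZ O k m L₀ q E ω Q)
    (hqp : ∀ i, (q i).Prime) (h : twH O k m L₀ q E L₀ ω)
    (hh : letI := twHCommRing O k m L₀ q E L₀ ω
      ∀ (A : RepTheory.FiniteDVRExt O) (ψ : twH O k m L₀ q E L₀ ω →ₐ[O] A.R),
      ψ (twZ O k m L₀ q E ω Q ^ 2) ≠ 0 → ψ h = 0) :
    letI := twHCommRing O k m L₀ q E L₀ ω
    h * twZ O k m L₀ q E ω Q ^ 2 = 0 := by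
  classical
  letI := twHCommRing O k m L₀ q E L₀ ω
  have := finite_twH O k m L₀ q E ω h2
  have := isTorsionFree_twH O k m L₀ q E ω h2
  have hgen : ∀ r : TopIdx k q, ((twGen O k m L₀ q E L₀ ω r : twH O k m L₀ q E L₀ ω) :
      Module.End (DiaRing O k m) (twMod O k m L₀ q E L₀ ω)) = twN O k m L₀ q E L₀ ω r :=
    fun r => coe_twGen O k m L₀ q E L₀ ω r.2
  refine opAlg_mul_sq_eq_zero (T := fun r : TopIdx k q => twN O k m L₀ q E L₀ ω r)
    (twH O k m L₀ q E L₀ ω).val Subtype.val_injective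
    (fun r : TopIdx k q => twGen O k m L₀ q E L₀ ω r) hgen
    {r | ¬ (r : ℕ) ∣ 2 * twLev k L₀ q} (fun x hx hn => hgood x (Algebra.adjoin_mono ?_ hx) hn)
    ((L₀.primeFactors.filter fun v => v ≠ 2 ∧ ∀ i, q i ≠ v).subtype
      fun r => r.Prime ∧ r ≠ 2 ∧ ∀ i, q i ≠ r) (fun r => ?_) _ (fun r hr => ?_) h hh
    fun g => g.2
  · rintro _ ⟨r, hr, rfl⟩
    exact ⟨r, ⟨r.2.1, hr⟩, rfl⟩
  · by_cases hd : (r : ℕ) ∣ 2 * twLev k L₀ q
    · refine Or.inr (Finset.mem_subtype.mpr (Finset.mem_filter.mpr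
        ⟨Nat.mem_primeFactors.mpr ⟨r.2.1, ?_, NeZero.ne L₀⟩, r.2.2⟩))
      rcases r.2.1.dvd_mul.mp hd with h | h
      · exact absurd ((Nat.prime_dvd_prime_iff_eq r.2.1 Nat.prime_two).mp h) r.2.2.1
      · refine (r.2.1.dvd_mul.mp h).resolve_right fun h => ?_
        obtain ⟨i, -, hi⟩ := (r.2.1.prime.dvd_finsetProd_iff _).mp h
        exact r.2.2.2 i ((Nat.prime_dvd_prime_iff_eq r.2.1 (hqp i)).mp hi).symm
    · exact Or.inl hd
  · rw [Finset.mem_subtype, Finset.mem_filter] at hr
    exact hinv r hr.1 hr.2.1 hr.2.2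

end FLTA.LT2
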