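import Mathlib.LinearAlgebra.Charpoly.ToMatrix
import Mathlib.LinearAlgebra.Eigenspace.Zero
import Mathlib.LinearAlgebra.Determinant

/-!
# Part G of LT2: the operator killing what is old at a prime

If `U` acts on the two images `i E`, `j E` of a finite free module by
`U ∘ i = i ∘ (κ T) - κ c j`, `U ∘ j = κ q i`, then the characteristic polynomial of the matrix of
`U` on `E × E` kills them, and this polynomial commutes with reduction of bases.
-/

set_option autoImplicit false

noncomputable section

namespace FLTA.LT2

open Polynomial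

variable {R : Type*} [CommRing R] {E : Type*} [AddCommGroup E] [Module R E]

/-- The operator `U` on the pair of copies of `E`. -/
def oldMap (T : Module.End R E) (q c κ : R) : Module.End R (E × E) :=
  κ • ((T.comp (LinearMap.fst R E E) + q • LinearMap.snd R E E).prod ((-c) • LinearMap.fst R E E))

theorem oldMap_apply (T : Module.End R E) (q c κ : R) (x y : E) :
    oldMap T q c κ (x, y) = (κ • (T x + q • y), κ • (-c) • x) := rfl

/-- The polynomial killing the old part. -/
def oldPoly [Module.Free R E] [Module.Finite R E] (T : Module.End R E) (q c κ : R) : R[X] :=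
  (oldMap T q c κ).charpoly

/-- Polynomials commute with intertwiners. -/
theorem aeval_apply_of_intertwine {X Y : Type*} [AddCommGroup X] [Module R X] [AddCommGroup Y]
    [Module R Y] (A : Module.End R X) (U : Module.End R Y) (f : X →ₗ[R] Y)
    (h : ∀ x, U (f x) = f (A x)) (P : R[X]) (x : X) : aeval U P (f x) = f (aeval A P x) := by
  induction P using Polynomial.induction_on generalizing x with
  | C a => simp [Module.algebraMap_end_apply]
  | add P P' hP hP' => simp [hP, hP']
  | monomial n a hn =>
    have e : C a * Polynomial.X ^ (n + 1) = C a * Polynomial.X ^ n * Polynomial.X := by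
      rw [pow_succ, mul_assoc]
    rw [e, map_mul, map_mul (aeval A), aeval_X, aeval_X, Module.End.mul_apply,
      Module.End.mul_apply, h, hn]

variable [Module.Free R E] [Module.Finite R E]

theorem monic_oldPoly (T : Module.End R E) (q c κ : R) : (oldPoly T q c κ).Monic :=
  LinearMap.charpoly_monic _

/-- **Killing.** -/
theorem aeval_oldPoly_eq_zero (T : Module.End R E) (q c κ : R) {W : Type*} [AddCommGroup W]
    [Module R W] (U : Module.End R W) (i j : E →ₗ[R] W)
    (hi : ∀ x, U (i x) = κ • i (T x) - (κ * c) • j x) (hj : ∀ x, U (j x) = (κ * q) • i x)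
    (x y : E) : aeval U (oldPoly T q c κ) (i x + j y) = 0 := by
  have h : ∀ z : E × E, U (i.coprod j z) = i.coprod j (oldMap T q c κ z) := fun ⟨a, b⟩ => by
    simp only [oldMap_apply, LinearMap.coprod_apply, map_add, hi, hj, map_smul, smul_smul]
    simp only [smul_add, smul_smul, neg_smul, mul_neg]
    abel
  rw [show i x + j y = i.coprod j (x, y) from rfl, aeval_apply_of_intertwine _ U _ h,
    oldPoly, LinearMap.aeval_self_charpoly, LinearMap.zero_apply, map_zero]

variable {R' : Type*} [CommRing R'] {E' : Type*} [AddCommGroup E'] [Module R' E']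
  [Module.Free R' E'] [Module.Finite R' E']

/-- **Reduction.** -/
theorem map_oldPoly (φ : R →+* R') (f : E →+ E') (hf : ∀ r x, f (r • x) = φ r • f x)
    {ι : Type*} [Fintype ι] (b : Module.Basis ι R E) (b' : Module.Basis ι R' E')
    (hb : ∀ i, f (b i) = b' i) (T : Module.End R E) (T' : Module.End R' E')
    (hT : ∀ x, f (T x) = T' (f x)) {q c κ : R} {q' c' κ' : R'} (hq : φ q = q') (hc : φ c = c')
    (hκ : φ κ = κ') : (oldPoly T q c κ).map φ = oldPoly T' q' c' κ' := by
  classical
  have hrepr : ∀ x i, b'.repr (f x) i = φ (b.repr x i) := fun x i => by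
    conv_lhs => rw [← b.sum_repr x]
    simp only [map_sum, hf, hb, map_smul, Module.Basis.repr_self, Finsupp.smul_single,
      smul_eq_mul, mul_one, Finsupp.coe_finsetSum, Finset.sum_apply, Finsupp.single_apply,
      Finset.sum_ite_eq', Finset.mem_univ, if_true]
  have hb0 : f 0 = 0 := map_zero f
  unfold oldPoly
  rw [← LinearMap.charpoly_toMatrix _ (b.prod b), ← LinearMap.charpoly_toMatrix _ (b'.prod b'),
    ← Matrix.charpoly_map]
  congr 1
  ext r s
  simp only [Matrix.map_apply, LinearMap.toMatrix_apply]
  rcases r with r | r <;> rcases s with s | s <;>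
    simp [oldMap_apply, ← hT, ← hb, ← hq, ← hc, ← hκ, ← hf, hrepr]

/-- At the bottom the polynomial does not vanish at signs. -/
theorem eval_oldPoly_ne_zero [IsDomain R] {T : Module.End R E} {q : R}
    (hinj : ∀ x, T (T x) = (q + 1) ^ 2 • x → x = 0) {s : R} (hs : s * s = 1) :
    (oldPoly T q 1 1).eval s ≠ 0 := by
  intro h
  have hdet : LinearMap.det (algebraMap R (Module.End R (E × E)) s - oldMap T q 1 1) = 0 := by
    rw [← LinearMap.eval_charpoly]
    exact h
  obtain ⟨⟨x, y⟩, hxy, hne⟩ :=
    Submodule.exists_mem_ne_zero_of_ne_bot (LinearMap.bot_lt_ker_of_det_eq_zero hdet).ne'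
  rw [LinearMap.mem_ker, LinearMap.sub_apply, Module.algebraMap_end_apply, oldMap_apply,
    Prod.smul_mk, Prod.mk_sub_mk, Prod.mk_eq_zero] at hxy
  simp only [one_smul, neg_smul, sub_neg_eq_add, sub_eq_zero] at hxy
  obtain ⟨h1, h2⟩ := hxy
  have hy : y = -(s • x) := by
    have h3 := congrArg (s • ·) (eq_neg_of_add_eq_zero_left h2)
    simpa [smul_smul, hs] using h3
  subst hy
  have hT : T x = (s * (1 + q)) • x := by
    rw [mul_add, mul_one, add_smul, h1, smul_neg, smul_smul, mul_comm q]
    abel
  refine hne (Prod.ext ?_ ?_) <;>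
    simp [hinj x (by rw [hT, map_smul, hT, smul_smul]; congr 1; linear_combination (1 + q) ^ 2 * hs)]

end FLTA.LT2
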