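import Fermat.Agent.LT2.PatchedControl
import Fermat.Agent.RT.CoeffChain
import Fermat.Agent.RT.HeckeLocalDegeneracy
import Fermat.Agent.Deformation.PowerSeriesBasic
import Fermat.Agent.LT2.Defs
import Fermat.Prelude.Thm_IsLocalRing_isAdicComplete_of_module_finite
import Mathlib.GroupTheory.SpecificGroups.Cyclic
import Mathlib.RingTheory.ZMod.UnitsCyclic

/-!
# Part G of LT2: the level of `k` auxiliary primes

The coefficient ring `O⟦y⟧ / ((1 + y)^(2^m) - 1)`, its character `(∏ ε_q ∘ a)²` modulo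
`L = L₀ ∏ q`, and the factor of the twisted cohomology of `Γ₀(L)/±1` cut out by the traces of `E`
at good primes and by the unit root at each auxiliary prime. It is free over the coefficient
ring and reduces to the same factor of `Hom(Γ₀(L), O)`.
-/

set_option autoImplicit false

noncomputable section

open IsLocalRing CongruenceSubgroup
open scoped MatrixGroups

namespace FLTA.LT2

open FLTA.RT FLTA.Periods FLTA.Gamma0

variable (O : Type) [CommRing O] (k m : ℕ)

/-- The relations of `k` cyclic groups of order `2 ^ m`. -/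
def diaRel : Ideal (MvPowerSeries (Fin k) O) :=
  Ideal.span (Set.range fun i : Fin k => (1 + MvPowerSeries.X i) ^ 2 ^ m - 1)

/-- The coefficient ring of the level. -/
abbrev DiaRing : Type := MvPowerSeries (Fin k) O ⧸ diaRel O k m

/-- The quotient map onto the coefficient ring. -/
def diaMk : MvPowerSeries (Fin k) O →+* DiaRing O k m := Ideal.Quotient.mk (diaRel O k m)

theorem diaMk_surjective : Function.Surjective (diaMk O k m) := Ideal.Quotient.mk_surjective

theorem diaRel_le_ker : diaRel O k m ≤ RingHom.ker (MvPowerSeries.constantCoeff (σ := Fin k)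
    (R := O)) := by
  refine Ideal.span_le.mpr ?_
  rintro _ ⟨i, rfl⟩
  simp

/-- `y ↦ 0`. -/
def diaAug : DiaRing O k m →+* O :=
  Ideal.Quotient.lift _ MvPowerSeries.constantCoeff fun _ h => diaRel_le_ker O k m h

theorem diaAug_mk (x : MvPowerSeries (Fin k) O) :
    diaAug O k m (diaMk O k m x) = MvPowerSeries.constantCoeff x := rfl

instance algebraDiaAug : Algebra (DiaRing O k m) O := (diaAug O k m).toAlgebra

theorem algebraMap_diaMk (x : MvPowerSeries (Fin k) O) :
    algebraMap (DiaRing O k m) O (diaMk O k m x) = MvPowerSeries.constantCoeff x := rfl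

theorem diaAug_surjective : Function.Surjective (algebraMap (DiaRing O k m) O) :=
  fun c => ⟨diaMk O k m (MvPowerSeries.C c), by simp [algebraMap_diaMk]⟩

/-- The diamond generator `1 + y i`. -/
def diaUnit (i : Fin k) : (DiaRing O k m)ˣ :=
  ((MvPowerSeries.isUnit_iff_constantCoeff.mpr (by simp) :
    IsUnit (1 + MvPowerSeries.X i : MvPowerSeries (Fin k) O)).map (diaMk O k m)).unit

theorem coe_diaUnit (i : Fin k) :
    (diaUnit O k m i : DiaRing O k m) = diaMk O k m (1 + MvPowerSeries.X i) := rfl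

theorem diaUnit_pow (i : Fin k) : diaUnit O k m i ^ 2 ^ m = 1 := by
  refine Units.ext ?_
  rw [Units.val_pow_eq_pow_val, coe_diaUnit, ← map_pow, Units.val_one, ← sub_eq_zero,
    ← map_one (diaMk O k m), ← map_sub]
  exact Ideal.Quotient.eq_zero_iff_mem.mpr (Ideal.subset_span ⟨i, rfl⟩)

theorem aug_diaUnit (i : Fin k) :
    algebraMap (DiaRing O k m) O (diaUnit O k m i : DiaRing O k m) = 1 := by
  rw [coe_diaUnit, algebraMap_diaMk]
  simp

/-! ### Local, noetherian and complete -/

section ring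

variable [IsLocalRing O]

instance nontrivial_diaRing : Nontrivial (DiaRing O k m) :=
  (diaAug O k m).domain_nontrivial

instance isLocalRing_diaRing : IsLocalRing (DiaRing O k m) :=
  IsLocalRing.of_surjective' (diaMk O k m) (diaMk_surjective O k m)

theorem mem_maximalIdeal_diaRing {x : DiaRing O k m} :
    x ∈ maximalIdeal (DiaRing O k m) ↔ algebraMap (DiaRing O k m) O x ∈ maximalIdeal O := by
  have h : IsLocalHom (algebraMap (DiaRing O k m) O) :=
    IsLocalHom.of_surjective _ (diaAug_surjective O k m)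
  simp only [mem_maximalIdeal, mem_nonunits_iff, isUnit_map_iff]

variable [IsNoetherianRing O]

instance isNoetherianRing_diaRing : IsNoetherianRing (DiaRing O k m) :=
  Ideal.Quotient.isNoetherianRing _

instance isAdicComplete_diaRing [IsDomain O] [IsDiscreteValuationRing O]
    [IsAdicComplete (maximalIdeal O) O] :
    IsAdicComplete (maximalIdeal (DiaRing O k m)) (DiaRing O k m) := by
  have : IsAdicComplete (maximalIdeal (MvPowerSeries (Fin k) O)) (MvPowerSeries (Fin k) O) :=
    Deformation.isAdicComplete_powerSeries O k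
  have : IsLocalHom (algebraMap (MvPowerSeries (Fin k) O) (DiaRing O k m)) :=
    IsLocalHom.of_surjective _ (diaMk_surjective O k m)
  exact IsLocalRing.isAdicComplete_of_module_finite (𝒪 := MvPowerSeries (Fin k) O)

end ring

/-! ### The characters -/

/-- A character of order dividing `2 ^ m` of the units modulo `p` with image generated by `u`. -/
theorem exists_diaChar {R : Type} [CommRing R] {p : ℕ} (hp : p.Prime) (hm : 2 ^ m ∣ p - 1)
    (u : Rˣ) (hu : u ^ 2 ^ m = 1) :
    ∃ ε : (ZMod p)ˣ →* Rˣ, (∀ x, ∃ n : ℕ, ε x = u ^ n) ∧ ∃ g, ε g = u := by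
  have := Fact.mk hp
  obtain ⟨g, hg⟩ := IsCyclic.exists_monoid_generator (α := (ZMod p)ˣ)
  have hg' : ∀ x : (ZMod p)ˣ, x ∈ Subgroup.zpowers g := fun x => by
    obtain ⟨n, rfl⟩ := Submonoid.mem_powers_iff _ _ |>.mp (hg x)
    exact Subgroup.npow_mem_zpowers g n
  have hord : orderOf u ∣ orderOf g := by
    rw [orderOf_eq_card_of_forall_mem_zpowers hg', Nat.card_eq_fintype_card,
      ZMod.card_units]
    exact (orderOf_dvd_of_pow_eq_one hu).trans hm
  refine ⟨monoidHomOfForallMemZpowers hg' hord, fun x => ?_, g,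
    monoidHomOfForallMemZpowers_apply_gen hg' hord⟩
  obtain ⟨n, rfl⟩ := Submonoid.mem_powers_iff _ _ |>.mp (hg x)
  exact ⟨n, by rw [map_pow, monoidHomOfForallMemZpowers_apply_gen]⟩

open Classical in
/-- The character at an auxiliary prime `q i`. -/
def twEps (q : Fin k → ℕ) (p : ℕ) : (ZMod p)ˣ →* (DiaRing O k m)ˣ :=
  if h : ∃ i, q i = p ∧ p.Prime ∧ 2 ^ m ∣ p - 1 then
    (exists_diaChar m h.choose_spec.2.1 h.choose_spec.2.2 (diaUnit O k m h.choose)
      (diaUnit_pow O k m _)).choose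
  else 1

theorem twEps_eq_pow (q : Fin k → ℕ) (p : ℕ) (x : (ZMod p)ˣ) :
    twEps O k m q p x = 1 ∨ ∃ (i : Fin k) (n : ℕ), twEps O k m q p x = diaUnit O k m i ^ n := by
  unfold twEps
  split_ifs with h
  · exact Or.inr ⟨h.choose, (exists_diaChar m h.choose_spec.2.1 h.choose_spec.2.2
      (diaUnit O k m h.choose) (diaUnit_pow O k m _)).choose_spec.1 x⟩
  · exact Or.inl rfl

theorem twEps_pow (q : Fin k → ℕ) (p : ℕ) (x : (ZMod p)ˣ) : twEps O k m q p x ^ 2 ^ m = 1 := by
  rcases twEps_eq_pow O k m q p x with h | ⟨i, n, h⟩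
  · rw [h, one_pow]
  · rw [h, ← pow_mul, mul_comm, pow_mul, diaUnit_pow, one_pow]

theorem exists_twEps_eq {q : Fin k → ℕ} (hq : Function.Injective q) {i : Fin k}
    (hi : (q i).Prime) (hm : 2 ^ m ∣ q i - 1) :
    ∃ g, twEps O k m q (q i) g = diaUnit O k m i := by
  have h : ∃ j, q j = q i ∧ (q i).Prime ∧ 2 ^ m ∣ q i - 1 := ⟨i, rfl, hi, hm⟩
  obtain ⟨g, hg⟩ := (exists_diaChar m h.choose_spec.2.1 h.choose_spec.2.2
    (diaUnit O k m h.choose) (diaUnit_pow O k m _)).choose_spec.2
  refine ⟨g, ?_⟩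
  rw [twEps, dif_pos h, hg, hq h.choose_spec.1]

/-- The level. -/
abbrev twLev (L₀ : ℕ) (q : Fin k → ℕ) : ℕ := L₀ * ∏ i, q i

theorem dvd_twLev (L₀ : ℕ) (q : Fin k → ℕ) (i : Fin k) : q i ∣ twLev k L₀ q :=
  (Finset.dvd_prod_of_mem q (Finset.mem_univ i)).mul_left _

variable (L₀ : ℕ) (q : Fin k → ℕ)

/-- The coefficient character of the level. -/
def twChar : (ZMod (twLev k L₀ q))ˣ →* (DiaRing O k m)ˣ :=
  sigProd (twLev k L₀ q) (Finset.univ.image q) (twEps O k m q)

theorem twChar_neg_one : twChar O k m L₀ q (-1) = 1 := by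
  rw [twChar, sigProd_apply]
  refine Finset.prod_eq_one fun p _ => ?_
  rw [← map_pow, neg_one_sq, map_one]

theorem twChar_pow (x : (ZMod (twLev k L₀ q))ˣ) : twChar O k m L₀ q x ^ 2 ^ m = 1 := by
  rw [twChar, sigProd_apply, ← Finset.prod_pow]
  refine Finset.prod_eq_one fun p _ => ?_
  rw [← pow_mul, mul_comm, pow_mul]
  unfold sigChar
  split_ifs
  · rw [MonoidHom.comp_apply, twEps_pow, one_pow]
  · simp

theorem gamChar_twChar_cube (γ : Gamma0 (twLev k L₀ q))
    (h : gamChar (twChar O k m L₀ q) γ ^ 3 = 1) : gamChar (twChar O k m L₀ q) γ = 1 :=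
  eq_one_of_pow_coprime (Nat.Coprime.pow_right m (by norm_num : Nat.Coprime 3 2)) h
    (twChar_pow O k m L₀ q _)

theorem aug_twEps (p : ℕ) (x : (ZMod p)ˣ) :
    algebraMap (DiaRing O k m) O (twEps O k m q p x : DiaRing O k m) = 1 := by
  rcases twEps_eq_pow O k m q p x with h | ⟨i, n, h⟩
  · rw [h, Units.val_one, map_one]
  · rw [h, Units.val_pow_eq_pow_val, map_pow, aug_diaUnit, one_pow]

theorem aug_kap (l : ℕ) :
    algebraMap (DiaRing O k m) O (kap (Finset.univ.image q) (twEps O k m q) l : DiaRing O k m) =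
      1 := by
  rw [kap, Units.coe_prod, map_prod]
  refine Finset.prod_eq_one fun p _ => ?_
  unfold epsAt
  split_ifs
  · exact aug_twEps O k m q p _
  · simp

/-- The twist dies under `y ↦ 0`. -/
theorem aug_twChar (x : (ZMod (twLev k L₀ q))ˣ) :
    algebraMap (DiaRing O k m) O (twChar O k m L₀ q x : DiaRing O k m) = 1 := by
  rw [twChar, sigProd_apply, Units.coe_prod, map_prod]
  refine Finset.prod_eq_one fun p _ => ?_
  rw [Units.val_pow_eq_pow_val, map_pow]
  unfold sigChar
  split_ifs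
  · rw [MonoidHom.comp_apply, aug_twEps, one_pow]
  · simp

theorem aug_triv (γ : Gamma0 (twLev k L₀ q)) (v : O) :
    ((gamChar (twChar O k m L₀ q) γ : (DiaRing O k m)ˣ) : DiaRing O k m) • v = v := by
  rw [Algebra.smul_def, gamChar_apply, aug_twChar, one_mul]

/-! ### The localised module -/

variable (E : WeierstrassCurve ℤ)

/-- The indices of the localisation: primes not dividing `2 L₀`. -/
abbrev GoodIdx : Type := {l : ℕ // l.Prime ∧ ¬ l ∣ 2 * L₀}

open Classical in
/-- The residual values: `a_l(E)` and `ω` at the auxiliary primes. -/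
def levVal (s : Finset (Fin k)) (ω : O) (l : GoodIdx L₀) : O :=
  if ∃ i ∈ s, q i = (l : ℕ) then ω else (E.apOfModel l : O)

/-- The residual values in the coefficient ring. -/
def topVal (ω : O) (l : GoodIdx L₀) : DiaRing O k m :=
  diaMk O k m (MvPowerSeries.C (levVal O k L₀ q E Finset.univ ω l))

theorem algebraMap_topVal (ω : O) (l : GoodIdx L₀) :
    algebraMap (DiaRing O k m) O (topVal O k m L₀ q E ω l) = levVal O k L₀ q E Finset.univ ω l := by
  rw [topVal, algebraMap_diaMk, MvPowerSeries.constantCoeff_C]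

variable (L₁ : ℕ) [NeZero (twLev k L₁ q)]

/-- The operators of the level. -/
def twOps (l : GoodIdx L₀) : NatEnd (pgamChar (twChar O k m L₁ q) (twChar_neg_one O k m L₁ q)) :=
  pNatHecke _ _ (l : ℕ)

theorem commAtRing_twOps : CommAtRing (twOps O k m L₀ q L₁) := fun s t =>
  LinearMap.ext fun x => pNatHecke_comm _ _ s.2.1 t.2.1 _ x

variable [IsLocalRing O]

theorem isUnit_three_diaRing (h2 : (2 : O) ∈ maximalIdeal O) : IsUnit (3 : DiaRing O k m) := by
  rw [← IsLocalRing.notMem_maximalIdeal, mem_maximalIdeal_diaRing, map_ofNat]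
  intro h
  refine (maximalIdeal.isMaximal O).ne_top ((Ideal.eq_top_iff_one _).mpr ?_)
  rw [show (1 : O) = 3 - 2 by norm_num]
  exact sub_mem h h2

/-- Twisted cocycles of the level lift. -/
theorem hasLifts_twChar (h2 : (2 : O) ∈ maximalIdeal O) {l : ℕ} (hl : l.Prime) (hlL : l ∣ L₁)
    (hl4 : l % 4 = 3) :
    HasLifts (pgamChar (twChar O k m L₁ q) (twChar_neg_one O k m L₁ q)) :=
  hasLifts_pgamChar _ _ (S_smul_ne hl (hlL.mul_right _) hl4) (isUnit_three_diaRing O k m h2)
    (gamChar_twChar_cube O k m L₁ q)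

variable [IsNoetherianRing O] [IsDomain O] [IsDiscreteValuationRing O]
  [IsAdicComplete (maximalIdeal O) O]

/-- The level module. -/
abbrev twMod (ω : O) :
    Submodule (DiaRing O k m)
      (tH1 (pgamChar (twChar O k m L₁ q) (twChar_neg_one O k m L₁ q)) (DiaRing O k m)) :=
  eImage (localEnd (twOps O k m L₀ q L₁) (topVal O k m L₀ q E ω)) (DiaRing O k m)

omit [NeZero (twLev k L₁ q)] [IsNoetherianRing O] [IsDomain O] [IsDiscreteValuationRing O]
  [IsAdicComplete (maximalIdeal O) O] in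
/-- A prime with odd trace is not Eisenstein. -/
theorem isUnit_topVal_sub (h2 : (2 : O) ∈ maximalIdeal O) (ω : O) (l : GoodIdx L₀)
    (hl : ∀ i, q i ≠ (l : ℕ)) (hodd : ¬ (2 : ℤ) ∣ E.apOfModel l) :
    IsUnit (topVal O k m L₀ q E ω l - (((l : ℕ) : DiaRing O k m) + 1)) := by
  rw [← IsLocalRing.notMem_maximalIdeal, mem_maximalIdeal_diaRing, map_sub, algebraMap_topVal,
    map_add, map_natCast, map_one, levVal, if_neg (fun ⟨i, _, hi⟩ => hl i hi)]
  have hl2 : ¬ (2 : ℤ) ∣ ((l : ℕ) : ℤ) := fun h => by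
    have h' : 2 ∣ (l : ℕ) := by exact_mod_cast h
    exact l.2.2 (((Nat.prime_dvd_prime_iff_eq Nat.prime_two l.2.1).mp h') ▸ dvd_mul_right 2 L₀)
  obtain ⟨c, hc⟩ : ∃ c : ℤ, E.apOfModel l - ((l : ℕ) + 1) = 2 * c + 1 :=
    ⟨(E.apOfModel l - ((l : ℕ) + 1) - 1) / 2, by omega⟩
  intro h
  refine (maximalIdeal.isMaximal O).ne_top ((Ideal.eq_top_iff_one _).mpr ?_)
  have h' := congrArg (Int.cast : ℤ → O) hc
  push_cast at h'
  rw [show (1 : O) = ((E.apOfModel l : O) - (((l : ℕ) : O) + 1)) - 2 * (c : O) by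
    rw [h']; ring]
  exact sub_mem h (Ideal.mul_mem_right _ _ h2)

/-- **Freeness** of the level module. -/
theorem free_twMod (h2 : (2 : O) ∈ maximalIdeal O) {p : ℕ} (hp : p.Prime) (hpL : p ∣ L₁)
    (hp4 : p % 4 = 3) (ω : O) (l : GoodIdx L₀) (hlL : ¬ (l : ℕ) ∣ twLev k L₁ q)
    (hodd : ¬ (2 : ℤ) ∣ E.apOfModel l) :
    Module.Free (DiaRing O k m) (twMod O k m L₀ q E L₁ ω) ∧
      Module.Finite (DiaRing O k m) (twMod O k m L₀ q E L₁ ω) :=
  free_pLocalEnd (commAtRing_twOps O k m L₀ q L₁) _ (hasLifts_twChar O k m q L₁ h2 hp hpL hp4)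
    l.2.1 hlL l rfl
    (isUnit_topVal_sub O k m L₀ q E h2 ω l (fun i h => hlL (h ▸ dvd_twLev k L₁ q i)) hodd)

variable [CharZero O]

omit [IsLocalRing O] [IsNoetherianRing O] [IsDiscreteValuationRing O]
  [IsAdicComplete (maximalIdeal O) O] in
theorem eq_zero_of_add_self (v : O) (h : v + v = 0) : v = 0 := by
  rw [← two_mul] at h
  exact (mul_eq_zero.mp h).resolve_left two_ne_zero

/-- **Control**: bases of the level module reduce to bases of the factor of
`Hom(Γ₀(L), O)`. -/
theorem exists_basis_twMod_reduced (h2 : (2 : O) ∈ maximalIdeal O) {p : ℕ} (hp : p.Prime)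
    (hpL : p ∣ L₁) (hp4 : p % 4 = 3) (ω : O) {ι : Type*}
    (b : Module.Basis ι (DiaRing O k m) (twMod O k m L₀ q E L₁ ω)) :
    ∃ c : Module.Basis ι O (LinearMap.range (localIdem
        (gamHecke O (twLev k L₁ q) (fun l : GoodIdx L₀ => (l : ℕ)))
        (levVal O k L₀ q E Finset.univ ω))),
      ∀ i, (c i : Additive (Gamma0 (twLev k L₁ q)) →+ O) =
        pH1EquivHom _ _ (aug_triv O k m L₁ q) (eq_zero_of_add_self O)
          (tH1Map _ (Algebra.linearMap (DiaRing O k m) O)
            (b i : tH1 (pgamChar (twChar O k m L₁ q) (twChar_neg_one O k m L₁ q))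
              (DiaRing O k m))) := by
  have h : (fun l => algebraMap (DiaRing O k m) O (topVal O k m L₀ q E ω l)) =
      levVal O k L₀ q E Finset.univ ω := funext (algebraMap_topVal O k m L₀ q E ω)
  rw [← h]
  refine exists_basis_reduced (commAtRing_twOps O k m L₀ q L₁) _
    (hasLifts_twChar O k m q L₁ h2 hp hpL hp4) (diaAug_surjective O k m) (aug_triv O k m L₁ q)
    (eq_zero_of_add_self O) _ (fun l x => ?_) b
  rw [twOps, pH1EquivHom_pNatHecke _ _ _ _ l.2.1]
  exact (heckeHom_eq_int (DiaRing O k m) (l : ℕ) _).trans (heckeHom_eq_int O (l : ℕ) _).symm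

end FLTA.LT2
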