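import Fermat.Agent.RT.HeckeLocalIdem
import Mathlib.Algebra.MvPolynomial.CommRing
import Mathlib.RingTheory.Ideal.Quotient.Basic

/-!
# Polynomials in a commuting family and its residual factor

`exists_poly_of_localIdem_eq_zero`: if the residual factor of a commuting family vanishes, a
polynomial which is a unit at the residual values kills the module.
`exists_mul_opPoly_eq_localIdem`: such a polynomial, evaluated at a family congruent to another
one, is invertible on the residual factor of the latter.
-/

set_option autoImplicit false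

noncomputable section

open IsLocalRing

namespace FLTA.LT2

open FLTA.RT

section defs

variable {R : Type} [CommRing R] {A : Type} [Ring A] [Algebra R A] {σ : Type}

/-- A polynomial evaluated at a commuting family. -/
def opPoly (T : σ → A) (hT : ∀ s t, Commute (T s) (T t)) (P : MvPolynomial σ R) : A :=
  letI := opAlgCommRing (R := R) hT
  ((MvPolynomial.aeval (opGen R T) P : opAlg R T) : A)

variable (T : σ → A) (hT : ∀ s t, Commute (T s) (T t))

theorem opPoly_C (c : R) : opPoly T hT (MvPolynomial.C c) = algebraMap R A c := by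
  simp only [opPoly, MvPolynomial.aeval_C]
  rfl

theorem opPoly_add (P Q : MvPolynomial σ R) :
    opPoly T hT (P + Q) = opPoly T hT P + opPoly T hT Q := by
  simp only [opPoly, map_add]
  rfl

theorem opPoly_mul_X (P : MvPolynomial σ R) (s : σ) :
    opPoly T hT (P * MvPolynomial.X s) = opPoly T hT P * T s := by
  simp only [opPoly, map_mul, MvPolynomial.aeval_X]
  rfl

theorem opPoly_mem (P : MvPolynomial σ R) : opPoly T hT P ∈ opAlg R T := by
  let _ := opAlgCommRing (R := R) hT
  exact (MvPolynomial.aeval (opGen R T) P).2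

end defs

section intertwine

variable {R R' : Type} [CommRing R] [CommRing R'] {M M' : Type} [AddCommGroup M] [Module R M]
  [AddCommGroup M'] [Module R' M'] {σ : Type}

/-- Semilinear maps intertwine polynomials. -/
theorem opPoly_intertwine (c : R →+* R') (f : M →+ M') (hf : ∀ (r : R) m, f (r • m) = c r • f m)
    (T : σ → Module.End R M) (hT : ∀ s t, Commute (T s) (T t)) (T' : σ → Module.End R' M')
    (hT' : ∀ s t, Commute (T' s) (T' t)) (h : ∀ s m, f (T s m) = T' s (f m))
    (P : MvPolynomial σ R) :
    ∀ m, f (opPoly T hT P m) = opPoly T' hT' (MvPolynomial.map c P) (f m) := by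
  induction P using MvPolynomial.induction_on with
  | C a =>
    intro m
    rw [MvPolynomial.map_C, opPoly_C, opPoly_C, Module.algebraMap_end_apply,
      Module.algebraMap_end_apply, hf]
  | add p q hp hq =>
    intro m
    rw [map_add, opPoly_add, opPoly_add, LinearMap.add_apply, LinearMap.add_apply, map_add, hp, hq]
  | mul_X p s hp =>
    intro m
    rw [map_mul, MvPolynomial.map_X, opPoly_mul_X, opPoly_mul_X, Module.End.mul_apply,
      Module.End.mul_apply, hp, h]

end intertwine

section factor

variable {R : Type} [CommRing R] [IsLocalRing R] [IsNoetherianRing R]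
  [IsAdicComplete (maximalIdeal R) R] {A : Type} [Ring A] [Algebra R A] [Module.Finite R A]
  {σ : Type}

/-- An empty residual factor gives a polynomial which kills and is a unit at the residual
values. -/
theorem exists_poly_of_localIdem_eq_zero (T : σ → A) (hT : ∀ s t, Commute (T s) (T t))
    (a : σ → R) (h0 : localIdem T a = 0) :
    ∃ P : MvPolynomial σ R, IsUnit (MvPolynomial.eval a P) ∧ opPoly T hT P = 0 := by
  let _ := opAlgCommRing (R := R) hT
  have htop : eigIdeal T a = ⊤ := by
    by_contra hne
    obtain ⟨P, hP, hle⟩ := Ideal.exists_le_maximal _ hne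
    refine ((isLocalIdem_localIdem hT a).mem_iff P hP).mp ?_ hle
    rw [show (⟨_, localIdem_mem hT a⟩ : opAlg R T) = 0 from Subtype.ext h0]
    exact P.zero_mem
  have hsurj : Function.Surjective (MvPolynomial.aeval (R := R) (opGen R T)) := by
    rintro ⟨x, hx⟩
    induction hx using Algebra.adjoin_induction with
    | mem y hy =>
      obtain ⟨s, rfl⟩ := hy
      exact ⟨MvPolynomial.X s, MvPolynomial.aeval_X _ s⟩
    | algebraMap r => exact ⟨MvPolynomial.C r, MvPolynomial.aeval_C _ r⟩
    | add y z _ _ h h' =>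
      obtain ⟨p, hp⟩ := h
      obtain ⟨p', hp'⟩ := h'
      exact ⟨p + p', by rw [map_add, hp, hp']; rfl⟩
    | mul y z _ _ h h' =>
      obtain ⟨p, hp⟩ := h
      obtain ⟨p', hp'⟩ := h'
      exact ⟨p * p', by rw [map_mul, hp, hp']; rfl⟩
  let J : Ideal (MvPolynomial σ R) := (maximalIdeal R).comap (MvPolynomial.eval a)
  have hle : eigIdeal T a ≤ J.map (MvPolynomial.aeval (R := R) (opGen R T)) := by
    refine Ideal.span_le.mpr ?_
    rintro _ (⟨s, rfl⟩ | ⟨r, hr, rfl⟩)
    · refine (Ideal.mem_map_iff_of_surjective _ hsurj).mpr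
        ⟨MvPolynomial.X s - MvPolynomial.C (a s), ?_, ?_⟩
      · show MvPolynomial.eval a _ ∈ maximalIdeal R
        rw [map_sub, MvPolynomial.eval_X, MvPolynomial.eval_C, sub_self]
        exact Submodule.zero_mem _
      · rw [map_sub, MvPolynomial.aeval_X, MvPolynomial.aeval_C]
    · refine (Ideal.mem_map_iff_of_surjective _ hsurj).mpr ⟨MvPolynomial.C r, ?_, ?_⟩
      · show MvPolynomial.eval a _ ∈ maximalIdeal R
        rwa [MvPolynomial.eval_C]
      · rw [MvPolynomial.aeval_C]
  obtain ⟨Q, hQ, hQ1⟩ := (Ideal.mem_map_iff_of_surjective _ hsurj).mp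
    (hle (htop ▸ Submodule.mem_top (x := (1 : opAlg R T))))
  refine ⟨1 - Q, ?_, ?_⟩
  · rw [map_sub, map_one]
    exact (IsLocalRing.isUnit_or_isUnit_one_sub_self _).resolve_left hQ
  · show ((MvPolynomial.aeval (opGen R T) (1 - Q) : opAlg R T) : A) = 0
    rw [map_sub, map_one, hQ1, sub_self]
    rfl

/-- A polynomial with unit residual value, evaluated at a family congruent to part of `T`, is
invertible on the residual factor of `T`. -/
theorem exists_mul_opPoly_eq_localIdem (T : σ → A) (hT : ∀ s t, Commute (T s) (T t)) (a : σ → R)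
    {τ : Type} (i : τ → σ) (r : τ → R) (hr : ∀ t, r t - 1 ∈ maximalIdeal R)
    (hT' : ∀ s t, Commute (r s • T (i s)) (r t • T (i t))) (P : MvPolynomial τ R)
    (hP : IsUnit (MvPolynomial.eval (fun t => a (i t)) P)) :
    ∃ z ∈ opAlg R T, localIdem T a = opPoly (fun t => r t • T (i t)) hT' P * z := by
  let _ := opAlgCommRing (R := R) hT
  suffices h : ∀ Q : MvPolynomial τ R,
      ∃ hy : opPoly (fun t => r t • T (i t)) hT' Q ∈ opAlg R T,
        (⟨_, hy⟩ : opAlg R T) - algebraMap R (opAlg R T) (MvPolynomial.eval (fun t => a (i t)) Q)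
          ∈ eigIdeal T a by
    obtain ⟨hy, hmem⟩ := h P
    obtain ⟨z, hz, hze⟩ := exists_mul_eq_localIdem hT a hy hP hmem
    exact ⟨z, hz, hze.trans (congrArg Subtype.val
      (mul_comm (⟨z, hz⟩ : opAlg R T) ⟨_, hy⟩))⟩
  intro Q
  induction Q using MvPolynomial.induction_on with
  | C c =>
    rw [opPoly_C, MvPolynomial.eval_C]
    exact ⟨Subalgebra.algebraMap_mem _ c, by
      rw [show (⟨algebraMap R A c, Subalgebra.algebraMap_mem _ c⟩ : opAlg R T) =
        algebraMap R (opAlg R T) c from rfl, sub_self]
      exact Submodule.zero_mem _⟩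
  | add p q hp hq =>
    obtain ⟨hy, hp⟩ := hp
    obtain ⟨hy', hq⟩ := hq
    rw [opPoly_add, map_add]
    refine ⟨add_mem hy hy', ?_⟩
    rw [map_add, show (⟨_, add_mem hy hy'⟩ : opAlg R T) = ⟨_, hy⟩ + ⟨_, hy'⟩ from rfl,
      add_sub_add_comm]
    exact add_mem hp hq
  | mul_X p s hp =>
    obtain ⟨hy, hp⟩ := hp
    rw [opPoly_mul_X, map_mul, MvPolynomial.eval_X]
    have hs : r s • T (i s) ∈ opAlg R T :=
      Subalgebra.smul_mem _ (Algebra.subset_adjoin (Set.mem_range_self _)) _
    refine ⟨mul_mem hy hs, ?_⟩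
    rw [map_mul, show (⟨_, mul_mem hy hs⟩ : opAlg R T) = ⟨_, hy⟩ * (r s • opGen R T (i s)) from rfl,
      Algebra.smul_def]
    set c := MvPolynomial.eval (fun t => a (i t)) p
    set g := opGen R T (i s)
    set y : opAlg R T := ⟨_, hy⟩
    have e : y * (algebraMap R (opAlg R T) (r s) * g) -
        algebraMap R (opAlg R T) c * algebraMap R (opAlg R T) (a (i s)) =
        (y - algebraMap R (opAlg R T) c) * (algebraMap R (opAlg R T) (r s) * g) +
          algebraMap R (opAlg R T) c * ((g - algebraMap R (opAlg R T) (a (i s))) +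
            algebraMap R (opAlg R T) (r s - 1) * g) := by
      rw [map_sub, map_one]
      ring
    rw [e]
    exact add_mem (Ideal.mul_mem_right _ _ hp) (Ideal.mul_mem_left _ _
      (add_mem (opGen_sub_mem T a (i s))
        (Ideal.mul_mem_right _ _ (algebraMap_mem_eigIdeal T a (hr s)))))

end factor

end FLTA.LT2
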