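import Fermat.Agent.RT.CoeffPointsAlg
import Fermat.Agent.RT.CoeffPoint
import Fermat.Agent.LT2.TraceLocal
import Fermat.Agent.LT2.PatchedLowPointsPoly

/-!
# An empty factor seen on parabolic homomorphisms into a field

If the residual factor of `homPar0 O (Γ₀(M)) O` vanishes, a polynomial in the `T_l` which is a
unit at the residual values kills the homomorphisms from `parQuot (Γ₀(M))` into an extension of
`O`.
-/

set_option autoImplicit false

noncomputable section

open IsLocalRing CongruenceSubgroup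
open scoped MatrixGroups

namespace FLTA.LT2

open FLTA.RT FLTA.Periods FLTA.LevelRaising FLTA.Gamma0

/-- `parMk` kills central and elliptic elements as well. -/
theorem parMk_isParHom0 (Γ : Subgroup SL(2, ℤ)) : IsParHom0 Γ (parMk Γ) := by
  intro γ hγ
  rcases (show _ ≤ (4 : ℤ) from hγ).lt_or_eq with h | h
  · refine nsmul_right_injective (by norm_num : (12 : ℕ) ≠ 0) ?_
    show 12 • parMk Γ (Additive.ofMul γ) = 12 • (0 : parQuot Γ)
    rw [← map_nsmul, ← ofMul_pow, show γ ^ 12 = 1 from Subtype.ext (pow_twelve_eq_one h),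
      ofMul_one, map_zero, nsmul_zero]
  · exact parMk_isParabolicHom (Γ := Γ) γ h

variable {O : Type} [CommRing O] [IsDomain O] [IsPrincipalIdealRing O] [IsLocalRing O]
  [IsAdicComplete (maximalIdeal O) O] [CharZero O] {K : Type} [Field K] [Algebra O K]

/-- The operators on homomorphisms into `K` of the primes not dividing the level. -/
def kFam (M : ℕ) [NeZero M] (K : Type) [Field K] {σ : Type} (pr : σ → ℕ)
    (hp : ∀ s, (pr s).Prime) (hpM : ∀ s, ¬ pr s ∣ M) :
    σ → Module.End K (parQuot (Gamma0 M) →+ K) :=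
  fun s => precompHecke M ∅ K (CuspForm.heckeAlgebra.T (hp s) (hpM s) (Set.notMem_empty _))

theorem commute_kFam {M : ℕ} [NeZero M] {σ : Type} {pr : σ → ℕ} (hp : ∀ s, (pr s).Prime)
    (hpM : ∀ s, ¬ pr s ∣ M) (s t : σ) :
    Commute (kFam M K pr hp hpM s) (kFam M K pr hp hpM t) :=
  (Commute.all _ _).map (precompHecke M ∅ K)

/-- An empty residual factor kills through a polynomial which is a unit at the residual values. -/
theorem exists_poly_of_locPart_eq_bot {M : ℕ} [NeZero M] {σ : Type} {pr : σ → ℕ}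
    (hp : ∀ s, (pr s).Prime) (hpM : ∀ s, ¬ pr s ∣ M) (a : σ → O)
    (hbot : locPart O M pr a = ⊥) :
    ∃ P : MvPolynomial σ O, IsUnit (MvPolynomial.eval a P) ∧
      opPoly (kFam M K pr hp hpM) (commute_kFam hp hpM)
        (MvPolynomial.map (algebraMap O K) P) = 0 := by
  have := FLTA.Gamma0.finite_homPar0 M O
  have hT : ∀ s t, Commute (parFam O M pr s) (parFam O M pr t) :=
    fun s t => commute_parOp (hp s) (hp t)
  obtain ⟨P, hP, hP0⟩ := exists_poly_of_localIdem_eq_zero (parFam O M pr) hT a
    (LinearMap.range_eq_bot.mp hbot)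
  refine ⟨P, hP, ?_⟩
  have hfac : ∀ φ : homPar0 O (Gamma0 M) O, ∃ u : parQuot (Gamma0 M) →+ O,
      u.comp (parMk (Gamma0 M)) = φ.1 := fun φ =>
    exists_parQuot_factor (homPar0_le_parabolicHoms O _ O φ.2)
  choose u hu using hfac
  let J : homPar0 O (Gamma0 M) O →+ (parQuot (Gamma0 M) →+ K) :=
    AddMonoidHom.mk' (fun φ => (algebraMap O K).toAddMonoidHom.comp (u φ)) fun φ ψ => by
      rw [← AddMonoidHom.comp_add]
      refine congrArg _ (parQuot_hom_ext _ ?_)
      rw [hu, AddMonoidHom.add_comp, hu, hu]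
      rfl
  have hJs : ∀ (c : O) φ, J (c • φ) = algebraMap O K c • J φ := fun c φ => by
    refine parQuot_hom_ext _ (AddMonoidHom.ext fun g => ?_)
    show algebraMap O K ((u (c • φ)).comp (parMk _) g) =
      algebraMap O K c • algebraMap O K ((u φ).comp (parMk _) g)
    rw [hu, hu, smul_eq_mul, ← map_mul]
    rfl
  have hJT : ∀ s φ, J (parFam O M pr s φ) = kFam M K pr hp hpM s (J φ) := fun s φ => by
    show (algebraMap O K).toAddMonoidHom.comp _ = ((algebraMap O K).toAddMonoidHom.comp _).comp _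
    rw [AddMonoidHom.comp_assoc]
    refine congrArg _ (parQuot_hom_ext _ ?_)
    rw [hu, AddMonoidHom.comp_assoc]
    show heckeHom O M (pr s) φ.1 = (u φ).comp
      ((heckeQuot M (CuspForm.heckeAlgebra.T (hp s) (hpM s) (Set.notMem_empty _))
        ).toAddMonoidHom.comp (parMk _))
    rw [heckeQuot_T_comp_parMk (hp s) (hpM s), ← heckeHom_comp, ← heckeHom_eq_int O, hu]
  refine LinearMap.ext fun v => ?_
  let b := Module.Free.chooseBasis ℤ (parQuot (Gamma0 M))
  let φ : _ → homPar0 O (Gamma0 M) O := fun i =>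
    ⟨((Int.castAddHom O).comp (b.coord i).toAddMonoidHom).comp (parMk (Gamma0 M)),
      (parMk_isParHom0 _).comp _⟩
  have hv : v = ∑ i, v (b i) • J (φ i) := by
    refine AddMonoidHom.ext fun x => ?_
    rw [AddMonoidHom.finsetSum_apply]
    conv_lhs => rw [← b.sum_repr x, map_sum]
    refine Finset.sum_congr rfl fun i _ => ?_
    have e : u (φ i) = (Int.castAddHom O).comp (b.coord i).toAddMonoidHom :=
      parQuot_hom_ext _ (hu (φ i))
    show v (b.repr x i • b i) = v (b i) • algebraMap O K (u (φ i) x)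
    rw [e, map_zsmul, smul_eq_mul, zsmul_eq_mul, mul_comm]
    exact congrArg _ (map_intCast (algebraMap O K) _).symm
  rw [hv, map_sum, LinearMap.zero_apply]
  refine Finset.sum_eq_zero fun i _ => ?_
  rw [map_smul, ← opPoly_intertwine (algebraMap O K) J hJs _ hT _ _ hJT P, hP0,
    LinearMap.zero_apply, map_zero, smul_zero]

end FLTA.LT2
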