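import Fermat.Agent.LT2.PatchedLevel
import Fermat.Agent.RT.Main.DiamondRing

/-!
# Part G of LT2: the Hecke operators on the level module

The restrictions `twOp r` of the Hecke operators at primes to the level module, their
normalisations `twN r = (∏ ε_q(r)) • twOp r`, the algebra generated by those at the odd primes
other than the auxiliary ones, and the image of the level module in the cohomology of `Γ₀(L)`.
-/

set_option autoImplicit false
set_option linter.overlappingInstances false
set_option linter.unusedSectionVars false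

noncomputable section

universe u

open IsLocalRing CongruenceSubgroup
open scoped MatrixGroups

namespace FLTA.LT2

open FLTA.RT FLTA.Periods FLTA.Gamma0

section inflation

variable {L : ℕ} {R : Type u} [CommRing R] (χ : (ZMod L)ˣ →* Rˣ) (hχ : χ (-1) = 1)
  {V : Type u} [AddCommGroup V] [Module R V]

/-- Without two-torsion, inflation from `Γ₀(L)/±1` is bijective. -/
theorem pInfl_bijective_of_two (h2 : ∀ v : V, v + v = 0 → v = 0) :
    Function.Bijective (pInfl χ hχ V) := by
  refine ⟨pInfl_injective χ hχ V, fun y => ?_⟩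
  obtain ⟨f, rfl⟩ := tClass_surjective _ y
  have hker : negOneSub L ≤ (gamChar χ).ker := negOneSub_le_ker χ hχ
  have hone : ∀ a ∈ negOneSub L, f.1 a = 0 := by
    have hneg : f.1 ⟨-1, neg_one_mem_Gamma0 L⟩ = 0 := by
      refine h2 _ ?_
      have h := f.2 ⟨-1, neg_one_mem_Gamma0 L⟩ ⟨-1, neg_one_mem_Gamma0 L⟩
      rw [show (⟨-1, neg_one_mem_Gamma0 L⟩ : Gamma0 L) * ⟨-1, neg_one_mem_Gamma0 L⟩ = 1 from
        Subtype.ext (by simp), tCocycles_one,
        hker (Subgroup.mem_zpowers _), Units.val_one, one_smul] at h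
      exact h.symm
    intro a ha
    rw [negOneSub, Subgroup.mem_zpowers_iff] at ha
    obtain ⟨n, rfl⟩ := ha
    induction n using Int.induction_on with
    | zero => rw [zpow_zero, tCocycles_one]
    | succ i hi =>
      rw [zpow_add_one, f.2, hi, hneg, smul_zero, add_zero]
    | pred i hi =>
      have h := f.2 ((⟨-1, neg_one_mem_Gamma0 L⟩ : Gamma0 L) ^ (-(i : ℤ) - 1))
        ⟨-1, neg_one_mem_Gamma0 L⟩
      rw [zpow_sub_one, inv_mul_cancel_right, hi, hneg, smul_zero, add_zero] at h
      rw [zpow_sub_one]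
      exact h.symm
  have hcong : ∀ γ δ : Gamma0 L, γ⁻¹ * δ ∈ negOneSub L → f.1 γ = f.1 δ := fun γ δ h => by
    have e := f.2 γ (γ⁻¹ * δ)
    rw [mul_inv_cancel_left, hone _ h, smul_zero, add_zero] at e
    exact e.symm
  refine ⟨tClass _ V ⟨fun γ => Quotient.liftOn' γ f.1 fun a b hab => hcong a b
    (QuotientGroup.leftRel_apply.mp hab), fun γ δ => ?_⟩, rfl⟩
  induction γ using QuotientGroup.induction_on with
  | H γ =>
    induction δ using QuotientGroup.induction_on with
    | H δ => exact f.2 γ δ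

end inflation

variable (O : Type) [CommRing O] (k m : ℕ)

section ring

variable [IsDomain O] [IsDiscreteValuationRing O] [IsAdicComplete (maximalIdeal O) O]
  [Finite (ResidueField O)] [CharZero O]

theorem finite_diaRing (h2 : (2 : O) ∈ maximalIdeal O) : Module.Finite O (DiaRing O k m) := by
  have := Fact.mk Nat.prime_two
  exact RT.Avoid.finite_dia (p := 2) (k := m) (by exact_mod_cast h2)

/-- The points at roots of unity separate the coefficient ring. -/
theorem eq_zero_of_diaPoint (h2 : (2 : O) ∈ maximalIdeal O) (x : DiaRing O k m)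
    (h : ∀ ψ : DiaRing O k m →ₐ[O] AlgebraicClosure (FractionRing O), ψ x = 0) : x = 0 := by
  have := Fact.mk Nat.prime_two
  exact RT.Avoid.eq_zero_of_forall_point (p := 2) (k := m) (by exact_mod_cast h2) x h

theorem diaRing_eq_zero_of_add_self (h2 : (2 : O) ∈ maximalIdeal O) (x : DiaRing O k m)
    (h : x + x = 0) : x = 0 := by
  refine eq_zero_of_diaPoint O k m h2 x fun ψ => ?_
  have := RepTheory.algebraMap_algClosure_injective O
  have : CharZero (AlgebraicClosure (FractionRing O)) :=
    charZero_of_injective_algebraMap this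
  have e := congrArg ψ h
  rw [map_add, map_zero, ← two_mul] at e
  exact (mul_eq_zero.mp e).resolve_left two_ne_zero

end ring

variable [IsDomain O] [IsDiscreteValuationRing O] [IsAdicComplete (maximalIdeal O) O]
  (L₀ : ℕ) (q : Fin k → ℕ) (E : WeierstrassCurve ℤ) (L₁ : ℕ) [NeZero (twLev k L₁ q)] (ω : O)

theorem twMod_eq_range :
    twMod O k m L₀ q E L₁ ω =
      LinearMap.range (localIdem (opsAt (twOps O k m L₀ q L₁) (DiaRing O k m))
        (topVal O k m L₀ q E ω)) := by
  have := group_fg_PGamma0 (twLev k L₁ q)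
  rw [← localEnd_app_ring (commAtRing_twOps O k m L₀ q L₁)]
  rfl

theorem pNatHecke_mem_twMod {r : ℕ} (hr : r.Prime)
    {x : tH1 (pgamChar (twChar O k m L₁ q) (twChar_neg_one O k m L₁ q)) (DiaRing O k m)}
    (hx : x ∈ twMod O k m L₀ q E L₁ ω) :
    (pNatHecke (twChar O k m L₁ q) (twChar_neg_one O k m L₁ q) r).app (DiaRing O k m) x ∈
      twMod O k m L₀ q E L₁ ω := by
  have := group_fg_PGamma0 (twLev k L₁ q)
  have := finite_tH1 (χ := pgamChar (twChar O k m L₁ q) (twChar_neg_one O k m L₁ q))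
    (DiaRing O k m)
  rw [twMod_eq_range] at hx ⊢
  obtain ⟨y, rfl⟩ := hx
  have hc : Commute ((pNatHecke (twChar O k m L₁ q) (twChar_neg_one O k m L₁ q) r).app
      (DiaRing O k m)) (localIdem (opsAt (twOps O k m L₀ q L₁) (DiaRing O k m))
        (topVal O k m L₀ q E ω)) :=
    commute_localIdem (commAtRing_twOps O k m L₀ q L₁) _ fun s =>
      LinearMap.ext fun z => pNatHecke_comm _ _ hr s.2.1 _ z
  exact ⟨_, (LinearMap.congr_fun hc.eq y).symm⟩

/-- The Hecke operator at a prime on the level module; zero otherwise. -/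
def twOp (r : ℕ) : Module.End (DiaRing O k m) (twMod O k m L₀ q E L₁ ω) :=
  if hr : r.Prime then
    ((pNatHecke (twChar O k m L₁ q) (twChar_neg_one O k m L₁ q) r).app (DiaRing O k m)).restrict
      fun _ h => pNatHecke_mem_twMod O k m L₀ q E L₁ ω hr h
  else 0

theorem coe_twOp {r : ℕ} (hr : r.Prime) (x : twMod O k m L₀ q E L₁ ω) :
    (twOp O k m L₀ q E L₁ ω r x :
        tH1 (pgamChar (twChar O k m L₁ q) (twChar_neg_one O k m L₁ q)) (DiaRing O k m)) =
      (pNatHecke (twChar O k m L₁ q) (twChar_neg_one O k m L₁ q) r).app (DiaRing O k m) x := by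
  rw [twOp, dif_pos hr]; rfl

theorem commute_twOp (r s : ℕ) :
    Commute (twOp O k m L₀ q E L₁ ω r) (twOp O k m L₀ q E L₁ ω s) := by
  by_cases hr : r.Prime
  swap
  · rw [twOp, dif_neg hr]; exact Commute.zero_left _
  by_cases hs : s.Prime
  swap
  · rw [show twOp O k m L₀ q E L₁ ω s = 0 from dif_neg hs]; exact Commute.zero_right _
  refine LinearMap.ext fun x => Subtype.ext ?_
  simp only [Module.End.mul_apply, coe_twOp O k m L₀ q E L₁ ω hr,
    coe_twOp O k m L₀ q E L₁ ω hs]
  exact pNatHecke_comm _ _ hr hs _ _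

/-- The normalising factor of the operator at `r`. -/
abbrev twKap (r : ℕ) : (DiaRing O k m)ˣ := kap (Finset.univ.image q) (twEps O k m q) r

/-- The normalised operator at `r`. -/
def twN (r : ℕ) : Module.End (DiaRing O k m) (twMod O k m L₀ q E L₁ ω) :=
  (twKap O k m q r : DiaRing O k m) • twOp O k m L₀ q E L₁ ω r

theorem commute_twN (r s : ℕ) : Commute (twN O k m L₀ q E L₁ ω r) (twN O k m L₀ q E L₁ ω s) :=
  ((commute_twOp O k m L₀ q E L₁ ω r s).smul_left _).smul_right _

/-- The odd primes other than the auxiliary ones. -/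
abbrev TopIdx : Type := {r : ℕ // r.Prime ∧ r ≠ 2 ∧ ∀ i, q i ≠ r}

/-- The Hecke algebra of the level. -/
abbrev twH : Subalgebra (DiaRing O k m)
    (Module.End (DiaRing O k m) (twMod O k m L₀ q E L₁ ω)) :=
  opAlg (DiaRing O k m) fun r : TopIdx k q => twN O k m L₀ q E L₁ ω r

/-- It is commutative. -/
abbrev twHCommRing : CommRing (twH O k m L₀ q E L₁ ω) :=
  opAlgCommRing fun _ _ => commute_twN O k m L₀ q E L₁ ω _ _

open Classical in
/-- The normalised operator as an element of the algebra; zero outside `TopIdx`. -/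
def twGen (r : ℕ) : twH O k m L₀ q E L₁ ω :=
  if h : r.Prime ∧ r ≠ 2 ∧ ∀ i, q i ≠ r then
    opGen (DiaRing O k m) (fun r : TopIdx k q => twN O k m L₀ q E L₁ ω r) ⟨r, h⟩
  else 0

theorem coe_twGen {r : ℕ} (h : r.Prime ∧ r ≠ 2 ∧ ∀ i, q i ≠ r) :
    (twGen O k m L₀ q E L₁ ω r : Module.End (DiaRing O k m) (twMod O k m L₀ q E L₁ ω)) =
      twN O k m L₀ q E L₁ ω r := by
  rw [twGen, dif_pos h]; rfl

/-! ### Inside the cohomology of `Γ₀(L)` -/

/-- The residual idempotent on the cohomology of `Γ₀(L)`. -/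
def gamIdem : Module.End (DiaRing O k m) (tH1 (gamChar (twChar O k m L₁ q)) (DiaRing O k m)) :=
  localIdem (opsAt (fun l : GoodIdx L₀ => natHecke (twChar O k m L₁ q) (l : ℕ)) (DiaRing O k m))
    (topVal O k m L₀ q E ω)

/-- The level module inside the cohomology of `Γ₀(L)`. -/
def twGam : Submodule (DiaRing O k m)
    (tH1 (gamChar (twChar O k m L₁ q)) (DiaRing O k m)) :=
  (twMod O k m L₀ q E L₁ ω).map
    (pInfl (twChar O k m L₁ q) (twChar_neg_one O k m L₁ q) (DiaRing O k m))

/-- The level module and its image. -/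
def twGamEquiv : twMod O k m L₀ q E L₁ ω ≃ₗ[DiaRing O k m] twGam O k m L₀ q E L₁ ω :=
  Submodule.equivMapOfInjective _ (pInfl_injective _ _ _) _

theorem coe_twGamEquiv (x : twMod O k m L₀ q E L₁ ω) :
    (twGamEquiv O k m L₀ q E L₁ ω x :
        tH1 (gamChar (twChar O k m L₁ q)) (DiaRing O k m)) =
      pInfl (twChar O k m L₁ q) (twChar_neg_one O k m L₁ q) (DiaRing O k m) x := rfl

theorem twGamEquiv_twOp {r : ℕ} (hr : r.Prime) (x : twMod O k m L₀ q E L₁ ω) :
    (twGamEquiv O k m L₀ q E L₁ ω (twOp O k m L₀ q E L₁ ω r x) :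
        tH1 (gamChar (twChar O k m L₁ q)) (DiaRing O k m)) =
      (natHecke (twChar O k m L₁ q) r).app (DiaRing O k m)
        (twGamEquiv O k m L₀ q E L₁ ω x) := by
  rw [coe_twGamEquiv, coe_twGamEquiv, coe_twOp O k m L₀ q E L₁ ω hr, pInfl_pNatHecke]

variable [Finite (ResidueField O)] [CharZero O]

/-- The image is the factor of the residual system on the cohomology of `Γ₀(L)`. -/
theorem twGam_eq_range (h2 : (2 : O) ∈ maximalIdeal O) :
    twGam O k m L₀ q E L₁ ω = LinearMap.range (gamIdem O k m L₀ q E L₁ ω) := by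
  have := group_fg_PGamma0 (twLev k L₁ q)
  have := group_fg_Gamma0 (twLev k L₁ q)
  have := finite_tH1 (χ := pgamChar (twChar O k m L₁ q) (twChar_neg_one O k m L₁ q))
    (DiaRing O k m)
  have := finite_tH1 (χ := gamChar (twChar O k m L₁ q)) (DiaRing O k m)
  have hb := pInfl_bijective_of_two (twChar O k m L₁ q) (twChar_neg_one O k m L₁ q)
    (diaRing_eq_zero_of_add_self O k m h2)
  have key : ∀ x, pInfl (twChar O k m L₁ q) (twChar_neg_one O k m L₁ q) (DiaRing O k m)
      (localIdem (opsAt (twOps O k m L₀ q L₁) (DiaRing O k m)) (topVal O k m L₀ q E ω) x) =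
        gamIdem O k m L₀ q E L₁ ω
          (pInfl (twChar O k m L₁ q) (twChar_neg_one O k m L₁ q) (DiaRing O k m) x) :=
    localIdem_comm_map (commAtRing_twOps O k m L₀ q L₁)
      (fun s t => LinearMap.ext fun z => natHecke_comm _ s.2.1 t.2.1 _ z) _ _
      (fun s x => pInfl_pNatHecke _ _ _ _ x)
  refine le_antisymm ?_ ?_
  · rintro _ ⟨x, hx, rfl⟩
    rw [SetLike.mem_coe, twMod_eq_range] at hx
    obtain ⟨y, rfl⟩ := hx
    exact ⟨_, (key y).symm⟩
  · rintro _ ⟨z, rfl⟩
    obtain ⟨y, rfl⟩ := hb.2 z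
    rw [← key]
    exact ⟨_, by rw [SetLike.mem_coe, twMod_eq_range]; exact LinearMap.mem_range_self _ y, rfl⟩

end FLTA.LT2
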