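import Fermat.Agent.LT2.PatchedPoints
import Fermat.Agent.LT2.PatchedOps
import Fermat.Agent.LT2.TraceRamified
import Fermat.Agent.LT2.PatchedLowPointsLevel

/-!
# The level factor below a bad prime dies at every point

At a point `φ` of the coefficient ring the level module at `L` maps to parabolic homomorphisms of a
level which `v` does not divide, where the residual factor of `E` is empty: some polynomial in
the Hecke operators, invertible on the level module, kills the image.
-/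

set_option autoImplicit false
set_option linter.overlappingInstances false
set_option linter.unusedSectionVars false
set_option maxSynthPendingDepth 3

noncomputable section

open IsLocalRing CongruenceSubgroup
open scoped MatrixGroups

namespace FLTA.LT2

open FLTA.RT FLTA.Periods FLTA.Gamma0

variable (O : Type) [CommRing O] [IsDomain O] [IsDiscreteValuationRing O]
  [IsAdicComplete (maximalIdeal O) O] [Finite (ResidueField O)] [CharZero O]
  (k m : ℕ) (q : Fin k → ℕ)

theorem aug_kap_sub (s : Finset ℕ) (l : ℕ) :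
    algebraMap (DiaRing O k m) O (kap s (twEps O k m q) l : DiaRing O k m) = 1 := by
  rw [kap, Units.coe_prod, map_prod]
  refine Finset.prod_eq_one fun p _ => ?_
  unfold epsAt
  split_ifs
  · exact aug_twEps O k m q p _
  · simp

theorem mul_self_not_dvd_twLev {L : ℕ} (hinj : Function.Injective q) (hqp : ∀ i, (q i).Prime)
    (hL : ∀ i, ¬ q i ∣ L) (i : Fin k) : ¬ q i * q i ∣ twLev k L q := fun h => by
  rw [twLev, ← Finset.mul_prod_erase Finset.univ q (Finset.mem_univ i), mul_left_comm] at h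
  have h' := (Nat.mul_dvd_mul_iff_left (hqp i).pos).mp h
  rcases (hqp i).dvd_mul.mp h' with h' | h'
  · exact hL i h'
  · obtain ⟨j, hj, hd⟩ := ((hqp i).prime.dvd_finsetProd_iff _).mp h'
    exact Finset.ne_of_mem_erase hj (hinj ((Nat.prime_dvd_prime_iff_eq (hqp i) (hqp j)).mp hd).symm)

variable (L₀ : ℕ) [NeZero L₀] (E : WeierstrassCurve ℤ) (ω : O)

theorem topVal_eq_algebraMap (l : GoodIdx L₀) (hl : ∀ i, q i ≠ (l : ℕ)) :
    topVal O k m L₀ q E ω l = algebraMap O (DiaRing O k m) (E.apOfModel l : O) := by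
  rw [topVal, levVal, if_neg (fun ⟨i, _, hi⟩ => hl i hi), map_intCast, map_intCast, map_intCast]

variable {L v : ℕ} [NeZero L] [NeZero (twLev k L q)]

/-- The family of the good operators of the level. -/
abbrev gamOps : GoodIdx L₀ → Module.End (DiaRing O k m)
    (tH1 (gamChar (twChar O k m L q)) (DiaRing O k m)) :=
  opsAt (fun l : GoodIdx L₀ => natHecke (twChar O k m L q) (l : ℕ)) (DiaRing O k m)

theorem commute_gamOps (s t : GoodIdx L₀) :
    Commute (gamOps O k m q L₀ (L := L) s) (gamOps O k m q L₀ (L := L) t) :=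
  LinearMap.ext fun z => natHecke_comm _ s.2.1 t.2.1 _ z

set_option maxHeartbeats 1000000 in
/-- **Every point kills the level module below a bad prime.** -/
theorem ptMap_eq_zero_of_dvd_conductor (h2 : maximalIdeal O = Ideal.span {(2 : O)})
    (hE : Companion E) (hinj : Function.Injective q) (hprime : ∀ i, (q i).Prime)
    (hnd : ∀ i, ¬ q i ∣ 2 * L₀) (hN : E.conductorLevel ∣ L₀) (hv : v.Prime)
    (hvN : v ∣ E.conductorLevel) (hL₀ : L₀ = L * v) (hvL : ¬ v ∣ L)
    (l₀ : GoodIdx L₀) (hl₀ : ((l₀ : ℕ) : ZMod (twLev k L₀ q * ∏ i, q i)) = 1)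
    (hodd : ¬ (2 : ℤ) ∣ E.apOfModel l₀) {K : Type} [Field K] [CharZero K] [Algebra O K]
    (ψ : DiaRing O k m →ₐ[O] K) {x : tH1 (gamChar (twChar O k m L q)) (DiaRing O k m)}
    (hx : x ∈ twGam O k m L₀ q E L ω) :
    ptMap ψ.toRingHom (twChar O k m L q) x = 0 := by
  classical
  have h2m : (2 : O) ∈ maximalIdeal O := h2 ▸ Ideal.mem_span_singleton_self _
  have := group_fg_Gamma0 (twLev k L q)
  have := finite_tH1 (χ := gamChar (twChar O k m L q)) (DiaRing O k m)
  let φ : DiaRing O k m →+* K := ψ.toRingHom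
  let ε := twEps O k m q
  let Q₂ := Finset.univ.image q \ quadSet (Finset.univ.image q) ε φ
  let M := twLev k L q * ∏ p ∈ Q₂, p
  have hqL : ∀ i, ¬ q i ∣ L := fun i h => hnd i ((hL₀ ▸ h.mul_right v :).mul_left 2)
  have hQ₂ : ∀ p ∈ Q₂, p.Prime ∧ p ∣ twLev k L q ∧ ¬ p * p ∣ twLev k L q := fun p hp => by
    obtain ⟨i, -, rfl⟩ := Finset.mem_image.mp (Finset.sdiff_subset hp)
    exact ⟨hprime i, dvd_twLev k L q i, mul_self_not_dvd_twLev k q hinj hprime hqL i⟩
  have : NeZero M := ⟨mul_ne_zero (NeZero.ne _)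
    (Finset.prod_ne_zero_iff.mpr fun p hp => (hQ₂ p hp).1.ne_zero)⟩
  have hMdvd : M ∣ twLev k L₀ q * ∏ i, q i := by
    refine mul_dvd_mul (mul_dvd_mul_right (hL₀ ▸ dvd_mul_right L v) _) ?_
    refine (Finset.prod_dvd_prod_of_subset Q₂ (Finset.univ.image q) _ Finset.sdiff_subset).trans ?_
    rw [Finset.prod_image fun a _ b _ h => hinj h]
  have hl₀M : ((l₀ : ℕ) : ZMod M) = 1 := by
    rw [← map_natCast (ZMod.castHom hMdvd (ZMod M)), hl₀, map_one]
  have hvq : ∀ i, q i ≠ v := fun i e => hnd i ((e ▸ hL₀ ▸ dvd_mul_left v L :).mul_left 2)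
  have hvM : ¬ v ∣ M := fun h => by
    rcases hv.dvd_mul.mp h with h | h
    · rcases hv.dvd_mul.mp h with h | h
      · exact hvL h
      · obtain ⟨i, -, hi⟩ := (hv.prime.dvd_finsetProd_iff _).mp h
        exact hvq i ((Nat.prime_dvd_prime_iff_eq hv (hprime i)).mp hi).symm
    · obtain ⟨p, hp, hi⟩ := (hv.prime.dvd_finsetProd_iff fun p : ℕ => p).mp h
      obtain ⟨i, -, rfl⟩ := Finset.mem_image.mp (Finset.sdiff_subset hp)
      exact hvq i ((Nat.prime_dvd_prime_iff_eq hv (hprime i)).mp hi).symm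
  -- the small family and the polynomial
  let σ := {l : ℕ // l.Prime ∧ ¬ l ∣ 2 * (twLev k L₀ q * ∏ i, q i)}
  have hσ : ∀ s : σ, ∀ d, d ∣ twLev k L₀ q * ∏ i, q i → ¬ (s : ℕ) ∣ 2 * d := fun s d hd h =>
    s.2.2 (h.trans (mul_dvd_mul_left 2 hd))
  let i : σ → GoodIdx L₀ := fun s =>
    ⟨s, s.2.1, hσ s L₀ ((dvd_mul_right L₀ _).mul_right _)⟩
  have hsM : ∀ s : σ, ¬ (s : ℕ) ∣ M := fun s h => hσ s M hMdvd (h.mul_left 2)
  have hR : ResidualSystem E (fun s : σ => (s : ℕ)) (fun s : σ => (E.apOfModel s : O)) :=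
    { prime := fun s => s.2.1
      not_dvd := fun s => hσ s _ ((hN.mul_right _).mul_right _)
      residual := fun s => by rw [sub_self]; exact zero_mem _
      cofinite := ⟨(2 * (twLev k L₀ q * ∏ i, q i)).primeFactors, fun l hl hn => ⟨⟨l, hl,
        fun hd => hn (Nat.mem_primeFactors.mpr ⟨hl, hd, mul_ne_zero two_ne_zero (mul_ne_zero
          (mul_ne_zero (NeZero.ne L₀) (Finset.prod_ne_zero_iff.mpr fun i _ => (hprime i).ne_zero))
          (Finset.prod_ne_zero_iff.mpr fun i _ => (hprime i).ne_zero))⟩)⟩, rfl⟩⟩ }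
  obtain ⟨P, hP, hP0⟩ := exists_poly_of_locPart_eq_bot (K := K) (M := M)
    (pr := fun s : σ => (s : ℕ)) (fun s => s.2.1) hsM (fun s => (E.apOfModel s : O))
    (locPart_eq_bot_of_not_dvd hE h2 hR hv hvN hvM)
  -- on the level module
  let α := algebraMap O (DiaRing O k m)
  let T := gamOps O k m q L₀ (L := L)
  let a := topVal O k m L₀ q E ω
  have hT := commute_gamOps O k m q L₀ (L := L)
  let r : σ → DiaRing O k m := fun s => (kap Q₂ ε s : DiaRing O k m)
  have hr : ∀ s, r s - 1 ∈ maximalIdeal (DiaRing O k m) := fun s => by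
    rw [mem_maximalIdeal_diaRing, map_sub, map_one, aug_kap_sub O k m q Q₂ s, sub_self]
    exact zero_mem _
  let T' : σ → Module.End (DiaRing O k m) (tH1 (gamChar (twChar O k m L q)) (DiaRing O k m)) :=
    fun s => r s • T (i s)
  have hT' : ∀ s t, Commute (T' s) (T' t) := fun s t =>
    ((hT (i s) (i t)).smul_left _).smul_right _
  have hPR : IsUnit (MvPolynomial.eval (fun s => a (i s)) (MvPolynomial.map α P)) := by
    have e : (fun s => a (i s)) = fun s : σ => α (E.apOfModel s : O) := funext fun s =>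
      topVal_eq_algebraMap O k m q L₀ E ω (i s) fun j hj =>
        hσ s (q j) ((dvd_twLev k L₀ q j).mul_right _) ((dvd_of_eq hj.symm).mul_left 2)
    rw [e, MvPolynomial.eval_map, show (fun s : σ => α (E.apOfModel s : O)) =
      α ∘ fun s : σ => (E.apOfModel s : O) from rfl, ← MvPolynomial.eval₂_comp]
    exact hP.map α
  obtain ⟨z, hz, hze⟩ :=
    exists_mul_opPoly_eq_localIdem T hT a i r hr hT' (MvPolynomial.map α P) hPR
  -- `T_{l₀} - (l₀ + 1)` is invertible
  have hlq : ∀ j, q j ≠ (l₀ : ℕ) := fun j hj => not_dvd_of_natCast_eq_one l₀.2.1 hl₀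
    (hj ▸ (dvd_twLev k L₀ q j).mul_right _)
  obtain ⟨z₀, hz₀, hz₀e⟩ := exists_mul_sub_eq_localIdem hT a l₀
    (isUnit_topVal_sub O k m L₀ q E h2m ω l₀ hlq hodd)
  have hcommz : ∀ {u}, u ∈ opAlg (DiaRing O k m) T → ∀ s, Commute u (T s) := fun hu s =>
    (Algebra.commute_of_mem_adjoin_of_forall_mem_commute hu (by
      rintro _ ⟨t, rfl⟩
      exact hT s t)).symm
  set W := twGam O k m L₀ q E L ω
  have hWeq : W = LinearMap.range (localIdem T a) := twGam_eq_range O k m L₀ q E L ω h2m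
  have hfix : ∀ y ∈ W, localIdem T a y = y := fun y hy => by
    obtain ⟨w, rfl⟩ := hWeq.le hy
    exact LinearMap.congr_fun (isIdempotentElem_localIdem hT a).eq w
  have hstab : ∀ {u : Module.End (DiaRing O k m)
      (tH1 (gamChar (twChar O k m L q)) (DiaRing O k m))},
      (∀ s, Commute u (T s)) → ∀ y ∈ W, u y ∈ W := fun {u} hu y hy => by
    refine hWeq.ge ⟨u y, ?_⟩
    exact (LinearMap.congr_fun (commute_localIdem hT a hu).eq y).symm.trans
      (congrArg u (hfix y hy))
  have hfac : ∀ y ∈ W, ∃ w, (natHecke (twChar O k m L q) l₀).app (DiaRing O k m) w -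
      (((l₀ : ℕ) : DiaRing O k m) + 1) • w = y := fun y hy => by
    refine ⟨z₀ y, ?_⟩
    refine Eq.trans ?_ (hfix y hy)
    rw [hz₀e, Module.End.mul_apply, LinearMap.sub_apply, Module.algebraMap_end_apply, map_sub,
      map_smul]
    exact congrArg (· - _) (LinearMap.congr_fun (hcommz hz₀ l₀).eq y).symm
  obtain ⟨Ψ, hΨs, hΨ0, hΨT⟩ := exists_parPoint_sub W Q₂ ε hQ₂ φ
    (by rw [twChar, charMap_sigProd_quadSet])
    (fun p hp h => (Finset.mem_sdiff.mp hp).2 (Finset.mem_filter.mpr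
      ⟨(Finset.mem_sdiff.mp hp).1, fun u => congrArg Units.val (DFunLike.congr_fun h u)⟩))
    (M := M) rfl l₀.2.1 (not_dvd_of_natCast_eq_one l₀.2.1 hl₀M) hl₀M hfac
  -- the restricted family
  have hT'W : ∀ s, ∀ y ∈ W, T' s y ∈ W := fun s => hstab fun t => (hT (i s) t).smul_left _
  let TW : σ → Module.End (DiaRing O k m) W := fun s => (T' s).restrict (hT'W s)
  have hTW : ∀ s t, Commute (TW s) (TW t) := fun s t => LinearMap.ext fun y => Subtype.ext
    (LinearMap.congr_fun (hT' s t).eq y.1)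
  have hΨfam : ∀ s y, Ψ (TW s y) = kFam M K (fun s : σ => (s : ℕ)) (fun s => s.2.1) hsM s (Ψ y) :=
    fun s y => hΨT s s.2.1 (hsM s) y (TW s y) rfl
  have hzW : z x ∈ W := hstab (hcommz hz) x hx
  have hxW : (⟨x, hx⟩ : W) = opPoly TW hTW (MvPolynomial.map α P) ⟨z x, hzW⟩ := by
    refine Subtype.ext ?_
    have h := opPoly_intertwine (RingHom.id (DiaRing O k m)) W.subtype.toAddMonoidHom
      (fun _ _ => rfl) TW hTW T' hT' (fun _ _ => rfl) (MvPolynomial.map α P) ⟨z x, hzW⟩
    rw [MvPolynomial.map_id] at h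
    refine Eq.trans ?_ h.symm
    refine (hfix x hx).symm.trans ?_
    rw [hze]
    rfl
  refine hΨ0 ⟨x, hx⟩ ?_
  rw [hxW, opPoly_intertwine φ Ψ hΨs TW hTW _ (commute_kFam _ hsM) hΨfam, MvPolynomial.map_map,
    show φ.comp α = algebraMap O K from ψ.comp_algebraMap, hP0, LinearMap.zero_apply]

end FLTA.LT2
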