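import Fermat.Agent.LT2.PatchedPoints
import Fermat.Agent.LT2.PatchedOps
import Fermat.Agent.LT2.TraceRamified
import Fermat.Agent.LT2.PatchedLowPointsBot

/-!
# Part G of LT2: two consequences of the points of the level

The algebra of the normalised good operators on the level module is reduced, and the factor at a
level which a bad prime of `E` does not divide is zero.
-/

set_option autoImplicit false
set_option linter.overlappingInstances false
set_option linter.unusedSectionVars false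
set_option maxSynthPendingDepth 3

noncomputable section

open IsLocalRing CongruenceSubgroup

namespace FLTA.LT2

open FLTA.RT FLTA.Periods

variable (O : Type) [CommRing O] [IsDomain O] [IsDiscreteValuationRing O]
  [IsAdicComplete (maximalIdeal O) O] [Finite (ResidueField O)] [CharZero O]
  (k m : ℕ) (L₀ : ℕ) [NeZero L₀] (q : Fin k → ℕ) (E : WeierstrassCurve ℤ) (ω : O)

set_option maxHeartbeats 1600000 in
set_option synthInstance.maxHeartbeats 400000 in
/-- **The good algebra of the level is reduced.** -/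
theorem twGood_eq_zero_of_isNilpotent [NeZero (twLev k L₀ q)] (h2 : (2 : O) ∈ maximalIdeal O)
    (hinj : Function.Injective q) (hprime : ∀ i, (q i).Prime) (hnd : ∀ i, ¬ q i ∣ 2 * L₀)
    (l₀ : GoodIdx L₀) (hl₀ : ((l₀ : ℕ) : ZMod (twLev k L₀ q * ∏ i, q i)) = 1)
    (hodd : ¬ (2 : ℤ) ∣ E.apOfModel l₀)
    {x : Module.End (DiaRing O k m) (twMod O k m L₀ q E L₀ ω)}
    (hx : x ∈ Algebra.adjoin (DiaRing O k m)
      (twN O k m L₀ q E L₀ ω '' {l : ℕ | l.Prime ∧ ¬ l ∣ 2 * twLev k L₀ q}))
    (hn : IsNilpotent x) : x = 0 := by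
  classical
  set S : Set ℕ := {r | r ∣ 2 * twLev k L₀ q}
  let W := twGam O k m L₀ q E L₀ ω
  let e := twGamEquiv O k m L₀ q E L₀ ω
  have hW : GoodStable S W := fun r hr _ y hy => by
    obtain ⟨y', hy'⟩ := e.surjective ⟨y, hy⟩
    have h := twGamEquiv_twOp O k m L₀ q E L₀ ω hr y'
    rw [hy'] at h
    exact h ▸ (e (twOp O k m L₀ q E L₀ ω r y')).2
  have hQ : ∀ p ∈ Finset.univ.image q,
      p.Prime ∧ p ∣ twLev k L₀ q ∧ ¬ p * p ∣ twLev k L₀ q := fun p hp => by
    obtain ⟨i, -, rfl⟩ := Finset.mem_image.mp hp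
    exact ⟨hprime i, dvd_twLev k L₀ q i,
      mul_self_not_dvd_twLev k q hinj hprime (fun j h => hnd j (h.mul_left 2)) i⟩
  have hl₀' : ((l₀ : ℕ) : ZMod (twLev k L₀ q)) = 1 := by
    rw [← map_natCast (ZMod.castHom (dvd_mul_right (twLev k L₀ q) (∏ i, q i)) (ZMod _)), hl₀,
      map_one]
  have hlL : ¬ (l₀ : ℕ) ∣ twLev k L₀ q := not_dvd_of_natCast_eq_one l₀.2.1 hl₀'
  have hlS : (l₀ : ℕ) ∉ S := fun h => (l₀.2.1.dvd_mul.mp h).elim
    (fun h => l₀.2.2 (h.mul_right L₀)) hlL
  have := group_fg_Gamma0 (twLev k L₀ q)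
  have := finite_tH1 (χ := gamChar (twChar O k m L₀ q)) (DiaRing O k m)
  have hT := commute_gamOps O k m q L₀ (L := L₀)
  obtain ⟨z, hz, hze⟩ := exists_mul_sub_eq_localIdem hT (topVal O k m L₀ q E ω) l₀
    (isUnit_topVal_sub O k m L₀ q E h2 ω l₀ (fun i hi => hlL (hi ▸ dvd_twLev k L₀ q i)) hodd)
  have hbij : ∀ y ∈ W, ∃! w, w ∈ W ∧
      (natHecke (twChar O k m L₀ q) l₀).app (DiaRing O k m) w -
        (((l₀ : ℕ) : DiaRing O k m) + 1) • w = y := by
    have hWeq : W = LinearMap.range (localIdem (gamOps O k m q L₀ (L := L₀))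
        (topVal O k m L₀ q E ω)) := twGam_eq_range O k m L₀ q E L₀ ω h2
    have hfix : ∀ y ∈ W, localIdem (gamOps O k m q L₀ (L := L₀)) (topVal O k m L₀ q E ω) y = y :=
      fun y hy => by
        obtain ⟨w, rfl⟩ := hWeq.le hy
        exact LinearMap.congr_fun (isIdempotentElem_localIdem hT _).eq w
    have hzc : ∀ s, Commute z (gamOps O k m q L₀ (L := L₀) s) := fun s =>
      (Algebra.commute_of_mem_adjoin_of_forall_mem_commute hz (by
        rintro _ ⟨t, rfl⟩
        exact hT s t)).symm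
    intro y hy
    refine ⟨z y, ⟨hWeq.ge ⟨z y, (LinearMap.congr_fun (commute_localIdem hT _ hzc).eq y).symm.trans
      (congrArg z (hfix y hy))⟩, ?_⟩, fun w ⟨hw, hwy⟩ => ?_⟩
    · refine Eq.trans ?_ (hfix y hy)
      rw [hze, Module.End.mul_apply, LinearMap.sub_apply, Module.algebraMap_end_apply, map_sub,
        map_smul]
      exact congrArg (· - _) (LinearMap.congr_fun (hzc l₀).eq y).symm
    · rw [← hfix w hw, hze, Module.End.mul_apply]
      exact congrArg z hwy
  have : CharZero (AlgebraicClosure (FractionRing O)) :=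
    charZero_of_injective_algebraMap (RepTheory.algebraMap_algClosure_injective O)
  have hred : IsReduced (normAlg hW (Finset.univ.image q) (twEps O k m q)) :=
    isReduced_normAlg hW hQ (rfl : twChar O k m L₀ q = _) (fun p _ h => h.mul_left 2) l₀.2.1 hlS
      (by rw [Finset.prod_image fun a _ b _ h => hinj h]; exact hl₀) hbij
      (K := AlgebraicClosure (FractionRing O))
      (fun ψ : DiaRing O k m →ₐ[O] AlgebraicClosure (FractionRing O) => ψ.toRingHom)
      (eq_zero_of_diaPoint O k m h2)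
  obtain ⟨x', hx'mem, hx'⟩ : ∃ x' ∈ normAlg hW (Finset.univ.image q) (twEps O k m q),
      ∀ y, e (x y) = x' (e y) := by
    clear hn
    induction hx using Algebra.adjoin_induction with
    | mem z hz =>
      obtain ⟨l, ⟨hl, hlS'⟩, rfl⟩ := hz
      exact ⟨normOp hW _ _ ⟨l, hl, hlS'⟩, Algebra.subset_adjoin ⟨_, rfl⟩, fun y =>
        Subtype.ext (by
          show (e _ : tH1 (gamChar (twChar O k m L₀ q)) (DiaRing O k m)) = _
          rw [twN, LinearMap.smul_apply, map_smul, Submodule.coe_smul,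
            twGamEquiv_twOp O k m L₀ q E L₀ ω hl]
          rfl)⟩
    | algebraMap r => exact ⟨_, Subalgebra.algebraMap_mem _ r, fun y => by simp⟩
    | add a b _ _ h h' =>
      obtain ⟨a', ha, ea⟩ := h
      obtain ⟨b', hb, eb⟩ := h'
      exact ⟨a' + b', add_mem ha hb, fun y => by simp [ea, eb]⟩
    | mul a b _ _ h h' =>
      obtain ⟨a', ha, ea⟩ := h
      obtain ⟨b', hb, eb⟩ := h'
      exact ⟨a' * b', mul_mem ha hb, fun y => by simp [Module.End.mul_apply, ea, eb]⟩
  obtain ⟨n, hn⟩ := hn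
  have hpow : ∀ j y, e ((x ^ j) y) = (x' ^ j) (e y) := fun j => by
    induction j with
    | zero => simp
    | succ j ih =>
      intro y
      rw [pow_succ', pow_succ', Module.End.mul_apply, Module.End.mul_apply, hx', ih]
  have h0 : (⟨x', hx'mem⟩ : normAlg hW (Finset.univ.image q) (twEps O k m q)) = 0 :=
    IsNilpotent.eq_zero ⟨n, Subtype.ext (LinearMap.ext fun w => by
      obtain ⟨y, rfl⟩ := e.surjective w
      show (x' ^ n) (e y) = 0
      rw [← hpow, hn, LinearMap.zero_apply, map_zero])⟩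
  refine LinearMap.ext fun y => e.injective ?_
  rw [hx', show x' = 0 from congrArg Subtype.val h0, LinearMap.zero_apply, LinearMap.zero_apply,
    map_zero]

/-- **Nothing lives below a bad prime of `E`.** -/
theorem twGam_eq_bot_of_dvd_conductor {L v : ℕ} [NeZero L] [NeZero (twLev k L q)]
    (h2 : maximalIdeal O = Ideal.span {(2 : O)}) (hE : Companion E)
    (hinj : Function.Injective q) (hprime : ∀ i, (q i).Prime) (hnd : ∀ i, ¬ q i ∣ 2 * L₀)
    (hN : E.conductorLevel ∣ L₀) (hv : v.Prime) (hvN : v ∣ E.conductorLevel)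
    (hL₀ : L₀ = L * v) (hvL : ¬ v ∣ L)
    (l₀ : GoodIdx L₀) (hl₀ : ((l₀ : ℕ) : ZMod (twLev k L₀ q * ∏ i, q i)) = 1)
    (hodd : ¬ (2 : ℤ) ∣ E.apOfModel l₀) :
    twGam O k m L₀ q E L ω = ⊥ := by
  have h2m : (2 : O) ∈ maximalIdeal O := h2 ▸ Ideal.mem_span_singleton_self _
  have := group_fg_Gamma0 (twLev k L q)
  have := finite_tH1 (χ := gamChar (twChar O k m L q)) (DiaRing O k m)
  have hdvd : twLev k L q ∣ twLev k L₀ q * ∏ i, q i :=
    (mul_dvd_mul_right (hL₀ ▸ dvd_mul_right L v) _).mul_right _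
  have hl₀L : ((l₀ : ℕ) : ZMod (twLev k L q)) = 1 := by
    rw [← map_natCast (ZMod.castHom hdvd (ZMod _)), hl₀, map_one]
  have hlL := not_dvd_of_natCast_eq_one l₀.2.1 hl₀L
  have : CharZero (AlgebraicClosure (FractionRing O)) :=
    charZero_of_injective_algebraMap (RepTheory.algebraMap_algClosure_injective O)
  have hT := commute_gamOps O k m q L₀ (L := L)
  refine (Submodule.eq_bot_iff _).mpr fun x hx => ?_
  have h0 := natHecke_sub_eq_zero_of_ptMap
    (fun ψ : DiaRing O k m →ₐ[O] AlgebraicClosure (FractionRing O) => ψ.toRingHom)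
    (eq_zero_of_diaPoint O k m h2m) l₀.2.1 hlL x
    fun ψ => ptMap_eq_zero_of_dvd_conductor O k m q L₀ E ω h2 hE hinj hprime hnd hN hv hvN hL₀
      hvL l₀ hl₀ hodd ψ hx
  obtain ⟨z, hz, hze⟩ := exists_mul_sub_eq_localIdem hT (topVal O k m L₀ q E ω) l₀
    (isUnit_topVal_sub O k m L₀ q E h2m ω l₀ (fun i hi => hlL (hi ▸ dvd_twLev k L q i)) hodd)
  obtain ⟨y, hy⟩ := (twGam_eq_range O k m L₀ q E L ω h2m).le hx
  have hfix : localIdem (gamOps O k m q L₀ (L := L)) (topVal O k m L₀ q E ω) x = x := by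
    rw [← hy]
    exact LinearMap.congr_fun (isIdempotentElem_localIdem hT _).eq y
  rw [← hfix, hze, Module.End.mul_apply, LinearMap.sub_apply, Module.algebraMap_end_apply]
  exact (congrArg z h0).trans (map_zero z)

end FLTA.LT2
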