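import Fermat.Agent.LT2.PatchedRingPt

/-!
# Part G: the tuples of Taylor–Wiles primes
-/

set_option autoImplicit false

noncomputable section

namespace FLTA.LT2.PatchG

variable (E : WeierstrassCurve ℤ) (Q : Finset ℕ)

/-- A tuple of Taylor–Wiles primes of depth `m` for the level `N ∏ Q`. -/
structure IsTWTuple (m : ℕ) {k : ℕ} (qt : Fin k → ℕ) : Prop where
  injective : Function.Injective qt
  twPrime : ∀ i, TWPrime E m (qt i)
  notMem : ∀ i, qt i ∉ (2 * (E.conductorLevel * ∏ q ∈ Q, q)).primeFactors
  separating : Separating E (Finset.univ.image qt)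

end FLTA.LT2.PatchG
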