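import Fermat.Agent.LT2.ImageCompanion

/-!
# A companion curve has a bad prime congruent to `3` modulo `4`

Good supersingular reduction at two makes the discriminant `1` modulo `4`, and it is negative.
-/

set_option autoImplicit false

namespace FLTA.LT2.Companion

variable {E : WeierstrassCurve ℤ}

/-- Some prime `≡ 3 mod 4` divides the conductor level. -/
theorem exists_prime_three_mod_four (hE : Companion E) :
    ∃ p : ℕ, p.Prime ∧ p ∣ E.conductorLevel ∧ p % 4 = 3 := by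
  obtain ⟨α, hα⟩ := two_dvd_a₁ hE
  obtain ⟨k, hk⟩ : (4 : ℤ) ∣ E.b₂ := ⟨α ^ 2 + E.a₂, by rw [WeierstrassCurve.b₂, hα]; ring⟩
  obtain ⟨β, hβ⟩ : (2 : ℤ) ∣ E.b₄ := ⟨E.a₄ + α * E.a₃, by rw [WeierstrassCurve.b₄, hα]; ring⟩
  have hΔ : E.Δ = -16 * k ^ 2 * E.b₈ - 64 * β ^ 3 - 27 * E.b₆ ^ 2 + 72 * k * β * E.b₆ := by
    rw [WeierstrassCurve.Δ, hk, hβ]; ring
  have h4 : (E.Δ : ZMod 4) = (E.b₆ : ZMod 4) ^ 2 := by
    rw [hΔ]
    push_cast
    rw [show (16 : ZMod 4) = 0 from rfl, show (64 : ZMod 4) = 0 from rfl,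
      show (72 : ZMod 4) = 0 from rfl, show (27 : ZMod 4) = -1 from rfl]
    ring
  have hodd : E.Δ % 2 = 1 := by have := hE.goodTwo; omega
  by_contra hno
  push Not at hno
  have hn : (E.Δ.natAbs : ZMod 4) = 1 := by
    rw [← Nat.prod_primeFactorsList (n := E.Δ.natAbs) (Int.natAbs_ne_zero.mpr hE.Δ_ne_zero),
      Nat.cast_list_prod]
    refine List.prod_eq_one fun x hx => ?_
    obtain ⟨p, hp, rfl⟩ := List.mem_map.mp hx
    obtain ⟨hp', hdvd⟩ :=
      (Nat.mem_primeFactorsList (Int.natAbs_ne_zero.mpr hE.Δ_ne_zero)).mp hp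
    have h3 := hno p hp' ((E.prime_dvd_conductorLevel_iff hE.Δ_ne_zero hp').mpr
      (Int.natCast_dvd.mpr hdvd))
    have h2 : p % 2 = 1 := by
      refine hp'.eq_two_or_odd.resolve_left fun h => ?_
      subst h
      exact hE.goodTwo (Int.natCast_dvd.mpr hdvd)
    rw [← ZMod.natCast_mod, show p % 4 = 1 by omega, Nat.cast_one]
  have hneg : (E.Δ : ZMod 4) = -1 := by
    have h : E.Δ = -(E.Δ.natAbs : ℤ) := by have := hE.neg; omega
    rw [h, Int.cast_neg, Int.cast_natCast, hn]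
  have hsq : ∀ b : ZMod 4, b ^ 2 ≠ -1 := by decide
  exact hsq _ (h4.symm.trans hneg)

end FLTA.LT2.Companion
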