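import Fermat.Agent.RT.DeformConditions
import Fermat.Prelude.Thm_IsLocalRing_isAdicComplete_of_module_finite

/-!
# Part G, ring side: elements congruent to coefficients, and descent of flatness

`nearSub O R` is the subalgebra of the elements of a local `O`-algebra `R` congruent to an element
of `O`.  For `R` finite over a complete `O` it is complete, local, Noetherian, with the residue
field of `O`; the powers of its maximal ideal are those of `R`.
-/

set_option autoImplicit false

noncomputable section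

namespace FLTA.LT2

open IsLocalRing GaloisRep FLTA.Deformation FLTA.RT
open FLTA.HeckeDatum (HasFlatModel levelHom finite_level)
open scoped TensorProduct

section NearSub

variable (O R : Type) [CommRing O] [CommRing R] [IsLocalRing R] [Algebra O R]

/-- The elements congruent to an element of `O`. -/
def nearSub : Subalgebra O R where
  carrier := {x | ∃ c : O, x - algebraMap O R c ∈ maximalIdeal R}
  mul_mem' {x y} hx hy := by
    obtain ⟨c, hc⟩ := hx
    obtain ⟨d, hd⟩ := hy
    refine ⟨c * d, ?_⟩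
    rw [map_mul, show x * y - algebraMap O R c * algebraMap O R d =
      (x - algebraMap O R c) * y + algebraMap O R c * (y - algebraMap O R d) by ring]
    exact add_mem (Ideal.mul_mem_right _ _ hc) (Ideal.mul_mem_left _ _ hd)
  one_mem' := ⟨1, by simp⟩
  add_mem' {x y} hx hy := by
    obtain ⟨c, hc⟩ := hx
    obtain ⟨d, hd⟩ := hy
    refine ⟨c + d, ?_⟩
    rw [map_add, add_sub_add_comm]
    exact add_mem hc hd
  zero_mem' := ⟨0, by simp⟩
  algebraMap_mem' c := ⟨c, by simp⟩

variable {O R}

theorem mem_nearSub_of_mem_maximalIdeal {x : R} (hx : x ∈ maximalIdeal R) : x ∈ nearSub O R :=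
  ⟨0, by simpa using hx⟩

variable [IsLocalHom (algebraMap O R)]

theorem isUnit_nearSub (a : nearSub O R) (ha : IsUnit (a : R)) : IsUnit a := by
  obtain ⟨x, hx⟩ := a
  obtain ⟨u, hu⟩ := ha
  obtain ⟨c, hc⟩ := hx
  have hcu : IsUnit c := by
    refine isUnit_of_map_unit (algebraMap O R) c ?_
    by_contra h
    have : algebraMap O R c ∈ maximalIdeal R := (IsLocalRing.mem_maximalIdeal _).mpr h
    have := add_mem hc this
    rw [sub_add_cancel, ← show (u : R) = x from hu] at this
    exact (IsLocalRing.mem_maximalIdeal _).mp this u.isUnit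
  obtain ⟨e, rfl⟩ := hcu
  have he : algebraMap O R (↑e⁻¹ : O) * algebraMap O R e = 1 := by
    rw [← map_mul, Units.inv_mul, map_one]
  have hv : (↑u⁻¹ : R) ∈ nearSub O R := by
    refine ⟨↑e⁻¹, ?_⟩
    have hx' : (↑u⁻¹ : R) * x = 1 := by
      rw [← show (u : R) = x from hu, Units.inv_mul]
    rw [show (↑u⁻¹ : R) - algebraMap O R (↑e⁻¹ : O) =
      -(↑u⁻¹ * algebraMap O R (↑e⁻¹ : O)) * (x - algebraMap O R e) by
        linear_combination (-(↑u⁻¹ : R)) * he + algebraMap O R (↑e⁻¹ : O) * hx']
    exact Ideal.mul_mem_left _ _ hc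
  refine IsUnit.of_mul_eq_one (⟨_, hv⟩ : nearSub O R) (Subtype.ext ?_)
  show x * ↑u⁻¹ = 1
  rw [← show (u : R) = x from hu, Units.mul_inv]

instance isLocalRing_nearSub : IsLocalRing (nearSub O R) := by
  have : Nontrivial (nearSub O R) :=
    ⟨⟨0, 1, fun h => zero_ne_one (α := R) (congrArg Subtype.val h)⟩⟩
  refine IsLocalRing.of_isUnit_or_isUnit_one_sub_self fun x => ?_
  exact (IsLocalRing.isUnit_or_isUnit_one_sub_self (x : R)).imp (isUnit_nearSub x)
    (isUnit_nearSub (1 - x))

instance isLocalHom_nearSub_val : IsLocalHom ((nearSub O R).val : nearSub O R →+* R) :=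
  ⟨fun a ha => isUnit_nearSub a ha⟩

theorem mem_maximalIdeal_nearSub (a : nearSub O R) :
    a ∈ maximalIdeal (nearSub O R) ↔ (a : R) ∈ maximalIdeal R := by
  rw [IsLocalRing.mem_maximalIdeal, IsLocalRing.mem_maximalIdeal]
  exact ⟨fun h hu => h (isUnit_nearSub a hu), fun h hu => h (hu.map (nearSub O R).val)⟩

instance isLocalHom_algebraMap_nearSub : IsLocalHom (algebraMap O (nearSub O R)) :=
  ⟨fun c hc => isUnit_of_map_unit (algebraMap O R) c (hc.map (nearSub O R).val)⟩

theorem residue_surjective_nearSub :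
    Function.Surjective (residue (nearSub O R) ∘ algebraMap O (nearSub O R)) := by
  intro y
  obtain ⟨a, rfl⟩ := residue_surjective y
  obtain ⟨c, hc⟩ := a.2
  refine ⟨c, ?_⟩
  show residue _ (algebraMap O (nearSub O R) c) = residue _ a
  rw [← sub_eq_zero, ← map_sub, residue_eq_zero_iff, mem_maximalIdeal_nearSub, ← neg_mem_iff]
  simpa using hc

/-- The powers of the maximal ideal are those of `R`. -/
theorem mem_pow_nearSub (n : ℕ) (a : nearSub O R) (ha : (a : R) ∈ maximalIdeal R ^ (n + 1)) :
    a ∈ maximalIdeal (nearSub O R) ^ (n + 1) := by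
  suffices h : ∀ n : ℕ, ∀ x ∈ maximalIdeal R ^ (n + 1), ∃ hx : x ∈ nearSub O R,
      (⟨x, hx⟩ : nearSub O R) ∈ maximalIdeal (nearSub O R) ^ (n + 1) from (h n a ha).2
  intro n
  induction n with
  | zero =>
    intro x hx
    rw [pow_one] at hx ⊢
    exact ⟨mem_nearSub_of_mem_maximalIdeal hx, (mem_maximalIdeal_nearSub _).mpr hx⟩
  | succ n ih =>
    intro x hx
    rw [pow_succ (maximalIdeal R)] at hx
    refine Submodule.mul_induction_on hx (fun y hy z hz => ?_) (fun y z hy hz => ?_)
    · obtain ⟨hy', hy''⟩ := ih y hy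
      refine ⟨mul_mem hy' (mem_nearSub_of_mem_maximalIdeal hz), ?_⟩
      rw [pow_succ]
      exact Ideal.mul_mem_mul (I := maximalIdeal (nearSub O R) ^ (n + 1)) hy''
        ((mem_maximalIdeal_nearSub ⟨z, mem_nearSub_of_mem_maximalIdeal hz⟩).mpr hz)
    · obtain ⟨hy', hy''⟩ := hy
      obtain ⟨hz', hz''⟩ := hz
      exact ⟨add_mem hy' hz', add_mem hy'' hz''⟩

theorem exists_comap_pow_nearSub (n : ℕ) : ∃ N : ℕ, ∀ x : nearSub O R,
    (nearSub O R).val x ∈ maximalIdeal R ^ N → x ∈ maximalIdeal (nearSub O R) ^ n :=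
  ⟨n + 1, fun x hx => Ideal.pow_le_pow_right n.le_succ (mem_pow_nearSub n x hx)⟩

variable [IsLocalRing O]

theorem finite_residueField_nearSub [Finite (ResidueField O)] :
    Finite (ResidueField (nearSub O R)) :=
  finite_residue (residue_surjective_nearSub (O := O) (R := R))

variable [IsNoetherianRing O] [Module.Finite O R]

instance module_finite_nearSub : Module.Finite O (nearSub O R) := by
  have : IsNoetherian O R := isNoetherian_of_isNoetherianRing_of_finite O R
  exact Module.Finite.of_fg (IsNoetherian.noetherian (Subalgebra.toSubmodule (nearSub O R)))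

instance isNoetherianRing_nearSub : IsNoetherianRing (nearSub O R) :=
  isNoetherian_of_tower O (inferInstance : IsNoetherian O (nearSub O R))

instance isAdicComplete_nearSub [IsAdicComplete (maximalIdeal O) O] :
    IsAdicComplete (maximalIdeal (nearSub O R)) (nearSub O R) :=
  IsLocalRing.isAdicComplete_of_module_finite (𝒪 := O)

end NearSub

/-- Flatness descends along a ring map when every cofinite ideal contains the preimage of a
cofinite ideal. -/
theorem isFlatAt_of_baseChange {p : ℕ} (hp : p.Prime) {A B : Type} [CommRing A] [IsLocalRing A]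
    [CommRing B] [IsLocalRing B] [Finite (ResidueField A)] (φ : A →+* B) (hφ : IsLocalHom φ)
    (ρ : GaloisRepAdic A) (h : (ρ.baseChangeAlong φ hφ).IsFlatAt p)
    (hI : ∀ I : Ideal A, I ≠ ⊤ → Finite (A ⧸ I) → ∃ J : Ideal B, Finite (B ⧸ J) ∧ J.comap φ ≤ I) :
    ρ.IsFlatAt p := by
  let _ : Algebra A B := φ.toAlgebra
  refine (isFlatAt_iff ρ hp).mpr ⟨inferInstance, fun I hfin => ?_⟩
  haveI := finite_level ρ I hfin
  by_cases hItop : I = ⊤
  · haveI : Subsingleton (ρ.V ⧸ (I • (⊤ : Submodule A ρ.V))) :=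
      Submodule.Quotient.subsingleton_iff.mpr (by rw [hItop, Submodule.top_smul])
    exact hasFlatModel_of_jointly_injective (ι := Empty)
      (fun _ => ρ.V ⧸ (I • (⊤ : Submodule A ρ.V))) (fun _ => levelHom ρ I)
      (fun i => i.elim) (fun i => i.elim) (fun i => i.elim) fun x y _ => Subsingleton.elim x y
  obtain ⟨J, hJ, hJI⟩ := hI I hItop hfin
  have hm := ((isFlatAt_iff _ hp).mp h).2 J hJ
  haveI := finite_level (ρ.baseChangeAlong φ hφ) J hJ
  have hI'fin : Finite (A ⧸ J.comap φ) :=
    Finite.of_injective _ (Ideal.quotientMap_injective (I := J) (f := φ))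
  haveI := finite_level ρ (J.comap φ) hI'fin
  let W := (ρ.baseChangeAlong φ hφ).V ⧸
    (J • (⊤ : Submodule B (ρ.baseChangeAlong φ hφ).V))
  have hcoord : ∀ v : ρ.V,
      oneTensor ρ φ hφ v ∈ J • (⊤ : Submodule B (ρ.baseChangeAlong φ hφ).V) ↔
        v ∈ J.comap φ • (⊤ : Submodule A ρ.V) := by
    intro v
    show (1 : B) ⊗ₜ[A] v ∈ J • (⊤ : Submodule B (B ⊗[A] ρ.V)) ↔ _
    rw [mem_smul_top_iff (Algebra.TensorProduct.basis B (repBasis ρ)),
      mem_smul_top_iff (repBasis ρ)]
    refine forall_congr' fun i => ?_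
    rw [Algebra.TensorProduct.basis_repr_tmul]
    simp
    rfl
  let T : ρ.V ⧸ (J.comap φ • (⊤ : Submodule A ρ.V)) →+ W :=
    QuotientAddGroup.lift (J.comap φ • (⊤ : Submodule A ρ.V)).toAddSubgroup
      ((Submodule.mkQ (J • (⊤ : Submodule B (ρ.baseChangeAlong φ hφ).V))).toAddMonoidHom.comp
        (oneTensor ρ φ hφ))
      fun v hv => (Submodule.Quotient.mk_eq_zero _).mpr ((hcoord v).mpr hv)
  have hmI : HasFlatModel p _ (levelHom ρ (J.comap φ)) := by
    refine hm.of_injective hp T (fun x y hxy => ?_) fun σ x => ?_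
    · obtain ⟨v, rfl⟩ := Submodule.Quotient.mk_surjective _ x
      obtain ⟨w, rfl⟩ := Submodule.Quotient.mk_surjective _ y
      refine (Submodule.Quotient.eq _).mpr ((hcoord _).mp ?_)
      rw [map_sub]
      exact (Submodule.Quotient.eq _).mp hxy
    · obtain ⟨v, rfl⟩ := Submodule.Quotient.mk_surjective _ x
      exact congrArg (Submodule.mkQ _) (oneTensor_rho ρ φ hφ σ v)
  refine hmI.of_surjective hp (Submodule.mapQ (J.comap φ • (⊤ : Submodule A ρ.V))
    (I • (⊤ : Submodule A ρ.V)) LinearMap.id (Submodule.smul_mono_left hJI)).toAddMonoidHom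
    (fun y => ?_) fun σ y => ?_
  · obtain ⟨v, rfl⟩ := Submodule.Quotient.mk_surjective _ y
    exact ⟨Submodule.Quotient.mk v, rfl⟩
  · obtain ⟨v, rfl⟩ := Submodule.Quotient.mk_surjective _ y
    rfl

/-- A cofinite proper ideal of a local ring contains a power of the maximal ideal. -/
theorem exists_pow_le_of_finite_quotient {A : Type} [CommRing A] [IsLocalRing A] (I : Ideal A)
    (hI : I ≠ ⊤) (hfin : Finite (A ⧸ I)) : ∃ N : ℕ, maximalIdeal A ^ N ≤ I := by
  haveI := isLocalRing_quotient hI
  have : IsArtinianRing (A ⧸ I) := isArtinian_of_finite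
  obtain ⟨N, hN⟩ := (isArtinianRing_iff_isNilpotent_maximalIdeal (A ⧸ I)).mp inferInstance
  refine ⟨N, fun x hx => Ideal.Quotient.eq_zero_iff_mem.mp ?_⟩
  have hle : (maximalIdeal A).map (Ideal.Quotient.mk I) ≤ maximalIdeal (A ⧸ I) :=
    Ideal.map_le_iff_le_comap.mpr fun a ha => (mem_maximalIdeal_quot (I := I) a).mpr ha
  have h := Ideal.pow_right_mono hle N (by
    rw [← Ideal.map_pow]; exact Ideal.mem_map_of_mem _ hx)
  rwa [hN] at h

/-- Flatness descends to `nearSub`. -/
theorem isFlatAt_nearSub {p : ℕ} (hp : p.Prime) {O R : Type} [CommRing O] [IsLocalRing O]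
    [Finite (ResidueField O)] [CommRing R] [IsLocalRing R] [IsNoetherianRing R]
    [Finite (ResidueField R)] [Algebra O R] [IsLocalHom (algebraMap O R)]
    (ρ : GaloisRepAdic (nearSub O R))
    (h : (ρ.baseChangeAlong ((nearSub O R).val : nearSub O R →+* R) inferInstance).IsFlatAt p) :
    ρ.IsFlatAt p := by
  have := finite_residueField_nearSub (O := O) (R := R)
  refine isFlatAt_of_baseChange hp _ _ ρ h fun I hI hfin => ?_
  obtain ⟨N, hN⟩ := exists_pow_le_of_finite_quotient I hI hfin
  haveI : Finite (R ⧸ maximalIdeal R) := inferInstanceAs (Finite (ResidueField R))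
  refine ⟨maximalIdeal R ^ (N + 1), Ideal.finite_quotient_pow (IsNoetherian.noetherian _) _,
    fun a ha => hN (Ideal.pow_le_pow_right N.le_succ (mem_pow_nearSub N a ha))⟩

end FLTA.LT2

end
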