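import Fermat.Agent.LT2.PointsGlobal
import Fermat.Agent.LT2.PatchedRingPointSub
import Fermat.Agent.LT2.PatchedRingUniversal

/-!
# Part G, ring side: points of `R^s` with values in a finite extension

A representation over a finite extension `A` of the coefficients (the residue field may grow)
satisfying the conditions of sign `s` and residually `E[2]` is a point of `R^s`.
-/

set_option autoImplicit false

noncomputable section

open IsLocalRing GaloisRep FLTA.Deformation FLTA.RT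
open FLTA.GaloisReps (padicIntToRing cycloPadic)

namespace FLTA.LT2

local notation "Γℚ" => AlgebraicClosure ℚ ≃ₐ[ℚ] AlgebraicClosure ℚ

/-- A cyclotomic determinant is the image of the cyclotomic character. -/
theorem det_eq_of_detIsCyclotomic {p : ℕ} [Fact p.Prime] {R : Type} [CommRing R] [IsLocalRing R]
    [IsAdicComplete (maximalIdeal R) R] (ρ : GaloisRepAdic R) (h : ρ.DetIsCyclotomic p) (σ : Γℚ) :
    LinearMap.det (ρ.ρ σ) = padicIntToRing R h.1 (cycloPadic p σ) := by
  rw [← sub_eq_zero]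
  refine IsHausdorff.haus (I := maximalIdeal R) inferInstance _ fun n => ?_
  rw [SModEq.zero, smul_eq_mul, Ideal.mul_top]
  have : NeZero (p ^ n) := ⟨pow_ne_zero _ (Fact.out (p := p.Prime)).ne_zero⟩
  have h1 := h.2 n σ (PadicInt.toZModPow n (cycloPadic p σ)).val
    fun μ hμ => cyclotomicCharacter.spec (n := n) p σ.toRingEquiv μ hμ
  have hle : Ideal.span {((p ^ n : ℕ) : R)} ≤ maximalIdeal R ^ n := by
    rw [Ideal.span_singleton_le_iff_mem, Nat.cast_pow]
    exact Ideal.pow_mem_pow h.1 n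
  simpa using sub_mem (hle h1) (PatchG.padicIntToRing_sub_val_mem h.1 n (cycloPadic p σ))

variable {O : RepTheory.FiniteDVRExt ℤ_[2]} [Algebra (ZMod 2) (ResidueField O.R)]
  {E : WeierstrassCurve ℤ}

/-- **Points of `R^s`.** -/
theorem Companion.exists_signRing_hom (hE : Companion E) {ω : O.R} (hω : ω ^ 2 + ω + 1 = 0)
    {S T : Finset ℕ} {s : ℕ → ℤ}
    (D : DeformationRingData O.R (resRep hE.Δ_ne_zero (ResidueField O.R)) (signCond O.R S T s))
    (A : RepTheory.FiniteDVRExt O.R) (ρ : GaloisRepAdic A.R) (hP : signCond O.R S T s ρ)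
    (hres : ∀ σ : Γℚ,
      ρ.trace σ - ((mat2 hE.Δ_ne_zero σ).trace.val : A.R) ∈ maximalIdeal A.R) :
    ∃ ψ : D.R →ₐ[O.R] A.R, IsLocalHom (ψ : D.R →+* A.R) ∧
      ∀ σ, ψ (D.ρ.trace σ) = ρ.trace σ := by
  classical
  obtain ⟨⟨hcyc, hflat, hunr⟩, hsign⟩ := hP
  have hp : ((2 : ℕ) : A.R) ∈ maximalIdeal A.R := hcyc.1
  let φ : nearSub O.R A.R →+* A.R := ((nearSub O.R A.R).val : nearSub O.R A.R →+* A.R)
  have hφi : Function.Injective φ := Subtype.val_injective
  have hnat : ∀ (x : A.R) (k : ℕ), x - (k : A.R) ∈ maximalIdeal A.R → x ∈ nearSub O.R A.R :=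
    fun x k h => ⟨(k : O.R), by rwa [map_natCast]⟩
  have hp0 : ((2 : ℕ) : nearSub O.R A.R) ∈ maximalIdeal (nearSub O.R A.R) := by
    rw [mem_maximalIdeal_nearSub]
    show φ ((2 : ℕ) : nearSub O.R A.R) ∈ _
    rw [map_natCast]
    exact hp
  -- residually `E[2]`
  have := PatchG.charP_residueField_two hp
  let : Algebra (ZMod 2) (ResidueField A.R) := ZMod.algebra _ 2
  have hequiv : (resRep hE.Δ_ne_zero (ResidueField A.R)).IsEquiv ρ.residual := by
    refine RepTheory.residual_isEquiv_of_trace_eq hE.isAbsolutelyIrreducible_resRep fun σ => ?_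
    rw [trace_resRep, RepTheory.trace_residual,
      show residue A.R (ρ.trace σ) = ((mat2 hE.Δ_ne_zero σ).trace.val : ResidueField A.R) by
        rw [← map_natCast (residue A.R), ← sub_eq_zero, ← map_sub, residue_eq_zero_iff]
        exact hres σ]
    conv_lhs => rw [← ZMod.natCast_zmod_val (mat2 hE.Δ_ne_zero σ).trace, map_natCast]
  have hirr : ρ.residual.IsAbsolutelyIrreducible :=
    RepTheory.isAbsolutelyIrreducible_of_isEquiv hequiv hE.isAbsolutelyIrreducible_resRep
  have htr : ∀ σ, ρ.trace σ ∈ φ.range := fun σ => ⟨⟨_, hnat _ _ (hres σ)⟩, rfl⟩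
  have hdet : ∀ σ, LinearMap.det (ρ.ρ σ) =
      φ (padicIntToRing (nearSub O.R A.R) hp0 (cycloPadic 2 σ)) := fun σ => by
    rw [det_eq_of_detIsCyclotomic ρ hcyc σ, PatchG.map_padicIntToRing φ hp0 hcyc.1]
  -- an element of order three modulo two
  obtain ⟨c, hc⟩ := exists_mat2_eq hE (M := !![0, 1; 1, 1]) (by decide)
  obtain ⟨t, htc⟩ := htr c
  have hch : (ρ.residual.ρ c).charpoly = Polynomial.X ^ 2
      - Polynomial.C (1 : ResidueField A.R) * Polynomial.X
      + Polynomial.C (1 : ResidueField A.R) := by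
    rw [← RepTheory.residual_charpoly_eq_of_isEquiv hequiv c, resRep_charpoly_of_mat2 hE, hc,
      show (!![0, 1; 1, 1] : Matrix (Fin 2) (Fin 2) (ZMod 2)).trace = 1 by decide,
      show (!![0, 1; 1, 1] : Matrix (Fin 2) (Fin 2) (ZMod 2)).det = 1 by decide, map_one]
  obtain ⟨ht1, hd1⟩ := RepTheory.trace_eq_of_charpoly ρ.residual.finrank_eq hch
  rw [RepTheory.trace_residual, ← htc] at ht1
  rw [RepTheory.det_residual, hdet c] at hd1
  have hsmall : ∀ x : nearSub O.R A.R, residue A.R (φ x) = 1 →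
      x - 1 ∈ maximalIdeal (nearSub O.R A.R) := fun x hx => by
    rw [mem_maximalIdeal_nearSub, ← residue_eq_zero_iff]
    show residue A.R ((x : A.R) - 1) = 0
    rw [map_sub, map_one, sub_eq_zero]
    exact hx
  have hω0 : algebraMap O.R (nearSub O.R A.R) ω ^ 2 + algebraMap O.R (nearSub O.R A.R) ω + 1
      = 0 := by
    rw [← map_pow, ← map_add, ← map_one (algebraMap O.R (nearSub O.R A.R)), ← map_add, hω, map_zero]
  obtain ⟨l₁, l₂, hl, hlt, hld⟩ := PatchG.exists_roots_three (by simpa using hp0) hω0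
    (hsmall t ht1) (hsmall _ hd1)
  obtain ⟨r, hr, hr1⟩ := PatchG.exists_descent_rep φ hφi exists_comap_pow_nearSub ρ htr hirr
    (c := c) hl (by rw [hlt]; exact htc.symm) (by rw [hld]; exact hdet c)
  have hφl : IsLocalHom φ := inferInstanceAs (IsLocalHom ((nearSub O.R A.R).val : nearSub O.R A.R →+* A.R))
  have hbc : ρ.IsEquiv (r.baseChangeAlong φ hφl) :=
    RepTheory.isEquiv_of_charpoly_eq hirr fun σ => by
      rw [RepTheory.charpoly_baseChangeAlong, hr σ]
  have hrt : ∀ σ, φ (r.trace σ) = ρ.trace σ := fun σ => by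
    rw [← RepTheory.trace_baseChangeAlong φ hφl]
    exact (RepTheory.trace_eq_of_isEquiv hbc σ).symm
  have hrd : ∀ σ, LinearMap.det (r.ρ σ) = padicIntToRing _ hp0 (cycloPadic 2 σ) := fun σ => by
    refine hφi ?_
    rw [← hdet σ]
    have h := hr σ
    rw [RepTheory.adic_charpoly_eq r, RepTheory.adic_charpoly_eq ρ] at h
    simpa [Polynomial.coeff_X_pow] using congrArg (Polynomial.coeff · 0) h
  have hzero : ∀ σ τ a b, prodEnd ρ σ τ a b = 0 → prodEnd r σ τ a b = 0 := fun σ τ a b h => by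
    have h' : bcEnd φ hφl r (prodEnd r σ τ a b) = 0 := by
      rw [bcEnd_prodEnd]
      exact prodEnd_eq_zero_of_isEquiv hbc h
    exact eq_zero_of_pair (fun x hx _ => hφi (hx.trans (map_zero φ).symm)) r _ h' h'
  have hcond : signCond O.R S T s r :=
    ⟨⟨PatchG.detIsCyclotomic_of_det_eq hp0 r hrd,
      isFlatAt_nearSub Nat.prime_two r
        ((isClosed_flat (𝒪 := O.R) Nat.prime_two).of_isEquiv hbc hflat),
      fun q hq hqS P hP σ hσ => hr1 σ (hunr q hq hqS P hP σ hσ)⟩,
    fun j hj =>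
      ⟨fun P hP τ hτ τ' hτ' => hzero _ _ _ _ ((hsign j hj).inertia_inertia P hP τ hτ τ' hτ'),
        fun P hP σ hσ τ hτ => hzero _ _ _ _ ((hsign j hj).frob_inertia P hP σ hσ τ hτ),
        fun P hP σ hσ τ hτ => hzero _ _ _ _ ((hsign j hj).inertia_frob P hP σ hσ τ hτ),
        fun P hP σ hσ σ' hσ' => hzero _ _ _ _ ((hsign j hj).frob_frob P hP σ hσ σ' hσ')⟩⟩
  have hresc : ResCond (resRep hE.Δ_ne_zero (ResidueField O.R)) r.trace := by
    refine (resCond_iff _ _).mpr fun σ => ?_
    rw [show (barMat (resRep hE.Δ_ne_zero (ResidueField O.R)) σ).trace =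
        algebraMap (ZMod 2) (ResidueField O.R) (mat2 hE.Δ_ne_zero σ).trace from
      (LinearMap.trace_eq_matrix_trace _ (barBasis _) _).symm.trans (trace_resRep _ _ σ),
      ← ZMod.natCast_zmod_val (mat2 hE.Δ_ne_zero σ).trace, map_natCast, map_natCast,
      ← map_natCast (residue (nearSub O.R A.R)), ← sub_eq_zero, ← map_sub, residue_eq_zero_iff,
      mem_maximalIdeal_nearSub]
    have h := hres σ
    rw [← hrt σ] at h
    show φ (_ - _) ∈ _
    rw [map_sub, map_natCast]
    exact h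
  obtain ⟨ψ, hψl, hψt, -⟩ := existsUnique_map_trace D (nearSub O.R A.R) residue_surjective_nearSub
    r hcond hresc
  exact ⟨(nearSub O.R A.R).val.comp ψ,
    ⟨fun a ha => hψl.map_nonunit a (hφl.map_nonunit (ψ a) ha)⟩,
    fun σ => (congrArg φ (hψt σ)).trans (hrt σ)⟩

/-- The trace congruence from a residual isomorphism with `E[2]`. -/
theorem trace_sub_val_mem_of_isEquiv {hΔ : E.Δ ≠ 0} {R : Type} [CommRing R] [IsLocalRing R]
    [Algebra (ZMod 2) (ResidueField R)] (ρ : GaloisRepAdic R)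
    (h : (resRep hΔ (ResidueField R)).IsEquiv ρ.residual) (σ : Γℚ) :
    ρ.trace σ - ((mat2 hΔ σ).trace.val : R) ∈ maximalIdeal R := by
  rw [← residue_eq_zero_iff, map_sub, map_natCast, ← RepTheory.trace_residual, sub_eq_zero]
  refine ((RepTheory.trace_eq_of_charpoly_eq ρ.residual.finrank_eq (resRep hΔ _).finrank_eq
    (RepTheory.residual_charpoly_eq_of_isEquiv h σ).symm).1).trans ?_
  rw [trace_resRep]
  conv_lhs => rw [← ZMod.natCast_zmod_val (mat2 hΔ σ).trace, map_natCast]

end FLTA.LT2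

end
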