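import Fermat.Agent.LT2.PatchedPointClass
import Fermat.Agent.LT2.PatchedOps
import Fermat.Agent.RT.PointExtend

/-!
# Part G of LT2: the eigenclass of a point of the Hecke algebra of the level

A point of an algebra of operators on the level module extends, after a finite extension, to a
larger algebra of commuting operators and so gives one class which is an eigenclass for all of
them; the operators which cut out the level module have there their residual values. For `twH`
this gives the normalised operators at all primes, among them those at the auxiliary primes.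
-/

set_option autoImplicit false
set_option linter.overlappingInstances false
set_option linter.unusedSectionVars false
set_option maxSynthPendingDepth 3
set_option synthInstance.maxHeartbeats 400000

noncomputable section

open IsLocalRing CongruenceSubgroup
open scoped MatrixGroups

namespace FLTA.LT2

open FLTA.RT FLTA.Periods

section generic

variable {R : Type} [CommRing R] [IsNoetherianRing R]

/-- On the factor cut out by a residual system, every point has the residual values. -/
theorem sub_mem_maximalIdeal_of_localEnd {Γ : Type} [Group Γ] [Group.FG Γ] {χ : Γ →* Rˣ}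
    [IsLocalRing R] [IsAdicComplete (maximalIdeal R) R] {σ : Type} {T : σ → NatEnd χ}
    (hcomm : CommAtRing T) (a : σ → R) [Module.Free R (eImage (localEnd T a) R)]
    [Module.Finite R (eImage (localEnd T a) R)]
    {T' : σ → Module.End R (eImage (localEnd T a) R)} (hT' : ∀ s t, Commute (T' s) (T' t))
    (hres : ∀ s x, ((T' s x : eImage (localEnd T a) R) : tH1 χ R) = (T s).app R x)
    {A : Type} [CommRing A] [IsLocalRing A] (θ : opAlg R T' →+* A)
    (hθ : (θ.comp (algebraMap R (opAlg R T'))).Finite) (s : σ) :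
    θ (opGen R T' s) - θ (algebraMap R (opAlg R T') (a s)) ∈ maximalIdeal A := by
  let _ := opAlgCommRing (R := R) hT'
  have := finite_tH1 (χ := χ) R
  have hone : localIdem T' a = 1 := by
    refine LinearMap.ext fun x => Subtype.ext ?_
    refine (localIdem_comm_map hT' hcomm a (eImage (localEnd T a) R).subtype hres x).trans ?_
    obtain ⟨x, y, rfl⟩ := x
    show localIdem (opsAt T R) a ((localEnd T a).app R y) = (localEnd T a).app R y
    rw [localEnd_app_ring hcomm]
    exact LinearMap.congr_fun (isIdempotentElem_localIdem hcomm a).eq y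
  let P : Ideal (opAlg R T') := (maximalIdeal A).comap θ
  have hP : P.IsMaximal :=
    Ideal.isMaximal_comap_of_isIntegral_of_isMaximal' θ
      (RingHom.Finite.of_comp_finite hθ).to_isIntegral (maximalIdeal A)
  have hiff := (isLocalIdem_localIdem hT' a).mem_iff P hP
  have h1 : (⟨_, localIdem_mem hT' a⟩ : opAlg R T') = 1 := Subtype.ext hone
  have hle : eigIdeal T' a ≤ P := Classical.not_not.mp fun h =>
    hP.ne_top ((Ideal.eq_top_iff_one _).mpr (h1 ▸ hiff.mpr h))
  rw [← map_sub]
  exact hle (opGen_sub_mem T' a s)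

variable {L : ℕ} [NeZero L] {χ : (ZMod L)ˣ →* Rˣ} {hχ : χ (-1) = 1}
  {e : NatEnd (pgamChar χ hχ)} {d : ℕ} (b : Module.Basis (Fin d) R (eImage e R))
  {σ : Type} {N : σ → Module.End R (eImage e R)}
  {O : Type} [CommRing O] [IsLocalRing O] [Algebra O R]

set_option maxHeartbeats 800000 in
include b in
/-- A point of an algebra of operators gives, after a finite extension, one eigenclass for a
larger algebra of commuting operators. -/
theorem exists_pointClass_extend (hlift : HasLifts (pgamChar χ hχ))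
    (hidem : EqAtRing (e * e) e) (hN : ∀ s t, Commute (N s) (N t))
    (H₀ : Subalgebra R (Module.End R (eImage e R))) (hle : H₀ ≤ opAlg R N)
    (A : RepTheory.FiniteDVRExt O) (ψ : H₀ →+* A.R)
    (hψ : ∀ c : O, ψ (algebraMap R H₀ (algebraMap O R c)) = algebraMap O A.R c) :
    ∃ (A' : RepTheory.FiniteDVRExt A.R) (φ : R →+* A'.R) (ψ' : opAlg R N →+* A'.R)
      (z : tH1 (gamChar (charMap φ χ)) A'.R),
      φ = (algebraMap A.R A'.R).comp (ψ.comp (algebraMap R H₀)) ∧ φ.Finite ∧
      (∀ r, ψ' (algebraMap R (opAlg R N) r) = φ r) ∧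
      (∀ h : H₀, ψ' ⟨h.1, hle h.2⟩ = algebraMap A.R A'.R (ψ h)) ∧
      (∀ c : A'.R, c • z = 0 → c = 0) ∧
      ∀ (l : ℕ) (r : R) (h : opAlg R N),
        (∀ x : eImage e R,
          (((h : Module.End R (eImage e R)) x : eImage e R) : tH1 (pgamChar χ hχ) R) =
            r • (pNatHecke χ hχ l).app R x) →
        φ r • (natHecke (charMap φ χ) l).app A'.R z = ψ' h • z := by
  let _ : CommRing (opAlg R N) := opAlgCommRing hN
  let _ : CommRing H₀ :=
    { (inferInstance : Ring H₀) with
      mul_comm := fun x y => Subtype.ext (congrArg Subtype.val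
        (mul_comm (⟨x.1, hle x.2⟩ : opAlg R N) ⟨y.1, hle y.2⟩) :) }
  let inc : H₀ →+* opAlg R N := (Subalgebra.inclusion hle).toRingHom
  have : Module.Free R (eImage e R) := Module.Free.of_basis b
  have : Module.Finite R (eImage e R) := Module.Finite.of_basis b
  have : Module.Finite R (opAlg R N) :=
    Module.Finite.of_injective (opAlg R N).val.toLinearMap Subtype.val_injective
  have hincfin : inc.Finite := by
    refine RingHom.Finite.of_comp_finite (f := algebraMap R H₀) ?_
    rw [show inc.comp (algebraMap R H₀) = algebraMap R (opAlg R N) from RingHom.ext fun _ => rfl]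
    exact RingHom.finite_algebraMap.mpr inferInstance
  obtain ⟨A', ψ', hψ'⟩ := exists_point_extend A.R inc (Subalgebra.inclusion_injective hle) hincfin ψ
  let φ : R →+* A'.R := (algebraMap A.R A'.R).comp (ψ.comp (algebraMap R H₀))
  have hφ : ψ'.comp (algebraMap R (opAlg R N)) = φ :=
    RingHom.ext fun a => RingHom.congr_fun hψ' (algebraMap R H₀ a)
  have hfin : φ.Finite := by
    refine RingHom.Finite.of_comp_finite (f := algebraMap O R) ?_
    rw [show φ.comp (algebraMap O R) = (algebraMap A.R A'.R).comp (algebraMap O A.R) from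
      RingHom.ext fun c => congrArg (algebraMap A.R A'.R) (hψ c)]
    exact (RingHom.finite_algebraMap.mpr inferInstance).comp
      (RingHom.finite_algebraMap.mpr inferInstance)
  have hz := exists_pointClass b (opAlg R N).val hlift hidem Subtype.val_injective ψ' (hφ ▸ hfin)
  have hz' : ∃ z : tH1 (gamChar (charMap (ψ'.comp (algebraMap R (opAlg R N))) χ)) A'.R,
      (∀ c : A'.R, c • z = 0 → c = 0) ∧
      ∀ (l : ℕ) (r : R) (h : opAlg R N),
        (∀ x : eImage e R,
          (((h : Module.End R (eImage e R)) x : eImage e R) : tH1 (pgamChar χ hχ) R) =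
            r • (pNatHecke χ hχ l).app R x) →
        (ψ'.comp (algebraMap R (opAlg R N))) r •
          (natHecke (charMap (ψ'.comp (algebraMap R (opAlg R N))) χ) l).app A'.R z = ψ' h • z := hz
  rw [hφ] at hz'
  obtain ⟨z, htf, heig⟩ := hz'
  exact ⟨A', φ, ψ', z, rfl, hfin, RingHom.congr_fun hφ, RingHom.congr_fun hψ', htf, heig⟩

end generic

variable (O : Type) [CommRing O] (k m : ℕ) [IsDomain O] [IsDiscreteValuationRing O]
  [IsAdicComplete (maximalIdeal O) O]
  (L₀ : ℕ) (q : Fin k → ℕ) (E : WeierstrassCurve ℤ) (L₁ : ℕ) [NeZero (twLev k L₁ q)] (ω : O)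

/-- The Hecke algebra of the normalised operators at all primes. -/
abbrev twHAll : Subalgebra (DiaRing O k m)
    (Module.End (DiaRing O k m) (twMod O k m L₀ q E L₁ ω)) :=
  opAlg (DiaRing O k m) fun r : {r : ℕ // r.Prime} => twN O k m L₀ q E L₁ ω r

theorem twH_le_twHAll : twH O k m L₀ q E L₁ ω ≤ twHAll O k m L₀ q E L₁ ω :=
  Algebra.adjoin_mono (by
    rintro _ ⟨r, rfl⟩
    exact ⟨⟨r.1, r.2.1⟩, rfl⟩)

/-- The normalised operator at a prime in the algebra of all of them. -/
def twGenAll (r : {r : ℕ // r.Prime}) : twHAll O k m L₀ q E L₁ ω :=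
  opGen (DiaRing O k m) (fun r : {r : ℕ // r.Prime} => twN O k m L₀ q E L₁ ω r) r

theorem coe_twGenAll (r : {r : ℕ // r.Prime}) :
    (twGenAll O k m L₀ q E L₁ ω r : Module.End (DiaRing O k m) (twMod O k m L₀ q E L₁ ω)) =
      twN O k m L₀ q E L₁ ω r := rfl

theorem coe_twN {r : ℕ} (hr : r.Prime) (x : twMod O k m L₀ q E L₁ ω) :
    (twN O k m L₀ q E L₁ ω r x :
        tH1 (pgamChar (twChar O k m L₁ q) (twChar_neg_one O k m L₁ q)) (DiaRing O k m)) =
      (twKap O k m q r : DiaRing O k m) •
        (pNatHecke (twChar O k m L₁ q) (twChar_neg_one O k m L₁ q) r).app (DiaRing O k m) x := by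
  rw [twN, LinearMap.smul_apply, Submodule.coe_smul, coe_twOp O k m L₀ q E L₁ ω hr]

theorem twOp_eq_smul_twN (r : ℕ) :
    twOp O k m L₀ q E L₁ ω r =
      (((twKap O k m q r)⁻¹ : (DiaRing O k m)ˣ) : DiaRing O k m) • twN O k m L₀ q E L₁ ω r := by
  rw [twN, smul_smul, Units.inv_mul, one_smul]

theorem twOp_mem_twHAll (l : GoodIdx L₀) :
    twOp O k m L₀ q E L₁ ω l ∈ twHAll O k m L₀ q E L₁ ω := by
  rw [twOp_eq_smul_twN]
  exact Subalgebra.smul_mem _ (twGenAll O k m L₀ q E L₁ ω ⟨l.1, l.2.1⟩).2 _

theorem diaRing_hom_mem_maximalIdeal {A : Type} [CommRing A] [IsLocalRing A]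
    (φ : DiaRing O k m →+* A) (hφ : φ.Finite) {x : DiaRing O k m}
    (hx : algebraMap (DiaRing O k m) O x ∈ maximalIdeal O) : φ x ∈ maximalIdeal A := by
  show x ∈ (maximalIdeal A).comap φ
  rw [IsLocalRing.eq_maximalIdeal
    (Ideal.isMaximal_comap_of_isIntegral_of_isMaximal' φ hφ.to_isIntegral (maximalIdeal A)),
    mem_maximalIdeal_diaRing]
  exact hx

variable {d : ℕ} (b : Module.Basis (Fin d) (DiaRing O k m) (twMod O k m L₀ q E L₁ ω))
  [Finite (ResidueField O)] [CharZero O]

set_option maxHeartbeats 1600000 in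
include b in
/-- **The eigenclass of a point of `twH`**, for the operators at all primes: `c r` is the
eigenvalue of the normalised operator at `r`. At the indices of the localisation, among them the
auxiliary primes, it has the residual value. -/
theorem exists_twH_pointClass (h2 : (2 : O) ∈ maximalIdeal O) {p : ℕ} (hp : p.Prime)
    (hpL : p ∣ L₁) (hp4 : p % 4 = 3) (A : RepTheory.FiniteDVRExt O)
    (ψ : twH O k m L₀ q E L₁ ω →+* A.R)
    (hψ : ∀ a : O, ψ (algebraMap (DiaRing O k m) (twH O k m L₀ q E L₁ ω)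
      (algebraMap O (DiaRing O k m) a)) = algebraMap O A.R a) :
    ∃ (A' : RepTheory.FiniteDVRExt A.R) (φ : DiaRing O k m →+* A'.R) (c : ℕ → A'.R)
      (z : tH1 (gamChar (charMap φ (twChar O k m L₁ q))) A'.R),
      φ = (algebraMap A.R A'.R).comp (ψ.comp (algebraMap (DiaRing O k m) _)) ∧
      (∀ a : A'.R, a • z = 0 → a = 0) ∧
      (∀ r : ℕ, r.Prime → φ (twKap O k m q r : DiaRing O k m) •
        (natHecke (charMap φ (twChar O k m L₁ q)) r).app A'.R z = c r • z) ∧
      (∀ r : ℕ, r.Prime ∧ r ≠ 2 ∧ (∀ i, q i ≠ r) →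
        c r = algebraMap A.R A'.R (ψ (twGen O k m L₀ q E L₁ ω r))) ∧
      (∀ r, φ (twKap O k m q r : DiaRing O k m) - 1 ∈ maximalIdeal A'.R) ∧
      ∀ l : GoodIdx L₀, c l - algebraMap A.R A'.R
        (algebraMap O A.R (levVal O k L₀ q E Finset.univ ω l)) ∈ maximalIdeal A'.R := by
  have := group_fg_PGamma0 (twLev k L₁ q)
  obtain ⟨A', φ, ψ', z, hφdef, hfin, hφ, hψ', htf, heig⟩ :=
    exists_pointClass_extend b (hasLifts_twChar O k m q L₁ h2 hp hpL hp4)
      (eqAtRing_localEnd_sq (commAtRing_twOps O k m L₀ q L₁) (topVal O k m L₀ q E ω))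
      (N := fun r : {r : ℕ // r.Prime} => twN O k m L₀ q E L₁ ω r)
      (fun _ _ => commute_twN O k m L₀ q E L₁ ω _ _) (twH O k m L₀ q E L₁ ω)
      (twH_le_twHAll O k m L₀ q E L₁ ω) A ψ hψ
  have hkap : ∀ r, φ (twKap O k m q r : DiaRing O k m) - 1 ∈ maximalIdeal A'.R := fun r => by
    rw [← map_one φ, ← map_sub]
    refine diaRing_hom_mem_maximalIdeal O k m φ hfin ?_
    rw [map_sub, map_one, aug_kap, sub_self]
    exact zero_mem _
  let c : ℕ → A'.R :=
    fun r => if hr : r.Prime then ψ' (twGenAll O k m L₀ q E L₁ ω ⟨r, hr⟩) else 0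
  have hc : ∀ {r : ℕ} (hr : r.Prime), c r = ψ' (twGenAll O k m L₀ q E L₁ ω ⟨r, hr⟩) :=
    fun hr => dif_pos hr
  refine ⟨A', φ, c, z, hφdef, htf, fun r hr => ?_, fun r hr => ?_, hkap, fun l => ?_⟩
  · rw [hc hr]
    exact heig r _ _ fun x => coe_twN O k m L₀ q E L₁ ω hr x
  · rw [hc hr.1, ← hψ']
    exact congrArg ψ' (Subtype.ext (coe_twGen O k m L₀ q E L₁ ω hr).symm)
  · have hT' : ∀ s t : GoodIdx L₀,
        Commute (twOp O k m L₀ q E L₁ ω s) (twOp O k m L₀ q E L₁ ω t) :=
      fun _ _ => commute_twOp O k m L₀ q E L₁ ω _ _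
    have hle : opAlg (DiaRing O k m) (fun l : GoodIdx L₀ => twOp O k m L₀ q E L₁ ω l) ≤
        twHAll O k m L₀ q E L₁ ω := Algebra.adjoin_le (by
      rintro _ ⟨s, rfl⟩
      exact twOp_mem_twHAll O k m L₀ q E L₁ ω s)
    have : Module.Free (DiaRing O k m) (eImage (localEnd (twOps O k m L₀ q L₁)
        (topVal O k m L₀ q E ω)) (DiaRing O k m)) := Module.Free.of_basis b
    have : Module.Finite (DiaRing O k m) (eImage (localEnd (twOps O k m L₀ q L₁)
        (topVal O k m L₀ q E ω)) (DiaRing O k m)) := Module.Finite.of_basis b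
    let θ : opAlg (DiaRing O k m) (fun l : GoodIdx L₀ => twOp O k m L₀ q E L₁ ω l) →+* A'.R :=
      ψ'.comp (Subalgebra.inclusion hle).toRingHom
    have hθR : θ.comp (algebraMap (DiaRing O k m) _) = φ := RingHom.ext hφ
    have h1 := sub_mem_maximalIdeal_of_localEnd (commAtRing_twOps O k m L₀ q L₁)
      (topVal O k m L₀ q E ω) hT' (fun s x => coe_twOp O k m L₀ q E L₁ ω s.2.1 x) θ
      (hθR.symm ▸ hfin) l
    have h2' : φ (topVal O k m L₀ q E ω l) - algebraMap A.R A'.R
        (algebraMap O A.R (levVal O k L₀ q E Finset.univ ω l)) ∈ maximalIdeal A'.R := by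
      rw [show topVal O k m L₀ q E ω l =
          algebraMap O (DiaRing O k m) (levVal O k L₀ q E Finset.univ ω l) from rfl,
        hφdef, RingHom.comp_apply, RingHom.comp_apply, hψ, sub_self]
      exact zero_mem _
    rw [show θ (algebraMap (DiaRing O k m) _ (topVal O k m L₀ q E ω l)) =
      φ (topVal O k m L₀ q E ω l) from RingHom.congr_fun hθR _] at h1
    have h4 : c l = φ (twKap O k m q l.1 : DiaRing O k m) *
        θ (opGen (DiaRing O k m) (fun l : GoodIdx L₀ => twOp O k m L₀ q E L₁ ω l) l) := by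
      rw [hc l.2.1, ← hφ]
      show ψ' _ = ψ' _ * ψ' _
      rw [← map_mul]
      exact congrArg ψ' (Subtype.ext ((Algebra.smul_def _ _).trans rfl))
    have h5 := add_mem (Ideal.mul_mem_right
      (θ (opGen (DiaRing O k m) (fun l : GoodIdx L₀ => twOp O k m L₀ q E L₁ ω l) l)) _ (hkap l.1))
      (add_mem h1 h2')
    rw [h4]
    convert h5 using 1
    ring

end FLTA.LT2

end
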