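import Fermat.Agent.RepTheory.Descent
import Fermat.Agent.RepTheory.DVRExtension
import Fermat.Agent.GaloisReps.DetTrick

/-!
# Descending a two-dimensional representation to the ring of its traces

The representation is residually absolutely irreducible and one element has characteristic
polynomial split over the small ring, with roots distinct modulo the maximal ideal. No condition on
the residue characteristic.
-/

set_option autoImplicit false

noncomputable section

open IsLocalRing Polynomial Matrix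

namespace FLTA.LT2.PatchG

local notation "Γℚ" => AlgebraicClosure ℚ ≃ₐ[ℚ] AlgebraicClosure ℚ

/-- A matrix with trace `u`, determinant zero, `u` a unit, is conjugate to `diag (u, 0)`. -/
theorem exists_conj_diagonal_of_det_zero {R : Type*} [CommRing R] [IsLocalRing R]
    (N : Matrix (Fin 2) (Fin 2) R) {u : R} (hu : IsUnit u) (ht : N.trace = u) (hd : N.det = 0) :
    ∃ P : (Matrix (Fin 2) (Fin 2) R)ˣ,
      N * (P : Matrix (Fin 2) (Fin 2) R) = P * Matrix.diagonal ![u, 0] := by
  rw [Matrix.trace_fin_two] at ht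
  rw [Matrix.det_fin_two] at hd
  rcases IsLocalRing.isUnit_or_isUnit_of_isUnit_add (ht ▸ hu) with h | h
  · have hP : IsUnit !![N 0 0, -N 0 1; N 1 0, N 0 0] := by
      rw [Matrix.isUnit_iff_isUnit_det, Matrix.det_fin_two_of,
        show N 0 0 * N 0 0 - -N 0 1 * N 1 0 = N 0 0 * u by linear_combination N 0 0 * ht - hd]
      exact h.mul hu
    refine ⟨hP.unit, ?_⟩
    rw [hP.unit_spec]
    ext i j
    fin_cases i <;> fin_cases j <;>
      simp [Matrix.mul_apply, Fin.sum_univ_two, Matrix.diagonal_apply]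
    all_goals first
      | ring1
      | linear_combination N 0 0 * ht - hd
      | linear_combination N 1 0 * ht
      | linear_combination hd
  · have hP : IsUnit !![N 0 1, N 1 1; N 1 1, -N 1 0] := by
      rw [Matrix.isUnit_iff_isUnit_det, Matrix.det_fin_two_of,
        show N 0 1 * -N 1 0 - N 1 1 * N 1 1 = -(N 1 1 * u) by linear_combination hd - N 1 1 * ht]
      exact (h.mul hu).neg
    refine ⟨hP.unit, ?_⟩
    rw [hP.unit_spec]
    ext i j
    fin_cases i <;> fin_cases j <;>
      simp [Matrix.mul_apply, Fin.sum_univ_two, Matrix.diagonal_apply]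
    all_goals first
      | ring1
      | linear_combination N 0 1 * ht
      | linear_combination hd
      | linear_combination -hd
      | linear_combination N 1 1 * ht - hd

/-- Roots of `X² - tX + d` when it reduces to `X² + X + 1` and a cube root of unity is given. -/
theorem exists_roots_three {R : Type} [CommRing R] [IsLocalRing R]
    [IsAdicComplete (maximalIdeal R) R] (h2 : (2 : R) ∈ maximalIdeal R) {w : R}
    (hw : w ^ 2 + w + 1 = 0) {t d : R} (ht : t - 1 ∈ maximalIdeal R)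
    (hd : d - 1 ∈ maximalIdeal R) :
    ∃ l₁ l₂ : R, IsUnit (l₁ - l₂) ∧ l₁ + l₂ = t ∧ l₁ * l₂ = d := by
  have hder : ∀ x : R, IsUnit (2 * x - t) := by
    intro x
    by_contra h
    refine (maximalIdeal.isMaximal R).ne_top ((Ideal.eq_top_iff_one _).mpr ?_)
    have h' : 2 * x - t ∈ maximalIdeal R := (IsLocalRing.mem_maximalIdeal _).mpr h
    have e : (1 : R) = 2 * x - (2 * x - t) - (t - 1) := by ring
    rw [e]
    exact sub_mem (sub_mem (Ideal.mul_mem_right _ _ h2) h') ht
  obtain ⟨l₁, hl₁, -⟩ := HenselianRing.is_henselian (I := maximalIdeal R)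
    (X ^ 2 - C t * X + C d) (by monicity!) w
    (by
      simp only [eval_add, eval_sub, eval_pow, eval_X, eval_mul, eval_C]
      rw [show w ^ 2 - t * w + d = (w ^ 2 + w + 1) - ((t - 1) + 2) * w + (d - 1) by ring,
        hw, zero_sub]
      exact add_mem (neg_mem (Ideal.mul_mem_right _ _ (add_mem ht h2))) hd)
    (by
      refine IsUnit.map _ ?_
      simpa [one_add_one_eq_two] using hder w)
  rw [IsRoot.def] at hl₁
  simp only [eval_add, eval_sub, eval_pow, eval_X, eval_mul, eval_C] at hl₁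
  exact ⟨l₁, t - l₁, by rw [show l₁ - (t - l₁) = 2 * l₁ - t by ring]; exact hder l₁, by ring,
    by linear_combination -hl₁⟩

/-- The ring-theoretic core: matrices over a local ring descend to a subring. -/
theorem exists_descent_matrix {A B : Type*} [CommRing A] [CommRing B] [IsLocalRing B] (φ : A →+* B)
    [IsLocalHom φ] (hφ : Function.Injective φ) {G : Type*} [Monoid G]
    (M : G →* Matrix (Fin 2) (Fin 2) B)
    (ht : ∀ g, (M g).trace ∈ φ.range)
    (hsp : Submodule.span B (Set.range M) = ⊤) {c : G} {l₁ l₂ : A} (hl : IsUnit (l₁ - l₂))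
    (htc : (M c).trace = φ (l₁ + l₂))
    (hdc : (M c).det = φ (l₁ * l₂)) :
    ∃ (N : G →* Matrix (Fin 2) (Fin 2) A) (Q : (Matrix (Fin 2) (Fin 2) B)ˣ),
      ∀ g, (N g).map (φ) = (Q : Matrix (Fin 2) (Fin 2) B) * M g *
        ((Q⁻¹ : (Matrix (Fin 2) (Fin 2) B)ˣ) : Matrix (Fin 2) (Fin 2) B) := by
  classical
  -- diagonalise `M c`
  have hN₁ : (M c - φ l₂ • (1 : Matrix (Fin 2) (Fin 2) B)).trace = φ (l₁ - l₂) := by
    rw [Matrix.trace_sub, Matrix.trace_smul, htc, Matrix.trace_one]
    simp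
    ring
  have hN₂ : (M c - φ l₂ • (1 : Matrix (Fin 2) (Fin 2) B)).det = 0 := by
    rw [Matrix.det_fin_two] at hdc
    rw [Matrix.trace_fin_two] at htc
    rw [map_add] at htc
    rw [map_mul] at hdc
    rw [Matrix.det_fin_two]
    simp
    linear_combination hdc - φ l₂ * htc
  obtain ⟨P, hP⟩ := exists_conj_diagonal_of_det_zero _ (hl.map φ) hN₁ hN₂
  let M' := RepTheory.conjHom P⁻¹ M
  have hc : M' c = Matrix.diagonal ![φ l₁, φ l₂] := by
    show ((P⁻¹ : (Matrix (Fin 2) (Fin 2) B)ˣ) : Matrix (Fin 2) (Fin 2) B) * M c * (P⁻¹⁻¹ :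
      (Matrix (Fin 2) (Fin 2) B)ˣ) = _
    rw [inv_inv, mul_assoc]
    rw [sub_mul, sub_eq_iff_eq_add, smul_mul_assoc, one_mul] at hP
    rw [hP, mul_add, ← mul_assoc, Units.inv_mul, one_mul, mul_smul_comm, Units.inv_mul]
    ext i j
    fin_cases i <;> fin_cases j <;> simp [map_sub]
  have htr' : ∀ g, (M' g).trace ∈ φ.range := fun g => by
    rw [show (M' g).trace = (M g).trace from Matrix.trace_units_conj P⁻¹ (M g)]
    exact ht g
  have hsp' : Submodule.span B (Set.range M') = ⊤ := by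
    refine eq_top_iff.mpr fun X _ => ?_
    let cl : Matrix (Fin 2) (Fin 2) B →ₗ[B] Matrix (Fin 2) (Fin 2) B :=
      LinearMap.mulLeft _ ((P⁻¹ : (Matrix (Fin 2) (Fin 2) B)ˣ) : Matrix (Fin 2) (Fin 2) B) ∘ₗ
        LinearMap.mulRight _ (P : Matrix (Fin 2) (Fin 2) B)
    have hr : Set.range M' = cl '' Set.range M := by
      rw [← Set.range_comp]
      exact congrArg Set.range (funext fun g => by simp [M', cl, RepTheory.conjHom, mul_assoc])
    rw [hr, Submodule.span_image, hsp, Submodule.map_top]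
    exact ⟨(P : Matrix (Fin 2) (Fin 2) B) * X *
      ((P⁻¹ : (Matrix (Fin 2) (Fin 2) B)ˣ) : Matrix (Fin 2) (Fin 2) B), by simp [cl, mul_assoc]⟩
  have hentry : ∀ a b : Fin 2, ∃ g, IsUnit (M' g a b) := by
    intro a b
    by_contra! hcon
    have hle : (⊤ : Submodule B (Matrix (Fin 2) (Fin 2) B)) ≤
        Submodule.comap (Matrix.entryLinearMap B B a b) (maximalIdeal B) := by
      rw [← hsp', Submodule.span_le]
      rintro _ ⟨g, rfl⟩
      exact (IsLocalRing.mem_maximalIdeal _).mpr (hcon g)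
    have h1 : Matrix.single a b (1 : B) a b ∈ maximalIdeal B :=
      hle (Submodule.mem_top (x := Matrix.single a b (1 : B)))
    rw [Matrix.single_apply_same] at h1
    exact (maximalIdeal.isMaximal B).ne_top ((Ideal.eq_top_iff_one _).mpr h1)
  obtain ⟨g₀, hg₀⟩ := hentry 0 1
  obtain ⟨h₀, hh₀⟩ := hentry 1 0
  choose t htg using htr'
  obtain ⟨d, hd⟩ := hl
  have hd' : φ (↑d⁻¹ : A) * (φ l₁ - φ l₂) = 1 := by
    rw [← map_sub, ← hd, ← map_mul, Units.inv_mul, map_one]
  let a' : G → A := fun g => ↑d⁻¹ * (t (c * g) - l₂ * t g)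
  have ha : ∀ g, φ (a' g) = M' g 0 0 := fun g => by
    simp only [a', map_mul φ, map_sub, htg, map_mul M', hc]
    simp [Matrix.trace_fin_two]
    linear_combination (M' g 0 0) * hd'
  let u := a' (g₀ * h₀) - a' g₀ * a' h₀
  have hu' : φ u = M' g₀ 0 1 * M' h₀ 1 0 := by
    simp only [u, map_sub, map_mul φ (a' g₀), ha, map_mul M']
    simp [Matrix.mul_apply, Fin.sum_univ_two]
  have hu : IsUnit u := isUnit_of_map_unit φ u (by rw [hu']; exact hg₀.mul hh₀)
  obtain ⟨N, Q, hNQ⟩ := RepTheory.exists_descent_of_diagonal φ hφ M'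
    (fun g => ⟨t g, htg g⟩) (c := c) (hd ▸ d.isUnit) hc hu hu'
  refine ⟨N, Q * P⁻¹, fun g => ?_⟩
  rw [hNQ g]
  simp [M', RepTheory.conjHom, mul_assoc]

/-- **Descent of a representation to the ring of its traces.** -/
theorem exists_descent_rep {A B : Type} [CommRing A] [IsLocalRing A] [CommRing B] [IsLocalRing B]
    (φ : A →+* B) [IsLocalHom φ] (hφ : Function.Injective φ)
    (hcomap : ∀ n : ℕ, ∃ N : ℕ, ∀ x : A, φ x ∈ maximalIdeal B ^ N → x ∈ maximalIdeal A ^ n)
    (ρ : GaloisRepAdic B)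
    (ht : ∀ σ, ρ.trace σ ∈ φ.range)
    (hirr : ρ.residual.IsAbsolutelyIrreducible) {c : Γℚ} {l₁ l₂ : A} (hl : IsUnit (l₁ - l₂))
    (htc : ρ.trace c = φ (l₁ + l₂))
    (hdc : LinearMap.det (ρ.ρ c) = φ (l₁ * l₂)) :
    ∃ r : GaloisRepAdic A, (∀ σ, ((r.ρ σ).charpoly).map (φ) = (ρ.ρ σ).charpoly) ∧
      ∀ σ, ρ.ρ σ = 1 → r.ρ σ = 1 := by
  classical
  let b := Module.finBasisOfFinrankEq B ρ.V ρ.finrank_eq
  let M := RepTheory.matHom b ρ.ρ
  obtain ⟨N, Q, hNQ⟩ := exists_descent_matrix φ hφ M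
    (fun g => by rw [RepTheory.matHom_trace]; exact ht g)
    ((RepTheory.spans_iff_matHom b ρ.ρ).mp
      ((RepTheory.spans_iff_residual_isAbsolutelyIrreducible ρ).mpr hirr)) hl
    (by rw [RepTheory.matHom_trace]; exact htc)
    (by rw [RepTheory.matHom_apply, LinearMap.det_toMatrix]; exact hdc)
  let rh : Γℚ →* Module.End A (Fin 2 → A) :=
    (Matrix.toLinAlgEquiv' (R := A) (n := Fin 2)).toMonoidHom.comp N
  have hmat : ∀ σ, RepTheory.matHom (Pi.basisFun A (Fin 2)) rh σ = N σ := fun σ => by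
    rw [RepTheory.matHom_apply, LinearMap.toMatrix_eq_toMatrix']
    exact LinearMap.toMatrix'_toLin' (N σ)
  have hcont : GaloisActionIsAdicContinuous A rh := by
    refine RepTheory.isAdicContinuous_of_matrix (Pi.basisFun A (Fin 2)) rh fun n => ?_
    obtain ⟨N', hN'⟩ := hcomap n
    obtain ⟨L, hL, hL'⟩ := ρ.isAdicContinuous N'
    refine ⟨L, hL, fun σ hσ i j => hN' _ ?_⟩
    have hM : ∀ k l, M σ k l - (1 : Matrix (Fin 2) (Fin 2) B) k l ∈
        maximalIdeal B ^ N' := fun k l => by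
      have h := GaloisReps.repr_mem_of_mem_smul_top b _ (hL' σ hσ (b l)) k
      rw [map_sub, Finsupp.sub_apply, b.repr_self, Finsupp.single_apply] at h
      rw [show M σ k l = b.repr (ρ.ρ σ (b l)) k from LinearMap.toMatrix_apply b b _ k l,
        Matrix.one_apply]
      simpa [eq_comm] using h
    have e : (φ) (RepTheory.matHom (Pi.basisFun A (Fin 2)) rh σ i j -
        (1 : Matrix (Fin 2) (Fin 2) A) i j) =
        ((Q : Matrix (Fin 2) (Fin 2) B) * (M σ - 1) *
          ((Q⁻¹ : (Matrix (Fin 2) (Fin 2) B)ˣ) : Matrix (Fin 2) (Fin 2) B)) i j := by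
      rw [hmat, map_sub, mul_sub, sub_mul, mul_one, Units.mul_inv, Matrix.sub_apply, ← hNQ]
      congr 1
      by_cases hij : i = j <;> simp [Matrix.one_apply, hij]
    rw [e, Matrix.mul_apply]
    refine Ideal.sum_mem _ fun k _ => Ideal.mul_mem_right _ _ ?_
    rw [Matrix.mul_apply]
    exact Ideal.sum_mem _ fun l _ => Ideal.mul_mem_left _ _ (hM l k)
  refine ⟨{ V := Fin 2 → A, finrank_eq := by simp, ρ := rh, isAdicContinuous := hcont },
    fun σ => ?_, fun σ hσ => ?_⟩
  · show (Matrix.toLin' (N σ)).charpoly.map _ = _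
    rw [Matrix.charpoly_toLin', ← Matrix.charpoly_map, hNQ, Matrix.coe_units_inv,
      Matrix.charpoly_units_conj]
    exact LinearMap.charpoly_toMatrix (ρ.ρ σ) b
  · have hN : N σ = 1 := by
      refine Matrix.map_injective hφ ?_
      show (N σ).map _ = (1 : Matrix (Fin 2) (Fin 2) A).map _
      rw [hNQ, show M σ = 1 by simp [M, RepTheory.matHom, hσ], mul_one, Units.mul_inv,
        Matrix.map_one _ (map_zero _) (map_one _)]
    show Matrix.toLinAlgEquiv' (N σ) = 1
    rw [hN, map_one]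

section DVR

variable {A : Type} [CommRing A] [IsDomain A] [IsDiscreteValuationRing A]
  [IsAdicComplete (maximalIdeal A) A] [Finite (ResidueField A)] [CharZero A]

/-- An element of `A` which lies in a high power of the maximal ideal upstairs is small. -/
theorem exists_comap_pow_le (E : RepTheory.FiniteDVRExt A) (n : ℕ) :
    ∃ N : ℕ, ∀ x : A, algebraMap A E.R x ∈ maximalIdeal E.R ^ N → x ∈ maximalIdeal A ^ n := by
  obtain ⟨π, hπ⟩ := IsDiscreteValuationRing.exists_irreducible A
  obtain ⟨ϖ, hϖ⟩ := IsDiscreteValuationRing.exists_irreducible E.R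
  have hne : algebraMap A E.R π ^ n ≠ 0 :=
    pow_ne_zero _ fun h => hπ.ne_zero (E.injective (by rw [h, map_zero]))
  obtain ⟨N, v, hv⟩ := IsDiscreteValuationRing.eq_unit_mul_pow_irreducible hne hϖ
  refine ⟨N, fun x hx => ?_⟩
  by_cases hx0 : x = 0
  · rw [hx0]; exact zero_mem _
  obtain ⟨k, w, rfl⟩ := IsDiscreteValuationRing.eq_unit_mul_pow_irreducible hx0 hπ
  rw [hπ.maximalIdeal_eq, Ideal.span_singleton_pow, Ideal.mem_span_singleton]
  by_contra hkn
  have hlt : k < n := by
    by_contra hge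
    exact hkn ((pow_dvd_pow π (not_lt.mp hge)).mul_left _)
  have hN : maximalIdeal E.R ^ N ≤ Ideal.span {algebraMap A E.R π ^ n} := by
    rw [hϖ.maximalIdeal_eq, Ideal.span_singleton_pow, Ideal.span_singleton_le_span_singleton, hv]
    exact Units.mul_left_dvd.mpr dvd_rfl
  obtain ⟨c, hc⟩ := Ideal.mem_span_singleton'.mp (hN hx)
  rw [map_mul, map_pow, ← Nat.sub_add_cancel hlt.le, pow_add, ← mul_assoc] at hc
  have hc' := mul_right_cancel₀
    (pow_ne_zero k fun h => hπ.ne_zero (E.injective (by rw [h, map_zero]))) hc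
  have hm : algebraMap A E.R π ∈ maximalIdeal E.R :=
    map_nonunit (algebraMap A E.R) π (hπ.maximalIdeal_eq ▸ Ideal.mem_span_singleton_self π)
  refine (IsLocalRing.mem_maximalIdeal _).mp ?_ (w.isUnit.map (algebraMap A E.R))
  rw [← hc']
  exact Ideal.mul_mem_left _ _ (Ideal.pow_mem_of_mem _ hm _ (by omega))

end DVR

end FLTA.LT2.PatchG

end
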