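import Fermat.Agent.GaloisReps.Attach
import Fermat.Prelude.Def_GaloisRep_LocalConditions

/-!
# The canonical map `ℤ_[p] → O` and cyclotomic determinants
-/

set_option autoImplicit false

noncomputable section

open IsLocalRing

namespace FLTA.LT2.PatchG

open FLTA.GaloisReps (padicIntToRing mk_padicIntToRing zmodPowToQuot cycloPadic)

local notation "Γℚ" => AlgebraicClosure ℚ ≃ₐ[ℚ] AlgebraicClosure ℚ

variable {p : ℕ} [Fact p.Prime] {O : Type} [CommRing O] [IsLocalRing O]
  [IsAdicComplete (maximalIdeal O) O]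

/-- The canonical map agrees with the natural representative modulo `m ^ n`. -/
theorem padicIntToRing_sub_val_mem (hp : (p : O) ∈ maximalIdeal O) (n : ℕ) (x : ℤ_[p]) :
    padicIntToRing O hp x - ((PadicInt.toZModPow n x).val : O) ∈ maximalIdeal O ^ n := by
  have : NeZero (p ^ n) := ⟨pow_ne_zero _ (Fact.out (p := p.Prime)).ne_zero⟩
  rw [← Ideal.Quotient.mk_eq_mk_iff_sub_mem, mk_padicIntToRing, map_natCast]
  conv_lhs => rw [← ZMod.natCast_zmod_val (PadicInt.toZModPow n x)]
  rw [map_natCast]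

/-- Naturality of the canonical map. -/
theorem map_padicIntToRing {O' : Type} [CommRing O'] [IsLocalRing O']
    [IsAdicComplete (maximalIdeal O') O'] (φ : O →+* O') [IsLocalHom φ]
    (hp : (p : O) ∈ maximalIdeal O) (hp' : (p : O') ∈ maximalIdeal O') (x : ℤ_[p]) :
    φ (padicIntToRing O hp x) = padicIntToRing O' hp' x := by
  rw [← sub_eq_zero]
  refine IsHausdorff.haus (I := maximalIdeal O') inferInstance _ fun n => ?_
  rw [SModEq.zero, smul_eq_mul, Ideal.mul_top]
  have h1 : φ (padicIntToRing O hp x - ((PadicInt.toZModPow n x).val : O)) ∈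
      maximalIdeal O' ^ n := by
    have hle : (maximalIdeal O ^ n).map φ ≤ maximalIdeal O' ^ n := by
      rw [Ideal.map_pow]
      exact Ideal.pow_right_mono (Ideal.map_le_iff_le_comap.mpr fun a ha =>
        Ideal.mem_comap.mpr (map_nonunit φ a ha)) n
    exact hle (Ideal.mem_map_of_mem φ (padicIntToRing_sub_val_mem hp n x))
  rw [map_sub, map_natCast] at h1
  simpa using sub_mem h1 (padicIntToRing_sub_val_mem hp' n x)

/-- A representation whose determinant is the cyclotomic character has cyclotomic determinant. -/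
theorem detIsCyclotomic_of_det_eq (hp : (p : O) ∈ maximalIdeal O) (ρ : GaloisRepAdic O)
    (h : ∀ σ : Γℚ, LinearMap.det (ρ.ρ σ) = padicIntToRing O hp (cycloPadic p σ)) :
    ρ.DetIsCyclotomic p := by
  refine ⟨hp, fun n σ a ha => ?_⟩
  have : NeZero (p ^ n) := ⟨pow_ne_zero _ (Fact.out (p := p.Prime)).ne_zero⟩
  obtain ⟨ζ, hζ⟩ := HasEnoughRootsOfUnity.exists_primitiveRoot (AlgebraicClosure ℚ) (p ^ n)
  have h1 := cyclotomicCharacter.spec (n := n) p σ.toRingEquiv ζ hζ.pow_eq_one
  have h2 : σ ζ = ζ ^ (PadicInt.toZModPow n (cycloPadic p σ)).val := h1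
  rw [ha ζ hζ.pow_eq_one] at h2
  have h3 := (hζ.isOfFinOrder (NeZero.ne _)).pow_inj_mod.1 h2
  rw [← hζ.eq_orderOf] at h3
  have h4 : PadicInt.toZModPow n (cycloPadic p σ) = (a : ZMod (p ^ n)) := by
    rw [← ZMod.natCast_zmod_val (PadicInt.toZModPow n (cycloPadic p σ))]
    exact ((ZMod.natCast_eq_natCast_iff' _ _ _).2 h3.symm)
  have h5 : cycloPadic p σ - (a : ℤ_[p]) ∈ RingHom.ker (PadicInt.toZModPow (p := p) n) := by
    rw [RingHom.mem_ker, map_sub, h4, map_natCast, sub_self]
  rw [PadicInt.ker_toZModPow, Ideal.mem_span_singleton'] at h5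
  obtain ⟨y, hy⟩ := h5
  refine Ideal.mem_span_singleton'.2 ⟨padicIntToRing O hp y, ?_⟩
  have := congrArg (padicIntToRing O hp) hy
  rw [map_mul, map_sub, map_natCast, map_pow, map_natCast] at this
  rw [h σ, Nat.cast_pow, this]

end FLTA.LT2.PatchG

end
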