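import Fermat.Agent.LT2.PointsGlobalRes
import Fermat.Agent.LT2.PointsGlobalDet
import Fermat.Agent.LT2.PointsGlobalDescent
import Fermat.Agent.RT.DatumTrace
import Fermat.Agent.RT.DatumResidual
import Fermat.Agent.HeckeDatum.Relation

/-!
# The representation of a point of the Hecke algebra at `p = 2`

A character `χ` of `heckeAlgebra L 2 S` with values in a finite extension `A` of coefficients `O`
containing a primitive cube root of unity, congruent to the traces of a companion curve `E`, has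
a representation over `A` itself, residually `E[2]`.
-/

set_option autoImplicit false

noncomputable section

open IsLocalRing Polynomial

namespace FLTA.LT2.PatchG

open FLTA.GaloisReps (padicIntToRing cycloPadic FullHecke)
open FLTA.HeckeDatum (toFullHecke toFullHecke_injective)

local notation "Γℚ" => AlgebraicClosure ℚ ≃ₐ[ℚ] AlgebraicClosure ℚ

variable {O : RepTheory.FiniteDVRExt ℤ_[2]} {E : WeierstrassCurve ℤ}

theorem two_mem_maximalIdeal (A : RepTheory.FiniteDVRExt O.R) :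
    ((2 : ℕ) : A.R) ∈ maximalIdeal A.R := by
  have h0 : ((2 : ℕ) : ℤ_[2]) ∈ maximalIdeal ℤ_[2] := by
    rw [PadicInt.maximalIdeal_eq_span_p]
    exact Ideal.mem_span_singleton_self _
  have h1 : ((2 : ℕ) : O.R) ∈ maximalIdeal O.R := by
    have := map_nonunit (algebraMap ℤ_[2] O.R) _ h0
    rwa [map_natCast] at this
  have := map_nonunit (algebraMap O.R A.R) _ h1
  rwa [map_natCast] at this

/-- A residue field of residue characteristic two is a `ZMod 2`-algebra. -/
theorem charP_residueField_two {R : Type} [CommRing R] [IsLocalRing R]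
    (h : ((2 : ℕ) : R) ∈ maximalIdeal R) : CharP (ResidueField R) 2 := by
  rw [CharP.charP_iff_prime_eq_zero Nat.prime_two, ← map_natCast (residue R),
    residue_eq_zero_iff]
  exact h

/-- The residual representation from Frobenius characteristic polynomials. -/
theorem residual_isEquiv_resRep (hE : Companion E) {R : Type} [CommRing R] [IsLocalRing R]
    (ρ : GaloisRepAdic R) [Algebra (ZMod 2) (ResidueField R)] {S : Finset ℕ} (a : ℕ → R)
    (ha : ∀ l : ℕ, l.Prime → l ∉ S → a l - (E.apOfModel l : R) ∈ maximalIdeal R)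
    (hS : ∀ l : ℕ, l.Prime → l ∉ S → l ≠ 2 ∧ E.IsGoodPrimeFor l)
    (hfrob : ∀ l : ℕ, l.Prime → l ∉ S →
      ∀ P : ValuationSubring (AlgebraicClosure ℚ), P.LiesOverPrime l →
        ∀ τ : Γℚ, P.IsFrobeniusAt τ l →
          (ρ.ρ τ).charpoly = X ^ 2 - C (a l) * X + C (l : R)) :
    (resRep hE.Δ_ne_zero (ResidueField R)).IsEquiv ρ.residual := by
  have hirr : (resRep hE.Δ_ne_zero (ResidueField R)).IsAbsolutelyIrreducible :=
    hE.isAbsolutelyIrreducible_resRep
  refine RepTheory.residual_isEquiv_of_trace_eq hirr fun σ => ?_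
  let φ := (resRep hE.Δ_ne_zero (ResidueField R)).ρ.prod ρ.residual.ρ
  have h := Density.forall_of_frobenius φ
    (Density.galoisFactorsThroughFiniteLevel_prod
      (resRep hE.Δ_ne_zero (ResidueField R)).factorsThroughFiniteLevel
      ρ.residual.factorsThroughFiniteLevel)
    S (fun m => ∀ n : ℕ, LinearMap.trace _ _ (m.1 ^ n) = LinearMap.trace _ _ (m.2 ^ n))
    (fun m i hm n => by
      rw [Prod.pow_fst, Prod.pow_snd, ← pow_mul, ← pow_mul]
      exact hm (i * n))
    (fun l hl hlS P hP τ hτ n => by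
      obtain ⟨h2, hgood⟩ := hS l hl hlS
      have hres : residue R (a l) = (E.apOfModel l : ResidueField R) := by
        rw [← map_intCast (residue R), ← sub_eq_zero, ← map_sub, residue_eq_zero_iff]
        exact ha l hl hlS
      have h2' : (ρ.residual.ρ τ).charpoly
          = X ^ 2 - C (E.apOfModel l : ResidueField R) * X + C (l : ResidueField R) := by
        rw [RepTheory.charpoly_residual, hfrob l hl hlS P hP τ hτ, ← hres]
        simp
      show LinearMap.trace _ _ ((resRep hE.Δ_ne_zero (ResidueField R)).ρ τ ^ n)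
        = LinearMap.trace _ _ (ρ.residual.ρ τ ^ n)
      rw [RT.Datum.trace_pow_of_charpoly (resRep hE.Δ_ne_zero (ResidueField R)).finrank_eq
          (resRep_charpoly hE (ResidueField R) hl h2 hgood hP hτ),
        RT.Datum.trace_pow_of_charpoly ρ.residual.finrank_eq h2'])
    σ
  simpa [φ] using h 1

/-- **The representation of a point.** -/
theorem exists_pointRep (hE : Companion E) {ω : O.R} (hω : ω ^ 2 + ω + 1 = 0)
    (A : RepTheory.FiniteDVRExt O.R) {L : ℕ} [NeZero L] {S : Finset ℕ} (h2S : 2 ∈ S)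
    (hLS : ∀ q : ℕ, q.Prime → q ∣ L → q ∈ S)
    (χ : CuspForm.heckeAlgebra L 2 (↑S : Set ℕ) →+* A.R)
    (hχ : ∀ (l : ℕ) (hl : l.Prime) (hlL : ¬ l ∣ L) (hlS : l ∉ (↑S : Set ℕ)), E.IsGoodPrimeFor l →
      χ (CuspForm.heckeAlgebra.T hl hlL hlS) - (E.apOfModel l : A.R) ∈ maximalIdeal A.R) :
    ∃ ρ : GaloisRepAdic A.R,
      (∀ (l : ℕ) (hl : l.Prime) (hlL : ¬ l ∣ L) (hlS : l ∉ (↑S : Set ℕ)),
        ∀ P : ValuationSubring (AlgebraicClosure ℚ), P.LiesOverPrime l →
          ∀ τ : Γℚ, P.IsFrobeniusAt τ l →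
            LinearMap.charpoly (ρ.ρ τ) =
              X ^ 2 - C (χ (CuspForm.heckeAlgebra.T hl hlL hlS)) * X + C (l : A.R)) ∧
      ρ.DetIsCyclotomic 2 ∧
      (∀ q : ℕ, q.Prime → ¬ q ∣ L → q ≠ 2 → ρ.IsUnramifiedAt q) ∧
      ρ.residual.IsAbsolutelyIrreducible ∧
      ∀ [Algebra (ZMod 2) (ResidueField A.R)],
        (resRep hE.Δ_ne_zero (ResidueField A.R)).IsEquiv ρ.residual := by
  classical
  have hp : ((2 : ℕ) : A.R) ∈ maximalIdeal A.R := two_mem_maximalIdeal A
  have := GaloisReps.module_finite_fullHecke L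
  obtain ⟨F, ψ, hψ⟩ := RepTheory.exists_ext_character A.R (toFullHecke L (↑S : Set ℕ))
    (toFullHecke_injective (↑S : Set ℕ)) χ
  set φ := algebraMap A.R F.R
  have hp' : ((2 : ℕ) : F.R) ∈ maximalIdeal F.R := by
    have := map_nonunit φ _ hp
    rwa [map_natCast] at this
  obtain ⟨ρ', hfrob, hunr, hdet⟩ := GaloisReps.exists_galoisRepAdic_attached hp' ψ
  -- the primes used for comparisons
  let S' : Finset ℕ := S ∪ E.Δ.natAbs.primeFactors
  have hS' : ∀ l : ℕ, l.Prime → l ∉ S' →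
      l ∉ (↑S : Set ℕ) ∧ ¬ l ∣ L ∧ l ≠ 2 ∧ E.IsGoodPrimeFor l := fun l hl h => by
    simp only [S', Finset.mem_union, not_or, Nat.mem_primeFactors] at h
    refine ⟨fun h' => h.1 (Finset.mem_coe.mp h'), fun hd => h.1 (hLS l hl hd),
      fun e => h.1 (e ▸ h2S), fun hd => h.2 ⟨hl, Int.natCast_dvd.mp hd, ?_⟩⟩
    exact Int.natAbs_ne_zero.mpr hE.Δ_ne_zero
  let a : ℕ → A.R := fun l =>
    if h : l.Prime ∧ ¬ l ∣ L ∧ l ∉ (↑S : Set ℕ)
      then χ (CuspForm.heckeAlgebra.T h.1 h.2.1 h.2.2) else 0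
  have hcp : ∀ (l : ℕ) (hl : l.Prime) (hlL : ¬ l ∣ L) (hlS : l ∉ (↑S : Set ℕ)),
      ∀ P : ValuationSubring (AlgebraicClosure ℚ), P.LiesOverPrime l →
        ∀ τ : Γℚ, P.IsFrobeniusAt τ l → LinearMap.charpoly (ρ'.ρ τ) =
          X ^ 2 - C (φ (χ (CuspForm.heckeAlgebra.T hl hlL hlS))) * X + C (l : F.R) := by
    intro l hl hlL hlS P hP τ hτ
    rw [← RingHom.comp_apply φ χ, ← hψ]
    exact hfrob l hl hlL (fun e => hlS (Finset.mem_coe.mpr (e ▸ h2S))) P hP τ hτ
  -- traces and determinants lie in `A`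
  have hπ : ∃ π : A.R, π ≠ 0 ∧ π ∈ maximalIdeal A.R :=
    ⟨((2 : ℕ) : A.R), Nat.cast_ne_zero.mpr two_ne_zero, hp⟩
  have htr : ∀ σ : Γℚ, ρ'.trace σ ∈ φ.range := fun σ => by
    obtain ⟨x, hx⟩ := RT.Datum.exists_trace_descent A.R (fun _ : Unit => F)
      (fun _ => Algebra.ofId A.R F.R) hπ (fun _ => ρ') S' a
      (fun _ l hl hlS P hP τ hτ => by
        obtain ⟨h1, h2, -, -⟩ := hS' l hl hlS
        obtain ⟨e1, e2⟩ := RepTheory.trace_eq_of_charpoly ρ'.finrank_eq (hcp l hl h2 h1 P hP τ hτ)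
        refine ⟨?_, e2⟩
        rw [show a l = χ (CuspForm.heckeAlgebra.T hl h2 h1) from dif_pos ⟨hl, h2, h1⟩]
        exact e1) σ
    exact ⟨x, hx ()⟩
  have hdetA : ∀ σ : Γℚ,
      LinearMap.det (ρ'.ρ σ) = φ (padicIntToRing A.R hp (cycloPadic 2 σ)) := fun σ => by
    rw [hdet σ, map_padicIntToRing φ hp hp']
  -- residually `E[2]`
  have := charP_residueField_two hp'
  let : Algebra (ZMod 2) (ResidueField F.R) := ZMod.algebra _ 2
  have hres : (resRep hE.Δ_ne_zero (ResidueField F.R)).IsEquiv ρ'.residual := by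
    refine residual_isEquiv_resRep hE ρ' (S := S') (fun l => φ (a l)) (fun l hl hlS => ?_)
      (fun l hl hlS => ⟨(hS' l hl hlS).2.2.1, (hS' l hl hlS).2.2.2⟩) (fun l hl hlS => ?_)
    · obtain ⟨h1, h2, -, h4⟩ := hS' l hl hlS
      rw [show a l = χ (CuspForm.heckeAlgebra.T hl h2 h1) from dif_pos ⟨hl, h2, h1⟩,
        ← map_intCast φ, ← map_sub]
      exact map_nonunit φ _ (hχ l hl h2 h1 h4)
    · obtain ⟨h1, h2, -, -⟩ := hS' l hl hlS
      intro P hP τ hτ
      rw [show a l = χ (CuspForm.heckeAlgebra.T hl h2 h1) from dif_pos ⟨hl, h2, h1⟩]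
      exact hcp l hl h2 h1 P hP τ hτ
  have hirr : ρ'.residual.IsAbsolutelyIrreducible :=
    RepTheory.isAbsolutelyIrreducible_of_isEquiv hres hE.isAbsolutelyIrreducible_resRep
  -- an element of order three modulo two
  obtain ⟨c, hc⟩ := exists_mat2_eq hE (M := !![0, 1; 1, 1]) (by decide)
  obtain ⟨t, htc⟩ := htr c
  set d := padicIntToRing A.R hp (cycloPadic 2 c) with hd
  have hch : (ρ'.residual.ρ c).charpoly =
      X ^ 2 - C (1 : ResidueField F.R) * X + C (1 : ResidueField F.R) := by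
    rw [← RepTheory.residual_charpoly_eq_of_isEquiv hres c, resRep_charpoly_of_mat2 hE, hc,
      show (!![0, 1; 1, 1] : Matrix (Fin 2) (Fin 2) (ZMod 2)).trace = 1 by decide,
      show (!![0, 1; 1, 1] : Matrix (Fin 2) (Fin 2) (ZMod 2)).det = 1 by decide, map_one]
  obtain ⟨ht1, hd1⟩ := RepTheory.trace_eq_of_charpoly ρ'.residual.finrank_eq hch
  rw [RepTheory.trace_residual] at ht1
  rw [RepTheory.det_residual] at hd1
  have hsmall : ∀ x : A.R, residue F.R (φ x) = 1 → x - 1 ∈ maximalIdeal A.R := fun x hx => by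
    rw [IsLocalRing.mem_maximalIdeal]
    intro hu
    have hu' := (hu.map φ).map (residue F.R)
    rw [map_sub, map_one, map_sub, hx, map_one, sub_self] at hu'
    exact not_isUnit_zero hu'
  have htm : t - 1 ∈ maximalIdeal A.R := hsmall t (by rw [htc]; exact ht1)
  have hdm : d - 1 ∈ maximalIdeal A.R := hsmall d (by rw [← hdetA c]; exact hd1)
  -- Hensel
  set ω' := algebraMap O.R A.R ω with hω'
  have hωA : ω' ^ 2 + ω' + 1 = 0 := by
    rw [hω', ← map_pow, ← map_add, ← map_one (algebraMap O.R A.R), ← map_add, hω, map_zero]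
  obtain ⟨l₁, l₂, hl, hlt, hld⟩ :=
    exists_roots_three (R := A.R) (by simpa using hp) hωA htm hdm
  obtain ⟨r, hr, hr1⟩ := exists_descent_rep φ F.injective (exists_comap_pow_le F) ρ' htr hirr
    (c := c) hl (by rw [hlt]; exact htc.symm) (by rw [hld]; exact hdetA c)
  have hcpr : ∀ (l : ℕ) (hl : l.Prime) (hlL : ¬ l ∣ L) (hlS : l ∉ (↑S : Set ℕ)),
      ∀ P : ValuationSubring (AlgebraicClosure ℚ), P.LiesOverPrime l →
        ∀ τ : Γℚ, P.IsFrobeniusAt τ l → LinearMap.charpoly (r.ρ τ) =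
          X ^ 2 - C (χ (CuspForm.heckeAlgebra.T hl hlL hlS)) * X + C (l : A.R) := by
    intro l hl hlL hlS P hP τ hτ
    refine Polynomial.map_injective φ F.injective ?_
    rw [hr τ, hcp l hl hlL hlS P hP τ hτ]
    simp
  have hresr : ∀ [Algebra (ZMod 2) (ResidueField A.R)],
      (resRep hE.Δ_ne_zero (ResidueField A.R)).IsEquiv r.residual := fun {_} => by
    refine residual_isEquiv_resRep hE r (S := S') a (fun l hl hlS => ?_)
      (fun l hl hlS => ⟨(hS' l hl hlS).2.2.1, (hS' l hl hlS).2.2.2⟩) (fun l hl hlS => ?_)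
    · obtain ⟨h1, h2, -, h4⟩ := hS' l hl hlS
      rw [show a l = χ (CuspForm.heckeAlgebra.T hl h2 h1) from dif_pos ⟨hl, h2, h1⟩]
      exact hχ l hl h2 h1 h4
    · obtain ⟨h1, h2, -, -⟩ := hS' l hl hlS
      intro P hP τ hτ
      rw [show a l = χ (CuspForm.heckeAlgebra.T hl h2 h1) from dif_pos ⟨hl, h2, h1⟩]
      exact hcpr l hl h2 h1 P hP τ hτ
  refine ⟨r, hcpr, detIsCyclotomic_of_det_eq hp r fun σ => F.injective ?_,
    fun q hq hqL hq2 P hP σ hσ => hr1 σ (hunr q hq hqL hq2 P hP σ hσ), ?_, @hresr⟩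
  · rw [← hdetA σ]
    have h := hr σ
    rw [RepTheory.adic_charpoly_eq r, RepTheory.adic_charpoly_eq ρ'] at h
    have h0 := congrArg (coeff · 0) h
    simpa [coeff_X_pow] using h0
  · have := charP_residueField_two hp
    let : Algebra (ZMod 2) (ResidueField A.R) := ZMod.algebra _ 2
    exact RepTheory.isAbsolutelyIrreducible_of_isEquiv hresr hE.isAbsolutelyIrreducible_resRep

/-- The Frobenius traces of the representation of a point. -/
theorem trace_eq_of_charpoly_point {A : Type} [CommRing A] [IsLocalRing A] (ρ : GaloisRepAdic A)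
    {τ : Γℚ} {a d : A} (h : LinearMap.charpoly (ρ.ρ τ) = X ^ 2 - C a * X + C d) :
    ρ.trace τ = a :=
  (RepTheory.trace_eq_of_charpoly ρ.finrank_eq h).1

end FLTA.LT2.PatchG

end
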