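import Fermat.Agent.LT2.PointsSystem
import Fermat.Agent.LT2.PatchedPointOps
import Fermat.Agent.LT2.PatchedThreeModFour
import Fermat.Agent.LT2.ThetaAuxPrime
import Fermat.Agent.LT2.PatchedRingPt
import Fermat.Agent.LT2.PointsGlobal
import Fermat.Agent.LT2.PointsAlgebra

/-!
# Part G of LT2: the classical system of a point of the level algebra

A point of `twH` at the level `L₀ ∏ qt`, `L₀ = N ∏ Q`, gives a character of the classical Hecke
algebra, with values in the ring of the point, at a level with the prime divisors of `L₀ ∏ qt`: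
its values are those of the point up to the signs of the quadratic components of the twist.
-/

set_option autoImplicit false
set_option linter.unusedSectionVars false
set_option maxSynthPendingDepth 3

noncomputable section

open IsLocalRing CongruenceSubgroup
open scoped MatrixGroups

namespace FLTA.LT2

open FLTA.RT FLTA.Periods

/-- A class without torsion gives a nonzero class over a field containing the values. -/
theorem exists_fieldClass {L : ℕ} [NeZero L] {B K : Type} [CommRing B] [IsDomain B] [Field K]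
    (ι : B →+* K) (hι : Function.Injective ι) {χ : (ZMod L)ˣ →* Bˣ} {z : tH1 (gamChar χ) B}
    (hz : ∀ a : B, a • z = 0 → a = 0) :
    ∃ z' : tH1 (gamChar (charMap ι χ)) K, z' ≠ 0 ∧ ∀ (l : ℕ) (r c : B),
      r • (natHecke χ l).app B z = c • z →
        ι r • (natHecke (charMap ι χ) l).app K z' = ι c • z' := by
  let _ : Algebra B K := ι.toAlgebra
  have hK : ∀ (c : B) (v : K), c • v = ι c • v := fun c v => Algebra.smul_def c v
  refine ⟨tH1Base ι χ hK (tH1Map _ (Algebra.linearMap B K) z),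
    fun h => tH1Map_ne_zero_of_noTorsion (K := K) hι hz
      ((tH1Base ι χ hK).map_eq_zero_iff.mp h), fun l r c h => ?_⟩
  rw [← tH1Base_natHecke, ← tH1Base_smul, ← tH1Base_smul, (natHecke χ l).natural]
  exact congrArg _ ((map_smul _ r _).symm.trans ((congrArg _ h).trans (map_smul _ c z)))

/-- A character whose values at the generators lie in a subring takes all its values there. -/
theorem exists_char_factor {N : ℕ} [NeZero N] {S : Set ℕ} {A K : Type} [CommRing A] [CommRing K]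
    (j : A →+* K) (hj : Function.Injective j) (χ : CuspForm.heckeAlgebra N 2 S →+* K)
    (hT : ∀ (l : ℕ) (hl : l.Prime) (hlN : ¬ l ∣ N) (hlS : l ∉ S),
      χ (CuspForm.heckeAlgebra.T hl hlN hlS) ∈ j.range)
    (hU : ∀ (l : ℕ) (hl : l.Prime) (hlN : l ∣ N) (hlS : l ∉ S),
      χ (CuspForm.heckeAlgebra.U hl hlN hlS) ∈ j.range) :
    ∃ χ' : CuspForm.heckeAlgebra N 2 S →+* A, j.comp χ' = χ := by
  have hmem : ∀ t, χ t ∈ j.range := fun t => by
    refine Algebra.adjoin_induction (p := fun y hy => χ ⟨y, hy⟩ ∈ j.range) ?_ ?_ ?_ ?_ t.2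
    · rintro x (⟨l, hl, hlN, hlS, rfl⟩ | ⟨q, hqN, hq, hqS, rfl⟩)
      · exact hT l hl hlN hlS
      · exact hU q hq hqN hqS
    · exact fun m => ⟨m, by
        rw [map_intCast, ← eq_intCast ((χ.comp (algebraMap ℤ _))) m]; rfl⟩
    · exact fun x y hx hy h h' => (map_add χ ⟨x, hx⟩ ⟨y, hy⟩).symm ▸ add_mem h h'
    · exact fun x y hx hy h h' => (map_mul χ ⟨x, hx⟩ ⟨y, hy⟩).symm ▸ mul_mem h h'
  choose f hf using hmem
  exact ⟨{ toFun := f
           map_one' := hj (by rw [hf, map_one, map_one])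
           map_mul' := fun x y => hj (by rw [hf, map_mul, map_mul, hf, hf])
           map_zero' := hj (by rw [hf, map_zero, map_zero])
           map_add' := fun x y => hj (by rw [hf, map_add, map_add, hf, hf]) },
    RingHom.ext hf⟩

namespace PatchG

variable {O : RepTheory.FiniteDVRExt ℤ_[2]} {E : WeierstrassCurve ℤ} {L₀ k m : ℕ}
  {qt : Fin k → ℕ}

theorem two_mem_coeff : (2 : O.R) ∈ maximalIdeal O.R := by
  have := map_nonunit (algebraMap ℤ_[2] O.R) ((2 : ℕ) : ℤ_[2]) (by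
    rw [PadicInt.maximalIdeal_eq_span_p]
    exact Ideal.mem_span_singleton_self _)
  rwa [map_natCast, Nat.cast_two] at this

/-- An auxiliary prime: one modulo `M`, with odd trace, good for the level. -/
theorem exists_auxPrime (hE : Companion E) (L₀ L M : ℕ) [NeZero M] (hL : L ≠ 0) (hLL : L₀ ∣ L) :
    ∃ l : ℕ, l.Prime ∧ l ≠ 2 ∧ ¬ l ∣ L ∧ ¬ l ∣ 2 * L₀ ∧ (l : ZMod M) = 1 ∧
      Odd (E.apOfModel l) := by
  obtain ⟨l, hl, hlS, hl2, -, hlM, hodd⟩ :=
    exists_prime_one_mod_odd_trace hE M (2 * L).primeFactors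
  have hlL : ¬ l ∣ L := fun h => hlS (Nat.mem_primeFactors.mpr
    ⟨hl, h.mul_left 2, mul_ne_zero two_ne_zero hL⟩)
  exact ⟨l, hl, hl2, hlL, fun h => (hl.dvd_mul.mp h).elim
    (fun h2 => hl2 ((Nat.prime_dvd_prime_iff_eq hl Nat.prime_two).mp h2))
    fun h2 => hlL (h2.trans hLL), hlM, hodd⟩

/-- The level module has a finite basis. -/
theorem exists_twMod_basis (hE : Companion E) (ω : O.R) [NeZero (twLev k L₀ qt)] {p : ℕ}
    (hp : p.Prime) (hpL : p ∣ L₀) (hp4 : p % 4 = 3) :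
    ∃ d, Nonempty (Module.Basis (Fin d) (DiaRing O.R k m) (twMod O.R k m L₀ qt E L₀ ω)) := by
  obtain ⟨l, hl, -, hlL, hlg, -, hodd⟩ :=
    exists_auxPrime hE L₀ (twLev k L₀ qt) 1 (NeZero.ne _) (dvd_mul_right L₀ _)
  obtain ⟨hfree, hfin⟩ := free_twMod O.R k m L₀ qt E L₀ two_mem_coeff hp hpL hp4 ω
    (⟨l, hl, hlg⟩ : GoodIdx L₀) hlL
    fun h => (Int.not_even_iff_odd.mpr hodd) (even_iff_two_dvd.mpr h)
  exact ⟨_, ⟨Module.finBasis _ _⟩⟩

set_option maxHeartbeats 2000000 in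
-- the operators of the level module
/-- The eigenclass of a point of `twH`, in the form used for the classical system. -/
theorem exists_twH_class (hE : Companion E) (ω : O.R) [NeZero (twLev k L₀ qt)] {p : ℕ}
    (hp : p.Prime) (hpL : p ∣ L₀) (hp4 : p % 4 = 3) (A : RepTheory.FiniteDVRExt O.R)
    (ψ : twH O.R k m L₀ qt E L₀ ω →ₐ[O.R] A.R) (φ₀ : DiaRing O.R k m →+* A.R)
    (hφ₀ : ∀ r, φ₀ r = ψ (algebraMap (DiaRing O.R k m) _ r)) :
    ∃ (A' : RepTheory.FiniteDVRExt A.R) (c : ℕ → A'.R)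
      (z : tH1 (gamChar (charMap ((algebraMap A.R A'.R).comp φ₀) (twChar O.R k m L₀ qt))) A'.R),
      (∀ a : A'.R, a • z = 0 → a = 0) ∧
      (∀ r : ℕ, r.Prime → algebraMap A.R A'.R (φ₀ (twKap O.R k m qt r : DiaRing O.R k m)) •
        (natHecke (charMap ((algebraMap A.R A'.R).comp φ₀) (twChar O.R k m L₀ qt)) r).app A'.R z =
          c r • z) ∧
      (∀ r : ℕ, r.Prime → r ≠ 2 → (∀ i, qt i ≠ r) →
        c r = algebraMap A.R A'.R (ψ (twGen O.R k m L₀ qt E L₀ ω r))) ∧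
      ∀ r : ℕ, r.Prime → ¬ r ∣ 2 * L₀ → (∀ i, qt i ≠ r) →
        c r - (E.apOfModel r : A'.R) ∈ maximalIdeal A'.R := by
  obtain ⟨d, ⟨b⟩⟩ := exists_twMod_basis (m := m) (qt := qt) hE ω hp hpL hp4
  obtain ⟨A', φ, c, z, hφ, htf, heig, hcT, -, hcres⟩ := exists_twH_pointClass O.R k m L₀ qt E L₀ ω
    b two_mem_coeff hp hpL hp4 A ψ.toRingHom fun a => ψ.commutes a
  obtain rfl : φ = (algebraMap A.R A'.R).comp φ₀ :=
    hφ.trans (RingHom.ext fun r => congrArg (algebraMap A.R A'.R) (hφ₀ r).symm)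
  refine ⟨A', c, z, htf, heig, fun r hr h2 hq => hcT r ⟨hr, h2, hq⟩, fun r hr hg hq => ?_⟩
  have h := hcres ⟨r, hr, hg⟩
  rwa [levVal, if_neg (fun ⟨i, _, hi⟩ => hq i hi), map_intCast, map_intCast] at h

set_option maxHeartbeats 4000000 in
-- the transport of the class to the field of fractions
/-- The classical system of a class: `t` gives its eigenvalues outside the auxiliary primes. -/
theorem exists_classical_of_class (hE : Companion E) (hL₀sq : Squarefree L₀) (hL₀2 : ¬ 2 ∣ L₀)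
    (hinj : Function.Injective qt) (hqp : ∀ i, (qt i).Prime) (hnd : ∀ i, ¬ qt i ∣ 2 * L₀)
    [NeZero (twLev k L₀ qt)] (A : RepTheory.FiniteDVRExt O.R) (φ₀ : DiaRing O.R k m →+* A.R)
    (t : ℕ → A.R) (A' : RepTheory.FiniteDVRExt A.R) (c : ℕ → A'.R)
    (z : tH1 (gamChar (charMap ((algebraMap A.R A'.R).comp φ₀) (twChar O.R k m L₀ qt))) A'.R)
    (htf : ∀ a : A'.R, a • z = 0 → a = 0)
    (heig : ∀ r : ℕ, r.Prime → algebraMap A.R A'.R (φ₀ (twKap O.R k m qt r : DiaRing O.R k m)) •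
      (natHecke (charMap ((algebraMap A.R A'.R).comp φ₀) (twChar O.R k m L₀ qt)) r).app A'.R z =
        c r • z)
    (hcT : ∀ r : ℕ, r.Prime → r ≠ 2 → (∀ i, qt i ≠ r) → c r = algebraMap A.R A'.R (t r))
    (hcres : ∀ r : ℕ, r.Prime → ¬ r ∣ 2 * L₀ → (∀ i, qt i ≠ r) →
      c r - (E.apOfModel r : A'.R) ∈ maximalIdeal A'.R) :
    ∃ (N : ℕ) (_ : NeZero N) (quad : Finset ℕ), quad ⊆ Finset.univ.image qt ∧ Odd N ∧
      twLev k L₀ qt ∣ N ∧
      (∀ l : ℕ, l.Prime → l ∣ N → l ∣ twLev k L₀ qt) ∧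
      (∀ v : ℕ, v.Prime → v ∣ L₀ → ¬ v * v ∣ N) ∧
      (∀ q ∈ quad, ∀ u, φ₀ (twEps O.R k m qt q u : DiaRing O.R k m) ^ 2 = 1) ∧
      (∀ l : ℕ, l.Prime → ¬ l ∣ 2 * L₀ → (∀ i, qt i ≠ l) →
        t l - (E.apOfModel l : A.R) ∈ maximalIdeal A.R) ∧
      ∃ χ : CuspForm.heckeAlgebra N 2 (↑(insert 2 (Finset.univ.image qt)) : Set ℕ) →+* A.R,
        (∀ (l : ℕ) (hl : l.Prime) (hlN : ¬ l ∣ N) (hlS : l ∉ _),
          χ (CuspForm.heckeAlgebra.T hl hlN hlS) =
            φ₀ (kap quad (twEps O.R k m qt) l : DiaRing O.R k m) * t l) ∧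
        ∀ (l : ℕ) (hl : l.Prime) (hlN : l ∣ N) (hlS : l ∉ _),
          χ (CuspForm.heckeAlgebra.U hl hlN hlS) =
            φ₀ (kap quad (twEps O.R k m qt) l : DiaRing O.R k m) * t l := by
  classical
  have hLsq : Squarefree (twLev k L₀ qt) := by
    rw [twLev, Nat.squarefree_mul_iff]
    refine ⟨Nat.Coprime.prod_right fun i _ => ((hqp i).coprime_iff_not_dvd.mpr
      fun h => hnd i (h.mul_left 2)).symm, hL₀sq,
      Finset.squarefree_prod_of_pairwise_isCoprime (fun a _ b _ hab => ?_)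
        fun i _ => (hqp i).squarefree⟩
    exact Nat.coprime_iff_isRelPrime.mp
      ((Nat.coprime_primes (hqp a) (hqp b)).mpr fun h => hab (hinj h))
  have hLodd : Odd (twLev k L₀ qt) := by
    rw [← Nat.not_even_iff_odd, even_iff_two_dvd, twLev, Nat.prime_two.dvd_mul]
    rintro (h | h)
    · exact hL₀2 h
    · obtain ⟨i, -, h⟩ := (Nat.prime_two.prime.dvd_finsetProd_iff _).mp h
      exact hnd i ((Nat.prime_dvd_prime_iff_eq Nat.prime_two (hqp i)).mp h ▸ dvd_mul_right 2 _)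
  have hQ₀ : ∀ q ∈ Finset.univ.image qt, q.Prime ∧ q ∣ twLev k L₀ qt := fun q hq => by
    obtain ⟨i, -, rfl⟩ := Finset.mem_image.mp hq
    exact ⟨hqp i, dvd_twLev k L₀ qt i⟩
  obtain ⟨M, hMdef⟩ : ∃ M, M = 2 * (twLev k L₀ qt * ∏ q ∈ Finset.univ.image qt, q) := ⟨_, rfl⟩
  have hM0 : NeZero M := ⟨by
    rw [hMdef]
    exact mul_ne_zero two_ne_zero (mul_ne_zero (NeZero.ne _)
      (Finset.prod_ne_zero_iff.mpr fun q hq => (hQ₀ q hq).1.ne_zero))⟩
  obtain ⟨l₀, hl₀, hl₀2, hl₀L, hl₀good, hl₀M, hl₀odd⟩ :=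
    exists_auxPrime hE L₀ (twLev k L₀ qt) M (NeZero.ne _) (dvd_mul_right L₀ _)
  let a : A.R →+* A'.R := algebraMap A.R A'.R
  have hrefl : ∀ x, a x ∈ maximalIdeal A'.R → x ∈ maximalIdeal A.R := fun x h =>
    (mem_maximalIdeal _).mpr fun hu => (mem_maximalIdeal _).mp h (hu.map a)
  have hcong : ∀ l : ℕ, l.Prime → ¬ l ∣ 2 * L₀ → (∀ i, qt i ≠ l) →
      t l - (E.apOfModel l : A.R) ∈ maximalIdeal A.R := by
    intro l hl hlg hlq
    refine hrefl _ ?_
    rw [map_sub, map_intCast, ← hcT l hl (fun e => hlg (e ▸ dvd_mul_right 2 L₀)) hlq]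
    exact hcres l hl hlg hlq
  -- over the field of fractions
  let K := FractionRing A'.R
  let ι : A'.R →+* K := algebraMap A'.R K
  have hι : Function.Injective ι := IsFractionRing.injective A'.R K
  obtain ⟨z', hz', heig'⟩ := exists_fieldClass ι hι htf
  let jA : A.R →+* K := ι.comp a
  have hjA : Function.Injective jA := hι.comp A'.injective
  let εK : ∀ q : ℕ, (ZMod q)ˣ →* Kˣ := fun q => charMap (ι.comp (a.comp φ₀)) (twEps O.R k m qt q)
  have hchi : charMap ι (charMap (a.comp φ₀) (twChar O.R k m L₀ qt)) =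
      sigProd (twLev k L₀ qt) (Finset.univ.image qt) εK := by
    rw [show charMap ι (charMap (a.comp φ₀) (twChar O.R k m L₀ qt)) =
      charMap (ι.comp (a.comp φ₀)) (twChar O.R k m L₀ qt) from MonoidHom.ext fun x => Units.ext rfl,
      twChar, charMap_sigProd]
  have hkapφ : ∀ (s : Finset ℕ) l,
      (kap s εK l : K) = jA (φ₀ (kap s (twEps O.R k m qt) l : DiaRing O.R k m)) := fun s l => by
    rw [coe_kap_charMap]
    rfl
  have hz₁ : (tH1Cast (V := K) hchi z') ≠ 0 := fun h =>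
    hz' ((tH1Cast (V := K) hchi).map_eq_zero_iff.mp h)
  have hT : ∀ l : ℕ, l.Prime → (kap (Finset.univ.image qt) εK l : K) •
      (natHecke (sigProd (twLev k L₀ qt) (Finset.univ.image qt) εK) l).app K
        (tH1Cast (V := K) hchi z') = ι (c l) • tH1Cast (V := K) hchi z' := fun l hl => by
    rw [coe_kap_charMap, ← tH1Cast_natHecke]
    exact (map_smul (tH1Cast (V := K) hchi) _ _).symm.trans
      ((congrArg (tH1Cast (V := K) hchi) (heig' l _ _ (heig l hl))).trans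
        (map_smul (tH1Cast (V := K) hchi) _ _))
  let quad := (Finset.univ.image qt).filter fun q => εK q ^ 2 = 1
  have hc0 : ι (c l₀) ≠ (l₀ : K) + 1 := by
    intro h
    have hlq : ∀ i, qt i ≠ l₀ := fun i e => hl₀L (e ▸ dvd_twLev k L₀ qt i)
    rw [hcT l₀ hl₀ hl₀2 hlq, ← map_natCast ι, ← map_one ι, ← map_add] at h
    have h1 := hcong l₀ hl₀ hl₀good hlq
    have h' : t l₀ = (l₀ : A.R) + 1 := A'.injective (by
      rw [map_add, map_natCast, map_one]; exact hι h)
    rw [h'] at h1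
    have h2A : ((2 : ℕ) : A.R) ∈ maximalIdeal A.R := two_mem_maximalIdeal A
    obtain ⟨w', hw'⟩ : ∃ w : ℤ, (l₀ : ℤ) + 1 - E.apOfModel l₀ = 2 * w + 1 := by
      obtain ⟨u, hu⟩ := hl₀.odd_of_ne_two hl₀2
      obtain ⟨w, hw⟩ := hl₀odd
      exact ⟨u - w, by rw [hw, hu]; push_cast; ring⟩
    refine (maximalIdeal.isMaximal A.R).ne_top ((Ideal.eq_top_iff_one _).mpr ?_)
    have ht' := congrArg (Int.cast : ℤ → A.R) hw'
    push_cast at ht'
    rw [show (1 : A.R) = ((l₀ : A.R) + 1 - (E.apOfModel l₀ : A.R)) - (2 : ℕ) * (w' : A.R) by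
      rw [ht']; push_cast; ring]
    exact sub_mem h1 (Ideal.mul_mem_right _ _ h2A)
  obtain ⟨N, hN, hLN, hNL, hexact, χK, hχT, hχU⟩ := exists_classicalSystem hLsq
    (Finset.univ.image qt) hQ₀ εK hz₁ (fun l => ι (c l)) hT hl₀ hl₀L
    (hMdef ▸ dvd_mul_left _ 2) hl₀M hc0 quad fun q => Finset.mem_filter
  have hNodd : Odd N := by
    rw [← Nat.not_even_iff_odd, even_iff_two_dvd]
    exact fun h => (Nat.not_even_iff_odd.mpr hLodd) (even_iff_two_dvd.mpr (hNL 2 Nat.prime_two h))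
  let χS := χK.comp (Subalgebra.inclusion (CuspForm.heckeAlgebra_mono (N := N) (k := 2)
    (S := ↑(Finset.univ.image qt)) (S' := ↑(insert 2 (Finset.univ.image qt)))
    (Finset.coe_subset.mpr (Finset.subset_insert _ _)))).toRingHom
  have hmem : ∀ l : ℕ, l.Prime → l ∉ (↑(insert 2 (Finset.univ.image qt)) : Set ℕ) →
      (kap quad εK l : K) * ι (c l) =
        jA (φ₀ (kap quad (twEps O.R k m qt) l : DiaRing O.R k m) * t l) := fun l hl hlS => by
    rw [Finset.mem_coe, Finset.mem_insert, not_or] at hlS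
    rw [hcT l hl hlS.1 (fun i e => hlS.2 (Finset.mem_image.mpr ⟨i, Finset.mem_univ _, e⟩)),
      hkapφ, map_mul]
    rfl
  have hT' : ∀ (l : ℕ) (hl : l.Prime) (hlN : ¬ l ∣ N) (hlS : l ∉ _),
      χS (CuspForm.heckeAlgebra.T hl hlN hlS) =
        jA (φ₀ (kap quad (twEps O.R k m qt) l : DiaRing O.R k m) * t l) := fun l hl hlN hlS =>
    (hχT l hl hlN fun h => hlS (Finset.mem_coe.mpr (Finset.mem_insert_of_mem h))).trans
      (hmem l hl hlS)
  have hU' : ∀ (l : ℕ) (hl : l.Prime) (hlN : l ∣ N) (hlS : l ∉ _),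
      χS (CuspForm.heckeAlgebra.U hl hlN hlS) =
        jA (φ₀ (kap quad (twEps O.R k m qt) l : DiaRing O.R k m) * t l) := fun l hl hlN hlS =>
    (hχU l hl hlN fun h => hlS (Finset.mem_coe.mpr (Finset.mem_insert_of_mem h))).trans
      (hmem l hl hlS)
  obtain ⟨χ, hχ⟩ := exists_char_factor jA hjA χS (fun l hl hlN hlS => ⟨_, (hT' l hl hlN hlS).symm⟩)
    fun l hl hlN hlS => ⟨_, (hU' l hl hlN hlS).symm⟩
  refine ⟨N, hN, quad, Finset.filter_subset _ _, hNodd, hLN, hNL,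
    fun v hv hvd => hexact v hv (hvd.mul_right _) fun h => ?_, fun q hq u => ?_, hcong, χ,
    fun l hl hlN hlS => hjA ((RingHom.congr_fun hχ _).trans (hT' l hl hlN hlS)),
    fun l hl hlN hlS => hjA ((RingHom.congr_fun hχ _).trans (hU' l hl hlN hlS))⟩
  · obtain ⟨i, -, rfl⟩ := Finset.mem_image.mp h
    exact hnd i (hvd.mul_left 2)
  · refine hjA ?_
    have h := congrArg Units.val (DFunLike.congr_fun (Finset.mem_filter.mp hq).2 u)
    rw [map_pow, map_one]
    rw [MonoidHom.pow_apply, Units.val_pow_eq_pow_val, MonoidHom.one_apply, Units.val_one] at h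
    refine Eq.trans ?_ h
    rw [show εK q u = Units.map (ι.comp (a.comp φ₀) : DiaRing O.R k m →* K)
      (twEps O.R k m qt q u) from rfl, Units.coe_map]
    rfl

end PatchG

end FLTA.LT2

end
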