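import Fermat.Agent.HeckeDatum.Flat32
import Fermat.Agent.GaloisReps.TateConstruct
import Fermat.Agent.RepTheory.DVRExtension
import Fermat.Agent.S19

/-!
# Part G: the representation of a point at odd level is flat at `2`

A residually absolutely irreducible representation with the Frobenius polynomials of a character of
the weight two Hecke algebra at level `N` is flat at every prime `p ∤ N`: the `p`-power torsion of
`J₀(N)` has finite flat models. This includes `p = 2`.
-/

set_option autoImplicit false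

noncomputable section

open IsLocalRing Polynomial

namespace FLTA.LT2.PatchG

local notation "Γℚ" => AlgebraicClosure ℚ ≃ₐ[ℚ] AlgebraicClosure ℚ

/-- The representation of a Hecke character at level `N` is flat at `p ∤ N`. -/
theorem isFlatAt_of_heckeCharacter {p : ℕ} [Fact p.Prime] {N : ℕ} [NeZero N] (hpN : ¬ p ∣ N)
    {S : Finset ℕ} (hpS : p ∈ S) (hNS : ∀ q : ℕ, q.Prime → q ∣ N → q ∈ S)
    {A : Type} [CommRing A] [IsLocalRing A] [Finite (ResidueField A)]
    (hpA : (p : A) ∈ maximalIdeal A) (χ : CuspForm.heckeAlgebra N 2 (↑S : Set ℕ) →+* A)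
    (ρ : GaloisRepAdic A)
    (hfrob : ∀ (l : ℕ) (hl : l.Prime) (hlN : ¬ l ∣ N) (hlS : l ∉ (↑S : Set ℕ)),
      ∀ P : ValuationSubring (AlgebraicClosure ℚ), P.LiesOverPrime l →
        ∀ τ : Γℚ, P.IsFrobeniusAt τ l →
          LinearMap.charpoly (ρ.ρ τ) =
            X ^ 2 - C (χ (CuspForm.heckeAlgebra.T hl hlN hlS)) * X + C (l : A))
    (hirr : ρ.residual.IsAbsolutelyIrreducible) : ρ.IsFlatAt p := by
  obtain ⟨D⟩ := FLTA.GaloisReps.exists_tateData N p
  exact FLTA.HeckeDatum.isFlatAt_of_charpoly D inferInstance hpA hpS hNS χ ρ hfrob hirr fun k =>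
    FLTA.HeckeDatum.isHopfFlat_torsion N p _ (Fermat.Agent.S19.result N p hpN k)

/-- The representation of a point at odd level is flat at `2`. -/
theorem isFlatAt_two_pointRep {O : RepTheory.FiniteDVRExt ℤ_[2]}
    (A : RepTheory.FiniteDVRExt O.R) {L : ℕ} [NeZero L] (hL : Odd L) {S : Finset ℕ} (h2S : 2 ∈ S)
    (hLS : ∀ q : ℕ, q.Prime → q ∣ L → q ∈ S)
    (χ : CuspForm.heckeAlgebra L 2 (↑S : Set ℕ) →+* A.R) (ρ : GaloisRepAdic A.R)
    (hfrob : ∀ (l : ℕ) (hl : l.Prime) (hlL : ¬ l ∣ L) (hlS : l ∉ (↑S : Set ℕ)),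
      ∀ P : ValuationSubring (AlgebraicClosure ℚ), P.LiesOverPrime l →
        ∀ τ : Γℚ, P.IsFrobeniusAt τ l →
          LinearMap.charpoly (ρ.ρ τ) =
            X ^ 2 - C (χ (CuspForm.heckeAlgebra.T hl hlL hlS)) * X + C (l : A.R))
    (hirr : ρ.residual.IsAbsolutelyIrreducible) : ρ.IsFlatAt 2 := by
  have h2 : ((2 : ℕ) : A.R) ∈ maximalIdeal A.R := by
    rw [← map_natCast ((algebraMap O.R A.R).comp (algebraMap ℤ_[2] O.R))]
    refine map_nonunit (algebraMap O.R A.R) _ (map_nonunit (algebraMap ℤ_[2] O.R) _ ?_)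
    rw [PadicInt.maximalIdeal_eq_span_p]
    exact Ideal.mem_span_singleton_self _
  have : Fact (Nat.Prime 2) := ⟨Nat.prime_two⟩
  exact isFlatAt_of_heckeCharacter (p := 2) (fun h => (Nat.not_even_iff_odd.mpr hL)
    (even_iff_two_dvd.mpr h)) h2S hLS h2 χ ρ hfrob hirr

end FLTA.LT2.PatchG

end
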