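import Fermat.Agent.LT2.PointsSpecial
import Fermat.Agent.LT2.TraceTransfer
import Fermat.Agent.RT.RaiseBase
import Fermat.Agent.RT.RaiseResidual
import Fermat.Agent.RT.AtP.NewClass
import Fermat.Agent.RT.Main.ModulesPointStrictTwist
import Fermat.Agent.RT.DiscOld

/-!
# The equations `SignEqAt` at a prime where `U_q` is a sign

For `q ∤ N` a parabolic class of level `N q` in characteristic zero with `U_q = ± 1` is killed by
both traces to level `N`, as `T_q ^ 2 - (q + 1) ^ 2` is injective there, so `w = - U_q` on it.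
Hence the representation of a character `χ` of the Hecke algebra of level `N q` with
`χ (U_q) = s`, `s = ± 1`, satisfies `SignEqAt ρ q s`.
-/

set_option autoImplicit false
set_option synthInstance.maxHeartbeats 400000

noncomputable section

open Polynomial IsLocalRing CongruenceSubgroup ModularCurve AlgebraicCurve
open scoped Matrix
open FLTA.GaloisReps
open FLTA.Gamma0 (homRank homPar0 homPar0Equiv IsParHom0)
open FLTA.Periods (heckeHom)
open FLTA.Kummer (JTors kummerEquiv)
open FLTA.LevelRaising (alRes corRes inclRes conjRes)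

namespace FLTA.LT2

variable {N q : ℕ} [NeZero N] [NeZero q] [hq : Fact q.Prime]

/-- A class with `U_q = ± 1` is killed by both traces and `w = - U_q` on it. -/
theorem traces_eq_zero_of_sign (hqN : ¬ q ∣ N) (hc : Nat.Coprime q N) {R : Type} [CommRing R]
    [IsDomain R] [CharZero R] {u : Additive (Gamma0 (N * q)) →+ R}
    (hu : IsParHom0 (Gamma0 (N * q)) u) {s : ℤ} (hs : s = 1 ∨ s = -1)
    (hU : heckeHom R (N * q) q u = (s : R) • u) :
    corRes u = (0 : Additive (Gamma0 N) →+ R) ∧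
      corRes (alRes hc u) = (0 : Additive (Gamma0 N) →+ R) ∧
      alRes hc u = -((s : R) • u) := by
  have hpar := LevelRaising.isParabolicHom_of_isParHom0 hu
  have := Fintype.ofFinite (Gamma0 N ⧸ (Gamma0 (N * q)).subgroupOf (Gamma0 N))
  have hs2 : (s : R) * s = 1 := by rcases hs with rfl | rfl <;> simp
  have hcor : ∀ (c : R) (z : Additive (Gamma0 (N * q)) →+ R),
      (corRes (c • z) : Additive (Gamma0 N) →+ R) = c • corRes z := fun c z => by
    refine AddMonoidHom.ext fun g => ?_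
    simp [corRes, FLTA.Gamma0.corHom, finsum_eq_sum_of_fintype, Finset.mul_sum]
  set y : Additive (Gamma0 N) →+ R := corRes (alRes hc u) with hy
  have hy0 : IsParHom0 (Gamma0 N) y :=
    FLTA.Gamma0.corHom_isParHom0 (LevelRaising.isParHom0_alRes hc hu)
  have hincl : inclRes N q y = (s : R) • u + alRes hc u := by
    rw [hy, LevelRaising.inclRes_corRes_alRes (𝕜 := R) hqN hc hpar, hU]
  have hconj : conjRes N q y = (s : R) • inclRes N q y := by
    rw [← LevelRaising.alRes_inclRes hc y, hincl]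
    refine AddMonoidHom.ext fun g => ?_
    show (s : R) * alRes hc u g + alRes hc (alRes hc u) g = (s : R) * ((s : R) * u g + alRes hc u g)
    rw [LevelRaising.alRes_alRes hc u]
    linear_combination (-(u g)) * hs2
  have hT : heckeHom R N q y = ((s : R) * ((q : R) + 1)) • y := by
    rw [← LevelRaising.corRes_conjRes R hqN (LevelRaising.isParabolicHom_of_isParHom0 hy0), hconj,
      hcor, LevelRaising.corRes_inclRes hqN, ← Nat.cast_smul_eq_nsmul R, smul_smul, Nat.cast_succ]
  have hy' : y = 0 := RT.eq_zero_of_heckeHom_sq hq.out hqN hy0 (by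
    rw [hT, map_smul, hT, smul_smul]
    congr 1
    linear_combination ((q : R) + 1) ^ 2 * hs2)
  have hw : alRes hc u = -((s : R) • u) := by
    refine eq_neg_of_add_eq_zero_right ?_
    rw [← hincl, hy']
    exact AddMonoidHom.ext fun _ => rfl
  refine ⟨?_, hy', hw⟩
  have h : y = -((s : R) • corRes u) := by
    rw [hy, hw, ← neg_smul, hcor, neg_smul]
  have h' : (s : R) • (corRes u : Additive (Gamma0 N) →+ R) = 0 := neg_eq_zero.mp (h ▸ hy')
  calc (corRes u : Additive (Gamma0 N) →+ R) = ((s : R) * s) • corRes u := by rw [hs2, one_smul]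
    _ = 0 := by rw [mul_smul, h', smul_zero]

/-- Vanishing traces in the form used for the pushforwards. -/
theorem sum_transCocyc_eq_zero_of_cor (hc : Nat.Coprime q N) {R : Type} [CommRing R] [IsDomain R]
    (u : Additive (Gamma0 (N * q)) →+ R) (h0 : corRes u = (0 : Additive (Gamma0 N) →+ R))
    (h1 : corRes (alRes hc u) = (0 : Additive (Gamma0 N) →+ R)) (b : Bool) (γ : Gamma0 N) :
    ∑ i, u (Additive.ofMul
      (RT.Disc.transCocyc hc dvd_rfl (RT.Disc.isTrans_sideTrans (q := q) hc b) γ i)) = 0 := by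
  have := RT.Disc.finite_index_gamma0 N q
  have := Fintype.ofFinite (Gamma0 N ⧸ (Gamma0 (N * q)).subgroupOf (Gamma0 N))
  let K := FractionRing R
  let ι : R →+ K := (algebraMap R K).toAddMonoidHom
  have hι : Function.Injective ι := IsFractionRing.injective R K
  have hcomp : ∀ z : Additive (Gamma0 (N * q)) →+ R,
      (corRes (ι.comp z) : Additive (Gamma0 N) →+ K) = ι.comp (corRes z) := fun z => by
    refine AddMonoidHom.ext fun g => ?_
    simp [corRes, FLTA.Gamma0.corHom, finsum_eq_sum_of_fintype]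
  set χ : (ZMod N)ˣ →* Kˣ := 1 with hχ
  have htriv : ∀ γ (v : K), (RT.gamChar χ γ : K) • v = v := RT.triv_one (O := K) N
  obtain ⟨x, hx⟩ :=
    (RT.tH1EquivHom (RT.triv_chiUp (q := q) χ htriv)).surjective (ι.comp u)
  have hdeg : ∀ l, RT.degDown hc χ K l x = 0 := by
    intro l
    refine (RT.tH1EquivHom htriv).injective ?_
    rw [map_zero]
    fin_cases l
    · show RT.tH1EquivHom htriv (RT.degCor χ K x) = 0
      rw [RT.tH1EquivHom_degCor χ htriv, hx, hcomp, h0, AddMonoidHom.comp_zero]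
    · show RT.tH1EquivHom htriv (RT.degCor χ K (RT.degAL χ K hc x)) = 0
      rw [RT.tH1EquivHom_degCor χ htriv, RT.tH1EquivHom_degAL χ htriv hc, hx,
        show alRes hc (ι.comp u) = ι.comp (alRes hc u) from rfl, hcomp, h1, AddMonoidHom.comp_zero]
  refine hι ?_
  rw [map_sum, map_zero]
  have h := RT.Disc.sum_transCocyc_eq_zero hc χ htriv (RT.triv_chiUp (q := q) χ htriv) dvd_rfl _ x
    (RT.Disc.trSys_op_eq_zero hc dvd_rfl (RT.Disc.isTrans_sideTrans (q := q) hc b) χ x hdeg) γ
  rw [hx] at h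
  exact h

variable {p : ℕ} [Fact p.Prime]

local instance instNeZeroPowSign (k : ℕ) : NeZero (p ^ k) :=
  ⟨pow_ne_zero _ (Fact.out (p := p.Prime)).ne_zero⟩

/-- The point with the reductions of `ρ σ c` as coordinates is the Galois conjugate. -/
theorem coe_torsPoint_tateRho {M : ℕ} [NeZero M] (σ : GalQ) (k : ℕ)
    (c : Fin (homRank M) → ℤ_[p]) :
    ((RT.torsPoint M k (tateRho M p σ *ᵥ c) : JTors M (p ^ k)) : JZero M) =
      σ • (RT.torsPoint M k c : JZero M) := by
  have h : torsCoord M (p ^ k) (RT.torsPoint M k (tateRho M p σ *ᵥ c)) =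
      torsCoord M (p ^ k) (JZero.torsionGaloisRep M (p ^ k) σ (RT.torsPoint M k c)) := by
    rw [← galMat_mulVec, RT.torsCoord_torsPoint, RT.torsCoord_torsPoint]
    funext i
    rw [RingHom.map_mulVec, map_tateRho]
    rfl
  rw [(torsCoord M (p ^ k)).injective h]
  rfl

variable {O : Type} [CommRing O] [IsDomain O] [IsDiscreteValuationRing O]
  [IsAdicComplete (maximalIdeal O) O] [CharZero O] [Algebra ℤ_[p] O] [Module.Finite ℤ_[p] O]

/-- The point of `J₀(M)[p ^ k]` of a functional on a vector. -/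
def funPoint (M : ℕ) [NeZero M] (f : O →ₗ[ℤ_[p]] ℤ_[p]) (k : ℕ) :
    (Fin (homRank M) → O) →+ JTors M (p ^ k) :=
  AddMonoidHom.mk' (fun w => RT.torsPoint M k fun i => f (w i)) fun v w =>
    (torsCoord M (p ^ k)).injective (by
      rw [map_add, RT.torsCoord_torsPoint, RT.torsCoord_torsPoint, RT.torsCoord_torsPoint]
      funext i
      simp)

omit [IsDomain O] [IsDiscreteValuationRing O] [IsAdicComplete (maximalIdeal O) O] [CharZero O]
  [Module.Finite ℤ_[p] O] in
theorem funPoint_apply (M : ℕ) [NeZero M] (f : O →ₗ[ℤ_[p]] ℤ_[p]) (k : ℕ)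
    (w : Fin (homRank M) → O) : funPoint M f k w = RT.torsPoint M k fun i => f (w i) :=
  rfl

omit [IsDiscreteValuationRing O] [IsAdicComplete (maximalIdeal O) O] [Module.Finite ℤ_[p] O] in
/-- A vector on which `U_q = s`: its points are killed by both pushforwards and `w = - s`. -/
theorem funPoint_facts (hqN : ¬ q ∣ N) {s : ℤ} (hs : s = 1 ∨ s = -1)
    (w : Fin (homRank (N * q)) → O)
    (hw : (heckeMat (N * q) (uOp N q)).map (Int.cast : ℤ → O) *ᵥ w = (s : O) • w)
    (f : O →ₗ[ℤ_[p]] ℤ_[p]) (k : ℕ) :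
    Carayol.pushAlpha N q (funPoint (N * q) f k w : JZero (N * q)) = 0 ∧
      Carayol.pushBeta N q (funPoint (N * q) f k w : JZero (N * q)) = 0 ∧
      swapAut N q hqN • (funPoint (N * q) f k w : JZero (N * q)) =
        -(s • (funPoint (N * q) f k w : JZero (N * q))) := by
  have hc : Nat.Coprime q N := coprime_of_not_dvd N q hqN
  let u : homPar0 ℤ (Gamma0 (N * q)) O := (homPar0Equiv (N * q) ℤ O).symm w
  have he : homPar0Equiv (N * q) ℤ O u = w := LinearEquiv.apply_symm_apply _ _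
  have huU : heckeHom O (N * q) q u.1 = (s : O) • u.1 := by
    rw [FLTA.Periods.heckeHom_eq_int O, Int.cast_smul_eq_zsmul]
    let φ' : homPar0 ℤ (Gamma0 (N * q)) O :=
      ⟨heckeHom ℤ (N * q) q u.1, FLTA.Periods.heckeHom_mem_homPar0 ℤ q u.2⟩
    have h1 : homPar0Equiv (N * q) ℤ O φ' = (s : O) • w := by
      rw [← latMat_mulVec_heckeHom (M := Periods.heckeQuot (N * q) (uOp N q))
        (LevelRaising.heckeQuot_comp_parMk (uOp N q)
          (Periods.periodHomPair_heckeULin (dvd_mul_left q N))) u φ' rfl, he]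
      exact hw
    have h2 : φ' = s • u := (homPar0Equiv (N * q) ℤ O).injective (by
      rw [h1, map_zsmul, he, Int.cast_smul_eq_zsmul])
    exact congrArg Subtype.val h2
  obtain ⟨hc0, hc1, hal⟩ := traces_eq_zero_of_sign hqN hc u.2 hs huU
  let g : O →+ ZMod (p ^ k) :=
    (PadicInt.toZModPow (p := p) k).toAddMonoidHom.comp f.toAddMonoidHom
  set x := funPoint (N * q) f k w with hx
  have hval : (kummerEquiv (N * q) (p ^ k) x).1 = g.comp u.1 := by
    have hχ : kummerEquiv (N * q) (p ^ k) x = FLTA.Gamma0.homPar0Map (Gamma0 (N * q)) g u := by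
      refine (homPar0Equiv (N * q) ℤ (ZMod (p ^ k))).injective ?_
      refine (RT.torsCoord_torsPoint (N * q) k _).trans (funext fun i => ?_)
      rw [FLTA.Gamma0.homPar0Equiv_apply, FLTA.Gamma0.homPar0Map_coe, AddMonoidHom.comp_apply,
        ← FLTA.Gamma0.homPar0Equiv_apply (N * q) ℤ O u i, he]
      rfl
    rw [hχ]
    exact FLTA.Gamma0.homPar0Map_coe _ _ _
  have hpush := RT.Disc.push_eq_zero_of_traces (M := N) (K := N) hc dvd_rfl hc x fun b γ => by
    show ∑ i, (kummerEquiv (N * q) (p ^ k) x).1 _ = 0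
    rw [hval]
    exact (map_sum g _ _).symm.trans ((congrArg g
      (sum_transCocyc_eq_zero_of_cor hc u.1 hc0 hc1 b γ)).trans (map_zero g))
  refine ⟨hpush.1, hpush.2, ?_⟩
  have hmem : swapEquiv N q hqN • (x : JZero (N * q)) ∈
      Pic0.torsion (AlgebraicClosure ℚ) (modularFunctionFieldBar (N * q)) (p ^ k) :=
    smul_mem_torsion_aut (swapEquiv N q hqN) x
  have h2 := kummerEquiv_isAtkinLehner hc (isAtkinLehner_swapEquiv N q hqN) (p ^ k) x ⟨_, hmem⟩ rfl
  have h3 : (⟨_, hmem⟩ : JTors (N * q) (p ^ k)) = -(s • x) := by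
    refine (kummerEquiv (N * q) (p ^ k)).injective (Subtype.ext (h2.trans ?_))
    rw [map_neg, map_zsmul, NegMemClass.coe_neg, SetLike.val_smul, hval,
      show alRes hc (g.comp u.1) = g.comp (alRes hc u.1) from rfl, hal, Int.cast_smul_eq_zsmul]
    refine AddMonoidHom.ext fun z => ?_
    simp only [AddMonoidHom.comp_apply, AddMonoidHom.neg_apply, AddMonoidHom.smul_apply, map_neg,
      map_zsmul]
  exact congrArg Subtype.val h3

omit [IsDomain O] [IsDiscreteValuationRing O] [IsAdicComplete (maximalIdeal O) O] [CharZero O]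
  [Module.Finite ℤ_[p] O] in
theorem coe_funPoint_tateRho (M : ℕ) [NeZero M] (f : O →ₗ[ℤ_[p]] ℤ_[p]) (k : ℕ) (σ : GalQ)
    (w : Fin (homRank M) → O) :
    (funPoint M f k ((tateRho M p σ).map (algebraMap ℤ_[p] O) *ᵥ w) : JZero M) =
      σ • (funPoint M f k w : JZero M) := by
  rw [funPoint_apply, funPoint_apply,
    show (fun i => f (((tateRho M p σ).map (algebraMap ℤ_[p] O) *ᵥ w) i)) =
      tateRho M p σ *ᵥ fun i => f (w i) from RT.comp_tateRhoR_mulVec f M σ w]
  exact coe_torsPoint_tateRho σ k _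

omit [IsDiscreteValuationRing O] [IsAdicComplete (maximalIdeal O) O] in
theorem eq_zero_of_funPoint (M : ℕ) [NeZero M] (w : Fin (homRank M) → O)
    (h : ∀ (f : O →ₗ[ℤ_[p]] ℤ_[p]) k, (funPoint M f k w : JZero M) = 0) : w = 0 := by
  have : Module.Free ℤ_[p] O := RT.AtP.free_padic
  funext i
  have hi : ∀ f : O →ₗ[ℤ_[p]] ℤ_[p], f (w i) = 0 := fun f =>
    PadicInt.ext_of_toZModPow.mp fun k => by
      have h1 := congrArg (torsCoord M (p ^ k)) (Subtype.ext (h f k) : funPoint M f k w = 0)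
      rw [funPoint_apply, RT.torsCoord_torsPoint, map_zero] at h1
      rw [map_zero]
      exact congrFun h1 i
  let bO := Module.Free.chooseBasis ℤ_[p] O
  exact bO.ext_elem fun j => by simpa using hi (bO.coord j)

set_option maxHeartbeats 800000 in
-- matrices over the Tate module
/-- **The equations at a prime where `U_q` is a sign.** -/
theorem signEqAt_of_sign (hqN : ¬ q ∣ N) (hqp : q ≠ p) (hp : (p : O) ∈ maximalIdeal O)
    (χ : FullHecke (N * q) →+* O) {s : ℤ} (hs : s = 1 ∨ s = -1)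
    (hU : χ (uOp N q) = (s : O)) (ρ : GaloisRepAdic O)
    (habs : ρ.residual.IsAbsolutelyIrreducible) (T : Finset ℕ)
    (hρ : ∀ (ℓ : ℕ) (hℓ : ℓ.Prime) (hℓM : ¬ ℓ ∣ N * q), ℓ ∉ T →
      ∀ A : ValuationSubring (AlgebraicClosure ℚ), A.LiesOverPrime ℓ →
        ∀ σ : GalQ, A.IsFrobeniusAt σ ℓ →
          LinearMap.charpoly (ρ.ρ σ) =
            X ^ 2 - C (χ (CuspForm.heckeAlgebra.T hℓ hℓM (Set.notMem_empty ℓ))) * X
              + C (ℓ : O)) :
    SignEqAt ρ q s := by
  classical
  obtain ⟨P, hPcp, ι, hι, hισ, hιt⟩ := exists_plane_incl hp χ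
  have hcp : ∀ σ, (ρ.ρ σ).charpoly = (P.ρ σ).charpoly :=
    Carayol.adic_charpoly_eq_of_frobenius ρ P (insert p (T ∪ (N * q).primeFactors))
      fun ℓ hℓ hS A hA τ hτ => by
        simp only [Finset.mem_insert, Finset.mem_union, Nat.mem_primeFactors, not_or] at hS
        have hℓM : ¬ ℓ ∣ N * q := fun hd => hS.2.2 ⟨hℓ, hd, NeZero.ne _⟩
        rw [hρ ℓ hℓ hℓM hS.2.1 A hA τ hτ, hPcp ℓ hℓ hℓM hS.1 A hA τ hτ]
  have heq : P.IsEquiv ρ := by
    obtain ⟨e⟩ := RepTheory.isEquiv_of_charpoly_eq habs hcp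
    exact ⟨e.symm⟩
  -- points from functionals
  let pt : (O →ₗ[ℤ_[p]] ℤ_[p]) → ℕ → P.V →+ JZero (N * q) := fun f k =>
    (AddSubgroup.subtype _).comp ((funPoint (N * q) f k).comp ι.toAddMonoidHom)
  have hgal : ∀ f k σ v, pt f k (P.ρ σ v) = σ • pt f k v := fun f k σ v => by
    show (funPoint (N * q) f k (ι (P.ρ σ v)) : JZero (N * q)) = _
    rw [hισ]
    exact coe_funPoint_tateRho (N * q) f k σ (ι v)
  have hsep : ∀ v, (∀ f k, pt f k v = 0) → v = 0 := fun v hv =>
    hι ((eq_zero_of_funPoint (N * q) (ι v) hv).trans (map_zero ι).symm)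
  have hfac : ∀ f k v, Carayol.pushAlpha N q (pt f k v) = 0 ∧ Carayol.pushBeta N q (pt f k v) = 0 ∧
      swapAut N q hqN • pt f k v = -(s • pt f k v) := fun f k v =>
    funPoint_facts hqN hs (ι v) (by rw [← hU]; exact hιt (uOp N q) v) f k
  have hstep : ∀ f k σ (a : ℤ) v,
      pt f k ((P.ρ σ - (a : O) • 1) v) = σ • pt f k v - a • pt f k v := fun f k σ a v => by
    rw [LinearMap.sub_apply, LinearMap.smul_apply, Module.End.one_apply, map_sub, hgal,
      Int.cast_smul_eq_zsmul, map_zsmul]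
  have hrel : ∀ (σ σ' : GalQ) (a b : ℤ),
      (∀ f k v, σ • (σ' • pt f k v - b • pt f k v) = a • (σ' • pt f k v - b • pt f k v)) →
      prodEnd ρ σ σ' a b = 0 := fun σ σ' a b h =>
    prodEnd_eq_zero_of_isEquiv heq (LinearMap.ext fun v => hsep _ fun f k => by
      show pt f k ((P.ρ σ - (a : O) • 1) ((P.ρ σ' - (b : O) • 1) v)) = 0
      rw [hstep, hstep, h, sub_self])
  have hn : ∀ k, ¬ q ∣ p ^ k := fun k hd =>
    hqp ((Nat.prime_dvd_prime_iff_eq hq.out Fact.out).mp (hq.out.dvd_of_dvd_pow hd))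
  have htor : ∀ f k v, (p ^ k) • pt f k v = 0 := fun f k v =>
    nsmul_jTors (N * q) (funPoint (N * q) f k (ι v))
  -- `-q w` is `q s` on the plane
  have hqs : ∀ f k v, -(q • (swapAut N q hqN • pt f k v)) = (s * (q : ℤ)) • pt f k v := by
    intro f k v
    rw [(hfac f k v).2.2, neg_nsmul, neg_neg, ← natCast_zsmul, smul_smul]
    exact congrArg (fun z : ℤ => z • pt f k v) (mul_comm _ _)
  have hsum : ∀ f k σ' v, σ' • pt f k v + swapAut N q hqN • pt f k v =
      pt f k ((P.ρ σ' - (s : O) • 1) v) := fun f k σ' v => by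
    rw [hstep, (hfac f k v).2.2, sub_eq_add_neg]
  constructor
  · intro A hA τ hτ τ' hτ'
    refine prodEnd_eq_zero_of_isEquiv heq (LinearMap.ext fun v => hι ?_)
    have e : (tateRho (N * q) p τ - 1) * (tateRho (N * q) p τ' - 1) = 0 :=
      BadRed.tateData_inertia_unipotent (tateData (N * q) p) hq.out hqp (dvd_mul_left q N)
        (fun hd => hqN (Nat.dvd_of_mul_dvd_mul_right hq.out.pos (pow_two q ▸ hd))) hA hτ' hτ
    let R := (algebraMap ℤ_[p] O).mapMatrix (m := Fin (homRank (N * q)))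
    have hs1 : ∀ γ w, ι ((P.ρ γ - ((1 : ℤ) : O) • 1) w) = R (tateRho (N * q) p γ - 1) *ᵥ ι w := by
      intro γ w
      rw [map_sub R, map_one R, Matrix.sub_mulVec, Matrix.one_mulVec, Int.cast_one, one_smul,
        LinearMap.sub_apply, Module.End.one_apply, map_sub ι, hισ]
      rfl
    show ι ((P.ρ τ - ((1 : ℤ) : O) • 1) ((P.ρ τ' - ((1 : ℤ) : O) • 1) v)) = ι 0
    rw [hs1, hs1, Matrix.mulVec_mulVec, ← map_mul R, e, map_zero R, Matrix.zero_mulVec, map_zero ι]
  · intro A hA σ hσ τ hτ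
    refine hrel σ τ (s * q) 1 fun f k v => ?_
    rw [one_smul]
    refine (frob_smul_inertia_sub N q hqN hA hσ hτ (hn k) (htor f k v)).trans ?_
    rw [show τ • pt f k v - pt f k v = pt f k ((P.ρ τ - ((1 : ℤ) : O) • 1) v) by
      rw [hstep, one_smul]]
    exact hqs f k _
  · intro A hA σ hσ τ hτ
    refine hrel τ σ 1 s fun f k v => ?_
    rw [one_smul, ← hstep, ← hsum]
    exact (frob_smul_new N q hqN hA hσ (hn k) (htor f k v) (hfac f k v).1 (hfac f k v).2.1).1 τ hτ
  · intro A hA σ hσ σ' hσ'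
    refine hrel σ σ' (s * q) s fun f k v => ?_
    rw [← hstep, ← hsum]
    refine ((frob_smul_new N q hqN hA hσ' (hn k) (htor f k v) (hfac f k v).1
      (hfac f k v).2.1).2 σ hσ).trans ?_
    rw [hsum]
    exact hqs f k _

/-- `signEqAt_of_sign` over an extension of an extension of `ℤ_[p]`. -/
theorem signEqAt_of_sign_ext {O : RepTheory.FiniteDVRExt ℤ_[p]} (A : RepTheory.FiniteDVRExt O.R)
    (hqN : ¬ q ∣ N) (hqp : q ≠ p) (hp : (p : A.R) ∈ maximalIdeal A.R)
    (χ : FullHecke (N * q) →+* A.R) {s : ℤ} (hs : s = 1 ∨ s = -1)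
    (hU : χ (uOp N q) = (s : A.R)) (ρ : GaloisRepAdic A.R)
    (habs : ρ.residual.IsAbsolutelyIrreducible) (T : Finset ℕ)
    (hρ : ∀ (ℓ : ℕ) (hℓ : ℓ.Prime) (hℓM : ¬ ℓ ∣ N * q), ℓ ∉ T →
      ∀ P : ValuationSubring (AlgebraicClosure ℚ), P.LiesOverPrime ℓ →
        ∀ σ : GalQ, P.IsFrobeniusAt σ ℓ →
          LinearMap.charpoly (ρ.ρ σ) =
            X ^ 2 - C (χ (CuspForm.heckeAlgebra.T hℓ hℓM (Set.notMem_empty ℓ))) * X
              + C (ℓ : A.R)) :
    SignEqAt ρ q s := by
  let : Algebra ℤ_[p] A.R :=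
    ((algebraMap O.R A.R).comp (algebraMap ℤ_[p] O.R)).toAlgebra
  have : IsScalarTower ℤ_[p] O.R A.R := IsScalarTower.of_algebraMap_eq fun _ => rfl
  have : Module.Finite ℤ_[p] A.R := Module.Finite.trans O.R A.R
  exact signEqAt_of_sign hqN hqp hp χ hs hU ρ habs T hρ

end FLTA.LT2

end
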