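import Fermat.Agent.LT2.PointsSpecialTors
import Fermat.Agent.LT2.PatchedRingCond
import Fermat.Agent.BadRed.Endgame.Tate
import Fermat.Agent.GaloisReps.Attach
import Fermat.Agent.Carayol.MatchCompare
import Fermat.Agent.RepTheory.Carayol

/-!
# The equations `SignEqAt` at a prime where an eigensystem is new

For a character `χ` of the Hecke algebra of level `N q`, `q ∤ N`, which does not kill some Hecke
operator killed at level `N`, and `χ U_q = s`, every representation with the traces of `χ` and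
absolutely irreducible residual representation satisfies `SignEqAt ρ q s`.
-/

set_option autoImplicit false
set_option synthInstance.maxHeartbeats 400000

noncomputable section

open Polynomial IsLocalRing
open scoped Matrix
open FLTA.GaloisReps
open FLTA.BadRed (GoodPrime evalLow evalHigh)
open FLTA.Gamma0 (homRank)

namespace FLTA.LT2

section Plane

variable {M : ℕ} [NeZero M] {p : ℕ} [Fact p.Prime]
variable {O : Type} [CommRing O] [IsDomain O] [IsDiscreteValuationRing O]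
  [IsAdicComplete (maximalIdeal O) O] [CharZero O] [Algebra ℤ_[p] O]

/-- The eigenplane of a character inside the Tate module. -/
theorem exists_plane_incl (hp : (p : O) ∈ maximalIdeal O) (χ : FullHecke M →+* O) :
    ∃ P : GaloisRepAdic O,
      (∀ (ℓ : ℕ) (hℓ : ℓ.Prime) (hℓM : ¬ ℓ ∣ M), ℓ ≠ p →
        ∀ A : ValuationSubring (AlgebraicClosure ℚ), A.LiesOverPrime ℓ →
          ∀ σ : GalQ, A.IsFrobeniusAt σ ℓ →
            LinearMap.charpoly (P.ρ σ) =
              X ^ 2 - C (χ (CuspForm.heckeAlgebra.T hℓ hℓM (Set.notMem_empty ℓ))) * X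
                + C (ℓ : O)) ∧
      ∃ ι : P.V →ₗ[O] (Fin (homRank M) → O), Function.Injective ι ∧
        (∀ σ v, ι (P.ρ σ v) = (tateRho M p σ).map (algebraMap ℤ_[p] O) *ᵥ ι v) ∧
        ∀ t v, (heckeMat M t).map (Int.cast : ℤ → O) *ᵥ ι v = χ t • ι v := by
  let D : TateData M p := tateData M p
  have hcomm : ∀ (σ : GalQ) (t : FullHecke M),
      ((D.hecke t).map (Int.cast : ℤ → O)) * (D.rho σ).map (algebraMap ℤ_[p] O) =
        (D.rho σ).map (algebraMap ℤ_[p] O) * ((D.hecke t).map (Int.cast : ℤ → O)) := fun σ t => by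
    have h := congrArg (fun B => B.map (algebraMap ℤ_[p] O)) (D.commute σ t).eq
    simp only [Matrix.map_mul, map_intCast_map] at h
    exact h.symm
  set W : Submodule O (Fin D.r → O) := matEigenspace (fun t => D.hecke t) (fun t => χ t) with hWdef
  have hW : ∀ σ, ∀ x ∈ W, matrixRep O D.rho σ x ∈ W := by
    intro σ x hx t
    rw [matrixRep_apply, Matrix.mulVec_mulVec, hcomm σ t, ← Matrix.mulVec_mulVec, hx t,
      Matrix.mulVec_smul]
  have hrank : Module.finrank O W = 2 := by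
    rw [hWdef, finrank_matEigenspace (fun t => D.hecke t) (FractionRing O)]
    exact D.plane (FractionRing O) ((algebraMap O (FractionRing O)).comp χ)
  set P := FLTA.RepTheory.galoisRepAdicOfSubmodule (matrixRep O D.rho)
    (matrixRep_isAdicContinuous O hp D.rho D.isContinuous) W hW hrank with hP
  have hquad : ∀ (ℓ : ℕ) (hℓ : ℓ.Prime) (hℓM : ¬ ℓ ∣ M), ℓ ≠ p →
      ∀ A : ValuationSubring (AlgebraicClosure ℚ), A.LiesOverPrime ℓ →
        ∀ σ : GalQ, A.IsFrobeniusAt σ ℓ → ∀ v : P.V,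
          P.ρ σ (P.ρ σ v)
            - χ (CuspForm.heckeAlgebra.T hℓ hℓM (Set.notMem_empty ℓ)) • P.ρ σ v
            + (ℓ : O) • v = 0 := by
    intro ℓ hℓ hℓM hℓp A hA σ hσ v
    change ↥W at v
    refine Subtype.ext ?_
    have h := congrArg (fun B => (B.map (algebraMap ℤ_[p] O)) *ᵥ (v : Fin D.r → O))
      (D.frobenius ℓ hℓ hℓM hℓp A hA σ hσ)
    simp only [Matrix.map_add _ (map_add _), Matrix.map_sub _ (map_sub _), Matrix.map_mul,
      map_intCast_map, Matrix.map_natCast (map_zero (algebraMap ℤ_[p] O)), map_natCast,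
      Matrix.map_zero _ (map_zero _), Matrix.add_mulVec, Matrix.sub_mulVec,
      ← Matrix.mulVec_mulVec, Matrix.zero_mulVec] at h
    have hT := hW σ _ v.2 (CuspForm.heckeAlgebra.T hℓ hℓM (Set.notMem_empty ℓ))
    rw [matrixRep_apply] at hT
    rw [hT, Matrix.diagonal_const_mulVec] at h
    exact h
  have hns : ∀ a : O, P.ρ complexConjugation ≠ a • (1 : Module.End O P.V) := by
    intro a ha
    obtain ⟨w, hw, hne⟩ := D.conj_not_scalar (FractionRing O)
      ((algebraMap O (FractionRing O)).comp χ) (algebraMap O (FractionRing O) a)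
    refine hne ?_
    have hw' : w ∈ Submodule.span (FractionRing O)
        (piAlgebraMap (FractionRing O) '' (W : Set (Fin D.r → O))) := by
      rw [hWdef, span_image_matEigenspace]
      exact hw
    refine Submodule.span_induction ?_ ?_ ?_ ?_ hw'
    · rintro _ ⟨v, hv, rfl⟩
      have h := congrArg Subtype.val (LinearMap.congr_fun ha ⟨v, hv⟩)
      change matrixRep O D.rho complexConjugation v = a • v at h
      rw [matrixRep_apply, D.conj_spec, map_intCast_map] at h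
      have h' := compAlgebraMap_mulVec (O := O) (FractionRing O) D.conjMat v
      rw [h] at h'
      refine h'.trans (funext fun i => ?_)
      simp [piAlgebraMap_apply]
    · rw [Matrix.mulVec_zero, smul_zero]
    · intro x y _ _ hx hy
      rw [Matrix.mulVec_add, hx, hy, smul_add]
    · intro c x _ hx
      rw [Matrix.mulVec_smul, hx, smul_comm]
  let a : ℕ → O := fun ℓ =>
    if h : ℓ.Prime ∧ ¬ ℓ ∣ M then χ (CuspForm.heckeAlgebra.T h.1 h.2 (Set.notMem_empty ℓ)) else 0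
  let S : Finset ℕ := insert p M.primeFactors
  have hS : ∀ ℓ : ℕ, ℓ.Prime → (ℓ ∉ S ↔ ¬ ℓ ∣ M ∧ ℓ ≠ p) := fun ℓ hℓ => by
    simp [S, Nat.mem_primeFactors, hℓ, NeZero.ne M, and_comm]
  have ha : ∀ (ℓ : ℕ) (hℓ : ℓ.Prime) (hℓM : ¬ ℓ ∣ M),
      a ℓ = χ (CuspForm.heckeAlgebra.T hℓ hℓM (Set.notMem_empty ℓ)) := fun ℓ hℓ hℓM =>
    dif_pos ⟨hℓ, hℓM⟩
  obtain ⟨-, hcp⟩ := det_eq_cyclo_and_charpoly hp P S (Finset.mem_insert_self _ _) a
    (fun ℓ hℓ hℓS A hA σ hσ v => by
      obtain ⟨h1, h2⟩ := (hS ℓ hℓ).mp hℓS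
      rw [ha ℓ hℓ h1]
      exact hquad ℓ hℓ h1 h2 A hA σ hσ v)
    ⟨complexConjugation, hns⟩
  refine ⟨P, fun ℓ hℓ hℓM hℓp A hA σ hσ => ?_, W.subtype, Subtype.val_injective, fun σ v => rfl,
    fun t v => v.2 t⟩
  rw [hcp ℓ hℓ ((hS ℓ hℓ).mpr ⟨hℓM, hℓp⟩) A hA σ hσ, ha ℓ hℓ hℓM]

end Plane

section Main

variable {N q p : ℕ} [NeZero N] [NeZero q] [hq : Fact q.Prime] [Fact p.Prime] {S : Finset ℕ}
variable {O : Type} [CommRing O] [IsDomain O] [IsDiscreteValuationRing O]
  [IsAdicComplete (maximalIdeal O) O] [CharZero O]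

set_option maxHeartbeats 1000000 in
-- matrices over the Tate module
/-- **The equations at a prime where the eigensystem is new**, with `s` the `U_q`-eigenvalue. -/
theorem signEqAt_of_new (hqN : ¬ q ∣ N) (hqp : q ≠ p) (hpS : p ∈ S)
    (hp : (p : O) ∈ maximalIdeal O) (χ : FullHecke (N * q) →+* O)
    {h : MvPolynomial (GoodPrime N q S) ℤ} (hh : evalLow N q S h = 0)
    (hne : χ (evalHigh N q S h) ≠ 0) {s : ℤ} (hU : χ (uOp N q) = (s : O))
    (ρ : GaloisRepAdic O) (habs : ρ.residual.IsAbsolutelyIrreducible) (T : Finset ℕ)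
    (hρ : ∀ (ℓ : ℕ) (hℓ : ℓ.Prime) (hℓM : ¬ ℓ ∣ N * q), ℓ ∉ T →
      ∀ A : ValuationSubring (AlgebraicClosure ℚ), A.LiesOverPrime ℓ →
        ∀ σ : GalQ, A.IsFrobeniusAt σ ℓ →
          LinearMap.charpoly (ρ.ρ σ) =
            X ^ 2 - C (χ (CuspForm.heckeAlgebra.T hℓ hℓM (Set.notMem_empty ℓ))) * X
              + C (ℓ : O)) :
    SignEqAt ρ q s := by
  classical
  letI : Algebra ℤ_[p] O := padicIntAlgebra O hp
  obtain ⟨P, hPcp, ι, hι, hισ, hιt⟩ := exists_plane_incl hp χ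
  have hcp : ∀ σ, (ρ.ρ σ).charpoly = (P.ρ σ).charpoly :=
    Carayol.adic_charpoly_eq_of_frobenius ρ P (insert p (T ∪ (N * q).primeFactors))
      fun ℓ hℓ hS A hA τ hτ => by
        simp only [Finset.mem_insert, Finset.mem_union, Nat.mem_primeFactors, not_or] at hS
        have hℓM : ¬ ℓ ∣ N * q := fun hd => hS.2.2 ⟨hℓ, hd, NeZero.ne _⟩
        rw [hρ ℓ hℓ hℓM hS.2.1 A hA τ hτ, hPcp ℓ hℓ hℓM hS.1 A hA τ hτ]
  have heq : P.IsEquiv ρ := by
    obtain ⟨e⟩ := RepTheory.isEquiv_of_charpoly_eq habs hcp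
    exact ⟨e.symm⟩
  set R := Matrix (Fin (homRank (N * q))) (Fin (homRank (N * q))) ℤ_[p]
  set U : R := (heckeMat (N * q) (uOp N q)).map (Int.cast : ℤ → ℤ_[p])
  set t : R := (heckeMat (N * q) (evalHigh N q S h)).map (Int.cast : ℤ → ℤ_[p])
  -- a relation on the Tate module holds on the plane
  let f : R →+* Matrix (Fin (homRank (N * q))) (Fin (homRank (N * q))) O :=
    (algebraMap ℤ_[p] O).mapMatrix
  have hιU : ∀ v, f U *ᵥ ι v = (s : O) • ι v := fun v => by
    rw [← hU, ← hιt]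
    exact congrArg (· *ᵥ ι v) (map_intCast_map _ _)
  have key : ∀ (σ σ' : GalQ) (a b : ℤ) (X Y : R),
      (∀ v, f X *ᵥ ι v = (a : O) • ι v) → (∀ v, f Y *ᵥ ι v = (b : O) • ι v) →
      (tateRho (N * q) p σ - X) * (tateRho (N * q) p σ' - Y) * t = 0 →
      prodEnd ρ σ σ' a b = 0 := by
    intro σ σ' a b X Y hX hY hrel
    refine prodEnd_eq_zero_of_isEquiv heq (LinearMap.ext fun v => hι ?_)
    have ht : f t *ᵥ ι v = χ (evalHigh N q S h) • ι v := by
      rw [← hιt]
      exact congrArg (· *ᵥ ι v) (map_intCast_map _ _)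
    have hstep : ∀ (γ : GalQ) (Z : R) (c : ℤ), (∀ w, f Z *ᵥ ι w = (c : O) • ι w) → ∀ w,
        f (tateRho (N * q) p γ - Z) *ᵥ ι w = ι ((P.ρ γ - (c : O) • 1) w) := by
      intro γ Z c hZ w
      rw [map_sub, Matrix.sub_mulVec, hZ, LinearMap.sub_apply, LinearMap.smul_apply,
        Module.End.one_apply, map_sub, map_smul, hισ]
      rfl
    have hr := congrArg (fun Z => f Z *ᵥ ι v) hrel
    simp only [map_mul, map_zero, Matrix.zero_mulVec, ← Matrix.mulVec_mulVec, ht,
      Matrix.mulVec_smul] at hr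
    have hr' := (smul_eq_zero.mp hr).resolve_left hne
    rw [hstep σ' Y b hY, hstep σ X a hX] at hr'
    rw [prodEnd, Module.End.mul_apply, LinearMap.zero_apply, map_zero]
    exact hr'
  have h1 : ∀ v, f 1 *ᵥ ι v = ((1 : ℤ) : O) • ι v := fun v => by
    rw [map_one, Matrix.one_mulVec, Int.cast_one, one_smul]
  have hqU : ∀ v, f ((q : R) * U) *ᵥ ι v = ((s * q : ℤ) : O) • ι v := fun v => by
    rw [map_mul, map_natCast, ← Matrix.mulVec_mulVec, hιU, Matrix.natCast_mulVec, smul_smul]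
    ext i
    simp [mul_comm]
  constructor
  · intro A hA τ hτ τ' hτ'
    refine key τ τ' 1 1 1 1 h1 h1 ?_
    have e : (tateRho (N * q) p τ - 1) * (tateRho (N * q) p τ' - 1) = 0 :=
      BadRed.tateData_inertia_unipotent (tateData (N * q) p) hq.out hqp (dvd_mul_left q N)
        (fun hd => hqN (Nat.dvd_of_mul_dvd_mul_right hq.out.pos (pow_two q ▸ hd))) hA hτ' hτ
    rw [e, zero_mul]
  · intro A hA σ hσ τ hτ
    exact key σ τ (s * q) 1 _ 1 hqU h1
      (tateRho_equations N q hqN p hA hqp hpS hh hσ hσ hτ).2.1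
  · intro A hA σ hσ τ hτ
    exact key τ σ 1 s 1 _ h1 hιU (tateRho_equations N q hqN p hA hqp hpS hh hσ hσ hτ).2.2
  · intro A hA σ hσ σ' hσ'
    exact key σ σ' (s * q) s _ _ hqU hιU
      (tateRho_equations N q hqN p hA hqp hpS hh (τ := 1) hσ' hσ (one_mem _)).1

end Main

/-- `SignEqAt` after a twist by a character trivial on inertia with value `e` at Frobenius. -/
theorem SignEqAt.of_twist {A : Type} [CommRing A] [IsLocalRing A] {ρ ρ' : GaloisRepAdic A}
    {j : ℕ} {s e : ℤ} (h : SignEqAt ρ j s) (c : GalQ → A)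
    (φ : ρ.V ≃ₗ[A] ρ'.V) (hc : ∀ σ v, φ (c σ • ρ.ρ σ v) = ρ'.ρ σ (φ v))
    (hI : ∀ P : ValuationSubring (AlgebraicClosure ℚ), P.LiesOverPrime j →
      ∀ τ ∈ P.inertiaSubgroupIn ℚ, c τ = 1)
    (hF : ∀ P : ValuationSubring (AlgebraicClosure ℚ), P.LiesOverPrime j →
      ∀ σ : GalQ, P.IsFrobeniusAt σ j → c σ = (e : A)) :
    SignEqAt ρ' j (e * s) := by
  have key : ∀ (σ σ' : GalQ) (a b x y : ℤ), c σ = (x : A) → c σ' = (y : A) →
      prodEnd ρ σ σ' a b = 0 → prodEnd ρ' σ σ' (x * a) (y * b) = 0 := by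
    intro σ σ' a b x y hx hy h0
    refine LinearMap.ext fun v => ?_
    obtain ⟨w, rfl⟩ := φ.surjective v
    have e1 : ∀ (γ : GalQ) (d z : ℤ) (u : ρ.V), c γ = (z : A) →
        (ρ'.ρ γ - ((z * d : ℤ) : A) • 1) (φ u) = φ ((z : A) • (ρ.ρ γ - (d : A) • 1) u) := by
      intro γ d z u hz
      rw [LinearMap.sub_apply, ← hc, hz, LinearMap.smul_apply, Module.End.one_apply,
        LinearMap.sub_apply, LinearMap.smul_apply, Module.End.one_apply, smul_sub, map_sub,
        smul_smul, Int.cast_mul, map_smul φ (((z : A) * (d : A)))]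
    rw [prodEnd, Module.End.mul_apply, e1 σ' b y w hy, e1 σ a x _ hx, map_smul, map_smul,
      map_smul, smul_smul, LinearMap.zero_apply, ← Module.End.mul_apply]
    have h0' : (ρ.ρ σ - (a : A) • 1) * (ρ.ρ σ' - (b : A) • 1) = 0 := h0
    rw [h0', LinearMap.zero_apply, map_zero, smul_zero]
  constructor
  · intro P hP τ hτ τ' hτ'
    simpa using key τ τ' 1 1 1 1 (by rw [hI P hP τ hτ, Int.cast_one])
      (by rw [hI P hP τ' hτ', Int.cast_one]) (h.inertia_inertia P hP τ hτ τ' hτ')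
  · intro P hP σ hσ τ hτ
    simpa [mul_assoc] using key σ τ (s * j) 1 e 1 (hF P hP σ hσ)
      (by rw [hI P hP τ hτ, Int.cast_one]) (h.frob_inertia P hP σ hσ τ hτ)
  · intro P hP σ hσ τ hτ
    simpa using key τ σ 1 s 1 e (by rw [hI P hP τ hτ, Int.cast_one]) (hF P hP σ hσ)
      (h.inertia_frob P hP σ hσ τ hτ)
  · intro P hP σ hσ σ' hσ'
    simpa [mul_assoc] using key σ σ' (s * j) s e e (hF P hP σ hσ) (hF P hP σ' hσ')
      (h.frob_frob P hP σ hσ σ' hσ')

end FLTA.LT2

end
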