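import Fermat.Agent.LT2.PatchedRingIrred

/-!
# Characteristic polynomials of `E[2] ⊗ k`
-/

set_option autoImplicit false

noncomputable section

open Polynomial Matrix

namespace FLTA.LT2

local notation "Γℚ" => AlgebraicClosure ℚ ≃ₐ[ℚ] AlgebraicClosure ℚ

variable {E : WeierstrassCurve ℤ} (hE : Companion E) (k : Type) [Field k] [Algebra (ZMod 2) k]

include hE in
theorem exists_mat2_eq {M : Matrix (Fin 2) (Fin 2) (ZMod 2)} (hM : IsUnit M.det) :
    ∃ σ : Γℚ, mat2 hE.Δ_ne_zero σ = M := by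
  obtain ⟨σ, hσ⟩ := Companion.exists_rep_eq hE one_ne_zero (M := M) hM
  refine ⟨σ, ?_⟩
  show (Image.mod2 (n := 1) one_ne_zero).mapMatrix (Image.rep hE.Δ_ne_zero 1 σ) = M
  rw [hσ]
  ext i j
  exact congrArg (fun f : ZMod 2 →+* ZMod 2 => f (M i j))
    (Subsingleton.elim (α := ZMod 2 →+* ZMod 2) (Image.mod2 (n := 1) one_ne_zero) (RingHom.id _))

include hE in
theorem resRep_charpoly_of_mat2 (σ : Γℚ) :
    LinearMap.charpoly ((resRep hE.Δ_ne_zero k).ρ σ) =
      X ^ 2 - C (algebraMap (ZMod 2) k (mat2 hE.Δ_ne_zero σ).trace) * X +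
        C (algebraMap (ZMod 2) k (mat2 hE.Δ_ne_zero σ).det) := by
  show (Matrix.toLin' (resMat hE.Δ_ne_zero k σ)).charpoly = _
  rw [Matrix.charpoly_toLin',
    show resMat hE.Δ_ne_zero k σ = (mat2 hE.Δ_ne_zero σ).map (algebraMap (ZMod 2) k) from rfl,
    Matrix.charpoly_map, Matrix.charpoly_fin_two]
  simp

include hE in
/-- The characteristic polynomial at a good odd Frobenius. -/
theorem resRep_charpoly {l : ℕ} (hl : l.Prime) (hl2 : l ≠ 2) (hgood : E.IsGoodPrimeFor l)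
    {P : ValuationSubring (AlgebraicClosure ℚ)} (hP : P.LiesOverPrime l) {τ : Γℚ}
    (hτ : P.IsFrobeniusAt τ l) :
    LinearMap.charpoly ((resRep hE.Δ_ne_zero k).ρ τ) =
      X ^ 2 - C (E.apOfModel l : k) * X + C (l : k) := by
  obtain ⟨hd, ht⟩ := Companion.det_trace_rep_frobenius hE one_ne_zero hl hl2 hgood hP hτ
  rw [resRep_charpoly_of_mat2 hE k τ,
    show mat2 hE.Δ_ne_zero τ =
      (Image.mod2 (n := 1) one_ne_zero).mapMatrix (Image.rep hE.Δ_ne_zero 1 τ) from rfl,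
    ← RingHom.map_det, hd]
  rw [show ((Image.mod2 (n := 1) one_ne_zero).mapMatrix (Image.rep hE.Δ_ne_zero 1 τ)).trace =
    Image.mod2 (n := 1) one_ne_zero (Image.rep hE.Δ_ne_zero 1 τ).trace from
      (AddMonoidHom.map_trace _ _).symm, ht]
  simp

end FLTA.LT2

end
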