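import Fermat.Agent.LT2.PointsTameClass
import Fermat.Agent.LT2.PatchedPointOps
import Fermat.Agent.LT2.PointsAlgebra
import Fermat.Agent.LT2.PatchedRingPt
import Fermat.Agent.LT2.PatchedThreeModFour
import Fermat.Agent.LT2.PointsGlobalRes

/-!
# The tame relation at a point of the level algebra

At a point `ψ` of `twH` with representation `ρ`, for `σ` in inertia at the auxiliary prime `q i`
acting on the `q i`-th roots of unity by the element going to the diamond generator,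
`(tr ρ(σ) - 2) u = (u - 1)²` with `u` the value of the generator.
-/

set_option autoImplicit false
set_option linter.unusedSectionVars false
set_option synthInstance.maxHeartbeats 400000
set_option linter.overlappingInstances false

noncomputable section

open IsLocalRing

namespace FLTA.LT2.PatchG

open FLTA.RT FLTA.Periods

local notation "Qb" => AlgebraicClosure ℚ
local notation "Γℚ" => AlgebraicClosure ℚ ≃ₐ[ℚ] AlgebraicClosure ℚ

variable {O : RepTheory.FiniteDVRExt ℤ_[2]} {E : WeierstrassCurve ℤ}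

/-- `σ` is in inertia over `p` and acts on `μ_p` by an element going to the diamond generator. -/
def IsTameGen (O : RepTheory.FiniteDVRExt ℤ_[2]) {k : ℕ} (m : ℕ) (qt : Fin k → ℕ) (i : Fin k)
    (σ : Γℚ) : Prop :=
  ∃ P : ValuationSubring Qb, P.LiesOverPrime (qt i) ∧ σ ∈ P.inertiaSubgroupIn ℚ ∧
    ∃ w : (ZMod (qt i))ˣ, twEps O.R k m qt (qt i) w = diaUnit O.R k m i ∧
      ∀ ζ : Qb, ζ ^ qt i = 1 → σ ζ = ζ ^ (w : ZMod (qt i)).val

/-- Tame generators exist at the auxiliary primes. -/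
theorem exists_isTameGen {k m : ℕ} {qt : Fin k → ℕ} (hinj : Function.Injective qt) (i : Fin k)
    (hi : (qt i).Prime) (hm : 2 ^ m ∣ qt i - 1) : ∃ σ, IsTameGen O m qt i σ := by
  have := Fact.mk hi
  haveI : NeZero (qt i) := ⟨hi.ne_zero⟩
  obtain ⟨w, hw⟩ := exists_twEps_eq O.R k m hinj hi hm
  obtain ⟨P, hP⟩ := Galois.exists_liesOverPrime hi
  have hnd : ¬ qt i ∣ (w : ZMod (qt i)).val := fun h => w.ne_zero (by
    rw [← ZMod.natCast_zmod_val (w : ZMod (qt i)), ZMod.natCast_eq_zero_iff]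
    exact h)
  obtain ⟨σ, hσ, hσw⟩ := Galois.exists_inertia_apply_eq_pow (qt i) hP 1 _ hnd
  exact ⟨σ, P, hP, hσ, w, hw, fun ζ hζ => hσw ζ (by rwa [pow_one])⟩

/-- Residually the trace of Frobenius is the trace of `E`. -/
theorem residue_trace_frobenius (hE : Companion E) {A : Type} [CommRing A] [IsLocalRing A]
    (h2 : (2 : A) ∈ maximalIdeal A) (ρ : GaloisRepAdic A)
    (hres : ∀ σ, ρ.trace σ - (((mat2 hE.Δ_ne_zero σ).trace.val : ℕ) : A) ∈ maximalIdeal A)
    {l : ℕ} (hl : l.Prime) (hl2 : l ≠ 2) (hgood : ¬ (l : ℤ) ∣ E.Δ)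
    (hodd : ¬ (2 : ℤ) ∣ E.apOfModel l) {P : ValuationSubring Qb} (hP : P.LiesOverPrime l)
    {τ : Γℚ} (hτ : P.IsFrobeniusAt τ l) : residue A (ρ.trace τ) = 1 := by
  obtain ⟨-, ht⟩ := Companion.det_trace_rep_frobenius hE one_ne_zero hl hl2 hgood hP hτ
  have h1 : (mat2 hE.Δ_ne_zero τ).trace = 1 := by
    rw [show mat2 hE.Δ_ne_zero τ =
        (Image.mod2 (n := 1) one_ne_zero).mapMatrix (Image.rep hE.Δ_ne_zero 1 τ) from rfl,
      show ((Image.mod2 (n := 1) one_ne_zero).mapMatrix (Image.rep hE.Δ_ne_zero 1 τ)).trace =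
        Image.mod2 (n := 1) one_ne_zero (Image.rep hE.Δ_ne_zero 1 τ).trace from
          (AddMonoidHom.map_trace _ _).symm, ht, map_intCast]
    obtain ⟨c, hc⟩ : ∃ c : ℤ, E.apOfModel l = 2 * c + 1 :=
      ⟨(E.apOfModel l - 1) / 2, by omega⟩
    rw [hc]
    push_cast
    rw [show (2 : ZMod 2) = 0 from rfl, zero_mul, zero_add]
  have h := hres τ
  rw [h1, show ((1 : ZMod 2).val : ℕ) = 1 from rfl, Nat.cast_one, ← residue_eq_zero_iff, map_sub,
    map_one, sub_eq_zero] at h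
  exact h

set_option maxHeartbeats 3200000 in
-- the level algebra and its points
/-- The tame relation at a point, at a level divisible by the conductor level. -/
theorem trace_tame_level (hE : Companion E) {ω : O.R} (hω : ω ^ 2 + ω + 1 = 0) {L₀ : ℕ}
    (hcl : E.conductorLevel ∣ L₀) {k m : ℕ} (qt : Fin k → ℕ)
    (hinj : Function.Injective qt) (hqp : ∀ i, (qt i).Prime)
    (hnd : ∀ i, ¬ qt i ∣ 2 * L₀)
    (hoddq : ∀ i, ¬ (2 : ℤ) ∣ E.apOfModel (qt i)) (hq5 : ∀ i, 5 ≤ qt i)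
    [NeZero (twLev k L₀ qt)] {i : Fin k} {σ : Γℚ}
    (hσ : IsTameGen O m qt i σ) (A : RepTheory.FiniteDVRExt O.R)
    (ψ : twH O.R k m L₀ qt E L₀ ω →ₐ[O.R] A.R)
    (ρ : GaloisRepAdic A.R) (hdet : ρ.DetIsCyclotomic 2)
    (hres : ∀ τ, ρ.trace τ - (((mat2 hE.Δ_ne_zero τ).trace.val : ℕ) : A.R) ∈ maximalIdeal A.R)
    (htr : ∀ l : ℕ, l.Prime → l ∉ (2 * L₀).primeFactors ∪ Finset.univ.image qt →
      ∀ P : ValuationSubring Qb, P.LiesOverPrime l → ∀ τ : Γℚ, P.IsFrobeniusAt τ l →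
        ρ.trace τ = ψ (twGen O.R k m L₀ qt E L₀ ω l)) :
    ∀ u X₀ : A.R,
      ψ (algebraMap (DiaRing O.R k m) _ (diaMk O.R k m (1 + MvPowerSeries.X i))) = u →
      ψ (algebraMap (DiaRing O.R k m) _ (diaMk O.R k m (MvPowerSeries.X i))) = X₀ →
      (ρ.trace σ - 2) * u = X₀ ^ 2 := by
  intro u X₀ hu₀ hX₀
  classical
  have hL₀ : L₀ ≠ 0 := fun h => NeZero.ne (twLev k L₀ qt) (by rw [twLev, h, zero_mul])
  haveI : NeZero L₀ := ⟨hL₀⟩
  have h2O : (2 : O.R) ∈ maximalIdeal O.R := by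
    have h0 : ((2 : ℕ) : ℤ_[2]) ∈ maximalIdeal ℤ_[2] := by
      rw [PadicInt.maximalIdeal_eq_span_p]
      exact Ideal.mem_span_singleton_self _
    have := map_nonunit (algebraMap ℤ_[2] O.R) _ h0
    rwa [map_natCast, Nat.cast_ofNat] at this
  -- a basis of the level module
  obtain ⟨r, hr, hrE, hr4⟩ := hE.exists_prime_three_mod_four
  obtain ⟨l₁, hl₁, hl₁S, hl₁2, -, -, hl₁odd⟩ := exists_prime_one_mod_odd_trace hE 1
    (2 * twLev k L₀ qt).primeFactors
  have hl₁L : ¬ l₁ ∣ twLev k L₀ qt := fun h => hl₁S (Nat.mem_primeFactors.mpr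
    ⟨hl₁, h.mul_left 2, mul_ne_zero two_ne_zero (NeZero.ne _)⟩)
  have hl₁' : l₁.Prime ∧ ¬ l₁ ∣ 2 * L₀ := ⟨hl₁, fun h => (hl₁.dvd_mul.mp h).elim
    (fun h => hl₁2 ((Nat.prime_dvd_prime_iff_eq hl₁ Nat.prime_two).mp h))
    (fun h => hl₁L (h.mul_right _))⟩
  obtain ⟨hfree, hfin⟩ := free_twMod O.R k m L₀ qt E L₀ h2O hr (hrE.trans hcl) hr4 ω ⟨l₁, hl₁'⟩
    hl₁L (by
      rw [← even_iff_two_dvd]
      exact Int.not_even_iff_odd.mpr hl₁odd)
  let b := Module.finBasis (DiaRing O.R k m) (twMod O.R k m L₀ qt E L₀ ω)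
  obtain ⟨A', φ, c, z, hφ, hz, heig, hcT, hkap, hclev⟩ :=
    exists_twH_pointClass O.R k m L₀ qt E L₀ ω b h2O hr (hrE.trans hcl) hr4 A
      (ψ : twH O.R k m L₀ qt E L₀ ω →+* A.R) ψ.commutes
  -- the coefficient ring `A'`
  haveI : Fact (Nat.Prime 2) := ⟨Nat.prime_two⟩
  letI : Algebra ℤ_[2] A'.R :=
    (((algebraMap A.R A'.R).comp (algebraMap O.R A.R)).comp (algebraMap ℤ_[2] O.R)).toAlgebra
  haveI : Module.Finite ℤ_[2] A'.R := RingHom.finite_algebraMap.mp
    (((RingHom.finite_algebraMap.mpr inferInstance).comp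
      (RingHom.finite_algebraMap.mpr inferInstance)).comp
      (RingHom.finite_algebraMap.mpr inferInstance))
  haveI : Module.IsTorsionFree ℤ_[2] A'.R := Module.isTorsionFree_iff_algebraMap_injective.mpr
    ((A'.injective.comp A.injective).comp O.injective)
  haveI : Module.Free ℤ_[2] A'.R := Module.free_of_finite_type_torsion_free'
  have hdet' : (ρ.baseChangeAlong (algebraMap A.R A'.R) inferInstance).DetIsCyclotomic 2 := Avoid.detIsCyclotomic_baseChangeAlong _ _ hdet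
  have h2A : (2 : A'.R) ∈ maximalIdeal A'.R := by exact_mod_cast hdet'.1
  have h2A0 : (2 : A.R) ∈ maximalIdeal A.R := by exact_mod_cast hdet.1
  have h2k : (2 : ResidueField A'.R) = 0 := by
    rw [← map_ofNat (residue A'.R) 2, residue_eq_zero_iff]
    exact h2A
  -- the primes
  let Qs := Finset.univ.image qt
  have hmem : ∀ j, qt j ∈ Qs := fun j => Finset.mem_image_of_mem qt (Finset.mem_univ j)
  have hQs : ∀ l ∈ Qs, l.Prime ∧ l ∣ twLev k L₀ qt ∧ ¬ l * l ∣ twLev k L₀ qt := by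
    intro l hl
    obtain ⟨j, -, rfl⟩ := Finset.mem_image.mp hl
    refine ⟨hqp j, dvd_twLev k L₀ qt j, fun h => ?_⟩
    rw [twLev, ← Finset.mul_prod_erase _ qt (Finset.mem_univ j), mul_left_comm] at h
    rcases (hqp j).dvd_mul.mp (Nat.dvd_of_mul_dvd_mul_left (hqp j).pos h) with h' | h'
    · exact hnd j (h'.mul_left 2)
    · obtain ⟨j', hj', hd⟩ := ((hqp j).prime.dvd_finsetProd_iff _).mp h'
      exact (Finset.mem_erase.mp hj').1
        (hinj ((Nat.prime_dvd_prime_iff_eq (hqp j) (hqp j')).mp hd).symm)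
  let S := (2 * twLev k L₀ qt).primeFactors
  have hS : ∀ l : ℕ, l.Prime → l ∉ S → ¬ l ∣ 2 * twLev k L₀ qt := fun l hl hlS h =>
    hlS (Nat.mem_primeFactors.mpr ⟨hl, h, mul_ne_zero two_ne_zero (NeZero.ne _)⟩)
  have hgood : ∀ l : ℕ, l.Prime → l ∉ S → l ∉ (2 * L₀).primeFactors ∪ Finset.univ.image qt ∧ (l ≠ 2 ∧ ∀ j, qt j ≠ l) := by
    intro l hl hlS
    have h := hS l hl hlS
    have h2 : l ≠ 2 := fun e => h (by rw [e]; exact dvd_mul_right 2 _)
    have hj : ∀ j, qt j ≠ l := fun j e => h (e ▸ (dvd_twLev k L₀ qt j).mul_left 2)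
    refine ⟨fun hb => ?_, h2, hj⟩
    rcases Finset.mem_union.mp hb with hb | hb
    · exact h ((Nat.mem_primeFactors.mp hb).2.1.trans (mul_dvd_mul_left 2 (dvd_mul_right _ _)))
    · obtain ⟨j, -, rfl⟩ := Finset.mem_image.mp hb
      exact hj j rfl
  have hgoodΔ : ∀ l : ℕ, l.Prime → ¬ l ∣ L₀ → ¬ (l : ℤ) ∣ E.Δ := fun l hl h hd =>
    h (((E.prime_dvd_conductorLevel_iff hE.Δ_ne_zero hl).mpr hd).trans hcl)
  -- the characters at the point
  let ε : ∀ l : ℕ, (ZMod l)ˣ →* A'.Rˣ := fun l => charMap φ (twEps O.R k m qt l)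
  have hε : ∀ l v, (ε l v : A'.R) = φ (twEps O.R k m qt l v : DiaRing O.R k m) := fun _ _ => rfl
  have hεres : ∀ l ∈ Qs, ∀ u, residue A'.R (ε l u : A'.R) = 1 := by
    intro l _ u
    haveI : CharP (ResidueField A'.R) 2 :=
      (CharP.charP_iff_prime_eq_zero Nat.prime_two).mpr (by exact_mod_cast h2k)
    have e : residue A'.R (ε l u : A'.R) ^ 2 ^ m = 1 := by
      rw [← map_pow, ← Units.val_pow_eq_pow_val, ← MonoidHom.pow_apply,
        show ε l ^ 2 ^ m = 1 from MonoidHom.ext fun v => Units.ext (by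
          rw [MonoidHom.pow_apply, Units.val_pow_eq_pow_val, hε, ← map_pow,
            ← Units.val_pow_eq_pow_val, twEps_pow, Units.val_one, map_one]
          rfl), MonoidHom.one_apply, Units.val_one, map_one]
    refine sub_eq_zero.mp (eq_zero_of_pow_eq_zero (n := 2 ^ m) ?_)
    rw [sub_pow_char_pow, e, one_pow, sub_self]
  -- the class over the fraction field
  let K := FractionRing A'.R
  have hK : Function.Injective (algebraMap A'.R K) := IsFractionRing.injective _ _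
  let χ' := charMap φ (twChar O.R k m L₀ qt)
  have hχ : charMap (algebraMap A'.R K) χ' =
      charMap (algebraMap A'.R K) (sigProd (twLev k L₀ qt) Qs ε) := by
    rw [show χ' = sigProd (twLev k L₀ qt) Qs ε from charMap_sigProd φ _ _ _]
  let z₀ : tH1 (gamChar (charMap (algebraMap A'.R K) χ')) K :=
    Diamond.toFieldClass (K := K) χ' z
  let zK := tH1Cast (V := K) hχ z₀
  have hz₀ : z₀ ≠ 0 := fun h => tH1Map_ne_zero_of_noTorsion (K := K) hK hz
    ((tH1Base (V := K) (algebraMap A'.R K) χ' fun a w => Algebra.smul_def a w).map_eq_zero_iff.mp h)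
  have hzK : zK ≠ 0 := fun h => hz₀ ((tH1Cast (V := K) hχ).map_eq_zero_iff.mp h)
  have heigK : ∀ l : ℕ, l.Prime → algebraMap A'.R K (φ (twKap O.R k m qt l : DiaRing O.R k m)) •
      (natHecke (charMap (algebraMap A'.R K) (sigProd (twLev k L₀ qt) Qs ε)) l).app K zK =
        algebraMap A'.R K (c l) • zK := by
    intro l hl
    have h := congrArg (fun y => tH1Cast (V := K) hχ (Diamond.toFieldClass (K := K) χ' y))
      (heig l hl)
    simp only [zK, z₀, χ', Diamond.toFieldClass_smul, Diamond.toFieldClass_natHecke, map_smul,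
      tH1Cast_natHecke] at h ⊢
    exact h
  have hkε : ∀ l, (kap Qs ε l : A'.R) = φ (twKap O.R k m qt l : DiaRing O.R k m) :=
    fun l => coe_kap_charMap φ _ _ l
  -- the auxiliary prime
  obtain ⟨P, hP, hσI, w, hw, hσw⟩ := hσ
  haveI : Fact (qt i).Prime := ⟨hqp i⟩
  haveI : NeZero (qt i) := ⟨(hqp i).ne_zero⟩
  obtain ⟨F, hF⟩ := Galois.exists_isFrobeniusAt (hqp i) hP
  have hi2 : qt i ≠ 2 := by have := hq5 i; omega
  have htF : residue A'.R ((ρ.baseChangeAlong (algebraMap A.R A'.R) inferInstance).trace F) = 1 := by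
    have h := residue_trace_frobenius hE h2A0 ρ hres (hqp i) hi2
      (hgoodΔ _ (hqp i) fun h => hnd i (h.mul_left 2)) (hoddq i) hP hF
    rw [← sub_eq_zero, ← map_one (residue A.R), ← map_sub, residue_eq_zero_iff] at h
    rw [RepTheory.trace_baseChangeAlong, ← sub_eq_zero, ← map_one (residue A'.R), ← map_one (algebraMap A.R A'.R),
      ← map_sub, ← map_sub, residue_eq_zero_iff]
    exact map_nonunit (algebraMap A.R A'.R) _ h
  let li : GoodIdx L₀ := ⟨qt i, hqp i, hnd i⟩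
  have hcω : residue A'.R (c (qt i)) = residue A'.R ((algebraMap A.R A'.R) (algebraMap O.R A.R ω)) := by
    rw [← sub_eq_zero, ← map_sub, residue_eq_zero_iff]
    have h := hclev li
    rw [levVal, if_pos ⟨i, Finset.mem_univ i, rfl⟩] at h
    exact h
  let κ : (DiaRing O.R k m)ˣ := twKap O.R k m qt (qt i)
  have hκ : residue A'.R (φ (κ⁻¹ : (DiaRing O.R k m)ˣ)) = 1 := by
    have h1 : residue A'.R (φ (κ : DiaRing O.R k m)) = 1 := by
      rw [← sub_eq_zero, ← map_one (residue A'.R), ← map_sub, residue_eq_zero_iff]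
      exact hkap _
    have h := congrArg (fun y => residue A'.R (φ y)) κ.inv_mul
    simp only [map_mul, h1, mul_one, map_one] at h
    exact h
  have hα : residue A'.R
      ((φ (κ⁻¹ : (DiaRing O.R k m)ˣ) * c (qt i)) * (φ (κ⁻¹ : (DiaRing O.R k m)ˣ) * c (qt i)) +
        φ (κ⁻¹ : (DiaRing O.R k m)ˣ) * c (qt i) + 1) = 0 := by
    simp only [map_add, map_mul, map_one, hκ, hcω, one_mul]
    have h := congrArg (fun y => residue A'.R ((algebraMap A.R A'.R) (algebraMap O.R A.R y))) hω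
    simp only [map_add, map_pow, map_one, map_zero] at h
    rw [← pow_two]
    exact h
  have : NeZero (twLev k L₀ qt * ∏ l ∈ Qs, l) := ⟨mul_ne_zero (NeZero.ne _)
    (Finset.prod_ne_zero_iff.mpr fun l hl => (hQs l hl).1.ne_zero)⟩
  obtain ⟨l₀, hl₀, hl₀S, hl₀2, hl₀g, hl₀1, hl₀odd⟩ :=
    exists_prime_one_mod_odd_trace hE (twLev k L₀ qt * ∏ l ∈ Qs, l) S
  have htr' : ∀ l : ℕ, l.Prime → l ∉ S → ∀ B : ValuationSubring Qb, B.LiesOverPrime l →
      ∀ τ : Γℚ, B.IsFrobeniusAt τ l → (ρ.baseChangeAlong (algebraMap A.R A'.R) inferInstance).trace τ = c l := fun l hl hlS B hB τ hτ => by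
    rw [RepTheory.trace_baseChangeAlong, htr l hl (hgood l hl hlS).1 B hB τ hτ,
      hcT l ⟨hl, (hgood l hl hlS).2⟩]
    rfl
  have hl₀c : residue A'.R (c l₀) = 1 := by
    obtain ⟨B, hB⟩ := Galois.exists_liesOverPrime hl₀
    obtain ⟨τ, hτ⟩ := Galois.exists_isFrobeniusAt hl₀ hB
    have h := residue_trace_frobenius hE h2A0 ρ hres hl₀ hl₀2 hl₀g
      (by rw [← even_iff_two_dvd]; exact Int.not_even_iff_odd.mpr hl₀odd) hB hτ
    rw [← sub_eq_zero, ← map_one (residue A.R), ← map_sub, residue_eq_zero_iff] at h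
    rw [← htr' l₀ hl₀ hl₀S B hB τ hτ, RepTheory.trace_baseChangeAlong, ← sub_eq_zero,
      ← map_one (residue A'.R), ← map_one (algebraMap A.R A'.R), ← map_sub, ← map_sub, residue_eq_zero_iff]
    exact map_nonunit (algebraMap A.R A'.R) _ h
  obtain ⟨ζ, hζ⟩ := HasEnoughRootsOfUnity.exists_primitiveRoot Qb (qt i)
  obtain ⟨ζu, rfl⟩ : ∃ u : Qbˣ, (u : Qb) = ζ := hζ.isUnit (hqp i).ne_zero
  have main := trace_inertia_of_class_two h2A (hq5 i) Qs hQs (hmem i) ε hεres S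
    (Nat.mem_primeFactors.mpr ⟨Nat.prime_two, dvd_mul_right _ _,
      mul_ne_zero two_ne_zero (NeZero.ne _)⟩)
    (fun l hl hd => Nat.mem_primeFactors.mpr
      ⟨hl, hd.mul_left 2, mul_ne_zero two_ne_zero (NeZero.ne _)⟩)
    c (φ (κ⁻¹ : (DiaRing O.R k m)ˣ) * c (qt i)) zK hzK
    (fun l hl _ => by rw [hkε]; exact heigK l hl)
    (by
      have h := congrArg (fun y => algebraMap A'.R K (φ (κ⁻¹ : (DiaRing O.R k m)ˣ)) • y)
        (heigK (qt i) (hqp i))
      simp only [κ, smul_smul, ← map_mul, Units.inv_mul, map_one, one_smul] at h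
      exact h)
    (ρ.baseChangeAlong (algebraMap A.R A'.R) inferInstance) hdet' htr' hP hF hα htF hl₀ hl₀2 hl₀S hl₀1 hl₀c hr
    ((hrE.trans hcl).mul_right _) hr4 hσI
    (IsPrimitiveRoot.coe_units_iff.mp hζ) (w := w)
    (hσw _ hζ.pow_eq_one)
  -- descend to `A`
  have hu : (ε (qt i) w : A'.R) = (algebraMap A.R A'.R) u := by
    rw [hε, hw, hφ, coe_diaUnit, ← hu₀]
    rfl
  have hX : X₀ = u - 1 := by
    rw [← hu₀, ← hX₀]
    simp only [map_add, map_one, add_sub_cancel_left]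
  rw [hX]
  refine A'.injective ?_
  rw [map_mul, map_pow, map_sub, map_sub, map_one, ← RepTheory.trace_baseChangeAlong (algebraMap A.R A'.R) inferInstance ρ σ,
    show (ρ.baseChangeAlong (algebraMap A.R A'.R) inferInstance).trace σ = _ from main, hu, map_ofNat]
  have hinv := (ε (qt i) w).inv_mul
  rw [hu] at hinv
  linear_combination hinv

/-- **The tame relation at a point.** -/
theorem trace_tame (hE : Companion E) {ω : O.R} (hω : ω ^ 2 + ω + 1 = 0) (Q : Finset ℕ)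
    (_hQ : ∀ v ∈ Q, v.Prime ∧ v ≠ 2 ∧ ¬ v ∣ E.conductorLevel) {k m : ℕ} (qt : Fin k → ℕ)
    (hinj : Function.Injective qt) (hqp : ∀ i, (qt i).Prime)
    (hnd : ∀ i, ¬ qt i ∣ 2 * (E.conductorLevel * ∏ q ∈ Q, q))
    (hoddq : ∀ i, ¬ (2 : ℤ) ∣ E.apOfModel (qt i)) (hq5 : ∀ i, 5 ≤ qt i)
    [NeZero (twLev k (E.conductorLevel * ∏ q ∈ Q, q) qt)] {i : Fin k} {σ : Γℚ}
    (hσ : IsTameGen O m qt i σ) (A : RepTheory.FiniteDVRExt O.R)
    (ψ : twH O.R k m (E.conductorLevel * ∏ q ∈ Q, q) qt E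
      (E.conductorLevel * ∏ q ∈ Q, q) ω →ₐ[O.R] A.R)
    (ρ : GaloisRepAdic A.R) (hdet : ρ.DetIsCyclotomic 2)
    (hres : ∀ τ, ρ.trace τ - (((mat2 hE.Δ_ne_zero τ).trace.val : ℕ) : A.R) ∈ maximalIdeal A.R)
    (htr : ∀ l : ℕ, l.Prime → l ∉ badSet E Q qt →
      ∀ P : ValuationSubring Qb, P.LiesOverPrime l → ∀ τ : Γℚ, P.IsFrobeniusAt τ l →
        ρ.trace τ = ψ (twGen O.R k m (E.conductorLevel * ∏ q ∈ Q, q) qt E
          (E.conductorLevel * ∏ q ∈ Q, q) ω l)) :
    (ρ.trace σ - 2) *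
        ψ (algebraMap (DiaRing O.R k m) _ (diaMk O.R k m (1 + MvPowerSeries.X i))) =
      ψ (algebraMap (DiaRing O.R k m) _ (diaMk O.R k m (MvPowerSeries.X i))) ^ 2 :=
  trace_tame_level hE hω (dvd_mul_right _ _) qt hinj hqp hnd hoddq hq5 hσ A ψ ρ hdet hres htr _ _
    rfl rfl

end FLTA.LT2.PatchG

end
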