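import Fermat.Agent.LT2.PointsGlobal
import Fermat.Agent.LT2.ThetaAuxPrime

/-!
# Twists by characters of finite order

`twistRep ρ c`: the representation `c ⊗ ρ`.  `galChar η`: the Galois character of a character of
`(ℤ/q)ˣ`.
-/

set_option autoImplicit false

noncomputable section

open IsLocalRing Polynomial

namespace FLTA.LT2.PatchG

local notation "Γℚ" => AlgebraicClosure ℚ ≃ₐ[ℚ] AlgebraicClosure ℚ

variable {A : Type} [CommRing A] [IsLocalRing A]

/-- The twist of a representation by a character of finite order. -/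
def twistRep (ρ : GaloisRepAdic A) (c : Γℚ →* Aˣ) (hc : GaloisFactorsThroughFiniteLevel c) :
    GaloisRepAdic A where
  V := ρ.V
  finrank_eq := ρ.finrank_eq
  ρ :=
    { toFun := fun σ => (c σ : A) • ρ.ρ σ
      map_one' := by rw [map_one, map_one, Units.val_one, one_smul]
      map_mul' := fun σ τ => by
        rw [map_mul, map_mul, Units.val_mul, mul_smul_comm, smul_mul_assoc, smul_smul, mul_comm] }
  isAdicContinuous := by
    intro n
    obtain ⟨L, hL, h1⟩ := ρ.isAdicContinuous n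
    obtain ⟨L', hL', h1'⟩ := hc
    refine ⟨L ⊔ L', inferInstance, fun σ hσ v => ?_⟩
    have h2 : c σ = 1 := h1' σ fun x hx => hσ x ((le_sup_right : L' ≤ L ⊔ L') hx)
    show ((c σ : A) • ρ.ρ σ) v - v ∈ _
    rw [h2, Units.val_one, one_smul]
    exact h1 σ (fun x hx => hσ x ((le_sup_left : L ≤ L ⊔ L') hx)) v

variable (ρ : GaloisRepAdic A) (c : Γℚ →* Aˣ) (hc : GaloisFactorsThroughFiniteLevel c)

theorem twistRep_apply (σ : Γℚ) : (twistRep ρ c hc).ρ σ = (c σ : A) • ρ.ρ σ := rfl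

theorem trace_twistRep (σ : Γℚ) : (twistRep ρ c hc).trace σ = (c σ : A) * ρ.trace σ := by
  show LinearMap.trace A ρ.V ((c σ : A) • ρ.ρ σ) = _
  rw [map_smul, smul_eq_mul]
  rfl

theorem det_twistRep (σ : Γℚ) :
    LinearMap.det ((twistRep ρ c hc).ρ σ) = (c σ : A) ^ 2 * LinearMap.det (ρ.ρ σ) := by
  show LinearMap.det ((c σ : A) • ρ.ρ σ) = _
  rw [LinearMap.det_smul, ρ.finrank_eq]

theorem charpoly_twistRep {σ : Γℚ} {a d : A}
    (h : LinearMap.charpoly (ρ.ρ σ) = X ^ 2 - C a * X + C d) :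
    LinearMap.charpoly ((twistRep ρ c hc).ρ σ) =
      X ^ 2 - C ((c σ : A) * a) * X + C ((c σ : A) ^ 2 * d) := by
  obtain ⟨h1, h2⟩ := RepTheory.trace_eq_of_charpoly ρ.finrank_eq h
  rw [RepTheory.adic_charpoly_eq, trace_twistRep, det_twistRep, h2,
    show ρ.trace σ = a from h1]

theorem isUnramifiedAt_twistRep {q : ℕ} (h : ρ.IsUnramifiedAt q)
    (h' : ∀ P : ValuationSubring (AlgebraicClosure ℚ), P.LiesOverPrime q →
      ∀ σ ∈ P.inertiaSubgroupIn ℚ, c σ = 1) :
    (twistRep ρ c hc).IsUnramifiedAt q := fun P hP σ hσ => by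
  rw [twistRep_apply, h P hP σ hσ, h' P hP σ hσ, Units.val_one, one_smul]
  rfl

theorem detIsCyclotomic_twistRep {p : ℕ} (h : ρ.DetIsCyclotomic p) (h' : ∀ σ, c σ ^ 2 = 1) :
    (twistRep ρ c hc).DetIsCyclotomic p := by
  refine ⟨h.1, fun n σ a ha => ?_⟩
  rw [det_twistRep, ← Units.val_pow_eq_pow_val, h' σ, Units.val_one, one_mul]
  exact h.2 n σ a ha

/-- A twist trivial modulo the maximal ideal does not change the residual representation. -/
theorem residual_twistRep_isEquiv (h : ∀ σ, (c σ : A) - 1 ∈ maximalIdeal A) :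
    ρ.residual.IsEquiv (twistRep ρ c hc).residual := by
  refine ⟨⟨LinearEquiv.refl _ _, fun σ x => ?_⟩⟩
  show (ρ.ρ σ).baseChange (ResidueField A) x = ((c σ : A) • ρ.ρ σ).baseChange (ResidueField A) x
  have h1 : algebraMap A (ResidueField A) (c σ : A) = 1 := by
    rw [← sub_eq_zero, ← map_one (algebraMap A (ResidueField A)), ← map_sub]
    exact (residue_eq_zero_iff _).mpr (h σ)
  rw [LinearMap.baseChange_smul, LinearMap.smul_apply, ← algebraMap_smul (ResidueField A) (c σ : A),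
    h1, one_smul]

/-- Congruent to one modulo the maximal ideal, in residue characteristic two. -/
theorem sub_one_mem_of_sq_eq_one (h2 : (2 : A) ∈ maximalIdeal A) (u : Aˣ) (hu : u ^ 2 = 1) :
    (u : A) - 1 ∈ maximalIdeal A := by
  have h : (u : A) * u = 1 := by rw [← sq, ← Units.val_pow_eq_pow_val, hu, Units.val_one]
  by_contra h'
  have hu' : IsUnit ((u : A) - 1) := by
    by_contra h''
    exact h' ((IsLocalRing.mem_maximalIdeal _).mpr h'')
  have e : ((u : A) - 1) * ((u : A) + 1) = 0 := by linear_combination h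
  have h1 : (u : A) + 1 = 0 := (hu'.mul_right_eq_zero).mp e
  refine h' ?_
  rw [eq_neg_of_add_eq_zero_left h1, show (-1 : A) - 1 = -2 by norm_num]
  exact neg_mem h2

/-- The Galois character of a character of `(ℤ/q)ˣ`. -/
def galChar {q : ℕ} [NeZero q] (η : (ZMod q)ˣ →* Aˣ) : Γℚ →* Aˣ := η.comp (cycloLevel q)

omit [IsLocalRing A] in
theorem galChar_finiteLevel {q : ℕ} [NeZero q] (η : (ZMod q)ˣ →* Aˣ) :
    GaloisFactorsThroughFiniteLevel (galChar η) := by
  obtain ⟨L, hL, h⟩ := cycloLevel_finiteLevel q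
  exact ⟨L, hL, fun σ hσ => by simp [galChar, h σ hσ]⟩

omit [IsLocalRing A] in
theorem galChar_inertia {q l : ℕ} [NeZero q] (η : (ZMod q)ˣ →* Aˣ) (hl : l.Prime) (hlq : ¬ l ∣ q)
    {P : ValuationSubring (AlgebraicClosure ℚ)} (hP : P.LiesOverPrime l) {σ : Γℚ}
    (hσ : σ ∈ P.inertiaSubgroupIn ℚ) : galChar η σ = 1 := by
  have h : cycloLevel q σ = 1 := Galois.modularCyclotomicCharacter_inertia hl hP hσ hlq
    (IsAlgClosed.card_rootsOfUnity_eq (AlgebraicClosure ℚ) q)
  simp [galChar, h]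

omit [IsLocalRing A] in
theorem galChar_frobenius {q l : ℕ} [NeZero q] (η : (ZMod q)ˣ →* Aˣ) (hl : l.Prime) (hlq : ¬ l ∣ q)
    {P : ValuationSubring (AlgebraicClosure ℚ)} (hP : P.LiesOverPrime l) {σ : Γℚ}
    (hσ : P.IsFrobeniusAt σ l) (h : l.Coprime q) :
    galChar η σ = η (ZMod.unitOfCoprime l h) := by
  have h' : cycloLevel q σ = ZMod.unitOfCoprime l h :=
    Units.ext ((Galois.modularCyclotomicCharacter_frobenius hl hP hσ hlq
      (IsAlgClosed.card_rootsOfUnity_eq (AlgebraicClosure ℚ) q)).trans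
        (ZMod.coe_unitOfCoprime l h).symm)
  simp [galChar, h']

omit [IsLocalRing A] in
theorem galoisFactors_one : GaloisFactorsThroughFiniteLevel (1 : Γℚ →* Aˣ) :=
  ⟨⊥, inferInstance, fun _ _ => rfl⟩

omit [IsLocalRing A] in
theorem galoisFactors_mul {c c' : Γℚ →* Aˣ} (hc : GaloisFactorsThroughFiniteLevel c)
    (hc' : GaloisFactorsThroughFiniteLevel c') : GaloisFactorsThroughFiniteLevel (c * c') := by
  obtain ⟨L, hL, h⟩ := hc
  obtain ⟨L', hL', h'⟩ := hc'
  refine ⟨L ⊔ L', inferInstance, fun σ hσ => ?_⟩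
  rw [MonoidHom.mul_apply, h σ fun x hx => hσ x ((le_sup_left : L ≤ L ⊔ L') hx),
    h' σ fun x hx => hσ x ((le_sup_right : L' ≤ L ⊔ L') hx), one_mul]

omit [IsLocalRing A] in
theorem galoisFactors_prod {ι : Type*} (s : Finset ι) (c : ι → Γℚ →* Aˣ)
    (h : ∀ i ∈ s, GaloisFactorsThroughFiniteLevel (c i)) :
    GaloisFactorsThroughFiniteLevel (∏ i ∈ s, c i) :=
  Finset.prod_induction _ (fun c : Γℚ →* Aˣ => GaloisFactorsThroughFiniteLevel c)
    (fun _ _ => galoisFactors_mul) galoisFactors_one h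

end FLTA.LT2.PatchG

end
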