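import Fermat.Agent.LT2.TwistModel
import Fermat.Agent.LT2.PointsTwist
import Fermat.Agent.LT2.LocalResidual
import Fermat.Agent.TaylorWiles.FlatStrictBridge
import Fermat.Agent.RT.DeformFlat

/-!
# Part G: flatness at `2` survives a quadratic twist unramified at `2`

A quadratic character of `G_ℚ` which is trivial on inertia at `2` is the sign by which Galois moves
a root `α` of `α² = α + t`, `1 + 4 t` a unit at `2`; so `TwistModel` twists every finite model.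
-/

set_option autoImplicit false

noncomputable section

open scoped NNReal
open IsLocalRing

namespace FLTA.LT2.PatchG

open FLTA.HeckeDatum (levelHom finite_level)
open FLTA.HeckeDatum.Flat (Rp mem_range_of_fixed hasFlatModel_twist)
open FLTA.TaylorWiles.Flat (Knr exists_zpow_nnnorm_Knr)
open FLTA.PT (Qb Gl Ql loc iota iota_loc)

attribute [local instance] FLTA.PT.factPrime

local notation "Γℚ" => AlgebraicClosure ℚ ≃ₐ[ℚ] AlgebraicClosure ℚ

/-- An odd rational integer whose square root is unramified at `2` is `1` modulo `4`. -/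
theorem four_dvd_of_sqrt_mem_Knr {u : ℤ} (hu : Odd u) {y : Ql twoP} (hy : y ∈ Knr twoP)
    (h : y * y = (u : Ql twoP)) : 4 ∣ u - 1 := by
  by_contra h4
  obtain ⟨m, hm⟩ : ∃ m, u = 4 * m + 3 := ⟨(u - 3) / 4, by obtain ⟨w, rfl⟩ := hu; omega⟩
  set t := ‖(2 : Ql twoP)‖₊ with ht
  have ht1 : t < 1 := nnnorm_two_lt_one
  have ht0 : t ≠ 0 := nnnorm_ne_zero_iff.mpr two_ne_zero
  have hm' : (u : Ql twoP) = 4 * m + 3 := by rw [hm]; push_cast; rfl
  have hprod : ‖1 + y‖₊ * ‖1 - y‖₊ = t := by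
    rw [← nnnorm_mul, show (1 + y) * (1 - y) = 2 * (((-2 * m - 1 : ℤ)) : Ql twoP) by
      push_cast; linear_combination -h - hm', nnnorm_mul,
      nnnorm_intCast_odd ⟨-m - 1, by ring⟩, mul_one]
  have hsum : ∀ a b : Ql twoP, a + b = 2 → ‖a‖₊ * ‖b‖₊ = t → ‖b‖₊ ≤ ‖a‖₊ := by
    intro a b hab hp
    by_contra hlt
    rw [not_le] at hlt
    have hb : ‖b‖₊ = t := by
      rw [ht, ← hab, IsUltrametricDist.nnnorm_add_eq_max_of_nnnorm_ne_nnnorm hlt.ne,
        max_eq_right hlt.le]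
    rw [hb] at hlt hp
    exact absurd hp (mul_lt_of_lt_one_left (pos_iff_ne_zero.mpr ht0) (hlt.trans ht1)).ne
  have heq : ‖1 - y‖₊ = ‖1 + y‖₊ := le_antisymm (hsum _ _ (by ring) hprod)
    (hsum _ _ (by ring) (by rwa [mul_comm]))
  rw [heq] at hprod
  have hne : 1 + y ≠ 0 := fun h0 => ht0 (by rw [← hprod, h0, nnnorm_zero, mul_zero])
  obtain ⟨e, he⟩ := exists_zpow_nnnorm_Knr (add_mem (one_mem _) hy) hne
  have he' : ‖1 + y‖₊ = t ^ e := by rw [he, ht]; norm_num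
  rw [he', ← zpow_add₀ ht0] at hprod
  have := zpow_right_injective₀ (pos_iff_ne_zero.mpr ht0) ht1.ne
    (hprod.trans (zpow_one t).symm)
  omega

/-- A quadratic character unramified at `2` is the sign on a root of `α² = α + t`, `1 + 4 t` a
unit at `2`. -/
theorem exists_twistRoot {A : Type} [CommRing A] [IsDomain A] (c : Γℚ →* Aˣ)
    (hc : GaloisFactorsThroughFiniteLevel c) (hsq : ∀ σ, c σ ^ 2 = 1)
    (hI : ∀ P : ValuationSubring (AlgebraicClosure ℚ), P.LiesOverPrime 2 →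
      ∀ σ ∈ P.inertiaSubgroupIn ℚ, c σ = 1) :
    ∃ (α : AlgebraicClosure ℚ) (t u : Rp 2),
      α * α = α + algebraMap (Rp 2) (AlgebraicClosure ℚ) t ∧ (4 * t + 1) * u = 1 ∧
      ∀ σ, (σ α = α ∧ c σ = 1) ∨ (σ α = 1 - α ∧ (c σ : A) = -1) := by
  classical
  by_cases hall : ∀ σ, c σ = 1
  · exact ⟨0, 0, 1, by simp, by simp, fun σ => Or.inl ⟨map_zero σ, hall σ⟩⟩
  obtain ⟨σ₀, hσ₀⟩ := not_forall.mp hall
  have hval : ∀ σ, c σ ≠ 1 → (c σ : A) = -1 := fun σ h =>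
    (sq_eq_one_iff.mp (by rw [← Units.val_pow_eq_pow_val, hsq, Units.val_one])).resolve_left
      fun h' => h (Units.ext h')
  have hmul : ∀ σ τ, c σ ≠ 1 → c τ ≠ 1 → c (σ * τ) = 1 := fun σ τ h h' => Units.ext (by
    rw [map_mul, Units.val_mul, hval σ h, hval τ h', neg_mul_neg, one_mul, Units.val_one])
  -- an element on which Galois acts by the sign
  obtain ⟨y, hy0, hfix, hneg⟩ : ∃ y : AlgebraicClosure ℚ, y ≠ 0 ∧
      (∀ σ, c σ = 1 → σ y = y) ∧ ∀ σ, c σ ≠ 1 → σ y = -y := by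
    obtain ⟨L, hL, hlvl⟩ := hc
    have : IsGalois ℚ (AlgebraicClosure ℚ) := FLTA.Galois.qbar_isGalois
    have hopen : IsOpen ((c.ker : Subgroup Γℚ) : Set Γℚ) := Subgroup.isOpen_mono
      (fun σ hσ => hlvl σ ((IntermediateField.mem_fixingSubgroup_iff L σ).mp hσ))
      L.fixingSubgroup_isOpen
    have hcl : IsClosed ((c.ker : Subgroup Γℚ) : Set Γℚ) := OpenSubgroup.isClosed ⟨c.ker, hopen⟩
    have hK : (IntermediateField.fixedField c.ker).fixingSubgroup = c.ker :=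
      InfiniteGalois.fixingSubgroup_fixedField ⟨c.ker, hcl⟩
    obtain ⟨x, hx, hne⟩ : ∃ x ∈ IntermediateField.fixedField c.ker, σ₀ x ≠ x := by
      by_contra h
      push Not at h
      have hmem : σ₀ ∈ c.ker := hK ▸ (IntermediateField.mem_fixingSubgroup_iff _ _).mpr h
      exact hσ₀ hmem
    rw [IntermediateField.mem_fixedField_iff] at hx
    have hk : ∀ σ, c σ = 1 → σ x = x := fun σ h => hx σ (MonoidHom.mem_ker.mpr h)
    have hn : ∀ σ, c σ ≠ 1 → σ x = σ₀ x ∧ σ (σ₀ x) = x := by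
      intro σ h
      have h0 : c σ₀⁻¹ ≠ 1 := by rw [map_inv]; exact inv_ne_one.mpr hσ₀
      refine ⟨?_, hk (σ * σ₀) (hmul σ σ₀ h hσ₀)⟩
      have := congrArg σ₀ (hk (σ₀⁻¹ * σ) (hmul _ _ h0 h))
      rwa [AlgEquiv.mul_apply, ← AlgEquiv.mul_apply σ₀, mul_inv_cancel, AlgEquiv.one_apply] at this
    refine ⟨x - σ₀ x, fun h0 => hne (sub_eq_zero.mp h0).symm, fun σ h => ?_, fun σ h => ?_⟩
    · have h1 : σ (σ₀ x) = σ₀ x := by
        have hc1 : c (σ₀⁻¹ * (σ * σ₀)) = 1 := by simp [h]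
        have := congrArg σ₀ (hk _ hc1)
        rwa [AlgEquiv.mul_apply, ← AlgEquiv.mul_apply σ₀, mul_inv_cancel, AlgEquiv.one_apply,
          AlgEquiv.mul_apply] at this
      rw [map_sub, hk σ h, h1]
    · rw [map_sub, (hn σ h).1, (hn σ h).2, neg_sub]
  -- its square is rational, made an integer
  obtain ⟨q, hq⟩ := mem_range_of_fixed (x := y * y) fun σ => by
    by_cases h : c σ = 1
    · rw [map_mul, hfix σ h]
    · rw [map_mul, hneg σ h, neg_mul_neg]
  set z := y * (q.den : AlgebraicClosure ℚ) with hz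
  set n := q.num * (q.den : ℤ) with hn'
  have hzn : z * z = (n : AlgebraicClosure ℚ) := by
    have e : (q : AlgebraicClosure ℚ) * (q.den : AlgebraicClosure ℚ) =
        (q.num : AlgebraicClosure ℚ) := by
      exact_mod_cast congrArg (fun r : ℚ => (r : AlgebraicClosure ℚ)) (Rat.mul_den_eq_num q)
    rw [eq_ratCast] at hq
    rw [hz, hn', Int.cast_mul, Int.cast_natCast, ← e]
    linear_combination (-(q.den : AlgebraicClosure ℚ) ^ 2) * hq
  have hz0 : z ≠ 0 := mul_ne_zero hy0 (Nat.cast_ne_zero.mpr q.den_nz)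
  have hn0 : n ≠ 0 := fun h => mul_ne_zero hz0 hz0 (by rw [hzn, h, Int.cast_zero])
  have hzfix : ∀ σ, c σ = 1 → σ z = z := fun σ h => by rw [hz, map_mul, hfix σ h, map_natCast]
  have hzneg : ∀ σ, c σ ≠ 1 → σ z = -z := fun σ h => by
    rw [hz, map_mul, hneg σ h, map_natCast, neg_mul]
  have hzK : iota twoP z ∈ Knr twoP := mem_Knr_of_fixed fun s hs => by
    rw [← iota_loc, hzfix _ (hI _ (FLTA.PT.primeLocalPlace_liesOverPrime twoP) _
      (TaylorWiles.Flat.loc_mem_inertia_of_mem_inerG hs))]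
  obtain ⟨v, w, hw, hvw⟩ : ∃ (v : ℕ) (w : ℤ), Odd w ∧ n = 2 ^ v * w := by
    obtain ⟨v, w, hw, hvw⟩ := WfDvdMonoid.max_power_factor hn0 Int.prime_two.irreducible
    exact ⟨v, w, Int.not_even_iff_odd.mp fun h => hw (even_iff_two_dvd.mp h), hvw⟩
  -- the valuation is even
  have ht0 : ‖(2 : Ql twoP)‖₊ ≠ 0 := nnnorm_ne_zero_iff.mpr two_ne_zero
  have hιz : iota twoP z * iota twoP z = (n : Ql twoP) := by rw [← map_mul, hzn, map_intCast]
  obtain ⟨e, he⟩ := exists_zpow_nnnorm_Knr hzK (fun h => hz0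
    ((iota twoP).injective (h.trans (map_zero (iota twoP)).symm)))
  have he' : ‖iota twoP z‖₊ = ‖(2 : Ql twoP)‖₊ ^ e := by rw [he]; norm_num
  have hev : (v : ℤ) = 2 * e := by
    have h1 := congrArg (‖·‖₊) hιz
    rw [nnnorm_mul, he', ← zpow_add₀ ht0, hvw, Int.cast_mul, Int.cast_pow, Int.cast_ofNat,
      nnnorm_mul, nnnorm_pow, nnnorm_intCast_odd hw, mul_one, ← zpow_natCast] at h1
    have := zpow_right_injective₀ (pos_iff_ne_zero.mpr ht0) nnnorm_two_lt_one.ne h1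
    omega
  obtain ⟨k, rfl⟩ : ∃ k, v = 2 * k := ⟨v / 2, by omega⟩
  set z₁ := z / (2 : AlgebraicClosure ℚ) ^ k with hz1
  have hz1w : z₁ * z₁ = (w : AlgebraicClosure ℚ) := by
    rw [hz1, div_mul_div_comm, hzn, hvw, Int.cast_mul, Int.cast_pow, Int.cast_ofNat, ← pow_add,
      two_mul, mul_div_assoc, mul_div_cancel₀ _ (pow_ne_zero _ two_ne_zero)]
  have hz1K : iota twoP z₁ ∈ Knr twoP := by
    rw [hz1, map_div₀, map_pow, map_ofNat]
    exact div_mem hzK (pow_mem (ofNat_mem _ 2) _)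
  obtain ⟨m, hm⟩ := four_dvd_of_sqrt_mem_Knr hw hz1K (by rw [← map_mul, hz1w, map_intCast])
  have hwinv : ((w : ℚ))⁻¹ ∈ GaloisRep.ratLocalizedAt 2 := by
    show ((w : ℚ))⁻¹.den.Coprime 2
    rw [Rat.inv_intCast_den]
    split_ifs
    · exact Nat.coprime_one_left 2
    · exact Nat.coprime_two_right.mpr (Int.natAbs_odd.mpr hw)
  refine ⟨(1 + z₁) / 2, (m : Rp 2), ⟨_, hwinv⟩, ?_, Subtype.ext ?_, fun σ => ?_⟩
  · rw [map_intCast]
    have e : (w : AlgebraicClosure ℚ) = 4 * (m : AlgebraicClosure ℚ) + 1 := by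
      rw [show w = 4 * m + 1 by omega]; push_cast; ring
    linear_combination (hz1w + e) / 4
  · push_cast
    show ((4 : ℚ) * (m : ℚ) + 1) * (w : ℚ)⁻¹ = 1
    rw [show (4 : ℚ) * (m : ℚ) + 1 = (w : ℚ) by rw [show w = 4 * m + 1 by omega]; push_cast; ring]
    exact mul_inv_cancel₀ (Int.cast_ne_zero.mpr (by rintro rfl; simp at hw))
  · by_cases h : c σ = 1
    · refine Or.inl ⟨?_, h⟩
      rw [hz1, map_div₀, map_add, map_one, map_div₀, hzfix σ h, map_pow, map_ofNat]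
    · refine Or.inr ⟨?_, hval σ h⟩
      rw [hz1, map_div₀, map_add, map_one, map_div₀, hzneg σ h, map_pow, map_ofNat]
      ring

/-- A twist by a quadratic character unramified at `2` is flat at `2`. -/
theorem isFlatAt_twistRep {A : Type} [CommRing A] [IsLocalRing A] [IsDomain A]
    (ρ : GaloisRepAdic A) (c : Γℚ →* Aˣ) (hc : GaloisFactorsThroughFiniteLevel c)
    (hsq : ∀ σ, c σ ^ 2 = 1)
    (hI : ∀ P : ValuationSubring (AlgebraicClosure ℚ), P.LiesOverPrime 2 →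
      ∀ σ ∈ P.inertiaSubgroupIn ℚ, c σ = 1)
    (h : ρ.IsFlatAt 2) : (twistRep ρ c hc).IsFlatAt 2 := by
  obtain ⟨α, t, u, hα, hu, hsign⟩ := exists_twistRoot c hc hsq hI
  obtain ⟨hres, hmodel⟩ := (FLTA.RT.isFlatAt_iff ρ Nat.prime_two).mp h
  refine (FLTA.RT.isFlatAt_iff _ Nat.prime_two).mpr ⟨hres, fun I hI' => ?_⟩
  have := finite_level ρ I hI'
  refine hasFlatModel_twist (act := levelHom ρ I) (hmodel I hI') α t u hα hu fun σ => ?_
  rcases hsign σ with ⟨hσ, hc'⟩ | ⟨hσ, hc'⟩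
  · refine Or.inl ⟨hσ, fun x => ?_⟩
    obtain ⟨v, rfl⟩ := Submodule.Quotient.mk_surjective _ x
    show Submodule.Quotient.mk (((c σ : A) • ρ.ρ σ) v) = Submodule.Quotient.mk (ρ.ρ σ v)
    rw [hc', Units.val_one, one_smul]
  · refine Or.inr ⟨hσ, fun x => ?_⟩
    obtain ⟨v, rfl⟩ := Submodule.Quotient.mk_surjective _ x
    show Submodule.Quotient.mk (((c σ : A) • ρ.ρ σ) v) = -Submodule.Quotient.mk (ρ.ρ σ v)
    rw [hc', neg_one_smul, LinearMap.neg_apply, Submodule.Quotient.mk_neg]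

end FLTA.LT2.PatchG

end
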