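import Fermat.Agent.LT2.PatchedOps
import Fermat.Agent.LT2.PatchedRingPt
import Fermat.Agent.LT2.PointsClassical
import Fermat.Agent.LT2.PointsFlat
import Fermat.Agent.LT2.PointsTwistFlat
import Fermat.Agent.LT2.PointsSign
import Fermat.Agent.LT2.PointsSpecial
import Fermat.Agent.LT2.PointsTame
import Fermat.Agent.LT2.PatchedRingPoint

/-!
# Part G of LT2: the representation of a point of the level algebra

A point of `twH` at the level `N ∏ Q ∏ qt` whose operators at the signed primes are signs gives a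
representation with the signed conditions, the traces `ψ (T_l)` at good primes and the tame trace
`u + u⁻¹` at each auxiliary prime, `u` the value of the diamond generator.
-/

set_option autoImplicit false
set_option linter.unusedSectionVars false
set_option synthInstance.maxHeartbeats 400000

noncomputable section

open IsLocalRing

namespace FLTA.LT2.PatchG

open Polynomial FLTA.RT

local notation "Γℚ" => AlgebraicClosure ℚ ≃ₐ[ℚ] AlgebraicClosure ℚ

variable {O : RepTheory.FiniteDVRExt ℤ_[2]} {E : WeierstrassCurve ℤ}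

/-- The equations at a prime exactly dividing the level where the system has a sign. -/
theorem signEqAt_system (hE : Companion E) (A : RepTheory.FiniteDVRExt O.R) {N : ℕ} [NeZero N]
    {v : ℕ} (hv : v.Prime) (hv2 : v ≠ 2) (hvN : v ∣ N) (hvv : ¬ v * v ∣ N) {S : Set ℕ}
    (hvS : v ∉ S) (χ : CuspForm.heckeAlgebra N 2 S →+* A.R) (ρ : GaloisRepAdic A.R)
    (T : Finset ℕ)
    (hT : ∀ l : ℕ, l.Prime → l ∉ T → l ∉ S ∧ ¬ l ∣ N ∧ l ≠ 2 ∧ E.IsGoodPrimeFor l)
    (hcong : ∀ (l : ℕ) (hl : l.Prime) (hlN : ¬ l ∣ N) (hlS : l ∉ S), l ∉ T →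
      χ (CuspForm.heckeAlgebra.T hl hlN hlS) - (E.apOfModel l : A.R) ∈ maximalIdeal A.R)
    (hρ : ∀ (l : ℕ) (hl : l.Prime) (hlN : ¬ l ∣ N) (hlS : l ∉ S), l ∉ T →
      ∀ P : ValuationSubring (AlgebraicClosure ℚ), P.LiesOverPrime l →
        ∀ σ : Γℚ, P.IsFrobeniusAt σ l →
          LinearMap.charpoly (ρ.ρ σ) =
            X ^ 2 - C (χ (CuspForm.heckeAlgebra.T hl hlN hlS)) * X + C (l : A.R))
    {e : ℤ} (he : e = 1 ∨ e = -1)
    (hU : χ (CuspForm.heckeAlgebra.U hv hvN hvS) = (e : A.R)) : SignEqAt ρ v e := by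
  classical
  obtain ⟨M, rfl⟩ : ∃ M, N = M * v := ⟨N / v, (Nat.div_mul_cancel hvN).symm⟩
  have hvM : ¬ v ∣ M := fun h => hvv (mul_dvd_mul_right h v)
  have : NeZero M := ⟨fun h => NeZero.ne (M * v) (by rw [h, zero_mul])⟩
  have : NeZero v := ⟨hv.ne_zero⟩
  have := Fact.mk hv
  have : Fact (Nat.Prime 2) := ⟨Nat.prime_two⟩
  have := GaloisReps.module_finite_fullHecke (M * v)
  obtain ⟨F, θ, hθ⟩ := RepTheory.exists_ext_character A.R (HeckeDatum.toFullHecke (M * v) S)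
    (HeckeDatum.toFullHecke_injective S) χ
  let a : A.R →+* F.R := algebraMap A.R F.R
  have ha : IsLocalHom a := inferInstanceAs (IsLocalHom (algebraMap A.R F.R))
  have h2 : ((2 : ℕ) : F.R) ∈ maximalIdeal F.R := by
    have := map_nonunit a _ (two_mem_maximalIdeal A)
    rwa [map_natCast] at this
  let ρ' := ρ.baseChangeAlong a ha
  have hcp : ∀ (l : ℕ) (hl : l.Prime) (hlN : ¬ l ∣ M * v), l ∉ T →
      ∀ P : ValuationSubring (AlgebraicClosure ℚ), P.LiesOverPrime l →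
        ∀ σ : Γℚ, P.IsFrobeniusAt σ l → LinearMap.charpoly (ρ'.ρ σ) =
          X ^ 2 - C (θ (CuspForm.heckeAlgebra.T hl hlN (Set.notMem_empty l))) * X
            + C (l : F.R) := by
    intro l hl hlN hlT P hP σ hσ
    have h := RingHom.congr_fun hθ (CuspForm.heckeAlgebra.T hl hlN (hT l hl hlT).1)
    rw [show θ (CuspForm.heckeAlgebra.T hl hlN (Set.notMem_empty l)) =
      a (χ (CuspForm.heckeAlgebra.T hl hlN (hT l hl hlT).1)) from h, RepTheory.charpoly_baseChangeAlong,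
      hρ l hl hlN (hT l hl hlT).1 hlT P hP σ hσ]
    simp
  have : CharP (ResidueField F.R) 2 := charP_residueField_two h2
  let : Algebra (ZMod 2) (ResidueField F.R) := ZMod.algebra _ 2
  have hres := residual_isEquiv_resRep hE ρ'
    (fun l => if h : l.Prime ∧ ¬ l ∣ M * v then
      θ (CuspForm.heckeAlgebra.T h.1 h.2 (Set.notMem_empty l)) else 0)
    (S := T)
    (fun l hl hlT => by
      obtain ⟨hlS, hlN, -⟩ := hT l hl hlT
      rw [dif_pos ⟨hl, hlN⟩, show θ (CuspForm.heckeAlgebra.T hl hlN (Set.notMem_empty l)) =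
        a (χ (CuspForm.heckeAlgebra.T hl hlN hlS)) from
          RingHom.congr_fun hθ (CuspForm.heckeAlgebra.T hl hlN hlS), ← map_intCast a, ← map_sub]
      exact map_nonunit a _ (hcong l hl hlN hlS hlT))
    (fun l hl hlT => ⟨(hT l hl hlT).2.2.1, (hT l hl hlT).2.2.2⟩)
    (fun l hl hlT P hP τ hτ => by
      rw [hcp l hl (hT l hl hlT).2.1 hlT P hP τ hτ, dif_pos ⟨hl, (hT l hl hlT).2.1⟩])
  have hθU : θ (uOp M v) = (e : F.R) := by
    have h := RingHom.congr_fun hθ (CuspForm.heckeAlgebra.U hv hvN hvS)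
    rw [RingHom.comp_apply, RingHom.comp_apply, hU, map_intCast] at h
    exact h
  let : Algebra ℤ_[2] A.R := ((algebraMap O.R A.R).comp (algebraMap ℤ_[2] O.R)).toAlgebra
  have : IsScalarTower ℤ_[2] O.R A.R := IsScalarTower.of_algebraMap_eq fun _ => rfl
  have : Module.Finite ℤ_[2] A.R := Module.Finite.trans O.R A.R
  let : Algebra ℤ_[2] F.R := ((algebraMap A.R F.R).comp (algebraMap ℤ_[2] A.R)).toAlgebra
  have : IsScalarTower ℤ_[2] A.R F.R := IsScalarTower.of_algebraMap_eq fun _ => rfl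
  have : Module.Finite ℤ_[2] F.R := Module.Finite.trans A.R F.R
  have key := signEqAt_of_sign (p := 2) hvM hv2 h2 θ he hθU ρ'
    (RepTheory.isAbsolutelyIrreducible_of_isEquiv hres hE.isAbsolutelyIrreducible_resRep) T hcp
  have hdesc : ∀ σ τ : Γℚ, ∀ x y : ℤ, prodEnd ρ' σ τ x y = 0 → prodEnd ρ σ τ x y = 0 :=
    fun σ τ x y h => eq_zero_of_pair (f := a) (g := a) (hf := ha) (hg := ha)
      (fun z hz _ => F.injective (hz.trans (map_zero a).symm)) ρ _
      (by rw [bcEnd_prodEnd]; exact h) (by rw [bcEnd_prodEnd]; exact h)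
  exact ⟨fun P hP τ hτ τ' hτ' => hdesc _ _ _ _ (key.inertia_inertia P hP τ hτ τ' hτ'),
    fun P hP σ hσ τ hτ => hdesc _ _ _ _ (key.frob_inertia P hP σ hσ τ hτ),
    fun P hP σ hσ τ hτ => hdesc _ _ _ _ (key.inertia_frob P hP σ hσ τ hτ),
    fun P hP σ hσ σ' hσ' => hdesc _ _ _ _ (key.frob_frob P hP σ hσ σ' hσ')⟩

set_option maxHeartbeats 1000000 in
-- the assembly
/-- The representation of a classical system: `t` gives the traces away from the level. -/
theorem exists_rep_of_classical (hE : Companion E) {ω : O.R} (hω : ω ^ 2 + ω + 1 = 0)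
    (Q : Finset ℕ) (hQ : ∀ v ∈ Q, v.Prime ∧ v ≠ 2 ∧ ¬ v ∣ E.conductorLevel) {k m : ℕ}
    (qt : Fin k → ℕ) (hinj : Function.Injective qt) (hqp : ∀ i, (qt i).Prime) {L₀ : ℕ}
    (hL₀ : E.conductorLevel * ∏ q ∈ Q, q = L₀) (hL₀0 : L₀ ≠ 0)
    (hnd : ∀ i, ¬ qt i ∣ 2 * L₀) (A : RepTheory.FiniteDVRExt O.R)
    (φ₀ : DiaRing O.R k m →+* A.R) (t : ℕ → A.R) (s : ℕ → ℤ) (hs : IsSign E Q s)
    (ht : ∀ v ∈ signPrimes E Q, t v = (s v : A.R)) {N : ℕ} [NeZero N] (quad : Finset ℕ)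
    (hquad : quad ⊆ Finset.univ.image qt) (hNodd : Odd N) (hLN : twLev k L₀ qt ∣ N)
    (hNL : ∀ l : ℕ, l.Prime → l ∣ N → l ∣ twLev k L₀ qt)
    (hexact : ∀ v : ℕ, v.Prime → v ∣ L₀ → ¬ v * v ∣ N)
    (hsq : ∀ q ∈ quad, ∀ u, φ₀ (twEps O.R k m qt q u : DiaRing O.R k m) ^ 2 = 1)
    (hcong : ∀ l : ℕ, l.Prime → ¬ l ∣ 2 * L₀ → (∀ i, qt i ≠ l) →
      t l - (E.apOfModel l : A.R) ∈ maximalIdeal A.R)
    (χ : CuspForm.heckeAlgebra N 2 (↑(insert 2 (Finset.univ.image qt)) : Set ℕ) →+* A.R)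
    (hχT : ∀ (l : ℕ) (hl : l.Prime) (hlN : ¬ l ∣ N) (hlS : l ∉ _),
      χ (CuspForm.heckeAlgebra.T hl hlN hlS) =
        φ₀ (kap quad (twEps O.R k m qt) l : DiaRing O.R k m) * t l)
    (hχU : ∀ (l : ℕ) (hl : l.Prime) (hlN : l ∣ N) (hlS : l ∉ _),
      χ (CuspForm.heckeAlgebra.U hl hlN hlS) =
        φ₀ (kap quad (twEps O.R k m qt) l : DiaRing O.R k m) * t l) :
    ∃ ρ : GaloisRepAdic A.R, ringPt O hE.Δ_ne_zero Q qt s A ρ ∧
      ∀ l : ℕ, l.Prime → l ∉ badSet E Q qt →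
        ∀ P : ValuationSubring (AlgebraicClosure ℚ), P.LiesOverPrime l →
          ∀ τ : Γℚ, P.IsFrobeniusAt τ l → ρ.trace τ = t l := by
  classical
  have h2A : ((2 : ℕ) : A.R) ∈ maximalIdeal A.R := two_mem_maximalIdeal A
  have : CharP (ResidueField A.R) 2 := charP_residueField_two h2A
  let : Algebra (ZMod 2) (ResidueField A.R) := ZMod.algebra _ 2
  have hNZ : ∀ i, NeZero (qt i) := fun i => ⟨(hqp i).ne_zero⟩
  have hsignP : ∀ v ∈ signPrimes E Q, v.Prime ∧ v ≠ 2 ∧ v ∣ L₀ ∧ ∀ i, qt i ≠ v := by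
    intro v hv
    have h : v.Prime ∧ v ≠ 2 ∧ v ∣ L₀ := by
      rcases Finset.mem_union.mp hv with h | h
      · have hvp := Nat.prime_of_mem_primeFactors h
        have hd := Nat.dvd_of_mem_primeFactors h
        exact ⟨hvp, fun e => hE.goodTwo
          ((E.prime_dvd_conductorLevel_iff hE.Δ_ne_zero Nat.prime_two).mp (e ▸ hd)),
          hL₀ ▸ hd.mul_right _⟩
      · exact ⟨(hQ v h).1, (hQ v h).2.1, hL₀ ▸ (Finset.dvd_prod_of_mem _ h).mul_left _⟩
    exact ⟨h.1, h.2.1, h.2.2, fun i e => hnd i (e ▸ h.2.2.mul_left 2)⟩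
  have hNq : ∀ i, qt i ∣ N := fun i => (dvd_twLev k L₀ qt i).trans hLN
  have hout : ∀ l : ℕ, l.Prime → l ∉ badSet E Q qt →
      ¬ l ∣ N ∧ l ≠ 2 ∧ (∀ i, qt i ≠ l) ∧ ¬ l ∣ 2 * L₀ ∧ E.IsGoodPrimeFor l := by
    intro l hl h
    rw [badSet, hL₀, Finset.mem_union, not_or] at h
    have h1 : ¬ l ∣ 2 * L₀ := fun hd => h.1 (Nat.mem_primeFactors.mpr ⟨hl, hd,
      mul_ne_zero two_ne_zero hL₀0⟩)
    have hq : ∀ i, qt i ≠ l := fun i e => h.2 (Finset.mem_image.mpr ⟨i, Finset.mem_univ _, e⟩)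
    refine ⟨fun hd => ?_, fun e => h1 (e ▸ dvd_mul_right 2 L₀), hq, h1, fun hd => h1
      ((hL₀ ▸ ((E.prime_dvd_conductorLevel_iff hE.Δ_ne_zero hl).mpr hd).mul_right _ : l ∣ L₀).mul_left 2)⟩
    rcases hl.dvd_mul.mp (hNL l hl hd) with hd' | hd'
    · exact h1 (hd'.mul_left 2)
    · obtain ⟨i, -, hi⟩ := (hl.prime.dvd_finsetProd_iff _).mp hd'
      exact hq i ((Nat.prime_dvd_prime_iff_eq hl (hqp i)).mp hi).symm
  -- the quadratic character
  let η : ∀ i, (ZMod (qt i))ˣ →* A.Rˣ := fun i => charMap φ₀ (twEps O.R k m qt (qt i))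
  let I : Finset (Fin k) := Finset.univ.filter fun i => qt i ∈ quad
  let c : Γℚ →* A.Rˣ := ∏ i ∈ I, galChar (η i)
  have hc : GaloisFactorsThroughFiniteLevel c :=
    galoisFactors_prod _ _ fun i _ => galChar_finiteLevel _
  have hcI : ∀ σ, c σ = ∏ i ∈ I, galChar (η i) σ := fun σ => by
    simp only [c, MonoidHom.finsetProd_apply]
  have hcsq : ∀ σ, c σ ^ 2 = 1 := fun σ => by
    rw [hcI, ← Finset.prod_pow]
    refine Finset.prod_eq_one fun i hi => Units.ext ?_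
    rw [Units.val_pow_eq_pow_val, Units.val_one]
    exact hsq _ (Finset.mem_filter.mp hi).2 _
  have hcIn : ∀ l : ℕ, l.Prime → (∀ i, qt i ≠ l) →
      ∀ P : ValuationSubring (AlgebraicClosure ℚ), P.LiesOverPrime l →
        ∀ σ ∈ P.inertiaSubgroupIn ℚ, c σ = 1 := fun l hl hlq P hP σ hσ => by
    rw [hcI]
    exact Finset.prod_eq_one fun i _ => galChar_inertia (η i) hl
      (fun h => hlq i ((Nat.prime_dvd_prime_iff_eq hl (hqp i)).mp h).symm) hP hσ
  have himage : quad = I.image qt := by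
    ext q
    simp only [I, Finset.mem_image, Finset.mem_filter, Finset.mem_univ, true_and]
    exact ⟨fun h => by
      obtain ⟨i, -, rfl⟩ := Finset.mem_image.mp (hquad h)
      exact ⟨i, h, rfl⟩, fun ⟨i, h, e⟩ => e ▸ h⟩
  have hcF : ∀ l : ℕ, l.Prime → (∀ i, qt i ≠ l) →
      ∀ P : ValuationSubring (AlgebraicClosure ℚ), P.LiesOverPrime l → ∀ σ : Γℚ,
        P.IsFrobeniusAt σ l →
          (c σ : A.R) = φ₀ (kap quad (twEps O.R k m qt) l : DiaRing O.R k m) := by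
    intro l hl hlq P hP σ hσ
    rw [hcI, Units.coe_prod, kap, himage, Finset.prod_image fun a _ b _ h => hinj h,
      Units.coe_prod, map_prod]
    refine Finset.prod_congr rfl fun i _ => ?_
    have hlc : l.Coprime (qt i) := (Nat.coprime_primes hl (hqp i)).mpr fun e => hlq i e.symm
    rw [galChar_frobenius (η i) hl
      (fun h => hlq i ((Nat.prime_dvd_prime_iff_eq hl (hqp i)).mp h).symm) hP hσ hlc,
      epsAt, dif_pos hlc]
    rfl
  have hcm : ∀ σ, (c σ : A.R) - 1 ∈ maximalIdeal A.R := fun σ =>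
    sub_one_mem_of_sq_eq_one (by exact_mod_cast h2A) _ (hcsq σ)
  have hkap : ∀ l : ℕ, l.Prime → (∀ i, qt i ≠ l) →
      ∃ e : ℤ, (e = 1 ∨ e = -1) ∧ (∀ P : ValuationSubring (AlgebraicClosure ℚ), P.LiesOverPrime l →
        ∀ σ : Γℚ, P.IsFrobeniusAt σ l → (c σ : A.R) = (e : A.R)) ∧
        φ₀ (kap quad (twEps O.R k m qt) l : DiaRing O.R k m) = (e : A.R) := by
    intro l hl hlq
    obtain ⟨P, hP⟩ := FLTA.Galois.exists_liesOverPrime hl
    obtain ⟨σ, hσ⟩ := FLTA.Galois.exists_isFrobeniusAt hl hP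
    have h := hcF l hl hlq P hP σ hσ
    have h' : (c σ : A.R) = 1 ∨ (c σ : A.R) = -1 := by
      rw [← sq_eq_one_iff, ← Units.val_pow_eq_pow_val, hcsq, Units.val_one]
    rcases h' with h' | h'
    · exact ⟨1, Or.inl rfl, fun P' hP' σ' hσ' => by
        rw [hcF l hl hlq P' hP' σ' hσ', ← h, h', Int.cast_one], by rw [← h, h', Int.cast_one]⟩
    · exact ⟨-1, Or.inr rfl, fun P' hP' σ' hσ' => by
        rw [hcF l hl hlq P' hP' σ' hσ', ← h, h', Int.cast_neg, Int.cast_one],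
        by rw [← h, h', Int.cast_neg, Int.cast_one]⟩
  -- the representation at the classical level
  let S : Finset ℕ := insert 2 N.primeFactors
  have hS₀ : (↑(insert 2 (Finset.univ.image qt)) : Set ℕ) ⊆ ↑S := fun x hx => by
    rw [Finset.mem_coe, Finset.mem_insert] at hx ⊢
    refine hx.imp_right fun h => ?_
    obtain ⟨i, -, rfl⟩ := Finset.mem_image.mp h
    exact Nat.mem_primeFactors.mpr ⟨hqp i, hNq i, NeZero.ne N⟩
  let χS := χ.comp (Subalgebra.inclusion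
    (CuspForm.heckeAlgebra_mono (N := N) (k := 2) hS₀)).toRingHom
  have hχS : ∀ (l : ℕ) (hl : l.Prime) (hlN : ¬ l ∣ N) (hlS : l ∉ (↑S : Set ℕ)),
      χS (CuspForm.heckeAlgebra.T hl hlN hlS) =
        φ₀ (kap quad (twEps O.R k m qt) l : DiaRing O.R k m) *
          t l := fun l hl hlN hlS =>
    hχT l hl hlN fun h => hlS (hS₀ h)
  have hbad : ∀ l : ℕ, l.Prime → l ∉ (↑S : Set ℕ) → l ∉ badSet E Q qt := fun l hl hlS h => by
    refine hlS (Finset.mem_coe.mpr (Finset.mem_insert.mpr ?_))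
    rw [badSet, hL₀, Finset.mem_union] at h
    rcases h with h | h
    · rcases hl.dvd_mul.mp (Nat.dvd_of_mem_primeFactors h) with h' | h'
      · exact Or.inl ((Nat.prime_dvd_prime_iff_eq hl Nat.prime_two).mp h')
      · exact Or.inr (Nat.mem_primeFactors.mpr
          ⟨hl, (h'.mul_right _).trans hLN, NeZero.ne N⟩)
    · obtain ⟨i, -, rfl⟩ := Finset.mem_image.mp h
      exact Or.inr (Nat.mem_primeFactors.mpr ⟨hqp i, hNq i, NeZero.ne N⟩)
  have hη1 : ∀ l : ℕ, l.Prime → (∀ i, qt i ≠ l) →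
      φ₀ (kap quad (twEps O.R k m qt) l : DiaRing O.R k m) - 1 ∈ maximalIdeal A.R := by
    intro l hl hlq
    obtain ⟨P, hP⟩ := FLTA.Galois.exists_liesOverPrime hl
    obtain ⟨σ, hσ⟩ := FLTA.Galois.exists_isFrobeniusAt hl hP
    rw [← hcF l hl hlq P hP σ hσ]
    exact hcm σ
  have hcongS : ∀ (l : ℕ), l.Prime → l ∉ badSet E Q qt →
      φ₀ (kap quad (twEps O.R k m qt) l : DiaRing O.R k m) *
        t l - (E.apOfModel l : A.R) ∈ maximalIdeal A.R := by
    intro l hl hlb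
    obtain ⟨-, -, hlq, h1, -⟩ := hout l hl hlb
    have h := add_mem (Ideal.mul_mem_right (t l) _ (hη1 l hl hlq))
      (hcong l hl h1 hlq)
    convert h using 1
    ring
  obtain ⟨ρ₀, hfrob, hdet, hunr, hirr, hres⟩ := exists_pointRep hE hω A (L := N) (S := S)
    (Finset.mem_insert_self _ _)
    (fun q hq hd => Finset.mem_insert_of_mem (Nat.mem_primeFactors.mpr ⟨hq, hd, NeZero.ne N⟩))
    χS fun l hl hlN hlS _ => by rw [hχS l hl hlN hlS]; exact hcongS l hl (hbad l hl hlS)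
  let ρ := twistRep ρ₀ c hc
  have hdet' : ρ.DetIsCyclotomic 2 := detIsCyclotomic_twistRep ρ₀ c hc hdet hcsq
  have hres' : (resRep hE.Δ_ne_zero (ResidueField A.R)).IsEquiv ρ.residual := by
    obtain ⟨e₁⟩ := hres
    obtain ⟨e₂⟩ := residual_twistRep_isEquiv ρ₀ c hc hcm
    exact ⟨e₁.trans e₂⟩
  have htrace : ∀ l : ℕ, l.Prime → l ∉ badSet E Q qt →
      ∀ P : ValuationSubring (AlgebraicClosure ℚ), P.LiesOverPrime l →
        ∀ τ : Γℚ, P.IsFrobeniusAt τ l → ρ.trace τ = t l := by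
    intro l hl hlb P hP τ hτ
    obtain ⟨hlN, hl2, hlq, -, -⟩ := hout l hl hlb
    have hlS : l ∉ (↑S : Set ℕ) := by
      rw [Finset.mem_coe, Finset.mem_insert, not_or]
      exact ⟨hl2, fun h => hlN (Nat.dvd_of_mem_primeFactors h)⟩
    rw [trace_twistRep, trace_eq_of_charpoly_point ρ₀ (hfrob l hl hlN hlS P hP τ hτ),
      hχS l hl hlN hlS, hcF l hl hlq P hP τ hτ, ← mul_assoc,
      ← hcF l hl hlq P hP τ hτ, ← sq, ← Units.val_pow_eq_pow_val, hcsq, Units.val_one, one_mul]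
  refine ⟨ρ, ⟨⟨⟨hdet', ?_, ?_⟩, ?_⟩, trace_sub_val_mem_of_isEquiv ρ hres'⟩, htrace⟩
  · -- flat at `2`
    exact isFlatAt_twistRep ρ₀ c hc hcsq (hcIn 2 Nat.prime_two fun i e =>
      hnd i (e.symm ▸ dvd_mul_right 2 _))
      (isFlatAt_two_pointRep A hNodd (Finset.mem_insert_self _ _)
        (fun q hq hd => Finset.mem_insert_of_mem (Nat.mem_primeFactors.mpr ⟨hq, hd, NeZero.ne N⟩))
        χS ρ₀ hfrob hirr)
  · -- unramified
    intro l hl hlS
    rw [ringSet, Finset.mem_insert, Finset.mem_union, ← signPrimes_eq hE.Δ_ne_zero, not_or,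
      not_or] at hlS
    have hlq : ∀ i, qt i ≠ l := fun i e =>
      hlS.2.2 (Finset.mem_image.mpr ⟨i, Finset.mem_univ _, e⟩)
    refine isUnramifiedAt_twistRep ρ₀ c hc (hunr l hl (fun hd => ?_) hlS.1)
      (hcIn l hl hlq)
    rcases hl.dvd_mul.mp (hNL l hl hd) with hd' | hd'
    · rw [← hL₀] at hd'
      refine hlS.2.1 (Finset.mem_union.mpr ((hl.dvd_mul.mp hd').imp (fun h => ?_) fun h => ?_))
      · exact Nat.mem_primeFactors.mpr ⟨hl, h, E.conductorLevel_pos.ne'⟩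
      · obtain ⟨q, hq, hi⟩ := (hl.prime.dvd_finsetProd_iff _).mp h
        exact (Nat.prime_dvd_prime_iff_eq hl (hQ q hq).1).mp hi ▸ hq
    · obtain ⟨i, -, hi⟩ := (hl.prime.dvd_finsetProd_iff _).mp hd'
      exact hlq i ((Nat.prime_dvd_prime_iff_eq hl (hqp i)).mp hi).symm
  · -- the signs
    intro v hv
    rw [← signPrimes_eq hE.Δ_ne_zero] at hv
    obtain ⟨hvp, hv2, hvL, hvq⟩ := hsignP v hv
    obtain ⟨e, he, heF, hek⟩ := hkap v hvp hvq
    have hvS : v ∉ (↑(insert 2 (Finset.univ.image qt)) : Set ℕ) := by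
      rw [Finset.mem_coe, Finset.mem_insert, not_or]
      exact ⟨hv2, fun h => by
        obtain ⟨i, -, hi⟩ := Finset.mem_image.mp h
        exact hvq i hi⟩
    have hvN : v ∣ N := (hvL.mul_right _).trans hLN
    have hse : e * s v = 1 ∨ e * s v = -1 := by
      rcases he with rfl | rfl <;> rcases hs v hv with h | h <;> simp [h]
    have key := signEqAt_system hE A hvp hv2 hvN (hexact v hvp hvL) hvS χ ρ₀ S
      (fun l hl hlS => by
        have hlS' : l ∉ (↑S : Set ℕ) := fun h => hlS (Finset.mem_coe.mp h)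
        obtain ⟨h1, h2, -, -, h5⟩ := hout l hl (hbad l hl hlS')
        exact ⟨fun h => hlS' (hS₀ h), h1, h2, h5⟩)
      (fun l hl hlN hlS₀ hlS => by
        rw [hχT l hl hlN hlS₀]
        exact hcongS l hl (hbad l hl fun h => hlS (Finset.mem_coe.mp h)))
      (fun l hl hlN hlS₀ hlS P hP σ hσ => hfrob l hl hlN (fun h => hlS (Finset.mem_coe.mp h)) P hP σ hσ)
      hse (by rw [hχU v hvp hvN hvS, ht v hv, hek]; push_cast; rfl)
    have h' := key.of_twist (ρ' := ρ) (e := e) (fun σ => (c σ : A.R))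
      (LinearEquiv.refl A.R ρ₀.V) (fun σ x => rfl)
      (fun P hP τ hτ => by rw [hcIn v hvp hvq P hP τ hτ, Units.val_one]) heF
    have hee : e * (e * s v) = s v := by rcases he with rfl | rfl <;> ring
    rwa [hee] at h'

set_option maxHeartbeats 3200000 in
-- the level algebra
/-- The representation of one point. -/
theorem exists_rep_level (hE : Companion E) {ω : O.R} (hω : ω ^ 2 + ω + 1 = 0) (Q : Finset ℕ)
    (hQ : ∀ v ∈ Q, v.Prime ∧ v ≠ 2 ∧ ¬ v ∣ E.conductorLevel) {k m : ℕ} (qt : Fin k → ℕ)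
    (hinj : Function.Injective qt) (hqp : ∀ i, (qt i).Prime) {L₀ : ℕ}
    (hL₀ : E.conductorLevel * ∏ q ∈ Q, q = L₀) (hnd : ∀ i, ¬ qt i ∣ 2 * L₀)
    [NeZero (twLev k L₀ qt)] (A : RepTheory.FiniteDVRExt O.R)
    (ψ : twH O.R k m L₀ qt E L₀ ω →ₐ[O.R] A.R) (s : ℕ → ℤ) (hs : IsSign E Q s)
    (hU : ∀ v ∈ signPrimes E Q, ψ (twGen O.R k m L₀ qt E L₀ ω v) = (s v : A.R)) :
    ∃ ρ : GaloisRepAdic A.R, ringPt O hE.Δ_ne_zero Q qt s A ρ ∧
      ∀ l : ℕ, l.Prime → l ∉ badSet E Q qt →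
        ∀ P : ValuationSubring (AlgebraicClosure ℚ), P.LiesOverPrime l →
          ∀ τ : Γℚ, P.IsFrobeniusAt τ l → ρ.trace τ = ψ (twGen O.R k m L₀ qt E L₀ ω l) := by
  classical
  obtain ⟨p, hp, hpN, hp4⟩ := hE.exists_prime_three_mod_four
  have hL₀sq : Squarefree L₀ := by
    rw [← hL₀, Nat.squarefree_mul_iff]
    refine ⟨Nat.Coprime.prod_right fun q hq =>
      ((hQ q hq).1.coprime_iff_not_dvd.mpr (hQ q hq).2.2).symm, E.squarefree_conductorLevel,
      Finset.squarefree_prod_of_pairwise_isCoprime (fun a ha b hb hab => ?_)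
        fun q hq => (hQ q hq).1.squarefree⟩
    exact Nat.coprime_iff_isRelPrime.mp ((Nat.coprime_primes (hQ a ha).1 (hQ b hb).1).mpr hab)
  have hL₀2 : ¬ 2 ∣ L₀ := by
    rw [← hL₀, Nat.prime_two.dvd_mul]
    rintro (h | h)
    · exact hE.goodTwo ((E.prime_dvd_conductorLevel_iff hE.Δ_ne_zero Nat.prime_two).mp h)
    · obtain ⟨q, hq, h⟩ := (Nat.prime_two.prime.dvd_finsetProd_iff _).mp h
      exact (hQ q hq).2.1 ((Nat.prime_dvd_prime_iff_eq Nat.prime_two (hQ q hq).1).mp h).symm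
  obtain ⟨φ₀, hφ₀⟩ : ∃ φ₀ : DiaRing O.R k m →+* A.R, ∀ r,
      φ₀ r = ψ (algebraMap (DiaRing O.R k m) _ r) :=
    ⟨ψ.toRingHom.comp (algebraMap (DiaRing O.R k m) _), fun _ => RingHom.comp_apply _ _ _⟩
  obtain ⟨t, ht⟩ : ∃ t : ℕ → A.R, ∀ l, t l = ψ (twGen O.R k m L₀ qt E L₀ ω l) :=
    ⟨_, fun _ => rfl⟩
  obtain ⟨A', c', z, htf, heig, hcT, hcres⟩ :=
    exists_twH_class hE ω hp (hL₀ ▸ hpN.mul_right _) hp4 A ψ φ₀ hφ₀
  simp only [← ht] at hcT hU ⊢
  obtain ⟨N, hN, quad, hquad, hNodd, hLN, hNL, hexact, hsq, hcong, χ, hχT, hχU⟩ :=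
    exists_classical_of_class hE hL₀sq hL₀2 hinj hqp hnd A φ₀ t A' c' z htf heig hcT hcres
  exact exists_rep_of_classical hE hω Q hQ qt hinj hqp hL₀ hL₀sq.ne_zero hnd A φ₀ t s hs hU quad
    hquad hNodd hLN hNL hexact hsq hcong χ hχT hχU

set_option maxHeartbeats 3200000 in
-- the assembly
/-- **The representation of a point of the level algebra.** -/
theorem exists_rep_twH (hE : Companion E) {ω : O.R} (hω : ω ^ 2 + ω + 1 = 0) (Q : Finset ℕ)
    (hQ : ∀ v ∈ Q, v.Prime ∧ v ≠ 2 ∧ ¬ v ∣ E.conductorLevel) {k m : ℕ} (qt : Fin k → ℕ)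
    (hinj : Function.Injective qt) (hqp : ∀ i, (qt i).Prime)
    (hnd : ∀ i, ¬ qt i ∣ 2 * (E.conductorLevel * ∏ q ∈ Q, q))
    (hoddq : ∀ i, ¬ (2 : ℤ) ∣ E.apOfModel (qt i)) (hm : ∀ i, 2 ^ m ∣ qt i - 1)
    (hq5 : ∀ i, 5 ≤ qt i)
    [NeZero (twLev k (E.conductorLevel * ∏ q ∈ Q, q) qt)] :
    ∃ tame : Fin k → Γℚ,
      (∀ i, ∃ P : ValuationSubring (AlgebraicClosure ℚ), P.LiesOverPrime (qt i) ∧
        tame i ∈ P.inertiaSubgroupIn ℚ) ∧
      ∀ (A : RepTheory.FiniteDVRExt O.R)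
        (ψ : twH O.R k m (E.conductorLevel * ∏ q ∈ Q, q) qt E
          (E.conductorLevel * ∏ q ∈ Q, q) ω →ₐ[O.R] A.R),
        ∀ s, IsSign E Q s → (∀ v ∈ signPrimes E Q,
            ψ (twGen O.R k m (E.conductorLevel * ∏ q ∈ Q, q) qt E
              (E.conductorLevel * ∏ q ∈ Q, q) ω v) = (s v : A.R)) →
          ∃ ρ : GaloisRepAdic A.R, ringPt O hE.Δ_ne_zero Q qt s A ρ ∧
            (∀ l : ℕ, l.Prime → l ∉ badSet E Q qt →
              ∀ P : ValuationSubring (AlgebraicClosure ℚ), P.LiesOverPrime l →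
                ∀ τ : Γℚ, P.IsFrobeniusAt τ l →
                  ρ.trace τ = ψ (twGen O.R k m (E.conductorLevel * ∏ q ∈ Q, q) qt E
                    (E.conductorLevel * ∏ q ∈ Q, q) ω l)) ∧
            ∀ i, (ρ.trace (tame i) - 2) *
                ψ (algebraMap (DiaRing O.R k m) _ (diaMk O.R k m (1 + MvPowerSeries.X i))) =
              ψ (algebraMap (DiaRing O.R k m) _ (diaMk O.R k m (MvPowerSeries.X i))) ^ 2 := by
  choose tame htame using fun i => exists_isTameGen (O := O) hinj i (hqp i) (hm i)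
  refine ⟨tame, fun i => ?_, fun A ψ s hs hU => ?_⟩
  · obtain ⟨P, hP, hσ, -⟩ := htame i
    exact ⟨P, hP, hσ⟩
  · obtain ⟨ρ, hpt, htr⟩ := exists_rep_level hE hω Q hQ qt hinj hqp
      (L₀ := E.conductorLevel * ∏ q ∈ Q, q) rfl hnd A ψ s hs hU
    exact ⟨ρ, hpt, htr, fun i => trace_tame hE hω Q hQ qt hinj hqp hnd hoddq hq5 (htame i) A ψ ρ
      hpt.1.1.1 hpt.2 htr⟩

end FLTA.LT2.PatchG

end
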