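import Fermat.Agent.LT2.PatchedBottom
import Fermat.Agent.LT2.PatchedHecke
import Fermat.Agent.LT2.PatchedLowPoints
import Fermat.Agent.LT2.PatchedPointDefs
import Fermat.Agent.LT2.PatchedThreeModFour
import Fermat.Agent.LT2.PointsRep
import Fermat.Agent.LT2.ThetaAuxPrime

/-!
# Part G of LT2: the level above the bottom at one Taylor–Wiles tuple
-/

set_option autoImplicit false
set_option linter.overlappingInstances false
set_option linter.unusedSectionVars false
set_option linter.style.haveILetI false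
set_option maxSynthPendingDepth 3

noncomputable section

open IsLocalRing CongruenceSubgroup

namespace FLTA.LT2

open FLTA.RT FLTA.Periods

section intertwine

variable {R O M F H K : Type} [CommRing R] [CommRing O] [AddCommGroup M] [Module R M]
  [AddCommGroup F] [Module O F] [CommRing H] [Algebra R H] [CommRing K] [Algebra O K]
  (f : R →+* O) (red : M →+ F) (hred : ∀ a x, red (a • x) = f a • red x)
  (α : H →ₐ[R] Module.End R M) (β : K →ₐ[O] Module.End O F)

include hred in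
/-- A polynomial in intertwined operators is intertwined with the image polynomial. -/
theorem red_aeval (u : H) (u' : K) (hu : ∀ x, red (α u x) = β u' (red x)) (P : Polynomial R)
    (x : M) :
    red (α (Polynomial.aeval u P) x) = β (Polynomial.aeval u' (P.map f)) (red x) := by
  induction P using Polynomial.induction_on' generalizing x with
  | add P P' hP hP' =>
    rw [map_add, map_add, LinearMap.add_apply, map_add, Polynomial.map_add, map_add, map_add,
      LinearMap.add_apply, hP, hP']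
  | monomial n a =>
    rw [Polynomial.map_monomial, Polynomial.aeval_monomial, Polynomial.aeval_monomial, map_mul,
      map_mul, map_pow, map_pow, AlgHom.commutes, AlgHom.commutes, Module.End.mul_apply,
      Module.End.mul_apply, Module.algebraMap_end_apply, Module.algebraMap_end_apply, hred]
    congr 1
    induction n generalizing x with
    | zero => simp
    | succ n ih => rw [pow_succ, pow_succ, Module.End.mul_apply, Module.End.mul_apply, ih, hu]

omit [Algebra R H] [Algebra O K] in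
/-- So are products. -/
theorem red_prod {α : H →+* Module.End R M} {β : K →+* Module.End O F} {ι : Type*} (S : Finset ι)
    (g : ι → H) (g' : ι → K) (h : ∀ i ∈ S, ∀ x, red (α (g i) x) = β (g' i) (red x)) (x : M) :
    red (α (∏ i ∈ S, g i) x) = β (∏ i ∈ S, g' i) (red x) := by
  classical
  induction S using Finset.induction_on generalizing x with
  | empty => simp
  | insert i S hi ih =>
    rw [Finset.prod_insert hi, Finset.prod_insert hi, map_mul, map_mul, Module.End.mul_apply,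
      Module.End.mul_apply, h i (Finset.mem_insert_self i S),
      ih fun j hj => h j (Finset.mem_insert_of_mem hj)]

omit [Algebra R H] [Algebra O K] in
/-- And squares. -/
theorem red_sq {α : H →+* Module.End R M} {β : K →+* Module.End O F} {z : H} {z' : K}
    (h : ∀ x, red (α z x) = β z' (red x)) (x : M) :
    red (α (z ^ 2) x) = β (z' ^ 2) (red x) := by
  rw [map_pow, map_pow, pow_two, pow_two, Module.End.mul_apply, Module.End.mul_apply, h, h]

omit [Algebra R H] [CommRing K] [Algebra O K] [CommRing H] in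
include hred in
/-- And operators normalised by a factor which reduces to one. -/
theorem red_smul_apply {c : R} (hc : f c = 1) {t u : Module.End R M} {g : Module.End O F}
    (hu : u = c • t) (h : ∀ x, red (t x) = g (red x)) (x : M) : red (u x) = g (red x) := by
  rw [hu, LinearMap.smul_apply, hred, hc, one_smul, h]

end intertwine

section subalg

variable {R A : Type} [CommRing R] [Ring A] [Algebra R A] (S : Subalgebra R A)

theorem subalgebra_sq_eq_one {x : S} {f : A} (hx : (x : A) = f) (h : f * f = 1) : x * x = 1 :=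
  Subtype.ext (by simp [hx, h])

theorem subalgebra_aeval_mul_eq_zero {x : S} {f : A} (hx : (x : A) = f) (P : Polynomial R)
    (h : Polynomial.aeval f P * (f * f - 1) = 0) : Polynomial.aeval x P * (x * x - 1) = 0 :=
  Subtype.ext (by simp [Polynomial.aeval_subalgebra_coe, hx, h])

end subalg

theorem mul_prod_eq_self {H ι : Type*} [CommRing H] [DecidableEq ι] (S : Finset ι) (f : ι → H)
    {i : ι} (hi : i ∈ S) (u : H) (h : f i * (u * u - 1) = 0) :
    u * u * ∏ j ∈ S, f j = ∏ j ∈ S, f j := by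
  rw [← Finset.mul_prod_erase S f hi]
  linear_combination (∏ j ∈ S.erase i, f j) * h

/-- At a point where `z ^ 2` does not vanish an involution on the image of `z` is a sign. -/
theorem eq_one_or_neg_one_of_point {R H B : Type} [CommRing R] [CommRing H] [Algebra R H]
    [CommRing B] [IsDomain B] [Algebra R B] (ψ : H →ₐ[R] B) {u z : H} (hz : ψ (z ^ 2) ≠ 0)
    (h : u * u * z = z) : ψ u = 1 ∨ ψ u = -1 := by
  have h0 : ψ z ≠ 0 := fun h0 => hz (by rw [map_pow, h0, zero_pow two_ne_zero])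
  have h1 := congrArg ψ h
  rw [map_mul, map_mul] at h1
  exact mul_self_eq_one_iff.mp (mul_right_cancel₀ h0 (h1.trans (one_mul _).symm))

section level

variable (O : Type) [CommRing O] [IsDomain O] [IsDiscreteValuationRing O]
  [IsAdicComplete (maximalIdeal O) O] [Finite (ResidueField O)] [CharZero O]
  (k m : ℕ) (L₀ : ℕ) [NeZero L₀] (q : Fin k → ℕ) (E : WeierstrassCurve ℤ) (ω : O)
  [NeZero (twLev k L₀ q)]

set_option maxHeartbeats 1600000 in
theorem twGen_sq_mul_twZ_of_low {v L : ℕ} [NeZero L] [NeZero (twLev k L q)] (Q : Finset ℕ)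
    (hv : v.Prime) (hv2 : v ≠ 2) (hL₀ : L₀ = L * v) (hvL : ¬ v ∣ L) (hqp : ∀ i, (q i).Prime)
    (hvq : ∀ i, q i ≠ v) (h2 : (2 : O) ∈ maximalIdeal O)
    (hlow : twGam O k m L₀ q E L ω = ⊥) :
    letI := twHCommRing O k m L₀ q E L₀ ω
    twGen O k m L₀ q E L₀ ω v * twGen O k m L₀ q E L₀ ω v * twZ O k m L₀ q E ω Q =
      twZ O k m L₀ q E ω Q := by
  letI := twHCommRing O k m L₀ q E L₀ ω
  have h := subalgebra_sq_eq_one (twH O k m L₀ q E L₀ ω)
    (coe_twGen O k m L₀ q E L₀ ω ⟨hv, hv2, hvq⟩)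
    (sq_eq_one_of_twGam_eq_bot O k m L₀ q E ω hv hL₀ hvL hqp hvq h2 hlow)
  exact (congrArg (· * twZ O k m L₀ q E ω Q) h).trans (one_mul _)

set_option maxHeartbeats 1600000 in
theorem twGen_sq_mul_twZ_of_mem {v L : ℕ} [NeZero L] [NeZero (twLev k L q)] {Q : Finset ℕ}
    (hvQ : v ∈ Q) (hv : v.Prime) (hv2 : v ≠ 2) (hL₀ : L₀ = L * v) (hvL : ¬ v ∣ L)
    (hqp : ∀ i, (q i).Prime) (hvq : ∀ i, q i ≠ v) (h2 : (2 : O) ∈ maximalIdeal O) {p : ℕ}
    (hp : p.Prime) (hpL : p ∣ L) (hp4 : p % 4 = 3) (l₀ : GoodIdx L₀)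
    (hl₀ : ¬ (l₀ : ℕ) ∣ twLev k L₀ q) (hodd : ¬ (2 : ℤ) ∣ E.apOfModel l₀) :
    letI := twHCommRing O k m L₀ q E L₀ ω
    twGen O k m L₀ q E L₀ ω v * twGen O k m L₀ q E L₀ ω v * twZ O k m L₀ q E ω Q =
      twZ O k m L₀ q E ω Q := by
  classical
  letI := twHCommRing O k m L₀ q E L₀ ω
  exact mul_prod_eq_self Q (fun w => Polynomial.aeval (twGen O k m L₀ q E L₀ ω w)
      (topPoly O k m L₀ q E ω w)) hvQ (twGen O k m L₀ q E L₀ ω v)
    (subalgebra_aeval_mul_eq_zero (twH O k m L₀ q E L₀ ω)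
      (coe_twGen O k m L₀ q E L₀ ω ⟨hv, hv2, hvq⟩) _
      (sq_sub_one_mul_topPoly O k m L₀ q E ω hv hL₀ hvL hqp hvq h2 hp hpL hp4 l₀ hl₀ hodd))

variable (red : twMod O k m L₀ q E L₀ ω →+ bottomF O E L₀)
  (hred : ∀ a x, red (a • x) = algebraMap (DiaRing O k m) O a • red x)
  (hop : ∀ r : ℕ, r.Prime → (∀ i, q i ≠ r) → ∀ x,
    red (twOp O k m L₀ q E L₀ ω r x) = bottomOp O E L₀ r (red x))

include hred hop in
theorem red_twGen {r : ℕ} (hr : r.Prime) (hr2 : r ≠ 2) (hrq : ∀ i, q i ≠ r)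
    (x : twMod O k m L₀ q E L₀ ω) :
    red ((twH O k m L₀ q E L₀ ω).val (twGen O k m L₀ q E L₀ ω r) x) =
      (bottomH O E L₀).val (bottomGen O E L₀ r) (red x) := by
  exact red_smul_apply (algebraMap (DiaRing O k m) O) red hred (aug_kap O k m q r)
    (g := (bottomOp O E L₀ r)) (coe_twGen O k m L₀ q E L₀ ω ⟨hr, hr2, hrq⟩) (hop r hr hrq) x

set_option maxHeartbeats 1600000 in
include hred hop in
theorem red_twZ_sq (Q : Finset ℕ)
    (hQ : ∀ v ∈ Q, v.Prime ∧ v ≠ 2 ∧ (∀ i, q i ≠ v) ∧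
      (topPoly O k m L₀ q E ω v).map (algebraMap (DiaRing O k m) O) = bottomPoly O E L₀ v)
    (x : twMod O k m L₀ q E L₀ ω) :
    letI := twHCommRing O k m L₀ q E L₀ ω
    letI := bottomHCommRing O E L₀
    red ((twH O k m L₀ q E L₀ ω).val.toRingHom (twZ O k m L₀ q E ω Q ^ 2) x) =
      (bottomH O E L₀).val.toRingHom (bottomZ O E L₀ Q ^ 2) (red x) := by
  letI := twHCommRing O k m L₀ q E L₀ ω
  letI := bottomHCommRing O E L₀
  refine red_sq red (fun y => ?_) x
  exact red_prod red Q _ _ (fun v hv z => by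
    obtain ⟨hvp, hv2, hvq, hmap⟩ := hQ v hv
    rw [← hmap]
    exact red_aeval _ red hred (twH O k m L₀ q E L₀ ω).val (bottomH O E L₀).val _ _
      (fun w => red_twGen O k m L₀ q E ω red hred hop hvp hv2 hvq w) _ z) y

end level

namespace PatchG

variable (O : RepTheory.FiniteDVRExt ℤ_[2]) {E : WeierstrassCurve ℤ}

theorem squarefree_level (hE : Companion E) {Q : Finset ℕ} (hQ : ∀ q ∈ Q, ConjPrime E 1 q) :
    Squarefree (E.conductorLevel * ∏ q ∈ Q, q) := by
  have hQN : ∀ q ∈ Q, ¬ q ∣ E.conductorLevel := fun q hq hd =>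
    (hQ q hq).good ((E.prime_dvd_conductorLevel_iff hE.Δ_ne_zero (hQ q hq).prime).mp hd)
  refine (Nat.squarefree_mul (Nat.Coprime.prod_right fun q hq => ?_)).mpr
    ⟨E.squarefree_conductorLevel,
      Finset.squarefree_prod_of_pairwise_isCoprime ?_ fun q hq => (hQ q hq).prime.squarefree⟩
  · exact ((hQ q hq).prime.coprime_iff_not_dvd.mpr (hQN q hq)).symm
  · exact fun x hx y hy hxy => Nat.coprime_iff_isRelPrime.mp
      ((Nat.coprime_primes (hQ x hx).prime (hQ y hy).prime).mpr hxy)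

theorem ne_two_of_mem_signPrimes (hE : Companion E) {Q : Finset ℕ}
    (hQ : ∀ q ∈ Q, ConjPrime E 1 q) {v : ℕ} (hv : v ∈ signPrimes E Q) : v ≠ 2 := by
  rcases Finset.mem_union.mp hv with hv | hv
  · intro h
    subst h
    exact hE.goodTwo ((E.prime_dvd_conductorLevel_iff hE.Δ_ne_zero Nat.prime_two).mp
      (Nat.dvd_of_mem_primeFactors hv))
  · exact (hQ v hv).ne_two

/-- A level from data over the coefficient ring `DiaRing`. -/
theorem nonempty_level_of {Q : Finset ℕ} {Pt : PointPred O} {d : ℕ} {B : Bottom O E Q d} {k m : ℕ}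
    {qt : Fin k → ℕ} (M : Type) [AddCommGroup M] [Module (DiaRing O.R k m) M]
    (basis : Module.Basis (Fin d) (DiaRing O.R k m) M) (H : Type) [CommRing H] [Algebra O.R H]
    (α : H →+* Module.End (DiaRing O.R k m) M) (δ : MvPowerSeries (Fin k) O.R →ₐ[O.R] H)
    (hδ : ∀ a (x : M), α (δ a) x = diaMk O.R k m a • x) (T : ℕ → H) (z : H)
    (heval : ∀ lv : Fin k → ℕ, (∀ i, (lv i).Prime ∧ lv i ∉ badSet E Q qt) →
      ∃ act : MvPowerSeries (Fin k) O.R →ₐ[O.R] H,
        ∀ i, act (MvPowerSeries.X i) = T (lv i) - (E.apOfModel (lv i) : H))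
    (hsep : ∀ h : H,
      (∀ (A : RepTheory.FiniteDVRExt O.R) (ψ : H →ₐ[O.R] A.R), ψ z ≠ 0 → ψ h = 0) → h * z = 0)
    (hsgn : ∀ (A : RepTheory.FiniteDVRExt O.R) (ψ : H →ₐ[O.R] A.R), ψ z ≠ 0 →
      ∀ v ∈ signPrimes E Q, ψ (T v) = 1 ∨ ψ (T v) = -1)
    (tame : Fin k → (AlgebraicClosure ℚ ≃ₐ[ℚ] AlgebraicClosure ℚ))
    (htame : ∀ i, ∃ P : ValuationSubring (AlgebraicClosure ℚ), P.LiesOverPrime (qt i) ∧
      tame i ∈ P.inertiaSubgroupIn ℚ)
    (hrep : ∀ (A : RepTheory.FiniteDVRExt O.R) (ψ : H →ₐ[O.R] A.R),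
      ∀ s, IsSign E Q s → (∀ v ∈ signPrimes E Q, ψ (T v) = (s v : A.R)) →
        ∃ ρ : GaloisRepAdic A.R, Pt s A ρ ∧
          (∀ l : ℕ, l.Prime → l ∉ badSet E Q qt →
            ∀ P : ValuationSubring (AlgebraicClosure ℚ), P.LiesOverPrime l →
              ∀ τ : AlgebraicClosure ℚ ≃ₐ[ℚ] AlgebraicClosure ℚ,
                P.IsFrobeniusAt τ l → ρ.trace τ = ψ (T l)) ∧
          ∀ i, (ρ.trace (tame i) - 2) * ψ (δ (1 + MvPowerSeries.X i)) =
            ψ (δ (MvPowerSeries.X i)) ^ 2)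
    (red : M →+ B.F) (hsurj : Function.Surjective red)
    (hker : ∀ x, red x = 0 → x ∈ RingHom.ker (algebraMap (DiaRing O.R k m) O.R) •
      (⊤ : Submodule (DiaRing O.R k m) M))
    (hsmul : ∀ a x, red (a • x) = algebraMap (DiaRing O.R k m) O.R a • red x)
    (hT : ∀ l : ℕ, l.Prime → l ∉ badSet E Q qt → ∀ x, red (α (T l) x) = B.α (B.T l) (red x))
    (hU : ∀ v ∈ signPrimes E Q, ∀ x, red (α (T v) x) = B.α (B.U v) (red x))
    (hz : ∀ x, red (α z x) = B.α B.z (red x)) :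
    Nonempty (Level O E Q Pt B m qt) :=
  ⟨{ M := M
     instModule := (inferInstance : Module (DiaRing O.R k m) M)
     basis := basis
     H := H
     α := α
     δ := δ
     α_δ := hδ
     T := T
     U := T
     z := z
     exists_eval := heval
     separated := fun h hh => (congrArg α (hsep h hh)).trans (map_zero α)
     sign_sq := hsgn
     tame := tame
     tame_mem := htame
     exists_rep := fun A ψ _ s hs hU' => hrep A ψ s hs hU'
     red := red
     red_surjective := hsurj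
     ker_red := fun x hx => by
       have h := hker x hx
       rw [ker_diaAug] at h
       exact h
     red_smul := fun a x => hsmul _ x
     red_T := hT
     red_U := hU
     red_z := hz }⟩

set_option maxHeartbeats 3200000 in
/-- **The level.** -/
theorem nonempty_level (hE : Companion E) (hO : maximalIdeal O.R = Ideal.span {(2 : O.R)})
    {ω : O.R} (hω : ω ^ 2 + ω + 1 = 0) {Q : Finset ℕ} (hQ : ∀ q ∈ Q, ConjPrime E 1 q)
    [NeZero (E.conductorLevel * ∏ q ∈ Q, q)] (G : TraceGeometry E)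
    {k m : ℕ} {qt : Fin k → ℕ} (hqt : IsTWTuple E Q (m + 2) qt) :
    Nonempty (Level O E Q (ringPt O hE.Δ_ne_zero Q qt) (bottom O E Q hO hE G hQ) m qt) := by
  classical
  set L₀ := E.conductorLevel * ∏ q ∈ Q, q with hL₀def
  have h2 : (2 : O.R) ∈ maximalIdeal O.R := hO ▸ Ideal.mem_span_singleton_self _
  have hω' : ω * ω + ω + 1 ∈ maximalIdeal O.R := by rw [← sq, hω]; exact zero_mem _
  have hqp : ∀ i, (qt i).Prime := fun i => (hqt.twPrime i).prime
  have hnd : ∀ i, ¬ qt i ∣ 2 * L₀ := fun i h =>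
    hqt.notMem i (Nat.mem_primeFactors.mpr ⟨hqp i, h, mul_ne_zero two_ne_zero (NeZero.ne L₀)⟩)
  have hoddq : ∀ i, ¬ (2 : ℤ) ∣ E.apOfModel (qt i) := fun i => (hqt.twPrime i).odd_trace
  have hm : ∀ i, 2 ^ m ∣ qt i - 1 := fun i =>
    (pow_dvd_pow 2 (Nat.le_add_right m 2)).trans (hqt.twPrime i).dvd_pred
  have hprod : (∏ i, qt i) ≠ 0 := Finset.prod_ne_zero_iff.mpr fun i _ => (hqp i).ne_zero
  have : NeZero (∏ i, qt i) := ⟨hprod⟩
  have : NeZero (twLev k L₀ qt) := ⟨mul_ne_zero (NeZero.ne L₀) hprod⟩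
  have hsq : Squarefree L₀ := squarefree_level hE hQ
  have hQN : ∀ q ∈ Q, ¬ q ∣ E.conductorLevel := fun q hq hd =>
    (hQ q hq).good ((E.prime_dvd_conductorLevel_iff hE.Δ_ne_zero (hQ q hq).prime).mp hd)
  have hsign : ∀ v ∈ signPrimes E Q, v.Prime ∧ v ∣ L₀ ∧ v ≠ 2 ∧ ∀ i, qt i ≠ v := fun v hv => by
    have h1 : v.Prime ∧ v ∣ L₀ := by
      rcases Finset.mem_union.mp hv with h | h
      · exact ⟨Nat.prime_of_mem_primeFactors h,
          (Nat.dvd_of_mem_primeFactors h).trans (dvd_mul_right _ _)⟩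
      · exact ⟨(hQ v h).prime, (Finset.dvd_prod_of_mem (fun q => q) h).mul_left _⟩
    exact ⟨h1.1, h1.2, ne_two_of_mem_signPrimes hE hQ hv,
      fun i h => hnd i (h ▸ h1.2.mul_left 2)⟩
  obtain ⟨p, hp, hpN, hp4⟩ := Companion.exists_prime_three_mod_four hE
  have hpL : p ∣ L₀ := hpN.trans (dvd_mul_right _ _)
  obtain ⟨l, hl, hlS, -, -, hl1, hlodd⟩ :=
    exists_prime_one_mod_odd_trace hE (twLev k L₀ qt * ∏ i, qt i) (2 * L₀).primeFactors
  let l₀ : GoodIdx L₀ := ⟨l, hl, fun h =>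
    hlS (Nat.mem_primeFactors.mpr ⟨hl, h, mul_ne_zero two_ne_zero (NeZero.ne L₀)⟩)⟩
  have hodd : ¬ (2 : ℤ) ∣ E.apOfModel l₀ := fun h =>
    Int.not_even_iff_odd.mpr hlodd (even_iff_two_dvd.mpr h)
  have hl₁ : ((l₀ : ℕ) : ZMod (twLev k L₀ qt)) = 1 := by
    have h := congrArg (ZMod.castHom (dvd_mul_right (twLev k L₀ qt) (∏ i, qt i))
      (ZMod (twLev k L₀ qt))) hl1
    rwa [map_natCast, map_one] at h
  have hlL : ¬ (l₀ : ℕ) ∣ twLev k L₀ qt := not_dvd_of_natCast_eq_one hl hl₁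
  obtain ⟨hfree, hfin⟩ := free_twMod O.R k m L₀ qt E L₀ h2 hp hpL hp4 ω l₀ hlL hodd
  obtain ⟨red, hred, hredsurj, hker, hop, hbas⟩ :=
    exists_red O.R k m L₀ qt E hqt.injective hqp hnd hoddq h2 hω' L₀ dvd_rfl hp hpL hp4 l₀ hl₁ hodd
  obtain ⟨c, -⟩ := hbas _ (Module.Free.chooseBasis (DiaRing O.R k m) (twMod O.R k m L₀ qt E L₀ ω))
  have hcard : Fintype.card (Module.Free.ChooseBasisIndex (DiaRing O.R k m)
      (twMod O.R k m L₀ qt E L₀ ω)) = bottomRank O E Q :=
    (Module.finrank_eq_card_basis c).symm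
  letI := twHCommRing O.R k m L₀ qt E L₀ ω
  -- lower levels
  have hlow : ∀ v ∈ signPrimes E Q, ∃ L : ℕ, L₀ = L * v ∧ ¬ v ∣ L := fun v hv => by
    obtain ⟨L, hL⟩ := (hsign v hv).2.1
    refine ⟨L, hL.trans (mul_comm v L), fun h => (hsign v hv).1.ne_one ?_⟩
    exact Nat.Coprime.eq_one_of_dvd (Nat.coprime_of_squarefree_mul (hL ▸ hsq)) h
  have hlow_l₀ : ∀ L v, L₀ = L * v → ((l₀ : ℕ) : ZMod (twLev k L qt)) = 1 := fun L v e => by
    have hd : twLev k L qt ∣ twLev k L₀ qt := Nat.mul_dvd_mul_right ⟨v, e⟩ _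
    have h := congrArg (ZMod.castHom hd (ZMod (twLev k L qt))) hl₁
    rwa [map_natCast, map_one] at h
  have hredT := fun r hr hr2 hrq x => red_twGen O.R k m L₀ qt E ω red hred hop (r := r) hr hr2 hrq x
  have hinv : ∀ v ∈ signPrimes E Q,
      twGen O.R k m L₀ qt E L₀ ω v * twGen O.R k m L₀ qt E L₀ ω v * twZ O.R k m L₀ qt E ω Q =
        twZ O.R k m L₀ qt E ω Q := fun v hv => by
    obtain ⟨hvp, hvd, hv2, hvq⟩ := hsign v hv
    obtain ⟨L, hL, hvL⟩ := hlow v hv
    have : NeZero L := ⟨fun h => NeZero.ne L₀ (by rw [hL, h, zero_mul])⟩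
    have : NeZero (twLev k L qt) := ⟨mul_ne_zero (NeZero.ne L) hprod⟩
    by_cases hvN : v ∣ E.conductorLevel
    · exact twGen_sq_mul_twZ_of_low O.R k m L₀ qt E ω Q hvp hv2 hL hvL hqp hvq h2
        (twGam_eq_bot_of_dvd_conductor O.R k m L₀ qt E ω hO hE hqt.injective hqp hnd
          (dvd_mul_right _ _) hvp hvN hL hvL l₀ hl1 hodd)
    · have hvQ : v ∈ Q := by
        rcases Finset.mem_union.mp hv with h | h
        · exact absurd (Nat.dvd_of_mem_primeFactors h) hvN
        · exact h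
      have hpL' : p ∣ L := (hp.dvd_mul.mp (hL ▸ hpL)).resolve_right fun h =>
        hvN ((Nat.prime_dvd_prime_iff_eq hp hvp).mp h ▸ hpN)
      exact twGen_sq_mul_twZ_of_mem O.R k m L₀ qt E ω hvQ hvp hv2 hL hvL hqp hvq h2 hp hpL' hp4
        l₀ hlL hodd
  have hL₀pf : ∀ v ∈ L₀.primeFactors, v ∈ signPrimes E Q := fun v hv => by
    obtain ⟨hvp, hvd, -⟩ := Nat.mem_primeFactors.mp hv
    rcases hvp.dvd_mul.mp hvd with h | h
    · exact Finset.mem_union_left _
        (Nat.mem_primeFactors.mpr ⟨hvp, h, E.conductorLevel_pos.ne'⟩)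
    · obtain ⟨q, hq, hd⟩ := (hvp.prime.dvd_finsetProd_iff _).mp h
      exact Finset.mem_union_right _
        ((Nat.prime_dvd_prime_iff_eq hvp (hQ q hq).prime).mp hd ▸ hq)
  have hbad : ∀ l : ℕ, l.Prime → l ∉ badSet E Q qt → ¬ l ∣ 2 * L₀ ∧ ∀ i, qt i ≠ l :=
    fun l hl h => ⟨fun hd => h (Finset.mem_union_left _
        (Nat.mem_primeFactors.mpr ⟨hl, hd, mul_ne_zero two_ne_zero (NeZero.ne L₀)⟩)),
      fun i hi => h (Finset.mem_union_right _ (hi ▸ Finset.mem_image_of_mem qt (Finset.mem_univ i)))⟩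
  obtain ⟨tame, htame, hrep⟩ := exists_rep_twH hE hω Q
    (fun v hv => ⟨(hQ v hv).prime, (hQ v hv).ne_two, hQN v hv⟩) qt hqt.injective hqp hnd hoddq hm
    fun i => by have := (hqt.twPrime i).four_dvd; have := (hqp i).two_le; omega
  exact nonempty_level_of O (twMod O.R k m L₀ qt E L₀ ω)
    ((Module.Free.chooseBasis (DiaRing O.R k m) (twMod O.R k m L₀ qt E L₀ ω)).reindex
      (Fintype.equivFinOfCardEq hcard))
    (twH O.R k m L₀ qt E L₀ ω) (twH O.R k m L₀ qt E L₀ ω).val.toRingHom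
    (twDelta O.R k m L₀ qt E ω) (fun a x => rfl) (twGen O.R k m L₀ qt E L₀ ω)
    (twZ O.R k m L₀ qt E ω Q ^ 2)
    (fun lv hlv => exists_twAct O.R k m L₀ qt E ω lv fun i =>
      ⟨(hlv i).1, hbad _ (hlv i).1 (hlv i).2⟩)
    (fun h hh => twH_mul_sq_eq_zero O.R k m L₀ qt E ω Q h2
      (fun x hx => twGood_eq_zero_of_isNilpotent O.R k m L₀ qt E ω h2 hqt.injective hqp hnd
        l₀ hl1 hodd hx)
      (fun v hv _ _ => hinv v (hL₀pf v hv)) hqp h hh)
    (fun A ψ hz v hv => eq_one_or_neg_one_of_point ψ hz (hinv v hv))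
    tame htame hrep red hredsurj hker hred
    (fun l hl hlb x => hredT l hl
      (fun h => (hbad l hl hlb).1 (h ▸ dvd_mul_right 2 L₀)) (hbad l hl hlb).2 x)
    (fun v hv x => hredT v (hsign v hv).1 (hsign v hv).2.2.1 (hsign v hv).2.2.2 x)
    (fun x => red_twZ_sq O.R k m L₀ qt E ω red hred hop Q (fun v hvQ => by
      have hv : v ∈ signPrimes E Q := Finset.mem_union_right _ hvQ
      obtain ⟨hvp, hvd, hv2, hvq⟩ := hsign v hv
      obtain ⟨L, hL, hvL⟩ := hlow v hv
      have : NeZero L := ⟨fun h => NeZero.ne L₀ (by rw [hL, h, zero_mul])⟩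
      have : NeZero (twLev k L qt) := ⟨mul_ne_zero (NeZero.ne L) hprod⟩
      have hpL' : p ∣ L := (hp.dvd_mul.mp (hL ▸ hpL)).resolve_right fun h =>
        hQN v hvQ ((Nat.prime_dvd_prime_iff_eq hp hvp).mp h ▸ hpN)
      exact ⟨hvp, hv2, hvq, map_topPoly O.R k m L₀ qt E ω hvp hL hqp hvq hqt.injective hnd hoddq h2
        hω' hp hpL' hp4 l₀ (hlow_l₀ L v hL) hodd⟩) x)

end PatchG

end FLTA.LT2
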