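import Fermat.Agent.RT.FreeGamma0
import Fermat.Agent.RT.RaiseCoeff

/-!
# Part G of LT2: `U_q` on the forms old at `q`

For a character `χ` modulo `N` and a prime `q ∤ N`, the operator `U_q` at level `N q` on the two
copies of level `N`, and its relation with the Atkin–Lehner map:

* `U ∘ conj = q • incl`,
* `U ∘ incl = incl ∘ T - χ(q)⁻¹ • conj`,
* `U + w = incl ∘ cor ∘ w`.
-/

set_option autoImplicit false

noncomputable section

universe u

open CongruenceSubgroup
open scoped MatrixGroups OnePoint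

open P2MW.S_ModularForm_heckeT_slash_eq_self_of_mem_Gamma0.ModularForm.HeckeSlashInvariance
  (heckeRep)

namespace FLTA.LT2

open FLTA.RT FLTA.Periods FLTA.LevelRaising

section tsum

variable {Γ Γ' : Type*} [Group Γ] [Group Γ'] {G : Type*} [Group G] {R : Type u} [CommRing R]
  {e : Γ →* G} {e' : Γ' →* G} {χ : Γ →* Rˣ} {χ' : Γ' →* Rˣ} {ι κ : Type*}

/-- The sum of two transfers. -/
def sumSys (S : TSys e e' χ χ' ι) (T : TSys e e' χ χ' κ) : TSys e e' χ χ' (ι ⊕ κ) where
  rep := Sum.elim S.rep T.rep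
  perm γ := Equiv.sumCongr (S.perm γ) (T.perm γ)
  cocyc γ := Sum.elim (S.cocyc γ) (T.cocyc γ)
  rep_mul γ x := by cases x <;> simp [S.rep_mul, T.rep_mul]
  cocyc_mul g h x := by cases x <;> simp [S.cocyc_mul, T.cocyc_mul]
  perm_mul g h x := by cases x <;> simp [S.perm_mul, T.perm_mul]
  w := Sum.elim S.w T.w
  compat γ x := by cases x <;> simp [S.compat, T.compat]

theorem op_sumSys [Fintype ι] [Fintype κ] (S : TSys e e' χ χ' ι) (T : TSys e e' χ χ' κ)
    {V : Type u} [AddCommGroup V] [Module R V] (y : tH1 χ' V) :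
    (sumSys S T).op V y = S.op V y + T.op V y := by
  obtain ⟨f, rfl⟩ := tClass_surjective χ' y
  rw [TSys.op_class, TSys.op_class, TSys.op_class, ← map_add]
  congr 1
  ext γ
  simp [TSys.opZ_apply, Fintype.sum_sum_type, sumSys]

end tsum

section maps

variable {N q : ℕ} [NeZero q] {R : Type u} [CommRing R] (χ : (ZMod N)ˣ →* Rˣ)
  [((Gamma0 (N * q)).subgroupOf (Gamma0 N)).FiniteIndex]
  {V : Type u} [AddCommGroup V] [Module R V]

omit [((Gamma0 (N * q)).subgroupOf (Gamma0 N)).FiniteIndex] in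
theorem degGL_mul_heckeMatrix (j : ℕ) :
    degGL q * ModularForm.heckeMatrix q j =
      gamma0GL N ⟨⟨!![1, (j : ℤ); 0, 1], by simp [Matrix.det_fin_two_of]⟩,
        mem_Gamma0_of_dvd (by simp)⟩ * scalGL q := by
  apply Units.ext
  rw [Units.val_mul, Units.val_mul, val_degGL (NeZero.ne q),
    ModularForm.val_heckeMatrix (NeZero.ne q), ← qReal_ofSL]
  ext r s
  fin_cases r <;> fin_cases s <;>
    simp [qReal, QMat.ofSL, scalGL, Matrix.mul_apply, Fin.sum_univ_two, mul_comm]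

omit [((Gamma0 (N * q)).subgroupOf (Gamma0 N)).FiniteIndex] in
/-- `U ∘ conj = q • incl`. -/
theorem opU_degConj (hU : IsWeight (gamChar (chiUp χ q)) (repsU (dvd_mul_left q N)) 1)
    (x : tH1 (gamChar χ) V) :
    hU.op V (degConj χ V x) = (q : R) • degIncl χ V x := by
  let S : TSys (gamma0GL (N * q)) (gamma0GL N) (gamChar (chiUp χ q)) (gamChar χ) (ZMod q) :=
    { rep := fun _ => scalGL q
      perm := fun γ => (repsU (dvd_mul_left q N)).permEquiv γ
      cocyc := fun γ _ => inclHom N q γ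
      rep_mul := fun γ _ => by rw [scalGL_comm, gamma0GL_inclHom]
      cocyc_mul := fun g h _ => map_mul _ g h
      perm_mul := fun g h z => (repsU (dvd_mul_left q N)).perm_mul g h z
      w := fun _ => 1
      compat := fun γ _ => by rw [one_mul, mul_one, gamChar_inclHom] }
  have hS : S.op V x = (q : R) • degIncl χ V x := by
    obtain ⟨f, rfl⟩ := tClass_surjective _ x
    rw [degIncl, TSys.op_class, TSys.op_class, ← map_smul]
    congr 1
    ext γ
    simp [TSys.opZ_apply, S, inclSys, ZMod.card, Nat.cast_smul_eq_nsmul]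
  rw [← hS, ← TSys.op_ofWeight hU, degConj, ← TSys.op_comp]
  refine TSys.op_eq_of_perm _ _ gamma0GL_injective (Equiv.prodUnique _ Unit)
    (fun z => ⟨⟨!![1, ((z.1 : ZMod q).val : ℤ); 0, 1], by simp [Matrix.det_fin_two_of]⟩,
      mem_Gamma0_of_dvd (by simp)⟩) (fun γ z => rfl) (fun z => ?_) (fun z => ?_) x
  · exact degGL_mul_heckeMatrix z.1.val
  · show (1 : Rˣ) * 1 * _ = 1
    rw [one_mul, one_mul, gamChar_apply]
    exact (congrArg χ (Units.ext (by simp) : aUnit N _ = 1)).trans (map_one χ)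

variable [hq : Fact q.Prime] (hqN : ¬ q ∣ N)

omit [((Gamma0 (N * q)).subgroupOf (Gamma0 N)).FiniteIndex] in
/-- `U ∘ incl = incl ∘ T - χ(q)⁻¹ • conj`. -/
theorem opU_degIncl (h : q.Coprime N)
    (hc : IsWeight (gamChar χ) (repsT hqN) (hwT χ h))
    (hU : IsWeight (gamChar (chiUp χ q)) (repsU (dvd_mul_left q N)) 1)
    (x : tH1 (gamChar χ) V) :
    hU.op V (degIncl χ V x) = degIncl χ V (hc.op V x) -
      (((χ (ZMod.unitOfCoprime q h))⁻¹ : Rˣ) : R) • degConj χ V x := by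
  rw [eq_sub_iff_add_eq, ← TSys.op_ofWeight hU, ← TSys.op_ofWeight hc, ← TSys.op_comp,
    ← TSys.op_scale, ← TSys.op_comp, ← op_sumSys]
  let σ : (ZMod q × Unit) ⊕ Unit → Unit × OnePoint (ZMod q) :=
    Sum.elim (fun z => ((), (z.1 : OnePoint (ZMod q)))) fun _ => ((), ∞)
  have hσ : Function.Bijective σ := by
    constructor
    · rintro (⟨a, ⟨⟩⟩ | ⟨⟩) (⟨b, ⟨⟩⟩ | ⟨⟩) hab <;> simp [σ] at hab ⊢
      exact hab
    · rintro ⟨⟨⟩, z⟩
      induction z using OnePoint.rec with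
      | infty => exact ⟨Sum.inr (), rfl⟩
      | coe j => exact ⟨Sum.inl (j, ()), rfl⟩
  refine TSys.op_eq_of_rep _ _ gamma0GL_injective ?_ (Equiv.ofBijective σ hσ) (fun _ => 1)
    (fun z => ?_) (fun z => ?_) x
  · rintro ⟨⟨⟩, a⟩ ⟨⟨⟩, b⟩ δ hδ
    simp [inclSys] at hδ
    rw [(repsT hqN).unique a b δ hδ]
  · rcases z with ⟨a, ⟨⟩⟩ | ⟨⟩ <;> simp [sumSys, σ, inclSys, conjSys, heckeRep]
  · rcases z with ⟨a, ⟨⟩⟩ | ⟨⟩ <;> simp [sumSys, σ, inclSys, conjSys, hwT]

omit [NeZero q] [((Gamma0 (N * q)).subgroupOf (Gamma0 N)).FiniteIndex] hq in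
theorem chi_alGamma (h : q.Coprime N) :
    χ (ZMod.unitOfCoprime q h) * gamChar χ (alGamma h) = 1 := by
  obtain ⟨e1, e2⟩ := alGamma_apply_one h
  have hd := Matrix.SpecialLinearGroup.det_coe ((alGamma h : Gamma0 N) : SL(2, ℤ))
  rw [Matrix.det_fin_two, e1, e2] at hd
  rw [gamChar_apply, ← map_mul]
  convert map_one χ
  refine Units.ext ?_
  have := congrArg (Int.cast : ℤ → ZMod N) hd
  push_cast at this
  simp only [ZMod.natCast_self, mul_zero, sub_zero] at this
  simpa [mul_comm] using this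

include hqN in
/-- `U + w = incl ∘ cor ∘ w`. -/
theorem opU_add_degAL (h : q.Coprime N)
    (hU : IsWeight (gamChar (chiUp χ q)) (repsU (dvd_mul_left q N)) 1)
    (x : tH1 (gamChar (chiUp χ q)) V) :
    hU.op V x + degAL χ V h x = degIncl χ V (degCor χ V (degAL χ V h x)) := by
  obtain ⟨σ, g, hg⟩ := degCos_tri (N := N) hqN
  have hγ₁ := chi_alGamma χ h
  -- the composite representatives
  have hrep : ∀ y, alGL h * gamma0GL N y.out⁻¹ =
      gamma0GL N (alGamma h * g y) * heckeRep q (σ y) := fun y => by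
    rw [alGL, mul_assoc, hg, map_mul, mul_assoc]
  have hw : ∀ y, gamChar χ y.out * gamChar χ (alGamma h * g y) = hwT χ h (σ y) := by
    intro y
    obtain ⟨a', b', ha', hb', h10', haL'⟩ :=
      FLTA.RT.heckeRep_entries (NeZero.ne q) h (∞ : OnePoint (ZMod q))
    obtain ⟨a, b, ha, hb, h10, haL⟩ := FLTA.RT.heckeRep_entries (NeZero.ne q) h (σ y)
    have e : ZMod.unitOfCoprime q h * aUnit N y.out⁻¹ = aUnit N (g y) * repUnit h (σ y) := by
      apply Units.ext
      rw [Units.val_mul, Units.val_mul, ← haL,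
        show ((ZMod.unitOfCoprime q h : (ZMod N)ˣ) : ZMod N) = (a' : ZMod N) from haL'.symm,
        coe_aUnit, coe_aUnit]
      exact mul_intCast_topLeft ha' hb' ha h10 (hg y)
    have e' := congrArg χ e
    rw [map_mul, map_mul, map_inv, map_inv] at e'
    rw [gamChar_apply] at hγ₁
    rw [hwT_eq, gamChar_apply, gamChar_apply, map_mul, map_mul,
      eq_mul_inv_iff_mul_eq.mpr e'.symm, ← mul_assoc, ← mul_assoc, ← mul_assoc]
    have hγ : χ (aUnit N (alGamma h)) = (χ (ZMod.unitOfCoprime q h))⁻¹ :=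
      eq_inv_of_mul_eq_one_right hγ₁
    rw [hγ]
    group
  have hinf : ∀ y, σ y = ∞ → ((y.out : Gamma0 N) : SL(2, ℤ)) ∈ Gamma0 (N * q) := by
    intro y hy
    suffices H : ((y.out⁻¹ : Gamma0 N) : SL(2, ℤ)) ∈ Gamma0 (N * q) by
      simpa using inv_mem H
    have e := hg y
    generalize y.out⁻¹ = η at e ⊢
    have hu := congrArg (fun m : GL (Fin 2) ℝ => (m : Matrix (Fin 2) (Fin 2) ℝ) 1 0) e
    simp [hy, val_degGL (NeZero.ne q), Matrix.mul_apply, Fin.sum_univ_two] at hu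
    have hz : (η : SL(2, ℤ)) 1 0 = (g y : SL(2, ℤ)) 1 0 * q := by exact_mod_cast hu
    refine mem_Gamma0_of_dvd ?_
    push_cast
    exact IsCoprime.mul_dvd (Int.isCoprime_iff_nat_coprime.mpr (by simpa using h.symm))
      (dvd_of_mem_Gamma0 η.2) (hz ▸ dvd_mul_left _ _)
  have hfin : ∀ y (j : ZMod q), σ y = (j : OnePoint (ZMod q)) →
      (((alGamma h * g y : Gamma0 N)) : SL(2, ℤ)) ∈ Gamma0 (N * q) := by
    intro y j hy
    have e := hrep y
    generalize y.out⁻¹ = η at e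
    generalize hδ : alGamma h * g y = δ at e ⊢
    have hu := congrArg (fun m : GL (Fin 2) ℝ => (m : Matrix (Fin 2) (Fin 2) ℝ) 1 0) e
    obtain ⟨e1, e2⟩ := alGamma_apply_one h
    simp only [alGL, Units.val_mul, val_degGL (NeZero.ne q)] at hu
    simp [hy, heckeRep, ModularForm.val_heckeMatrix (NeZero.ne q),
      Matrix.mul_apply, Fin.sum_univ_two, e1, e2] at hu
    refine mem_Gamma0_of_dvd ?_
    push_cast
    refine IsCoprime.mul_dvd (Int.isCoprime_iff_nat_coprime.mpr (by simpa using h.symm))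
      (dvd_of_mem_Gamma0 δ.2) ?_
    refine ⟨(N : ℤ) * (η : SL(2, ℤ)) 0 0 + (η : SL(2, ℤ)) 1 0, ?_⟩
    apply Int.cast_injective (α := ℝ)
    push_cast
    linear_combination -hu
  let τ : ZMod q ⊕ Unit → (Unit × (Gamma0 N ⧸ (Gamma0 (N * q)).subgroupOf (Gamma0 N))) × Unit :=
    Sum.elim (fun j => (((), σ.symm (j : OnePoint (ZMod q))), ())) fun _ => (((), σ.symm ∞), ())
  have hτ : Function.Bijective τ := by
    constructor
    · rintro (a | ⟨⟩) (b | ⟨⟩) hab <;> simp [τ] at hab ⊢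
      exact hab
    · rintro ⟨⟨⟨⟩, y⟩, ⟨⟩⟩
      cases hy : σ y using OnePoint.rec with
      | infty => exact ⟨Sum.inr (), by simp [τ, ← hy]⟩
      | coe j => exact ⟨Sum.inl j, by simp [τ, ← hy]⟩
  let d : ZMod q ⊕ Unit → Gamma0 (N * q) := Sum.elim
    (fun j => (⟨_, hfin (σ.symm (j : OnePoint (ZMod q))) j (σ.apply_symm_apply _)⟩ :
      Gamma0 (N * q))⁻¹)
    fun _ => alHom h ⟨_, hinf (σ.symm ∞) (σ.apply_symm_apply _)⟩
  rw [← TSys.op_ofWeight hU, ← op_sumSys, ← TSys.op_comp, ← TSys.op_comp]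
  refine TSys.op_eq_of_rep _ _ gamma0GL_injective ?_ (Equiv.ofBijective τ hτ) d
    (fun z => ?_) (fun z => ?_) x
  · rintro ⟨⟨⟨⟩, y₁⟩, ⟨⟩⟩ ⟨⟨⟨⟩, y₂⟩, ⟨⟩⟩ δ hδ
    simp only [TSys.comp_rep, inclSys, corSys, alSys, TSys.pull_rep, mul_one] at hδ
    rw [hrep, hrep, ← mul_assoc, ← gamma0GL_inclHom, ← map_mul] at hδ
    have h1 : σ y₁ = σ y₂ := (repsT hqN).unique _ _
      ((alGamma h * g y₂)⁻¹ * (inclHom N q δ * (alGamma h * g y₁))) (by
        rw [map_mul, map_inv, mul_assoc, repsT_rep, hδ, inv_mul_cancel_left])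
    rw [σ.injective h1]
  · rcases z with j | ⟨⟩
    · have e := hrep (σ.symm (j : OnePoint (ZMod q)))
      rw [σ.apply_symm_apply] at e
      let γ : Gamma0 (N * q) :=
        ⟨_, hfin (σ.symm (j : OnePoint (ZMod q))) j (σ.apply_symm_apply _)⟩
      have hγ : inclHom N q γ = alGamma h * g (σ.symm (j : OnePoint (ZMod q))) := Subtype.ext rfl
      rw [← hγ, gamma0GL_inclHom] at e
      show ModularForm.heckeMatrix q j.val = gamma0GL (N * q) γ⁻¹ *
        (alGL h * (gamma0GL N (σ.symm (j : OnePoint (ZMod q))).out⁻¹ * 1))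
      rw [mul_one, e, map_inv, inv_mul_cancel_left]
      rfl
    · let γ : Gamma0 (N * q) := ⟨_, hinf (σ.symm ∞) (σ.apply_symm_apply _)⟩
      have hγ : inclHom N q γ = (σ.symm ∞).out := Subtype.ext rfl
      show alGL h = gamma0GL (N * q) (alHom h γ) *
        (alGL h * (gamma0GL N (σ.symm ∞).out⁻¹ * 1))
      rw [mul_one, ← mul_assoc, ← alGL_mul, ← hγ, map_inv, gamma0GL_inclHom, mul_inv_cancel_right]
  · rcases z with j | ⟨⟩
    · show (1 : Rˣ) * gamChar (chiUp χ q) (d (Sum.inl j)) =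
        1 * gamChar χ (σ.symm (j : OnePoint (ZMod q))).out * 1
      simp only [d, Sum.elim_inl]
      rw [one_mul, one_mul, mul_one, map_inv, ← gamChar_inclHom]
      refine inv_eq_of_mul_eq_one_left ?_
      have := hw (σ.symm (j : OnePoint (ZMod q)))
      rwa [σ.apply_symm_apply] at this
    · show (1 : Rˣ) * gamChar (chiUp χ q) (d (Sum.inr ())) =
        1 * gamChar χ (σ.symm ∞).out * 1
      simp only [d, Sum.elim_inr]
      rw [one_mul, one_mul, mul_one, gamChar_alHom, ← gamChar_inclHom]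
      rfl

omit [((Gamma0 (N * q)).subgroupOf (Gamma0 N)).FiniteIndex] hq in
/-- `w ∘ w = χ(q)⁻¹`. -/
theorem degAL_degAL (h : q.Coprime N) (x : tH1 (gamChar (chiUp χ q)) V) :
    degAL χ V h (degAL χ V h x) = (((χ (ZMod.unitOfCoprime q h))⁻¹ : Rˣ) : R) • x := by
  let S : TSys (gamma0GL (N * q)) (gamma0GL (N * q)) (gamChar (chiUp χ q)) (gamChar (chiUp χ q))
      Unit := TSys.pull (MonoidHom.id _) (scalGL q) (fun γ => scalGL_comm _) fun _ => rfl
  have hS : S.op V x = x := by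
    obtain ⟨f, rfl⟩ := tClass_surjective _ x
    rw [TSys.op_class]
    congr 1
    ext γ
    simp [TSys.opZ_apply, S]
  have hmem : ((alGamma h * alGamma' h : Gamma0 N) : SL(2, ℤ)) ∈ Gamma0 (N * q) := by
    obtain ⟨e1, e2⟩ := alGamma_apply_one h
    refine mem_Gamma0_of_dvd ?_
    push_cast
    refine IsCoprime.mul_dvd (Int.isCoprime_iff_nat_coprime.mpr (by simpa using h.symm))
      (dvd_of_mem_Gamma0 (alGamma h * alGamma' h).2) ?_
    show (q : ℤ) ∣ (((alGamma h : Gamma0 N) : SL(2, ℤ)).1 *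
      ((alGamma' h : Gamma0 N) : SL(2, ℤ)).1) 1 0
    rw [Matrix.mul_apply, Fin.sum_univ_two, e1, e2]
    refine dvd_add (dvd_mul_of_dvd_right ?_ _) (dvd_mul_right _ _)
    simp [alGamma']
  conv_rhs => rw [← hS]
  rw [← TSys.op_comp, ← TSys.op_scale]
  refine TSys.op_eq_of_perm _ _ gamma0GL_injective (Equiv.prodUnique _ Unit)
    (fun _ => ⟨_, hmem⟩) (fun _ _ => rfl) (fun z => ?_) (fun z => ?_) x
  · show alGL h * alGL h = gamma0GL (N * q) ⟨_, hmem⟩ * scalGL q
    rw [← gamma0GL_inclHom,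
      show inclHom N q ⟨_, hmem⟩ = alGamma h * alGamma' h from Subtype.ext rfl, map_mul, mul_assoc,
      alGL, mul_assoc]
    congr 1
    rw [← scalGL_comm]
    apply Units.ext
    rw [Units.val_mul, Units.val_mul, Units.val_mul, ← qReal_degMat (NeZero.ne q), ← qReal_ofSL,
      ← qReal_ofSL, show (scalGL q : Matrix (Fin 2) (Fin 2) ℝ) = qReal ⟨q, 0, 0, q⟩ by
        simp [scalGL, qReal], ← qReal_mul, ← qReal_mul, ← qReal_mul]
    exact congrArg qReal (degMat_mul_alMat h)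
  · show (1 : Rˣ) * 1 * gamChar (chiUp χ q) ⟨_, hmem⟩ = (χ (ZMod.unitOfCoprime q h))⁻¹ * 1
    rw [one_mul, one_mul, mul_one, ← gamChar_inclHom,
      show inclHom N q ⟨_, hmem⟩ = alGamma h * alGamma' h from Subtype.ext rfl, map_mul,
      gamChar_apply, gamChar_apply,
      show aUnit N (alGamma' h) = ZMod.unitOfCoprime q h * aUnit N (alGamma h) from
        Units.ext (by simp [alGamma, alGamma']), map_mul, ← gamChar_apply]
    have hγ := chi_alGamma χ h
    rw [eq_inv_of_mul_eq_one_right hγ]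
    group

end maps

/-! ### The operators `natHecke` -/

section natHecke

variable {N q : ℕ} [NeZero N] [NeZero q] [NeZero (N * q)]
  [((Gamma0 (N * q)).subgroupOf (Gamma0 N)).FiniteIndex] [hq : Fact q.Prime]
  {R : Type u} [CommRing R] (χ : (ZMod N)ˣ →* Rˣ) (V : Type u) [AddCommGroup V] [Module R V]

omit [((Gamma0 (N * q)).subgroupOf (Gamma0 N)).FiniteIndex] [NeZero N] hq in
/-- `U_q` of the second image is `q` times the first, with no condition on `q`. -/
theorem natHecke_degConj_self (x : tH1 (gamChar χ) V) :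
    (natHecke (chiUp χ q) q).app V (degConj χ V x) = (q : R) • degIncl χ V x := by
  rw [natHecke_of_dvd _ (dvd_mul_left q N)]
  exact opU_degConj χ (isWeight_U _ _) x

omit [((Gamma0 (N * q)).subgroupOf (Gamma0 N)).FiniteIndex] [NeZero N] hq in
/-- `U_q` of the second image is `q` times the first. -/
theorem upOp_degConj (_hqN : ¬ q ∣ N) (x : tH1 (gamChar χ) V) :
    (natHecke (chiUp χ q) q).app V (degConj χ V x) = (q : R) • degIncl χ V x :=
  natHecke_degConj_self χ V x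

omit [((Gamma0 (N * q)).subgroupOf (Gamma0 N)).FiniteIndex] in
/-- `U_q` of the first image. -/
theorem upOp_degIncl (hqN : ¬ q ∣ N) (h : q.Coprime N) (x : tH1 (gamChar χ) V) :
    (natHecke (chiUp χ q) q).app V (degIncl χ V x) = degIncl χ V ((natHecke χ q).app V x) -
      (((χ (ZMod.unitOfCoprime q h))⁻¹ : Rˣ) : R) • degConj χ V x := by
  rw [natHecke_of_dvd _ (dvd_mul_left q N), natHecke_of_not_dvd χ hqN]
  exact opU_degIncl χ hqN h (isWeight_T χ hqN _) (isWeight_U _ _) x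

omit [NeZero N] in
/-- `U_q + w = incl ∘ cor ∘ w`. -/
theorem upOp_add_degAL (hqN : ¬ q ∣ N) (h : q.Coprime N) (y : tH1 (gamChar (chiUp χ q)) V) :
    (natHecke (chiUp χ q) q).app V y + degAL χ V h y =
      degIncl χ V (degCor χ V (degAL χ V h y)) := by
  rw [natHecke_of_dvd _ (dvd_mul_left q N)]
  exact opU_add_degAL χ hqN h (isWeight_U _ _) y

/-- `χ(q) U_q ^ 2 - 1` maps into the old classes. -/
theorem sq_upOp_sub_mem_range (hqN : ¬ q ∣ N) (h : q.Coprime N)
    (y : tH1 (gamChar (chiUp χ q)) V) :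
    ((χ (ZMod.unitOfCoprime q h) : Rˣ) : R) •
        (natHecke (chiUp χ q) q).app V ((natHecke (chiUp χ q) q).app V y) - y ∈
      LinearMap.range (degI (q := q) χ V) := by
  have e := eq_sub_of_add_eq (upOp_add_degAL χ V hqN h y)
  have e' := eq_sub_of_add_eq (upOp_add_degAL χ V hqN h (degAL χ V h y))
  rw [degAL_degAL] at e'
  rw [e, map_sub, e', upOp_degIncl χ V hqN h, sub_sub, smul_sub, smul_add, smul_sub,
    smul_smul, smul_smul, ← Units.val_mul, mul_inv_cancel, Units.val_one, one_smul, one_smul]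
  set a := (natHecke χ q).app V (degCor χ V (degAL χ V h y))
  set b := degCor χ V (degAL χ V h y)
  set c := degCor χ V ((((χ (ZMod.unitOfCoprime q h))⁻¹ : Rˣ) : R) • y)
  set u : R := ((χ (ZMod.unitOfCoprime q h) : Rˣ) : R)
  refine ⟨(u • a - u • c, -b), ?_⟩
  simp only [degI, LinearMap.coprod_apply, map_sub, map_neg, map_smul]
  abel

end natHecke

end FLTA.LT2
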