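import Fermat.Agent.LT2.PatchedOld
import Fermat.Agent.LT2.PatchedKill
import Fermat.Agent.RT.RaiseLocal

/-!
# Part G of LT2: what is old in a factor

On the factor of a residual system at level `N v`, the characteristic polynomial of `U_v` on the
two copies of the factor at level `N` kills `(κ U_v) ^ 2 - 1`, `κ ^ 2 = χ(v)`.
-/

set_option autoImplicit false
set_option linter.unusedSectionVars false

noncomputable section

universe u

open IsLocalRing CongruenceSubgroup
open scoped MatrixGroups

namespace FLTA.LT2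

open FLTA.RT FLTA.Periods

variable {R : Type u} [CommRing R] [IsLocalRing R] [IsNoetherianRing R]
  [IsAdicComplete (maximalIdeal R) R] {σ : Type*}

section factor

variable {N : ℕ} [NeZero N] (χ : (ZMod N)ˣ →* Rˣ) (pr : σ → ℕ) (a : σ → R)

/-- The idempotent of a residual system on twisted cohomology. -/
def facIdem : Module.End R (tH1 (gamChar χ) R) :=
  localIdem (opsAt (fun s => natHecke χ (pr s)) R) a

theorem commute_opsAt_natHecke (hp : ∀ s, (pr s).Prime) (s t : σ) :
    Commute (opsAt (fun s => natHecke χ (pr s)) R s) (opsAt (fun s => natHecke χ (pr s)) R t) :=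
  LinearMap.ext fun z => natHecke_comm χ (hp s) (hp t) _ z

theorem commute_facIdem (hp : ∀ s, (pr s).Prime) {r : ℕ} (hr : r.Prime) :
    Commute ((natHecke χ r).app R) (facIdem χ pr a) := by
  have := group_fg_Gamma0 N
  have := finite_tH1 (χ := gamChar χ) R
  exact commute_localIdem (commute_opsAt_natHecke χ pr hp) a
    fun s => LinearMap.ext fun z => natHecke_comm χ hr (hp s) _ z

/-- The Hecke operator at a prime on the factor. -/
def facOp (hp : ∀ s, (pr s).Prime) (r : ℕ) (hr : r.Prime) :
    Module.End R (LinearMap.range (facIdem χ pr a)) :=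
  ((natHecke χ r).app R).restrict fun _ hx => by
    obtain ⟨y, rfl⟩ := hx
    exact ⟨_, (LinearMap.congr_fun (commute_facIdem χ pr a hp hr).eq y).symm⟩

end factor

variable {N v : ℕ} [NeZero N] [NeZero v] [NeZero (N * v)]
  [((Gamma0 (N * v)).subgroupOf (Gamma0 N)).FiniteIndex] [hv : Fact v.Prime]
  (χ : (ZMod N)ˣ →* Rˣ) {pr : σ → ℕ} (hp : ∀ s, (pr s).Prime) (hpv : ∀ s, pr s ≠ v) (a : σ → R)

include hp hpv in
/-- The restrictions commute with the idempotents. -/
theorem facIdem_degI (hvN : ¬ v ∣ N) (x y : tH1 (gamChar χ) R) :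
    facIdem (chiUp χ v) pr a (degI χ R (x, y)) =
      degI χ R (facIdem χ pr a x, facIdem χ pr a y) := by
  have := group_fg_Gamma0 N
  have := group_fg_Gamma0 (N * v)
  have := finite_tH1 (χ := gamChar χ) R
  have := finite_tH1 (χ := gamChar (chiUp χ v)) R
  have hd := degIntertwines_natHecke (χ := χ) (hv.out.coprime_iff_not_dvd.mpr hvN) pr hp hpv
  simp only [degI, LinearMap.coprod_apply, map_add]
  congr 1
  · exact (localIdem_comm_map (commute_opsAt_natHecke χ pr hp)
      (commute_opsAt_natHecke (chiUp χ v) pr hp) a (degIncl χ R)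
      (fun s z => (hd.incl s R z).symm) x).symm
  · exact (localIdem_comm_map (commute_opsAt_natHecke χ pr hp)
      (commute_opsAt_natHecke (chiUp χ v) pr hp) a (degConj χ R)
      (fun s z => (hd.conj s R z).symm) y).symm

variable {κ : R} (hvN : ¬ v ∣ N) (h : v.Coprime N)
  (hκ : κ * κ = ((χ (ZMod.unitOfCoprime v h) : Rˣ) : R))

include hp hpv hvN hκ in
/-- `(κ U) ^ 2 - 1` maps the factor into the images of the lower factor. -/
theorem exists_sq_sub_eq (y : tH1 (gamChar (chiUp χ v)) R)
    (hy : facIdem (chiUp χ v) pr a y = y) :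
    ∃ x x' : tH1 (gamChar χ) R,
      (κ • (natHecke (chiUp χ v) v).app R) ((κ • (natHecke (chiUp χ v) v).app R) y) - y =
        degI χ R (facIdem χ pr a x, facIdem χ pr a x') := by
  obtain ⟨⟨x, x'⟩, hx⟩ := sq_upOp_sub_mem_range χ R hvN h y
  refine ⟨x, x', ?_⟩
  rw [← facIdem_degI χ hp hpv a hvN, hx]
  have hc := LinearMap.congr_fun (commute_facIdem (chiUp χ v) pr a hp hv.out).eq
  simp only [Module.End.mul_apply] at hc
  simp only [LinearMap.smul_apply, map_smul, map_sub, smul_smul, hκ, ← hc, hy]

include hp hpv hvN hκ in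
/-- Where the lower factor vanishes `κ U` is an involution. -/
theorem sq_eq_of_facIdem_eq_zero (h0 : facIdem χ pr a = 0) (y : tH1 (gamChar (chiUp χ v)) R)
    (hy : facIdem (chiUp χ v) pr a y = y) :
    (κ • (natHecke (chiUp χ v) v).app R) ((κ • (natHecke (chiUp χ v) v).app R) y) = y := by
  obtain ⟨x, x', hx⟩ := exists_sq_sub_eq χ hp hpv a hvN h hκ y hy
  rw [← sub_eq_zero, hx, h0]
  exact map_zero _

include hp hpv hvN hκ in
/-- **The old part is killed.** -/
theorem aeval_oldPoly_sq_sub [Module.Free R (LinearMap.range (facIdem χ pr a))]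
    [Module.Finite R (LinearMap.range (facIdem χ pr a))]
    (y : tH1 (gamChar (chiUp χ v)) R) (hy : facIdem (chiUp χ v) pr a y = y) :
    Polynomial.aeval (κ • (natHecke (chiUp χ v) v).app R)
      (oldPoly (facOp χ pr a hp v hv.out) (v : R)
        (((χ (ZMod.unitOfCoprime v h))⁻¹ : Rˣ) : R) κ)
      ((κ • (natHecke (chiUp χ v) v).app R) ((κ • (natHecke (chiUp χ v) v).app R) y) - y) = 0 := by
  obtain ⟨x, x', hx⟩ := exists_sq_sub_eq χ hp hpv a hvN h hκ y hy
  rw [hx]
  have := aeval_oldPoly_eq_zero (facOp χ pr a hp v hv.out) (v : R)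
    (((χ (ZMod.unitOfCoprime v h))⁻¹ : Rˣ) : R) κ (κ • (natHecke (chiUp χ v) v).app R)
    ((degIncl χ R).comp (LinearMap.range (facIdem χ pr a)).subtype)
    ((degConj χ R).comp (LinearMap.range (facIdem χ pr a)).subtype)
    (fun z => by
      simp only [LinearMap.smul_apply, LinearMap.comp_apply, Submodule.subtype_apply,
        upOp_degIncl χ R hvN h, smul_sub, smul_smul]
      rfl)
    (fun z => by
      simp only [LinearMap.smul_apply, LinearMap.comp_apply, Submodule.subtype_apply,
        upOp_degConj χ R hvN, smul_smul])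
    ⟨_, LinearMap.mem_range_self _ x⟩ ⟨_, LinearMap.mem_range_self _ x'⟩
  simpa [degI, LinearMap.coprod_apply] using this

end FLTA.LT2
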