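import Fermat.Agent.RT.DeformBase
import Fermat.Agent.TaylorWiles.Defo
import Fermat.Agent.Deformation.Generators

/-!
# Part G, ring side: a pair of deformations modulo `4` gives one over the dual numbers

Two deformations to `B` with the same residual representation are one deformation to the fibre
product `B ×_k B`; for `B = 𝒪/4` with `2` a uniformiser the fibre product maps to `k[ε]` by
`(x, y) ↦ x + ε (x - y)/2`.
-/

set_option autoImplicit false

noncomputable section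

namespace FLTA.LT2.Parity

open IsLocalRing GaloisRep FLTA.Deformation

section Pair

variable (𝒪 : Type) [CommRing 𝒪] [IsLocalRing 𝒪] (B : Type) [CommRing B] [IsLocalRing B]
  [Algebra 𝒪 B]

/-- The pairs with equal residues. -/
abbrev pairAlg : Subalgebra 𝒪 (B × B) :=
  AlgHom.equalizer ((IsScalarTower.toAlgHom 𝒪 B (ResidueField B)).comp (AlgHom.fst 𝒪 B B))
    ((IsScalarTower.toAlgHom 𝒪 B (ResidueField B)).comp (AlgHom.snd 𝒪 B B))

variable {𝒪 B}

theorem residue_pair (p : pairAlg 𝒪 B) : residue B p.1.1 = residue B p.1.2 := p.2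

theorem isUnit_pair {p : pairAlg 𝒪 B} (h : IsUnit p.1.1) : IsUnit p := by
  have h2 : IsUnit p.1.2 := by
    rw [← residue_ne_zero_iff_isUnit, ← residue_pair p]
    exact (residue_ne_zero_iff_isUnit _).mpr h
  obtain ⟨u, hu⟩ := h
  obtain ⟨v, hv⟩ := h2
  have hm : residue B (↑u⁻¹ : B) = residue B (↑v⁻¹ : B) := by
    rw [map_units_inv, map_units_inv, hu, hv, residue_pair p]
  exact isUnit_iff_exists_inv.mpr ⟨⟨((↑u⁻¹ : B), (↑v⁻¹ : B)), hm⟩, Subtype.ext (Prod.ext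
    ((congrArg (· * (↑u⁻¹ : B)) hu.symm).trans u.mul_inv)
    ((congrArg (· * (↑v⁻¹ : B)) hv.symm).trans v.mul_inv))⟩

instance isLocalRing_pair : IsLocalRing (pairAlg 𝒪 B) := by
  haveI : Nontrivial (pairAlg 𝒪 B) :=
    ⟨⟨0, 1, fun h => zero_ne_one (α := B) (congrArg (fun p : pairAlg 𝒪 B => p.1.1) h)⟩⟩
  exact IsLocalRing.of_isUnit_or_isUnit_one_sub_self fun p =>
    (IsLocalRing.isUnit_or_isUnit_one_sub_self p.1.1).imp isUnit_pair
      fun h => isUnit_pair (p := 1 - p) h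

/-- The first projection. -/
abbrev pr₁ : pairAlg 𝒪 B →ₐ[𝒪] B := (AlgHom.fst 𝒪 B B).comp (pairAlg 𝒪 B).val

/-- The second projection. -/
abbrev pr₂ : pairAlg 𝒪 B →ₐ[𝒪] B := (AlgHom.snd 𝒪 B B).comp (pairAlg 𝒪 B).val

theorem isLocalHom_pr₁ : IsLocalHom ((pr₁ : pairAlg 𝒪 B →ₐ[𝒪] B) : pairAlg 𝒪 B →+* B) :=
  ⟨fun _ h => isUnit_pair h⟩

theorem isLocalHom_pr₂ : IsLocalHom ((pr₂ : pairAlg 𝒪 B →ₐ[𝒪] B) : pairAlg 𝒪 B →+* B) :=
  ⟨fun p h => isUnit_pair <| by
    rw [← residue_ne_zero_iff_isUnit, residue_pair p]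
    exact (residue_ne_zero_iff_isUnit _).mpr h⟩

theorem pr_injective (x : pairAlg 𝒪 B) (h1 : pr₁ x = 0) (h2 : pr₂ x = 0) : x = 0 :=
  Subtype.ext (Prod.ext h1 h2)

theorem test_pair [Finite B] (hB : IsArtinianTestAlgebra 𝒪 B) :
    IsArtinianTestAlgebra 𝒪 (pairAlg 𝒪 B) where
  isLocalHom := ⟨fun c hc => hB.isLocalHom.map_nonunit c
    (hc.map ((pr₁ : pairAlg 𝒪 B →ₐ[𝒪] B) : pairAlg 𝒪 B →+* B))⟩
  residue_surjective := fun y => by
    obtain ⟨x, rfl⟩ := residue_surjective y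
    obtain ⟨c, hc⟩ := hB.residue_surjective (residue B x.1.1)
    refine ⟨c, Ideal.Quotient.eq.mpr fun hu => ?_⟩
    exact (Ideal.Quotient.eq.mp hc : _ ∈ maximalIdeal B)
      (hu.map ((pr₁ : pairAlg 𝒪 B →ₐ[𝒪] B) : pairAlg 𝒪 B →+* B))
  isArtinian := isArtinian_of_finite

theorem mat_ext {X Y : Mat2 (pairAlg 𝒪 B)} (h1 : X.map pr₁ = Y.map pr₁)
    (h2 : X.map pr₂ = Y.map pr₂) : X = Y :=
  Matrix.ext fun i j => Subtype.ext (Prod.ext (congrFun₂ h1 i j) (congrFun₂ h2 i j))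

variable (M₁ M₂ : GalQ →* Mat2 B) (h : ∀ g, (M₁ g).map (residue B) = (M₂ g).map (residue B))

/-- Two matrix representations with the same reduction, as one over the fibre product. -/
def pairMat : GalQ →* Mat2 (pairAlg 𝒪 B) where
  toFun g := Matrix.of fun i j => ⟨(M₁ g i j, M₂ g i j), congrFun₂ (h g) i j⟩
  map_one' := mat_ext
    (by rw [Matrix.map_one _ (map_zero _) (map_one _)]; exact M₁.map_one)
    (by rw [Matrix.map_one _ (map_zero _) (map_one _)]; exact M₂.map_one)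
  map_mul' g g' := mat_ext
    (by rw [Matrix.map_mul]; exact M₁.map_mul g g')
    (by rw [Matrix.map_mul]; exact M₂.map_mul g g')

variable {ρbar : ResidualGaloisRep (ResidueField 𝒪)}

/-- **Two deformations are one over the fibre product.** -/
theorem exists_pairRep [IsArtinianRing B] (hB : IsArtinianTestAlgebra 𝒪 B)
    (habs : ρbar.IsAbsolutelyIrreducible) (ρ₁ ρ₂ : GaloisRepAdic B)
    (h₁ : ResCond ρbar ρ₁.trace) (h₂ : ResCond ρbar ρ₂.trace) :
    ∃ (ρ : GaloisRepAdic (pairAlg 𝒪 B))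
      (b : Module.Basis (Fin 2) (pairAlg 𝒪 B) ρ.V),
      ρ₁.IsEquiv (ρ.baseChangeAlong _ isLocalHom_pr₁) ∧
      ρ₂.IsEquiv (ρ.baseChangeAlong _ isLocalHom_pr₂) ∧
      ∀ g i j, residue B (LinearMap.toMatrix b b (ρ.ρ g) i j).1.1 =
        (haveI := hB.isLocalHom; ResidueField.map (algebraMap 𝒪 B) (barMat ρbar g i j)) := by
  haveI := hB.isLocalHom
  haveI := henselianLocalRing_of_artinian B
  obtain ⟨b₁, hb₁⟩ := FLTA.TW.exists_frame ρbar ρ₁
    ((residual_isEquiv_iff ρbar habs hB.residue_surjective ρ₁).mpr h₁)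
  obtain ⟨b₂, hb₂⟩ := FLTA.TW.exists_frame ρbar ρ₂
    ((residual_isEquiv_iff ρbar habs hB.residue_surjective ρ₂).mpr h₂)
  let M₁ : GalQ →* Mat2 B := (LinearMap.toMatrixAlgEquiv b₁).toMonoidHom.comp ρ₁.ρ
  let M₂ : GalQ →* Mat2 B := (LinearMap.toMatrixAlgEquiv b₂).toMonoidHom.comp ρ₂.ρ
  have hM : ∀ g, (M₁ g).map (residue B) = (M₂ g).map (residue B) := fun g =>
    (hb₁ g).trans (hb₂ g).symm
  have hC : MatCont (pairAlg 𝒪 B) (pairMat (𝒪 := 𝒪) M₁ M₂ hM) := by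
    obtain ⟨L₁, hL₁, hl₁⟩ := exists_level_eq_one_of_artinian ρ₁
    obtain ⟨L₂, hL₂, hl₂⟩ := exists_level_eq_one_of_artinian ρ₂
    refine matCont_of_level ⟨L₁ ⊔ L₂, inferInstance, fun σ hσ => ?_⟩
    have e₁ : ρ₁.ρ σ = 1 := (LinearMap.toMatrix (repBasis ρ₁) (repBasis ρ₁)).injective
      ((hl₁ σ fun x hx => hσ x (le_sup_left (a := L₁) (b := L₂) hx)).trans
        (LinearMap.toMatrix_one _).symm)
    have e₂ : ρ₂.ρ σ = 1 := (LinearMap.toMatrix (repBasis ρ₂) (repBasis ρ₂)).injective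
      ((hl₂ σ fun x hx => hσ x (le_sup_right (a := L₁) (b := L₂) hx)).trans
        (LinearMap.toMatrix_one _).symm)
    refine mat_ext ?_ ?_
    · rw [Matrix.map_one _ (map_zero _) (map_one _)]
      show LinearMap.toMatrixAlgEquiv b₁ (ρ₁.ρ σ) = 1
      rw [e₁, map_one]
    · rw [Matrix.map_one _ (map_zero _) (map_one _)]
      show LinearMap.toMatrixAlgEquiv b₂ (ρ₂.ρ σ) = 1
      rw [e₂, map_one]
  refine ⟨ofMat _ hC, Pi.basisFun (pairAlg 𝒪 B) (Fin 2), ?_, ?_, fun g i j => ?_⟩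
  · refine isEquiv_of_trace_eq ρbar habs hB.residue_surjective h₁ fun σ => ?_
    rw [trace_baseChangeAlong, trace_ofMat, AddMonoidHom.map_trace]
    exact LinearMap.trace_eq_matrix_trace _ b₁ _
  · refine isEquiv_of_trace_eq ρbar habs hB.residue_surjective h₂ fun σ => ?_
    rw [trace_baseChangeAlong, trace_ofMat, AddMonoidHom.map_trace]
    exact LinearMap.trace_eq_matrix_trace _ b₂ _
  · have e : LinearMap.toMatrix (Pi.basisFun (pairAlg 𝒪 B) (Fin 2))
        (Pi.basisFun (pairAlg 𝒪 B) (Fin 2)) ((ofMat _ hC).ρ g) =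
          pairMat (𝒪 := 𝒪) M₁ M₂ hM g := by
      show LinearMap.toMatrix (Pi.basisFun (pairAlg 𝒪 B) (Fin 2))
        (Pi.basisFun (pairAlg 𝒪 B) (Fin 2)) (Matrix.toLin' (pairMat (𝒪 := 𝒪) M₁ M₂ hM g)) = _
      rw [LinearMap.toMatrix_eq_toMatrix', LinearMap.toMatrix'_toLin']
    exact (congrArg (fun X : Mat2 (pairAlg 𝒪 B) => residue B (X i j).1.1) e).trans
      (congrFun₂ (hb₁ g) i j)

end Pair

section Theta

variable {𝒪 : Type} [CommRing 𝒪] [IsDomain 𝒪] [IsLocalRing 𝒪]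
  [IsLocalRing (𝒪 ⧸ Ideal.span {(4 : 𝒪)})]

local notation "mk₄" => Ideal.Quotient.mk (Ideal.span {(4 : 𝒪)})

local notation "A₄" => pairAlg 𝒪 (𝒪 ⧸ Ideal.span {(4 : 𝒪)})

omit [IsDomain 𝒪] in
theorem exists_lift_pair (hO : maximalIdeal 𝒪 = Ideal.span {(2 : 𝒪)}) (p : A₄) :
    ∃ x y z : 𝒪, mk₄ x = p.1.1 ∧ mk₄ y = p.1.2 ∧ x - y = 2 * z := by
  obtain ⟨x, hx⟩ := Ideal.Quotient.mk_surjective p.1.1
  obtain ⟨y, hy⟩ := Ideal.Quotient.mk_surjective p.1.2
  have h : mk₄ (x - y) ∈ maximalIdeal (𝒪 ⧸ Ideal.span {(4 : 𝒪)}) := by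
    rw [← residue_eq_zero_iff, map_sub, map_sub, hx, hy, residue_pair p, sub_self]
  rw [mem_maximalIdeal_quot, hO, Ideal.mem_span_singleton'] at h
  obtain ⟨z, hz⟩ := h
  exact ⟨x, y, z, hx, hy, by rw [← hz, mul_comm]⟩

/-- **The map to the dual numbers.** -/
theorem exists_theta (hO : maximalIdeal 𝒪 = Ideal.span {(2 : 𝒪)}) (h2 : (2 : 𝒪) ≠ 0) :
    letI := dualAlgebra 𝒪
    ∃ θ : A₄ →ₐ[𝒪] DualNumber (ResidueField 𝒪),
      IsLocalHom (θ : A₄ →+* DualNumber (ResidueField 𝒪)) ∧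
      ∀ (p : A₄) (x y z : 𝒪), mk₄ x = p.1.1 → mk₄ y = p.1.2 → x - y = 2 * z →
        θ p = TrivSqZeroExt.inl (residue 𝒪 x) + TrivSqZeroExt.inr (residue 𝒪 z) := by
  letI := dualAlgebra 𝒪
  choose x y z hx hy hz using exists_lift_pair hO
  let F : A₄ → DualNumber (ResidueField 𝒪) := fun p =>
    TrivSqZeroExt.inl (residue 𝒪 (x p)) + TrivSqZeroExt.inr (residue 𝒪 (z p))
  have h2r : residue 𝒪 2 = 0 := (residue_eq_zero_iff _).mpr (by
    rw [hO]; exact Ideal.subset_span rfl)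
  have hres : ∀ a b c : 𝒪, a - b = 2 * c → residue 𝒪 a = residue 𝒪 b := fun a b c h => by
    rw [← sub_eq_zero, ← map_sub, h, map_mul, h2r, zero_mul]
  have spec : ∀ (p : A₄) (a b c : 𝒪), mk₄ a = p.1.1 → mk₄ b = p.1.2 → a - b = 2 * c →
      F p = TrivSqZeroExt.inl (residue 𝒪 a) + TrivSqZeroExt.inr (residue 𝒪 c) := by
    intro p a b c ha hb hc
    obtain ⟨u, hu⟩ := Ideal.mem_span_singleton'.mp (Ideal.Quotient.eq.mp ((hx p).trans ha.symm))
    obtain ⟨v, hv⟩ := Ideal.mem_span_singleton'.mp (Ideal.Quotient.eq.mp ((hy p).trans hb.symm))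
    have e1 : residue 𝒪 (x p) = residue 𝒪 a :=
      hres _ _ (2 * u) (by linear_combination (-1 : 𝒪) * hu)
    have e2 : residue 𝒪 (z p) = residue 𝒪 c := hres _ _ (u - v) <|
      mul_left_cancel₀ h2 (by linear_combination hc - hz p - hu + hv)
    show TrivSqZeroExt.inl _ + TrivSqZeroExt.inr _ = _
    rw [e1, e2]
  let θ : A₄ →ₐ[𝒪] DualNumber (ResidueField 𝒪) :=
    { toFun := F
      map_one' := by rw [spec 1 1 1 0 (map_one _) (map_one _) (by ring)]; simp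
      map_mul' := fun p q => by
        rw [spec (p * q) (x p * x q) (y p * y q) (x p * z q + y q * z p)
          (by rw [map_mul, hx, hx]; rfl) (by rw [map_mul, hy, hy]; rfl)
          (by linear_combination (x p) * hz q + (y q) * hz p)]
        refine TrivSqZeroExt.ext ?_ ?_
        · simp [F]
        · simp [F, TrivSqZeroExt.snd_mul, hres _ _ _ (hz q)]
          ring
      map_zero' := by rw [spec 0 0 0 0 (map_zero _) (map_zero _) (by ring)]; simp
      map_add' := fun p q => by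
        rw [spec (p + q) (x p + x q) (y p + y q) (z p + z q)
          (by rw [map_add, hx, hx]; rfl) (by rw [map_add, hy, hy]; rfl)
          (by linear_combination hz q + hz p)]
        simp only [F, map_add, TrivSqZeroExt.inl_add, TrivSqZeroExt.inr_add]
        abel
      commutes' := fun c => by
        show F _ = _
        rw [spec _ c c 0 rfl rfl (by ring), map_zero, TrivSqZeroExt.inr_zero, add_zero]
        rfl }
  refine ⟨θ, ⟨fun p hp => isUnit_pair ?_⟩, spec⟩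
  have h : IsUnit (residue 𝒪 (x p)) := by
    have h1 := TrivSqZeroExt.isUnit_iff_isUnit_fst.mp (show IsUnit (F p) from hp)
    simpa [F] using h1
  rw [← hx p]
  exact (IsLocalHom.map_nonunit (f := residue 𝒪) _ h).map _

end Theta

end FLTA.LT2.Parity

end
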