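import Fermat.Agent.LT2.PatchedRingResidual
import Fermat.Agent.LT2.PrimesScalarExists
import Fermat.Agent.LT2.Local2Frame
import Fermat.Agent.LT2.LocalResidual
import Fermat.Agent.LT2.LocalTransfer

/-!
# Part G, parity: coordinates on `E[2]`, and the sign is unramified at `2`
-/

set_option autoImplicit false

open scoped Matrix

noncomputable section

namespace FLTA.LT2

open FLTA.Deformation
open FLTA.PT (Gl loc)
open FLTA.TaylorWiles.Flat (M2 inerG exists_tame)

attribute [local instance] FLTA.PT.factPrime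

variable {E : WeierstrassCurve ℤ}

/-- Coordinates on `E[2]` in which Galois acts by `mat2`. -/
theorem exists_coords_mat2 (hΔ : E.Δ ≠ 0) : ∃ e : Tors2 E ≃+ V2, ∀ (σ : GalQ) (P : Tors2 E),
    e (σ • P) = mat2 hΔ σ *ᵥ e P := by
  let r : ZMod (2 ^ 1) ≃+* ZMod 2 := ZMod.ringEquivCongr (pow_one 2)
  let i : Tors2 E ≃+ Image.Tors E 1 :=
    { toFun := fun x => ⟨x.1, by simp⟩
      invFun := fun x => ⟨x.1, by simp⟩
      left_inv := fun _ => rfl
      right_inv := fun _ => rfl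
      map_add' := fun _ _ => rfl }
  refine ⟨i.trans ((Image.torsEquiv hΔ 1).toAddEquiv.trans
    (AddEquiv.piCongrRight fun _ : Fin 2 => r.toAddEquiv)), fun σ P => funext fun j => ?_⟩
  show r (Image.torsEquiv hΔ 1 (σ • i P) j) = _
  rw [Image.torsEquiv_smul]
  have hr : Image.mod2 one_ne_zero = r.toRingHom := RingHom.ext_zmod _ _
  show r ((Image.rep hΔ 1 σ *ᵥ Image.torsEquiv hΔ 1 (i P)) j) = _
  rw [show r ((Image.rep hΔ 1 σ *ᵥ Image.torsEquiv hΔ 1 (i P)) j) =
      r.toRingHom ((Image.rep hΔ 1 σ *ᵥ Image.torsEquiv hΔ 1 (i P)) j) from rfl,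
    RingHom.map_mulVec]
  simp only [mat2, hr]
  rfl

theorem sgn_of_cube : ∀ X : TW.M2F, X * X * X = 1 → TW.sgn X = 0 := by decide

/-- The sign of `E[2]` is unramified at `2`. -/
theorem sgnChar_unram_two (hE : Companion E) : CharUnramAt 2 (TW.sgnChar hE) := by
  let M : Gl twoP →* M2 (ZMod 2) := (mat2 hE.Δ_ne_zero).comp (loc twoP)
  obtain ⟨e, he⟩ := exists_coords_mat2 hE.Δ_ne_zero
  have hM : Res2 M := res2_of_intertwine hE e M fun g P => he (loc twoP g) P
  obtain ⟨T, hT⟩ := exists_tame (q := twoP) (e := 3) (by decide) (one_dvd _)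
  obtain ⟨Φ⟩ := exists_frame hM T hT
  have hcube : ∀ s ∈ inerG twoP, M s * M s * M s = 1 := by
    intro s hs
    obtain ⟨j, -, h, hh, rfl⟩ := T.exists_pow_mul_mem_H Φ.hs Φ.hξ Φ.hsπ hs
    have h3 : M Φ.s ^ 3 = 1 := by
      rw [pow_succ, pow_two]; exact (order_three_cube _ Φ.hA).1
    rw [map_mul, map_pow, Φ.hH h hh, mul_one, ← pow_two, ← pow_succ, ← pow_mul, mul_comm,
      pow_mul, h3, one_pow]
  refine (TW.sgnChar_isChar hE).charUnramAt_of_one Nat.prime_two
    (FLTA.PT.primeLocalPlace_liesOverPrime twoP) fun σ hσ => sgn_of_cube _ ?_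
  obtain ⟨t, ht, rfl⟩ := FLTA.TW.exists_inertiaG_eq twoP hσ
  have h := hcube t (mem_inerG_of_mem_inertiaG ht)
  refine Matrix.map_injective (f := Image.mod2 one_ne_zero)
    ((by decide : ∀ x y : ZMod (2 ^ 1), Image.mod2 one_ne_zero x = Image.mod2 one_ne_zero y →
      x = y)) ?_
  simp only [Matrix.map_mul, Matrix.map_one _ (map_zero _) (map_one _)]
  exact h

end FLTA.LT2

end
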