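import Fermat.Agent.LT2.PatchedLevel
import Fermat.Agent.RT.CoeffBase
import Fermat.Agent.RT.PointClass
import Mathlib.RingTheory.Finiteness.Basic
import Mathlib.RingTheory.RingHom.Finite

/-!
# Part G of LT2: the eigenclass of a point

For a commutative algebra `H` acting faithfully on the level module and a point `ψ` of `H` with
values in a domain `B` finite over the coefficient ring, there is a class with coefficients in `B`
on which every operator agreeing with an element `h` of `H` is multiplication by `ψ h`. It has no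
torsion over `B`, so it stays nonzero in every field containing `B`. In particular one class
carries the eigenvalues of the normalised `T_l`, of the `U_v` and of the `U` at the auxiliary
primes, with coefficients in `B` for the character pushed to `B`.
-/

set_option autoImplicit false

noncomputable section

universe u

open IsLocalRing CongruenceSubgroup
open scoped MatrixGroups

namespace FLTA.LT2

open FLTA.RT FLTA.Periods

section generic

variable {Γ : Type*} [Group Γ] {R : Type u} [CommRing R] [IsNoetherianRing R] {χ : Γ →* Rˣ}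
  {e : NatEnd χ} {d : ℕ} (b : Module.Basis (Fin d) R (eImage e R))
  {H : Type*} [CommRing H] [Algebra R H] (α : H →ₐ[R] Module.End R (eImage e R))
  {B : Type u} [CommRing B] [IsDomain B] [Algebra R B] [Module.Finite R B]

include b in
/-- A point of a faithful algebra has an eigenclass, without torsion over the domain of values. -/
theorem exists_eigenClass (hlift : HasLifts χ) (hidem : EqAtRing (e * e) e)
    (hα : Function.Injective α) (ψ : H →ₐ[R] B) :
    ∃ z : tH1 χ B, z ∈ eImage e B ∧
      (∀ c : B, tH1Map χ (LinearMap.mulLeft R c) z = 0 → c = 0) ∧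
      ∀ (h : H) (f : NatEnd χ), (∀ x : eImage e R, ((α h x : eImage e R) : tH1 χ R) = f.app R x) →
        f.app B z = tH1Map χ (LinearMap.mulLeft R (ψ h)) z := by
  classical
  let ρ : H →ₐ[R] Matrix (Fin d) (Fin d) R :=
    ((LinearMap.toMatrixAlgEquiv b).toAlgHom).comp α
  have hρ : Function.Injective ρ := (LinearMap.toMatrixAlgEquiv b).injective.comp hα
  obtain ⟨v, hv0, hv⟩ := exists_eigenVec_integral ρ hρ (ψ : H →+* B)
  refine ⟨vecClass b v, vecClass_mem b v, fun c hc => ?_, fun h f hf => ?_⟩
  · rw [map_vecClass] at hc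
    have h0 := eq_zero_of_vecClass b hlift hidem _ hc
    obtain ⟨i, hi⟩ := Function.ne_iff.mp hv0
    exact (mul_eq_zero.mp (congrFun h0 i)).resolve_right hi
  · have hA : ∀ j, f.app R (b j : tH1 χ R) = ∑ i, ρ h i j • (b i : tH1 χ R) := fun j => by
      have h1 := congrArg Subtype.val (b.sum_repr (α h (b j)))
      rw [AddSubmonoidClass.coe_finsetSum] at h1
      rw [← hf (b j), ← h1]
      refine Finset.sum_congr rfl fun i _ => ?_
      show _ = (LinearMap.toMatrixAlgEquiv b (α h)) i j • _
      rw [LinearMap.toMatrixAlgEquiv_apply]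
      rfl
    rw [app_vecClass b f (ρ h) hA v, map_vecClass]
    congr 1
    funext i
    have h2 := congrFun (hv h) i
    rw [Pi.smul_apply, smul_eq_mul, RingHom.coe_coe] at h2
    rw [LinearMap.mulLeft_apply, ← h2]
    simp only [Matrix.mulVec, dotProduct, Matrix.map_apply, Algebra.smul_def]
    refine Finset.sum_congr rfl fun j _ => ?_
    congr 1
    exact (ψ.commutes _).symm

end generic

section gamma0

variable {L : ℕ} {R B : Type u} [CommRing R] [CommRing B]

/-- A class without torsion stays nonzero in every field containing its values. -/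
theorem tH1Map_ne_zero_of_noTorsion [IsDomain B] {χ' : (ZMod L)ˣ →* Bˣ} {K : Type u} [Field K]
    [Algebra B K] (hK : Function.Injective (algebraMap B K)) {z : tH1 (gamChar χ') B}
    (hz : ∀ c : B, c • z = 0 → c = 0) :
    tH1Map (gamChar χ') (Algebra.linearMap B K) z ≠ 0 := by
  intro h0
  obtain ⟨f, rfl⟩ := tClass_surjective (gamChar χ') z
  rw [tH1Map_class, tClass_eq_zero_iff] at h0
  obtain ⟨w, hw⟩ := h0
  have hw' : ∀ γ, (algebraMap B K (gamChar χ' γ : B) - 1) * w = algebraMap B K (f.1 γ) := fun γ => by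
    have h1 := congrFun (congrArg Subtype.val hw) γ
    rw [tDelta_apply, Algebra.smul_def] at h1
    rw [sub_mul, one_mul]
    exact h1
  by_cases htriv : ∀ γ, (gamChar χ' γ : B) = 1
  · refine one_ne_zero (hz 1 ?_)
    rw [one_smul, show f = 0 from Subtype.ext (funext fun γ => hK ?_), map_zero]
    rw [← hw' γ, htriv, map_one, sub_self, zero_mul]
    exact (map_zero _).symm
  · push Not at htriv
    obtain ⟨γ₀, hγ₀⟩ := htriv
    refine sub_ne_zero.mpr hγ₀ (hz _ ?_)
    rw [← map_smul, tClass_eq_zero_iff]
    refine ⟨f.1 γ₀, Subtype.ext (funext fun γ => hK ?_)⟩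
    rw [tDelta_apply, smul_eq_mul, map_sub, map_mul, Submodule.coe_smul, Pi.smul_apply,
      smul_eq_mul, map_mul, map_sub, map_one, ← hw' γ, ← hw' γ₀]
    ring

variable [NeZero L] [IsNoetherianRing R] [IsDomain B] {χ : (ZMod L)ˣ →* Rˣ} {hχ : χ (-1) = 1}
  {e : NatEnd (pgamChar χ hχ)} {d : ℕ} (b : Module.Basis (Fin d) R (eImage e R))
  {H : Type*} [CommRing H] [Algebra R H] (α : H →ₐ[R] Module.End R (eImage e R))

include b in
/-- **The eigenclass of a point**, on `Γ₀(L)` with coefficients in the ring of values: one class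
for all the operators `r • (T_l or U_l)` which lie in `H`. -/
theorem exists_pointClass (hlift : HasLifts (pgamChar χ hχ)) (hidem : EqAtRing (e * e) e)
    (hα : Function.Injective α) (ψ : H →+* B) (hfin : (ψ.comp (algebraMap R H)).Finite) :
    ∃ z : tH1 (gamChar (charMap (ψ.comp (algebraMap R H)) χ)) B,
      (∀ c : B, c • z = 0 → c = 0) ∧
      ∀ (l : ℕ) (r : R) (h : H),
        (∀ x : eImage e R,
          ((α h x : eImage e R) : tH1 (pgamChar χ hχ) R) = r • (pNatHecke χ hχ l).app R x) →
        ψ (algebraMap R H r) •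
            (natHecke (charMap (ψ.comp (algebraMap R H)) χ) l).app B z = ψ h • z := by
  set φ := ψ.comp (algebraMap R H) with hφdef
  let _ : Algebra R B := φ.toAlgebra
  have : Module.Finite R B := hfin
  have hφ : ∀ (r : R) (v : B), r • v = φ r • v := fun r v => Algebra.smul_def r v
  let ψ' : H →ₐ[R] B := { ψ with commutes' := fun r => rfl }
  obtain ⟨z, -, htf, heig⟩ := exists_eigenClass b α hlift hidem hα ψ'
  let Φ : tH1 (pgamChar χ hχ) B → tH1 (gamChar (charMap φ χ)) B :=
    fun y => tH1Base φ χ hφ (pInfl χ hχ B y)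
  have hΦmul : ∀ (c : B) (y : tH1 (pgamChar χ hχ) B),
      Φ (tH1Map _ (LinearMap.mulLeft R c) y) = c • Φ y := fun c y => by
    show tH1Base φ χ hφ (pInfl χ hχ B _) = _
    rw [show pInfl χ hχ B (tH1Map _ (LinearMap.mulLeft R c) y) =
      tH1Map _ (LinearMap.mulLeft R c) (pInfl χ hχ B y) from infl_natural _ _ _ _,
      tH1Base_map φ χ hφ hφ (LinearMap.mulLeft R c)
      (c • (LinearMap.id : B →ₗ[B] B)) (fun v => rfl), tH1Map_smul, tH1Map_id]
  have hΦinj : Function.Injective Φ :=
    (tH1Base φ χ hφ).injective.comp (pInfl_injective χ hχ B)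
  have hΦ0 : Φ 0 = 0 := by simp [Φ]
  refine ⟨Φ z, fun c hc => htf c (hΦinj ?_), fun l r h hh => ?_⟩
  · rw [hΦmul, hc, hΦ0]
  · have h1 := heig h (r • pNatHecke χ hχ l) fun x => by rw [hh x, NatEnd.smul_app]
    rw [NatEnd.smul_app] at h1
    have h2 := congrArg Φ h1
    rw [hΦmul] at h2
    refine Eq.trans ?_ h2
    show φ r • _ = tH1Base φ χ hφ (pInfl χ hχ B (r • _))
    rw [map_smul, tH1Base_smul, pInfl_pNatHecke, tH1Base_natHecke]

include b in
/-- **The eigenclass of a point**, over any field containing the ring of values. -/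
theorem exists_pointClass_field (hlift : HasLifts (pgamChar χ hχ)) (hidem : EqAtRing (e * e) e)
    (hα : Function.Injective α) (ψ : H →+* B) (hfin : (ψ.comp (algebraMap R H)).Finite)
    {K : Type u} [Field K] (ι : B →+* K) (hι : Function.Injective ι) :
    ∃ z : tH1 (gamChar (charMap (ι.comp (ψ.comp (algebraMap R H))) χ)) K, z ≠ 0 ∧
      ∀ (l : ℕ) (r : R) (h : H),
        (∀ x : eImage e R,
          ((α h x : eImage e R) : tH1 (pgamChar χ hχ) R) = r • (pNatHecke χ hχ l).app R x) →
        ι (ψ (algebraMap R H r)) •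
            (natHecke (charMap (ι.comp (ψ.comp (algebraMap R H))) χ) l).app K z =
          ι (ψ h) • z := by
  have h0 := exists_pointClass b α hlift hidem hα ψ hfin
  set φ := ψ.comp (algebraMap R H) with hφdef
  obtain ⟨z, htf, heig⟩ := h0
  let _ : Algebra B K := ι.toAlgebra
  have hK : ∀ (c : B) (v : K), c • v = ι c • v := fun c v => Algebra.smul_def c v
  have hcast : charMap ι (charMap φ χ) = charMap (ι.comp φ) χ :=
    MonoidHom.ext fun x => Units.ext rfl
  let Φ : tH1 (gamChar (charMap φ χ)) B → tH1 (gamChar (charMap (ι.comp φ) χ)) K :=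
    fun y => tH1Cast (V := K) hcast
      (tH1Base ι (charMap φ χ) hK (tH1Map _ (Algebra.linearMap B K) y))
  have hΦsmul : ∀ (c : B) y, Φ (c • y) = ι c • Φ y := fun c y => by
    simp only [Φ, map_smul, tH1Base_smul]
  refine ⟨Φ z, fun h0 => tH1Map_ne_zero_of_noTorsion (K := K) hι htf ?_, fun l r h hh => ?_⟩
  · exact (tH1Base ι (charMap φ χ) hK).map_eq_zero_iff.mp
      ((tH1Cast (V := K) hcast).map_eq_zero_iff.mp h0)
  · rw [← hΦsmul (ψ h), ← heig l r h hh, hΦsmul]
    congr 1
    simp only [Φ]
    rw [← (natHecke (charMap φ χ) l).natural, tH1Base_natHecke, tH1Cast_natHecke]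

omit [NeZero L] [IsNoetherianRing R] [IsDomain B] in
/-- The cocycle identity of a class of the pushed character. -/
theorem pointCocycle_mul (φ : R →+* B) (f : tCocycles (gamChar (charMap φ χ)) B)
    (g h : Gamma0 L) : f.1 (g * h) = f.1 g + φ (gamChar χ g : R) * f.1 h := by
  rw [f.2, coe_gamChar_charMap, smul_eq_mul]

end gamma0

section level

variable {O : Type} [CommRing O] [IsLocalRing O] [IsNoetherianRing O] [IsDomain O]
  [IsDiscreteValuationRing O] [IsAdicComplete (maximalIdeal O) O] {k m L₀ L₁ : ℕ} {q : Fin k → ℕ}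
  [NeZero (twLev k L₁ q)] {E : WeierstrassCurve ℤ} {ω : O} {d : ℕ}
  (b : Module.Basis (Fin d) (DiaRing O k m) (twMod O k m L₀ q E L₁ ω))
  {H : Type*} [CommRing H] [Algebra O H] [Algebra (DiaRing O k m) H]
  [IsScalarTower O (DiaRing O k m) H]
  (α : H →ₐ[DiaRing O k m] Module.End (DiaRing O k m) (twMod O k m L₀ q E L₁ ω))
  {A : Type} [CommRing A] [Algebra O A] [Module.Finite O A]

/-- The coefficient ring of the level at a point. -/
abbrev diaPoint (ψ : H →ₐ[O] A) : DiaRing O k m →+* A :=
  (ψ : H →+* A).comp (algebraMap (DiaRing O k m) H)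

omit [IsLocalRing O] [IsNoetherianRing O] [IsDomain O] [IsDiscreteValuationRing O]
  [IsAdicComplete (maximalIdeal O) O] in
theorem finite_diaPoint (ψ : H →ₐ[O] A) : (diaPoint (k := k) (m := m) ψ).Finite := by
  refine RingHom.Finite.of_comp_finite (f := algebraMap O (DiaRing O k m)) ?_
  have e : (diaPoint (k := k) (m := m) ψ).comp (algebraMap O (DiaRing O k m)) = algebraMap O A :=
    RingHom.ext fun c => by
      show ψ (algebraMap (DiaRing O k m) H (algebraMap O (DiaRing O k m) c)) = _
      rw [← IsScalarTower.algebraMap_apply, AlgHom.commutes]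
  rw [e]
  exact RingHom.finite_algebraMap.mpr inferInstance

variable [IsDomain A]

include b in
/-- **The eigenclass of a point of the level**: one class with coefficients in `A`, for the
character `(∏ εᵢ ∘ a)²` at the point, with the eigenvalues of the normalised `T_l`, of the `U_v`
and of the `U` at the auxiliary primes, nonzero in every field containing `A`. -/
theorem exists_twPointClass (h2 : (2 : O) ∈ maximalIdeal O) {p : ℕ} (hp : p.Prime) (hpL : p ∣ L₁)
    (hp4 : p % 4 = 3) (hα : Function.Injective α) (ψ : H →ₐ[O] A) :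
    ∃ z : tH1 (gamChar (charMap (diaPoint ψ) (twChar O k m L₁ q))) A,
      (∀ c : A, c • z = 0 → c = 0) ∧
      ∀ (l : ℕ) (r : DiaRing O k m) (h : H),
        (∀ x : twMod O k m L₀ q E L₁ ω,
          ((α h x : twMod O k m L₀ q E L₁ ω) :
              tH1 (pgamChar (twChar O k m L₁ q) (twChar_neg_one O k m L₁ q)) (DiaRing O k m)) =
            r • (pNatHecke (twChar O k m L₁ q) (twChar_neg_one O k m L₁ q) l).app
              (DiaRing O k m) x) →
        diaPoint ψ r •
            (natHecke (charMap (diaPoint ψ) (twChar O k m L₁ q)) l).app A z = ψ h • z := by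
  have := group_fg_PGamma0 (twLev k L₁ q)
  exact exists_pointClass b α (hasLifts_twChar O k m q L₁ h2 hp hpL hp4)
    (eqAtRing_localEnd_sq (commAtRing_twOps O k m L₀ q L₁) _) hα (ψ : H →+* A)
    (finite_diaPoint ψ)

end level

end FLTA.LT2

end
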