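import Fermat.Agent.RT.CoeffPoints

/-!
# An algebra of endomorphisms seen at finitely many points through classical Hecke algebras

The module `W` maps, semilinearly along points `φ : R →+* K`, to parabolic homomorphisms of
levels depending on the point, the generators acting there as Hecke operators up to a sign from
`R`.  The algebra they generate is reduced (`isReduced_of_points`), and a minimal prime gives a
system of one of these levels (`exists_system_of_points`).
-/

set_option autoImplicit false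

noncomputable section

open CongruenceSubgroup ModularCurve.Period
open scoped MatrixGroups TensorProduct

namespace FLTA.LT2

open FLTA.RT FLTA.Periods

section rep

variable {R : Type} [CommRing R] {W : Type} [AddCommGroup W] [Module R W]
  {K : Type} [Field K] {H : Type} [CommRing H] {V : Type} [AddCommGroup V] [Module K V]
  (pre : H →+* Module.End K V)

/-- `K ⊗ H` acting on `V`. -/
def repHom : K ⊗[ℤ] H →ₐ[K] Module.End K V :=
  Algebra.TensorProduct.lift (Algebra.ofId K _) ({ pre with commutes' := fun m => by simp } :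
      H →ₐ[ℤ] Module.End K V)
    fun k _ => Algebra.commutes k _

theorem repHom_tmul (k : K) (t : H) : repHom pre (k ⊗ₜ t) = k • pre t := by
  rw [Algebra.smul_def]
  exact Algebra.TensorProduct.lift_tmul _ _ _ k t

variable (φ : R →+* K) (Φ : W →+ V) (hΦs : ∀ (r : R) x, Φ (r • x) = φ r • Φ x)
  (G : Set (Module.End R W))
  (hG : ∀ g ∈ G, ∃ c, ∀ x, repHom pre c (Φ x) = Φ (g x))

include hΦs hG in
/-- At one point the algebra generated by `G` is a subring of a quotient of `K ⊗ H`. -/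
theorem exists_repQuot : ∃ (I : Ideal (K ⊗[ℤ] H))
    (κ : Algebra.adjoin R G →+* (K ⊗[ℤ] H) ⧸ I),
      (∀ a : Algebra.adjoin R G, κ a = 0 → ∀ x, Φ ((a : Module.End R W) x) = 0) ∧
      (∀ r, κ (algebraMap R _ r) = Ideal.Quotient.mk I (φ r ⊗ₜ (1 : H))) ∧
      ∀ (a : Algebra.adjoin R G) c, (∀ x, repHom pre c (Φ x) = Φ ((a : Module.End R W) x)) →
        κ a = Ideal.Quotient.mk I c := by
  let I : Ideal (K ⊗[ℤ] H) :=
    { carrier := {c | ∀ x, repHom pre c (Φ x) = 0}
      zero_mem' := fun x => by simp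
      add_mem' := fun {c d} hc hd x => by
        rw [map_add, LinearMap.add_apply, hc x, hd x, add_zero]
      smul_mem' := fun c d hd x => by
        rw [smul_eq_mul, map_mul, Module.End.mul_apply, hd x, map_zero] }
  have halg : ∀ (r : R) x, repHom pre (φ r ⊗ₜ (1 : H)) (Φ x) = Φ (r • x) := fun r x => by
    rw [repHom_tmul, map_one, hΦs, LinearMap.smul_apply, Module.End.one_apply]
  have hrep : ∀ b : Algebra.adjoin R G, ∃ c,
      ∀ x, repHom pre c (Φ x) = Φ ((b : Module.End R W) x) := by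
    rintro ⟨b, hb⟩
    induction hb using Algebra.adjoin_induction with
    | mem z hz => exact hG z hz
    | algebraMap r => exact ⟨_, halg r⟩
    | add y z _ _ h h' =>
      obtain ⟨c, hc⟩ := h
      obtain ⟨d, hd⟩ := h'
      exact ⟨c + d, fun x => by
        rw [map_add, LinearMap.add_apply, hc, hd, ← map_add]; rfl⟩
    | mul y z _ _ h h' =>
      obtain ⟨c, hc⟩ := h
      obtain ⟨d, hd⟩ := h'
      exact ⟨c * d, fun x => by rw [map_mul, Module.End.mul_apply, hd, hc]; rfl⟩
  choose cc hcc using hrep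
  have hκ : ∀ (b : Algebra.adjoin R G) c,
      (∀ x, repHom pre c (Φ x) = Φ ((b : Module.End R W) x)) →
      Ideal.Quotient.mk I (cc b) = Ideal.Quotient.mk I c := fun b c h =>
    Ideal.Quotient.eq.mpr fun x => by rw [map_sub, LinearMap.sub_apply, hcc, h, sub_self]
  let κ : Algebra.adjoin R G →+* (K ⊗[ℤ] H) ⧸ I :=
    { toFun := fun b => Ideal.Quotient.mk I (cc b)
      map_one' := (hκ 1 1 fun x => by simp).trans (map_one _)
      map_mul' := fun b b' => (hκ _ (cc b * cc b') fun x => by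
        rw [map_mul, Module.End.mul_apply, hcc, hcc]; rfl).trans (map_mul _ _ _)
      map_zero' := (hκ 0 0 fun x => by simp).trans (map_zero _)
      map_add' := fun b b' => (hκ _ (cc b + cc b') fun x => by
        rw [map_add, LinearMap.add_apply, hcc, hcc, ← map_add]; rfl).trans (map_add _ _ _) }
  refine ⟨I, κ, fun a h x => ?_, fun r => ?_, hκ⟩
  · rw [← hcc]
    exact Ideal.Quotient.eq_zero_iff_mem.mp h x
  · show Ideal.Quotient.mk I (cc (algebraMap R _ r)) = _
    exact hκ _ (φ r ⊗ₜ (1 : H)) fun x => halg r x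

end rep

section prime

variable {A : Type} [Ring A] {K : Type} [Field K]

/-- Finitely many maps which jointly detect `0`: one of their kernels is inside a prime. -/
theorem exists_ker_le_of_prime {ι : Type} [Fintype ι] {C : ι → Type} [∀ i, Semiring (C i)]
    (κ : ∀ i, A →+* C i) (hκ : ∀ a, (∀ i, κ i a = 0) → a = 0) (ψ : A →+* K) :
    ∃ i, RingHom.ker (κ i) ≤ RingHom.ker ψ := by
  classical
  by_contra! h
  have h' : ∀ i, ∃ a, κ i a = 0 ∧ ψ a ≠ 0 := fun i => by
    obtain ⟨a, ha, ha'⟩ := SetLike.not_le_iff_exists.mp (h i)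
    exact ⟨a, ha, ha'⟩
  choose a ha ha' using h'
  have key : ∀ s : Finset ι, ∃ P, ψ P ≠ 0 ∧ ∀ j ∈ s, κ j P = 0 := fun s => by
    induction s using Finset.induction_on with
    | empty => exact ⟨1, by simp, by simp⟩
    | @insert j s _ ih =>
      obtain ⟨P, hP, hP'⟩ := ih
      refine ⟨P * a j, by rw [map_mul]; exact mul_ne_zero hP (ha' j), fun k hk => ?_⟩
      rcases Finset.mem_insert.mp hk with rfl | hk
      · rw [map_mul, ha, mul_zero]
      · rw [map_mul, hP' k hk, zero_mul]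
  obtain ⟨P, hP, hP'⟩ := key Finset.univ
  exact hP (by rw [hκ P fun i => hP' i (Finset.mem_univ i), map_zero])

/-- A map to `K` factoring through `κ` restricts to every ring mapping into the range of `κ`. -/
theorem exists_restrict {H C : Type} [Ring H] [Ring C] (κ : A →+* C) (ψ : A →+* K)
    (hker : RingHom.ker κ ≤ RingHom.ker ψ) (j : H →+* C) {σ : Type} (T : σ → H)
    (hH : ∀ P : Subring H, (∀ s, T s ∈ P) → ∀ t, t ∈ P) (hT : ∀ s, ∃ a, κ a = j (T s)) :
    ∃ θ : H →+* K, ∀ t a, κ a = j t → θ t = ψ a := by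
  have hj : ∀ t, j t ∈ κ.range := hH (κ.range.comap j) hT
  have hker' : RingHom.ker κ.rangeRestrict ≤ RingHom.ker ψ := fun a ha =>
    hker (congrArg Subtype.val (ha : κ.rangeRestrict a = 0))
  refine ⟨(RingHom.liftOfRightInverse κ.rangeRestrict _
    (Function.rightInverse_surjInv κ.rangeRestrict_surjective) ⟨ψ, hker'⟩).comp
      (j.codRestrict _ hj), fun t a ha => ?_⟩
  rw [RingHom.comp_apply, show j.codRestrict _ hj t = κ.rangeRestrict a from Subtype.ext ha.symm]
  exact RingHom.liftOfRightInverse_comp_apply _ _ _ _ _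

/-- An element killed by something invertible at `κ` vanishes there. -/
theorem map_eq_zero_of_mul {C : Type} [Semiring C] (κ : A →+* C) {a b : A} (hu : IsUnit (κ a))
    (h : a * b = 0) : κ b = 0 := by
  have h1 := congrArg κ h
  rwa [map_mul, map_zero, hu.mul_right_eq_zero] at h1

/-- Nilpotent elements die in reduced rings. -/
theorem map_eq_zero_of_isNilpotent {C : Type} [Semiring C] [IsReduced C] (κ : A →+* C) {a : A}
    (ha : IsNilpotent a) : κ a = 0 :=
  (ha.map κ).eq_zero

/-- Quotients of `K ⊗ H` are reduced. -/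
theorem isReduced_quotient_tensor [CharZero K] (H : Type) [CommRing H] [IsReduced H]
    [IsAddTorsionFree H] [Module.Finite ℤ H] {C : Type} [CommRing C] [Algebra K C]
    (f : K ⊗[ℤ] H →ₐ[K] C) (hf : Function.Surjective f) : IsReduced C :=
  Petersson.isReduced_of_surjective (H := H) f hf

end prime

section points

variable {R : Type} [CommRing R] {K : Type} [Field K] {W : Type} [AddCommGroup W] [Module R W]
  {σ : Type} (op : σ → Module.End R W)

/-- What one point knows about the algebra generated by `op`. -/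
theorem exists_opQuot (φ : R →+* K) {H : Type} [CommRing H] {V : Type} [AddCommGroup V]
    [Module K V] (pre : H →+* Module.End K V) (Φ : W →+ V)
    (hΦs : ∀ (r : R) x, Φ (r • x) = φ r • Φ x) (T : σ → H) (sg : σ → R)
    (hsg : ∀ s, φ (sg s) ^ 2 = 1)
    (hgen : ∀ s x, Φ (op s x) = φ (sg s) • pre (T s) (Φ x)) :
    ∃ (I : Ideal (K ⊗[ℤ] H)) (κ : Algebra.adjoin R (Set.range op) →+* (K ⊗[ℤ] H) ⧸ I),
      (∀ a : Algebra.adjoin R (Set.range op), κ a = 0 → ∀ x, Φ ((a : Module.End R W) x) = 0) ∧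
      (∀ r, κ (algebraMap R _ r) = Ideal.Quotient.mk I (φ r ⊗ₜ 1)) ∧
      ∀ s, κ (algebraMap R _ (sg s) * ⟨op s, Algebra.subset_adjoin ⟨s, rfl⟩⟩) =
        Ideal.Quotient.mk I ((1 : K) ⊗ₜ T s) := by
  obtain ⟨I, κ, hκ0, hκr, hκ⟩ := exists_repQuot pre φ Φ hΦs (Set.range op) (by
    rintro _ ⟨s, rfl⟩
    refine ⟨φ (sg s) ⊗ₜ T s, fun x => ?_⟩
    rw [repHom_tmul, LinearMap.smul_apply, hgen])
  refine ⟨I, κ, hκ0, hκr, fun s => hκ _ _ fun x => ?_⟩
  rw [repHom_tmul, one_smul]
  show _ = Φ (sg s • op s x)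
  rw [hΦs, hgen, smul_smul, ← pow_two, hsg, one_smul]

variable {ι : Type} [Fintype ι] (pt : ι → R →+* K) {H : ι → Type} [∀ i, CommRing (H i)]
  {V : ι → Type} [∀ i, AddCommGroup (V i)] [∀ i, Module K (V i)]
  (pre : ∀ i, H i →+* Module.End K (V i)) (Ψ : ∀ i, W →+ V i)
  (hΨs : ∀ i (r : R) x, Ψ i (r • x) = pt i r • Ψ i x)
  (hinj : ∀ x, (∀ i, Ψ i x = 0) → x = 0) (T : ∀ i, σ → H i)
  (sg : ι → σ → R) (hsg : ∀ i s, pt i (sg i s) ^ 2 = 1)
  (hgen : ∀ i s x, Ψ i (op s x) = pt i (sg i s) • pre i (T i s) (Ψ i x))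

include hΨs hinj hsg hgen in
omit [Fintype ι] in
/-- Points separate, so the algebra is reduced. -/
theorem isReduced_of_points [CharZero K] [∀ i, IsReduced (H i)] [∀ i, IsAddTorsionFree (H i)]
    [∀ i, Module.Finite ℤ (H i)] : IsReduced (Algebra.adjoin R (Set.range op)) := by
  refine ⟨fun a ha => Subtype.ext (LinearMap.ext fun x => hinj _ fun i => ?_)⟩
  obtain ⟨I, κ, hκ0, -, -⟩ :=
    exists_opQuot op (pt i) (pre i) (Ψ i) (hΨs i) (T i) (sg i) (hsg i) (hgen i)
  have := isReduced_quotient_tensor (H i) (C := (K ⊗[ℤ] H i) ⧸ I) (Ideal.Quotient.mkₐ K I)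
    (Ideal.Quotient.mkₐ_surjective K I)
  exact hκ0 a (map_eq_zero_of_isNilpotent κ ha) x

include hΨs hinj hsg hgen in
/-- A minimal prime gives a point of one of the rings `H i`, if they are generated by the `T i s`. -/
theorem exists_system_of_points
    (hH : ∀ i (P : Subring (H i)), (∀ s, T i s ∈ P) → ∀ t, t ∈ P)
    (ψ : Algebra.adjoin R (Set.range op) →+* K)
    (hψ : ∀ a, ψ a = 0 → ∃ b, ψ b ≠ 0 ∧ a * b = 0) :
    ∃ i, (∀ r, pt i r = 0 ↔ ψ.comp (algebraMap R _) r = 0) ∧
      ∃ θ : H i →+* K, ∀ s, ψ ⟨op s, Algebra.subset_adjoin ⟨s, rfl⟩⟩ =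
        ψ (algebraMap R _ (sg i s)) * θ (T i s) := by
  choose I κ hκ0 hκr hκT using fun i =>
    exists_opQuot op (pt i) (pre i) (Ψ i) (hΨs i) (T i) (sg i) (hsg i) (hgen i)
  obtain ⟨i, hi⟩ := exists_ker_le_of_prime κ
    (fun a ha => Subtype.ext (LinearMap.ext fun x => hinj _ fun i => hκ0 i a (ha i) x)) ψ
  have hzero : ∀ r, pt i r = 0 ↔ ψ.comp (algebraMap R _) r = 0 := fun r => by
    refine ⟨fun h => hi (?_ : κ i _ = 0), fun h => ?_⟩
    · rw [hκr, h, TensorProduct.zero_tmul, map_zero]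
    · by_contra hr
      obtain ⟨b, hb, hab⟩ := hψ _ h
      refine hb (hi (?_ : κ i b = 0))
      refine map_eq_zero_of_mul (κ i) ?_ hab
      rw [hκr]
      exact ((isUnit_iff_ne_zero.mpr hr).map
        (Algebra.TensorProduct.includeLeftRingHom (R := ℤ) (B := H i))).map (Ideal.Quotient.mk (I i))
  let j : H i →+* (K ⊗[ℤ] H i) ⧸ I i :=
    (Ideal.Quotient.mk (I i)).comp
      (Algebra.TensorProduct.includeRight (R := ℤ) (A := K)).toRingHom
  obtain ⟨θ, hθ⟩ := exists_restrict (κ i) ψ hi j (T i) (hH i) fun s => ⟨_, hκT i s⟩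
  refine ⟨i, hzero, θ, fun s => ?_⟩
  have h2 : ψ (algebraMap R _ (sg i s)) ^ 2 = 1 := by
    rw [← sub_eq_zero, ← map_pow, ← map_pow, ← map_one ψ, ← map_sub,
      ← map_one (algebraMap R (Algebra.adjoin R (Set.range op))), ← map_sub]
    exact (hzero _).mp (by rw [map_sub, map_pow, map_one, hsg, sub_self])
  rw [hθ _ _ (hκT i s), map_mul, ← mul_assoc, ← pow_two, h2, one_mul]

end points

section hecke

/-- A subring of the Hecke algebra away from the level containing every `T_l` is everything. -/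
theorem mem_of_forall_T_mem {M : ℕ} [NeZero M] {S : Set ℕ}
    (hSM : ∀ q : ℕ, q.Prime → q ∣ M → q ∈ S) (P : Subring (CuspForm.heckeAlgebra M 2 S))
    (hP : ∀ (l : ℕ) (hl : l.Prime) (hlS : l ∉ S) (hlM : ¬ l ∣ M),
      CuspForm.heckeAlgebra.T hl hlM hlS ∈ P) (t : CuspForm.heckeAlgebra M 2 S) : t ∈ P := by
  refine Algebra.adjoin_induction (p := fun y hy =>
    (⟨y, hy⟩ : CuspForm.heckeAlgebra M 2 S) ∈ P) ?_ ?_ ?_ ?_ t.2
  · rintro x (⟨l, hl, hlM, hlS, rfl⟩ | ⟨q, hqM, hq, hqS, rfl⟩)
    · exact hP l hl hlS hlM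
    · exact absurd (hSM q hq hqM) hqS
  · exact fun m => intCast_mem P m
  · exact fun x y hx hy h h' => add_mem h h'
  · exact fun x y hx hy h h' => mul_mem h h'

end hecke

end FLTA.LT2
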