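import Fermat.Agent.LT2.PatchedPointsAux
import Fermat.Agent.LT2.PatchedPointsRep

/-!
# Part G of LT2: the points of the twisted Hecke algebra when the twist may be quadratic

For a stable piece `W` of `tH1 χ R` on which `T_{l₀} - (l₀ + 1)` is bijective, `l₀ ≡ 1`, the
`R`-algebra generated by the normalised good Hecke operators is reduced, and at a minimal prime
the eigenvalues are, up to the sign `∏ ε q (l)` over the primes where the twist is quadratic at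
the point, those of a classical system at trivial character.
-/

set_option autoImplicit false

noncomputable section

open CongruenceSubgroup ModularCurve.Period
open scoped MatrixGroups TensorProduct

namespace FLTA.LT2

open FLTA.RT FLTA.Periods

variable {L : ℕ} [NeZero L] {R : Type} [CommRing R] {χ : (ZMod L)ˣ →* Rˣ} (Q₀ : Finset ℕ)
  (ε : ∀ q : ℕ, (ZMod q)ˣ →* Rˣ) (S : Set ℕ) (W : Submodule R (tH1 (gamChar χ) R))

/-- `W` is stable under the Hecke operators outside `S`. -/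
def GoodStable : Prop :=
  ∀ l : ℕ, l.Prime → l ∉ S → ∀ x ∈ W, (natHecke χ l).app R x ∈ W

variable {Q₀ ε S W} (hW : GoodStable S W)

/-- The normalised operators on `W`. -/
def normOp (Q₀ : Finset ℕ) (ε : ∀ q : ℕ, (ZMod q)ˣ →* Rˣ) (l : {l : ℕ // l.Prime ∧ l ∉ S}) :
    Module.End R W :=
  (kap Q₀ ε l : R) • ((natHecke χ l).app R).restrict (hW l l.2.1 l.2.2)

/-- The algebra they generate. -/
abbrev normAlg (Q₀ : Finset ℕ) (ε : ∀ q : ℕ, (ZMod q)ˣ →* Rˣ) : Subalgebra R (Module.End R W) :=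
  Algebra.adjoin R (Set.range (normOp hW Q₀ ε))

theorem normOp_comm (s t : {l : ℕ // l.Prime ∧ l ∉ S}) :
    normOp hW Q₀ ε s * normOp hW Q₀ ε t = normOp hW Q₀ ε t * normOp hW Q₀ ε s := by
  refine LinearMap.ext fun x => Subtype.ext ?_
  show (kap Q₀ ε s : R) • (natHecke χ s).app R ((kap Q₀ ε t : R) • (natHecke χ t).app R x.1) =
    (kap Q₀ ε t : R) • (natHecke χ t).app R ((kap Q₀ ε s : R) • (natHecke χ s).app R x.1)
  rw [map_smul, map_smul, natHecke_comm χ s.2.1 t.2.1, smul_comm]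

theorem commute_of_mem_normAlg {a b : Module.End R W} (ha : a ∈ normAlg hW Q₀ ε)
    (hb : b ∈ normAlg hW Q₀ ε) : Commute a b :=
  (Algebra.commute_of_mem_adjoin_of_forall_mem_commute ha fun x hx => by
    obtain ⟨s, rfl⟩ := hx
    exact (Algebra.commute_of_mem_adjoin_of_forall_mem_commute hb fun y hy => by
      obtain ⟨t, rfl⟩ := hy
      exact normOp_comm hW s t).symm).symm

variable (hQ : ∀ q ∈ Q₀, q.Prime ∧ q ∣ L ∧ ¬ q * q ∣ L) (hχ : χ = sigProd L Q₀ ε)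
  (hS : ∀ q : ℕ, q.Prime → q ∣ L → q ∈ S) {l₀ : ℕ} (hl₀ : l₀.Prime) (hl₀S : l₀ ∉ S)
  (hl₀1 : (l₀ : ZMod (L * ∏ q ∈ Q₀, q)) = 1)
  (hbij : ∀ x ∈ W, ∃! y, y ∈ W ∧ (natHecke χ l₀).app R y - ((l₀ : R) + 1) • y = x)
  {K : Type} [Field K] [CharZero K] [IsAlgClosed K] {ι : Type} [Fintype ι] (pt : ι → R →+* K)
  (hsep : ∀ r : R, (∀ i, pt i r = 0) → r = 0)

open Classical in
/-- The primes at which the twist is quadratic or trivial at the point `φ`. -/
def quadSet (Q₀ : Finset ℕ) (ε : ∀ q : ℕ, (ZMod q)ˣ →* Rˣ) (φ : R →+* K) : Finset ℕ :=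
  Q₀.filter fun q => ∀ u, φ ((ε q u : R)) ^ 2 = 1

omit [CharZero K] [IsAlgClosed K] in
theorem quadSet_congr {φ φ' : R →+* K} (h : ∀ r, φ r = 0 ↔ φ' r = 0) :
    quadSet Q₀ ε φ = quadSet Q₀ ε φ' := by
  classical
  refine Finset.filter_congr fun q _ => forall_congr' fun u => ?_
  have h1 := h ((ε q u : R) ^ 2 - 1)
  rwa [map_sub, map_sub, map_pow, map_pow, map_one, map_one, sub_eq_zero, sub_eq_zero] at h1

omit [CharZero K] [IsAlgClosed K] in
theorem kap_quadSet_sq (φ : R →+* K) (l : ℕ) : φ (kap (quadSet Q₀ ε φ) ε l : R) ^ 2 = 1 := by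
  classical
  rw [kap, Units.coe_prod, map_prod, ← Finset.prod_pow]
  refine Finset.prod_eq_one fun q hq => ?_
  unfold epsAt
  split_ifs
  · exact (Finset.mem_filter.mp hq).2 _
  · simp

omit [CharZero K] [IsAlgClosed K] in
theorem kap_quadSet_mul (φ : R →+* K) (l : ℕ) :
    kap (quadSet Q₀ ε φ) ε l * kap (Q₀ \ quadSet Q₀ ε φ) ε l = kap Q₀ ε l := by
  classical
  rw [kap, kap, kap, mul_comm]
  exact Finset.prod_sdiff (Finset.filter_subset _ _)

omit [NeZero L] [CharZero K] [IsAlgClosed K] in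
theorem charMap_sigProd_quadSet (φ : R →+* K) :
    charMap φ (sigProd L Q₀ ε) = sigProd L (Q₀ \ quadSet Q₀ ε φ) fun q => charMap φ (ε q) := by
  classical
  rw [charMap_sigProd]
  refine MonoidHom.ext fun x => ?_
  rw [sigProd_apply, sigProd_apply]
  refine (Finset.prod_subset Finset.sdiff_subset fun q hq hq' => ?_).symm
  have hq2 : q ∈ quadSet Q₀ ε φ := by simpa [hq] using hq'
  refine Units.ext ?_
  by_cases h : q ∣ L
  · rw [sigChar_of_dvd _ h, Units.val_pow_eq_pow_val, coe_charMap, Units.val_one]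
    exact (Finset.mem_filter.mp hq2).2 _
  · rw [sigChar, dif_neg h, MonoidHom.one_apply, one_pow]

omit [IsAlgClosed K] in
/-- The parabolic homomorphisms of a point, on which the normalised operators act through `T_l`
up to the sign `∏ ε q (l)` over `quadSet`. -/
theorem exists_pointData (hQ : ∀ q ∈ Q₀, q.Prime ∧ q ∣ L ∧ ¬ q * q ∣ L) (hχ : χ = sigProd L Q₀ ε)
    (hS : ∀ q : ℕ, q.Prime → q ∣ L → q ∈ S) {l₀ : ℕ} (hl₀ : l₀.Prime) (hl₀S : l₀ ∉ S)
    (hl₀1 : (l₀ : ZMod (L * ∏ q ∈ Q₀, q)) = 1)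
    (hbij : ∀ x ∈ W, ∃! y, y ∈ W ∧ (natHecke χ l₀).app R y - ((l₀ : R) + 1) • y = x)
    (φ : R →+* K) {M : ℕ} [NeZero M] (hM : M = L * ∏ q ∈ Q₀ \ quadSet Q₀ ε φ, q) :
    (∀ q : ℕ, q.Prime → q ∣ M → q ∈ S) ∧
    ∃ Ψ : W →+ (parQuot (Gamma0 M) →+ K), (∀ (r : R) x, Ψ (r • x) = φ r • Ψ x) ∧
      (∀ x, Ψ x = 0 → ptMap φ χ (x : tH1 (gamChar χ) R) = 0) ∧
      ∀ (l : ℕ) (hl : l.Prime) (hlS : l ∉ S) (hlM : ¬ l ∣ M) (x : W),
        Ψ (normOp hW Q₀ ε ⟨l, hl, hlS⟩ x) = φ (kap (quadSet Q₀ ε φ) ε l : R) •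
          precompHecke M S K (CuspForm.heckeAlgebra.T hl hlM hlS) (Ψ x) := by
  classical
  have hdvd : M ∣ L * ∏ q ∈ Q₀, q :=
    hM ▸ mul_dvd_mul_left L (Finset.prod_dvd_prod_of_subset _ _ _ Finset.sdiff_subset)
  have hSM : ∀ q : ℕ, q.Prime → q ∣ M → q ∈ S := fun q hq h => by
    refine (hq.dvd_mul.mp (h.trans hdvd)).elim (hS q hq) fun h' => ?_
    obtain ⟨r, hr, hqr⟩ := (hq.prime.dvd_finsetProd_iff fun r : ℕ => r).mp h'
    rw [(Nat.prime_dvd_prime_iff_eq hq (hQ r hr).1).mp hqr]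
    exact hS r (hQ r hr).1 (hQ r hr).2.1
  refine ⟨hSM, ?_⟩
  obtain ⟨Ψ, hΨs, hΨ0, hΨT⟩ := exists_parPoint_sub W (Q₀ \ quadSet Q₀ ε φ) ε
    (fun q hq => hQ q (Finset.sdiff_subset hq)) φ (by rw [hχ, charMap_sigProd_quadSet])
    (fun q hq h => (Finset.mem_sdiff.mp hq).2 (Finset.mem_filter.mpr
      ⟨(Finset.mem_sdiff.mp hq).1, fun u => congrArg Units.val (DFunLike.congr_fun h u)⟩))
    hM hl₀ (fun h => hl₀S (hSM l₀ hl₀ h))
    (by rw [← map_natCast (ZMod.castHom hdvd (ZMod M)), hl₀1, map_one])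
    (fun x hx => (hbij x hx).exists.imp fun y hy => hy.2)
  refine ⟨Ψ, hΨs, hΨ0, fun l hl hlS hlM x => ?_⟩
  let x' : W := ⟨(kap (Q₀ \ quadSet Q₀ ε φ) ε l : R) • (natHecke χ l).app R x,
    W.smul_mem _ (hW l hl hlS x x.2)⟩
  have hx : normOp hW Q₀ ε ⟨l, hl, hlS⟩ x = (kap (quadSet Q₀ ε φ) ε l : R) • x' :=
    Subtype.ext <| by
      show (kap Q₀ ε l : R) • (natHecke χ l).app R x.1 = _
      rw [← kap_quadSet_mul φ l, Units.val_mul, mul_smul]
      rfl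
  rw [hx, hΨs, hΨT l hl hlM x x' rfl]
  rfl

include hl₀ hl₀S hS hbij hsep in
omit [CharZero K] [IsAlgClosed K] [Fintype ι] in
/-- An element of `W` vanishing at all points vanishes. -/
theorem eq_zero_of_ptMap_mem (x : W)
    (h : ∀ i, ptMap (pt i) χ (x : tH1 (gamChar χ) R) = 0) : x = 0 := by
  refine Subtype.ext ?_
  exact (hbij 0 W.zero_mem).unique
    ⟨x.2, natHecke_sub_eq_zero_of_ptMap pt hsep hl₀ (fun h' => hl₀S (hS l₀ hl₀ h')) _ h⟩
    ⟨W.zero_mem, by simp⟩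

include hQ hχ hS hl₀ hl₀S hl₀1 hbij hsep in
omit [IsAlgClosed K] [Fintype ι] in
/-- The points separate, so the algebra is reduced. -/
theorem isReduced_normAlg : IsReduced (normAlg hW Q₀ ε) := by
  classical
  have : ∀ i : ι, NeZero (L * ∏ q ∈ Q₀ \ quadSet Q₀ ε (pt i), q) := fun i =>
    ⟨mul_ne_zero (NeZero.ne L)
      (Finset.prod_ne_zero_iff.mpr fun q hq => (hQ q (Finset.sdiff_subset hq)).1.ne_zero)⟩
  choose hSM Ψ hΨs hΨ0 hgen using fun i => exists_pointData hW hQ hχ hS hl₀ hl₀S hl₀1 hbij (pt i)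
    (M := L * ∏ q ∈ Q₀ \ quadSet Q₀ ε (pt i), q) rfl
  have := fun i => FLTA.Hecke.heckeAlgebra_finite_of_integralStructure (S := S) (by norm_num)
    (FLTA.Periods.hasIntegralStructure_two (L * ∏ q ∈ Q₀ \ quadSet Q₀ ε (pt i), q))
  have := fun i => Petersson.heckeAlgebra_isReduced _ S (hSM i)
  exact isReduced_of_points (normOp hW Q₀ ε) pt (fun i => precompHecke _ S K) Ψ hΨs
    (fun x hx => eq_zero_of_ptMap_mem hS hl₀ hl₀S hbij pt hsep x fun i => hΨ0 i x (hx i))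
    (fun i s => CuspForm.heckeAlgebra.T s.2.1 (fun h => s.2.2 (hSM i _ s.2.1 h)) s.2.2)
    (fun i s => (kap (quadSet Q₀ ε (pt i)) ε s : R)) (fun i s => kap_quadSet_sq (pt i) s)
    (fun i s x => hgen i s.1 s.2.1 s.2.2 _ x)

include hQ hχ hS hl₀ hl₀S hl₀1 hbij hsep in
/-- A minimal prime gives a classical system. (The algebra is commutative and reduced, so a prime is
minimal when each of its elements is killed by an element outside it.) -/
theorem exists_system_normAlg (ψ : normAlg hW Q₀ ε →+* K)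
    (hψ : ∀ a, ψ a = 0 → ∃ b, ψ b ≠ 0 ∧ a * b = 0) :
    ∃ (M : ℕ) (_ : NeZero M),
      M = L * ∏ q ∈ Q₀ \ quadSet Q₀ ε (ψ.comp (algebraMap R (normAlg hW Q₀ ε))), q ∧
      ∃ θ : CuspForm.heckeAlgebra M 2 S →+* K,
        ∀ (l : ℕ) (hl : l.Prime) (hlS : l ∉ S) (hlM : ¬ l ∣ M),
          ψ ⟨normOp hW Q₀ ε ⟨l, hl, hlS⟩, Algebra.subset_adjoin ⟨_, rfl⟩⟩ =
            ψ (algebraMap R _ (kap (quadSet Q₀ ε (ψ.comp (algebraMap R (normAlg hW Q₀ ε)))) ε l : R))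
              * θ (CuspForm.heckeAlgebra.T hl hlM hlS) := by
  classical
  have : ∀ i : ι, NeZero (L * ∏ q ∈ Q₀ \ quadSet Q₀ ε (pt i), q) := fun i =>
    ⟨mul_ne_zero (NeZero.ne L)
      (Finset.prod_ne_zero_iff.mpr fun q hq => (hQ q (Finset.sdiff_subset hq)).1.ne_zero)⟩
  choose hSM Ψ hΨs hΨ0 hgen using fun i => exists_pointData hW hQ hχ hS hl₀ hl₀S hl₀1 hbij (pt i)
    (M := L * ∏ q ∈ Q₀ \ quadSet Q₀ ε (pt i), q) rfl
  have key := exists_system_of_points (normOp hW Q₀ ε) pt (fun i => precompHecke _ S K) Ψ hΨs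
    (fun x hx => eq_zero_of_ptMap_mem hS hl₀ hl₀S hbij pt hsep x fun i => hΨ0 i x (hx i))
    (fun i s => CuspForm.heckeAlgebra.T s.2.1 (fun h => s.2.2 (hSM i _ s.2.1 h)) s.2.2)
    (fun i s => (kap (quadSet Q₀ ε (pt i)) ε s : R)) (fun i s => kap_quadSet_sq (pt i) s)
    (fun i s x => hgen i s.1 s.2.1 s.2.2 _ x)
  have key' := key fun i P hP => mem_of_forall_T_mem (hSM i) P fun l hl hlS _ => hP ⟨l, hl, hlS⟩
  have key₁ := key' ψ
  have key₂ := key₁ hψ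
  obtain ⟨i, hi, θ, hθ⟩ := key₂
  have hquad := quadSet_congr (Q₀ := Q₀) (ε := ε)
    (φ' := ψ.comp (algebraMap R (normAlg hW Q₀ ε))) hi
  exact ⟨L * ∏ q ∈ Q₀ \ quadSet Q₀ ε (pt i), q, inferInstance,
    congrArg (fun Q => L * ∏ q ∈ Q₀ \ Q, q) hquad, θ, fun l hl hlS hlM =>
      (hθ ⟨l, hl, hlS⟩).trans (congrArg
        (fun Q => ψ (algebraMap R _ (kap Q ε l : R)) * θ (CuspForm.heckeAlgebra.T hl hlM hlS))
        hquad)⟩

end FLTA.LT2
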