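import Fermat.Agent.RT.CoeffPoints

/-!
# One point of the coefficient ring, some components of the character being quadratic there

`exists_parPoint_sub`: a submodule `W` of twisted classes on which `T_{l₀} - (l₀ + 1)` is onto maps,
at a point `φ`, to parabolic homomorphisms of `Γ₀(L ∏ Q₂)`, where `Q₂` are the components of the
character whose square is non-trivial at `φ`.
-/

set_option autoImplicit false

noncomputable section

open CongruenceSubgroup ModularCurve.Period
open scoped MatrixGroups TensorProduct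

namespace FLTA.LT2

open FLTA.RT FLTA.Periods FLTA.LevelRaising

section par

variable {L : ℕ} [NeZero L] {R : Type} [CommRing R] {K : Type} [Field K]

/-- Classes in `W` vanishing at all points are killed by `T_l - (l + 1)`. -/
theorem natHecke_sub_eq_zero_of_ptMap {χ : (ZMod L)ˣ →* Rˣ} {ι : Type} (pt : ι → R →+* K)
    (hsep : ∀ r : R, (∀ i, pt i r = 0) → r = 0) {l : ℕ} (hl : l.Prime) (hlL : ¬ l ∣ L)
    (x : tH1 (gamChar χ) R) (h : ∀ i, ptMap (pt i) χ x = 0) :
    (natHecke χ l).app R x - ((l : R) + 1) • x = 0 := by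
  have := Fact.mk hl
  have : NeZero l := ⟨hl.ne_zero⟩
  obtain ⟨f, hf⟩ := tClass_surjective (gamChar χ) x
  have hv : ∀ i, ∃ v : K,
      tDelta (gamChar (charMap (pt i) χ)) K v = ptCocycles (pt i) χ f := fun i =>
    (tClass_eq_zero_iff _).mp (by rw [← ptMap_class, hf, h])
  choose v hv using hv
  have h0 : tH1Map (gamChar χ) (ptDiag pt) x = 0 := by
    rw [← hf, tH1Map_class, tClass_eq_zero_iff]
    refine ⟨v, Subtype.ext (funext fun γ => funext fun i => ?_)⟩
    have h1 := congrFun (congrArg Subtype.val (hv i)) γ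
    rw [tDelta_apply, coe_gamChar_charMap] at h1
    exact h1
  have hinj : Function.Injective (ptDiag pt) := fun a b hab =>
    sub_eq_zero.mp (hsep _ fun i => by
      rw [map_sub, sub_eq_zero]
      exact congrFun hab i)
  have hcard : Fintype.card (OnePoint (ZMod l)) = l + 1 :=
    Fintype.card_option.trans (by rw [ZMod.card])
  have h1 := (isWeight_T χ hlL (coprime_of_not_dvd hlL)).sub_card_eq_zero_of_map_eq_zero
    (hwT_mem_range χ _) (ptDiag pt) hinj x h0
  rw [hcard, Nat.cast_succ] at h1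
  rw [natHecke_of_not_dvd χ hlL]
  exact h1

variable [CharZero K]

set_option maxHeartbeats 600000 in
/-- The parabolic homomorphisms at a point, the character there being `(∏ q ∈ Q₂, ε q)²`. -/
theorem exists_parPoint_sub {χ : (ZMod L)ˣ →* Rˣ} (W : Submodule R (tH1 (gamChar χ) R))
    (Q₂ : Finset ℕ) (ε : ∀ q : ℕ, (ZMod q)ˣ →* Rˣ) (hQ : ∀ q ∈ Q₂, q.Prime ∧ q ∣ L ∧ ¬ q * q ∣ L)
    (φ : R →+* K) (hχ : charMap φ χ = sigProd L Q₂ fun q => charMap φ (ε q))
    (hne : ∀ q ∈ Q₂, charMap φ (ε q) ^ 2 ≠ 1)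
    {M : ℕ} [hM0 : NeZero M] (hM : M = L * ∏ q ∈ Q₂, q)
    {l₀ : ℕ} (hl₀ : l₀.Prime) (hl₀M : ¬ l₀ ∣ M) (hl₀1 : (l₀ : ZMod M) = 1)
    (hfac : ∀ x ∈ W, ∃ y, (natHecke χ l₀).app R y - ((l₀ : R) + 1) • y = x) :
    ∃ Ψ : W →+ (parQuot (Gamma0 M) →+ K), (∀ (r : R) x, Ψ (r • x) = φ r • Ψ x) ∧
      (∀ x, Ψ x = 0 → ptMap φ χ (x : tH1 (gamChar χ) R) = 0) ∧
      ∀ (l : ℕ) (hl : l.Prime) (hlM : ¬ l ∣ M) (x x' : W),
        (x' : tH1 (gamChar χ) R) = (kap Q₂ ε l : R) • (natHecke χ l).app R (x : tH1 (gamChar χ) R) →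
        Ψ x' = (Ψ x).comp
          (heckeQuot M (CuspForm.heckeAlgebra.T hl hlM (Set.notMem_empty l))).toAddMonoidHom := by
  obtain ⟨N, hN, P, hNP, J, hJ, hJT⟩ := exists_realisation (K := K) Q₂ L
    (fun q => charMap φ (ε q)) hQ (fun q hq h => absurd h (hne q hq)) (charMap φ χ) hχ
  obtain rfl : M = N * P := hM.trans hNP.symm
  have : NeZero P := ⟨fun h => hM0.out (by rw [h, mul_zero])⟩
  have hLM : L ∣ N * P := ⟨_, hNP⟩
  have hJT' : ∀ l, l.Prime → ¬ l ∣ N * P → ∀ x,
      J (φ (kap Q₂ ε l : R) • ptMap φ χ ((natHecke χ l).app R x))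
        = heckeHom K N l (J (ptMap φ χ x)) := fun l hl hlM x => by
    rw [ptMap_natHecke φ χ hl (fun h => hlM (h.trans hLM)), ← coe_kap_charMap]
    exact hJT l hl (fun h => hlM (h.trans hLM)) _
  have hparN : ∀ x : W, IsParabolicHom (Gamma0 N)
      (J (ptMap φ χ (x : tH1 (gamChar χ) R))) := by
    intro x
    obtain ⟨y, hy⟩ := hfac x x.2
    have := Fact.mk hl₀
    have h1 : (l₀ : ZMod N) = 1 := by
      have e1 := congrArg (ZMod.castHom (dvd_mul_right N P) (ZMod N)) hl₀1
      rwa [map_natCast, map_one] at e1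
    have h2 : φ (kap Q₂ ε l₀ : R) = 1 := by
      rw [kap_eq_one ε (fun q hq => (hQ q hq).2.1) ?_, Units.val_one, map_one]
      have e1 := congrArg (ZMod.castHom hLM (ZMod L)) hl₀1
      rwa [map_natCast, map_one] at e1
    have h3 : J (ptMap φ χ (x : tH1 (gamChar χ) R))
        = heckeHom K N l₀ (J (ptMap φ χ y)) - (l₀ + 1) • J (ptMap φ χ y) := by
      rw [← hy, map_sub, map_sub, LinearMap.map_smulₛₗ, map_smul, ← hJT' l₀ hl₀ hl₀M y, h2,
        one_smul, map_add, map_natCast, map_one, ← Nat.cast_smul_eq_nsmul K, Nat.cast_succ]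
    rw [h3]
    exact isParabolicHom_of_eisenstein K
      (fun a ha => by simpa using ha)
      (fun h => hl₀M (h.trans (dvd_mul_right N P))) h1 _
  have hpar := fun x => isParabolicHom_inclRes (P := P) (hparN x)
  choose u hu using fun x => exists_parQuot_factor (hpar x)
  have key : ∀ (x : W) v, v.comp (parMk (Gamma0 (N * P)))
      = inclRes N P (J (ptMap φ χ (x : tH1 (gamChar χ) R))) → u x = v := fun x v hv =>
    parQuot_hom_ext _ ((hu x).trans hv.symm)
  have hadd : ∀ x y, u (x + y) = u x + u y := fun x y => key _ _ (by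
    rw [AddMonoidHom.add_comp, hu, hu, Submodule.coe_add, map_add, map_add]
    rfl)
  have hsmul : ∀ (r : R) x, u (r • x) = φ r • u x := fun r x => key _ _ (by
    show (φ r • u x).comp _ = _
    rw [Submodule.coe_smul, LinearMap.map_smulₛₗ, map_smul]
    ext γ
    have h := DFunLike.congr_fun (hu x) (Additive.ofMul γ)
    show φ r • u x (parMk _ (Additive.ofMul γ)) = _
    rw [← AddMonoidHom.comp_apply, h]
    rfl)
  refine ⟨AddMonoidHom.mk' u hadd, hsmul, fun x hx => ?_,
    fun l hl hlM x x' hxx' => key x' _ ?_⟩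
  · have h := hu x
    rw [show u x = 0 from hx, AddMonoidHom.zero_comp] at h
    exact hJ ((inclRes_injective h.symm).trans (map_zero J).symm)
  · show ((u x).comp _).comp _ = _
    rw [hxx', LinearMap.map_smulₛₗ, hJT' l hl hlM, ← heckeHom_inclRes K hl hlM (hparN x), ← hu x,
      heckeHom_eq_int, heckeHom_comp, ← heckeQuot_T_comp_parMk hl hlM, AddMonoidHom.comp_assoc]

end par

end FLTA.LT2
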