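import Fermat.Agent.RT.FreeGamma0
import Fermat.Agent.Gamma0.CountsElliptic
import Mathlib.NumberTheory.ModularForms.CongruenceSubgroups
import Mathlib.NumberTheory.LegendreSymbol.Basic
import Mathlib.GroupTheory.QuotientGroup.Basic

/-!
# Part G of LT2: twisted cohomology of `Γ₀(L)/±1`

When `2` is not invertible in the coefficients, twisted cocycles of `Γ₀(L)` do not lift along
surjections, the value at `-1` being the obstruction. Those of `Γ₀(L)/±1` do, provided `Γ₀(L)` has
no element of order four and the twist has no element of order three. The generic machinery of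
`RT.FreeMain` then applies to the quotient group; inflation carries the operators to those of
`RT.FreeGamma0`, and for coefficients without two-torsion nothing changes.
-/

set_option autoImplicit false

noncomputable section

universe u

open CongruenceSubgroup
open scoped MatrixGroups OnePoint

namespace FLTA.LT2

open FLTA.RT FLTA.Periods FLTA.Gamma0

section quotReps

variable {Γ G : Type*} [Group Γ] [Group G] {e : Γ →* G} {ι : Type*} (S : HeckeReps e ι)
  (A : Subgroup Γ) [A.Normal] (B : Subgroup G) [B.Normal] (hAB : A.map e = B)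
  (hc : ∀ b ∈ B, ∀ g : G, g * b = b * g)

/-- The induced map of central quotients. -/
def quotEmb : Γ ⧸ A →* G ⧸ B :=
  QuotientGroup.map A B e (Subgroup.map_le_iff_le_comap.mp hAB.le)

theorem quotEmb_mk (γ : Γ) : quotEmb A B hAB (γ : Γ ⧸ A) = (e γ : G ⧸ B) := rfl

/-- Representatives remain representatives modulo a central subgroup of both groups. -/
def quotReps : HeckeReps (quotEmb (e := e) A B hAB) ι :=
  HeckeReps.ofExists (fun x => (S.rep x : G ⧸ B))
    (by
      refine (injective_iff_map_eq_one _).mpr fun g => ?_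
      induction g using QuotientGroup.induction_on with
      | H γ =>
        intro h
        rw [quotEmb_mk, QuotientGroup.eq_one_iff, ← hAB] at h
        obtain ⟨a, ha, hae⟩ := h
        exact (QuotientGroup.eq_one_iff _).mpr (S.inj hae ▸ ha))
    (fun x y δ => by
      induction δ using QuotientGroup.induction_on with
      | H δ =>
        intro h
        rw [quotEmb_mk, ← QuotientGroup.mk_mul, QuotientGroup.eq] at h
        obtain ⟨a, _, hae⟩ := hAB.symm ▸ h
        refine S.unique x y (δ * a) ?_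
        have hb : e a ∈ B := hae ▸ h
        rw [map_mul, mul_assoc, ← hc _ hb (S.rep x), ← mul_assoc, hae, mul_inv_cancel_left])
    (fun γ x => by
      induction γ using QuotientGroup.induction_on with
      | H γ =>
        refine ⟨S.perm γ x, (S.cocyc γ x : Γ ⧸ A), ?_⟩
        rw [quotEmb_mk, quotEmb_mk, ← QuotientGroup.mk_mul, ← QuotientGroup.mk_mul, S.rep_mul])

theorem quotReps_spec (γ : Γ) (x : ι) :
    (quotReps S A B hAB hc).perm (γ : Γ ⧸ A) x = S.perm γ x ∧
      (quotReps S A B hAB hc).cocyc (γ : Γ ⧸ A) x = (S.cocyc γ x : Γ ⧸ A) := by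
  refine (quotReps S A B hAB hc).eq_of_rep_eq ?_
  show (S.rep x : G ⧸ B) * quotEmb A B hAB (γ : Γ ⧸ A) =
    quotEmb A B hAB (S.cocyc γ x : Γ ⧸ A) * (S.rep (S.perm γ x) : G ⧸ B)
  rw [quotEmb_mk, quotEmb_mk, ← QuotientGroup.mk_mul, ← QuotientGroup.mk_mul, S.rep_mul]

/-- Weights descend. -/
theorem isWeight_quotReps {R : Type*} [CommRing R] [Fintype ι] {χ : Γ →* Rˣ} {c : ι → Rˣ}
    (χ' : Γ ⧸ A →* Rˣ) (hχ : ∀ γ : Γ, χ' (γ : Γ ⧸ A) = χ γ) (h : IsWeight χ S c) :
    IsWeight χ' (quotReps S A B hAB hc) c :=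
  ⟨fun γ x => by
    induction γ using QuotientGroup.induction_on with
    | H γ =>
      obtain ⟨h1, h2⟩ := quotReps_spec S A B hAB hc γ x
      rw [h1, h2, hχ, hχ, h.compat]⟩

end quotReps

section inflation

variable {Γ Γ' : Type*} [Group Γ] [Group Γ'] {R : Type u} [CommRing R] {χ : Γ →* Rˣ}
  {χ' : Γ' →* Rˣ} (p : Γ →* Γ') (hp : ∀ γ, χ' (p γ) = χ γ)
  (V : Type u) [AddCommGroup V] [Module R V]

/-- Inflation of cocycles. -/
def inflZ : tCocycles χ' V →ₗ[R] tCocycles χ V where
  toFun f := ⟨fun γ => f.1 (p γ), fun γ δ => by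
    show f.1 (p (γ * δ)) = f.1 (p γ) + (χ γ : R) • f.1 (p δ)
    rw [map_mul, f.2, hp]⟩
  map_add' _ _ := rfl
  map_smul' _ _ := rfl

theorem inflZ_apply (f : tCocycles χ' V) (γ : Γ) : (inflZ p hp V f).1 γ = f.1 (p γ) := rfl

theorem inflZ_tDelta (v : V) : inflZ p hp V (tDelta χ' V v) = tDelta χ V v := by
  refine Subtype.ext (funext fun γ => ?_)
  rw [inflZ_apply, tDelta_apply, tDelta_apply, hp]

/-- Inflation of classes. -/
def infl : tH1 χ' V →ₗ[R] tH1 χ V :=
  Submodule.mapQ _ _ (inflZ p hp V) (by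
    rintro _ ⟨v, rfl⟩
    exact ⟨v, (inflZ_tDelta p hp V v).symm⟩)

@[simp] theorem infl_class (f : tCocycles χ' V) :
    infl p hp V (tClass χ' V f) = tClass χ V (inflZ p hp V f) := rfl

theorem infl_injective (hs : Function.Surjective p) : Function.Injective (infl p hp V) := by
  refine (injective_iff_map_eq_zero _).mpr fun x hx => ?_
  obtain ⟨f, rfl⟩ := tClass_surjective χ' x
  rw [infl_class, tClass_eq_zero_iff] at hx
  obtain ⟨v, hv⟩ := hx
  refine (tClass_eq_zero_iff χ').mpr ⟨v, Subtype.ext (funext fun δ => ?_)⟩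
  obtain ⟨γ, rfl⟩ := hs δ
  rw [← inflZ_apply p hp V f, ← hv, tDelta_apply, tDelta_apply, hp]

variable {V} {W : Type u} [AddCommGroup W] [Module R W]

theorem infl_natural (φ : V →ₗ[R] W) (x : tH1 χ' V) :
    infl p hp W (tH1Map χ' φ x) = tH1Map χ φ (infl p hp V x) := by
  obtain ⟨f, rfl⟩ := tClass_surjective χ' x
  rfl

variable {G G' : Type*} [Group G] [Group G'] {e : Γ →* G} {e' : Γ' →* G'} {ι : Type*} [Fintype ι]
  {S : HeckeReps e ι} {S' : HeckeReps e' ι} {c : ι → Rˣ}

/-- Inflation commutes with operators having compatible representatives. -/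
theorem infl_op (hc : IsWeight χ S c) (hc' : IsWeight χ' S' c)
    (h : ∀ γ x, S'.cocyc (p γ) x = p (S.cocyc γ x)) (x : tH1 χ' V) :
    infl p hp V (hc'.op V x) = hc.op V (infl p hp V x) := by
  obtain ⟨f, rfl⟩ := tClass_surjective χ' x
  rw [IsWeight.op_class, infl_class, infl_class, IsWeight.op_class]
  refine congrArg _ (Subtype.ext (funext fun γ => ?_))
  simp only [inflZ_apply, IsWeight.opZ_apply, h]

end inflation

section gamma0

variable (L : ℕ)

/-- The subgroup `±1` of `Γ₀(L)`. -/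
def negOneSub : Subgroup (Gamma0 L) := Subgroup.zpowers ⟨-1, neg_one_mem_Gamma0 L⟩

theorem mem_negOneSub_comm {a : Gamma0 L} (ha : a ∈ negOneSub L) (g : Gamma0 L) :
    g * a = a * g := by
  obtain ⟨k, rfl⟩ := Subgroup.mem_zpowers_iff.mp ha
  refine (Commute.zpow_right (Subtype.ext ?_) k).eq
  simp

instance normal_negOneSub : (negOneSub L).Normal :=
  ⟨fun a ha g => by rwa [mem_negOneSub_comm L ha g, mul_inv_cancel_right]⟩

/-- The subgroup `±1` of `GL₂(ℝ)`. -/
def negOneGL : Subgroup (GL (Fin 2) ℝ) := Subgroup.zpowers (-1)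

theorem mem_negOneGL_comm : ∀ b ∈ negOneGL, ∀ g : GL (Fin 2) ℝ, g * b = b * g := by
  intro b hb g
  obtain ⟨k, rfl⟩ := Subgroup.mem_zpowers_iff.mp hb
  exact (Commute.zpow_right (Commute.neg_one_right g) k).eq

instance normal_negOneGL : negOneGL.Normal :=
  ⟨fun a ha g => by rwa [mem_negOneGL_comm a ha g, mul_inv_cancel_right]⟩

theorem map_negOneSub : (negOneSub L).map (gamma0GL L) = negOneGL := by
  rw [negOneSub, MonoidHom.map_zpowers, negOneGL]
  congr 1
  refine Units.ext (Matrix.ext fun i j => ?_)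
  rw [gamma0GL_apply]
  fin_cases i <;> fin_cases j <;> simp

/-- `Γ₀(L)/±1`. -/
abbrev PGamma0 : Type := Gamma0 L ⧸ negOneSub L

theorem group_fg_PGamma0 [NeZero L] : Group.FG (PGamma0 L) :=
  haveI := group_fg_Gamma0 L
  QuotientGroup.fg (negOneSub L)

variable {L} {R : Type u} [CommRing R] (χ : (ZMod L)ˣ →* Rˣ) (hχ : χ (-1) = 1)

include hχ in
theorem negOneSub_le_ker : negOneSub L ≤ (gamChar χ).ker := by
  rw [negOneSub, Subgroup.zpowers_le, MonoidHom.mem_ker, gamChar_apply,
    show aUnit L ⟨-1, neg_one_mem_Gamma0 L⟩ = -1 from Units.ext (by simp), hχ]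

/-- The coefficient character on `Γ₀(L)/±1`. -/
def pgamChar : PGamma0 L →* Rˣ :=
  QuotientGroup.lift (negOneSub L) (gamChar χ) (negOneSub_le_ker χ hχ)

@[simp] theorem pgamChar_mk (γ : Gamma0 L) : pgamChar χ hχ (γ : PGamma0 L) = gamChar χ γ := rfl

/-- A prime divisor `≡ 3 mod 4` of `L` leaves `S` without fixed cosets. -/
theorem S_smul_ne [NeZero L] {l : ℕ} (hl : l.Prime) (hlL : l ∣ L) (hl4 : l % 4 = 3)
    (x : Coset (Gamma0 L)) : (ModularGroup.S : SL(2, ℤ)) • x ≠ x := by
  intro hx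
  have := Fact.mk hl
  have hne : Nonempty {x : SL(2, ℤ) ⧸ Gamma0 L // ModularGroup.S • x = x} := ⟨⟨x, hx⟩⟩
  have hfin : Finite (SL(2, ℤ) ⧸ Gamma0 L) := Subgroup.finite_quotient_of_finiteIndex
  have hpos := Nat.card_pos (α := {x : SL(2, ℤ) ⧸ Gamma0 L // ModularGroup.S • x = x})
  rw [card_fixedBy_S_aux L, ModularCurve.nuTwo] at hpos
  obtain ⟨⟨y, hy⟩⟩ := (Nat.card_pos_iff.mp hpos).1
  refine ZMod.mod_four_ne_three_of_sq_eq_neg_one (p := l) (y := ZMod.castHom hlL (ZMod l) y) ?_ hl4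
  have h := congrArg (ZMod.castHom hlL (ZMod l)) hy
  rw [map_add, map_pow, map_one, map_zero] at h
  exact eq_neg_of_add_eq_zero_left h

/-- Twisted cocycles of `Γ₀(L)/±1` lift. -/
theorem hasLifts_pgamChar (hS : ∀ x : Coset (Gamma0 L), (ModularGroup.S : SL(2, ℤ)) • x ≠ x)
    (h3 : IsUnit (3 : R)) (hχ3 : ∀ γ, gamChar χ γ ^ 3 = 1 → gamChar χ γ = 1) :
    HasLifts (pgamChar χ hχ) := by
  intro A B _ _ _ _ φ hφ f
  let H : Subgroup Rˣ := (gamChar χ).range
  have hG : ∀ u : H, u ^ 3 = 1 → u = 1 := by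
    rintro ⟨_, γ, rfl⟩ hu
    exact Subtype.ext (hχ3 γ (congrArg Subtype.val hu))
  let π : TwistPair H A →* TwistPair H B := TwistPair.map φ
  have hπ : Function.Surjective π := fun b => by
    obtain ⟨a, ha⟩ := hφ b.trans
    exact ⟨⟨a, b.scal⟩, TwistPair.ext ha rfl⟩
  let F : Gamma0 L →* TwistPair H B :=
    { toFun := fun γ => ⟨f.1 (γ : PGamma0 L), (gamChar χ).rangeRestrict γ⟩
      map_one' := TwistPair.ext (tCocycles_one _ f) (map_one _)
      map_mul' := fun γ δ => TwistPair.ext (f.2 (γ : PGamma0 L) (δ : PGamma0 L)) (map_mul _ _ _) }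
  have hneg : ((⟨-1, neg_one_mem_Gamma0 L⟩ : Gamma0 L) : PGamma0 L) = 1 :=
    (QuotientGroup.eq_one_iff _).mpr (Subgroup.mem_zpowers _)
  have hF : F ⟨-1, neg_one_mem_Gamma0 L⟩ = 1 := by
    refine TwistPair.ext ?_ (Subtype.ext (negOneSub_le_ker χ hχ (Subgroup.mem_zpowers _)))
    show f.1 _ = 0
    rw [hneg, tCocycles_one]
  obtain ⟨g, hg, hg1⟩ := exists_lift_of_subgroup_gen π hπ (Gamma0 L) (Or.inl hS)
    (neg_one_mem_Gamma0 L)
    (Or.inr fun b hb => ⟨1, by
      rw [TwistPair.eq_one_of_pow_eq_one (n := 3) (by exact_mod_cast h3) hG b hb, map_one],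
      one_pow _⟩)
    F hF
  have hker : negOneSub L ≤ g.ker := by
    rw [negOneSub, Subgroup.zpowers_le]
    exact hg1
  let g' : PGamma0 L →* TwistPair H A := QuotientGroup.lift (negOneSub L) g hker
  have hscal : ∀ γ : PGamma0 L, (((g' γ).scal : H) : Rˣ) = pgamChar χ hχ γ := fun γ => by
    induction γ using QuotientGroup.induction_on with
    | H γ => exact congrArg Subtype.val (congrArg TwistPair.scal (DFunLike.congr_fun hg γ))
  refine ⟨⟨fun γ => (g' γ).trans, fun γ δ => ?_⟩, Subtype.ext (funext fun γ => ?_)⟩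
  · show (g' (γ * δ)).trans = (g' γ).trans + (pgamChar χ hχ γ : R) • (g' δ).trans
    rw [map_mul, TwistPair.mul_trans, hscal]
  · induction γ using QuotientGroup.induction_on with
    | H γ => exact congrArg TwistPair.trans (DFunLike.congr_fun hg γ)

/-- Inflation to `Γ₀(L)`. -/
abbrev pInfl (V : Type u) [AddCommGroup V] [Module R V] :
    tH1 (pgamChar χ hχ) V →ₗ[R] tH1 (gamChar χ) V :=
  infl (QuotientGroup.mk' (negOneSub L)) (pgamChar_mk χ hχ) V

theorem pInfl_injective (V : Type u) [AddCommGroup V] [Module R V] :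
    Function.Injective (pInfl χ hχ V) :=
  infl_injective _ _ V (QuotientGroup.mk'_surjective _)

variable {l m : ℕ}

theorem pgamChar_isWeight_U [NeZero l] (hlL : l ∣ L) :
    IsWeight (pgamChar χ hχ)
      (quotReps (repsU hlL) _ _ (map_negOneSub L) mem_negOneGL_comm) 1 :=
  isWeight_quotReps _ _ _ _ _ _ (pgamChar_mk χ hχ) (isWeight_U χ hlL)

theorem pgamChar_isWeight_T [Fact l.Prime] (hlL : ¬ l ∣ L) :
    IsWeight (pgamChar χ hχ)
      (quotReps (repsT hlL) _ _ (map_negOneSub L) mem_negOneGL_comm)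
      (hwT χ (coprime_of_not_dvd hlL)) :=
  isWeight_quotReps _ _ _ _ _ _ (pgamChar_mk χ hχ) (isWeight_T χ hlL _)

open Classical in
/-- The Hecke operator at `l` on twisted cohomology of `Γ₀(L)/±1`. -/
def pNatHecke [NeZero L] (l : ℕ) : NatEnd (pgamChar χ hχ) :=
  if h : l ∣ L then
    haveI := neZero_of_dvd h
    (pgamChar_isWeight_U χ hχ h).natEnd
  else if hl : l.Prime then
    haveI := Fact.mk hl
    haveI : NeZero l := ⟨hl.ne_zero⟩
    (pgamChar_isWeight_T χ hχ h).natEnd
  else 0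

/-- Inflation commutes with the operators. -/
theorem pInfl_pNatHecke [NeZero L] (l : ℕ) (V : Type u) [AddCommGroup V] [Module R V]
    (x : tH1 (pgamChar χ hχ) V) :
    pInfl χ hχ V ((pNatHecke χ hχ l).app V x) = (natHecke χ l).app V (pInfl χ hχ V x) := by
  by_cases h : l ∣ L
  · haveI := neZero_of_dvd h
    rw [natHecke_of_dvd χ h, pNatHecke, dif_pos h]
    exact infl_op _ _ (isWeight_U χ h) (pgamChar_isWeight_U χ hχ h)
      (fun γ x => (quotReps_spec _ _ _ _ _ γ x).2) x
  · by_cases hl : l.Prime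
    · haveI := Fact.mk hl
      haveI : NeZero l := ⟨hl.ne_zero⟩
      rw [natHecke_of_not_dvd χ h, pNatHecke, dif_neg h, dif_pos hl]
      exact infl_op _ _ (isWeight_T χ h _) (pgamChar_isWeight_T χ hχ h)
        (fun γ x => (quotReps_spec _ _ _ _ _ γ x).2) x
    · rw [natHecke, dif_neg h, dif_neg hl, pNatHecke, dif_neg h, dif_neg hl, NatEnd.zero_app,
        NatEnd.zero_app, map_zero]

/-- The operators at different primes commute. -/
theorem pNatHecke_comm [NeZero L] (hl : l.Prime) (hm : m.Prime) (V : Type u) [AddCommGroup V]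
    [Module R V] (x : tH1 (pgamChar χ hχ) V) :
    (pNatHecke χ hχ l).app V ((pNatHecke χ hχ m).app V x) =
      (pNatHecke χ hχ m).app V ((pNatHecke χ hχ l).app V x) := by
  refine pInfl_injective χ hχ V ?_
  simp only [pInfl_pNatHecke]
  exact natHecke_comm χ hl hm V _

/-- A family factoring at `R` through `T_l - (l + 1)` kills the obstruction to exactness. -/
theorem killsObstruction_pgamChar [NeZero L] (hlift : HasLifts (pgamChar χ hχ)) (hl : l.Prime)
    (hlL : ¬ l ∣ L) (e g : NatEnd (pgamChar χ hχ))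
    (h : ∀ x : tH1 (pgamChar χ hχ) R,
      e.app R x = g.app R ((pNatHecke χ hχ l).app R x - ((l : R) + 1) • x)) :
    KillsObstruction e := by
  have := Fact.mk hl
  have : NeZero l := ⟨hl.ne_zero⟩
  refine killsObstruction_of_factor hlift (pgamChar_isWeight_T χ hχ hlL) (fun y => ?_) g fun x => ?_
  · obtain ⟨γ, hγ⟩ := hwT_mem_range χ (coprime_of_not_dvd hlL) y
    exact ⟨(γ : PGamma0 L), hγ⟩
  · have hcard : Fintype.card (OnePoint (ZMod l)) = l + 1 :=
      Fintype.card_option.trans (by rw [ZMod.card])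
    rw [h, pNatHecke, dif_neg hlL, dif_pos hl, NatEnd.mul_app, IsWeight.etaEnd, NatEnd.add_app,
      NatEnd.smul_app, NatEnd.one_app, hcard, Nat.cast_succ, neg_smul, ← sub_eq_add_neg]

variable {V : Type u} [AddCommGroup V] [Module R V]

/-- Without two-torsion, where the twist is trivial, the cohomology of `Γ₀(L)/±1` is
`Hom(Γ₀(L), V)`. -/
theorem pInfl_bijective (htriv : ∀ γ (v : V), (gamChar χ γ : R) • v = v)
    (h2 : ∀ v : V, v + v = 0 → v = 0) : Function.Bijective (pInfl χ hχ V) := by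
  refine ⟨pInfl_injective χ hχ V, fun y => ?_⟩
  obtain ⟨f, rfl⟩ := tClass_surjective _ y
  have hadd : ∀ γ δ, f.1 (γ * δ) = f.1 γ + f.1 δ := fun γ δ => by rw [f.2, htriv]
  let ψ : Gamma0 L →* Multiplicative V :=
    { toFun := fun γ => Multiplicative.ofAdd (f.1 γ)
      map_one' := by rw [tCocycles_one]; rfl
      map_mul' := fun γ δ => by rw [hadd]; rfl }
  have hker : negOneSub L ≤ ψ.ker := by
    rw [negOneSub, Subgroup.zpowers_le, MonoidHom.mem_ker]
    have hsq : (⟨-1, neg_one_mem_Gamma0 L⟩ : Gamma0 L) * ⟨-1, neg_one_mem_Gamma0 L⟩ = 1 :=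
      Subtype.ext (by simp)
    exact congrArg Multiplicative.ofAdd (h2 _ (by rw [← hadd, hsq, tCocycles_one]))
  let f' : PGamma0 L →* Multiplicative V := QuotientGroup.lift _ ψ hker
  refine ⟨tClass _ V ⟨fun γ => Multiplicative.toAdd (f' γ), fun γ δ => ?_⟩, rfl⟩
  induction γ using QuotientGroup.induction_on with
  | H γ =>
    show Multiplicative.toAdd (f' (_ * δ)) =
      Multiplicative.toAdd (f' γ) + (gamChar χ γ : R) • Multiplicative.toAdd (f' δ)
    rw [map_mul, htriv]
    rfl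

/-- The identification with homomorphisms. -/
def pH1EquivHom (htriv : ∀ γ (v : V), (gamChar χ γ : R) • v = v)
    (h2 : ∀ v : V, v + v = 0 → v = 0) :
    tH1 (pgamChar χ hχ) V ≃ₗ[R] (Additive (Gamma0 L) →+ V) :=
  (LinearEquiv.ofBijective (pInfl χ hχ V) (pInfl_bijective χ hχ htriv h2)).trans
    (tH1EquivHom htriv)

/-- On trivial coefficients the operators are those on homomorphisms. -/
theorem pH1EquivHom_pNatHecke [NeZero L] (htriv : ∀ γ (v : V), (gamChar χ γ : R) • v = v)
    (h2 : ∀ v : V, v + v = 0 → v = 0) (hl : l.Prime) (x : tH1 (pgamChar χ hχ) V) :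
    pH1EquivHom χ hχ htriv h2 ((pNatHecke χ hχ l).app V x) =
      heckeHom R L l (pH1EquivHom χ hχ htriv h2 x) := by
  show tH1EquivHom htriv (pInfl χ hχ V _) = heckeHom R L l (tH1EquivHom htriv (pInfl χ hχ V x))
  rw [pInfl_pNatHecke]
  exact tH1EquivHom_natHecke χ htriv hl _

end gamma0

end FLTA.LT2
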