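import Fermat.Agent.LT2.PatchedOps
import Fermat.Agent.LT2.PatchedChain
import Fermat.Agent.LT2.PatchedBottomModel
import Fermat.Agent.Patching.PowerSeriesSeq

/-!
# Part G of LT2: reduction of the level module to the bottom

Modulo the diamond variables the level module at `L₁ ∏ q` is the factor of `E` at level `L₁`,
compatibly with the Hecke operators at the primes other than the auxiliary ones.
-/

set_option autoImplicit false
set_option linter.overlappingInstances false
set_option linter.unusedSectionVars false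
set_option maxSynthPendingDepth 3

noncomputable section

open IsLocalRing CongruenceSubgroup
open scoped MatrixGroups

namespace FLTA.LT2

open FLTA.RT FLTA.Periods FLTA.Gamma0 FLTA.LevelRaising

variable (O : Type) [CommRing O] [IsDomain O] [CharZero O] [IsDiscreteValuationRing O]
  [IsAdicComplete (maximalIdeal O) O] (k m : ℕ) (L₀ : ℕ) [NeZero L₀] (q : Fin k → ℕ)
  (E : WeierstrassCurve ℤ)

/-- The augmentation ideal is generated by the diamond variables. -/
theorem ker_diaAug :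
    RingHom.ker (algebraMap (DiaRing O k m) O) =
      (Ideal.span (Set.range (MvPowerSeries.X : Fin k → MvPowerSeries (Fin k) O))).map
        (diaMk O k m) := by
  refine le_antisymm (fun a ha => ?_) ?_
  · obtain ⟨f, rfl⟩ := diaMk_surjective O k m a
    rw [RingHom.mem_ker, algebraMap_diaMk] at ha
    exact Ideal.mem_map_of_mem _ ((Patching.mem_span_range_X_iff f).mpr ha)
  · rw [Ideal.map_le_iff_le_comap, Ideal.span_le]
    rintro _ ⟨i, rfl⟩
    rw [SetLike.mem_coe, Ideal.mem_comap, RingHom.mem_ker, algebraMap_diaMk,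
      MvPowerSeries.constantCoeff_X]

variable (hinj : Function.Injective q) (hprime : ∀ i, (q i).Prime)
  (hnd : ∀ i, ¬ q i ∣ 2 * L₀) (hoddq : ∀ i, ¬ (2 : ℤ) ∣ E.apOfModel (q i))
  (h2 : (2 : O) ∈ maximalIdeal O) {ω : O} (hω : ω * ω + ω + 1 ∈ maximalIdeal O)

set_option maxHeartbeats 1600000 in
include hinj hprime hnd hoddq h2 hω in
/-- **Reduction.** -/
theorem exists_red (L₁ : ℕ) [NeZero L₁] [NeZero (twLev k L₁ q)] (hL₁ : L₁ ∣ L₀) {p : ℕ}
    (hp : p.Prime) (hpL : p ∣ L₁) (hp4 : p % 4 = 3) (l₀ : GoodIdx L₀)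
    (hl₀ : ((l₀ : ℕ) : ZMod (twLev k L₁ q)) = 1) (hl₀odd : ¬ (2 : ℤ) ∣ E.apOfModel l₀) :
    ∃ red : twMod O k m L₀ q E L₁ ω →+ curvePart O E L₀ L₁,
      (∀ a x, red (a • x) = algebraMap (DiaRing O k m) O a • red x) ∧
      Function.Surjective red ∧
      (∀ x, red x = 0 → x ∈ RingHom.ker (algebraMap (DiaRing O k m) O) •
        (⊤ : Submodule (DiaRing O k m) (twMod O k m L₀ q E L₁ ω))) ∧
      (∀ r : ℕ, r.Prime → (∀ i, q i ≠ r) → ∀ x,
        red (twOp O k m L₀ q E L₁ ω r x) = curveOp O E L₀ L₁ r (red x)) ∧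
      ∀ (ι : Type) [Fintype ι] (b : Module.Basis ι (DiaRing O k m) (twMod O k m L₀ q E L₁ ω)),
        ∃ c : Module.Basis ι O (curvePart O E L₀ L₁), ∀ i, red (b i) = c i := by
  obtain ⟨hfree, hfin⟩ := free_twMod O k m L₀ q E L₁ h2 hp hpL hp4 ω l₀
    (not_dvd_of_natCast_eq_one l₀.2.1 hl₀) hl₀odd
  let b₀ := Module.Free.chooseBasis (DiaRing O k m) (twMod O k m L₀ q E L₁ ω)
  let E' := pH1EquivHom (V := O) (twChar O k m L₁ q) (twChar_neg_one O k m L₁ q)
    (aug_triv O k m L₁ q) (eq_zero_of_add_self O)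
  let π : DiaRing O k m →ₗ[DiaRing O k m] O := Algebra.linearMap (DiaRing O k m) O
  let f : twMod O k m L₀ q E L₁ ω →+ (Additive (Gamma0 (twLev k L₁ q)) →+ O) :=
    AddMonoidHom.mk' (fun x => E' (tH1Map _ π x.1)) fun x y => by
      simp only [Submodule.coe_add, map_add]
  have hfs : ∀ a x, f (a • x) = algebraMap (DiaRing O k m) O a • f x := fun a x => by
    show E' (tH1Map _ π (a • x.1)) = _
    rw [map_smul, map_smul]
    exact AddMonoidHom.ext fun g => Algebra.smul_def a _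
  have hbasis : ∀ (ι : Type) (b : Module.Basis ι (DiaRing O k m) (twMod O k m L₀ q E L₁ ω)),
      ∃ c : Module.Basis ι O (LinearMap.range (localIdem
        (gamHecke O (twLev k L₁ q) (fun l : GoodIdx L₀ => (l : ℕ)))
        (levVal O k L₀ q E Finset.univ ω))),
      ∀ i, (c i : Additive (Gamma0 (twLev k L₁ q)) →+ O) = f (b i) :=
    fun ι b => exists_basis_twMod_reduced O k m L₀ q E L₁ h2 hp hpL hp4 ω b
  obtain ⟨c₀, hc₀⟩ := hbasis _ b₀
  have hmem : ∀ x, f x ∈ LinearMap.range (localIdem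
      (gamHecke O (twLev k L₁ q) (fun l : GoodIdx L₀ => (l : ℕ)))
      (levVal O k L₀ q E Finset.univ ω)) := fun x => by
    rw [← b₀.sum_repr x, map_sum]
    refine Submodule.sum_mem _ fun i _ => ?_
    rw [hfs, ← hc₀]
    exact Submodule.smul_mem _ _ (c₀ i).2
  obtain ⟨Φ, hΦ⟩ := exists_equiv_levels O L₀ q E hinj hprime hnd hoddq h2 hω hL₁ l₀ hl₀ hl₀odd
  have hl₁ : ((l₀ : ℕ) : ZMod L₁) = 1 := by
    have h := congrArg (ZMod.castHom (dvd_mul_right L₁ (∏ i, q i)) (ZMod L₁)) hl₀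
    rwa [map_natCast, map_one] at h
  obtain ⟨ι₁, hι₁, hιr⟩ := exists_locEquiv O E L₀ h2 L₁ hL₁ l₀ hl₁ hl₀odd
  let G := ι₁.trans Φ
  let red : twMod O k m L₀ q E L₁ ω →+ curvePart O E L₀ L₁ :=
    AddMonoidHom.mk' (fun x => G.symm ⟨f x, hmem x⟩) fun x y => by
      rw [← map_add]
      exact congrArg _ (Subtype.ext (map_add f x y))
  have hGred : ∀ x, (G (red x) : Additive (Gamma0 (twLev k L₁ q)) →+ O) = f x := fun x =>
    congrArg Subtype.val (G.apply_symm_apply ⟨f x, hmem x⟩)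
  have hsmul : ∀ a x, red (a • x) = algebraMap (DiaRing O k m) O a • red x := fun a x =>
    G.injective (Subtype.ext (by rw [G.map_smul, Submodule.coe_smul, hGred, hGred, hfs]))
  have hred : ∀ (ι : Type) [Fintype ι]
      (b : Module.Basis ι (DiaRing O k m) (twMod O k m L₀ q E L₁ ω)),
      ∃ c : Module.Basis ι O (curvePart O E L₀ L₁), ∀ i, red (b i) = c i := fun ι _ b => by
    obtain ⟨c, hc⟩ := hbasis ι b
    exact ⟨c.map G.symm, fun i => G.injective (Subtype.ext (by
      rw [hGred, Module.Basis.map_apply, LinearEquiv.apply_symm_apply, hc]))⟩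
  obtain ⟨c, hc⟩ := hred _ b₀
  refine ⟨red, hsmul, fun y => ?_, fun x hx => ?_, fun r hr hrq x => ?_, hred⟩
  · refine ⟨∑ i, diaMk O k m (MvPowerSeries.C (c.repr y i)) • b₀ i, ?_⟩
    simp only [map_sum, hsmul, hc, algebraMap_diaMk, MvPowerSeries.constantCoeff_C]
    exact c.sum_repr y
  · have h0 : ∀ i, algebraMap (DiaRing O k m) O (b₀.repr x i) = 0 := by
      rw [← b₀.sum_repr x, map_sum] at hx
      simp only [hsmul, hc] at hx
      exact fun i => Fintype.linearIndependent_iff.mp c.linearIndependent _ hx i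
    rw [← b₀.sum_repr x]
    exact Submodule.sum_mem _ fun i _ =>
      Submodule.smul_mem_smul (RingHom.mem_ker.mpr (h0 i)) Submodule.mem_top
  · refine G.injective (Subtype.ext ?_)
    rw [hGred]
    have h1 := hΦ r hr hrq (ι₁ (red x)) (ι₁ (curveOp O E L₀ L₁ r (red x))) (hιr r hr (red x))
    refine Eq.trans ?_ h1.symm
    show E' (tH1Map _ π (twOp O k m L₀ q E L₁ ω r x).1) =
      heckeHom O (twLev k L₁ q) r (G (red x)).1
    rw [hGred, coe_twOp O k m L₀ q E L₁ ω hr, ← NatEnd.natural, pH1EquivHom_pNatHecke _ _ _ _ hr]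
    exact (heckeHom_eq_int (DiaRing O k m) r _).trans (heckeHom_eq_int O r _).symm

end FLTA.LT2
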