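import Fermat.Agent.LT2.ImageCompanion
import Fermat.Agent.EllTate.Det
import Fermat.Agent.LT2.PatchedRingResidual
import Fermat.Agent.RepTheory.AbsIrr

/-!
# Part G, ring side: `E[2]` is irreducible, absolutely irreducible over every field of
characteristic two, and its traces are those of the Tate module modulo two
-/

set_option autoImplicit false

open scoped Classical
open WeierstrassCurve
open scoped WeierstrassCurve.Affine

noncomputable section

namespace FLTA.LT2

open FLTA.EllReduction FLTA.EllTate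



local notation "Γℚ" => AlgebraicClosure ℚ ≃ₐ[ℚ] AlgebraicClosure ℚ

theorem exists_det_one_mulVec : ∀ v w : Fin 2 → ZMod 2, v ≠ 0 → w ≠ 0 →
    ∃ M : Matrix (Fin 2) (Fin 2) (ZMod 2), M.det = 1 ∧ M.mulVec v = w := by
  decide

variable {E : WeierstrassCurve ℤ} (hE : Companion E)

include hE in
/-- Galois permutes the points of order two transitively. -/
theorem Companion.exists_smul_eq_two (x y : Image.Tors E 1) (hx : x ≠ 0) (hy : y ≠ 0) :
    ∃ σ : Γℚ, σ • x = y := by
  obtain ⟨M, hM, hMv⟩ := exists_det_one_mulVec (Image.torsEquiv hE.Δ_ne_zero 1 x)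
    (Image.torsEquiv hE.Δ_ne_zero 1 y) (by simpa using hx) (by simpa using hy)
  obtain ⟨σ, hσ⟩ := Companion.exists_rep_eq hE one_ne_zero (M := M) (hM ▸ isUnit_one)
  refine ⟨σ, (Image.torsEquiv hE.Δ_ne_zero 1).injective ?_⟩
  rw [Image.torsEquiv_smul, hσ]
  exact hMv

include hE in
/-- `E[2]` is irreducible. -/
theorem Companion.modRepIsIrreducible_two : E.ModRepIsIrreducible 2 := by
  have hcard := FLTA.EllTorsion.natCard_torsionBy_intModel E hE.Δ_ne_zero (n := 2) two_ne_zero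
  refine ⟨?_, fun N hN => ?_⟩
  · exact (@Finite.one_lt_card_iff_nontrivial _
      (Nat.finite_of_card_ne_zero (hcard.trans_ne (by norm_num)))).mp
        ((show 1 < 2 ^ 2 by norm_num).trans_eq hcard.symm)
  · by_contra! h
    obtain ⟨x, hx, hx0⟩ := N.exists_mem_ne_zero_of_ne_bot h.1
    refine h.2 (eq_top_iff.mpr fun y _ => ?_)
    by_cases hy : y = 0
    · rw [hy]; exact N.zero_mem
    obtain ⟨σ, hσ⟩ := hE.exists_smul_eq_two ⟨x.1, x.2⟩ ⟨y.1, y.2⟩
      (fun h0 => hx0 (Subtype.ext (congrArg Subtype.val h0)))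
      (fun h0 => hy (Subtype.ext (congrArg Subtype.val h0)))
    have : σ • x = y := Subtype.ext (congrArg Subtype.val hσ)
    exact this ▸ hN σ x hx

/-- The matrices of the Tate module modulo two. -/
def tateMatTwo (E : WeierstrassCurve ℤ) (hΔ : E.Δ ≠ 0) :
    Γℚ →* Matrix (Fin 2) (Fin 2) (ZMod 2) :=
  (PadicInt.toZMod (p := 2)).mapMatrix.toMonoidHom.comp (tateMat E hΔ 2)

/-- An element trivial on the Tate module modulo two is trivial on `E[2]`. -/
theorem rep_one_eq_one_of_tateMatTwo (hΔ : E.Δ ≠ 0) {σ : Γℚ} (h : tateMatTwo E hΔ σ = 1) :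
    Image.rep hΔ 1 σ = 1 := by
  refine Matrix.ext_of_mulVec_single fun i => ?_
  obtain ⟨x, hx⟩ := (Image.torsEquiv hΔ 1).surjective (Pi.single i 1)
  rw [Matrix.one_mulVec, ← hx, ← Image.torsEquiv_smul]
  congr 1
  refine Subtype.ext ?_
  have h1 := smul_eq_of_toZMod_eq (hΔ := hΔ) (p := 2) (σ := σ) (k := 1)
    (by rw [Nat.cast_one, one_smul]; exact h) (P := (x : GeomPoint E))
    (by simpa using Image.mem_tors.mp x.2)
  rw [one_nsmul] at h1
  exact h1

/-- An element trivial on `E[2]` is trivial on the Tate module modulo two. -/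
theorem tateMatTwo_eq_one_of_rep (hΔ : E.Δ ≠ 0) {σ : Γℚ} (h : Image.rep hΔ 1 σ = 1) :
    tateMatTwo E hΔ σ = 1 := by
  have hfix : ∀ x : Image.Tors E 1, σ • x = x := fun x => (Image.torsEquiv hΔ 1).injective (by
    rw [Image.torsEquiv_smul, h, Matrix.one_mulVec])
  have hmem : ∀ f : TateSeq (GeomPoint E) 2, tateAction E 2 σ f - f ∈
      Ideal.span {((2 : ℕ) : ℤ_[2]) ^ 1} • (⊤ : Submodule ℤ_[2] (TateSeq (GeomPoint E) 2)) := by
    intro f
    refine TateSeq.mem_of_comp_eq_zero ?_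
    rw [map_sub, sub_eq_zero]
    exact congrArg Subtype.val
      (hfix ⟨TateSeq.comp 1 f, Image.mem_tors.mpr (TateSeq.pow_nsmul_comp f 1)⟩)
  have hV : ∀ v : (tateRep E hΔ 2).V, (tateRep E hΔ 2).ρ σ v - v ∈
      Ideal.span {((2 : ℕ) : ℤ_[2]) ^ 1} • (⊤ : Submodule ℤ_[2] (tateRep E hΔ 2).V) := hmem
  ext i j
  have h2 : (tateBasis E hΔ 2).repr
      ((tateRep E hΔ 2).ρ σ (tateBasis E hΔ 2 j) - tateBasis E hΔ 2 j) i ∈
      Ideal.span {((2 : ℕ) : ℤ_[2]) ^ 1} := by
    refine Submodule.smul_induction_on (p := fun v => (tateBasis E hΔ 2).repr v i ∈ _)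
      (hV (tateBasis E hΔ 2 j))
      (fun r hr v _ => by simpa using Ideal.mul_mem_right _ _ hr) fun u v hu hv => by
        simpa using add_mem hu hv
  rw [pow_one, ← PadicInt.maximalIdeal_eq_span_p, ← PadicInt.ker_toZMod, RingHom.mem_ker, map_sub,
    Finsupp.sub_apply, map_sub, sub_eq_zero, Module.Basis.repr_self, Finsupp.single_apply] at h2
  show PadicInt.toZMod (tateMat E hΔ 2 σ i j) = _
  rw [show tateMat E hΔ 2 σ i j =
    (tateBasis E hΔ 2).repr ((tateRep E hΔ 2).ρ σ (tateBasis E hΔ 2 j)) i from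
      LinearMap.toMatrix_apply _ _ _ _ _, h2]
  by_cases hij : i = j
  · subst hij; simp
  · simp [hij, Ne.symm hij]

/-- The trace of an element of `GL₂(𝔽₂)` is one exactly when its order is three. -/
theorem trace_eq_ite_order : ∀ M : Matrix (Fin 2) (Fin 2) (ZMod 2), M.det ≠ 0 →
    M.trace = if M * M * M = 1 ∧ M ≠ 1 then 1 else 0 := by
  decide

theorem mod2_one_injective : Function.Injective (Image.mod2 (n := 1) one_ne_zero) := by
  decide

theorem mat2_eq_one_iff (hΔ : E.Δ ≠ 0) (σ : Γℚ) :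
    mat2 hΔ σ = 1 ↔ tateMatTwo E hΔ σ = 1 := by
  have hinj : Function.Injective ((Image.mod2 (n := 1) one_ne_zero).mapMatrix (m := Fin 2)) := by
    intro M N hMN
    exact Matrix.map_injective mod2_one_injective hMN
  refine ⟨fun h => tateMatTwo_eq_one_of_rep hΔ (hinj (h.trans (map_one _).symm)), fun h => ?_⟩
  show (Image.mod2 (n := 1) one_ne_zero).mapMatrix (Image.rep hΔ 1 σ) = 1
  rw [rep_one_eq_one_of_tateMatTwo hΔ h, map_one]

/-- The Tate module modulo two has the traces of `E[2]`. -/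
theorem trace_tateMatTwo (hΔ : E.Δ ≠ 0) (σ : Γℚ) :
    (tateMatTwo E hΔ σ).trace = (mat2 hΔ σ).trace := by
  have hu : ∀ f : Γℚ →* Matrix (Fin 2) (Fin 2) (ZMod 2), (f σ).det ≠ 0 := fun f =>
    ((Matrix.isUnit_iff_isUnit_det _).mp ((Group.isUnit σ).map f)).ne_zero
  rw [trace_eq_ite_order _ (hu (tateMatTwo E hΔ)), trace_eq_ite_order _ (hu (mat2 hΔ))]
  simp only [ne_eq, ← map_mul, mat2_eq_one_iff]

variable {k : Type} [Field k] [Algebra (ZMod 2) k]

include hE in
/-- `E[2] ⊗ k` is absolutely irreducible. -/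
theorem Companion.isAbsolutelyIrreducible_resRep :
    (resRep hE.Δ_ne_zero k).IsAbsolutelyIrreducible := by
  rw [RepTheory.isAbsolutelyIrreducible_iff_spans]
  refine (RepTheory.spans_iff_matHom (Pi.basisFun k (Fin 2)) _).mpr ?_
  set ι := algebraMap (ZMod 2) k
  set S := Submodule.span k (Set.range (RepTheory.matHom (Pi.basisFun k (Fin 2))
    (resRep hE.Δ_ne_zero k).ρ))
  have hmem : ∀ M : Matrix (Fin 2) (Fin 2) (ZMod 2), M.det = 1 → M.map ι ∈ S := fun M hM => by
    obtain ⟨σ, hσ⟩ := Companion.exists_rep_eq hE one_ne_zero (M := M) (hM ▸ isUnit_one)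
    refine Submodule.subset_span ⟨σ, ?_⟩
    rw [RepTheory.matHom_apply, LinearMap.toMatrix_eq_toMatrix']
    refine (LinearMap.toMatrix'_toLin' (resMat hE.Δ_ne_zero k σ)).trans ?_
    have he : mat2 hE.Δ_ne_zero σ = M := by
      show (Image.mod2 (n := 1) one_ne_zero).mapMatrix (Image.rep hE.Δ_ne_zero 1 σ) = M
      rw [hσ]
      ext i j
      exact congrArg (fun f : ZMod 2 →+* ZMod 2 => f (M i j))
        (Subsingleton.elim (α := ZMod 2 →+* ZMod 2) (Image.mod2 (n := 1) one_ne_zero) (RingHom.id _))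
    show (mat2 hE.Δ_ne_zero σ).map ι = M.map ι
    rw [he]
  have h1 : (1 : Matrix (Fin 2) (Fin 2) k) ∈ S := by
    simpa using hmem 1 Matrix.det_one
  have hU := hmem !![1, 1; 0, 1] (by decide)
  have hL := hmem !![1, 0; 1, 1] (by decide)
  have hUL := hmem !![0, 1; 1, 1] (by decide)
  have h2 : (2 : k) = 0 := by
    rw [← map_ofNat ι 2, show (2 : ZMod 2) = 0 from rfl, map_zero]
  refine eq_top_iff.mpr fun X _ => ?_
  have e : X = X 1 1 • (1 : Matrix (Fin 2) (Fin 2) k) +
      X 0 1 • ((!![1, 1; 0, 1] : Matrix _ _ (ZMod 2)).map ι - 1) +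
      X 1 0 • ((!![1, 0; 1, 1] : Matrix _ _ (ZMod 2)).map ι - 1) +
      (X 0 0 - X 1 1) • (((!![1, 1; 0, 1] : Matrix _ _ (ZMod 2)).map ι - 1) +
        ((!![1, 0; 1, 1] : Matrix _ _ (ZMod 2)).map ι - 1) + 1 -
        (!![0, 1; 1, 1] : Matrix _ _ (ZMod 2)).map ι) := by
    ext i j
    fin_cases i <;> fin_cases j <;> simp
  rw [e]
  exact add_mem (add_mem (add_mem (S.smul_mem _ h1) (S.smul_mem _ (sub_mem hU h1)))
    (S.smul_mem _ (sub_mem hL h1)))
    (S.smul_mem _ (sub_mem (add_mem (add_mem (sub_mem hU h1) (sub_mem hL h1)) h1) hUL))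

end FLTA.LT2

end
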