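import Fermat.Agent.LT2.PatchedRingCond
import Fermat.Agent.LT2.PatchedRingIrred
import Fermat.Agent.LT2.EllTwoSign
import Fermat.Agent.LT2.FlatTwo
import Fermat.Agent.Galois.Places

/-!
# Part G, ring side: the curve gives points of the conditions with signs

At a bad prime the `2`-adic Tate module has the equations of the sign of the node; at a prime where
Frobenius is a complex conjugation modulo `2 ^ n` it has both signs modulo `2 ^ n`.
-/

set_option autoImplicit false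

open scoped Classical
open WeierstrassCurve
open scoped WeierstrassCurve.Affine

noncomputable section

namespace FLTA.LT2

open IsLocalRing FLTA.EllTate FLTA.EllReduction

local notation "Γℚ" => AlgebraicClosure ℚ ≃ₐ[ℚ] AlgebraicClosure ℚ

section Algebra

/-- `P Q = 0`, `P N' = 0`, `N Q = 0` and `P, Q ≠ 0` force `N N' = 0` in size two. -/
theorem mul_eq_zero_of_line {R : Type} [CommRing R] [IsDomain R]
    {P Q N N' : Matrix (Fin 2) (Fin 2) R} (hP : P ≠ 0) (hQ : Q ≠ 0) (hPQ : P * Q = 0)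
    (hPN : P * N' = 0) (hNQ : N * Q = 0) : N * N' = 0 := by
  obtain ⟨i, j, hij⟩ : ∃ i j, Q i j ≠ 0 := by
    by_contra! h
    exact hQ (Matrix.ext h)
  obtain ⟨r, t, hrt⟩ : ∃ r t, P r t ≠ 0 := by
    by_contra! h
    exact hP (Matrix.ext h)
  have ePQ : P r 0 * Q 0 j + P r 1 * Q 1 j = 0 := by
    simpa [Matrix.mul_apply, Fin.sum_univ_two] using congrFun (congrFun hPQ r) j
  ext a c
  have ePN : P r 0 * N' 0 c + P r 1 * N' 1 c = 0 := by
    simpa [Matrix.mul_apply, Fin.sum_univ_two] using congrFun (congrFun hPN r) c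
  have eNQ : N a 0 * Q 0 j + N a 1 * Q 1 j = 0 := by
    simpa [Matrix.mul_apply, Fin.sum_univ_two] using congrFun (congrFun hNQ a) j
  have hcol : N' 0 c * Q 1 j = N' 1 c * Q 0 j := by
    refine sub_eq_zero.mp ((mul_eq_zero.mp ?_).resolve_left hrt)
    obtain rfl | rfl : t = 0 ∨ t = 1 := by omega
    · linear_combination (Q 1 j) * ePN - (N' 1 c) * ePQ
    · linear_combination (N' 0 c) * ePQ - (Q 0 j) * ePN
  simp only [Matrix.mul_apply, Fin.sum_univ_two, Matrix.zero_apply]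
  refine (mul_eq_zero.mp ?_).resolve_right hij
  obtain rfl | rfl : i = 0 ∨ i = 1 := by omega
  · linear_combination (N' 0 c) * eNQ - (N a 1) * hcol
  · linear_combination (N' 1 c) * eNQ + (N a 0) * hcol

theorem prodEnd_congr {A : Type} [CommRing A] [IsLocalRing A] (ρ : GaloisRepAdic A) (σ τ : Γℚ)
    {a a' b b' : ℤ} (ha : (a : A) = a') (hb : (b : A) = b') :
    prodEnd ρ σ τ a b = prodEnd ρ σ τ a' b' := by
  rw [prodEnd, prodEnd, ha, hb]

theorem SignEqAt.congr {A : Type} [CommRing A] [IsLocalRing A] {ρ : GaloisRepAdic A} {j : ℕ}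
    {s s' : ℤ} (h : SignEqAt ρ j s) (hs : (s : A) = s') : SignEqAt ρ j s' := by
  have hj : ((s * j : ℤ) : A) = ((s' * j : ℤ) : A) := by push_cast; rw [hs]
  refine ⟨h.inertia_inertia, fun P hP σ hσ τ hτ => ?_, fun P hP σ hσ τ hτ => ?_,
    fun P hP σ hσ σ' hσ' => ?_⟩
  · rw [← prodEnd_congr ρ σ τ hj rfl]; exact h.frob_inertia P hP σ hσ τ hτ
  · rw [← prodEnd_congr ρ τ σ rfl hs]; exact h.inertia_frob P hP σ hσ τ hτ
  · rw [← prodEnd_congr ρ σ σ' hj hs]; exact h.frob_frob P hP σ hσ σ' hσ'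

end Algebra

variable {E : WeierstrassCurve ℤ} (hE : Companion E)

include hE

/-- The equations of the Tate module at a bad prime, the sign being that of the node. -/
theorem Companion.signEqAt_tateRep_bad {ℓ : ℕ} (hℓ : ℓ.Prime) (hbad : (ℓ : ℤ) ∣ E.Δ) :
    SignEqAt (tateRep E hE.Δ_ne_zero 2) ℓ (nodeSign E ℓ) := by
  have hirr := hE.modRepIsIrreducible_two
  obtain ⟨hc₄, hℓ2, -⟩ := Companion.bad_prime_spec hE hℓ hbad
  set M := tateMat E hE.Δ_ne_zero 2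
  set u : ℤ_[2] := (nodeSign E ℓ : ℤ_[2]) with hu
  have e : ∀ σ τ a b, prodEnd (tateRep E hE.Δ_ne_zero 2) σ τ a b = 0 ↔
      (M σ - (a : ℤ_[2]) • 1) * (M τ - (b : ℤ_[2]) • 1) = 0 := fun σ τ a b =>
    prodEnd_eq_zero_iff _ (tateBasis E hE.Δ_ne_zero 2) σ τ a b
  have hsj : ((nodeSign E ℓ * ℓ : ℤ) : ℤ_[2]) = u * (ℓ : ℤ_[2]) := by push_cast; rfl
  have hu2 : u * u = 1 := by
    rw [hu, ← Int.cast_mul, ← sq, nodeSign_sq, Int.cast_one]
  refine ⟨fun P hP τ hτ τ' hτ' => ?_, fun P hP σ hσ τ hτ => ?_, fun P hP σ hσ τ hτ => ?_,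
    fun P hP σ hσ σ' hσ' => ?_⟩
  · obtain ⟨σ, hσ⟩ := FLTA.Galois.exists_isFrobeniusAt hℓ hP
    have htr : (M σ).trace = u * ((ℓ : ℤ_[2]) + 1) :=
      (trace_eq_trace_tateMat σ).symm.trans
        (trace_frobenius_of_mult_all hE.Δ_ne_zero hℓ hℓ2 hP hbad hc₄ hirr hσ)
    have hℓ1 : (ℓ : ℤ_[2]) ≠ 1 := fun h => hℓ.ne_one (by exact_mod_cast h)
    have hu0 : u ≠ 0 := left_ne_zero_of_mul_eq_one hu2
    rw [e, Int.cast_one, one_smul]
    refine mul_eq_zero_of_line (P := M σ - (u * (ℓ : ℤ_[2])) • 1) (Q := M σ - u • 1)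
      (fun h => hℓ1 ?_) (fun h => hℓ1 ?_)
      (frobenius_sub_sign_mul hE.Δ_ne_zero hℓ hℓ2 hP hbad hc₄ hirr hσ)
      (frobenius_sub_mul_inertia hE.Δ_ne_zero hℓ hℓ2 hP hbad hc₄ hirr hσ hτ')
      (inertia_mul_frobenius_sub_sign hE.Δ_ne_zero hℓ hℓ2 hP hbad hc₄ hσ hτ)
    · rw [sub_eq_zero.mp h, Matrix.trace_smul, Matrix.trace_one, Fintype.card_fin,
        smul_eq_mul] at htr
      exact mul_left_cancel₀ hu0 (by push_cast at htr; linear_combination htr)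
    · rw [sub_eq_zero.mp h, Matrix.trace_smul, Matrix.trace_one, Fintype.card_fin,
        smul_eq_mul] at htr
      exact mul_left_cancel₀ hu0 (by push_cast at htr; linear_combination -htr)
  · rw [e, hsj, Int.cast_one, one_smul]
    exact frobenius_sub_mul_inertia hE.Δ_ne_zero hℓ hℓ2 hP hbad hc₄ hirr hσ hτ
  · rw [e, Int.cast_one, one_smul]
    exact inertia_mul_frobenius_sub_sign hE.Δ_ne_zero hℓ hℓ2 hP hbad hc₄ hσ hτ
  · have hτ := FLTA.Galois.isFrobeniusAt_inv_mul_mem_inertia hσ hσ'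
    have h1 : (M σ - (u * (ℓ : ℤ_[2])) • 1) * (M σ - u • 1) = 0 :=
      frobenius_sub_sign_mul hE.Δ_ne_zero hℓ hℓ2 hP hbad hc₄ hirr hσ
    have h2 : (M σ - (u * (ℓ : ℤ_[2])) • 1) * (M (σ⁻¹ * σ') - 1) = 0 :=
      frobenius_sub_mul_inertia hE.Δ_ne_zero hℓ hℓ2 hP hbad hc₄ hirr hσ hτ
    have hM : M σ' = M σ * M (σ⁻¹ * σ') :=
      (congrArg M (mul_inv_cancel_left σ σ').symm).trans (map_mul M σ _)
    set c : Matrix (Fin 2) (Fin 2) ℤ_[2] := (u * (ℓ : ℤ_[2])) • 1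
    have hc : c * M σ = M σ * c := by simp [c]
    rw [e, hsj, hM]
    calc (M σ - c) * (M σ * M (σ⁻¹ * σ') - u • 1)
        = M σ * ((M σ - c) * (M (σ⁻¹ * σ') - 1)) + (M σ - c) * (M σ - u • 1) := by
          simp only [sub_mul, mul_sub, mul_one, ← mul_assoc, hc]
          abel
      _ = 0 := by rw [h1, h2, mul_zero, add_zero]

variable {A : Type} [CommRing A] [IsLocalRing A] (φ : ℤ_[2] →+* A) (hφ : IsLocalHom φ)

/-- Modulo `2 ^ n` the Tate module has both signs at a prime of complex conjugation type. -/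
theorem Companion.signEqAt_tateRep_conjPrime {n q : ℕ} (h2 : (2 : A) ^ n = 0)
    (hq : ConjPrime E n q) {s : ℤ} (hs : s ^ 2 = 1) :
    SignEqAt ((tateRep E hE.Δ_ne_zero 2).baseChangeAlong φ hφ) q s := by
  set ρ := tateRep E hE.Δ_ne_zero 2
  have hu : ∀ P : ValuationSubring (AlgebraicClosure ℚ), P.LiesOverPrime q →
      ∀ τ ∈ P.inertiaSubgroupIn ℚ, ρ.ρ τ = 1 :=
    fun P hP τ hτ => isUnramifiedAt_of_good hq.prime hq.ne_two hq.good P hP τ hτ
  have hτ0 : ∀ (τ : Γℚ), ρ.ρ τ = 1 → ρ.ρ τ - ((1 : ℤ) : ℤ_[2]) • 1 = 0 := fun τ h => by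
    rw [h, Int.cast_one, one_smul, sub_self]
  refine ⟨fun P hP τ hτ τ' hτ' => ?_, fun P hP σ hσ τ hτ => ?_, fun P hP σ hσ τ hτ => ?_,
    fun P hP σ hσ σ' hσ' => ?_⟩
  · rw [← bcEnd_prodEnd, prodEnd, hτ0 τ (hu P hP τ hτ), zero_mul, map_zero]
  · rw [← bcEnd_prodEnd, prodEnd, hτ0 τ (hu P hP τ hτ), mul_zero, map_zero]
  · rw [← bcEnd_prodEnd, prodEnd, hτ0 τ (hu P hP τ hτ), zero_mul, map_zero]
  · have hσσ' : ρ.ρ σ' = ρ.ρ σ := by
      have h := hu P hP _ (FLTA.Galois.isFrobeniusAt_inv_mul_mem_inertia hσ hσ')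
      calc ρ.ρ σ' = ρ.ρ σ * ρ.ρ (σ⁻¹ * σ') :=
          (congrArg ρ.ρ (mul_inv_cancel_left σ σ').symm).trans (map_mul ρ.ρ σ _)
        _ = ρ.ρ σ := by rw [h, mul_one]
    obtain ⟨c, hc⟩ : (2 : ℤ) ^ n ∣ E.apOfModel q - s * (q + 1) :=
      dvd_sub hq.dvd_trace (Dvd.dvd.mul_left (by exact_mod_cast hq.dvd_succ) _)
    set M := tateMat E hE.Δ_ne_zero 2 σ with hM
    have hquad := tateMat_frobenius_all (hΔ := hE.Δ_ne_zero) (p := 2) hq.prime hq.ne_two
      hq.ne_two hq.good hP hσ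
    rw [← hM] at hquad
    have key : prodEnd ρ σ σ (s * q) s = ((2 : ℤ_[2]) ^ n * (c : ℤ_[2])) • ρ.ρ σ := by
      refine (LinearMap.toMatrixAlgEquiv (tateBasis E hE.Δ_ne_zero 2)).injective ?_
      rw [prodEnd, map_mul, map_sub, map_sub, map_smul, map_smul, map_smul, map_one]
      show (M - ((s * q : ℤ) : ℤ_[2]) • 1) * (M - (s : ℤ_[2]) • 1) =
        ((2 : ℤ_[2]) ^ n * (c : ℤ_[2])) • M
      have hc' : (E.apOfModel q : ℤ_[2]) - (s : ℤ_[2]) * ((q : ℤ_[2]) + 1) =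
          (2 : ℤ_[2]) ^ n * (c : ℤ_[2]) := by exact_mod_cast congrArg (fun z : ℤ => (z : ℤ_[2])) hc
      have hs' : (s : ℤ_[2]) ^ 2 = 1 := by exact_mod_cast congrArg (fun z : ℤ => (z : ℤ_[2])) hs
      rw [← hc']
      simp only [sub_mul, mul_sub, Matrix.smul_mul, Matrix.mul_smul, one_mul, mul_one, smul_smul]
      push_cast at hquad ⊢
      linear_combination (norm := skip) hquad
      match_scalars
      · ring
      · ring
      · linear_combination (q : ℤ_[2]) * hs'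
    rw [← bcEnd_prodEnd, prodEnd, hσσ']
    rw [prodEnd] at key
    rw [key, RT.bcEnd_smul, map_mul, map_pow, map_ofNat, h2, zero_mul, zero_smul]

/-- **The curve point**: the Tate module in a finite local ring in which `2 ^ n = 0`, for the
signs of the nodes at the bad primes and any signs at the primes of complex conjugation type. -/
theorem Companion.signCond_tateRep {𝒪 : Type} [CommRing 𝒪] [IsLocalRing 𝒪]
    [Finite (ResidueField 𝒪)] [Algebra 𝒪 A] [Finite A] {n : ℕ} (h2 : (2 : A) ^ n = 0)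
    {S T : Finset ℕ} {s : ℕ → ℤ} (h2S : 2 ∈ S)
    (hS : ∀ ℓ : ℕ, ℓ.Prime → (ℓ : ℤ) ∣ E.Δ → ℓ ∈ S)
    (hT : ∀ j ∈ T, (j.Prime ∧ (j : ℤ) ∣ E.Δ ∧ (s j : A) = (nodeSign E j : A)) ∨
      (ConjPrime E n j ∧ s j ^ 2 = 1)) :
    signCond 𝒪 S T s ((tateRep E hE.Δ_ne_zero 2).baseChangeAlong φ hφ) := by
  refine ⟨⟨?_, isFlatAt_tateRep_baseChange_two hE.Δ_ne_zero hE.goodTwo φ hφ,
    fun q hq hqS P hP σ hσ => ?_⟩, fun j hj => ?_⟩
  · obtain ⟨h1, h3⟩ := detIsCyclotomic_all (hΔ := hE.Δ_ne_zero) hE.modRepIsIrreducible_two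
    refine ⟨?_, fun m σ a ha => ?_⟩
    · have := hφ
      rw [← map_natCast φ]
      exact map_nonunit φ _ h1
    · obtain ⟨c, hc⟩ := Ideal.mem_span_singleton'.mp (h3 m σ a ha)
      refine Ideal.mem_span_singleton'.mpr ⟨φ c, ?_⟩
      rw [RT.det_baseChangeAlong, ← map_natCast φ, ← map_natCast φ, ← map_mul, hc, map_sub]
  · have hq2 : q ≠ 2 := fun h => hqS (h ▸ h2S)
    rw [← RT.bcEnd_rho, isUnramifiedAt_of_good hq hq2 (fun h => hqS (hS q hq h)) P hP σ hσ,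
      map_one]
  · rcases hT j hj with ⟨hp, hbad, hs⟩ | ⟨hq, hs⟩
    · exact ((hE.signEqAt_tateRep_bad hp hbad).of_baseChange φ hφ).congr hs.symm
    · exact hE.signEqAt_tateRep_conjPrime φ hφ h2 hq hs

omit [IsLocalRing A] in
/-- Frobenius at a good prime has trace `a_ℓ` at the point. -/
theorem Companion.trace_frobenius_point [IsLocalRing A] (φ : ℤ_[2] →+* A) (hφ : IsLocalHom φ)
    {ℓ : ℕ} (hℓ : ℓ.Prime) (hℓ2 : ℓ ≠ 2) (hgood : ¬ (ℓ : ℤ) ∣ E.Δ)
    {P : ValuationSubring (AlgebraicClosure ℚ)} (hP : P.LiesOverPrime ℓ) {σ : Γℚ}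
    (hσ : P.IsFrobeniusAt σ ℓ) :
    ((tateRep E hE.Δ_ne_zero 2).baseChangeAlong φ hφ).trace σ = (E.apOfModel ℓ : A) := by
  rw [FLTA.Deformation.trace_baseChangeAlong,
    (trace_det_frobenius_all (hΔ := hE.Δ_ne_zero) hE.modRepIsIrreducible_two hℓ hℓ2 hℓ2 hgood
      hP hσ).1, map_intCast]

omit [IsLocalRing A] in
/-- Inertia at a good prime has trace `2` at the point. -/
theorem Companion.trace_inertia_point [IsLocalRing A] (φ : ℤ_[2] →+* A) (hφ : IsLocalHom φ)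
    {ℓ : ℕ} (hℓ : ℓ.Prime) (hℓ2 : ℓ ≠ 2) (hgood : ¬ (ℓ : ℤ) ∣ E.Δ)
    {P : ValuationSubring (AlgebraicClosure ℚ)} (hP : P.LiesOverPrime ℓ) {σ : Γℚ}
    (hσ : σ ∈ P.inertiaSubgroupIn ℚ) :
    ((tateRep E hE.Δ_ne_zero 2).baseChangeAlong φ hφ).trace σ = 2 := by
  rw [FLTA.Deformation.trace_baseChangeAlong, GaloisRepAdic.trace,
    isUnramifiedAt_of_good hℓ hℓ2 hgood P hP σ hσ, LinearMap.trace_one,
    (tateRep E hE.Δ_ne_zero 2).finrank_eq, map_natCast, Nat.cast_ofNat]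

end FLTA.LT2

end
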