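import Fermat.Agent.LT2.PatchedRed
import Fermat.Agent.LT2.PatchedOldLoc

/-!
# Part G of LT2: the normalised `U_v` at the level

`z = ∏ v ∈ Q, G_v (U_v)` kills what is old at some `v ∈ Q`; on its image `U_v ^ 2 = 1`, and it
reduces to the operator of the bottom module. Where the factor at level `L₀ / v` vanishes `U_v` is
an involution.
-/

set_option autoImplicit false
set_option linter.overlappingInstances false
set_option linter.unusedSectionVars false
set_option maxSynthPendingDepth 3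

noncomputable section

universe u

open IsLocalRing CongruenceSubgroup
open scoped MatrixGroups

namespace FLTA.LT2

open FLTA.RT FLTA.Periods FLTA.Gamma0 FLTA.LevelRaising

section transport

variable {R : Type u} [CommRing R] [IsLocalRing R] [IsNoetherianRing R]
  [IsAdicComplete (maximalIdeal R) R] {σ : Type*}

omit [IsLocalRing R] [IsNoetherianRing R] [IsAdicComplete (maximalIdeal R) R] in
theorem chiUp_sigProd {N v : ℕ} (Q₀ : Finset ℕ) (ε : ∀ p : ℕ, (ZMod p)ˣ →* Rˣ)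
    (hQ : ∀ p ∈ Q₀, p ∣ N) : chiUp (sigProd N Q₀ ε) v = sigProd (N * v) Q₀ ε := by
  refine MonoidHom.ext fun x => ?_
  rw [chiUp, MonoidHom.comp_apply, sigProd_apply, sigProd_apply]
  exact Finset.prod_congr rfl fun p hp => by rw [sigChar_unitsMap _ (hQ p hp)]

variable {L N v : ℕ} [NeZero L] [NeZero N] [hv : Fact v.Prime] (hL : L = N * v) (hvN : ¬ v ∣ N)
  (Q₀ : Finset ℕ) (ε : ∀ p : ℕ, (ZMod p)ˣ →* Rˣ) (hQ : ∀ p ∈ Q₀, p ∣ N) {pr : σ → ℕ}
  (hp : ∀ s, (pr s).Prime) (hpv : ∀ s, pr s ≠ v) (a : σ → R)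

include hL hvN hQ hp hpv in
/-- The old part at level `L = N v` is killed. -/
theorem aeval_old_sigProd [Module.Free R (LinearMap.range (facIdem (sigProd N Q₀ ε) pr a))]
    [Module.Finite R (LinearMap.range (facIdem (sigProd N Q₀ ε) pr a))]
    (y : tH1 (gamChar (sigProd L Q₀ ε)) R) (hy : facIdem (sigProd L Q₀ ε) pr a y = y) :
    Polynomial.aeval ((kap Q₀ ε v : R) • (natHecke (sigProd L Q₀ ε) v).app R)
      (oldPoly (facOp (sigProd N Q₀ ε) pr a hp v hv.out) (v : R)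
        (((kap Q₀ ε v ^ 2)⁻¹ : Rˣ) : R) (kap Q₀ ε v : R))
      (((kap Q₀ ε v : R) • (natHecke (sigProd L Q₀ ε) v).app R)
        (((kap Q₀ ε v : R) • (natHecke (sigProd L Q₀ ε) v).app R) y) - y) = 0 := by
  subst hL
  have : NeZero v := ⟨hv.out.ne_zero⟩
  have h : v.Coprime N := hv.out.coprime_iff_not_dvd.mpr hvN
  revert y
  rw [← chiUp_sigProd Q₀ ε hQ, ← sigProd_unitOfCoprime ε hQ h]
  intro y hy
  exact aeval_oldPoly_sq_sub (sigProd N Q₀ ε) hp hpv a hvN h
    (by rw [sigProd_unitOfCoprime ε hQ h, ← Units.val_mul, sq]) y hy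

include hL hvN hQ hp hpv in
/-- Without an old part the normalised operator is an involution. -/
theorem sq_old_sigProd (h0 : facIdem (sigProd N Q₀ ε) pr a = 0)
    (y : tH1 (gamChar (sigProd L Q₀ ε)) R) (hy : facIdem (sigProd L Q₀ ε) pr a y = y) :
    ((kap Q₀ ε v : R) • (natHecke (sigProd L Q₀ ε) v).app R)
      (((kap Q₀ ε v : R) • (natHecke (sigProd L Q₀ ε) v).app R) y) = y := by
  subst hL
  have : NeZero v := ⟨hv.out.ne_zero⟩
  have h : v.Coprime N := hv.out.coprime_iff_not_dvd.mpr hvN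
  revert y
  rw [← chiUp_sigProd Q₀ ε hQ]
  intro y hy
  exact sq_eq_of_facIdem_eq_zero (sigProd N Q₀ ε) hp hpv a hvN h
    (by rw [sigProd_unitOfCoprime ε hQ h, ← Units.val_mul, sq]) h0 y hy

end transport

variable (O : Type) [CommRing O] [IsDomain O] [IsDiscreteValuationRing O]
  [IsAdicComplete (maximalIdeal O) O] [Finite (ResidueField O)] [CharZero O]
  (k m : ℕ) (L₀ : ℕ) [NeZero L₀] (q : Fin k → ℕ) (E : WeierstrassCurve ℤ) (ω : O)

open Classical in
/-- The polynomial killing, at the level, what comes from the factor at `L`. -/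
def topPolyAt (L : ℕ) [NeZero (twLev k L q)] (v : ℕ) : Polynomial (DiaRing O k m) :=
  if h : Module.Free (DiaRing O k m) (twMod O k m L₀ q E L ω) ∧
      Module.Finite (DiaRing O k m) (twMod O k m L₀ q E L ω) then
    haveI := h.1
    haveI := h.2
    oldPoly (twOp O k m L₀ q E L ω v) (v : DiaRing O k m)
      (((twKap O k m q v ^ 2)⁻¹ : (DiaRing O k m)ˣ) : DiaRing O k m)
      (twKap O k m q v : DiaRing O k m)
  else 1

/-- The polynomial killing what is old at `v`. -/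
def topPoly (v : ℕ) : Polynomial (DiaRing O k m) :=
  if h : twLev k (L₀ / v) q ≠ 0 then
    (haveI : NeZero (twLev k (L₀ / v) q) := ⟨h⟩; topPolyAt O k m L₀ q E ω (L₀ / v) v)
  else 1

variable [NeZero (twLev k L₀ q)]

/-- The operator killing what is old at some prime of `Q`. -/
def twZ (Q : Finset ℕ) : twH O k m L₀ q E L₀ ω :=
  letI := twHCommRing O k m L₀ q E L₀ ω
  ∏ v ∈ Q, Polynomial.aeval (twGen O k m L₀ q E L₀ ω v) (topPoly O k m L₀ q E ω v)

variable {v L : ℕ} [NeZero L] [NeZero (twLev k L q)] (hv : v.Prime) (hL₀ : L₀ = L * v)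
  (hvL : ¬ v ∣ L) (hqp : ∀ i, (q i).Prime) (hvq : ∀ i, q i ≠ v)

theorem topPoly_eq (hv : v.Prime) (hL₀ : L₀ = L * v) :
    topPoly O k m L₀ q E ω v = topPolyAt O k m L₀ q E ω L v := by
  have e : L₀ / v = L := by rw [hL₀, Nat.mul_div_cancel _ hv.pos]
  subst e
  rw [topPoly, dif_pos (NeZero.ne _)]

omit [IsDomain O] [IsDiscreteValuationRing O] [IsAdicComplete (maximalIdeal O) O]
  [Finite (ResidueField O)] [CharZero O] in
theorem twKap_sq_inv_aug (r : ℕ) :
    algebraMap (DiaRing O k m) O (((twKap O k m q r ^ 2)⁻¹ : (DiaRing O k m)ˣ) : DiaRing O k m) =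
      1 := by
  have h := aug_kap O k m q r
  have e : algebraMap (DiaRing O k m) O ((twKap O k m q r ^ 2 : (DiaRing O k m)ˣ) : DiaRing O k m) =
      1 := by rw [Units.val_pow_eq_pow_val, map_pow, h, one_pow]
  have h3 := congrArg (algebraMap (DiaRing O k m) O) (Units.mul_inv (twKap O k m q r ^ 2))
  rwa [map_mul, e, one_mul, map_one] at h3

include hL₀ hvL hqp hvq hv in
theorem not_dvd_lowLev : ¬ v ∣ twLev k L q := fun h => by
  rcases hv.dvd_mul.mp h with h | h
  · exact hvL h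
  · obtain ⟨i, -, hi⟩ := (hv.prime.dvd_finsetProd_iff _).mp h
    exact hvq i ((Nat.prime_dvd_prime_iff_eq hv (hqp i)).mp hi).symm

omit [NeZero L] in
theorem goodIdx_ne (hL₀ : L₀ = L * v) (s : GoodIdx L₀) : (s : ℕ) ≠ v := fun h =>
  s.2.2 (h ▸ (hL₀ ▸ (dvd_mul_left v L)).mul_left 2)

theorem coe_twGamEquiv_twN {r : ℕ} (hr : r.Prime) (x : twMod O k m L₀ q E L₀ ω) :
    (twGamEquiv O k m L₀ q E L₀ ω (twN O k m L₀ q E L₀ ω r x) :
        tH1 (gamChar (twChar O k m L₀ q)) (DiaRing O k m)) =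
      ((twKap O k m q r : DiaRing O k m) • (natHecke (twChar O k m L₀ q) r).app (DiaRing O k m))
        (twGamEquiv O k m L₀ q E L₀ ω x) := by
  rw [twN, LinearMap.smul_apply, map_smul, Submodule.coe_smul,
    twGamEquiv_twOp O k m L₀ q E L₀ ω hr]
  rfl

theorem facIdem_twGamEquiv (h2 : (2 : O) ∈ maximalIdeal O) (x : twMod O k m L₀ q E L₀ ω) :
    facIdem (twChar O k m L₀ q) (fun l : GoodIdx L₀ => (l : ℕ)) (topVal O k m L₀ q E ω)
        (twGamEquiv O k m L₀ q E L₀ ω x).1 = (twGamEquiv O k m L₀ q E L₀ ω x).1 := by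
  have := group_fg_Gamma0 (twLev k L₀ q)
  have := finite_tH1 (χ := gamChar (twChar O k m L₀ q)) (DiaRing O k m)
  obtain ⟨y, hy⟩ := (twGam_eq_range O k m L₀ q E L₀ ω h2).le (twGamEquiv O k m L₀ q E L₀ ω x).2
  rw [← hy]
  exact LinearMap.congr_fun (isIdempotentElem_localIdem
    (commute_opsAt_natHecke (twChar O k m L₀ q) (fun l : GoodIdx L₀ => (l : ℕ))
      fun s => s.2.1) (topVal O k m L₀ q E ω)).eq y

set_option maxHeartbeats 800000 in
include hv hL₀ hvL hqp hvq in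
/-- **`U_v ^ 2 = 1` away from what is old at `v`.** -/
theorem sq_sub_one_mul_topPoly (h2 : (2 : O) ∈ maximalIdeal O) {p : ℕ} (hp : p.Prime) (hpL : p ∣ L)
    (hp4 : p % 4 = 3) (l₀ : GoodIdx L₀) (hl₀ : ¬ (l₀ : ℕ) ∣ twLev k L₀ q)
    (hodd : ¬ (2 : ℤ) ∣ E.apOfModel l₀) :
    Polynomial.aeval (twN O k m L₀ q E L₀ ω v) (topPoly O k m L₀ q E ω v) *
      (twN O k m L₀ q E L₀ ω v * twN O k m L₀ q E L₀ ω v - 1) = 0 := by
  have := Fact.mk hv
  have hlev : twLev k L₀ q = twLev k L q * v := by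
    rw [twLev, twLev, hL₀, mul_right_comm]
  obtain ⟨hfree, hfin⟩ := free_twMod O k m L₀ q E L h2 hp hpL hp4 ω l₀
    (fun h => hl₀ (hlev ▸ h.mul_right v)) hodd
  let e : twMod O k m L₀ q E L ω ≃ₗ[DiaRing O k m]
      LinearMap.range (facIdem (twChar O k m L q) (fun l : GoodIdx L₀ => (l : ℕ))
        (topVal O k m L₀ q E ω)) :=
    (twGamEquiv O k m L₀ q E L ω).trans (LinearEquiv.ofEq _ _ (twGam_eq_range O k m L₀ q E L ω h2))
  have : Module.Free (DiaRing O k m) (LinearMap.range (facIdem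
      (sigProd (twLev k L q) (Finset.univ.image q) (twEps O k m q))
      (fun l : GoodIdx L₀ => (l : ℕ)) (topVal O k m L₀ q E ω))) := Module.Free.of_equiv e
  have : Module.Finite (DiaRing O k m) (LinearMap.range (facIdem
      (sigProd (twLev k L q) (Finset.univ.image q) (twEps O k m q))
      (fun l : GoodIdx L₀ => (l : ℕ)) (topVal O k m L₀ q E ω))) := Module.Finite.equiv e
  have : Module.Free (DiaRing O k m) (LinearMap.range (facIdem (twChar O k m L q)
      (fun l : GoodIdx L₀ => (l : ℕ)) (topVal O k m L₀ q E ω))) := Module.Free.of_equiv e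
  have : Module.Finite (DiaRing O k m) (LinearMap.range (facIdem (twChar O k m L q)
      (fun l : GoodIdx L₀ => (l : ℕ)) (topVal O k m L₀ q E ω))) := Module.Finite.equiv e
  have hpoly : topPolyAt O k m L₀ q E ω L v =
      oldPoly (facOp (twChar O k m L q) (fun l : GoodIdx L₀ => (l : ℕ)) (topVal O k m L₀ q E ω)
        (fun s => s.2.1) v hv) (v : DiaRing O k m)
        (((twKap O k m q v ^ 2)⁻¹ : (DiaRing O k m)ˣ) : DiaRing O k m)
        (twKap O k m q v : DiaRing O k m) := by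
    rw [topPolyAt, dif_pos ⟨hfree, hfin⟩, ← Polynomial.map_id (p := oldPoly (twOp O k m L₀ q E L ω v)
      _ _ _)]
    exact map_oldPoly (RingHom.id _) e.toLinearMap.toAddMonoidHom (fun r x => e.map_smul r x)
      (Module.Free.chooseBasis _ _) ((Module.Free.chooseBasis _ _).map e) (fun i => rfl) _ _
      (fun x => Subtype.ext (twGamEquiv_twOp O k m L₀ q E L ω hv x)) rfl rfl rfl
  refine LinearMap.ext fun x => (twGamEquiv O k m L₀ q E L₀ ω).injective (Subtype.ext ?_)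
  let U := (twKap O k m q v : DiaRing O k m) •
    (natHecke (twChar O k m L₀ q) v).app (DiaRing O k m)
  let f : twMod O k m L₀ q E L₀ ω →ₗ[DiaRing O k m]
      tH1 (gamChar (twChar O k m L₀ q)) (DiaRing O k m) :=
    (twGam O k m L₀ q E L₀ ω).subtype.comp (twGamEquiv O k m L₀ q E L₀ ω).toLinearMap
  have hf : ∀ y, U (f y) = f (twN O k m L₀ q E L₀ ω v y) := fun y =>
    (coe_twGamEquiv_twN O k m L₀ q E ω hv y).symm
  have key := aeval_old_sigProd hlev (not_dvd_lowLev k L₀ q hv hL₀ hvL hqp hvq)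
    (Finset.univ.image q) (twEps O k m q)
    (fun p hp => by
      obtain ⟨i, -, rfl⟩ := Finset.mem_image.mp hp
      exact dvd_twLev k L q i)
    (pr := fun l : GoodIdx L₀ => (l : ℕ)) (fun s => s.2.1) (goodIdx_ne L₀ hL₀)
    (topVal O k m L₀ q E ω) (f x) (facIdem_twGamEquiv O k m L₀ q E ω h2 x)
  rw [LinearMap.zero_apply, map_zero, Submodule.coe_zero, topPoly_eq O k m L₀ q E ω hv hL₀,
    hpoly, Module.End.mul_apply]
  refine Eq.trans ?_ key
  show f _ = Polynomial.aeval U _ (U (U (f x)) - f x)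
  rw [hf, hf, ← map_sub]
  exact (aeval_apply_of_intertwine (twN O k m L₀ q E L₀ ω v) U f (fun y => hf y) _ _).symm

include hv hL₀ hvL hqp hvq in
/-- **`U_v ^ 2 = 1`** where the lower factor vanishes. -/
theorem sq_eq_one_of_twGam_eq_bot (h2 : (2 : O) ∈ maximalIdeal O)
    (hlow : twGam O k m L₀ q E L ω = ⊥) :
    twN O k m L₀ q E L₀ ω v * twN O k m L₀ q E L₀ ω v = 1 := by
  have := Fact.mk hv
  have hlev : twLev k L₀ q = twLev k L q * v := by
    rw [twLev, twLev, hL₀, mul_right_comm]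
  have h0 : facIdem (twChar O k m L q) (fun l : GoodIdx L₀ => (l : ℕ))
      (topVal O k m L₀ q E ω) = 0 := by
    refine LinearMap.range_eq_bot.mp ?_
    rw [twGam_eq_range O k m L₀ q E L ω h2] at hlow
    exact hlow
  refine LinearMap.ext fun x => (twGamEquiv O k m L₀ q E L₀ ω).injective (Subtype.ext ?_)
  rw [Module.End.mul_apply, Module.End.one_apply, coe_twGamEquiv_twN O k m L₀ q E ω hv,
    coe_twGamEquiv_twN O k m L₀ q E ω hv]
  exact sq_old_sigProd hlev (not_dvd_lowLev k L₀ q hv hL₀ hvL hqp hvq)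
    (Finset.univ.image q) (twEps O k m q)
    (fun p hp => by
      obtain ⟨i, -, rfl⟩ := Finset.mem_image.mp hp
      exact dvd_twLev k L q i)
    (pr := fun l : GoodIdx L₀ => (l : ℕ)) (fun s => s.2.1) (goodIdx_ne L₀ hL₀)
    (topVal O k m L₀ q E ω) h0 _ (facIdem_twGamEquiv O k m L₀ q E ω h2 x)

include hv hL₀ hqp hvq in
/-- The polynomial reduces to the one of the bottom module. -/
theorem map_topPoly (hinj : Function.Injective q) (hnd : ∀ i, ¬ q i ∣ 2 * L₀)
    (hoddq : ∀ i, ¬ (2 : ℤ) ∣ E.apOfModel (q i)) (h2 : (2 : O) ∈ maximalIdeal O)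
    (hω : ω * ω + ω + 1 ∈ maximalIdeal O) {p : ℕ} (hp : p.Prime) (hpL : p ∣ L) (hp4 : p % 4 = 3)
    (l₀ : GoodIdx L₀) (hl₀ : ((l₀ : ℕ) : ZMod (twLev k L q)) = 1)
    (hodd : ¬ (2 : ℤ) ∣ E.apOfModel l₀) :
    (topPoly O k m L₀ q E ω v).map (algebraMap (DiaRing O k m) O) =
      bottomPoly O E L₀ v := by
  obtain ⟨hfree, hfin⟩ := free_twMod O k m L₀ q E L h2 hp hpL hp4 ω l₀
    (not_dvd_of_natCast_eq_one l₀.2.1 hl₀) hodd
  obtain ⟨red, hsm, -, -, hop, hbas⟩ := exists_red O k m L₀ q E hinj hqp hnd hoddq h2 hω L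
    ⟨v, hL₀⟩ hp hpL hp4 l₀ hl₀ hodd
  let b := Module.Free.chooseBasis (DiaRing O k m) (twMod O k m L₀ q E L ω)
  obtain ⟨c, hc⟩ := hbas _ b
  have := finite_curvePart O E L₀ L
  have := free_curvePart O E L₀ L
  rw [topPoly_eq O k m L₀ q E ω hv hL₀, topPolyAt, dif_pos ⟨hfree, hfin⟩,
    bottomPoly_eq O E L₀ hv.ne_zero hL₀, oldPolyAt]
  exact map_oldPoly (algebraMap (DiaRing O k m) O) red hsm b c hc _ _ (hop v hv hvq)
    (map_natCast _ v) (twKap_sq_inv_aug O k m q v) (aug_kap O k m q v)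

end FLTA.LT2
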