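import Fermat.Agent.Patching.LimitMap

/-!
# Part G: the levels of the patching argument at `p = 2` and limits of their endomorphisms

At each level a free module over `S ⧸ J m`, an action of the Galois side ring `P₀` and one
endomorphism `e m` commuting with it, which kills every system without the wanted signs.
-/

set_option autoImplicit false

noncomputable section

namespace FLTA.LT2.PatchAlg

open IsLocalRing FLTA.Patching FLTA.Patching.LevelSystem

/-- The levels of the patching argument at `p = 2`. -/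
structure PatchInput (S : Type) [CommRing S] [IsLocalRing S] (P₀ : Type) [CommRing P₀]
    (k d : ℕ) : Type 1 where
  /-- the diamond variables `δ - 1` -/
  y : Fin k → S
  J : ℕ → Ideal S
  J_le : ∀ m, J m ≤ maximalIdeal S ^ m
  N : ℕ → Type
  [instAddCommGroup : ∀ m, AddCommGroup (N m)]
  [instModule : ∀ m, Module (S ⧸ J m) (N m)]
  basis : ∀ m, Module.Basis (Fin d) (S ⧸ J m) (N m)
  act : ∀ m, P₀ →+* Module.End (S ⧸ J m) (N m)
  /-- the operator which cuts out the wanted signs -/
  e : ∀ m, Module.End (S ⧸ J m) (N m)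
  e_comm : ∀ m f, Commute (act m f) (e m)
  /-- the operators `T_ℓ - a_ℓ` of the level -/
  ops : ∀ m, Set (Module.End (S ⧸ J m) (N m))

attribute [instance] PatchInput.instAddCommGroup PatchInput.instModule

namespace PatchInput

variable {S : Type} [CommRing S] [IsLocalRing S] {P₀ : Type} [CommRing P₀]
  {k d : ℕ} (X : PatchInput S P₀ k d)

/-- The diamond ideal at a level. -/
def diamond (m : ℕ) : Ideal (S ⧸ X.J m) :=
  (Ideal.span (Set.range X.y)).map (Ideal.Quotient.mk (X.J m))

/-- What a point must kill: the diamonds and the images of the operators. -/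
def killed (m : ℕ) : Submodule (S ⧸ X.J m) (X.N m) :=
  X.diamond m • ⊤ ⊔ ⨆ op : X.ops m, LinearMap.range (op : Module.End (S ⧸ X.J m) (X.N m))

/-- The level system. -/
def levels : LevelSystem S P₀ d :=
  LevelSystem.ofModules X.J X.J_le X.N X.basis X.act

/-- Reduction of the level coefficients. -/
def red {m K : ℕ} (h : K ≤ m) : S ⧸ X.J m →+* S ⧸ maximalIdeal S ^ K :=
  Ideal.Quotient.factor ((X.J_le m).trans (Ideal.pow_le_pow_right h))

/-- Endomorphisms of a level as matrices over a residue ring of `S`. -/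
def redEnd {m K : ℕ} (h : K ≤ m) :
    Module.End (S ⧸ X.J m) (X.N m) →+* Matrix (Fin d) (Fin d) (S ⧸ maximalIdeal S ^ K) :=
  (X.red h).mapMatrix.comp (LinearMap.toMatrixAlgEquiv (X.basis m)).toRingEquiv.toRingHom

/-- Matrices over `S` modulo a power of the maximal ideal. -/
def mkM (K : ℕ) :
    Matrix (Fin d) (Fin d) S →+* Matrix (Fin d) (Fin d) (S ⧸ maximalIdeal S ^ K) :=
  (Ideal.Quotient.mk (maximalIdeal S ^ K)).mapMatrix

/-- Coordinates of a level vector modulo a power of the maximal ideal. -/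
def redVec {m K : ℕ} (h : K ≤ m) (z : X.N m) : Fin d → S ⧸ maximalIdeal S ^ K :=
  fun i => X.red h ((X.basis m).repr z i)

theorem redVec_add {m K : ℕ} (h : K ≤ m) (z z' : X.N m) :
    X.redVec h (z + z') = X.redVec h z + X.redVec h z' := by
  funext i
  simp [redVec]

theorem redVec_zero {m K : ℕ} (h : K ≤ m) : X.redVec h 0 = 0 := by
  funext i
  simp [redVec]

theorem redVec_smul {m K : ℕ} (h : K ≤ m) (a : S ⧸ X.J m) (z : X.N m) :
    X.redVec h (a • z) = X.red h a • X.redVec h z := by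
  funext i
  simp [redVec]

theorem redVec_apply {m K : ℕ} (h : K ≤ m) (φ : Module.End (S ⧸ X.J m) (X.N m)) (z : X.N m) :
    X.redVec h (φ z) = (X.redEnd h φ).mulVec (X.redVec h z) := by
  funext i
  have := congrFun (LinearMap.toMatrix_mulVec_repr (X.basis m) (X.basis m) φ z) i
  show X.red h ((X.basis m).repr (φ z) i) = _
  rw [← this]
  simp [Matrix.mulVec, dotProduct, map_sum, redEnd, redVec, LinearMap.toMatrixAlgEquiv]

theorem redEnd_algebraMap {m K : ℕ} (h : K ≤ m) (a : S) :
    X.redEnd h (algebraMap (S ⧸ X.J m) _ (Ideal.Quotient.mk (X.J m) a)) =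
      mkM K (Matrix.scalar (Fin d) a) := by
  show (X.red h).mapMatrix (LinearMap.toMatrixAlgEquiv (X.basis m) (algebraMap _ _ _)) = _
  rw [AlgEquiv.commutes]
  ext i j
  by_cases hij : i = j
  · subst hij
    simp [red, mkM, Matrix.algebraMap_matrix_apply]
  · simp [red, mkM, Matrix.algebraMap_matrix_apply, hij]

variable [IsAdicComplete (maximalIdeal S) S] (hfin : ∀ N, Finite (S ⧸ maximalIdeal S ^ N))

/-- The limit of a family of endomorphisms. -/
def lim (φ : ∀ m, Module.End (S ⧸ X.J m) (X.N m)) : Matrix (Fin d) (Fin d) S :=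
  limMatrix hfin fun m => LinearMap.toMatrixAlgEquiv (X.basis m) (φ m)

omit [IsAdicComplete (maximalIdeal S) S] in
theorem mkM_eq_iff {A B : Matrix (Fin d) (Fin d) S} {K : ℕ} :
    mkM K A = mkM K B ↔ ∀ i j, A i j - B i j ∈ maximalIdeal S ^ K := by
  rw [← Matrix.ext_iff]
  exact forall_congr' fun i => forall_congr' fun j => Ideal.Quotient.eq

theorem eq_of_mkM {A B : Matrix (Fin d) (Fin d) S} (h : ∀ K, mkM K A = mkM K B) : A = B :=
  Matrix.ext fun i j => eq_of_forall_sub_mem_pow fun K => mkM_eq_iff.mp (h K) i j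

theorem lim_spec (φ : ∀ m, Module.End (S ⧸ X.J m) (X.N m)) (K : ℕ) :
    ∀ᶠ m in (patchFilter : Filter ℕ), ∃ h : K ≤ m, X.redEnd h (φ m) = mkM K (X.lim hfin φ) := by
  refine (limMatrix_spec hfin X.J_le (fun m => LinearMap.toMatrixAlgEquiv (X.basis m) (φ m)) K).mono
    fun m hm => ⟨hm.1, ?_⟩
  ext i j
  obtain ⟨x, hx⟩ := Ideal.Quotient.mk_surjective (LinearMap.toMatrixAlgEquiv (X.basis m) (φ m) i j)
  show X.red hm.1 (LinearMap.toMatrixAlgEquiv (X.basis m) (φ m) i j) = Ideal.Quotient.mk _ _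
  rw [← hx]
  exact Ideal.Quotient.eq.mpr (hm.2 i j x hx)

theorem lim_act (f : P₀) : X.lim hfin (fun m => X.act m f) = X.levels.patch hfin f :=
  limMatrix_rep hfin X.levels f

theorem patch_spec (f : P₀) (K : ℕ) : ∀ᶠ m in (patchFilter : Filter ℕ),
    ∃ h : K ≤ m, X.redEnd h (X.act m f) = mkM K (X.levels.patch hfin f) := by
  rw [← X.lim_act hfin]
  exact X.lim_spec hfin _ K

variable [IsLocalRing P₀] [IsAdicComplete (maximalIdeal P₀) P₀]
  (hfinP : ∀ N, Finite (P₀ ⧸ maximalIdeal P₀ ^ N))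

include hfinP in
/-- Elements varying with the level have a limit with the limit action. -/
theorem exists_limP (f : ℕ → P₀) : ∃ F, ∀ K, ∀ᶠ m in (patchFilter : Filter ℕ),
    f m - F ∈ maximalIdeal P₀ ^ K ∧
      ∃ h : K ≤ m, X.redEnd h (X.act m (f m)) = mkM K (X.levels.patch hfin F) := by
  obtain ⟨F, hF⟩ := exists_limit hfinP f
  refine ⟨F, fun K => ?_⟩
  obtain ⟨K', hK'⟩ := X.levels.exists_pow_rep_mem hfin K
  refine (((X.patch_spec hfin F K).and (hF K')).and (hF K)).mono
    fun m ⟨⟨⟨hm, h⟩, hd'⟩, hd⟩ => ⟨hd, hm, ?_⟩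
  rw [← h]
  refine sub_eq_zero.mp ?_
  rw [← map_sub, ← map_sub]
  ext i j
  obtain ⟨x, hx⟩ := Ideal.Quotient.mk_surjective
    (LinearMap.toMatrixAlgEquiv (X.basis m) (X.act m (f m - F)) i j)
  show X.red hm (LinearMap.toMatrixAlgEquiv (X.basis m) (X.act m (f m - F)) i j) = 0
  rw [← hx]
  exact Ideal.Quotient.eq_zero_iff_mem.mpr (hK' m hm _ hd' i j x hx)

end PatchInput

end FLTA.LT2.PatchAlg
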