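import Fermat.Agent.LT2.PatchedTangentStClass
import Fermat.Agent.LT2.Local2Frame

/-!
# Part G, tangent side: a tangent vector is a scalar class

A component of a tangent vector is, up to a coboundary, a character times the identity, with the
conditions of `ScalarCond` shifted at the bad primes by the unramified characters.
-/

set_option autoImplicit false

open scoped Matrix

noncomputable section

namespace FLTA.LT2.Tangent

open FLTA.TaylorWiles.Flat (M2 IsAdCoc cobd inerG exists_tame)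
open FLTA.PT (GQ Qb Gl lvlLoc loc)

attribute [local instance] FLTA.PT.factPrime

variable {E : WeierstrassCurve ℤ} (hE : Companion E)

theorem sgn_pow_order_three {A : M2 (ZMod 2)} (hA : A * A + A + 1 = 0) (hd : A.det = 1) (j : ℕ) :
    TW.sgn (A ^ j) = 0 := by
  have key : ∀ A : M2 (ZMod 2), A * A + A + 1 = 0 → TW.sgn A = 0 := by decide
  induction j with
  | zero => rw [pow_zero]; exact TW.sgn_one
  | succ j ih =>
    rw [pow_succ, show TW.sgn (A ^ j * A) = TW.sgn (A ^ j) + TW.sgn A from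
      TW.sgn_mul (A ^ j) A ((Matrix.det_pow A j).trans (by rw [hd, one_pow])) hd, ih,
      key A hA, add_zero]

theorem res2_loc : Res2 ((mat hE).comp (loc twoP)) :=
  res2_of_intertwine hE (coord hE) _ fun _ P => coord_smul hE _ P

/-- The sign of `E[2]` is unramified at every good prime. -/
theorem sgnChar_unram {ℓ : ℕ} (hℓ : ℓ.Prime) (hgood : ¬ (ℓ : ℤ) ∣ E.Δ) :
    CharUnramAt ℓ (TW.sgnChar hE) := by
  rcases eq_or_ne ℓ 2 with rfl | hℓ2
  · have hP := FLTA.PT.primeLocalPlace_liesOverPrime twoP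
    obtain ⟨T, hT⟩ := exists_tame (q := twoP) (e := 3) (show ¬ 2 ∣ 3 by omega)
      (show 2 - 1 ∣ 3 from one_dvd 3)
    obtain ⟨R⟩ := exists_frame (res2_loc hE) T hT
    refine (TW.sgnChar_isChar hE).charUnramAt_of_one Nat.prime_two hP fun σ hσ => ?_
    obtain ⟨t, ht, rfl⟩ := FLTA.TW.exists_inertiaG_eq twoP hσ
    obtain ⟨j, -, y, hy, rfl⟩ :=
      T.exists_pow_mul_mem_H R.hs R.hξ R.hsπ (mem_inerG_of_mem_inertiaG ht)
    show TW.sgn (((mat hE).comp (loc twoP)) (R.s ^ j * y)) = 0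
    rw [map_mul, R.hH y hy, mul_one, map_pow]
    exact sgn_pow_order_three R.hA (mat_det hE _) j
  · intro A hA σ hσ
    show TW.sgn (mat hE σ) = 0
    rw [mat_eq_one_of_inertia hE hℓ hℓ2 hgood hA hσ]
    exact TW.sgn_one

theorem sgn_eq_of_fixed : ∀ A : M2 (ZMod 2), A.det = 1 → ∀ v : V2, v ≠ 0 → A *ᵥ v = v →
    (if A = 1 then (0 : ZMod 2) else 1) = TW.sgn A := by
  unfold V2
  decide

theorem eq_smul_one_of_stVec : ∀ X : M2 (ZMod 2), X.trace = 0 → stVec X = 0 →
    X = X 0 0 • 1 := by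
  decide

theorem add_add_cancel_two (a b : M2 (ZMod 2)) : a + b + b = a := by
  ext i j
  simp [add_assoc, CharTwo.add_self_eq_zero]

variable {hE} {Q Qt : Finset ℕ} {f : ℕ → ZMod 2} {z : GQ → M2 (ZMod 2)}

namespace IsClass

/-- A tangent vector is a character times the identity up to a coboundary. -/
theorem exists_decomp (h : IsClass hE Q Qt f z) {n m : ℕ} (hQ : ∀ q ∈ Q, ConjPrime E n q)
    (hQt : ∀ q ∈ Qt, TWPrime E m q) (hkill : StKilled E Q) :
    ∃ (X : M2 (ZMod 2)) (ψ : GQ → ZMod 2), X.trace = 0 ∧ IsCharTwo ψ ∧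
      ∀ σ, z σ = ψ σ • (1 : M2 (ZMod 2)) + (mat hE σ * X * mat hE σ⁻¹ - X) := by
  obtain ⟨w, hw⟩ := h.exists_stVec_eq hQ hQt hkill
  set X : M2 (ZMod 2) := !![0, w 0; w 1, 0] with hXdef
  have hX : X.trace = 0 := by simp [X, Matrix.trace_fin_two]
  have hXv : stVec X = w := by ext i; fin_cases i <;> simp [X, stVec]
  let z' : GQ → M2 (ZMod 2) := fun σ => z σ + (mat hE σ * X * mat hE σ⁻¹ - X)
  have hinv : ∀ σ, mat hE σ * mat hE σ⁻¹ = 1 := fun σ => by
    rw [← map_mul, mul_inv_cancel, map_one]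
  have hz' : ∀ σ, z' σ = z' σ 0 0 • 1 := fun σ => by
    refine eq_smul_one_of_stVec _ ?_ ?_
    · simp only [z', Matrix.trace_add, Matrix.trace_sub, h.trace, hX, sub_zero, zero_add]
      rw [Matrix.trace_mul_cycle, ← map_mul, inv_mul_cancel, map_one, one_mul, hX]
    · have e : stVec (mat hE σ * X * mat hE σ⁻¹ - X) = mat hE σ *ᵥ w - w := by
        rw [sub_eq_add_neg, show -X = X from funext fun _ => funext fun _ =>
            ZMod.neg_eq_self_mod_two _, stVec_add, stVec_conj _ hX (hinv σ), hXv,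
          sub_eq_add_neg, show -w = w from funext fun _ => ZMod.neg_eq_self_mod_two _]
      simp only [z', stVec_add, e, hw]
      ext i
      exact CharTwo.add_self_eq_zero (R := ZMod 2) _
  refine ⟨X, fun σ => z' σ 0 0, hX, ⟨fun σ τ => ?_, ?_⟩, fun σ => ?_⟩
  · have e : z' (σ * τ) = mat hE σ * z' τ * mat hE σ⁻¹ + z' σ := by
      simp only [z', h.coc, mul_inv_rev, map_mul, mul_add, add_mul, mul_sub, sub_mul, mul_assoc]
      abel
    rw [hz' τ, mul_smul_comm, smul_mul_assoc, mul_one, hinv] at e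
    show z' (σ * τ) 0 0 = z' σ 0 0 + z' τ 0 0
    rw [e, Matrix.add_apply, Matrix.smul_apply, Matrix.one_apply_eq, smul_eq_mul, mul_one,
      add_comm]
  · obtain ⟨K, hK, hker⟩ := h.level
    obtain ⟨L, hL, hL1⟩ := Image.rep_finiteLevel hE.Δ_ne_zero 1
    have : FiniteDimensional ℚ ↥(K ⊔ L) := IntermediateField.finiteDimensional_sup K L
    refine ⟨K ⊔ L, this, fun σ hσ => ?_⟩
    rw [IntermediateField.fixingSubgroup_sup, Subgroup.mem_inf] at hσ
    have h1 : mat hE σ = 1 := hL1 σ ((IntermediateField.mem_fixingSubgroup_iff _ _).1 hσ.2)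
    have h2 : mat hE σ⁻¹ = 1 :=
      hL1 σ⁻¹ ((IntermediateField.mem_fixingSubgroup_iff _ _).1 (inv_mem hσ.2))
    show z' σ 0 0 = 0
    simp only [z', hker σ hσ.1, h1, h2, one_mul, mul_one, sub_self, add_zero, Matrix.zero_apply]
  · show z σ = z' σ 0 0 • (1 : M2 (ZMod 2)) + _
    rw [← hz' σ]
    exact (add_add_cancel_two _ _).symm

/-- **A component of a tangent vector**: the trace is that of a scalar class. -/
theorem exists_scalar (h : IsClass hE Q Qt f z) {n m : ℕ} (hQ : ∀ q ∈ Q, ConjPrime E n q)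
    (hQt : ∀ q ∈ Qt, TWPrime E m q) (hkill : StKilled E Q) :
    ∃ ψ : GQ → ZMod 2, IsCharTwo ψ ∧
      (∀ σ, (z σ * mat hE σ).trace = ψ σ * (mat hE σ).trace) ∧
      (∀ ℓ : ℕ, ℓ.Prime → ¬ (ℓ : ℤ) ∣ E.Δ → ℓ ∉ Qt → CharUnramAt ℓ ψ) ∧
      ∀ q : Nat.Primes, (q : ℕ) ∈ badPrimes E → ∃ (x : ZMod 2) (u : Gl q → ZMod 2),
        IsUnrChar u ∧ ∀ g, ψ (loc q g) = x * TW.sgnChar hE (loc q g) + f q * u g := by
  obtain ⟨X, ψ, hX, hψ, hz⟩ := h.exists_decomp hQ hQt hkill
  -- a fixed line makes the scalar part proportional to the sign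
  have hline : ∀ (q : Nat.Primes) (c : Gl q → ZMod 2),
      LineFixed ((mat hE).comp (loc q))
        (fun g => z (loc q g) + c g • (1 : M2 (ZMod 2))) →
      ∃ x : ZMod 2, ∀ g, ψ (loc q g) = x * TW.sgnChar hE (loc q g) + c g := by
    intro q c hl
    have e : (fun g => z (loc q g) + c g • (1 : M2 (ZMod 2))) + cobd ((mat hE).comp (loc q)) X =
        fun g => (ψ (loc q g) + c g) • (1 : M2 (ZMod 2)) := funext fun g => by
      simp only [Pi.add_apply, cobd, MonoidHom.comp_apply, map_inv, hz, add_smul]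
      rw [add_right_comm, add_add_cancel_two]
    have h1 := hl.add_cobd X
    rw [e] at h1
    obtain ⟨v, w, hv, hfix⟩ := id h1
    rcases h1.scalar with h2 | h2
    · exact ⟨0, fun g => by
        rw [zero_mul, zero_add]
        exact (by decide : ∀ a b : ZMod 2, a + b = 0 → a = b) _ _ (h2 g)⟩
    · refine ⟨1, fun g => ?_⟩
      have h3 : chiM ((mat hE).comp (loc q)) g = TW.sgnChar hE (loc q g) := by
        rw [chiM]
        exact (sgn_eq_of_fixed _ (mat_det hE (loc q g)) v hv (hfix g).1 : _)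
      rw [one_mul, ← h3]
      exact (by decide : ∀ a b c : ZMod 2, a + b = c → a = c + b) _ _ _ (h2 g)
  refine ⟨ψ, hψ, fun σ => ?_, fun ℓ hℓ hgood hℓt => ?_, fun q hq => ?_⟩
  · have h1 : mat hE σ⁻¹ * mat hE σ = 1 := by rw [← map_mul, inv_mul_cancel, map_one]
    rw [hz, add_mul, sub_mul, mul_assoc _ _ (mat hE σ), h1, mul_one, smul_mul_assoc, one_mul,
      Matrix.trace_add, Matrix.trace_sub, Matrix.trace_smul, Matrix.trace_mul_comm X, sub_self,
      add_zero, smul_eq_mul]
  · set q : Nat.Primes := ⟨ℓ, hℓ⟩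
    have hP := FLTA.PT.primeLocalPlace_liesOverPrime q
    by_cases hℓQ : ℓ ∈ Q
    · obtain ⟨x, hx⟩ := hline q (fun _ => 0) (by simpa using h.aux q hℓQ)
      refine hψ.charUnramAt_of_one hℓ hP fun σ hσ => ?_
      obtain ⟨t, -, rfl⟩ := FLTA.TW.exists_inertiaG_eq q hσ
      rw [hx t, sgnChar_unram hE hℓ hgood _ hP _ hσ, mul_zero, add_zero]
    rcases eq_or_ne ℓ 2 with rfl | hℓ2
    · -- at `2`
      obtain ⟨w, hw⟩ := h.exists_stVec_eq hQ hQt hkill
      obtain ⟨Y, hY, hYz⟩ := h.two ⟨w, fun g => hw (loc twoP g)⟩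
      obtain ⟨s, hs, hA⟩ := (res2_loc hE).order_three
      set M₂ := (mat hE).comp (loc twoP)
      have hkey : ∀ g ∈ inerG twoP,
          ψ (loc twoP g) • (1 : M2 (ZMod 2)) + (M₂ g * (X + Y) * M₂ g⁻¹ - (X + Y)) = 0 := by
        intro g hg
        have h1 := hYz g hg
        simp only [Pi.add_apply, cobd, hz] at h1
        rw [← h1]
        simp only [M₂, MonoidHom.comp_apply, map_inv, mul_add, add_mul]
        abel
      have hS : stVec (X + Y) = 0 := by
        have hfree : ∀ A : M2 (ZMod 2), A * A + A + 1 = 0 → ∀ y : V2, A *ᵥ y = y → y = 0 := by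
          unfold V2; decide
        refine hfree _ hA _ ?_
        have h1 := congrArg stVec (hkey s hs)
        rw [stVec_zero, sub_eq_add_neg, show -(X + Y) = X + Y from funext fun _ => funext fun _ =>
            ZMod.neg_eq_self_mod_two _, stVec_add, stVec_add,
          stVec_conj _ (by rw [Matrix.trace_add, hX, hY, add_zero])
            (FLTA.TaylorWiles.Flat.M_mul_inv s)] at h1
        have h2 : stVec (ψ (loc twoP s) • (1 : M2 (ZMod 2))) = 0 := by
          simpa using stVec_add_scalar 0 (ψ (loc twoP s))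
        rw [h2, zero_add] at h1
        exact (by decide : ∀ a b : V2, a + b = 0 → a = b) _ _ h1
      have hXY := eq_smul_one_of_stVec (X + Y) (by rw [Matrix.trace_add, hX, hY, add_zero]) hS
      refine hψ.charUnramAt_of_one hℓ hP fun σ hσ => ?_
      obtain ⟨t, ht, rfl⟩ := FLTA.TW.exists_inertiaG_eq twoP hσ
      have h1 := hkey t (mem_inerG_of_mem_inertiaG ht)
      rw [hXY, mul_smul_comm, mul_one, smul_mul_assoc, FLTA.TaylorWiles.Flat.M_mul_inv, sub_self,
        add_zero] at h1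
      simpa using congrFun (congrFun h1 0) 0
    · intro A hA σ hσ
      have h1 := hz σ
      rw [h.unram ℓ hℓ hℓ2 hgood hℓQ hℓt A hA σ hσ, mat_eq_one_of_inertia hE hℓ hℓ2 hgood hA hσ,
        mat_eq_one_of_inertia hE hℓ hℓ2 hgood hA (inv_mem hσ), one_mul, mul_one, sub_self,
        add_zero] at h1
      simpa using (congrFun (congrFun h1 0) 0).symm
  · obtain ⟨u, hu, hl⟩ := h.bad q hq
    obtain ⟨x, hx⟩ := hline q _ hl
    exact ⟨x, u, hu, hx⟩

end IsClass

end FLTA.LT2.Tangent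

end
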