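import Fermat.Agent.LT2.PrimesScalarExists
import Fermat.Agent.LT2.LocalTransfer
import Fermat.Agent.LT2.LocalLine

/-!
# Part G, tangent side: vocabulary

A component over `𝔽₂` of a first order deformation `(1 + ε z) M` of `E[2]` satisfying the
conditions of the deformation problems of part G, whatever the signs.
-/

set_option autoImplicit false

open scoped Matrix
open WeierstrassCurve WeierstrassCurve.Affine.Point

noncomputable section

namespace FLTA.LT2.Tangent

open FLTA.TaylorWiles.Flat (M2 cobd inerG)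
open FLTA.PT (GQ Qb Gl loc)

variable {E : WeierstrassCurve ℤ} (hE : Companion E)

/-- The matrices of `E[2]`. -/
def mat : GQ →* M2 (ZMod 2) := TW.rho hE

/-- Coordinates on `E[2]`. -/
def coord : Tors2 E ≃+ V2 where
  toFun P := Image.torsEquiv hE.Δ_ne_zero 1 ⟨P.1, P.2⟩
  invFun v := ⟨((Image.torsEquiv hE.Δ_ne_zero 1).symm v).1,
    ((Image.torsEquiv hE.Δ_ne_zero 1).symm v).2⟩
  left_inv P := Subtype.ext
    (congrArg Subtype.val ((Image.torsEquiv hE.Δ_ne_zero 1).symm_apply_apply ⟨P.1, P.2⟩))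
  right_inv v := (Image.torsEquiv hE.Δ_ne_zero 1).apply_symm_apply v
  map_add' P Q := map_add (Image.torsEquiv hE.Δ_ne_zero 1) ⟨P.1, P.2⟩ ⟨Q.1, Q.2⟩

theorem coord_smul (σ : GQ) (P : Tors2 E) : coord hE (σ • P) = mat hE σ *ᵥ coord hE P :=
  Image.torsEquiv_smul hE.Δ_ne_zero 1 σ ⟨P.1, P.2⟩

/-- The unramified character of order two of a local group. -/
structure IsUnrChar {q : Nat.Primes} (u : Gl q → ZMod 2) : Prop extends IsChar2 u where
  inertia : ∀ s ∈ inerG q, u s = 0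
  frobenius : ∀ F, (ExtCitation.primeLocalPlace q).IsFrobeniusAt (loc q F) (q : ℕ) → u F = 1

/-- The local conditions on an `𝔽₂`-component of a tangent vector, for the auxiliary sets `Q` of
conjugation primes and `Qt` of Taylor–Wiles primes, the sign at a bad prime `j` moved by
`1 + ε f j`. -/
structure IsClass (Q Qt : Finset ℕ) (f : ℕ → ZMod 2) (z : GQ → M2 (ZMod 2)) : Prop where
  trace : ∀ g, (z g).trace = 0
  coc : ∀ g h, z (g * h) = mat hE g * z h * mat hE g⁻¹ + z g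
  level : ∃ K : IntermediateField ℚ Qb, FiniteDimensional ℚ K ∧
    ∀ σ ∈ K.fixingSubgroup, z σ = 0
  unram : ∀ ℓ : ℕ, ℓ.Prime → ℓ ≠ 2 → ¬ (ℓ : ℤ) ∣ E.Δ → ℓ ∉ Q → ℓ ∉ Qt →
    ∀ A : ValuationSubring Qb, A.LiesOverPrime ℓ → ∀ σ ∈ A.inertiaSubgroupIn ℚ, z σ = 0
  bad : ∀ q : Nat.Primes, (q : ℕ) ∈ badPrimes E → ∃ u : Gl q → ZMod 2, IsUnrChar u ∧
    LineFixed ((mat hE).comp (loc q)) fun g => z (loc q g) + (f q * u g) • 1
  aux : ∀ q : Nat.Primes, (q : ℕ) ∈ Q → LineFixed ((mat hE).comp (loc q)) fun g => z (loc q g)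
  low : Low fun g => stVec (z (loc twoP g))
  two : (VecTrivial ((mat hE).comp (loc twoP)) fun g => stVec (z (loc twoP g))) →
    ∃ X : M2 (ZMod 2), X.trace = 0 ∧ ∀ g ∈ inerG twoP,
      ((fun g => z (loc twoP g)) + cobd ((mat hE).comp (loc twoP)) X) g = 0

end FLTA.LT2.Tangent

end
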