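import Fermat.Agent.LT2.PatchedTangentDefs
import Fermat.Agent.TaylorWiles.FlatLocalModel
import Fermat.Agent.LT2.LocalResidual
import Mathlib.NumberTheory.LSeries.PrimesInAP

/-!
# Part G, tangent side: local groups inside the global one

`inerG` maps into global inertia, Frobenius elements of the place lift to the local group, and the
unramified character of order two of a local group is the restriction of a quadratic character.
-/

set_option autoImplicit false

open scoped Matrix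

noncomputable section

namespace FLTA.LT2.Tangent

open FLTA.TaylorWiles.Flat (M2 inerG Tame exists_frobenius_mul_inerG)
open FLTA.PT (GQ Qb Gl lvlLoc locAut iota iota_loc loc)

attribute [local instance] FLTA.PT.factPrime

theorem loc_mem_inertia {q : Nat.Primes} {s : Gl q} (hs : s ∈ inerG q) :
    loc q s ∈ (ExtCitation.primeLocalPlace q).inertiaSubgroupIn ℚ := by
  refine FLTA.Galois.mem_inertiaSubgroupIn_iff_integral.mpr fun x hx => ?_
  have h1 : ‖iota q x‖₊ ≤ 1 := FLTA.TaylorWiles.Flat.nnnorm_iota_le_one q hx.tower_top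
  have h2 : ‖iota q (loc q s x - x)‖₊ < 1 := by
    rw [map_sub, iota_loc]
    exact FLTA.TaylorWiles.Flat.nnnorm_inerG_sub_lt hs h1
  rw [ValuationSubring.mem_nonunits_iff_or, FLTA.PT.mem_primeLocalPlace_iff]
  rcases eq_or_ne (loc q s x - x) 0 with h0 | h0
  · exact Or.inl h0
  · refine Or.inr fun hle => ?_
    have h3 : ‖iota q (loc q s x - x)⁻¹‖₊ ≤ 1 := hle
    have h4 : 0 < ‖iota q (loc q s x - x)‖₊ :=
      pos_iff_ne_zero.2 (nnnorm_ne_zero_iff.2 ((map_ne_zero (iota q)).2 h0))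
    rw [map_inv₀, nnnorm_inv] at h3
    exact absurd h2 (not_lt.2 ((inv_le_one_iff₀.1 h3).resolve_left (not_le.2 h4)))

theorem exists_frobenius_loc (q : Nat.Primes) :
    ∃ F : Gl q, IsFrobLoc F ∧
      (ExtCitation.primeLocalPlace q).IsFrobeniusAt (loc q F) (q : ℕ) := by
  have hP := FLTA.PT.primeLocalPlace_liesOverPrime q
  obtain ⟨φ, hφ⟩ := FLTA.Galois.exists_isFrobeniusAt q.2 hP
  obtain ⟨F, rfl⟩ := FLTA.TaylorWiles.exists_loc_eq q hφ.mem_decompositionSubgroup
  exact ⟨F, isFrobLoc_of_isFrobeniusAt hφ, hφ⟩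

/-- The restriction of a global character. -/
theorem isChar2_loc {χ : GQ → ZMod 2} (h : IsCharTwo χ) (q : Nat.Primes) :
    IsChar2 fun g : Gl q => χ (loc q g) := by
  refine ⟨fun g g' => by rw [map_mul, h.map_mul], ?_⟩
  obtain ⟨L, hL, hker⟩ := h.open_kernel
  exact ⟨h.toHom.ker.comap (loc q),
    ⟨_, ⟨MonoidHom.normal_ker _, L, hL,
      fun σ hσ => MonoidHom.mem_ker.mpr ((h.toHom_eq_one_iff σ).2 (hker σ hσ))⟩, rfl⟩,
    fun u hu => (h.toHom_eq_one_iff _).1 (MonoidHom.mem_ker.mp hu)⟩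

theorem exists_isUnrChar (q : Nat.Primes) (hq2 : (q : ℕ) ≠ 2) :
    ∃ u : Gl q → ZMod 2, IsUnrChar u := by
  classical
  have hchar : ringChar (ZMod (q : ℕ)) ≠ 2 := by rwa [ZMod.ringChar_zmod_n]
  obtain ⟨b, hb⟩ := FiniteField.exists_nonsquare hchar
  have hb0 : b ≠ 0 := fun h => hb (h ▸ ⟨0, (mul_zero 0).symm⟩)
  have hco : Nat.Coprime 4 (q : ℕ) :=
    Nat.Coprime.pow_left 2 ((Nat.coprime_primes Nat.prime_two q.2).2 (Ne.symm hq2))
  obtain ⟨a, ha4, haq⟩ := Nat.chineseRemainder hco 1 b.val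
  have hacop : a.Coprime (4 * (q : ℕ)) := by
    refine Nat.Coprime.mul_right ?_ ?_
    · exact ha4.gcd_eq.trans (Nat.gcd_one_left 4)
    · refine (Nat.coprime_comm.1 ((q.2.coprime_iff_not_dvd).2 fun hd => hb0 ?_))
      rw [← ZMod.natCast_zmod_val b, ← (ZMod.natCast_eq_natCast_iff _ _ _).2 haq,
        (ZMod.natCast_eq_zero_iff _ _).2 hd]
  obtain ⟨r, hr, hrp, hra⟩ :=
    Nat.forall_exists_prime_gt_and_modEq ((q : ℕ) + 2) (mul_ne_zero (by norm_num) q.2.ne_zero)
      hacop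
  have : Fact r.Prime := ⟨hrp⟩
  have hr4 : r % 4 = 1 := (hra.of_dvd (dvd_mul_right 4 _)).trans ha4
  have hrq : (r : ZMod (q : ℕ)) = b := by
    rw [← ZMod.natCast_zmod_val b, ZMod.natCast_eq_natCast_iff]
    exact (hra.of_dvd (dvd_mul_left _ 4)).trans haq
  have hqr : (q : ℕ) ≠ r := by omega
  have hns : ¬ IsSquare ((q : ℕ) : ZMod r) := by
    rw [ZMod.exists_sq_eq_prime_iff_of_mod_four_eq_one hr4 hq2, hrq]
    exact hb
  refine ⟨fun g => qChar r (loc q g), isChar2_loc (qChar_isChar r (by omega)) q,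
    fun s hs => qChar_unramified r q.2 hqr _ (FLTA.PT.primeLocalPlace_liesOverPrime q) _
      (loc_mem_inertia hs), fun F hF => ?_⟩
  show qChar r (loc q F) = 1
  rw [qChar_frobenius r q.2 hqr (FLTA.PT.primeLocalPlace_liesOverPrime q) hF, if_neg hns]

end FLTA.LT2.Tangent

end
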