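import Fermat.Agent.LT2.PatchedTangentScalar
import Fermat.Agent.LT2.PrimesFrobenius

/-!
# Part G, tangent side: Frobenius traces detecting every tangent vector

The scalar classes for a separating set of `k + 1 = #{bad primes}` less one Taylor–Wiles primes
form, modulo the sign, a group of order at most `2 ^ k`; so `k` elements of order three on `E[2]`,
which may be taken Frobenius elements, see all of them, and the trace derivatives of every
deformation with signed conditions, whatever the signs.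
-/

set_option autoImplicit false

open scoped Pointwise

noncomputable section

namespace FLTA.LT2.Tangent

open FLTA.PT (GQ Qb Gl loc)
open FLTA.Deformation (GalQ)

attribute [local instance] FLTA.PT.factPrime

/-- A group of `𝔽₂`-valued functions of order at most `2 ^ k` is separated by `k` points. -/
theorem exists_separating_points {α : Type} [Nonempty α] :
    ∀ (k : ℕ) (W : Finset (α → ZMod 2)), (∀ v ∈ W, ∀ w ∈ W, v + w ∈ W) → W.card ≤ 2 ^ k →
      ∃ g : Fin k → α, ∀ w ∈ W, (∀ i, w (g i) = 0) → w = 0 := by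
  classical
  intro k
  induction k with
  | zero =>
    intro W hadd hcard
    refine ⟨Fin.elim0, fun w hw _ => ?_⟩
    have h := Finset.card_le_one.1 (by simpa using hcard) _ (hadd w hw w hw) _ hw
    exact (left_eq_add.1 h.symm)
  | succ k ih =>
    intro W hadd hcard
    by_cases hall : ∀ w ∈ W, w = 0
    · exact ⟨fun _ => Classical.arbitrary α, fun w hw _ => hall w hw⟩
    push Not at hall
    obtain ⟨w₀, hw₀, hne⟩ := hall
    obtain ⟨a, ha⟩ := Function.ne_iff.1 hne
    have hmem : ∀ v ∈ W.filter (fun w => w a = 0), v ∈ W ∧ v a = 0 := fun v hv =>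
      Finset.mem_filter.1 hv
    set W' := W.filter (fun w => w a = 0)
    have hsub : W' ∪ W'.image (fun v => v + w₀) ⊆ W := by
      refine Finset.union_subset (Finset.filter_subset _ _) fun v hv => ?_
      obtain ⟨u, hu, rfl⟩ := Finset.mem_image.1 hv
      exact hadd u (hmem u hu).1 w₀ hw₀
    have hdisj : Disjoint W' (W'.image fun v => v + w₀) := by
      refine Finset.disjoint_left.2 fun v hv hv' => ha ?_
      obtain ⟨u, hu, rfl⟩ := Finset.mem_image.1 hv'
      simpa [(hmem u hu).2] using (hmem _ hv).2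
    have hle := Finset.card_le_card hsub
    rw [Finset.card_union_of_disjoint hdisj,
      Finset.card_image_of_injective _ (add_left_injective w₀)] at hle
    obtain ⟨g, hg⟩ := ih W' (fun v hv w hw => Finset.mem_filter.2
      ⟨hadd v (hmem v hv).1 w (hmem w hw).1, by simp [(hmem v hv).2, (hmem w hw).2]⟩)
      (by rw [pow_succ] at hcard; omega)
    refine ⟨Fin.cons a g, fun w hw h => hg w (Finset.mem_filter.2 ⟨hw, ?_⟩) fun i => ?_⟩
    · simpa using h 0
    · simpa using h i.succ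

variable {E : WeierstrassCurve ℤ} (hE : Companion E)

/-- The sign is a scalar class. -/
theorem scalarCond_sgn (Qt : Finset ℕ) :
    ScalarCond E Qt (TW.sgnChar hE) (TW.sgnChar hE) :=
  ⟨TW.sgnChar_isChar hE, fun _ hℓ hg _ => sgnChar_unram hE hℓ hg,
    fun _ _ _ _ => ⟨1, fun _ _ => (one_mul _).symm⟩⟩

/-- **Choice of the generators**: `k` Frobenius elements seeing every scalar class. -/
theorem exists_scalar_primes {qv : Finset ℕ} (hcard : qv.card + 1 = (badPrimes E).card)
    (hsep : Separating E qv) (avoid : Finset ℕ) :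
    ∃ (lv : Fin qv.card → ℕ) (σ : Fin qv.card → GQ),
      (∀ i, (lv i).Prime ∧ lv i ∉ avoid ∧ ∃ A : ValuationSubring Qb, A.LiesOverPrime (lv i) ∧
        A.IsFrobeniusAt (σ i) (lv i)) ∧
      ∀ ψ : GQ → ZMod 2, ScalarCond E qv (TW.sgnChar hE) ψ →
        (∀ i, ψ (σ i) * (mat hE (σ i)).trace = 0) → ∀ g, ψ g * (mat hE g).trace = 0 := by
  classical
  -- the finite group of scalar classes
  choose! A hA s hs hs1 _ using fun l (hl : l ∈ badPrimes E) => TW.exists_sgn_qChar_one hE hl
  obtain ⟨hfin, hle⟩ := natCard_scalarCond_le hE.Δ_ne_zero hsep (TW.sgnChar hE) s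
    fun l hl => ⟨A l, hA l hl, hs l hl, hs1 l hl⟩
  let _ : Fintype {χ // ScalarCond E qv (TW.sgnChar hE) χ} := Fintype.ofFinite _
  let G3 := {g : GQ // (mat hE g).trace = 1}
  obtain ⟨g₀, hg₀, -⟩ := TW.exists_element hE (fun _ => 0) (by simp) 0
  have : Nonempty G3 := ⟨⟨g₀, hg₀⟩⟩
  have hsgn3 : ∀ g : G3, TW.sgnChar hE g.1 = 0 := fun g => by
    show TW.sgn (mat hE g.1) = 0
    exact (by decide : ∀ X : TW.M2F, X.trace = 1 → TW.sgn X = 0) _ g.2
  let res : {χ // ScalarCond E qv (TW.sgnChar hE) χ} → (G3 → ZMod 2) := fun χ g => χ.1 g.1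
  let W := Finset.univ.image res
  have hWadd : ∀ v ∈ W, ∀ w ∈ W, v + w ∈ W := fun v hv w hw => by
    obtain ⟨a, -, rfl⟩ := Finset.mem_image.1 hv
    obtain ⟨b, -, rfl⟩ := Finset.mem_image.1 hw
    exact Finset.mem_image.2 ⟨⟨_, a.2.add b.2⟩, Finset.mem_univ _, rfl⟩
  have hWcard : W.card ≤ 2 ^ qv.card := by
    choose r hr using fun w : W => Finset.mem_image.1 w.2
    let Φ : W × ZMod 2 → {χ // ScalarCond E qv (TW.sgnChar hE) χ} := fun p =>
      if p.2 = 0 then r p.1 else ⟨_, (r p.1).2.add (scalarCond_sgn hE qv)⟩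
    have hΦres : ∀ p, res (Φ p) = p.1.1 := fun p => by
      by_cases hp : p.2 = 0
      · rw [show Φ p = r p.1 from if_pos hp]; exact (hr p.1).2
      · rw [show Φ p = ⟨_, (r p.1).2.add (scalarCond_sgn hE qv)⟩ from if_neg hp]
        funext g
        show (r p.1).1 g.1 + TW.sgnChar hE g.1 = _
        rw [hsgn3, add_zero]
        exact congrFun (hr p.1).2 g
    obtain ⟨l₀, hp₀, hd₀⟩ := Companion.exists_bad_prime hE
    have hl₀ : l₀ ∈ badPrimes E := (mem_badPrimes hE.Δ_ne_zero).2 ⟨hp₀, hd₀⟩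
    have hinj : Function.Injective Φ := fun p p' h => by
      have h1 : p.1 = p'.1 := Subtype.ext (by rw [← hΦres, h, hΦres])
      refine Prod.ext h1 ?_
      have key : ∀ q : W × ZMod 2, (Φ q).1 (s l₀) = (r q.1).1 (s l₀) + q.2 := fun q => by
        rcases (by decide : ∀ a : ZMod 2, a = 0 ∨ a = 1) q.2 with h0 | h0
        · rw [show Φ q = r q.1 from if_pos h0, h0, add_zero]
        · rw [show Φ q = ⟨_, (r q.1).2.add (scalarCond_sgn hE qv)⟩ from
            if_neg (by rw [h0]; exact one_ne_zero)]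
          show (r q.1).1 (s l₀) + TW.sgnChar hE (s l₀) = _
          rw [hs1 l₀ hl₀, h0]
      have h2 := key p
      rw [h, key p', h1] at h2
      exact (add_left_cancel h2).symm
    have h2 := Nat.card_le_card_of_injective Φ hinj
    rw [Nat.card_prod, Nat.card_zmod, Nat.card_eq_fintype_card, Fintype.card_coe] at h2
    rw [← hcard, pow_succ] at hle
    omega
  obtain ⟨g, hg⟩ := exists_separating_points qv.card W hWadd hWcard
  -- Frobenius elements with the same values
  let Φ : GQ →* TW.M2F × ({χ // ScalarCond E qv (TW.sgnChar hE) χ} → Multiplicative (ZMod 2)) :=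
    (TW.rho hE).prod (MonoidHom.pi fun χ => χ.2.isChar.toHom)
  have hΦ : GaloisFactorsThroughFiniteLevel Φ := by
    refine Density.galoisFactorsThroughFiniteLevel_prod (Image.rep_finiteLevel hE.Δ_ne_zero 1) ?_
    choose L hL hL' using fun χ : {χ // ScalarCond E qv (TW.sgnChar hE) χ} => χ.2.isChar.finiteLevel
    have := hL
    exact ⟨⨆ χ, L χ, IntermediateField.finiteDimensional_iSup_of_finite, fun σ hσ =>
      funext fun χ => hL' χ σ fun x hx => hσ x (le_iSup L χ hx)⟩
  choose lv hlp hlS B hB τ hτ j i hj hi using fun a => exists_frobenius_map_pow Φ hΦ avoid (g a).1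
  refine ⟨lv, τ, fun a => ⟨hlp a, hlS a, B a, hB a, hτ a⟩, fun ψ hψ h0 x => ?_⟩
  have hval : ∀ a, ψ (g a).1 = 0 := fun a => by
    have h3 : ((TW.rho hE (g a).1 ^ j a) ^ i a) = TW.rho hE (g a).1 := by
      have := congrArg Prod.fst (hi a)
      rw [hj] at this
      exact this
    have ht : (mat hE (τ a)).trace = 1 := by
      show (TW.rho hE (τ a)).trace = 1
      rw [show TW.rho hE (τ a) = TW.rho hE (g a).1 ^ j a from congrArg Prod.fst (hj a)]
      exact TW.trace_pow_of_trace (TW.det_rho hE _) (g a).2 h3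
    have h1 : ψ (τ a) = 0 := by simpa [ht] using h0 a
    have h4 := congrArg (fun z => Multiplicative.toAdd (z.2 ⟨ψ, hψ⟩)) (hi a)
    simp only [Φ, MonoidHom.prod_apply, Prod.pow_snd, Pi.pow_apply, MonoidHom.pi_apply,
      toAdd_pow] at h4
    change i a • ψ (τ a) = ψ (g a).1 at h4
    rw [← h4, h1, smul_zero]
  have hzero := hg (res ⟨ψ, hψ⟩) (Finset.mem_image.2 ⟨⟨ψ, hψ⟩, Finset.mem_univ _, rfl⟩) hval
  rcases (by decide : ∀ a : ZMod 2, a = 0 ∨ a = 1) (mat hE x).trace with h | h
  · rw [h, mul_zero]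
  · rw [show ψ x = 0 from congrFun hzero ⟨x, h⟩, zero_mul]

variable {n m : ℕ} {Q qv : Finset ℕ}

/-- A component with unshifted signs is a scalar class. -/
theorem IsClass.exists_scalarCond {z : GQ → FLTA.TaylorWiles.Flat.M2 (ZMod 2)}
    (h : IsClass hE Q qv (fun _ => 0) z) (hQ : ∀ q ∈ Q, ConjPrime E n q)
    (hqv : ∀ q ∈ qv, TWPrime E m q) (hkill : StKilled E Q) :
    ∃ ψ, ScalarCond E qv (TW.sgnChar hE) ψ ∧
      ∀ g, (z g * mat hE g).trace = ψ g * (mat hE g).trace := by
  obtain ⟨ψ, hψ, htr, hur, hbad⟩ := h.exists_scalar hQ hqv hkill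
  refine ⟨ψ, ⟨hψ, hur, fun l hl A hA => ?_⟩, htr⟩
  obtain ⟨hlp, hld⟩ := (mem_badPrimes hE.Δ_ne_zero).1 hl
  obtain ⟨x, u, hu, hx⟩ := hbad ⟨l, hlp⟩ hl
  obtain ⟨g, hg⟩ :=
    FLTA.Galois.exists_smul_eq hlp (FLTA.PT.primeLocalPlace_liesOverPrime ⟨l, hlp⟩) hA
  refine ⟨x, fun σ hσ => ?_⟩
  rw [← hg, FLTA.Galois.decompositionSubgroup_smul_iff] at hσ
  obtain ⟨t, ht⟩ := FLTA.TaylorWiles.exists_loc_eq ⟨l, hlp⟩ hσ
  have h1 := hx t
  rw [ht, zero_mul, add_zero] at h1
  rwa [show ψ (g⁻¹ * σ * g) = ψ σ by simpa using hψ.apply_conj g⁻¹ σ,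
    show TW.sgnChar hE (g⁻¹ * σ * g) = TW.sgnChar hE σ by
      simpa using (TW.sgnChar_isChar hE).apply_conj g⁻¹ σ] at h1

/-- **R1, the Galois part**: the traces at `k = #qv` Frobenius elements detect every deformation
to the dual numbers with signed conditions. -/
theorem exists_trace_primes (hQ : ∀ q ∈ Q, ConjPrime E n q) (hkill : StKilled E Q)
    (hqv : ∀ q ∈ qv, TWPrime E m q) (hcard : qv.card + 1 = (badPrimes E).card)
    (hsep : Separating E qv) (avoid : Finset ℕ) :
    ∃ (lv : Fin qv.card → ℕ) (σ : Fin qv.card → GalQ),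
      (∀ i, (lv i).Prime ∧ lv i ∉ avoid ∧ ∃ A : ValuationSubring Qb, A.LiesOverPrime (lv i) ∧
        A.IsFrobeniusAt (σ i) (lv i)) ∧
      ∀ (k : Type) [Field k] [Finite k] [Algebra (ZMod 2) k]
        (ρ : GaloisRepAdic (DualNumber k)) (b : Module.Basis (Fin 2) (DualNumber k) ρ.V),
        (∀ g, (LinearMap.toMatrix b b (ρ.ρ g)).map TrivSqZeroExt.fst =
          resMat hE.Δ_ne_zero k g) →
        ρ.DetIsCyclotomic 2 → ρ.IsFlatAt 2 →
        (∀ ℓ : ℕ, ℓ.Prime → ℓ ∉ insert 2 (badPrimes E ∪ Q ∪ qv) → ρ.IsUnramifiedAt ℓ) →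
        (∀ j ∈ badPrimes E ∪ Q, ∃ s : ℤ, Odd s ∧ SignEqAt ρ j s) →
        (∀ i, TrivSqZeroExt.snd (ρ.trace (σ i)) = 0) →
          ∀ g, TrivSqZeroExt.snd (ρ.trace g) = 0 := by
  obtain ⟨lv, σ, hlv, hsee⟩ := exists_scalar_primes hE hcard hsep avoid
  refine ⟨lv, σ, hlv, fun k _ _ _ ρ b hb hdet hflat hun hsgn h0 g => ?_⟩
  have : Fact (Nat.Prime 2) := ⟨Nat.prime_two⟩
  obtain ⟨x, hx⟩ := TW.exists_cocycle_of_defo 2 (resMat hE.Δ_ne_zero k) ρ b hb fun g => by
    rw [det_eq_one_of_cyclotomic ρ hdet g, TrivSqZeroExt.snd_one]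
  have hsnd : ∀ g, TrivSqZeroExt.snd (ρ.trace g) = ((x.1 g).1 * baseMat (mat hE g)).trace := by
    intro g
    obtain ⟨b', hb'⟩ := hx
    rw [show ρ.trace g = (TW.defoMat (resMat hE.Δ_ne_zero k) x.1 g).trace from
      (LinearMap.trace_eq_matrix_trace _ b' (ρ.ρ g)).trans (congrArg Matrix.trace (hb' g))]
    have e2 : resMat hE.Δ_ne_zero k g = baseMat (mat hE g) := by
      show (mat2 hE.Δ_ne_zero g).map _ = _
      rw [mat2_eq]
      rfl
    simp [TW.defoMat, e2, Matrix.trace_fin_two]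
  have : Module.Finite (ZMod 2) k := Module.Finite.of_finite
  let B := Module.finBasis (ZMod 2) k
  refine B.ext_elem fun i => ?_
  have hcls : IsClass hE Q qv (fun _ => 0) fun g => mapFun (B.coord i) (x.1 g).1 := by
    simpa using isClass_of_defo hE hQ (fun _ => (0 : k)) hx hdet hflat
      (fun ℓ hℓ h2 hg hℓQ hℓv => hun ℓ hℓ fun hmem => by
        simp only [Finset.mem_insert, Finset.mem_union] at hmem
        rcases hmem with h | ((h | h) | h)
        · exact h2 h
        · exact hg ((mem_badPrimes hE.Δ_ne_zero).1 h).2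
        · exact hℓQ h
        · exact hℓv h)
      (fun j hj P hP τ hτ => by
        obtain ⟨s, hs, hsq⟩ := hsgn j (Finset.mem_union_left _ hj)
        obtain ⟨hjp, hjd⟩ := (mem_badPrimes hE.Δ_ne_zero).1 hj
        refine ⟨fun τ' hτ' => ?_, fun φ hφ => ?_⟩
        · simpa [prodEnd] using hsq.inertia_inertia P hP τ hτ τ' hτ'
        · have hj2 : ((j : ℤ)) % 2 = 1 := by
            have := hjp.odd_of_ne_two (Companion.bad_prime_spec hE hjp hjd).2.1
            rw [Nat.odd_iff] at this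
            omega
          have hone : oneEps (0 : k) = 1 :=
            TrivSqZeroExt.ext (by simp [oneEps]) (by simp [oneEps])
          have h1 := hsq.frob_inertia P hP φ hφ τ hτ
          rw [prodEnd, intCast_odd_dual (hs.mul (Int.odd_iff.2 hj2)), Int.cast_one, one_smul] at h1
          rw [hone, one_smul]
          exact h1)
      (fun q hq => hsgn q (Finset.mem_union_right _ hq)) (B.coord i)
  obtain ⟨ψ, hψ, htr⟩ := hcls.exists_scalarCond hE hQ hqv hkill
  have key : ∀ g, B.coord i (TrivSqZeroExt.snd (ρ.trace g)) = ψ g * (mat hE g).trace := fun g => by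
    rw [hsnd, ← trace_map_functional, ← htr]
    exact congrArg Matrix.trace (mapFun_mul_baseMat _ _ _)
  rw [← Module.Basis.coord_apply, map_zero, Finsupp.zero_apply, key]
  exact hsee ψ hψ (fun a => by rw [← key, h0 a, map_zero]) g

end FLTA.LT2.Tangent

end
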