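import Fermat.Agent.LT2.PrimesTwoTorsion
import Fermat.Agent.Galois.Finiteness
import Fermat.Agent.RT.LocalGalois

/-! # Part F: classes under subtraction, finiteness, the ramified line at a conjugation prime -/

set_option autoImplicit false

open WeierstrassCurve WeierstrassCurve.Affine
open scoped WeierstrassCurve.Affine
open scoped Pointwise Classical

noncomputable section

namespace FLTA.LT2

local notation "Qbar" => AlgebraicClosure ℚ
local notation "Γℚ" => AlgebraicClosure ℚ ≃ₐ[ℚ] AlgebraicClosure ℚ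

variable {E : WeierstrassCurve ℤ}

/-- The difference of two cocycles. -/
noncomputable def StCocycle.sub (c c' : StCocycle E) : StCocycle E where
  toFun σ := c.toFun σ - c'.toFun σ
  map_mul σ τ := by rw [c.map_mul, c'.map_mul, smul_sub]; abel
  open_kernel := by
    obtain ⟨K, hK, h⟩ := c.open_kernel
    obtain ⟨K', hK', h'⟩ := c'.open_kernel
    refine ⟨K ⊔ K', IntermediateField.finiteDimensional_sup K K', fun σ hσ => ?_⟩
    rw [IntermediateField.fixingSubgroup_sup, Subgroup.mem_inf] at hσ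
    rw [h σ hσ.1, h' σ hσ.2, sub_zero]

theorem StCond.sub {Q : Finset ℕ} {c c' : StCocycle E} (hc : StCond E Q c) (hc' : StCond E Q c') :
    StCond E Q (c.sub c') := by
  refine ⟨fun ℓ hℓ h2 hQ A hA => ?_, fun q hq A hA σ hσ => ?_, fun T hT => ?_⟩
  · obtain ⟨v, hv⟩ := hc.1 ℓ hℓ h2 hQ A hA
    obtain ⟨w, hw⟩ := hc'.1 ℓ hℓ h2 hQ A hA
    refine ⟨v - w, fun σ hσ => ?_⟩
    show c.toFun σ - c'.toFun σ = _
    rw [hv σ hσ, hw σ hσ, smul_sub]
    abel
  · obtain ⟨v, hv⟩ := hc.2.1 q hq A hA σ hσ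
    obtain ⟨w, hw⟩ := hc'.2.1 q hq A hA σ hσ
    refine ⟨v - w, ?_⟩
    show c.toFun σ - c'.toFun σ = _
    rw [hv, hw, smul_sub]
    abel
  · intro f
    have e : (fun s => f ((c.sub c').toFun (FLTA.PT.loc ⟨2, Nat.prime_two⟩ s))) =
        (fun s => f (c.toFun (FLTA.PT.loc ⟨2, Nat.prime_two⟩ s))) +
          fun s => f (c'.toFun (FLTA.PT.loc ⟨2, Nat.prime_two⟩ s)) := funext fun s => by
      show f (c.toFun _ - c'.toFun _) = f (c.toFun _) + f (c'.toFun _)
      rw [map_sub, sub_eq_add_neg, ZMod.neg_eq_self_mod_two]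
    rw [e]
    exact (hc.2.2 T hT f).add (hc'.2.2 T hT f)

theorem StCocycle.toFun_one (c : StCocycle E) : c.toFun 1 = 0 := by
  have h := c.map_mul 1 1
  rw [mul_one, one_smul] at h
  exact left_eq_add.mp h

theorem StCocycle.ext_toFun {c c' : StCocycle E} (h : ∀ σ, c.toFun σ = c'.toFun σ) : c = c' := by
  obtain ⟨f, _, _⟩ := c
  obtain ⟨g, _, _⟩ := c'
  congr
  exact funext h

/-- The affine action of the Galois group on `E[2]` attached to a cocycle. -/
def affHom (c : StCocycle E) : Γℚ →* Equiv.Perm (Tors2 E) where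
  toFun σ := (MulAction.toPerm σ).trans (Equiv.addRight (c.toFun σ))
  map_one' := Equiv.ext fun v => by
    show (1 : Γℚ) • v + c.toFun 1 = v
    rw [one_smul, c.toFun_one, add_zero]
  map_mul' σ τ := Equiv.ext fun v => by
    show (σ * τ) • v + c.toFun (σ * τ) = σ • (τ • v + c.toFun τ) + c.toFun σ
    rw [mul_smul, smul_add, c.map_mul]
    abel

theorem affHom_apply (c : StCocycle E) (σ : Γℚ) (v : Tors2 E) :
    affHom c σ v = σ • v + c.toFun σ := rfl

theorem affHom_eq_one (c : StCocycle E) {σ : Γℚ} (h : c.toFun σ = 0)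
    (hσ : ∀ v : Tors2 E, σ • v = v) : affHom c σ = 1 :=
  Equiv.ext fun v => by rw [affHom_apply, hσ, h, add_zero]; rfl

theorem affHom_zero (c : StCocycle E) (σ : Γℚ) : affHom c σ 0 = c.toFun σ := by
  rw [affHom_apply, smul_zero, zero_add]

theorem affHom_finiteLevel (hE : Companion E) (c : StCocycle E) :
    ∃ L : IntermediateField ℚ Qbar, FiniteDimensional ℚ L ∧
      ∀ σ : Γℚ, (∀ x ∈ L, σ x = x) → affHom c σ = 1 := by
  obtain ⟨K, hK, hc⟩ := c.open_kernel
  obtain ⟨L, hL, hact⟩ :=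
    EllTorsion.galoisFactorsThroughFiniteLevel_intModel E hE.Δ_ne_zero (n := 2) two_ne_zero
  refine ⟨K ⊔ L, IntermediateField.finiteDimensional_sup K L, fun σ hσ => ?_⟩
  refine affHom_eq_one c (hc σ ((IntermediateField.mem_fixingSubgroup_iff _ _).mpr
    fun x hx => hσ x (le_sup_left (a := K) hx))) fun v => ?_
  exact LinearMap.congr_fun (hact σ fun x hx => hσ x (le_sup_right (a := K) hx)) v

/-- At a good odd prime a class unramified there vanishes on inertia. -/
theorem unramAt_iff_forall {q : ℕ} (hq : q.Prime) (hq2 : q ≠ 2) (hgood : ¬ (q : ℤ) ∣ E.Δ)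
    (c : StCocycle E) : UnramAt E q c ↔
      ∀ A : ValuationSubring Qbar, A.LiesOverPrime q →
        ∀ σ ∈ A.inertiaSubgroupIn ℚ, c.toFun σ = 0 := by
  refine ⟨fun h A hA σ hσ => ?_, fun h A hA => ⟨0, fun σ hσ => ?_⟩⟩
  · obtain ⟨v, hv⟩ := h A hA
    rw [hv σ hσ, smul_eq_self_of_inertia_two hq hq2 hgood hA hσ, sub_self]
  · rw [h A hA σ hσ, smul_zero, sub_zero]

/-- Vanishing on inertia at one place above a good odd prime gives it at all of them. -/
theorem unramAt_of_forall_inertia {q : ℕ} (hq : q.Prime) (hq2 : q ≠ 2) (hgood : ¬ (q : ℤ) ∣ E.Δ)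
    (c : StCocycle E) {A : ValuationSubring Qbar} (hA : A.LiesOverPrime q)
    (h : ∀ σ ∈ A.inertiaSubgroupIn ℚ, c.toFun σ = 0) : UnramAt E q c := by
  refine (unramAt_iff_forall hq hq2 hgood c).mpr fun B hB σ hσ => ?_
  obtain ⟨g, rfl⟩ := Galois.exists_smul_eq hq hA hB
  rw [Galois.inertiaSubgroupIn_smul_iff] at hσ
  have h0 := h _ hσ
  have hc : affHom c (g⁻¹ * σ * g) = 1 :=
    affHom_eq_one c h0 (smul_eq_self_of_inertia_two hq hq2 hgood hA hσ)
  rw [map_mul, map_mul, map_inv] at hc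
  have h1 : affHom c σ = 1 := by
    calc affHom c σ = affHom c g * ((affHom c g)⁻¹ * affHom c σ * affHom c g) * (affHom c g)⁻¹ := by
          group
      _ = 1 := by rw [hc, mul_one, mul_inv_cancel]
  rw [← affHom_zero, h1]
  rfl

theorem finite_stCond_empty (hE : Companion E) :
    Finite {c : StCocycle E // StCond E ∅ c} := by
  classical
  have := finite_tors2 hE
  have hbad : {q : Nat.Primes | (q : ℕ) = 2 ∨ ((q : ℕ) : ℤ) ∣ E.Δ}.Finite := by
    refine Set.Finite.of_finite_image (f := fun q : Nat.Primes => (q : ℕ)) ?_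
      Subtype.val_injective.injOn
    refine ((Set.finite_le_nat (max 2 E.Δ.natAbs))).subset ?_
    rintro _ ⟨q, hq | hq, rfl⟩
    · simp [hq]
    · exact le_max_of_le_right (Nat.le_of_dvd (Int.natAbs_pos.mpr hE.Δ_ne_zero)
        (Int.natCast_dvd.mp hq))
  have := (Galois.finite_setOf_monoidHom_of_inertia hbad.toFinset (Equiv.Perm (Tors2 E))).to_subtype
  let f : {c : StCocycle E // StCond E ∅ c} →
      {φ : Γℚ →* Equiv.Perm (Tors2 E) |
        (∃ F : IntermediateField ℚ Qbar, FiniteDimensional ℚ F ∧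
          ∀ s ∈ F.fixingSubgroup, φ s = 1) ∧
        ∀ q : Nat.Primes, q ∉ hbad.toFinset → ∀ A : ValuationSubring Qbar,
          A.LiesOverPrime (q : ℕ) → ∀ s ∈ A.inertiaSubgroupIn ℚ, φ s = 1} := fun c =>
    ⟨affHom c.1, by
      obtain ⟨L, hL, h⟩ := affHom_finiteLevel hE c.1
      exact ⟨L, hL, fun s hs => h s fun x hx => (IntermediateField.mem_fixingSubgroup_iff _ _).mp hs x hx⟩,
      fun q hq A hA s hs => by
        simp only [Set.Finite.mem_toFinset, Set.mem_ofPred_eq, not_or] at hq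
        exact affHom_eq_one c.1
          ((unramAt_iff_forall q.2 hq.1 hq.2 c.1).mp
            (c.2.unramAt q.2 hq.1 (Finset.notMem_empty _)) A hA s hs)
          (smul_eq_self_of_inertia_two q.2 hq.1 hq.2 hA hs)⟩
  refine Finite.of_injective f fun c c' h => Subtype.ext (StCocycle.ext_toFun fun σ => ?_)
  rw [← affHom_zero, ← affHom_zero, show affHom c.1 = affHom c'.1 from congrArg Subtype.val h]

/-- The value at a tame generator: fixed by Frobenius, and it decides ramification. -/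
theorem exists_tame_value (hE : Companion E) {q : ℕ} (hq : q.Prime) (hq2 : q ≠ 2)
    (hgood : ¬ (q : ℤ) ∣ E.Δ) :
    ∃ (Φ T : Γℚ) (A : ValuationSubring Qbar), A.LiesOverPrime q ∧ A.IsFrobeniusAt Φ q ∧
      ∀ c : StCocycle E, Φ • c.toFun T = c.toFun T ∧ (c.toFun T = 0 → UnramAt E q c) := by
  obtain ⟨A, hA⟩ := Galois.exists_liesOverPrime hq
  obtain ⟨Φ, hΦ⟩ := Galois.exists_isFrobeniusAt hq hA
  obtain ⟨T, hT⟩ := RT.LocalGalois.exists_isTameGenerator hq Nat.prime_two hq2.symm hA
  refine ⟨Φ, T, A, hA, hΦ, fun c => ?_⟩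
  have htriv := fun σ (hσ : σ ∈ A.inertiaSubgroupIn ℚ) =>
    smul_eq_self_of_inertia_two (E := E) hq hq2 hgood hA hσ
  have hsq : ∀ σ ∈ A.inertiaSubgroupIn ℚ, affHom c σ ^ 2 = 1 := fun σ hσ => Equiv.ext fun v => by
    rw [sq, Equiv.Perm.mul_apply, affHom_apply, affHom_apply, htriv σ hσ, htriv σ hσ, add_assoc,
      ← two_nsmul, two_nsmul_tors2, add_zero]
    rfl
  have hpro : ∀ σ ∈ A.inertiaSubgroupIn ℚ, ∃ j : ℕ, affHom c σ ^ 2 ^ j = 1 := fun σ hσ =>
    ⟨1, by rw [pow_one]; exact hsq σ hσ⟩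
  have hfin := affHom_finiteLevel hE c
  refine ⟨?_, fun h0 => unramAt_of_forall_inertia hq hq2 hgood c hA fun σ hσ => ?_⟩
  · obtain ⟨m, hm⟩ := hq.odd_of_ne_two hq2
    have hrel := RT.LocalGalois.frobenius_tame_relation (affHom c) hq hA Nat.prime_two hq2.symm
      hT hfin hpro hΦ
    rw [hm, pow_succ, pow_mul, hsq T hT.1, one_pow, one_mul] at hrel
    have h := congrArg (fun e : Equiv.Perm (Tors2 E) => e 0) hrel
    simp only [Equiv.Perm.mul_apply, affHom_zero] at h
    rw [affHom_apply, affHom_apply, htriv T hT.1, add_comm (c.toFun Φ)] at h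
    exact add_right_cancel h
  · rw [← affHom_zero, RT.LocalGalois.apply_eq_one_of_tame_generator (affHom c) hq hA Nat.prime_two
      hq2.symm hT hfin hpro (affHom_eq_one c h0 (htriv T hT.1)) hσ]
    rfl

/-- At a conjugation prime the ramified part is a line. -/
theorem unramAt_sub_of_ramified (hE : Companion E) {n q : ℕ} (hq : ConjPrime E n q)
    {c c' : StCocycle E} (_hc : FrobNull E q c) (_hc' : FrobNull E q c')
    (h : ¬ UnramAt E q c) (h' : ¬ UnramAt E q c') : UnramAt E q (c.sub c') := by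
  obtain ⟨Φ, T, A, hA, hΦ, hval⟩ := exists_tame_value hE hq.prime hq.ne_two hq.good
  obtain ⟨P, hP⟩ :=
    exists_frobenius_smul_ne_two hE hq.prime hq.ne_two hq.good hq.nonsquare hA hΦ
  refine (hval (c.sub c')).2 ?_
  show c.toFun T - c'.toFun T = 0
  rw [sub_eq_zero]
  set a := c.toFun T with ha
  set b := c'.toFun T with hb
  have ha0 : a ≠ 0 := fun he => h ((hval c).2 he)
  have hb0 : b ≠ 0 := fun he => h' ((hval c').2 he)
  by_contra hab
  -- otherwise Frobenius would fix all of `E[2]`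
  have hfa : Φ • a = a := (hval c).1
  have hfb : Φ • b = b := (hval c').1
  have h2 : ∀ x : Tors2 E, x + x = 0 := fun x => (two_nsmul x).symm.trans (two_nsmul_tors2 x)
  have := finite_tors2 hE
  have := Fintype.ofFinite (Tors2 E)
  have hcard : ({0, a, b, a + b} : Finset (Tors2 E)).card = 4 := by
    have h3 : a + b ≠ 0 := fun he => hab (add_right_cancel (he.trans (h2 b).symm))
    have h4 : a + b ≠ a := fun he => hb0 (add_eq_left.mp he)
    have h5 : a + b ≠ b := fun he => ha0 (add_eq_right.mp he)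
    rw [Finset.card_insert_of_notMem (by simp [ha0.symm, hb0.symm, h3.symm]),
      Finset.card_insert_of_notMem (by simp [hab, h4.symm]),
      Finset.card_insert_of_notMem (by simp [h5.symm]), Finset.card_singleton]
  have hall := Finset.eq_univ_of_card _ (hcard.trans
    ((natCard_tors2 hE).symm.trans (Nat.card_eq_fintype_card)))
  have hmem : P ∈ ({0, a, b, a + b} : Finset (Tors2 E)) := hall ▸ Finset.mem_univ P
  simp only [Finset.mem_insert, Finset.mem_singleton] at hmem
  rcases hmem with rfl | rfl | rfl | rfl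
  · exact hP (smul_zero _)
  · exact hP hfa
  · exact hP hfb
  · exact hP (by rw [smul_add, hfa, hfb])

end FLTA.LT2
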