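import Fermat.Agent.LT2.PatchedTangentLocal
import Fermat.Agent.LT2.PrimesLine
import Fermat.Agent.PoitouTate.BridgeLevels

/-!
# Part G, tangent side: the Steinberg part of a tangent vector dies

The projection to the standard module of a tangent vector satisfies `StCond`, hence is a
coboundary when `Q` kills the Steinberg part.
-/

set_option autoImplicit false

open scoped Matrix

noncomputable section

namespace FLTA.LT2.Tangent

open FLTA.TaylorWiles.Flat (M2 IsAdCoc cobd inerG)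
open FLTA.PT (GQ Qb Gl lvlLoc loc)

attribute [local instance] FLTA.PT.factPrime

variable {E : WeierstrassCurve ℤ} (hE : Companion E)

theorem mat_det (σ : GQ) : (mat hE σ).det = 1 :=
  det_eq_one (B' := mat hE σ⁻¹) (by rw [← map_mul, mul_inv_cancel, map_one])

theorem mat_level (q : Nat.Primes) : ∃ U ∈ lvlLoc q, ∀ u ∈ U, ((mat hE).comp (loc q)) u = 1 :=
  exists_level_intertwine (coord_smul hE) hE.Δ_ne_zero q

/-- At a good odd prime inertia acts trivially on `E[2]`. -/
theorem mat_eq_one_of_inertia {ℓ : ℕ} (hℓ : ℓ.Prime) (hℓ2 : ℓ ≠ 2) (hgood : ¬ (ℓ : ℤ) ∣ E.Δ)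
    {A : ValuationSubring Qb} (hA : A.LiesOverPrime ℓ) {σ : GQ}
    (hσ : σ ∈ A.inertiaSubgroupIn ℚ) : mat hE σ = 1 :=
  intertwine_eq_one (coord_smul hE) (smul_eq_self_of_inertia_two hℓ hℓ2 hgood hA hσ)

theorem order_three_of_trace : ∀ A : M2 (ZMod 2), A.det = 1 → A.trace = 1 →
    A * A + A + 1 = 0 := by
  decide

/-- At a Taylor–Wiles prime Frobenius has order three on `E[2]`. -/
theorem mat_frobenius_of_twPrime {m q : ℕ} (hq : TWPrime E m q) {A : ValuationSubring Qb}
    (hA : A.LiesOverPrime q) {σ : GQ} (hσ : A.IsFrobeniusAt σ q) :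
    mat hE σ * mat hE σ + mat hE σ + 1 = 0 := by
  refine order_three_of_trace _ (mat_det hE σ) ?_
  show (TW.rho hE σ).trace = (1 : ZMod (2 ^ 1))
  rw [(Companion.det_trace_rep_frobenius hE one_ne_zero hq.prime hq.ne_two hq.good hA hσ).2]
  have key : ∀ a : ZMod (2 ^ 1), a ≠ 0 → a = 1 := by decide
  refine key _ fun h => hq.odd_trace ?_
  exact_mod_cast (ZMod.intCast_zmod_eq_zero_iff_dvd _ _).1 h

theorem exists_pairV_repr (f : V2 →+ ZMod 2) : ∃ v : V2, ∀ w, f w = pairV v w := by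
  refine ⟨![f (Pi.single 1 1), f (Pi.single 0 1)], fun w => ?_⟩
  have key : ∀ w : V2, w = (w 0).val • Pi.single 0 1 + (w 1).val • Pi.single 1 1 := by decide
  conv_lhs => rw [key w, map_add, map_nsmul, map_nsmul]
  simp only [nsmul_eq_mul, ZMod.natCast_zmod_val, pairV]
  simp [mul_comm, add_comm]

variable {hE} {Q Qt : Finset ℕ} {f : ℕ → ZMod 2} {z : GQ → M2 (ZMod 2)}

theorem stVec_add_scalar (X : M2 (ZMod 2)) (a : ZMod 2) :
    stVec (X + a • (1 : M2 (ZMod 2))) = stVec X := by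
  ext i; fin_cases i <;> simp [stVec]

namespace IsClass

theorem isAdCoc_loc (h : IsClass hE Q Qt f z) (q : Nat.Primes) :
    IsAdCoc ((mat hE).comp (loc q)) fun g => z (loc q g) := by
  refine ⟨fun g => h.trace _, fun a b => ?_, ?_⟩
  · simp only [MonoidHom.comp_apply, map_mul, map_inv, h.coc]
  · obtain ⟨K, hK, hker⟩ := h.level
    refine ⟨(IntermediateField.normalClosure ℚ K Qb).fixingSubgroup.comap (loc q),
      ⟨_, ⟨FLTA.PT.normal_fixingSubgroup_of_normalClosure K, _,
        normalClosure.is_finiteDimensional ℚ K _, le_rfl⟩, rfl⟩, fun u hu => ?_⟩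
    exact hker _ (IntermediateField.fixingSubgroup_antitone K.le_normalClosure hu)

theorem isAdCoc_shift (h : IsClass hE Q Qt f z) {q : Nat.Primes} {u : Gl q → ZMod 2}
    (hu : IsChar2 u) (c : ZMod 2) :
    IsAdCoc ((mat hE).comp (loc q)) fun g => z (loc q g) + (c * u g) • (1 : M2 (ZMod 2)) := by
  refine (h.isAdCoc_loc q).add (z' := fun g => (c * u g) • (1 : M2 (ZMod 2))) ⟨fun g => ?_,
    fun a b => ?_, ?_⟩
  · rw [Matrix.trace_smul, Matrix.trace_one, Fintype.card_fin, smul_eq_mul]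
    exact (mul_eq_zero_of_right _ rfl)
  · rw [hu.map_mul, mul_add, add_smul, mul_smul_comm, mul_one, smul_mul_assoc,
      FLTA.TaylorWiles.Flat.M_mul_inv, add_comm]
  · obtain ⟨U, hU, h1⟩ := hu.level
    exact ⟨U, hU, fun y hy => by rw [h1 y hy, mul_zero, zero_smul]⟩

/-- The projection of a tangent vector to `E[2]`. -/
def stCocycle (h : IsClass hE Q Qt f z) : StCocycle E where
  toFun σ := (coord hE).symm (stVec (z σ))
  map_mul σ τ := (coord hE).injective <| by
    rw [map_add, coord_smul, AddEquiv.apply_symm_apply, AddEquiv.apply_symm_apply,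
      AddEquiv.apply_symm_apply, h.coc, stVec_add,
      stVec_conj _ (h.trace τ) (by rw [← map_mul, mul_inv_cancel, map_one]), add_comm]
  open_kernel := by
    obtain ⟨K, hK, hker⟩ := h.level
    exact ⟨K, hK, fun σ hσ => by rw [hker σ hσ, stVec_zero, map_zero]⟩

theorem coord_stCocycle (h : IsClass hE Q Qt f z) (σ : GQ) :
    coord hE (h.stCocycle.toFun σ) = stVec (z σ) := (coord hE).apply_symm_apply _

theorem stCond (h : IsClass hE Q Qt f z) {n m : ℕ} (hQ : ∀ q ∈ Q, ConjPrime E n q)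
    (hQt : ∀ q ∈ Qt, TWPrime E m q) : StCond E Q h.stCocycle := by
  refine ⟨fun ℓ hℓ hℓ2 hℓQ => ?_, fun q hq => ?_, fun T hT φ => ?_⟩
  · by_cases hgood : (ℓ : ℤ) ∣ E.Δ
    · obtain ⟨u, hu, hline⟩ := h.bad ⟨ℓ, hℓ⟩ ((mem_badPrimes hE.Δ_ne_zero).2 ⟨hℓ, hgood⟩)
      exact unramAt_of_lineFixed (q := ⟨ℓ, hℓ⟩) (coord_smul hE) hE hℓ2 hgood
        (h.isAdCoc_shift hu.toIsChar2 _) hline
        fun t => (h.coord_stCocycle _).trans (stVec_add_scalar _ _).symm
    by_cases hℓt : ℓ ∈ Qt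
    · -- every class is trivial on the decomposition group
      set q : Nat.Primes := ⟨ℓ, hℓ⟩
      have hP := FLTA.PT.primeLocalPlace_liesOverPrime q
      obtain ⟨F, hF, hFP⟩ := exists_frobenius_loc q
      obtain ⟨u, hu⟩ := vecTrivial_of_order_three (M := (mat hE).comp (loc q)) hℓ2
        (stVec_isVecCoc (h.isAdCoc_loc q)) (mat_level hE q)
        (fun g hg => mat_eq_one_of_inertia hE hℓ hℓ2 hgood hP (loc_mem_inertia hg)) hF
        (mat_frobenius_of_twPrime hE (hQt ℓ hℓt) hP hFP)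
      intro A hA
      obtain ⟨g, hg⟩ := FLTA.Galois.exists_smul_eq hℓ hP hA
      obtain ⟨w, hw⟩ := exists_cobd_conj (c := fun σ => coord hE (h.stCocycle.toFun σ))
        (map_mul_of_intertwine (coord_smul hE)) g u
      refine ⟨(coord hE).symm w, fun τ hτ => (coord hE).injective ?_⟩
      rw [← hg, FLTA.Galois.inertiaSubgroupIn_smul_iff] at hτ
      obtain ⟨t, -, htτ⟩ := FLTA.TW.exists_inertiaG_eq q hτ
      have h' := hw (g⁻¹ * τ * g) (by rw [← htτ]; exact (h.coord_stCocycle _).trans (hu t))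
      rw [show g * (g⁻¹ * τ * g) * g⁻¹ = τ by group] at h'
      rw [map_sub, coord_smul, AddEquiv.apply_symm_apply]
      exact h'
    · exact fun A hA => ⟨0, fun σ hσ => (coord hE).injective <| by
        rw [coord_stCocycle, h.unram ℓ hℓ hℓ2 hgood hℓQ hℓt A hA σ hσ, stVec_zero, smul_zero,
          sub_zero, map_zero]⟩
  · exact frobNull_of_lineFixed (q := ⟨q, (hQ q hq).prime⟩) (coord_smul hE) hE (hQ q hq)
      (h.isAdCoc_loc _) (h.aux ⟨q, (hQ q hq).prime⟩ hq) fun t => h.coord_stCocycle _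
  · obtain ⟨v, hv⟩ := exists_pairV_repr (φ.comp (coord hE).symm.toAddMonoidHom)
    have e : (fun s => φ (h.stCocycle.toFun (loc twoP s))) =
        fun s => pairV v (stVec (z (loc twoP s))) := funext fun s => hv _
    exact e ▸ h.low T hT v

/-- The Steinberg part is a coboundary. -/
theorem exists_stVec_eq (h : IsClass hE Q Qt f z) {n m : ℕ} (hQ : ∀ q ∈ Q, ConjPrime E n q)
    (hQt : ∀ q ∈ Qt, TWPrime E m q) (hkill : StKilled E Q) :
    ∃ w : V2, ∀ σ, stVec (z σ) = mat hE σ *ᵥ w - w := by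
  obtain ⟨v, hv⟩ := hkill _ (h.stCond hQ hQt)
  exact ⟨coord hE v, fun σ => by rw [← h.coord_stCocycle, hv, map_sub, coord_smul]⟩

end IsClass

end FLTA.LT2.Tangent

end
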