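import Fermat.Agent.BadRed.Galois

/-!
# Frobenius on the new part at a prime exactly dividing the level

For a class killed by both pushforwards `φ x + w x` is toric, and Frobenius acts on toric classes
as `-q w`: so `(φ + q w) (φ + w) = 0` there, `(φ + q w) (τ - 1) = 0` on all torsion and
`(τ - 1) (φ + w) = 0`.
-/

set_option autoImplicit false
set_option synthInstance.maxHeartbeats 400000

noncomputable section

open AlgebraicCurve

namespace FLTA.BadRed.BadFibre

section Generic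

variable {K : Type*} [Field K] [IsAlgClosed K] [CharZero K] {A : ValuationSubring K}
  {k : Type*} [Field k] [IsAlgClosed k] {π : A →+* k}
  {q : ℕ} [NeZero q] [Fact q.Prime] [CharP k q]
  {F : Type*} [Field F] [Algebra K F] {F' : Type*} [Field F'] [Algebra K F']
  {Fk : Type*} [Field Fk] [Algebra k Fk] {g gF : ℕ} (B : BadFibre A π q F F' Fk g gF)
  {n : ℕ}

/-- On classes killed by both pushforwards Frobenius is `-w` up to toric classes. -/
theorem isToric_frob_smul_add (s : B.Sym) (hs : s.IsFrob) {x : Pic0 K F}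
    (hx : B.NormsTrivial n x) : B.IsToric n (s.σ • x + B.wAut • x) := by
  obtain ⟨D, f, hf, rfl, hD, ⟨cN, h, hN⟩, ⟨cN', h', hN'⟩⟩ := hx
  have hk : KummerFn n (D : Divisor K F) f := ⟨hf, hD⟩
  have hk' := (hk.conj s.σ).mul (hk.conj B.wAut)
  refine ⟨SemilinearAut.degZeroSMulHom s.σ D + SemilinearAut.degZeroSMulHom B.wAut D,
    (s.σ • f) * (B.wAut • f), hk'.ne_zero, ?_, fun P => hk'.ord_eq P, ?_⟩
  · rw [SemilinearAut.pic0_smul_mk, SemilinearAut.pic0_smul_mk]
    rfl
  obtain ⟨c₀, p₀, hc₀, hp₀, h₀⟩ := B.exists_hasRed_smul 0 hf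
  obtain ⟨c₁, p₁, hc₁, hp₁, h₁⟩ := B.exists_hasRed_smul 1 hf
  have h₁w : B.HasRed 0 (c₁ • B.w f) p₁ := by
    rw [← map_smul]; exact B.hasRed_w_iff (by decide) h₁
  have h₀w : B.HasRed 1 (c₀ • B.w f) p₀ := by
    rw [← map_smul]; exact B.hasRed_w_iff (by decide) h₀
  obtain ⟨μ, η, hμ, hη, e0⟩ := B.norm_relation hN h₀ h₁ hp₀ hp₁
  obtain ⟨μ', η', hμ', hη', e1⟩ := B.norm_relation hN' h₁w h₀w hp₁ hp₀
  have hex : ∀ i, ∃ (c c' : K) (p p' : Fk) (a : k) (u : Fk), c ≠ 0 ∧ c' ≠ 0 ∧ a ≠ 0 ∧ u ≠ 0 ∧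
      B.HasRed i (c • f) p ∧ B.HasRed i (c' • B.w f) p' ∧
      (B.frobq • p) * p' = algebraMap k Fk a * u ^ n := fun i => by
    fin_cases i
    · exact ⟨c₀, c₁, p₀, p₁, μ', η', hc₀, hc₁, hμ', hη', h₀, h₁w, by rw [mul_comm, e1]⟩
    · exact ⟨c₁, c₀, p₁, p₀, μ, η, hc₁, hc₀, hμ, hη, h₁, h₀w, by rw [mul_comm, e0]⟩
  intro i
  obtain ⟨c, c', p, p', a, u, hc, hc', ha, hu, hp, hp', e⟩ := hex i
  have hr := (hp.sym s).mul hp'
  rw [B.frob_smul_fk s hs, e, semilinear_smul_smul, smul_mul_smul_comm] at hr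
  obtain ⟨m, hm⟩ := B.R.π_surjective a⁻¹
  have hr' := hr.smul m
  rw [hm, smul_smul, Algebra.smul_def a⁻¹, ← mul_assoc (algebraMap k Fk a⁻¹), ← map_mul, inv_mul_cancel₀ ha,
    map_one, one_mul] at hr'
  refine ⟨_, u, mul_ne_zero ?_ (mul_ne_zero ((map_ne_zero _).mpr hc) hc'), hu,
    by rw [wAut_smul]; exact hr'⟩
  intro hm0
  rw [show m = 0 from Subtype.ext hm0, map_zero] at hm
  exact inv_ne_zero ha hm.symm

end Generic

end FLTA.BadRed.BadFibre

namespace FLTA.LT2

open ModularCurve FLTA.BadRed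

local notation "Γ" => AlgebraicClosure ℚ ≃ₐ[ℚ] AlgebraicClosure ℚ

variable (N q : ℕ) [NeZero N] [NeZero q] [hq : Fact q.Prime] (hqN : ¬ q ∣ N)

/-- The involution at `q` of the level `N q` field. -/
def swapEquiv : modularFunctionFieldBar (N * q) ≃ₐ[AlgebraicClosure ℚ]
    modularFunctionFieldBar (N * q) :=
  AlgEquiv.ofAlgHom (swapBar N q hqN) (swapBar N q hqN)
    (AlgHom.ext (swapBar_swapBar N q hqN)) (AlgHom.ext (swapBar_swapBar N q hqN))

/-- The involution at `q` on classes. -/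
def swapAut : SemilinearAut (AlgebraicClosure ℚ) (modularFunctionFieldBar (N * q)) :=
  SemilinearAut.ofAlgAut (swapEquiv N q hqN)

theorem wAut_badFibre {A : ValuationSubring (AlgebraicClosure ℚ)}
    [CharP (IsLocalRing.ResidueField A) q] [PerfectRing (IsLocalRing.ResidueField A) q]
    [IsAlgClosed (IsLocalRing.ResidueField A)] (hA : A.LiesOverPrime q) :
    (badFibre N q A hA hqN).wAut = swapAut N q hqN := rfl

theorem galois_smul_swapAut (σ : Γ) (x : JZero (N * q)) :
    swapAut N q hqN • σ • x = σ • swapAut N q hqN • x := by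
  have h : swapAut N q hqN * arithmeticGalois (modularFunctionFieldFull (N * q)) σ =
      arithmeticGalois (modularFunctionFieldFull (N * q)) σ * swapAut N q hqN :=
    Subtype.ext (Prod.ext (RingEquiv.ext fun f => galois_smul_swap N q _
      (swapBar_alpha N q hqN) (swapBar_beta N q hqN) σ f) (RingEquiv.ext fun _ => rfl))
  rw [galois_smul_pic0_def, galois_smul_pic0_def, ← mul_smul, ← mul_smul, h]

variable {A : ValuationSubring (AlgebraicClosure ℚ)} (hA : A.LiesOverPrime q)

include hA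

/-- `φ = -q w` on the image of inertia. -/
theorem frob_smul_inertia_sub {φ τ : Γ} (hφ : A.IsFrobeniusAt φ q)
    (hτ : τ ∈ A.inertiaSubgroupIn ℚ) {n : ℕ} (hn : ¬ q ∣ n) {x : JZero (N * q)}
    (hx : n • x = 0) :
    φ • (τ • x - x) = -(q • (swapAut N q hqN • (τ • x - x))) := by
  haveI := FLTA.Galois.charP_residueField hq.out hA
  haveI := FLTA.Galois.isAlgClosed_residueField A
  haveI : ExpChar (IsLocalRing.ResidueField A) q := ExpChar.prime hq.out
  haveI : PerfectRing (IsLocalRing.ResidueField A) q := PerfectField.toPerfectRing q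
  obtain ⟨s, hs, hsF⟩ := exists_frobSym N q A hA hqN hφ
  obtain ⟨t, ht, htI⟩ := exists_inertiaSym N q A hA hqN hτ
  have hn' : (n : IsLocalRing.ResidueField A) ≠ 0 := by
    rwa [Ne, CharP.cast_eq_zero_iff (IsLocalRing.ResidueField A) q]
  have h := (badFibre N q A hA hqN).frob_smul_of_isToric hn' s hsF
    ((badFibre N q A hA hqN).isToric_inertia_smul_sub t htI hx)
  rw [hs, ht] at h
  simpa only [galois_smul_pic0_def, wAut_badFibre] using h

/-- On classes killed by both pushforwards inertia fixes `φ + w`, on which `φ = -q w`. -/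
theorem frob_smul_new {φ : Γ} (hφ : A.IsFrobeniusAt φ q) {n : ℕ} (hn : ¬ q ∣ n)
    {x : JZero (N * q)} (hx : n • x = 0) (hα : Carayol.pushAlpha N q x = 0)
    (hβ : Carayol.pushBeta N q x = 0) :
    (∀ τ ∈ A.inertiaSubgroupIn ℚ, τ • (φ • x + swapAut N q hqN • x) =
        φ • x + swapAut N q hqN • x) ∧
      ∀ φ' : Γ, A.IsFrobeniusAt φ' q → φ' • (φ • x + swapAut N q hqN • x) =
        -(q • (swapAut N q hqN • (φ • x + swapAut N q hqN • x))) := by
  haveI := FLTA.Galois.charP_residueField hq.out hA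
  haveI := FLTA.Galois.isAlgClosed_residueField A
  haveI : ExpChar (IsLocalRing.ResidueField A) q := ExpChar.prime hq.out
  haveI : PerfectRing (IsLocalRing.ResidueField A) q := PerfectField.toPerfectRing q
  obtain ⟨s, hs, hsF⟩ := exists_frobSym N q A hA hqN hφ
  have hn' : (n : IsLocalRing.ResidueField A) ≠ 0 := by
    rwa [Ne, CharP.cast_eq_zero_iff (IsLocalRing.ResidueField A) q]
  obtain ⟨D, rfl⟩ := Pic0.mk_surjective x
  rw [Carayol.pushAlpha, Carayol.pushPic_mk_eq_zero_iff] at hα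
  rw [Carayol.pushBeta, Carayol.pushPic_mk_eq_zero_iff] at hβ
  have hN : (badFibre N q A hA hqN).NormsTrivial n (Pic0.mk D) :=
    (badFibre N q A hA hqN).normsTrivial_of_pushforward (Curves.isIntegral_of_algHom _)
      (Curves.isIntegral_of_algHom _) (Curves.finiteAlong _)
      (Curves.normFormulaAlong _ _ (Curves.separableAlong_of_charZero _))
      (Curves.normFormulaAlong _ _ (Curves.separableAlong_of_charZero _)) hx hα
      (pushforwardAlong_mem_principal_congr (swapBar_alpha N q hqN) _ _ hβ)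
  have htor := (badFibre N q A hA hqN).isToric_frob_smul_add s hsF hN
  refine ⟨fun τ hτ => ?_, fun φ' hφ' => ?_⟩
  · obtain ⟨t, ht, htI⟩ := exists_inertiaSym N q A hA hqN hτ
    have h := (badFibre N q A hA hqN).inertia_smul_of_isToric hn' t htI htor
    rw [hs, ht] at h
    simpa only [galois_smul_pic0_def, wAut_badFibre] using h
  · obtain ⟨s', hs', hsF'⟩ := exists_frobSym N q A hA hqN hφ'
    have h := (badFibre N q A hA hqN).frob_smul_of_isToric hn' s' hsF' htor
    rw [hs, hs'] at h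
    simpa only [galois_smul_pic0_def, wAut_badFibre] using h

end FLTA.LT2

end
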