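/-
An Atkin–Lehner symmetry of the function field of `X₀(N q)` acts on Kummer characters as the
Atkin–Lehner operator on parabolic homomorphisms.
-/
import Fermat.Agent.Kummer.Comparison
import Fermat.Agent.Kummer.FrickeField
import Fermat.Agent.LevelRaising.AssemblyIdentities
import Fermat.Agent.Congruence.Embeddings

set_option autoImplicit false

noncomputable section

open AlgebraicCurve ModularCurve CongruenceSubgroup
open UpperHalfPlane hiding I
open FLTA.Bridge (Mero Hol evMero meroSmul meroSmul_mul scaleTau coe_scaleTau jInv)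
open FLTA.Kummer
open FLTA.LevelRaising (QMat alRes alHom alMat)
open FLTA.Gamma0 (homPar0)
open scoped MatrixGroups

namespace FLTA.LT2

local notation "Qb" => AlgebraicClosure ℚ
local notation "ιbar" => AlgHom.toRingHom complexEmbedding

/-- `W` exchanges `j (a b τ)` and `j (a b' τ)` whenever `a ∣ N` and `b b' = q`: it is the
Atkin–Lehner symmetry at `q` of the level `N q` field. -/
def IsAtkinLehner (N q : ℕ) [NeZero N] [NeZero q]
    (W : modularFunctionFieldBar (N * q) →ₐ[Qb] modularFunctionFieldBar (N * q)) : Prop :=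
  ∀ (a b b' : ℕ) [NeZero a] [NeZero b] [NeZero b'] (ha : a ∣ N) (hb : b * b' = q),
    W (jGen (N * q) (d := a * b) (mul_dvd_mul ha (Dvd.intro b' hb))) =
      jGen (N * q) (d := a * b') (mul_dvd_mul ha (Dvd.intro_left b hb))

variable {N q : ℕ}

/-- A rational matrix as a real one. -/
def alRealMat (g : QMat) : Matrix (Fin 2) (Fin 2) ℝ := !![(g.a : ℝ), g.b; g.c, g.d]

theorem alRealMat_mul (g g' : QMat) : alRealMat (g * g') = alRealMat g * alRealMat g' := by
  ext i j
  fin_cases i <;> fin_cases j <;>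
    simp [alRealMat, QMat.mul_def, Matrix.mul_apply, Fin.sum_univ_two]

variable [NeZero q] (h : Nat.Coprime q N)

omit [NeZero q] in
theorem alQMat_det : (alMat h).det = q := by
  simp [alMat, QMat.det, QMat.mul_def, QMat.diag, QMat.ofSL, LevelRaising.alGamma]
  have := (LevelRaising.exists_alData h).choose_spec
  have e : (q : ℚ) * ((LevelRaising.exists_alData h).choose.1 : ℚ) -
      N * ((LevelRaising.exists_alData h).choose.2 : ℚ) = 1 := by exact_mod_cast this
  linear_combination (q : ℚ) * e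

theorem alRealMat_alMat_det : (alRealMat (alMat h)).det = (q : ℝ) := by
  have e := congrArg (fun x : ℚ => (x : ℝ)) (alQMat_det h)
  simp only [QMat.det, Rat.cast_sub, Rat.cast_mul, Rat.cast_natCast] at e
  rw [alRealMat, Matrix.det_fin_two_of]
  exact e

/-- The Atkin–Lehner matrix in `GL(2, ℝ)⁺`. -/
def alPos : GL(2, ℝ)⁺ :=
  ⟨Matrix.GeneralLinearGroup.mkOfDetNeZero (alRealMat (alMat h))
    (by rw [alRealMat_alMat_det]; exact_mod_cast NeZero.ne q), by
    show (0 : ℝ) < (alRealMat (alMat h)).det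
    rw [alRealMat_alMat_det]; exact_mod_cast Nat.pos_of_ne_zero (NeZero.ne q)⟩

theorem alPos_mul (γ : Gamma0 (N * q)) :
    alPos h * slPosHom (γ : SL(2, ℤ)) =
      slPosHom ((alHom h γ : Gamma0 (N * q)) : SL(2, ℤ)) * alPos h := by
  have e : ∀ g : SL(2, ℤ), ((slPosHom g : GL(2, ℝ)⁺) : GL (Fin 2) ℝ).val =
      alRealMat (QMat.ofSL g) := fun g => by
    ext i j
    fin_cases i <;> fin_cases j <;> simp [slPosHom, alRealMat, QMat.ofSL]
  refine Subtype.ext (Units.ext ?_)
  show alRealMat (alMat h) * _ = _ * alRealMat (alMat h)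
  rw [e, e, ← alRealMat_mul, ← alRealMat_mul, LevelRaising.alMat_mul]

/-- `diag(a b, 1)` times the Atkin–Lehner matrix is unimodular times `diag(a b', 1)`. -/
theorem jInv_scaleTau_alPos (a b b' : ℕ) [NeZero a] [NeZero b] [NeZero b'] (ha : a ∣ N)
    (hb : b * b' = q) (τ : ℍ) :
    jInv (scaleTau (a * b) ((alPos h : GL (Fin 2) ℝ) • τ)) = jInv (scaleTau (a * b') τ) := by
  obtain ⟨a', rfl⟩ := ha
  have hxy := (LevelRaising.exists_alData h).choose_spec
  set x := (LevelRaising.exists_alData h).choose.1 with hx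
  set y := (LevelRaising.exists_alData h).choose.2 with hy
  let g : SL(2, ℤ) := ⟨!![(b : ℤ) * x, (a : ℤ) * y; (a' : ℤ), (b' : ℤ)], by
    rw [Matrix.det_fin_two_of]
    have hb' : ((b : ℤ) * b') = q := by exact_mod_cast hb
    push_cast at hxy
    linear_combination hxy + x * hb'⟩
  suffices e : scaleTau (a * b) ((alPos h : GL (Fin 2) ℝ) • τ) = g • scaleTau (a * b') τ by
    rw [e, Bridge.jInv_smul]
  apply UpperHalfPlane.ext
  rw [coe_scaleTau, Bridge.coe_smul_eq, coe_scaleTau]
  have hdet : (0 : ℝ) < (((alPos h : GL(2, ℝ)⁺) : GL (Fin 2) ℝ).det : ℝ) := (alPos h).2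
  rw [UpperHalfPlane.coe_smul_of_det_pos hdet]
  have hA : (((alPos h : GL(2, ℝ)⁺) : GL (Fin 2) ℝ) : Matrix (Fin 2) (Fin 2) ℝ) =
      !![(q : ℝ) * x, (y : ℝ); (a * a' : ℕ) * (q : ℝ), (q : ℝ)] := by
    show alRealMat (alMat h) = _
    ext i j
    fin_cases i <;> fin_cases j <;>
      simp [alRealMat, alMat, QMat.mul_def, QMat.diag, QMat.ofSL, LevelRaising.alGamma, hx, hy,
        mul_comm]
  simp only [UpperHalfPlane.num, UpperHalfPlane.denom, hA, g]
  simp
  have hq : (q : ℂ) = b * b' := by exact_mod_cast hb.symm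
  have h1 : ((a : ℂ) * a' * τ + 1) ≠ 0 := by
    intro h0
    have := congrArg Complex.im h0
    simp at this
    exact τ.im_pos.ne' (by
      rcases this with (h2 | h2) | h2
      · exact absurd h2 (NeZero.ne a)
      · subst h2; simp at h0
      · exact h2)
  have hb0 : (b : ℂ) ≠ 0 := by exact_mod_cast NeZero.ne b
  have hb'0 : (b' : ℂ) ≠ 0 := by exact_mod_cast NeZero.ne b'
  have h2 : (a' : ℂ) * ((a : ℂ) * b' * τ) + b' ≠ 0 := by
    rw [show (a' : ℂ) * ((a : ℂ) * b' * τ) + b' = b' * ((a : ℂ) * a' * τ + 1) by ring]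
    exact mul_ne_zero hb'0 h1
  have h3 : (a : ℂ) * a' * q * τ + q ≠ 0 := by
    rw [show (a : ℂ) * a' * q * τ + q = q * ((a : ℂ) * a' * τ + 1) by ring]
    exact mul_ne_zero (by rw [hq]; exact mul_ne_zero hb0 hb'0) h1
  rw [show (a : ℂ) * a' * q * τ + q = (q : ℂ) * ((a : ℂ) * a' * τ + 1) by ring,
    show (a' : ℂ) * ((a : ℂ) * b' * τ) + b' = (b' : ℂ) * ((a : ℂ) * a' * τ + 1) by ring, hq]
  field_simp

variable [NeZero N]

theorem evMero_jGen (M : ℕ) [NeZero M] {d : ℕ} [NeZero d] (hd : d ∣ M) :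
    evMero M ιbar (jGen M hd) =
      algebraMap Hol Mero (Bridge.modHolToHol M (Bridge.jAt M d hd)) := by
  have e : jGen M hd = Bridge.jElt M Qb hd :=
    Subtype.ext (Congruence.coeffEmb_qExpand_jq d).symm
  rw [e]
  exact Bridge.evMero_jElt M ιbar hd

/-- The symmetry is composition with the Atkin–Lehner matrix. -/
theorem evMero_isAtkinLehner
    {W : modularFunctionFieldBar (N * q) →ₐ[Qb] modularFunctionFieldBar (N * q)}
    (hW : IsAtkinLehner N q W) (f : modularFunctionFieldBar (N * q)) :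
    evMero (N * q) ιbar (W f) = meroSmul (alPos h) (evMero (N * q) ιbar f) := by
  let _ : Algebra Qb Mero := ((algebraMap ℂ Mero).comp ιbar).toAlgebra
  let u : modularFunctionFieldBar (N * q) →ₐ[Qb] Mero :=
    { (evMero (N * q) ιbar).comp W.toRingHom with
      commutes' := fun c => by
        show evMero (N * q) ιbar (W (algebraMap _ _ c)) = _
        rw [W.commutes, Bridge.evMero_algebraMap]
        rfl }
  let v : modularFunctionFieldBar (N * q) →ₐ[Qb] Mero :=
    { (meroSmul (alPos h)).toRingEquiv.toRingHom.comp (evMero (N * q) ιbar) with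
      commutes' := fun c => by
        show meroSmul (alPos h) (evMero (N * q) ιbar (algebraMap _ _ c)) = _
        rw [Bridge.evMero_algebraMap, AlgEquiv.commutes]
        rfl }
  suffices e : u = v from congrArg (fun φ => φ f) e
  refine bar_hom_ext (N * q) fun d _ hd => ?_
  obtain ⟨a, b, ha, hb, rfl⟩ := Nat.dvd_mul.mp hd
  obtain ⟨b', hb'⟩ := hb
  have : NeZero a := ⟨fun h0 => NeZero.ne (a * b) (by rw [h0, zero_mul])⟩
  have : NeZero b := ⟨fun h0 => NeZero.ne (a * b) (by rw [h0, mul_zero])⟩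
  have : NeZero b' := ⟨fun h0 => NeZero.ne q (by rw [hb', h0, mul_zero])⟩
  show evMero (N * q) ιbar (W (jGen (N * q) hd)) =
    meroSmul (alPos h) (evMero (N * q) ιbar (jGen (N * q) hd))
  rw [hW a b b' ha hb'.symm, evMero_jGen, evMero_jGen, Bridge.meroSmul_algebraMap]
  refine congrArg (algebraMap Hol Mero) (Subtype.ext (funext fun τ => ?_))
  show jInv (scaleTau (a * b') τ) = jInv (scaleTau (a * b) ((alPos h : GL (Fin 2) ℝ) • τ))
  exact (jInv_scaleTau_alPos h a b b' ha hb'.symm τ).symm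

/-! ### Fricke conjugation and the Atkin–Lehner endomorphism -/

/-- Conjugation of a rational matrix by the Fricke matrix of level `M`. -/
def qFricke (M : ℕ) (g : QMat) : QMat := ⟨g.d, -g.c / M, -(M : ℚ) * g.b, g.a⟩

theorem qFricke_mul (M : ℕ) [NeZero M] (g g' : QMat) :
    qFricke M (g * g') = qFricke M g * qFricke M g' := by
  have hM : (M : ℚ) ≠ 0 := by exact_mod_cast NeZero.ne M
  simp only [qFricke, QMat.mul_def, QMat.mk.injEq]
  refine ⟨?_, ?_, ?_, ?_⟩ <;> field_simp <;> ring

theorem ofSL_frickeConj (M : ℕ) [NeZero M] (γ : Gamma0 M) :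
    QMat.ofSL ((frickeConj M γ : Gamma0 M) : SL(2, ℤ)) = qFricke M (QMat.ofSL (γ : SL(2, ℤ))) := by
  obtain ⟨c, hc⟩ := Kummer.dvd_lowerLeft M γ
  have hM : (M : ℚ) ≠ 0 := by exact_mod_cast NeZero.ne M
  simp only [QMat.ofSL, qFricke, frickeConj_coe, frickeMat, QMat.mk.injEq]
  simp [hc, Int.mul_ediv_cancel_left _ (natCast_ne_zero' M)]
  field_simp

/-- `(q + N, -(x + y); -N q (x + y), N y² + q x²)`. -/
def alDelta : Gamma0 (N * q) :=
  let x := (LevelRaising.exists_alData h).choose.1
  let y := (LevelRaising.exists_alData h).choose.2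
  ⟨⟨!![(q : ℤ) + N, -(x + y); -((N : ℤ) * q * (x + y)), N * y ^ 2 + q * x ^ 2], by
    rw [Matrix.det_fin_two_of]
    linear_combination ((q : ℤ) * x - N * y + 1) * (LevelRaising.exists_alData h).choose_spec⟩,
    Periods.mem_Gamma0_of_dvd (by simp)⟩

theorem qFricke_alMat :
    qFricke (N * q) (alMat h) = QMat.ofSL ((alDelta h : Gamma0 (N * q)) : SL(2, ℤ)) * alMat h := by
  have hxy : (q : ℚ) * ((LevelRaising.exists_alData h).choose.1 : ℚ) -
      N * ((LevelRaising.exists_alData h).choose.2 : ℚ) = 1 := by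
    exact_mod_cast (LevelRaising.exists_alData h).choose_spec
  have hN : (N : ℚ) ≠ 0 := by exact_mod_cast NeZero.ne N
  have hq : (q : ℚ) ≠ 0 := by exact_mod_cast NeZero.ne q
  simp only [qFricke, alMat, alDelta, LevelRaising.alGamma, QMat.diag, QMat.ofSL, QMat.mul_def,
    QMat.mk.injEq]
  simp
  generalize ((LevelRaising.exists_alData h).choose.1 : ℚ) = x,
    ((LevelRaising.exists_alData h).choose.2 : ℚ) = y at hxy ⊢
  refine ⟨?_, ?_, ?_, ?_⟩
  · linear_combination -(q : ℚ) * hxy
  · field_simp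
    linear_combination hxy
  · linear_combination ((N : ℚ) * q * y) * hxy
  · linear_combination -((q : ℚ) * x) * hxy

theorem frickeConj_alHom (γ : Gamma0 (N * q)) :
    frickeConj (N * q) (alHom h γ) =
      alDelta h * alHom h (frickeConj (N * q) γ) * (alDelta h)⁻¹ := by
  have e := congrArg (qFricke (N * q)) (LevelRaising.alMat_mul h γ)
  rw [qFricke_mul, qFricke_mul, qFricke_alMat, ← ofSL_frickeConj, ← ofSL_frickeConj,
    LevelRaising.qmat_mul_assoc, LevelRaising.alMat_mul, ← LevelRaising.qmat_mul_assoc,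
    ← LevelRaising.qmat_mul_assoc, ← QMat.ofSL_mul, ← QMat.ofSL_mul] at e
  have e' := LevelRaising.ofSL_injective
    (LevelRaising.qmat_mul_right_cancel (LevelRaising.det_alMat_ne h) e)
  rw [eq_mul_inv_iff_mul_eq]
  exact Subtype.ext e'.symm

theorem alRes_frickePull {A : Type*} [AddCommGroup A]
    (φ : Additive (Gamma0 (N * q)) →+ A) :
    alRes h (frickePull (N * q) A φ) = frickePull (N * q) A (alRes h φ) := by
  refine AddMonoidHom.ext fun z => ?_
  obtain ⟨γ, rfl⟩ := Additive.ofMul.surjective z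
  show φ (Additive.ofMul (frickeConj (N * q) (alHom h γ))) =
    φ (Additive.ofMul (alHom h (frickeConj (N * q) γ)))
  rw [frickeConj_alHom, LevelRaising.apply_conj_eq]

/-! ### The Kummer comparison -/

theorem torsionRep_smul {K F : Type*} [Field K] [Field F] [Algebra K F] (w : F ≃ₐ[K] F) {n : ℕ}
    {x : Pic0 K F} {f : F} (hf : TorsionRep n x f) : TorsionRep n (w • x) (w f) := by
  obtain ⟨hf0, D, rfl, hD⟩ := hf
  refine ⟨by simpa using hf0, Pic0.degZeroSMulHom w D, (Pic0.smul_mk w D).symm, fun v => ?_⟩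
  have h := Place.ord_smul w (w⁻¹ • v) f
  rw [smul_inv_smul] at h
  rw [Pic0.coe_degZeroSMulHom, Divisor.smul_apply, hD, h]

/-- An Atkin–Lehner symmetry is the Atkin–Lehner operator on Kummer characters. -/
theorem kummerEquiv_isAtkinLehner
    {W : modularFunctionFieldBar (N * q) ≃ₐ[Qb] modularFunctionFieldBar (N * q)}
    (hW : IsAtkinLehner N q W.toAlgHom) (n : ℕ) [NeZero n] (x y : JTors (N * q) n)
    (hy : (y : JZero (N * q)) = W • (x : JZero (N * q))) :
    (kummerEquiv (N * q) n y).1 = alRes h (kummerEquiv (N * q) n x).1 := by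
  obtain ⟨f, F, χ, hf, hF, hχ, hx⟩ := exists_rep_root x
  have hy' := kummerTorsionEquiv_eq_of_root (x := y) (f := W f)
    (by rw [hy]; exact torsionRep_smul W hf) (c := 1) one_ne_zero
    (F := meroSmul (alPos h) F) (χ := alRes h χ)
    (by rw [map_one, one_mul, ← map_pow, hF]; exact (evMero_isAtkinLehner h hW f).symm)
    (fun γ => by
      rw [← meroSmul_mul, alPos_mul h γ, meroSmul_mul, hχ, map_mul, AlgEquiv.commutes]
      rfl)
  show (kummerTorsionEquiv (N * q) n y).1 = alRes h (kummerTorsionEquiv (N * q) n x).1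
  rw [hy', hx, alRes_frickePull]

end FLTA.LT2
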