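import Fermat.Agent.LT2.PointsSpecialFibre
import Fermat.Agent.LT2.TraceBridge
import Fermat.Agent.LevelRaising.AssemblyAdjoint
import Fermat.Agent.LevelRaising.AssemblyEigen
import Fermat.Agent.LevelRaising.AssemblyAction
import Fermat.Agent.BadRed.Endgame.Degeneracy
import Fermat.Agent.BadRed.Endgame.Tate
import Fermat.Agent.GaloisReps.TateConstruct

/-!
# The equations at `q ∥ M` on the Tate module

`res ∘ cor ∘ w = U_q + w` on parabolic homomorphisms gives `w = -U_q` on the image of a Hecke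
operator killed at level `N`, and the fibre at `q` then gives
`(φ' - q U) (φ - U) = (φ' - q U) (τ - 1) = (τ - 1) (φ - U) = 0` there.
-/

set_option autoImplicit false
set_option synthInstance.maxHeartbeats 400000

noncomputable section

open ModularCurve AlgebraicCurve CongruenceSubgroup
open scoped Matrix
open FLTA.GaloisReps
open FLTA.BadRed (GoodPrime evalLow evalHigh swapBar)
open FLTA.Gamma0 (homPar0 homPar0Equiv homRank)
open FLTA.Periods (heckeHom)
open FLTA.Kummer (JTors)

namespace FLTA.LT2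

local notation "Qb" => AlgebraicClosure ℚ

variable (N q : ℕ) [NeZero N] [NeZero q] [hq : Fact q.Prime] (hqN : ¬ q ∣ N) {S : Finset ℕ}

/-- `U_q` at level `N q`. -/
def uOp : FullHecke (N * q) :=
  CuspForm.heckeAlgebra.U hq.out (dvd_mul_left q N) (Set.notMem_empty q)

include hqN in
theorem coprime_of_not_dvd : Nat.Coprime q N := (Nat.Prime.coprime_iff_not_dvd hq.out).mpr hqN

theorem isAtkinLehner_swapEquiv : IsAtkinLehner N q (swapEquiv N q hqN).toAlgHom := by
  intro a b b' _ _ _ ha hb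
  have key : ∀ (c d : ℕ) [NeZero c] [NeZero d] (hc : c ∣ N * q) (hd : d ∣ N * q),
      c = a → d = a * q →
      swapBar N q hqN (Kummer.jGen (N * q) hc) = Kummer.jGen (N * q) hd ∧
        swapBar N q hqN (Kummer.jGen (N * q) hd) = Kummer.jGen (N * q) hc := by
    intro c d _ _ hc hd hca hda
    subst hca hda
    have hα : heckeAlphaBar Qb N q (Kummer.jGen N ha) = Kummer.jGen (N * q) hc :=
      Subtype.ext (coe_heckeAlphaBar N q _)
    have hβ : heckeBetaBar Qb N q (Kummer.jGen N ha) = Kummer.jGen (N * q) hd := by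
      refine Subtype.ext ?_
      rw [coe_heckeBetaBar, Kummer.coe_jGen, Kummer.coe_jGen, qExpand_qExpand]
      exact qExpand_congr (mul_comm q c) _
    rw [← hα, ← hβ]
    exact ⟨BadRed.swapBar_apply_alpha N q hqN _,
      DFunLike.congr_fun (BadRed.swapBar_beta N q hqN) _⟩
  show swapBar N q hqN _ = _
  rcases hq.out.eq_one_or_self_of_dvd b (Dvd.intro b' hb) with rfl | rfl
  · obtain rfl : b' = q := by simpa using hb
    exact (key (a * 1) (a * b') _ _ (mul_one a) rfl).1
  · obtain rfl : b' = 1 := by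
      simpa [hq.out.ne_zero] using (show b * b' = b * 1 by rw [hb, mul_one])
    exact (key (a * 1) (a * b) _ _ (mul_one a) rfl).2

/-- On the image of a Hecke operator killed at level `N`, `U_q + w = 0`. -/
theorem heckeHom_add_alRes {h : MvPolynomial (GoodPrime N q S) ℤ} (hh : evalLow N q S h = 0)
    (φ : homPar0 ℤ (Gamma0 (N * q)) ℤ) :
    heckeHom ℤ (N * q) q (LevelRaising.heckeAction (N * q) (evalHigh N q S h) φ).1 +
      LevelRaising.alRes (coprime_of_not_dvd N q hqN)
        (LevelRaising.heckeAction (N * q) (evalHigh N q S h) φ).1 = 0 := by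
  have hc := coprime_of_not_dvd N q hqN
  have key : ∀ (h : MvPolynomial (GoodPrime N q S) ℤ) (φ : homPar0 ℤ (Gamma0 (N * q)) ℤ),
      LevelRaising.cor0 N q (LevelRaising.al0 hc
          (LevelRaising.heckeAction (N * q) (evalHigh N q S h) φ)) =
        LevelRaising.heckeAction N (evalLow N q S h)
          (LevelRaising.cor0 N q (LevelRaising.al0 hc φ)) := by
    intro h
    induction h using MvPolynomial.induction_on with
    | C c =>
      intro φ
      simp only [evalLow, evalHigh, eq_intCast, map_intCast, Module.End.intCast_apply, map_zsmul]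
    | add f g hf hg =>
      intro φ
      simp only [map_add, LinearMap.add_apply, hf, hg]
    | mul_X f ℓ hf =>
      intro φ
      rw [map_mul, map_mul, map_mul, map_mul, Module.End.mul_apply, Module.End.mul_apply, hf]
      congr 1
      have hℓN : ¬ (ℓ.1 : ℕ) ∣ N := fun h => ℓ.2.1 (h.mul_right q)
      simp only [evalLow, evalHigh, MvPolynomial.eval₂Hom_X']
      rw [show LevelRaising.heckeAction (N * q)
          (CuspForm.heckeAlgebra.T ℓ.1.2 ℓ.2.1 (Set.notMem_empty (ℓ.1 : ℕ))) φ =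
            LevelRaising.parOp ℤ (N * q) (ℓ.1 : ℕ) φ from
          Subtype.ext (LevelRaising.heckeAction_T (N * q) ℓ.1.2 ℓ.2.1 φ),
        LevelRaising.cor0_al0_parOp_int hc ℓ.1.2 ℓ.2.1]
      exact Subtype.ext (LevelRaising.heckeAction_T N ℓ.1.2 hℓN _).symm
  set ψ := LevelRaising.heckeAction (N * q) (evalHigh N q S h) φ with hψ
  have h0 : LevelRaising.corRes (LevelRaising.alRes hc ψ.1) = 0 := by
    have e := congrArg Subtype.val (key h φ)
    rw [hh, map_zero, LinearMap.zero_apply] at e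
    exact e
  rw [← LevelRaising.inclRes_corRes_alRes (𝕜 := ℤ) hqN hc
    (LevelRaising.isParabolicHom_of_isParHom0 ψ.2), h0]
  exact AddMonoidHom.ext fun _ => rfl

variable (p : ℕ) [Fact p.Prime]

local instance instNeZeroPowSpecial (k : ℕ) : NeZero (p ^ k) :=
  ⟨pow_ne_zero _ (Fact.out (p := p.Prime)).ne_zero⟩

/-- On the image of a Hecke operator killed at level `N`, the involution is `-U_q`. -/
theorem swapAut_eq_neg_hecke {h : MvPolynomial (GoodPrime N q S) ℤ} (hh : evalLow N q S h = 0)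
    (n : ℕ) [NeZero n] {x y : JTors (N * q) n}
    (hxy : (heckeMat (N * q) (evalHigh N q S h)).map (Int.cast : ℤ → ZMod n) *ᵥ
      torsCoord (N * q) n x = torsCoord (N * q) n y) :
    swapAut N q hqN • (y : JZero (N * q)) =
      -heckeOperatorBar (N * q) ⟨q, hq.out⟩ (y : JZero (N * q)) := by
  have hc := coprime_of_not_dvd N q hqN
  obtain ⟨v, hv⟩ : ∃ v : Fin (homRank (N * q)) → ℤ,
      (fun i => ((v i : ℤ) : ZMod n)) = torsCoord (N * q) n x :=
    ⟨fun i => ((torsCoord (N * q) n x i).val : ℤ), funext fun i => by simp⟩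
  let φ := (homPar0Equiv (N * q) ℤ ℤ).symm v
  set t := evalHigh N q S h with ht
  set ψ := LevelRaising.heckeAction (N * q) t φ with hψ
  let c : ℤ →+ ZMod n := Int.castAddHom _
  have hyk : (Kummer.kummerEquiv (N * q) n y).1 = c.comp ψ.1 := by
    refine congrArg Subtype.val ((homPar0Equiv (N * q) ℤ (ZMod n)).injective (a₁ := Kummer.kummerEquiv (N * q) n y)
      (a₂ := ⟨c.comp ψ.1, ψ.2.comp c⟩) (funext fun i => ?_))
    rw [← torsCoord_apply, ← hxy, ← hv, Gamma0.homPar0Equiv_apply]
    have e1 := congrFun (latMat_mulVec (N * q) (Periods.heckeQuot (N * q) t)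
      ((LevelRaising.parFunctionalEquiv (N * q)).symm φ)) i
    have e0 : (fun j => ((LevelRaising.parFunctionalEquiv (N * q)).symm φ)
        (latVec (N * q) j)) = v := funext fun j => by
      rw [← congrFun ((homPar0Equiv (N * q) ℤ ℤ).apply_symm_apply v) j, Gamma0.homPar0Equiv_apply]
      exact DFunLike.congr_fun (LevelRaising.parFunctionalEquiv_symm_comp (N * q) φ) _
    rw [e0, show (Int.cast : ℤ → ℤ) = id from rfl, Matrix.map_id] at e1
    have e2 : ψ.1 (Additive.ofMul (Gamma0.parBasis (N * q) i)) = (heckeMat (N * q) t *ᵥ v) i :=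
      e1.symm
    show _ = ((ψ.1 (Additive.ofMul (Gamma0.parBasis (N * q) i)) : ℤ) : ZMod n)
    rw [e2]
    exact (RingHom.map_mulVec (Int.castRingHom (ZMod n)) _ v i).symm
  have hmem : heckeOperatorBar (N * q) ⟨q, hq.out⟩ (y : JZero (N * q)) ∈
      Pic0.torsion Qb (modularFunctionFieldBar (N * q)) n := hecke_mem_torsion (N * q) n _ y
  have hmem' : swapEquiv N q hqN • (y : JZero (N * q)) ∈
      Pic0.torsion Qb (modularFunctionFieldBar (N * q)) n := by
    rw [Pic0.mem_torsion, ← DistribSMul.toAddMonoidHom_apply (JZero (N * q)), ← map_zsmul,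
      Pic0.mem_torsion.mp y.2, map_zero]
  have h1 := Kummer.kummerEquiv_heckeOperatorBar (N * q) n ⟨q, hq.out⟩ y ⟨_, hmem⟩ rfl
  have h2 := kummerEquiv_isAtkinLehner hc (isAtkinLehner_swapEquiv N q hqN) n y ⟨_, hmem'⟩ rfl
  have h0 : (⟨_, hmem'⟩ : JTors (N * q) n) + ⟨_, hmem⟩ = 0 := by
    refine (Kummer.kummerEquiv (N * q) n).injective ?_
    rw [map_add, map_zero]
    refine Subtype.ext ?_
    show (Kummer.kummerEquiv (N * q) n ⟨_, hmem'⟩).1 + (Kummer.kummerEquiv (N * q) n ⟨_, hmem⟩).1 = 0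
    rw [h1, h2, hyk, Periods.heckeHom_comp ℤ]
    have e := heckeHom_add_alRes N q hqN hh φ
    rw [← hψ, add_comm] at e
    show c.comp (LevelRaising.alRes hc ψ.1) + c.comp (heckeHom ℤ (N * q) q ψ.1) = 0
    rw [← AddMonoidHom.comp_add, e]
    exact AddMonoidHom.comp_zero _
  exact eq_neg_of_add_eq_zero_left (congrArg Subtype.val h0)

variable {A : ValuationSubring Qb} (hA : A.LiesOverPrime q)

include hA hqN in
set_option maxHeartbeats 1000000 in
-- matrices over torsion of the Jacobian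
/-- The three equations at `q` on the Tate module, after a Hecke operator killed at level `N`. -/
theorem tateRho_equations (hqp : q ≠ p) (hpS : p ∈ S) {h : MvPolynomial (GoodPrime N q S) ℤ}
    (hh : evalLow N q S h = 0) {φ φ' τ : GalQ} (hφ : A.IsFrobeniusAt φ q)
    (hφ' : A.IsFrobeniusAt φ' q) (hτ : τ ∈ A.inertiaSubgroupIn ℚ) :
    let U := (heckeMat (N * q) (uOp N q)).map (Int.cast : ℤ → ℤ_[p])
    let T := (heckeMat (N * q) (evalHigh N q S h)).map (Int.cast : ℤ → ℤ_[p])
    let ρ := tateRho (N * q) p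
    (ρ φ' - (q : Matrix (Fin (homRank (N * q))) (Fin (homRank (N * q))) ℤ_[p]) * U) *
        (ρ φ - U) * T = 0 ∧
      (ρ φ' - (q : Matrix (Fin (homRank (N * q))) (Fin (homRank (N * q))) ℤ_[p]) * U) *
        (ρ τ - 1) * T = 0 ∧
      (ρ τ - 1) * (ρ φ - U) * T = 0 := by
  intro U T ρ
  have hk : ∀ k : ℕ, ∀ x : JTors (N * q) (p ^ k),
      let π : Matrix (Fin (homRank (N * q))) (Fin (homRank (N * q))) ℤ_[p] →+* _ :=
        (PadicInt.toZModPow (p := p) k).mapMatrix
      π ((ρ φ' - (q : Matrix _ _ ℤ_[p]) * U) * (ρ φ - U) * T) *ᵥ torsCoord (N * q) (p ^ k) x = 0 ∧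
      π ((ρ φ' - (q : Matrix _ _ ℤ_[p]) * U) * (ρ τ - 1) * T) *ᵥ torsCoord (N * q) (p ^ k) x = 0 ∧
      π ((ρ τ - 1) * (ρ φ - U) * T) *ᵥ torsCoord (N * q) (p ^ k) x = 0 := by
    intro k x π
    set G : GalQ → Matrix (Fin (homRank (N * q))) (Fin (homRank (N * q))) (ZMod (p ^ k)) :=
      fun σ => galMat (N * q) (p ^ k) σ with hG
    set U' := (heckeMat (N * q) (uOp N q)).map (Int.cast : ℤ → ZMod (p ^ k)) with hU'
    set T' := (heckeMat (N * q) (evalHigh N q S h)).map (Int.cast : ℤ → ZMod (p ^ k)) with hT'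
    have eG : ∀ σ, π (ρ σ) = G σ := fun σ => map_tateRho (N * q) p σ k
    have eU : π U = U' := map_intCast_toZModPow _ k
    have eT : π T = T' := map_intCast_toZModPow _ k
    have cGT : ∀ σ, Commute (G σ) T' := fun σ => by
      rw [← eG, ← eT]
      exact ((tateData (N * q) p).commute σ _).map π
    have cUT : Commute U' T' :=
      (((Commute.all (uOp N q) (evalHigh N q S h)).map (heckeMat (N * q))).map
        (Int.castRingHom (ZMod (p ^ k))).mapMatrix)
    obtain ⟨c, hc⟩ : ∃ c : JTors (N * q) (p ^ k) → JTors (N * q) (p ^ k), ∀ z,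
        T' *ᵥ torsCoord (N * q) (p ^ k) z = torsCoord (N * q) (p ^ k) (c z) :=
      ⟨fun z => (torsCoord (N * q) (p ^ k)).symm (T' *ᵥ torsCoord (N * q) (p ^ k) z),
        fun z => ((torsCoord (N * q) (p ^ k)).apply_symm_apply _).symm⟩
    have hn : ¬ q ∣ p ^ k := fun hd =>
      hqp ((Nat.prime_dvd_prime_iff_eq hq.out Fact.out).mp (hq.out.dvd_of_dvd_pow hd))
    have hw : ∀ z, swapAut N q hqN • (c z : JZero (N * q)) =
        -heckeOperatorBar (N * q) ⟨q, hq.out⟩ (c z : JZero (N * q)) := fun z =>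
      swapAut_eq_neg_hecke N q hqN hh (p ^ k) (hc z)
    let uu : JTors (N * q) (p ^ k) → JTors (N * q) (p ^ k) := fun z =>
      ⟨heckeOperatorBar (N * q) ⟨q, hq.out⟩ (z : JZero (N * q)), hecke_mem_torsion (N * q) _ _ z⟩
    have hu : ∀ z, U' *ᵥ torsCoord (N * q) (p ^ k) z = torsCoord (N * q) (p ^ k) (uu z) :=
      fun z => latMat_mulVec_torsCoord (N * q) (p ^ k) ⟨q, hq.out⟩
        (M := Periods.heckeQuot (N * q) (uOp N q))
        (LevelRaising.heckeQuot_comp_parMk (uOp N q)
          (Periods.periodHomPair_heckeULin (dvd_mul_left q N))) z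
    have hg : ∀ σ z, G σ *ᵥ torsCoord (N * q) (p ^ k) z =
        torsCoord (N * q) (p ^ k) (JZero.torsionGaloisRep (N * q) (p ^ k) σ z) :=
      fun σ z => galMat_mulVec (N * q) (p ^ k) σ z
    set r := JZero.torsionGaloisRep (N * q) (p ^ k)
    -- vectors in the image of `T'` on which `φ' = q U`
    have hQ : ∀ z, φ' • (c z : JZero (N * q)) =
        -(q • (swapAut N q hqN • (c z : JZero (N * q)))) →
        (G φ' - (q : Matrix _ _ (ZMod (p ^ k))) * U') *ᵥ
          (T' *ᵥ torsCoord (N * q) (p ^ k) z) = 0 := by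
      intro z hz
      rw [hc, Matrix.sub_mulVec, hg, ← Matrix.mulVec_mulVec, hu, Matrix.natCast_mulVec, sub_eq_zero]
      have e : r φ' (c z) = q • uu (c z) := by
        refine Subtype.ext ?_
        rw [AddSubmonoidClass.coe_nsmul, JZero.coe_torsionGaloisRep_apply, hz, hw]
        exact (congrArg Neg.neg (neg_nsmul _ q)).trans (neg_neg _)
      rw [e, map_nsmul]
      ext i
      simp
    -- `(φ - U) y` and `(τ - 1) y` for `y` in the image
    set z₁ := r φ x - uu x with hz₁
    set z₂ := r τ x - x with hz₂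
    have hz₁' : torsCoord (N * q) (p ^ k) z₁ = (G φ - U') *ᵥ torsCoord (N * q) (p ^ k) x := by
      rw [hz₁, map_sub, ← hg, ← hu, Matrix.sub_mulVec]
    have hz₂' : torsCoord (N * q) (p ^ k) z₂ = (G τ - 1) *ᵥ torsCoord (N * q) (p ^ k) x := by
      rw [hz₂, map_sub, ← hg, Matrix.sub_mulVec, Matrix.one_mulVec]
    have e₁ : (c z₁ : JZero (N * q)) =
        φ • (c x : JZero (N * q)) + swapAut N q hqN • (c x : JZero (N * q)) := by
      have : c z₁ = r φ (c x) - uu (c x) := (torsCoord (N * q) (p ^ k)).injective (by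
        rw [map_sub, ← hc, ← hg, ← hu, ← hc, hz₁', Matrix.mulVec_mulVec, Matrix.mulVec_mulVec,
          Matrix.mulVec_mulVec, ← Matrix.sub_mulVec, ← sub_mul, ← ((cGT φ).sub_left cUT).eq])
      rw [this, AddSubgroupClass.coe_sub, hw, ← sub_eq_add_neg, JZero.coe_torsionGaloisRep_apply]
    have e₂ : (c z₂ : JZero (N * q)) = τ • (c x : JZero (N * q)) - (c x : JZero (N * q)) := by
      have : c z₂ = r τ (c x) - c x := (torsCoord (N * q) (p ^ k)).injective (by
        rw [map_sub, ← hc, ← hg, ← hc, hz₂', Matrix.mulVec_mulVec, Matrix.mulVec_mulVec,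
          ← Matrix.sub_mulVec, ← sub_one_mul, ← ((cGT τ).sub_left (Commute.one_left T')).eq])
      rw [this, AddSubgroupClass.coe_sub, JZero.coe_torsionGaloisRep_apply]
    obtain ⟨hα, hβ⟩ := BadRed.push_eq_zero hh hpS (hc x)
    obtain ⟨hI, hF⟩ := frob_smul_new N q hqN hA hφ hn (nsmul_jTors (N * q) (c x)) hα hβ
    refine ⟨?_, ?_, ?_⟩
    · rw [map_mul, map_mul, map_sub, map_sub, map_mul, map_natCast, eG, eG, eU, eT, mul_assoc,
        ((cGT φ).sub_left cUT).eq, ← Matrix.mulVec_mulVec, ← Matrix.mulVec_mulVec, ← hz₁']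
      exact hQ z₁ (by rw [e₁]; exact hF φ' hφ')
    · rw [map_mul, map_mul, map_sub, map_sub, map_mul, map_natCast, map_one, eG, eG, eU, eT,
        mul_assoc, ((cGT τ).sub_left (Commute.one_left T')).eq, ← Matrix.mulVec_mulVec,
        ← Matrix.mulVec_mulVec, ← hz₂']
      refine hQ z₂ ?_
      rw [e₂]
      exact frob_smul_inertia_sub N q hqN hA hφ' hτ hn (nsmul_jTors (N * q) (c x))
    · rw [map_mul, map_mul, map_sub, map_sub, map_one, eG, eG, eU, eT,
        mul_assoc, ((cGT φ).sub_left cUT).eq, ← Matrix.mulVec_mulVec,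
        ← Matrix.mulVec_mulVec, ← hz₁', hc, Matrix.sub_mulVec, hg, Matrix.one_mulVec, sub_eq_zero]
      refine congrArg _ (Subtype.ext ?_)
      rw [JZero.coe_torsionGaloisRep_apply, e₁]
      exact hI τ hτ
  refine ⟨?_, ?_, ?_⟩ <;> refine matrix_ext_of_toZModPow fun k => ?_ <;>
    refine matrix_ext_torsCoord fun x => ?_ <;>
    rw [Matrix.map_zero _ (map_zero _), Matrix.zero_mulVec]
  exacts [(hk k x).1, (hk k x).2.1, (hk k x).2.2]

end FLTA.LT2

end
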