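import Fermat.Agent.RT.Diamond.TwistKeep
import Fermat.Agent.RT.CoeffPointsAlg
import Fermat.Agent.RT.HeckeLocalBoundary
import Fermat.Agent.GaloisReps.TateConstructLattice

/-!
# Part G of LT2: the classical system of an eigenclass with a twisted character

An eigenclass for the character `(∏ ε_q ∘ a)²` at a squarefree level `L`, not Eisenstein at a
prime `l₀ ≡ 1`, gives a character of the classical Hecke algebra at a level `N` with the same
prime divisors, the `T`'s and the `U`'s outside the twisting primes being those of the class up to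
the sign `∏ ε_q(l)` over the primes where `ε_q` is quadratic.
-/

set_option autoImplicit false

noncomputable section

open CongruenceSubgroup ModularCurve.Period
open scoped MatrixGroups

namespace FLTA.LT2

open FLTA.RT FLTA.Periods FLTA.LevelRaising

set_option maxHeartbeats 800000 in
-- the Hecke algebra acting on the parabolic lattice
/-- A parabolic eigenhomomorphism gives a character of the Hecke algebra. -/
theorem exists_char_of_parEigen {N : ℕ} [NeZero N] {S : Set ℕ} {K : Type} [Field K] [CharZero K]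
    {v : Additive (Gamma0 N) →+ K} (hv0 : v ≠ 0) (hpar : IsParabolicHom (Gamma0 N) v) (a : ℕ → K)
    (hT : ∀ l : ℕ, l.Prime → l ∉ S → heckeHom K N l v = a l • v) :
    ∃ χ : CuspForm.heckeAlgebra N 2 S →+* K,
      (∀ (l : ℕ) (hl : l.Prime) (hlN : ¬ l ∣ N) (hlS : l ∉ S),
        χ (CuspForm.heckeAlgebra.T hl hlN hlS) = a l) ∧
      ∀ (l : ℕ) (hl : l.Prime) (hlN : l ∣ N) (hlS : l ∉ S),
        χ (CuspForm.heckeAlgebra.U hl hlN hlS) = a l := by
  obtain ⟨u, hu⟩ := exists_parQuot_factor hpar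
  obtain ⟨x₀, hx₀⟩ : ∃ x, u x ≠ 0 := by
    by_contra! h
    exact hv0 (by rw [← hu]; exact AddMonoidHom.ext fun g => h _)
  let P : CuspForm.heckeAlgebra N 2 S → K → Prop := fun t b =>
    ∀ x, u (heckeQuot N (toFull N S t) x) = b * u x
  have hgen : ∀ (l : ℕ), l.Prime → l ∉ S → ∀ t : CuspForm.heckeAlgebra N 2 S,
      (heckeQuot N (toFull N S t)).toAddMonoidHom.comp (parMk (Gamma0 N)) =
        heckeHom ℤ N l (parMk (Gamma0 N)) → P t (a l) := by
    intro l hl hlS t ht x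
    obtain ⟨g, rfl⟩ := parMk_surjective (Gamma0 N) x
    have h := hT l hl hlS
    rw [heckeHom_eq_int, ← hu, heckeHom_comp, ← ht] at h
    exact DFunLike.congr_fun h g
  have hadd : ∀ t t' b b', P t b → P t' b' → P (t + t') (b + b') := fun t t' b b' h h' x => by
    rw [map_add, map_add, LinearMap.add_apply, map_add, h, h', add_mul]
  have hmul : ∀ t t' b b', P t b → P t' b' → P (t * t') (b * b') := fun t t' b b' h h' x => by
    rw [map_mul, map_mul, Module.End.mul_apply, h, h', mul_assoc]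
  have hint : ∀ m : ℤ, P (algebraMap ℤ _ m) (m : K) := fun m x => by
    rw [eq_intCast, map_intCast, map_intCast, Module.End.intCast_apply, map_zsmul, zsmul_eq_mul]
  have hex : ∀ t, ∃ b, P t b := fun t => by
    refine Algebra.adjoin_induction (p := fun y hy => ∃ b, P ⟨y, hy⟩ b) ?_ ?_ ?_ ?_ t.2
    · rintro x (⟨l, hl, hlN, hlS, rfl⟩ | ⟨q, hqN, hq, hqS, rfl⟩)
      · exact ⟨_, hgen l hl hlS _ (GaloisReps.heckeQuot_T_comp hl hlN)⟩
      · exact ⟨_, hgen q hq hqS _ (GaloisReps.heckeQuot_U_comp hq hqN)⟩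
    · exact fun m => ⟨_, hint m⟩
    · exact fun x y hx hy ⟨b, hb⟩ ⟨b', hb'⟩ => ⟨b + b', hadd ⟨x, hx⟩ ⟨y, hy⟩ b b' hb hb'⟩
    · exact fun x y hx hy ⟨b, hb⟩ ⟨b', hb'⟩ => ⟨b * b', hmul ⟨x, hx⟩ ⟨y, hy⟩ b b' hb hb'⟩
  choose χ hχ using hex
  have huniq : ∀ t b, P t b → χ t = b := fun t b hb =>
    mul_right_cancel₀ hx₀ ((hχ t x₀).symm.trans (hb x₀))
  refine ⟨{ toFun := χ
            map_one' := huniq _ _ fun x => by simp
            map_mul' := fun t t' => huniq _ _ (hmul _ _ _ _ (hχ t) (hχ t'))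
            map_zero' := huniq _ _ fun x => by simp
            map_add' := fun t t' => huniq _ _ (hadd _ _ _ _ (hχ t) (hχ t')) },
    fun l hl hlN hlS => ?_, fun l hl hlN hlS => ?_⟩
  · exact huniq _ _ (hgen l hl hlS _ (GaloisReps.heckeQuot_T_comp hl hlN))
  · exact huniq _ _ (hgen l hl hlS _ (GaloisReps.heckeQuot_U_comp hl hlN))

/-- **The classical system of a twisted eigenclass.** -/
theorem exists_classicalSystem {K : Type} [Field K] [CharZero K] {L : ℕ} [NeZero L]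
    (hsq : Squarefree L) (Q₀ : Finset ℕ) (hQ₀ : ∀ q ∈ Q₀, q.Prime ∧ q ∣ L)
    (ε : ∀ q : ℕ, (ZMod q)ˣ →* Kˣ) {z : tH1 (gamChar (sigProd L Q₀ ε)) K} (hz : z ≠ 0)
    (c : ℕ → K) (hT : ∀ l : ℕ, l.Prime →
      (kap Q₀ ε l : K) • (natHecke (sigProd L Q₀ ε) l).app K z = c l • z)
    {l₀ : ℕ} (hl₀ : l₀.Prime) (hl₀L : ¬ l₀ ∣ L) {M : ℕ} (hM : (L * ∏ q ∈ Q₀, q) ∣ M)
    (hl₀M : (l₀ : ZMod M) = 1) (hc : c l₀ ≠ (l₀ : K) + 1) (quad : Finset ℕ)
    (hquad : ∀ q, q ∈ quad ↔ q ∈ Q₀ ∧ ε q ^ 2 = 1) :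
    ∃ (N : ℕ) (_ : NeZero N), L ∣ N ∧ (∀ l : ℕ, l.Prime → l ∣ N → l ∣ L) ∧
      (∀ v : ℕ, v.Prime → v ∣ L → v ∉ Q₀ → ¬ v * v ∣ N) ∧
      ∃ χ : CuspForm.heckeAlgebra N 2 (↑Q₀ : Set ℕ) →+* K,
        (∀ (l : ℕ) (hl : l.Prime) (hlN : ¬ l ∣ N) (hlS : l ∉ (↑Q₀ : Set ℕ)),
          χ (CuspForm.heckeAlgebra.T hl hlN hlS) = (kap quad ε l : K) * c l) ∧
        ∀ (l : ℕ) (hl : l.Prime) (hlN : l ∣ N) (hlS : l ∉ (↑Q₀ : Set ℕ)),
          χ (CuspForm.heckeAlgebra.U hl hlN hlS) = (kap quad ε l : K) * c l := by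
  classical
  have hl₀1 : (l₀ : ZMod (L * ∏ q ∈ Q₀, q)) = 1 := by
    have e := congrArg (ZMod.castHom hM (ZMod (L * ∏ q ∈ Q₀, q))) hl₀M
    rwa [map_natCast, map_one] at e
  set nq := Q₀ \ quad with hnq
  have hsub : quad ⊆ Q₀ := fun q hq => ((hquad q).mp hq).1
  let ε' : ∀ q : ℕ, (ZMod q)ˣ →* Kˣ := fun q => if q ∈ nq then ε q else 1
  set T := L.primeFactors \ nq with hTdef
  have hεnq : ∀ q ∈ nq, ε' q = ε q := fun q hq => if_pos hq
  have hεT : ∀ q ∈ T, ε' q = 1 := fun q hq => if_neg (Finset.mem_sdiff.mp hq).2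
  have hdisj : Disjoint nq T := Finset.disjoint_sdiff
  have hexact : ∀ q : ℕ, q.Prime → q ∣ L → ¬ q * q ∣ L := fun q hq _ h =>
    hq.ne_one (Nat.isUnit_iff.mp (hsq q h))
  have hQ : ∀ q ∈ nq ∪ T, q.Prime ∧ q ∣ L ∧ ¬ q * q ∣ L := fun q hq => by
    have h : q.Prime ∧ q ∣ L := by
      rcases Finset.mem_union.mp hq with h | h
      · exact hQ₀ q (Finset.mem_sdiff.mp h).1
      · exact ⟨Nat.prime_of_mem_primeFactors (Finset.mem_sdiff.mp h).1,
          Nat.dvd_of_mem_primeFactors (Finset.mem_sdiff.mp h).1⟩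
    exact ⟨h.1, h.2, hexact q h.1 h.2⟩
  have hchi : sigProd L Q₀ ε = sigProd L (nq ∪ T) ε' := by
    refine MonoidHom.ext fun x => ?_
    rw [sigProd_apply, sigProd_apply,
      ← Finset.prod_subset (Finset.subset_union_left (s₂ := T)) fun q hq hq' => ?_,
      ← Finset.prod_subset (Finset.sdiff_subset (s := Q₀) (t := quad)) fun q hq hq' => ?_]
    · exact Finset.prod_congr rfl fun q hq => by rw [hεnq q hq]
    · have hq2 : q ∈ quad := by simpa [hq] using hq'
      rw [sigChar_of_dvd _ (hQ₀ q hq).2]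
      exact DFunLike.congr_fun ((hquad q).mp hq2).2 _
    · rw [hεT q ((Finset.mem_union.mp hq).resolve_left hq'), sigChar]
      split_ifs <;> simp
  obtain ⟨N, hN, P, hNP, -, hNL, hLN, J, hJ, hJT⟩ := exists_realisation_keep (K := K) T nq L ε'
    hdisj hQ (fun q hq h => absurd ((hquad q).mpr ⟨(Finset.mem_sdiff.mp hq).1, by
      rwa [hεnq q hq] at h⟩) (Finset.mem_sdiff.mp hq).2) _ hchi
  have htriv : ∀ γ (v : K), (gamChar (sigProd N T ε') γ : K) • v = v := fun γ v => by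
    rw [gamChar_apply, sigProd_apply, Finset.prod_eq_one fun q hq => ?_, Units.val_one, one_smul]
    rw [hεT q hq, sigChar]
    split_ifs <;> simp
  let I : tH1 (gamChar (sigProd L Q₀ ε)) K →ₗ[K] (Additive (Gamma0 N) →+ K) :=
    (tH1EquivHom htriv).toLinearMap.comp J
  have hI : Function.Injective I := (tH1EquivHom htriv).injective.comp hJ
  have hkap : ∀ l, kap nq ε' l = kap nq ε l := fun l =>
    Finset.prod_congr rfl fun q hq => by rw [hεnq q hq]
  have hmul : ∀ l, (kap Q₀ ε l : K) = (kap quad ε l : K) * (kap nq ε l : K) := fun l => by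
    rw [← Units.val_mul, kap, kap, kap, mul_comm, hnq, Finset.prod_sdiff hsub]
  have hsqk : ∀ l, (kap quad ε l : K) * (kap quad ε l : K) = 1 := fun l => by
    rw [← Units.val_mul, ← Units.val_one, kap, ← Finset.prod_mul_distrib]
    refine congrArg Units.val (Finset.prod_eq_one fun q hq => ?_)
    unfold epsAt
    split_ifs
    · rw [← sq]
      exact DFunLike.congr_fun ((hquad q).mp hq).2 _
    · rw [one_mul]
  have heig : ∀ l : ℕ, l.Prime → l ∉ Q₀ →
      heckeHom K N l (I z) = ((kap quad ε l : K) * c l) • I z := fun l hl hlQ => by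
    have hmem : ¬ l ∣ L ∨ l ∈ T := (em (l ∣ L)).symm.imp_right fun h =>
      Finset.mem_sdiff.mpr ⟨Nat.mem_primeFactors.mpr ⟨hl, h, NeZero.ne L⟩,
        fun h' => hlQ (Finset.mem_sdiff.mp h').1⟩
    show heckeHom K N l (tH1EquivHom htriv (J z)) = _
    rw [← tH1EquivHom_natHecke _ htriv hl, ← hJT l hl hmem z, ← map_smul I]
    show tH1EquivHom htriv (J _) = tH1EquivHom htriv (J _)
    congr 2
    rw [hkap, mul_smul, ← hT l hl, hmul, mul_smul, smul_smul, hsqk, one_smul]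
  have hl₀N : ¬ l₀ ∣ N := fun h => hl₀L (hNL l₀ hl₀ h)
  have hl₀Q : l₀ ∉ Q₀ := fun h => hl₀L (hQ₀ l₀ h).2
  have hNdvd : N ∣ L * ∏ q ∈ Q₀, q :=
    (Dvd.intro P hNP).trans (mul_dvd_mul_left L
      (Finset.prod_dvd_prod_of_subset _ _ _ Finset.sdiff_subset))
  have hpar : IsParabolicHom (Gamma0 N) (I z) := by
    have := Fact.mk hl₀
    have h1 : (l₀ : ZMod N) = 1 := by
      have e := congrArg (ZMod.castHom hNdvd (ZMod N)) hl₀1
      rwa [map_natCast, map_one] at e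
    have hkap1 : (kap quad ε l₀ : K) = 1 := by
      rw [kap_eq_one (L := L) ε (fun q hq => (hQ₀ q (hsub hq)).2) ?_, Units.val_one]
      have e := congrArg (ZMod.castHom (Dvd.intro _ rfl) (ZMod L)) hl₀1
      rwa [map_natCast, map_one] at e
    have h2 : heckeHom K N l₀ (I z) - (l₀ + 1) • I z = (c l₀ - ((l₀ : K) + 1)) • I z := by
      rw [heig l₀ hl₀ hl₀Q, hkap1, one_mul, sub_smul, ← Nat.cast_smul_eq_nsmul K, Nat.cast_succ]
    have h3 := isParabolicHom_of_eisenstein K (fun a ha => by simpa using ha) hl₀N h1 (I z)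
    rw [h2] at h3
    intro γ hγ
    exact (mul_eq_zero.mp (h3 γ hγ)).resolve_left (sub_ne_zero.mpr hc)
  obtain ⟨χ, hχT, hχU⟩ := exists_char_of_parEigen (S := (↑Q₀ : Set ℕ))
    (fun h => hz (hI (h.trans (map_zero I).symm))) hpar (fun l => (kap quad ε l : K) * c l)
    fun l hl hlS => heig l hl (fun h => hlS (Finset.mem_coe.mpr h))
  refine ⟨N, hN, hLN, hNL, fun v hv hvL hvQ h => ?_, χ, hχT, hχU⟩
  have h' := (h.trans (Dvd.intro P rfl)).trans hNP.dvd
  refine hexact v hv hvL ((Nat.Coprime.dvd_of_dvd_mul_right ?_ h'))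
  refine Nat.Coprime.prod_right fun q hq => ?_
  have hco := (Nat.coprime_primes hv (hQ q (Finset.mem_union_left _ hq)).1).mpr
    fun e => hvQ (e ▸ (Finset.mem_sdiff.mp hq).1)
  exact Nat.Coprime.mul_left hco hco

end FLTA.LT2

end
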