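import Fermat.Agent.Gamma0.Complex.Basic
import Mathlib.NumberTheory.LegendreSymbol.Basic
import Mathlib.Algebra.Field.ZMod

/-!
# Parabolic homomorphisms without elliptic elements of order four

If a prime `r ≡ 3 (mod 4)` divides `L` then `Γ₀(L)` has no element of trace `0`, so a parabolic
homomorphism to a group without `3`-torsion vanishes on the elliptic elements.
-/

set_option autoImplicit false

noncomputable section

open CongruenceSubgroup ModularCurve.Period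
open scoped MatrixGroups

namespace FLTA.LT2

/-- No element of trace `0`. -/
theorem trace_ne_zero_of_three_mod_four {L r : ℕ} (hr : r.Prime) (hrL : r ∣ L) (hr4 : r % 4 = 3)
    {γ : SL(2, ℤ)} (hγ : γ ∈ Gamma0 L) :
    (γ : Matrix (Fin 2) (Fin 2) ℤ).trace ≠ 0 := by
  intro h
  have := Fact.mk hr
  have hc : ((γ 1 0 : ℤ) : ZMod r) = 0 := by
    rw [← map_intCast (ZMod.castHom hrL (ZMod r)), Gamma0_mem.mp hγ, map_zero]
  have hdet := congrArg (Int.cast : ℤ → ZMod r) γ.det_coe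
  rw [Matrix.det_fin_two] at hdet
  rw [Matrix.trace_fin_two] at h
  have h1 := congrArg (Int.cast : ℤ → ZMod r) h
  push_cast at h1 hdet
  rw [hc, mul_zero, sub_zero] at hdet
  refine (ZMod.exists_sq_eq_neg_one_iff.mp ?_) hr4
  exact ⟨((γ 0 0 : ℤ) : ZMod r), by linear_combination hdet - ((γ 0 0 : ℤ) : ZMod r) * h1⟩

/-- Parabolic homomorphisms of such a level are refined parabolic if there is no `3`-torsion. -/
theorem isParHom0_of_three_mod_four {L r : ℕ} (hr : r.Prime) (hrL : r ∣ L) (hr4 : r % 4 = 3)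
    {A : Type*} [AddCommGroup A] (h3 : ∀ a : A, a + a + a = 0 → a = 0)
    {φ : Additive (Gamma0 L) →+ A} (hφ : IsParabolicHom (Gamma0 L) φ) :
    FLTA.Gamma0.IsParHom0 (Gamma0 L) φ := by
  intro γ hγ
  rcases (show ((γ : SL(2, ℤ)) : Matrix (Fin 2) (Fin 2) ℤ).trace ^ 2 ≤ 4 from hγ).eq_or_lt with
    h | h
  · exact hφ γ h
  · set t := ((γ : SL(2, ℤ)) : Matrix (Fin 2) (Fin 2) ℤ).trace with ht
    have ht0 : t ≠ 0 := trace_ne_zero_of_three_mod_four hr hrL hr4 γ.2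
    have ht1 : t ^ 2 = 1 := by
      have h1 : t < 2 := by nlinarith
      have h2 : -2 < t := by nlinarith
      rcases (show t = -1 ∨ t = 0 ∨ t = 1 by omega) with e | e | e
      · rw [e]; norm_num
      · exact absurd e ht0
      · rw [e]; norm_num
    have hdet := (γ : SL(2, ℤ)).det_coe
    rw [Matrix.det_fin_two] at hdet
    rw [ht, Matrix.trace_fin_two] at ht1
    -- the cube is central
    have hc : ((γ * γ * γ : Gamma0 L) : SL(2, ℤ)).1.trace ^ 2 = 4 := by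
      simp only [Subgroup.coe_mul, Matrix.SpecialLinearGroup.coe_mul, Matrix.trace_fin_two,
        Matrix.mul_apply, Fin.sum_univ_two]
      have e : ((γ : SL(2, ℤ)) 0 0 * (γ : SL(2, ℤ)) 0 0 + (γ : SL(2, ℤ)) 0 1 * (γ : SL(2, ℤ)) 1 0) *
            (γ : SL(2, ℤ)) 0 0 +
          ((γ : SL(2, ℤ)) 0 0 * (γ : SL(2, ℤ)) 0 1 + (γ : SL(2, ℤ)) 0 1 * (γ : SL(2, ℤ)) 1 1) *
            (γ : SL(2, ℤ)) 1 0 +
          (((γ : SL(2, ℤ)) 1 0 * (γ : SL(2, ℤ)) 0 0 + (γ : SL(2, ℤ)) 1 1 * (γ : SL(2, ℤ)) 1 0) *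
              (γ : SL(2, ℤ)) 0 1 +
            ((γ : SL(2, ℤ)) 1 0 * (γ : SL(2, ℤ)) 0 1 + (γ : SL(2, ℤ)) 1 1 * (γ : SL(2, ℤ)) 1 1) *
              (γ : SL(2, ℤ)) 1 1) = -2 * ((γ : SL(2, ℤ)) 0 0 + (γ : SL(2, ℤ)) 1 1) := by
        linear_combination ((γ : SL(2, ℤ)) 0 0 + (γ : SL(2, ℤ)) 1 1) * ht1 -
          3 * ((γ : SL(2, ℤ)) 0 0 + (γ : SL(2, ℤ)) 1 1) * hdet
      rw [e]
      linear_combination 4 * ht1
    refine h3 _ ?_
    have := hφ _ hc
    rwa [ofMul_mul, ofMul_mul, map_add, map_add] at this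

end FLTA.LT2

end
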