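import Fermat.Agent.LT2.PointsTameReal
import Fermat.Agent.LT2.PointsTameElliptic
import Fermat.Agent.LT2.PatchedChain

/-!
# The tame relation from an eigenclass, at `p = 2`

A non-zero eigenclass in twisted cohomology with the traces of `ρ` as eigenvalues and a
`U_q`-eigenvalue reducing to a primitive cube root of unity gives `tr ρ(σ) = ε(u) + ε(u)⁻¹` for
`σ` in inertia at `q` acting by `u` on the `q`-th roots of unity.
-/

set_option autoImplicit false
set_option synthInstance.maxHeartbeats 400000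

noncomputable section

open IsLocalRing CongruenceSubgroup

namespace FLTA.LT2

open FLTA.RT FLTA.RT.Diamond FLTA.Periods

local notation "Qb" => AlgebraicClosure ℚ
local notation "Γℚ" => AlgebraicClosure ℚ ≃ₐ[ℚ] AlgebraicClosure ℚ

variable {q L : ℕ} [Fact (Nat.Prime 2)] [Fact q.Prime] [NeZero L] {O : Type} [CommRing O]
  [IsDomain O] [IsDiscreteValuationRing O] [CharZero O] [Algebra ℤ_[2] O]
  [Module.Free ℤ_[2] O] [Module.Finite ℤ_[2] O]

set_option maxHeartbeats 800000 in
-- the bridge at level `L₀ q`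
/-- **The tame relation from an eigenclass.** -/
theorem trace_inertia_of_class_two (hp : (2 : O) ∈ maximalIdeal O) (hq5 : 5 ≤ q) (Q : Finset ℕ)
    (hQ : ∀ l ∈ Q, l.Prime ∧ l ∣ L ∧ ¬ l * l ∣ L) (hq : q ∈ Q)
    (ε : ∀ l : ℕ, (ZMod l)ˣ →* Oˣ) (hε : ∀ l ∈ Q, ∀ u, residue O (ε l u : O) = 1)
    (S : Finset ℕ) (h2S : 2 ∈ S) (hLS : ∀ l : ℕ, l.Prime → l ∣ L → l ∈ S)
    (c : ℕ → O) (α : O)
    (z : tH1 (gamChar (charMap (algebraMap O (FractionRing O)) (sigProd L Q ε))) (FractionRing O))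
    (hz : z ≠ 0)
    (hT : ∀ l : ℕ, l.Prime → l ∉ S →
      algebraMap O (FractionRing O) (kap Q ε l : O) •
        (natHecke (charMap (algebraMap O (FractionRing O)) (sigProd L Q ε)) l).app
          (FractionRing O) z = algebraMap O (FractionRing O) (c l) • z)
    (hU : (natHecke (charMap (algebraMap O (FractionRing O)) (sigProd L Q ε)) q).app
        (FractionRing O) z = algebraMap O (FractionRing O) α • z)
    (ρ : GaloisRepAdic O) (hdet : ρ.DetIsCyclotomic 2)
    (htr : ∀ l : ℕ, l.Prime → l ∉ S → ∀ A : ValuationSubring Qb, A.LiesOverPrime l →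
      ∀ σ : Γℚ, A.IsFrobeniusAt σ l → ρ.trace σ = c l)
    {A : ValuationSubring Qb} (hA : A.LiesOverPrime q) {F : Γℚ} (hF : A.IsFrobeniusAt F q)
    (hα : residue O (α * α + α + 1) = 0) (htF : residue O (ρ.trace F) = 1)
    {l₀ : ℕ} (hl₀ : l₀.Prime) (hl₀2 : l₀ ≠ 2) (hl₀S : l₀ ∉ S)
    (hl₀1 : (l₀ : ZMod (L * ∏ l ∈ Q, l)) = 1) (hl₀c : residue O (c l₀) = 1)
    {r : ℕ} (hr : r.Prime) (hrL : r ∣ L) (hr4 : r % 4 = 3)
    {σ : Γℚ} (hσ : σ ∈ A.inertiaSubgroupIn ℚ) {ζ : Qbˣ} (hζ : IsPrimitiveRoot ζ q)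
    {w : (ZMod q)ˣ} (hw : σ (ζ : Qb) = (ζ : Qb) ^ (w : ZMod q).val) :
    ρ.trace σ = (ε q w : O) + ((ε q w)⁻¹ : Oˣ) := by
  classical
  have hqP : q.Prime := Fact.out
  have hpO : ((2 : ℕ) : O) ∈ maximalIdeal O := by exact_mod_cast hp
  have h2k : (2 : ResidueField O) = 0 := by
    rw [← map_ofNat (residue O) 2, residue_eq_zero_iff]
    exact hp
  obtain ⟨D, Q₀, hD, hQ₀, hsq, L₀, hL₀, hN, hqL, hNL, hLN, hdvd, z', hz', hT', hU'⟩ :=
    exists_single_class Q hQ hq ε S hLS c α z hz hT hU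
  set η := PatchG.quadChar D ε
  have hη := PatchG.quadChar_finiteLevel D ε
  have hDp : ∀ l ∈ D, l.Prime := fun l hl => (hQ l (Finset.erase_subset _ _ (hD hl))).1
  have hqD : q ∉ D := fun h => (Finset.mem_erase.mp (hD h)).1 rfl
  have hres : ∀ (s : Finset ℕ), s ⊆ Q → ∀ l : ℕ, residue O (kap s ε l : O) = 1 := by
    intro s hs l
    rw [kap, Units.coe_prod, map_prod]
    refine Finset.prod_eq_one fun j hj => ?_
    unfold epsAt
    split_ifs
    · exact hε j (hs hj) _
    · simp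
  have hηres : ∀ τ, residue O (η τ : O) = 1 := fun τ => by
    rw [← map_one (residue O), ← sub_eq_zero, ← map_sub, residue_eq_zero_iff]
    exact PatchG.quadChar_sub_one_mem hp hsq τ
  have hodd : ¬ 2 ∣ q := fun h => by
    have := (Nat.prime_dvd_prime_iff_eq Nat.prime_two hqP).mp h
    omega
  have hrq : L ∣ L₀ * q := hLN
  have h := trace_inertia_of_class_single_five_le (p := 2) hqL hq5 (by omega) hpO (ε q) (hε q hq)
    S h2S (fun l hl hd => hLS l hl (hNL l hl hd)) (fun l => (kap D ε l : O) * c l)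
    ((kap Q₀ ε q : O) * α) z' hz' hT' hU' (PatchG.twistRep ρ η hη)
    (PatchG.detIsCyclotomic_twistRep ρ η hη hdet (PatchG.quadChar_sq hsq))
    (fun l hl hlS B hB τ hτ => by
      rw [PatchG.trace_twistRep, htr l hl hlS B hB τ hτ]
      refine congrArg (fun u : Oˣ => (u : O) * c l) ?_
      exact PatchG.quadChar_frobenius hDp hl
        (fun h => hlS (hLS l hl (hQ l (Finset.erase_subset _ _ (hD h))).2.1)) hB hτ)
    hA hF
    (by
      rw [PatchG.trace_twistRep]
      simp only [map_add, map_sub, map_mul, map_one, hηres, htF,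
        hres Q₀ (hQ₀.trans (Finset.erase_subset _ _))] at hα ⊢
      linear_combination hα - residue O α * h2k)
    (by
      rw [PatchG.trace_twistRep, map_mul, hηres, htF, one_mul, one_pow]
      intro e
      refine one_ne_zero (α := ResidueField O) ?_
      linear_combination e + 2 * h2k)
    hl₀ hl₀S
    (by
      have e := congrArg (ZMod.castHom hdvd (ZMod (L₀ * q * q))) hl₀1
      rw [map_natCast, map_one] at e
      exact e)
    (by
      rw [map_mul, hres D (hD.trans (Finset.erase_subset _ _)), hl₀c, one_mul]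
      obtain ⟨j, hj⟩ : 2 ∣ l₀ + 1 := by
        rcases hl₀.eq_two_or_odd with h | h <;> omega
      rw [hj, map_natCast, Nat.cast_mul, Nat.cast_ofNat, h2k, zero_mul]
      exact one_ne_zero)
    (fun φ hφ => isParHom0_of_parabolic_charZero hφ)
    (fun φ hφ => isParHom0_of_three_mod_four hr (hrL.trans hrq) hr4
      (fun a ha => by linear_combination ha - a * h2k) hφ)
    hσ hζ hw
  rwa [PatchG.trace_twistRep, PatchG.quadChar_inertia hDp hqP hqD hA hσ, Units.val_one,
    one_mul] at h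

end FLTA.LT2

end
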