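import Fermat.Agent.LT2.PointsTwist
import Fermat.Agent.RT.CoeffChain

/-!
# The Galois character of the quadratic components of a twist

`quadChar D ε`: the product over `l ∈ D` of the Galois characters of the `ε l`.  When these have
square one it has square one, is residually trivial, is trivial on inertia outside `D` and has
value `kap D ε r` at a Frobenius at a prime `r ∉ D`.
-/

set_option autoImplicit false

noncomputable section

open IsLocalRing

namespace FLTA.LT2.PatchG

open FLTA.RT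

local notation "Γℚ" => AlgebraicClosure ℚ ≃ₐ[ℚ] AlgebraicClosure ℚ

variable {A : Type} [CommRing A] (D : Finset ℕ) (ε : ∀ l : ℕ, (ZMod l)ˣ →* Aˣ)

/-- The component at `l`. -/
def quadFactor (l : ℕ) : Γℚ →* Aˣ :=
  if h : l = 0 then 1 else haveI : NeZero l := ⟨h⟩; galChar (ε l)

theorem quadFactor_eq (l : ℕ) [NeZero l] : quadFactor ε l = galChar (ε l) :=
  dif_neg (NeZero.ne l)

/-- The product of the components in `D`. -/
def quadChar : Γℚ →* Aˣ := ∏ l ∈ D, quadFactor ε l

theorem quadChar_finiteLevel : GaloisFactorsThroughFiniteLevel (quadChar D ε) := by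
  refine galoisFactors_prod D _ fun l _ => ?_
  unfold quadFactor
  split_ifs with h
  · exact galoisFactors_one
  · haveI : NeZero l := ⟨h⟩
    exact galChar_finiteLevel (ε l)

variable {D ε}

theorem quadChar_sq (hsq : ∀ l ∈ D, ε l ^ 2 = 1) (σ : Γℚ) : quadChar D ε σ ^ 2 = 1 := by
  rw [quadChar, MonoidHom.finsetProd_apply, ← Finset.prod_pow]
  refine Finset.prod_eq_one fun l hl => ?_
  unfold quadFactor
  split_ifs with h
  · rw [MonoidHom.one_apply, one_pow]
  · exact DFunLike.congr_fun (hsq l hl) _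

theorem quadChar_sub_one_mem [IsLocalRing A] (h2 : (2 : A) ∈ maximalIdeal A)
    (hsq : ∀ l ∈ D, ε l ^ 2 = 1) (σ : Γℚ) : (quadChar D ε σ : A) - 1 ∈ maximalIdeal A :=
  sub_one_mem_of_sq_eq_one h2 _ (quadChar_sq hsq σ)

theorem quadChar_inertia (hD : ∀ l ∈ D, l.Prime) {r : ℕ} (hr : r.Prime) (hrD : r ∉ D)
    {P : ValuationSubring (AlgebraicClosure ℚ)} (hP : P.LiesOverPrime r) {σ : Γℚ}
    (hσ : σ ∈ P.inertiaSubgroupIn ℚ) : quadChar D ε σ = 1 := by
  rw [quadChar, MonoidHom.finsetProd_apply]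
  refine Finset.prod_eq_one fun l hl => ?_
  haveI : NeZero l := ⟨(hD l hl).ne_zero⟩
  rw [quadFactor_eq]
  exact galChar_inertia (ε l) hr
    (fun h => hrD ((Nat.prime_dvd_prime_iff_eq hr (hD l hl)).mp h ▸ hl)) hP hσ

theorem quadChar_frobenius (hD : ∀ l ∈ D, l.Prime) {r : ℕ} (hr : r.Prime) (hrD : r ∉ D)
    {P : ValuationSubring (AlgebraicClosure ℚ)} (hP : P.LiesOverPrime r) {σ : Γℚ}
    (hσ : P.IsFrobeniusAt σ r) : quadChar D ε σ = kap D ε r := by
  rw [quadChar, MonoidHom.finsetProd_apply, kap]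
  refine Finset.prod_congr rfl fun l hl => ?_
  haveI : NeZero l := ⟨(hD l hl).ne_zero⟩
  have hne : r ≠ l := fun h => hrD (h ▸ hl)
  have hrl : r.Coprime l := (Nat.coprime_primes hr (hD l hl)).mpr hne
  rw [quadFactor_eq, epsAt, dif_pos hrl]
  exact galChar_frobenius (ε l) hr
    (fun h => hne ((Nat.prime_dvd_prime_iff_eq hr (hD l hl)).mp h)) hP hσ hrl

theorem kap_sq (hsq : ∀ l ∈ D, ε l ^ 2 = 1) (r : ℕ) : kap D ε r ^ 2 = 1 := by
  rw [kap, ← Finset.prod_pow]
  refine Finset.prod_eq_one fun l hl => ?_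
  unfold epsAt
  split_ifs
  · exact DFunLike.congr_fun (hsq l hl) _
  · exact one_pow _

end FLTA.LT2.PatchG

end
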