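import Fermat.Agent.LT2.PointsTameQuad
import Fermat.Agent.RT.Diamond.TwistKeep
import Fermat.Agent.RT.Diamond.PointBridge

/-!
# Moving an eigenclass to a level twisted only at `q`, the twist being allowed to be quadratic

The components of the twist whose square is one contribute nothing to the coefficient character:
they are left out and their product multiplies the eigenvalues; the other components other than
the one at `q` are twisted away.
-/

set_option autoImplicit false
set_option synthInstance.maxHeartbeats 400000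

noncomputable section

open IsLocalRing CongruenceSubgroup

namespace FLTA.LT2

open FLTA.RT FLTA.RT.Diamond FLTA.Periods

variable {q L : ℕ} [Fact q.Prime] [NeZero L] {O : Type} [CommRing O] [IsDomain O] [CharZero O]

/-- **The class at a level twisted only at `q`.** -/
theorem exists_single_class (Q : Finset ℕ) (hQ : ∀ l ∈ Q, l.Prime ∧ l ∣ L ∧ ¬ l * l ∣ L)
    (hq : q ∈ Q) (ε : ∀ l : ℕ, (ZMod l)ˣ →* Oˣ) (S : Finset ℕ)
    (hLS : ∀ l : ℕ, l.Prime → l ∣ L → l ∈ S) (c : ℕ → O) (α : O)
    (z : tH1 (gamChar (charMap (algebraMap O (FractionRing O)) (sigProd L Q ε))) (FractionRing O))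
    (hz : z ≠ 0)
    (hT : ∀ l : ℕ, l.Prime → l ∉ S →
      algebraMap O (FractionRing O) (kap Q ε l : O) •
        (natHecke (charMap (algebraMap O (FractionRing O)) (sigProd L Q ε)) l).app
          (FractionRing O) z = algebraMap O (FractionRing O) (c l) • z)
    (hU : (natHecke (charMap (algebraMap O (FractionRing O)) (sigProd L Q ε)) q).app
        (FractionRing O) z = algebraMap O (FractionRing O) α • z) :
    ∃ (D Q₀ : Finset ℕ), D ⊆ Q.erase q ∧ Q₀ ⊆ Q.erase q ∧ (∀ l ∈ D, ε l ^ 2 = 1) ∧
      ∃ (L₀ : ℕ) (_ : NeZero L₀) (_ : NeZero (L₀ * q)), ¬ q ∣ L₀ ∧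
        (∀ l : ℕ, l.Prime → l ∣ L₀ * q → l ∣ L) ∧ L ∣ L₀ * q ∧
        L₀ * q * q ∣ L * ∏ l ∈ Q, l ∧
        ∃ z' : tH1 (gamChar (charMap (algebraMap O (FractionRing O))
            (sqChar (dvd_mul_left q L₀) (ε q)))) (FractionRing O),
          z' ≠ 0 ∧
          (∀ l : ℕ, l.Prime → l ∉ S →
            algebraMap O (FractionRing O) (epsAt (ε q) l : O) •
              (natHecke (charMap (algebraMap O (FractionRing O))
                (sqChar (dvd_mul_left q L₀) (ε q))) l).app (FractionRing O) z' =
              algebraMap O (FractionRing O) ((kap D ε l : O) * c l) • z') ∧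
          (natHecke (charMap (algebraMap O (FractionRing O))
              (sqChar (dvd_mul_left q L₀) (ε q))) q).app (FractionRing O) z' =
            algebraMap O (FractionRing O) ((kap Q₀ ε q : O) * α) • z' := by
  classical
  have hqP : q.Prime := Fact.out
  have hinj : Function.Injective (algebraMap O (FractionRing O)) := IsFractionRing.injective O (FractionRing O)
  have : CharZero (FractionRing O) := charZero_of_injective_ringHom hinj
  set εK : ∀ l : ℕ, (ZMod l)ˣ →* (FractionRing O)ˣ := fun l => charMap (algebraMap O (FractionRing O)) (ε l) with hεK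
  set D := (Q.erase q).filter fun l => ε l ^ 2 = 1 with hDdef
  set Q₀ := (Q.erase q).filter fun l => ¬ ε l ^ 2 = 1 with hQ₀def
  have hDsq : ∀ l ∈ D, ε l ^ 2 = 1 := fun l hl => (Finset.mem_filter.mp hl).2
  have hsub : Q₀ ∪ {q} ⊆ Q := Finset.union_subset
    ((Finset.filter_subset _ _).trans (Finset.erase_subset _ _)) (Finset.singleton_subset_iff.mpr hq)
  have hχ : charMap (algebraMap O (FractionRing O)) (sigProd L Q ε) = sigProd L (Q₀ ∪ {q}) εK := by
    rw [charMap_sigProd]
    refine MonoidHom.ext fun x => ?_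
    rw [sigProd_apply, sigProd_apply]
    refine (Finset.prod_subset hsub fun l hl hl' => ?_).symm
    simp only [Q₀, Finset.mem_union, Finset.mem_filter, Finset.mem_erase, Finset.mem_singleton,
      not_or, not_and, not_not] at hl'
    have h2 : ε l ^ 2 = 1 := hl'.1 ⟨hl'.2, hl⟩
    rw [sigChar_of_dvd _ (hQ l hl).2.1, ← MonoidHom.pow_apply]
    refine Units.ext ?_
    rw [MonoidHom.pow_apply, Units.val_pow_eq_pow_val, Units.val_one, coe_charMap, ← map_pow,
      ← Units.val_pow_eq_pow_val, ← MonoidHom.pow_apply, h2, MonoidHom.one_apply, Units.val_one,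
      map_one]
  obtain ⟨N, hN0, P, hNP, hTN, hNL, hLN, J, hJ, hJT⟩ :=
    exists_realisation_keep (K := FractionRing O) {q} Q₀ L εK
      (by simp [Q₀]) (fun l hl => hQ l (hsub hl))
      (fun l hl h => by
        refine absurd (MonoidHom.ext fun u => Units.ext (hinj ?_)) (Finset.mem_filter.mp hl).2
        have := congrArg Units.val (DFunLike.congr_fun h u)
        simp only [εK, MonoidHom.pow_apply, Units.val_pow_eq_pow_val, MonoidHom.one_apply,
          Units.val_one, coe_charMap] at this ⊢
        rw [map_pow, map_one]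
        exact this)
      (charMap (algebraMap O (FractionRing O)) (sigProd L Q ε)) hχ
  obtain ⟨L₀, rfl⟩ : ∃ L₀, N = L₀ * q := (hTN q (Finset.mem_singleton_self q)).1.imp fun a h =>
    h.trans (mul_comm q a)
  have hqL : ¬ q ∣ L₀ := fun h =>
    (hTN q (Finset.mem_singleton_self q)).2 (mul_dvd_mul_right h q)
  have hL0 : NeZero L₀ := ⟨fun h => NeZero.ne (L₀ * q) (by rw [h, zero_mul])⟩
  have hdvd : L₀ * q * q ∣ L * ∏ l ∈ Q, l := by
    have hd : q * ∏ l ∈ Q₀, l ∣ ∏ l ∈ Q, l := by
      rw [← Finset.mul_prod_erase Q (fun l => l) hq]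
      exact mul_dvd_mul_left q (Finset.prod_dvd_prod_of_subset _ _ _ (Finset.filter_subset _ _))
    refine dvd_trans ?_ (mul_dvd_mul_left L hd)
    rw [mul_left_comm, ← hNP, mul_comm q]
    exact mul_dvd_mul_right (dvd_mul_right _ _) q
  have hsig : sigProd (L₀ * q) {q} εK = charMap (algebraMap O (FractionRing O)) (sqChar (dvd_mul_left q L₀) (ε q)) := by
    refine MonoidHom.ext fun u => Units.ext ?_
    rw [sigProd_apply, Finset.prod_singleton, sigChar_of_dvd _ (dvd_mul_left q L₀)]
    simp [εK, sqChar, charMap]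
  have hsplit : ∀ l : ℕ, kap Q ε l = epsAt (ε q) l * kap Q₀ ε l * kap D ε l := fun l => by
    rw [kap, kap, kap, ← Finset.mul_prod_erase Q _ hq, mul_assoc, mul_comm (∏ x ∈ Q₀, _),
      Finset.prod_filter_mul_prod_filter_not]
  have hkK : ∀ l : ℕ, (kap Q₀ εK l : FractionRing O) = (algebraMap O (FractionRing O)) (kap Q₀ ε l : O) :=
    fun l => coe_kap_charMap _ _ ε l
  set z' := tH1Cast (V := FractionRing O) hsig (J z)
  refine ⟨D, Q₀, Finset.filter_subset _ _, Finset.filter_subset _ _, hDsq, L₀, hL0, hN0, hqL,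
    hNL, hLN, hdvd, z', fun h => hz (hJ (((tH1Cast (V := FractionRing O) hsig).injective
      (h.trans (map_zero _).symm)).trans (map_zero J).symm)), fun l hl hlS => ?_, ?_⟩
  · have hlL : ¬ l ∣ L := fun h => hlS (hLS l hl h)
    have hd : (kap D ε l : O) * (kap D ε l : O) = 1 := by
      rw [← pow_two, ← Units.val_pow_eq_pow_val, PatchG.kap_sq hDsq, Units.val_one]
    have h := congrArg (tH1Cast (V := FractionRing O) hsig) (hJT l hl (Or.inl hlL) z)
    rw [tH1Cast_natHecke] at h
    have h1 := congrArg (fun y => (algebraMap O (FractionRing O)) (kap D ε l : O) • tH1Cast (V := FractionRing O) hsig (J y))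
      (hT l hl hlS)
    simp only [map_smul, smul_smul] at h h1 ⊢
    rw [← h, hkK, map_mul, smul_smul, ← h1]
    congr 1
    rw [hsplit, Units.val_mul, Units.val_mul]
    simp only [← map_mul]
    refine congrArg (algebraMap O (FractionRing O)) ?_
    linear_combination (-(epsAt (ε q) l : O) * (kap Q₀ ε l : O)) * hd
  · have h := congrArg (tH1Cast (V := FractionRing O) hsig)
      (hJT q hqP (Or.inr (Finset.mem_singleton_self q)) z)
    rw [tH1Cast_natHecke] at h
    rw [← h, hkK, map_smul, map_smul, hU, map_smul, map_smul, map_mul, smul_smul]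

end FLTA.LT2

end
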