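import Fermat.Agent.LT2.ImageGroup

/-!
# Part F: `H¹(GL₂(ℤ/2ⁿ), 𝔽₂²)` is detected on the square of a transvection

A crossed homomorphism `x : G → 𝔽₂²` vanishing on the kernel of a surjection
`ρ : G → GL₂(ℤ/2ⁿ)` is a coboundary as soon as it is one at some `σ` with `ρ σ` unipotent and not
trivial mod `2`.
-/

set_option autoImplicit false

open Matrix

namespace FLTA.LT2.Primes

open FLTA.LT2.Image

/-- The linear map with prescribed values on the elementary matrices. -/
def evm (a b c d : Fin 2 → ZMod 2) (Y : Matrix (Fin 2) (Fin 2) (ZMod 2)) : Fin 2 → ZMod 2 :=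
  Y 0 0 • a + Y 0 1 • b + Y 1 0 • c + Y 1 1 • d

/-- An additive equivariant map `M₂(𝔽₂) → 𝔽₂²` killing a nonzero nilpotent is zero. -/
theorem equivariant_eq_zero (φ : Matrix (Fin 2) (Fin 2) (ZMod 2) →+ (Fin 2 → ZMod 2))
    (hφ : ∀ g X, g * g = (1 : Matrix (Fin 2) (Fin 2) (ZMod 2)) → φ (g * X * g) = g *ᵥ φ X)
    {N : Matrix (Fin 2) (Fin 2) (ZMod 2)} (hN : N ≠ 0) (hN2 : N * N = 0) (hφN : φ N = 0)
    (X : Matrix (Fin 2) (Fin 2) (ZMod 2)) : φ X = 0 := by
  have hsmul : ∀ (t : ZMod 2) Y, φ (t • Y) = t • φ Y := fun t Y => by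
    rcases ((by decide : ∀ t : ZMod 2, t = 0 ∨ t = 1) t) with rfl | rfl
    · simp
    · simp
  have hexp : ∀ Y : Matrix (Fin 2) (Fin 2) (ZMod 2),
      φ Y = Y 0 0 • φ !![1, 0; 0, 0] + Y 0 1 • φ !![0, 1; 0, 0] + Y 1 0 • φ !![0, 0; 1, 0] +
        Y 1 1 • φ !![0, 0; 0, 1] := fun Y => by
    rw [← hsmul, ← hsmul, ← hsmul, ← hsmul, ← map_add, ← map_add, ← map_add]
    congr 1
    ext i j; fin_cases i <;> fin_cases j <;> simp
  have h1 := fun Y => hφ !![1, 1; 0, 1] Y (by decide)
  have h2 := fun Y => hφ !![0, 1; 1, 0] Y (by decide)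
  have a1 := h1 !![1, 0; 0, 0]
  have a2 := h1 !![0, 1; 0, 0]
  have a3 := h1 !![0, 0; 1, 0]
  have a4 := h2 !![1, 0; 0, 0]
  have a5 := h2 !![0, 1; 0, 0]
  rw [hexp] at hφN
  rw [hexp] at a1 a2 a3 a4 a5
  rw [hexp]
  clear hexp hsmul hφ h1 h2
  revert hN hN2 hφN a1 a2 a3 a4 a5
  generalize φ !![1, 0; 0, 0] = a
  generalize φ !![0, 1; 0, 0] = b
  generalize φ !![0, 0; 1, 0] = c
  generalize φ !![0, 0; 0, 1] = d
  revert N X
  intro N X hN hN2 hφN a1 a2 a3 a4 a5
  have key : ∀ a b c d : Fin 2 → ZMod 2,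
      (evm a b c d (!![1, 1; 0, 1] * !![1, 0; 0, 0] * !![1, 1; 0, 1]) = !![1, 1; 0, 1] *ᵥ a ∧
      evm a b c d (!![1, 1; 0, 1] * !![0, 1; 0, 0] * !![1, 1; 0, 1]) = !![1, 1; 0, 1] *ᵥ b ∧
      evm a b c d (!![1, 1; 0, 1] * !![0, 0; 1, 0] * !![1, 1; 0, 1]) = !![1, 1; 0, 1] *ᵥ c ∧
      evm a b c d (!![0, 1; 1, 0] * !![1, 0; 0, 0] * !![0, 1; 1, 0]) = !![0, 1; 1, 0] *ᵥ a ∧
      evm a b c d (!![0, 1; 1, 0] * !![0, 1; 0, 0] * !![0, 1; 1, 0]) = !![0, 1; 1, 0] *ᵥ b ∧
      (evm a b c d !![0, 1; 0, 0] = 0 ∨ evm a b c d !![0, 0; 1, 0] = 0 ∨ evm a b c d !![1, 1; 1, 1] = 0)) →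
      a = 0 ∧ b = 0 ∧ c = 0 ∧ d = 0 := by
    set_option synthInstance.maxSize 2000 in decide
  have hnil : ∀ N : Matrix (Fin 2) (Fin 2) (ZMod 2), N ≠ 0 → N * N = 0 →
      N = !![0, 1; 0, 0] ∨ N = !![0, 0; 1, 0] ∨ N = !![1, 1; 1, 1] := by decide
  obtain ⟨rfl, rfl, rfl, rfl⟩ := key a b c d ⟨a1, a2, a3, a4, a5, by
    rcases hnil N hN hN2 with rfl | rfl | rfl
    · exact Or.inl hφN
    · exact Or.inr (Or.inl hφN)
    · exact Or.inr (Or.inr hφN)⟩
  simp

section cocycle

variable {G : Type*} [Group G] {n : ℕ} (hn : n ≠ 0)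
  (ρ : G →* GL (Fin 2) (ZMod (2 ^ n)))

/-- The reduction of `ρ` modulo two. -/
def redRho (g : G) : Matrix (Fin 2) (Fin 2) (ZMod 2) :=
  ((ρ g : GL (Fin 2) (ZMod (2 ^ n))) : Matrix (Fin 2) (Fin 2) (ZMod (2 ^ n))).map (mod2 hn)

theorem redRho_mul (g h : G) : redRho hn ρ (g * h) = redRho hn ρ g * redRho hn ρ h := by
  rw [redRho, redRho, redRho, map_mul, Units.val_mul, Matrix.map_mul]

theorem redRho_one : redRho hn ρ 1 = 1 := by
  rw [redRho, map_one, Units.val_one, Matrix.map_one _ (map_zero _) (map_one _)]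

theorem exists_eq_two_mul {a : ZMod (2 ^ n)} (h : mod2 hn a = 0) : ∃ b, a = 2 * b := by
  have : NeZero (2 ^ n) := ⟨pow_ne_zero _ two_ne_zero⟩
  rw [← ZMod.natCast_zmod_val a, map_natCast, ZMod.natCast_eq_zero_iff] at h
  obtain ⟨b, hb⟩ := h
  exact ⟨b, by rw [← ZMod.natCast_zmod_val a, hb, Nat.cast_mul, Nat.cast_ofNat]⟩

theorem exists_lift (hs : Function.Surjective ρ) (M : Matrix (Fin 2) (Fin 2) (ZMod 2))
    (hM : M.det = 1) : ∃ g, redRho hn ρ g = M := by
  have : NeZero (2 ^ n) := ⟨pow_ne_zero _ two_ne_zero⟩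
  let L : Matrix (Fin 2) (Fin 2) (ZMod (2 ^ n)) := fun i j => ((M i j).val : ZMod (2 ^ n))
  have hL : L.map (mod2 hn) = M := by
    ext i j
    show mod2 hn (((M i j).val : ℕ) : ZMod (2 ^ n)) = M i j
    rw [map_natCast, ZMod.natCast_zmod_val]
  have hu : IsUnit L := by
    refine (Matrix.isUnit_iff_isUnit_det _).mpr (isUnit_of_mod2 hn _ ?_)
    rw [RingHom.map_det, RingHom.mapMatrix_apply, hL, hM]
  obtain ⟨g, hg⟩ := hs hu.unit
  exact ⟨g, by rw [redRho, hg, IsUnit.unit_spec, hL]⟩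

variable (x : G → Fin 2 → ZMod 2)
  (hx : ∀ g h, x (g * h) = x g + redRho hn ρ g *ᵥ x h)
  (hker : ∀ g, ρ g = 1 → x g = 0)

include hx in
theorem x_one : x 1 = 0 := by
  have h := hx 1 1
  rwa [mul_one, redRho_one, Matrix.one_mulVec, left_eq_add] at h

include hx hker in
theorem x_eq_of_rho_eq {g h : G} (e : ρ g = ρ h) : x g = x h := by
  have h1 := hker (h⁻¹ * g) (by rw [map_mul, map_inv, e, inv_mul_cancel])
  have h2 := hx h (h⁻¹ * g)
  rwa [mul_inv_cancel_left, h1, Matrix.mulVec_zero, add_zero] at h2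

include hx in
theorem x_mul_of_red_one {g h : G} (e : redRho hn ρ g = 1) : x (g * h) = x g + x h := by
  rw [hx, e, Matrix.one_mulVec]

include hx in
theorem x_conj (g h : G) (e : redRho hn ρ h = 1) :
    x (g * h * g⁻¹) = redRho hn ρ g *ᵥ x h := by
  have h1 := hx g g⁻¹
  rw [mul_inv_cancel, x_one hn ρ x hx] at h1
  rw [hx (g * h), hx g h, redRho_mul, e, mul_one, add_right_comm, ← h1, zero_add]

include hx hker in
/-- The crossed homomorphism kills the principal congruence subgroup. -/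
theorem x_eq_zero_of_red_one (hs : Function.Surjective ρ) {σ : G}
    (hsq : (((ρ σ : GL (Fin 2) (ZMod (2 ^ n))) : Matrix (Fin 2) (Fin 2) (ZMod (2 ^ n))) - 1) *
      (((ρ σ : GL (Fin 2) (ZMod (2 ^ n))) : Matrix (Fin 2) (Fin 2) (ZMod (2 ^ n))) - 1) = 0)
    (hσ : redRho hn ρ σ ≠ 1) {v : Fin 2 → ZMod 2} (hv : x σ = redRho hn ρ σ *ᵥ v - v)
    {g : G} (hg : redRho hn ρ g = 1) : x g = 0 := by
  classical
  set π := mod2 hn
  set N := ((ρ σ : GL (Fin 2) (ZMod (2 ^ n))) : Matrix (Fin 2) (Fin 2) (ZMod (2 ^ n))) - 1 with hN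
  have hN0 : N.map π ≠ 0 := fun h => hσ (by
    rw [hN, Matrix.map_sub _ (map_sub π), Matrix.map_one _ (map_zero π) (map_one π),
      sub_eq_zero] at h
    exact h)
  have hNN : N.map π * N.map π = 0 := by
    rw [← Matrix.map_mul, hsq, Matrix.map_zero _ (map_zero π)]
  suffices key : ∀ d k : ℕ, n ≤ k + d → 1 ≤ k → ∀ g : G,
      (∃ X, ((ρ g : GL (Fin 2) (ZMod (2 ^ n))) : Matrix (Fin 2) (Fin 2) (ZMod (2 ^ n))) =
        1 + (2 ^ k : ZMod (2 ^ n)) • X) → x g = 0 by
    refine key n 1 (by omega) le_rfl g ?_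
    have he : ∀ i j, ∃ b, ((ρ g : GL (Fin 2) (ZMod (2 ^ n))) :
        Matrix (Fin 2) (Fin 2) (ZMod (2 ^ n))) i j - (1 : Matrix (Fin 2) (Fin 2) _) i j = 2 * b := by
      intro i j
      refine exists_eq_two_mul hn ?_
      have h := congrFun (congrFun hg i) j
      rw [redRho, Matrix.map_apply] at h
      rw [map_sub, h, Matrix.one_apply, Matrix.one_apply, apply_ite (mod2 hn), map_one, map_zero,
        sub_self]
    choose X hX using he
    refine ⟨Matrix.of X, ?_⟩
    ext i j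
    rw [Matrix.add_apply, Matrix.smul_apply, Matrix.of_apply, smul_eq_mul, pow_one, ← hX]
    abel
  intro d
  induction d with
  | zero =>
    rintro k hk - g ⟨X, hX⟩
    refine hker g (Units.ext ?_)
    have h0 : (2 ^ k : ZMod (2 ^ n)) = 0 := by
      have h : ((2 ^ k : ℕ) : ZMod (2 ^ n)) = 0 := by
        rw [ZMod.natCast_eq_zero_iff]
        exact pow_dvd_pow 2 (by omega)
      rwa [Nat.cast_pow, Nat.cast_ofNat] at h
    rw [hX, h0, zero_smul, add_zero, Units.val_one]
  | succ d ih =>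
    intro k hk hk1
    set c : ZMod (2 ^ n) := 2 ^ k with hc
    have hπc : π c = 0 := by
      rw [hc, map_pow, show π 2 = 0 by rw [map_ofNat]; rfl, zero_pow (by omega)]
    have hredu : ∀ X : Matrix (Fin 2) (Fin 2) (ZMod (2 ^ n)), (1 + c • X).map π = 1 := fun X => by
      ext i j
      rw [Matrix.map_apply, Matrix.add_apply, Matrix.smul_apply, smul_eq_mul, map_add, map_mul,
        hπc, zero_mul, add_zero, Matrix.one_apply, Matrix.one_apply, apply_ite π, map_one,
        map_zero]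
    have hex : ∀ X, ∃ g : G,
        ((ρ g : GL (Fin 2) (ZMod (2 ^ n))) : Matrix (Fin 2) (Fin 2) (ZMod (2 ^ n))) = 1 + c • X := by
      intro X
      have hu : IsUnit (1 + c • X : Matrix (Fin 2) (Fin 2) (ZMod (2 ^ n))) := by
        refine (Matrix.isUnit_iff_isUnit_det _).mpr (isUnit_of_mod2 hn _ ?_)
        rw [RingHom.map_det, RingHom.mapMatrix_apply, hredu, Matrix.det_one]
      obtain ⟨g, hg⟩ := hs hu.unit
      exact ⟨g, by rw [hg, IsUnit.unit_spec]⟩
    choose u hu using hex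
    have hru : ∀ X, redRho hn ρ (u X) = 1 := fun X => by rw [redRho, hu, hredu]
    have hsucc : (2 : ZMod (2 ^ n)) ^ (k + 1) = c * 2 := by rw [pow_succ]
    -- the values depend only on `X` modulo two and are additive
    have hnext : ∀ (g : G) (Z : Matrix (Fin 2) (Fin 2) (ZMod (2 ^ n))),
        ((ρ g : GL (Fin 2) (ZMod (2 ^ n))) : Matrix (Fin 2) (Fin 2) (ZMod (2 ^ n))) =
          1 + (c * 2) • Z → x g = 0 := fun g Z h =>
      ih (k + 1) (by omega) (by omega) g ⟨Z, by rw [hsucc]; exact h⟩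
    have hadd : ∀ X Y, x (u X) + x (u Y) = x (u (X + Y)) := by
      intro X Y
      obtain ⟨Z, hZ⟩ : ∃ Z, ((ρ ((u (X + Y))⁻¹ * (u X * u Y)) : GL (Fin 2) (ZMod (2 ^ n))) :
          Matrix (Fin 2) (Fin 2) (ZMod (2 ^ n))) = 1 + (c * 2) • Z := by
        refine ⟨(↑(ρ (u (X + Y)))⁻¹ : Matrix (Fin 2) (Fin 2) (ZMod (2 ^ n))) *
          ((2 ^ (k - 1) : ZMod (2 ^ n)) • (X * Y)), ?_⟩
        have e : (1 + c • X) * (1 + c • Y) =
            (1 + c • (X + Y)) + (c * 2) • ((2 ^ (k - 1) : ZMod (2 ^ n)) • (X * Y)) := by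
          rw [smul_smul, mul_assoc c, ← pow_succ', Nat.sub_add_cancel hk1, ← hc]
          simp only [add_mul, mul_add, one_mul, mul_one, smul_mul_assoc, mul_smul_comm, smul_smul,
            smul_add]
          abel
        rw [map_mul, map_inv, map_mul, Units.val_mul, Units.val_mul, hu X, hu Y, e, mul_add,
          ← hu (X + Y), Units.inv_mul, Algebra.mul_smul_comm]
      have h := hnext _ Z hZ
      have h' := x_mul_of_red_one hn ρ x hx (h := (u (X + Y))⁻¹ * (u X * u Y)) (hru (X + Y))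
      rw [mul_inv_cancel_left, h, add_zero, x_mul_of_red_one hn ρ x hx (hru X)] at h'
      exact h'
    have hzero : ∀ Z, x (u ((2 : ZMod (2 ^ n)) • Z)) = 0 := fun Z =>
      hnext _ Z (by rw [hu, smul_smul])
    -- descend to matrices over `𝔽₂`
    let lift : Matrix (Fin 2) (Fin 2) (ZMod 2) → Matrix (Fin 2) (Fin 2) (ZMod (2 ^ n)) :=
      fun M => M.map fun a => ((a.val : ℕ) : ZMod (2 ^ n))
    have hdep : ∀ X, x (u X) = x (u (lift (X.map π))) := fun X => by
      have he : ∀ i j, ∃ b, X i j - (lift (X.map π)) i j = 2 * b := fun i j => by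
        refine exists_eq_two_mul hn ?_
        show π _ = 0
        rw [map_sub, show π (lift (X.map π) i j) = π (((π (X i j)).val : ℕ) : ZMod (2 ^ n)) from rfl,
          map_natCast, ZMod.natCast_zmod_val, sub_self]
      choose Z hZ using he
      have e : X = lift (X.map π) + (2 : ZMod (2 ^ n)) • Matrix.of Z := by
        ext i j
        rw [Matrix.add_apply, Matrix.smul_apply, Matrix.of_apply, smul_eq_mul, ← hZ]
        abel
      conv_lhs => rw [e]
      rw [← hadd, hzero, add_zero]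
    have hmap : ∀ M, (lift M).map π = M := fun M => by
      ext i j
      show π (((M i j).val : ℕ) : ZMod (2 ^ n)) = M i j
      rw [map_natCast, ZMod.natCast_zmod_val]
    let φ : Matrix (Fin 2) (Fin 2) (ZMod 2) →+ (Fin 2 → ZMod 2) :=
      AddMonoidHom.mk' (fun M => x (u (lift M))) fun M M' => by
        rw [hadd, hdep (lift M + lift M'), Matrix.map_add _ (map_add π), hmap, hmap]
    have hφX : ∀ X, x (u X) = φ (X.map π) := fun X => hdep X
    have heq : ∀ g X, g * g = (1 : Matrix (Fin 2) (Fin 2) (ZMod 2)) →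
        φ (g * X * g) = g *ᵥ φ X := by
      intro M X hM
      obtain ⟨a, ha⟩ := exists_lift hn ρ hs M (by
        have h := congrArg Matrix.det hM
        rw [Matrix.det_mul, Matrix.det_one] at h
        revert h
        generalize M.det = t
        revert t; decide)
      have hai : redRho hn ρ a⁻¹ = M := by
        have h := redRho_mul hn ρ a a⁻¹
        rw [mul_inv_cancel, redRho_one, ha] at h
        calc redRho hn ρ a⁻¹ = M * M * redRho hn ρ a⁻¹ := by rw [hM, one_mul]
          _ = M := by rw [mul_assoc, ← h, mul_one]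
      set A := ((ρ a : GL (Fin 2) (ZMod (2 ^ n))) : Matrix (Fin 2) (Fin 2) (ZMod (2 ^ n)))
      set B := ((ρ a⁻¹ : GL (Fin 2) (ZMod (2 ^ n))) : Matrix (Fin 2) (Fin 2) (ZMod (2 ^ n)))
      have hAB : A * B = 1 := by rw [← Units.val_mul, ← map_mul, mul_inv_cancel, map_one]; rfl
      have e : ρ (a * u (lift X) * a⁻¹) = ρ (u (A * lift X * B)) := by
        refine Units.ext ?_
        rw [map_mul, map_mul, Units.val_mul, Units.val_mul, hu, hu, mul_add, mul_one, add_mul,
          hAB, mul_smul_comm, smul_mul_assoc]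
      have h1 := x_eq_of_rho_eq hn ρ x hx hker e
      rw [x_conj hn ρ x hx a _ (hru _), hφX (A * lift X * B), Matrix.map_mul, Matrix.map_mul,
        hmap, show A.map π = M from ha, show B.map π = M from hai, ha] at h1
      exact h1.symm
    have hN' : φ (N.map π) = 0 := by
      rw [← hφX]
      rcases Nat.lt_or_ge k 2 with hk2 | hk2
      · obtain rfl : k = 1 := by omega
        have e : ρ (u N) = ρ (σ * σ) := by
          refine Units.ext ?_
          rw [hu, map_mul, Units.val_mul, hc, pow_one,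
            show ((ρ σ : GL (Fin 2) (ZMod (2 ^ n))) : Matrix (Fin 2) (Fin 2) (ZMod (2 ^ n))) =
              1 + N by rw [hN]; abel]
          simp only [add_mul, mul_add, one_mul, mul_one, two_smul]
          rw [hsq]
          abel
        rw [x_eq_of_rho_eq hn ρ x hx hker e, hx, hv]
        have h2 : redRho hn ρ σ * redRho hn ρ σ = 1 := by
          have e : redRho hn ρ σ = 1 + N.map π := by
            rw [redRho, hN, Matrix.map_sub _ (map_sub π), Matrix.map_one _ (map_zero π) (map_one π)]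
            abel
          rw [e]
          simp only [add_mul, mul_add, one_mul, mul_one]
          rw [hNN, add_zero, add_assoc]
          convert add_zero (1 : Matrix (Fin 2) (Fin 2) (ZMod 2)) using 2
          ext i j
          exact CharTwo.add_self_eq_zero _
        rw [Matrix.mulVec_sub, Matrix.mulVec_mulVec, h2, Matrix.one_mulVec]
        abel
      · have hu' : IsUnit (1 + (2 ^ (k - 1) : ZMod (2 ^ n)) • N :
            Matrix (Fin 2) (Fin 2) (ZMod (2 ^ n))) := by
          refine (Matrix.isUnit_iff_isUnit_det _).mpr (isUnit_of_mod2 hn _ ?_)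
          rw [RingHom.map_det, RingHom.mapMatrix_apply, Matrix.map_add _ (map_add _),
            Matrix.map_one _ (map_zero _) (map_one _)]
          have : ((2 ^ (k - 1) : ZMod (2 ^ n)) • N).map π = 0 := by
            ext i j
            rw [Matrix.map_apply, Matrix.smul_apply, smul_eq_mul, map_mul, map_pow,
              show π 2 = 0 by rw [map_ofNat]; rfl, zero_pow (by omega), zero_mul]
            rfl
          rw [this, add_zero, Matrix.det_one]
        obtain ⟨w, hw⟩ := hs hu'.unit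
        have hrw : redRho hn ρ w = 1 := by
          ext i j
          rw [redRho, hw, IsUnit.unit_spec, Matrix.map_apply, Matrix.add_apply, Matrix.smul_apply,
            smul_eq_mul, map_add, map_mul, map_pow, show π 2 = 0 by rw [map_ofNat]; rfl,
            zero_pow (by omega), zero_mul, add_zero, Matrix.one_apply, Matrix.one_apply,
            apply_ite π, map_one, map_zero]
        have e : ρ (u N) = ρ (w * w) := by
          refine Units.ext ?_
          rw [hu, map_mul, Units.val_mul, hw, IsUnit.unit_spec]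
          simp only [add_mul, mul_add, one_mul, mul_one, smul_mul_assoc, mul_smul_comm]
          rw [hsq, smul_zero, add_zero, add_assoc,
            ← two_smul (ZMod (2 ^ n)) ((2 ^ (k - 1) : ZMod (2 ^ n)) • N), smul_smul, ← pow_succ',
            Nat.sub_add_cancel hk1, hc]
        rw [x_eq_of_rho_eq hn ρ x hx hker e, x_mul_of_red_one hn ρ x hx hrw]
        ext i
        exact CharTwo.add_self_eq_zero _
    rintro g ⟨X, hX⟩
    rw [x_eq_of_rho_eq hn ρ x hx hker (g := g) (h := u X) (Units.ext (hX.trans (hu X).symm)), hφX]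
    exact equivariant_eq_zero φ heq hN0 hNN hN' _

include hx hker in
/-- A crossed homomorphism of `GL₂(ℤ/2ⁿ)` which is a coboundary at a transvection is one. -/
theorem exists_cob_of_inflated (hs : Function.Surjective ρ) {σ : G}
    (hsq : (((ρ σ : GL (Fin 2) (ZMod (2 ^ n))) : Matrix (Fin 2) (Fin 2) (ZMod (2 ^ n))) - 1) *
      (((ρ σ : GL (Fin 2) (ZMod (2 ^ n))) : Matrix (Fin 2) (Fin 2) (ZMod (2 ^ n))) - 1) = 0)
    (hσ : redRho hn ρ σ ≠ 1) {v : Fin 2 → ZMod 2} (hv : x σ = redRho hn ρ σ *ᵥ v - v) :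
    ∃ w, ∀ g, x g = redRho hn ρ g *ᵥ w - w := by
  have hz := fun g => x_eq_zero_of_red_one hn ρ x hx hker hs hsq hσ hv (g := g)
  have hred : ∀ g h, redRho hn ρ g = redRho hn ρ h → x g = x h := fun g h e => by
    have h1 := hz (h⁻¹ * g) (by
      rw [redRho_mul, e, ← redRho_mul, inv_mul_cancel, redRho_one])
    have h2 := hx h (h⁻¹ * g)
    rwa [mul_inv_cancel_left, h1, Matrix.mulVec_zero, add_zero] at h2
  obtain ⟨a, ha⟩ := exists_lift hn ρ hs !![0, 1; 1, 1] (by decide)
  obtain ⟨b, hb⟩ := exists_lift hn ρ hs !![0, 1; 1, 0] (by decide)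
  have hrel := hred (b * a) (a * a * b) (by
    rw [redRho_mul, redRho_mul, redRho_mul, ha, hb]; decide)
  rw [hx, hx (a * a), hx a a, redRho_mul, ha, hb] at hrel
  obtain ⟨w, hw⟩ : ∃ w, x a = !![0, 1; 1, 1] *ᵥ w - w ∧ x b = !![0, 1; 1, 0] *ᵥ w - w := by
    revert hrel
    generalize x a = s
    generalize x b = t
    revert s t
    decide
  refine ⟨w, fun g => ?_⟩
  have hM : (redRho hn ρ g).det = 1 := by
    have h := congrArg Matrix.det (redRho_mul hn ρ g g⁻¹)
    rw [mul_inv_cancel, redRho_one, Matrix.det_one, Matrix.det_mul] at h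
    revert h
    generalize (redRho hn ρ g).det = s
    generalize (redRho hn ρ g⁻¹).det = t
    revert s t
    decide
  have six : redRho hn ρ g = redRho hn ρ 1 ∨ redRho hn ρ g = redRho hn ρ a ∨
      redRho hn ρ g = redRho hn ρ b ∨ redRho hn ρ g = redRho hn ρ (a * a) ∨
      redRho hn ρ g = redRho hn ρ (a * b) ∨ redRho hn ρ g = redRho hn ρ (b * a) := by
    simp only [redRho_mul, redRho_one, ha, hb]
    revert hM
    generalize redRho hn ρ g = M
    revert M
    decide
  have hstep : ∀ p q, x p = redRho hn ρ p *ᵥ w - w → x q = redRho hn ρ q *ᵥ w - w →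
      x (p * q) = redRho hn ρ (p * q) *ᵥ w - w := fun p q hp hq => by
    rw [hx, hp, hq, redRho_mul, Matrix.mulVec_sub, Matrix.mulVec_mulVec]
    abel
  have ka : x a = redRho hn ρ a *ᵥ w - w := by rw [ha]; exact hw.1
  have kb : x b = redRho hn ρ b *ᵥ w - w := by rw [hb]; exact hw.2
  have k1 : x 1 = redRho hn ρ 1 *ᵥ w - w := by
    rw [x_one hn ρ x hx, redRho_one, Matrix.one_mulVec, sub_self]
  rcases six with h | h | h | h | h | h <;> rw [hred _ _ h, h]
  exacts [k1, ka, kb, hstep _ _ ka ka, hstep _ _ ka kb, hstep _ _ kb ka]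

end cocycle

end FLTA.LT2.Primes
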