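import Fermat.Agent.LT2.ReciprocityMain
import Fermat.Agent.LT2.LocalTwoGlobal

/-! # Parts E, F: the consequence of reciprocity for the cubic field -/

set_option autoImplicit false

namespace FLTA.LT2

/-- If a class with the conditions of `Q` is visible at the new prime `q`, the classes with the
conditions of `insert q Q` are unramified at `q`. -/
theorem unramAt_of_visible {E : WeierstrassCurve ℤ} (hE : Companion E) {n : ℕ} (hn : 2 ≤ n)
    {Q : Finset ℕ} (hQ : ∀ q' ∈ Q, ConjPrime E n q') {q : ℕ} (hq : ConjPrime E n q) (hqQ : q ∉ Q)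
    {x c : StCocycle E} (hx : StCond E Q x) (hxq : ¬ FrobNull E q x)
    (hc : StCond E (insert q Q) c) : UnramAt E q c := by
  exact unramAt_of_visible_of_two hE (by omega) hQ hq hqQ hx hxq hc (locCob_or_locEq_two hE hx hc)

end FLTA.LT2
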