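import Fermat.Agent.LT2.PrimesChebotarev
import Fermat.Agent.LT2.PrimesLine
import Fermat.Agent.LT2.PrimesReciprocity

/-! # Part F: the descent killing the Steinberg part with boundedly many primes -/

set_option autoImplicit false

namespace FLTA.LT2

variable {E : WeierstrassCurve ℤ}

theorem StCond.of_insert {Q : Finset ℕ} {q : ℕ} {c : StCocycle E}
    (hc : StCond E (insert q Q) c) (hu : q ∉ Q → UnramAt E q c) : StCond E Q c := by
  refine ⟨fun ℓ hℓ h2 hℓQ => ?_, fun q' hq' => hc.2.1 q' (Finset.mem_insert_of_mem hq'), hc.2.2⟩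
  by_cases h : ℓ = q
  · subst h; exact hu hℓQ
  · exact hc.1 ℓ hℓ h2 (fun hm => (Finset.mem_insert.mp hm).elim h hℓQ)

theorem finite_stCond_singleton (hE : Companion E) {n q : ℕ} (hq : ConjPrime E n q) :
    Finite {c : StCocycle E // StCond E {q} c} ∧
      Nat.card {c : StCocycle E // StCond E {q} c} ≤
        2 * Nat.card {c : StCocycle E // StCond E ∅ c} := by
  classical
  have := finite_stCond_empty hE
  have hmem : ∀ c : StCocycle E, StCond E {q} c → UnramAt E q c → StCond E ∅ c := fun c hc hu =>
    StCond.of_insert (by simpa using hc) fun _ => hu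
  by_cases h : ∃ c₀ : {c : StCocycle E // StCond E {q} c}, ¬ UnramAt E q c₀.1
  · obtain ⟨c₀, h₀⟩ := h
    let f : {c : StCocycle E // StCond E {q} c} →
        {c : StCocycle E // StCond E ∅ c} ⊕ {c : StCocycle E // StCond E ∅ c} := fun c =>
      if hu : UnramAt E q c.1 then Sum.inl ⟨c.1, hmem _ c.2 hu⟩
      else Sum.inr ⟨c.1.sub c₀.1, hmem _ (c.2.sub c₀.2)
        (unramAt_sub_of_ramified hE hq (c.2.frobNull (Finset.mem_singleton_self q))
          (c₀.2.frobNull (Finset.mem_singleton_self q)) hu h₀)⟩
    have hf : Function.Injective f := by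
      intro a b hab
      apply Subtype.ext
      simp only [f] at hab
      split_ifs at hab with ha hb hb
      · exact (congrArg Subtype.val (Sum.inl.inj hab) :)
      · have := congrArg (fun c => c.1.toFun) (Sum.inr.inj hab)
        obtain ⟨⟨fa, _, _⟩, _⟩ := a
        obtain ⟨⟨fb, _, _⟩, _⟩ := b
        congr
        funext σ
        exact sub_left_inj.mp (congrFun this σ)
    refine ⟨Finite.of_injective f hf, (Nat.card_le_card_of_injective f hf).trans ?_⟩
    rw [Nat.card_sum, two_mul]
  · push Not at h
    let f : {c : StCocycle E // StCond E {q} c} → {c : StCocycle E // StCond E ∅ c} := fun c =>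
      ⟨c.1, hmem _ c.2 (h c)⟩
    have hf : Function.Injective f := fun a b hab =>
      Subtype.ext (congrArg (fun c => c.1) hab :)
    exact ⟨Finite.of_injective f hf, (Nat.card_le_card_of_injective f hf).trans (by omega)⟩

theorem exists_killing_primes_aux (hE : Companion E) :
    ∃ r : ℕ, ∀ n : ℕ, 2 ≤ n →
      ∃ Q : Finset ℕ, Q.card ≤ r ∧ Q.Nonempty ∧ (∀ q ∈ Q, ConjPrime E n q) ∧ StKilled E Q := by
  classical
  refine ⟨2 * Nat.card {c : StCocycle E // StCond E ∅ c} + 1, fun n hn => ?_⟩
  have key : ∀ (k : ℕ) (Q : Finset ℕ), Q.Nonempty → (∀ q ∈ Q, ConjPrime E n q) →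
      Finite {c : StCocycle E // StCond E Q c} → Nat.card {c : StCocycle E // StCond E Q c} ≤ k →
      ∃ Q' : Finset ℕ, Q'.card ≤ Q.card + k ∧ Q'.Nonempty ∧ (∀ q ∈ Q', ConjPrime E n q) ∧
        StKilled E Q' := by
    intro k
    induction k using Nat.strong_induction_on with
    | _ k ih =>
      intro Q hQne hQ hfin hcard
      by_cases hK : StKilled E Q
      · exact ⟨Q, by omega, hQne, hQ, hK⟩
      simp only [StKilled, not_forall, exists_prop] at hK
      obtain ⟨x, hx, hxne⟩ := hK
      obtain ⟨q, hqQ, hq, hxq⟩ := exists_conjPrime_not_frobNull hE n hn hQ hx hxne Q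
      have hsub : ∀ c, StCond E (insert q Q) c → StCond E Q c := fun c hc =>
        hc.of_insert fun _ => unramAt_of_visible hE hn hQ hq hqQ hx hxq hc
      let f : {c : StCocycle E // StCond E (insert q Q) c} → {c : StCocycle E // StCond E Q c} :=
        fun c => ⟨c.1, hsub _ c.2⟩
      have hf : Function.Injective f := fun a b h => Subtype.ext (congrArg (fun c => c.1) h :)
      have hlt : Nat.card {c : StCocycle E // StCond E (insert q Q) c} <
          Nat.card {c : StCocycle E // StCond E Q c} := by
        haveI := Fintype.ofFinite {c : StCocycle E // StCond E Q c}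
        haveI := Finite.of_injective f hf
        haveI := Fintype.ofFinite {c : StCocycle E // StCond E (insert q Q) c}
        rw [Nat.card_eq_fintype_card, Nat.card_eq_fintype_card]
        refine Fintype.card_lt_of_injective_of_notMem f hf (b := ⟨x, hx⟩) ?_
        rintro ⟨⟨c, hc⟩, hcx⟩
        have h : c = x := congrArg Subtype.val hcx
        exact hxq (h ▸ hc.frobNull (Finset.mem_insert_self q Q))
      obtain ⟨Q', h1, h2, h3, h4⟩ := ih _ (hlt.trans_le hcard) (insert q Q) (Finset.insert_nonempty _ _)
        (fun q' hq' => (Finset.mem_insert.mp hq').elim (fun h => h ▸ hq) (hQ q'))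
        (Finite.of_injective f hf) le_rfl
      refine ⟨Q', ?_, h2, h3, h4⟩
      have := Finset.card_insert_le q Q
      omega
  obtain ⟨q, -, hq⟩ := exists_conjPrime hE n hn ∅
  obtain ⟨hfin, hcard⟩ := finite_stCond_singleton hE hq
  obtain ⟨Q', h1, h2⟩ := key _ {q} (Finset.singleton_nonempty q)
    (fun q' hq' => Finset.mem_singleton.mp hq' ▸ hq) hfin hcard
  exact ⟨Q', by simpa [add_comm] using h1, h2⟩

end FLTA.LT2
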