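import Fermat.Agent.LT2.PrimesScalarChar

/-!
# Part F: the scalar part of the tangent space is bounded by the number of bad primes

If every `q ∈ Q` has its own bad prime which is a nonsquare mod `q` and a square mod the other
members of `Q`, then `Q` separates, and a scalar class is determined by its values at one inertia
element for each bad prime.
-/

set_option autoImplicit false

open FLTA.Galois

noncomputable section

namespace FLTA.LT2

local notation "Qb" => AlgebraicClosure ℚ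
local notation "Γℚ" => (Qb ≃ₐ[ℚ] Qb)

variable {E : WeierstrassCurve ℤ} {Q : Finset ℕ}

theorem mem_badPrimes (hΔ : E.Δ ≠ 0) {l : ℕ} :
    l ∈ badPrimes E ↔ l.Prime ∧ (l : ℤ) ∣ E.Δ := by
  rw [badPrimes, Nat.mem_primeFactors, Int.natCast_dvd]
  exact ⟨fun h => ⟨h.1, h.2.1⟩, fun h => ⟨h.1, h.2, Int.natAbs_ne_zero.2 hΔ⟩⟩

theorem separating_of_pattern (hQ : ∀ q ∈ Q, q.Prime ∧ q ≠ 2)
    (hpat : ∀ q ∈ Q, ∃ l ∈ badPrimes E, l ∉ Q ∧ ¬ IsSquare (l : ZMod q) ∧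
      ∀ q' ∈ Q, q' ≠ q → IsSquare (l : ZMod q')) :
    Separating E Q := by
  classical
  intro χ hχ hu hdec
  have hx : ∀ q, ∃ x : ZMod 2, q ∈ Q → CharUnramAt q (fun σ => χ σ + x * qChar q σ) := fun q => by
    by_cases hq : q ∈ Q
    · have := Fact.mk (hQ q hq).1
      obtain ⟨x, hx⟩ := hχ.exists_unram_add_qChar q (hQ q hq).2
      exact ⟨x, fun _ => hx⟩
    · exact ⟨0, fun h => absurd h hq⟩
  choose x hx using hx
  have hc : ∀ q ∈ Q, IsCharTwo (fun σ => x q * qChar q σ) := fun q hq =>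
    have := Fact.mk (hQ q hq).1
    (qChar_isChar q (hQ q hq).2).const_mul _
  have hall : IsCharTwo (fun σ => χ σ + ∑ q ∈ Q, x q * qChar q σ) :=
    hχ.add (isCharTwo_sum Q hc)
  have hzero : ∀ σ, χ σ + ∑ q ∈ Q, x q * qChar q σ = 0 := by
    refine hall.eq_zero_of_unramified fun ℓ hℓ A hA σ hσ => ?_
    show χ σ + ∑ q ∈ Q, x q * qChar q σ = 0
    have hothers : ∀ q ∈ Q, q ≠ ℓ → x q * qChar q σ = 0 := fun q hq hne => by
      have := Fact.mk (hQ q hq).1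
      rw [qChar_unramified q hℓ hne.symm A hA σ hσ, mul_zero]
    by_cases hℓQ : ℓ ∈ Q
    · rw [← Finset.add_sum_erase _ _ hℓQ, Finset.sum_eq_zero (fun q hq => hothers q
        (Finset.mem_of_mem_erase hq) (Finset.ne_of_mem_erase hq)), add_zero]
      exact hx ℓ hℓQ A hA σ hσ
    · rw [Finset.sum_eq_zero (fun q hq => hothers q hq fun e => hℓQ (e ▸ hq)),
        hu ℓ hℓ hℓQ A hA σ hσ, add_zero]
  have hx0 : ∀ q ∈ Q, x q = 0 := by
    intro q hq
    obtain ⟨l, hl, hlQ, hns, hs⟩ := hpat q hq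
    have hlp : l.Prime := (Nat.mem_primeFactors.1 hl).1
    obtain ⟨A, hA, hA0⟩ := hdec l hl
    obtain ⟨F, hF⟩ := exists_isFrobeniusAt hlp hA
    have h := hzero F
    rw [hA0 F hF.mem_decompositionSubgroup, zero_add, Finset.sum_eq_single_of_mem q hq] at h
    · have := Fact.mk (hQ q hq).1
      rwa [qChar_frobenius q hlp (fun e : l = q => hlQ (e ▸ hq)) hA hF, if_neg hns, mul_one] at h
    · intro q' hq' hne
      have := Fact.mk (hQ q' hq').1
      rw [qChar_frobenius q' hlp (fun e : l = q' => hlQ (e ▸ hq')) hA hF,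
        if_pos (hs q' hq' hne), mul_zero]
  intro σ
  have h := hzero σ
  rwa [Finset.sum_eq_zero (fun q hq => by rw [hx0 q hq, zero_mul]), add_zero] at h

/-- A scalar class vanishing at inertia elements with `ψ = 1` at every bad prime is zero. -/
theorem ScalarCond.eq_zero (hΔ : E.Δ ≠ 0) (hsep : Separating E Q) {ψ χ : Γℚ → ZMod 2}
    (hχ : ScalarCond E Q ψ χ)
    (hσ : ∀ l ∈ badPrimes E, ∃ A : ValuationSubring Qb, A.LiesOverPrime l ∧
      ∃ s ∈ A.inertiaSubgroupIn ℚ, ψ s = 1 ∧ χ s = 0) (τ : Γℚ) : χ τ = 0 := by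
  have hdec : ∀ l ∈ badPrimes E, ∃ A : ValuationSubring Qb, A.LiesOverPrime l ∧
      ∀ σ ∈ A.decompositionSubgroup ℚ, χ σ = 0 := by
    intro l hl
    obtain ⟨A, hA, s, hs, hψ, h0⟩ := hσ l hl
    obtain ⟨x, hx⟩ := hχ.bad l hl A hA
    have h := hx s (inertiaSubgroupIn_le_decompositionSubgroup hs)
    rw [h0, hψ, mul_one] at h
    exact ⟨A, hA, fun σ hσ' => by rw [hx σ hσ', ← h, zero_mul]⟩
  refine hsep χ hχ.isChar (fun ℓ hℓ hℓQ => ?_) hdec τ
  by_cases hbad : (ℓ : ℤ) ∣ E.Δ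
  · obtain ⟨A, hA, hA0⟩ := hdec ℓ ((mem_badPrimes hΔ).2 ⟨hℓ, hbad⟩)
    exact hχ.isChar.charUnramAt_of_one hℓ hA fun σ hσ' =>
      hA0 σ (inertiaSubgroupIn_le_decompositionSubgroup hσ')
  · exact hχ.unram ℓ hℓ hbad hℓQ

theorem ScalarCond.add {ψ χ χ' : Γℚ → ZMod 2} (h : ScalarCond E Q ψ χ)
    (h' : ScalarCond E Q ψ χ') : ScalarCond E Q ψ (fun σ => χ σ + χ' σ) := by
  refine ⟨h.isChar.add h'.isChar, fun ℓ hℓ hg hQ A hA σ hσ => ?_, fun l hl A hA => ?_⟩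
  · show χ σ + χ' σ = 0
    rw [h.unram ℓ hℓ hg hQ A hA σ hσ, h'.unram ℓ hℓ hg hQ A hA σ hσ, add_zero]
  · obtain ⟨x, hx⟩ := h.bad l hl A hA
    obtain ⟨x', hx'⟩ := h'.bad l hl A hA
    exact ⟨x + x', fun σ hσ => by show χ σ + χ' σ = _; rw [hx σ hσ, hx' σ hσ, add_mul]⟩

/-- A scalar class is determined by its values at inertia elements with `ψ = 1`. -/
theorem ScalarCond.eq_of_eq_at (hΔ : E.Δ ≠ 0) (hsep : Separating E Q) {ψ χ χ' : Γℚ → ZMod 2}
    (h : ScalarCond E Q ψ χ) (h' : ScalarCond E Q ψ χ') (s : ℕ → Γℚ)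
    (hs : ∀ l ∈ badPrimes E, ∃ A : ValuationSubring Qb, A.LiesOverPrime l ∧
      s l ∈ A.inertiaSubgroupIn ℚ ∧ ψ (s l) = 1)
    (he : ∀ l ∈ badPrimes E, χ (s l) = χ' (s l)) : χ = χ' := by
  funext τ
  refine CharTwo.add_eq_zero.1 ((h.add h').eq_zero hΔ hsep (fun l hl => ?_) τ)
  obtain ⟨A, hA, hi, hψ⟩ := hs l hl
  exact ⟨A, hA, s l, hi, hψ, CharTwo.add_eq_zero.2 (he l hl)⟩

/-- Extra auxiliary primes: a scalar class unramified at them lives at the smaller set. -/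
theorem ScalarCond.of_unram {Q₀ : Finset ℕ} {ψ χ : Γℚ → ZMod 2} (h : ScalarCond E Q ψ χ)
    (hu : ∀ q ∈ Q, q ∉ Q₀ → CharUnramAt q χ) : ScalarCond E Q₀ ψ χ :=
  ⟨h.isChar, fun ℓ hℓ hg hℓQ => if hm : ℓ ∈ Q then hu ℓ hm hℓQ else h.unram ℓ hℓ hg hm, h.bad⟩

/-- A scalar class for a larger auxiliary set `Q` is determined by its values at inertia elements
with `ψ = 1` at the bad primes and with nontrivial quadratic character at the primes outside the
separating set `Q₀`. -/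
theorem ScalarCond.eq_zero_of_subset (hΔ : E.Δ ≠ 0) {Q₀ : Finset ℕ} (hsep : Separating E Q₀)
    {ψ χ : Γℚ → ZMod 2} (hχ : ScalarCond E Q ψ χ)
    (hσ : ∀ l ∈ badPrimes E, ∃ A : ValuationSubring Qb, A.LiesOverPrime l ∧
      ∃ s ∈ A.inertiaSubgroupIn ℚ, ψ s = 1 ∧ χ s = 0)
    (hQ : ∀ q ∈ Q, q ∉ Q₀ → q.Prime ∧ q ≠ 2 ∧ ∃ A : ValuationSubring Qb, A.LiesOverPrime q ∧
      ∃ s ∈ A.inertiaSubgroupIn ℚ, qChar q s = 1 ∧ χ s = 0) (τ : Γℚ) : χ τ = 0 := by
  refine (hχ.of_unram fun q hq hq₀ => ?_).eq_zero hΔ hsep hσ τ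
  obtain ⟨hqp, hq2, A, hA, s, hs, hqs, h0⟩ := hQ q hq hq₀
  have := Fact.mk hqp
  obtain ⟨x, hx⟩ := hχ.isChar.exists_unram_add_qChar q hq2
  have h := hx A hA s hs
  simp only [h0, hqs, zero_add, mul_one] at h
  intro B hB σ hσ'
  simpa [h] using hx B hB σ hσ'

/-- There are at most `2ᵗ` scalar classes, `t` the number of bad primes. -/
theorem natCard_scalarCond_le (hΔ : E.Δ ≠ 0) (hsep : Separating E Q) (ψ : Γℚ → ZMod 2)
    (s : ℕ → Γℚ) (hs : ∀ l ∈ badPrimes E, ∃ A : ValuationSubring Qb, A.LiesOverPrime l ∧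
      s l ∈ A.inertiaSubgroupIn ℚ ∧ ψ (s l) = 1) :
    Finite {χ // ScalarCond E Q ψ χ} ∧
      Nat.card {χ // ScalarCond E Q ψ χ} ≤ 2 ^ (badPrimes E).card := by
  let f : {χ // ScalarCond E Q ψ χ} → (badPrimes E → ZMod 2) := fun χ l => χ.1 (s l)
  have hf : Function.Injective f := fun a b hab =>
    Subtype.ext (a.2.eq_of_eq_at hΔ hsep b.2 s hs fun l hl => congrFun hab ⟨l, hl⟩)
  refine ⟨Finite.of_injective f hf, (Nat.card_le_card_of_injective f hf).trans ?_⟩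
  simp [Nat.card_eq_fintype_card]

end FLTA.LT2

end
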