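import Fermat.Agent.LT2.PrimesScalarDefs
import Fermat.Agent.Galois.PlacesFinite
import Fermat.Agent.Galois.Cyclotomic
import Fermat.Agent.RT.LocalGalois
import Fermat.Prelude.Def_ExtCitation_KummerBridge

/-!
# Part F: characters of order two with bounded ramification
-/

set_option autoImplicit false

open ExtCitation FLTA.Galois

noncomputable section

namespace FLTA.LT2

local notation "Qb" => AlgebraicClosure ℚ
local notation "Γℚ" => (Qb ≃ₐ[ℚ] Qb)

variable {χ χ' : Γℚ → ZMod 2}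

theorem IsCharTwo.map_one (h : IsCharTwo χ) : χ 1 = 0 := by
  have := h.map_mul 1 1
  rwa [mul_one, right_eq_add] at this

/-- The homomorphism of a character. -/
def IsCharTwo.toHom (h : IsCharTwo χ) : Γℚ →* Multiplicative (ZMod 2) :=
  { toFun := fun σ => Multiplicative.ofAdd (χ σ)
    map_one' := by rw [h.map_one]; rfl
    map_mul' := fun σ τ => by rw [h.map_mul]; rfl }

theorem IsCharTwo.toHom_eq_one_iff (h : IsCharTwo χ) (σ : Γℚ) : h.toHom σ = 1 ↔ χ σ = 0 :=
  Iff.rfl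

theorem IsCharTwo.finiteLevel (h : IsCharTwo χ) :
    ∃ L : IntermediateField ℚ Qb, FiniteDimensional ℚ L ∧
      ∀ σ : Γℚ, (∀ x ∈ L, σ x = x) → h.toHom σ = 1 := by
  obtain ⟨K, hK, hker⟩ := h.open_kernel
  exact ⟨K, hK, fun σ hσ =>
    (h.toHom_eq_one_iff σ).2 (hker σ ((IntermediateField.mem_fixingSubgroup_iff _ _).2 hσ))⟩

theorem IsCharTwo.apply_conj (h : IsCharTwo χ) (g σ : Γℚ) : χ (g * σ * g⁻¹) = χ σ := by
  have e : χ (g * g⁻¹) = χ g + χ g⁻¹ := h.map_mul g g⁻¹
  rw [mul_inv_cancel, h.map_one] at e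
  rw [h.map_mul, h.map_mul, add_right_comm, ← e, zero_add]

theorem IsCharTwo.add (h : IsCharTwo χ) (h' : IsCharTwo χ') :
    IsCharTwo (fun σ => χ σ + χ' σ) := by
  refine ⟨fun σ τ => ?_, ?_⟩
  · rw [h.map_mul, h'.map_mul]; abel
  · obtain ⟨K, hK, hk⟩ := h.open_kernel
    obtain ⟨K', hK', hk'⟩ := h'.open_kernel
    refine ⟨K ⊔ K', IntermediateField.finiteDimensional_sup K K', fun σ hσ => ?_⟩
    rw [IntermediateField.fixingSubgroup_sup, Subgroup.mem_inf] at hσ
    rw [hk σ hσ.1, hk' σ hσ.2, add_zero]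

theorem isCharTwo_zero : IsCharTwo (fun _ => 0) :=
  ⟨fun _ _ => (add_zero 0).symm, ⊥, inferInstance, fun _ _ => rfl⟩

theorem IsCharTwo.const_mul (h : IsCharTwo χ) (x : ZMod 2) : IsCharTwo (fun σ => x * χ σ) :=
  ⟨fun σ τ => by rw [h.map_mul, mul_add],
    let ⟨K, hK, hk⟩ := h.open_kernel
    ⟨K, hK, fun σ hσ => by rw [hk σ hσ, mul_zero]⟩⟩

theorem isCharTwo_sum {ι : Type*} (s : Finset ι) {f : ι → Γℚ → ZMod 2}
    (h : ∀ i ∈ s, IsCharTwo (f i)) : IsCharTwo (fun σ => ∑ i ∈ s, f i σ) := by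
  classical
  induction s using Finset.induction with
  | empty => simpa using isCharTwo_zero
  | insert a s ha ih =>
    simp only [Finset.sum_insert ha]
    exact (h a (Finset.mem_insert_self a s)).add
      (ih fun i hi => h i (Finset.mem_insert_of_mem hi))

/-- A character unramified everywhere is zero. -/
theorem IsCharTwo.eq_zero_of_unramified (h : IsCharTwo χ)
    (hu : ∀ ℓ : ℕ, ℓ.Prime → CharUnramAt ℓ χ) (σ : Γℚ) : χ σ = 0 :=
  (h.toHom_eq_one_iff σ).1 (hom_eq_one_of_unramified h.toHom h.finiteLevel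
    (fun q hq A hA τ hτ => (h.toHom_eq_one_iff τ).2 (hu q hq A hA τ hτ)) σ)

/-- It is enough to check inertia at one place. -/
theorem IsCharTwo.charUnramAt_of_one (h : IsCharTwo χ) {ℓ : ℕ} (hℓ : ℓ.Prime)
    {A : ValuationSubring Qb} (hA : A.LiesOverPrime ℓ)
    (hu : ∀ σ ∈ A.inertiaSubgroupIn ℚ, χ σ = 0) : CharUnramAt ℓ χ := by
  intro B hB σ hσ
  obtain ⟨g, rfl⟩ := exists_smul_eq hℓ hA hB
  rw [inertiaSubgroupIn_smul_iff] at hσ
  rw [← h.apply_conj g⁻¹ σ, inv_inv]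
  exact hu _ hσ

open Classical in
/-- The quadratic character of conductor `q` as a function on `Γℚ`. -/
def qChar (q : ℕ) (σ : Γℚ) : ZMod 2 :=
  if h : q.Prime then
    (haveI : Fact q.Prime := ⟨h⟩
     if IsSquare (cycloChar q σ : ZMod q) then 0 else 1)
  else 0

variable (q : ℕ) [hq : Fact q.Prime]

open Classical in
theorem qChar_def (σ : Γℚ) :
    qChar q σ = if IsSquare (cycloChar q σ : ZMod q) then 0 else 1 := dif_pos hq.out

theorem qChar_isChar (hq2 : q ≠ 2) : IsCharTwo (qChar q) := by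
  classical
  have hchar : ringChar (ZMod q) ≠ 2 := by rwa [ZMod.ringChar_zmod_n]
  refine ⟨fun σ τ => ?_, ?_⟩
  · rw [qChar_def, qChar_def, qChar_def, map_mul, Units.val_mul]
    set a : ZMod q := (cycloChar q σ : ZMod q) with ha
    set b : ZMod q := (cycloChar q τ : ZMod q) with hb
    have ha0 : a ≠ 0 := Units.ne_zero _
    have hb0 : b ≠ 0 := Units.ne_zero _
    simp only [← quadraticChar_one_iff_isSquare ha0, ← quadraticChar_one_iff_isSquare hb0,
      ← quadraticChar_one_iff_isSquare (mul_ne_zero ha0 hb0), map_mul]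
    rcases quadraticChar_dichotomy ha0 with h1 | h1 <;>
      rcases quadraticChar_dichotomy hb0 with h2 | h2 <;> simp [h1, h2] <;> decide
  · haveI : NeZero q := ⟨hq.out.ne_zero⟩
    have : NeZero (q : Qb) := ⟨Nat.cast_ne_zero.2 hq.out.ne_zero⟩
    obtain ⟨ζ, hζ⟩ := HasEnoughRootsOfUnity.exists_primitiveRoot Qb q
    refine ⟨IntermediateField.adjoin ℚ {ζ}, IntermediateField.adjoin.finiteDimensional
      ((qbar_isAlgebraic.isAlgebraic ζ).isIntegral), fun σ hσ => ?_⟩
    have h1 : (cycloChar q σ : ZMod q) = 1 := by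
      refine (modularCyclotomicCharacter.unique Qb _ (σ : Qb ≃+* Qb) fun t ht => ?_).symm
      have h1 : (t : Qb) ^ q = 1 := by rw [← Units.val_pow_eq_pow_val, ht, Units.val_one]
      obtain ⟨i, -, hi⟩ := hζ.eq_pow_of_pow_eq_one h1
      rw [ZMod.val_one, pow_one, ← hi, map_pow]
      exact congrArg (· ^ i) ((IntermediateField.mem_fixingSubgroup_iff _ _).1 hσ _
        (IntermediateField.mem_adjoin_simple_self ℚ ζ))
    rw [qChar_def, h1, if_pos IsSquare.one]

theorem qChar_unramified {ℓ : ℕ} (hℓ : ℓ.Prime) (hne : ℓ ≠ q) : CharUnramAt ℓ (qChar q) := by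
  intro A hA σ hσ
  rw [qChar_def, coe_cycloChar, Galois.cycloExp_inertia q hℓ hne hA hσ, if_pos IsSquare.one]

open Classical in
theorem qChar_frobenius {ℓ : ℕ} (hℓ : ℓ.Prime) (hne : ℓ ≠ q) {A : ValuationSubring Qb}
    (hA : A.LiesOverPrime ℓ) {σ : Γℚ} (hσ : A.IsFrobeniusAt σ ℓ) :
    qChar q σ = if IsSquare (ℓ : ZMod q) then 0 else 1 := by
  rw [qChar_def, coe_cycloChar, Galois.cycloExp_frobenius q hℓ hne hA hσ]

theorem exists_inertia_qChar_one (hq2 : q ≠ 2) {A : ValuationSubring Qb}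
    (hA : A.LiesOverPrime q) : ∃ ι ∈ A.inertiaSubgroupIn ℚ, qChar q ι = 1 := by
  have hchar : ringChar (ZMod q) ≠ 2 := by rwa [ZMod.ringChar_zmod_n]
  obtain ⟨u, hu⟩ := FiniteField.exists_nonsquare hchar
  have hu0 : u ≠ 0 := fun h => hu (h ▸ ⟨0, (mul_zero 0).symm⟩)
  obtain ⟨ι, hι, he⟩ := Galois.exists_inertia_cycloExp q hA (Units.mk0 u hu0)
  refine ⟨ι, hι, ?_⟩
  rw [qChar_def, coe_cycloChar, he, Units.val_mk0, if_neg hu]

/-- At an odd prime a character is a multiple of the quadratic one on inertia. -/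
theorem IsCharTwo.exists_unram_add_qChar (h : IsCharTwo χ) (hq2 : q ≠ 2) :
    ∃ x : ZMod 2, CharUnramAt q (fun σ => χ σ + x * qChar q σ) := by
  obtain ⟨A, hA⟩ := Galois.exists_liesOverPrime hq.out
  obtain ⟨τ, hτ⟩ := RT.LocalGalois.exists_isTameGenerator hq.out Nat.prime_two hq2.symm hA
  have key : ∀ {f : Γℚ → ZMod 2}, IsCharTwo f → f τ = 0 → CharUnramAt q f := fun {f} hf h0 =>
    hf.charUnramAt_of_one hq.out hA fun σ hσ => (hf.toHom_eq_one_iff σ).1
      (RT.LocalGalois.apply_eq_one_of_tame_generator hf.toHom hq.out hA Nat.prime_two hq2.symm hτ hf.finiteLevel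
        (fun s _ => ⟨1, by
          rw [pow_one]
          exact (by decide : ∀ z : Multiplicative (ZMod 2), z ^ 2 = 1) _⟩)
        ((hf.toHom_eq_one_iff τ).2 h0) hσ)
  have h1 : qChar q τ = 1 := by
    rcases (by decide : ∀ z : ZMod 2, z = 0 ∨ z = 1) (qChar q τ) with h0 | h0
    · obtain ⟨ι, hι, he⟩ := exists_inertia_qChar_one q hq2 hA
      rw [key (qChar_isChar q hq2) h0 A hA ι hι] at he
      exact absurd he zero_ne_one
    · exact h0
  refine ⟨χ τ, key (h.add ((qChar_isChar q hq2).const_mul _)) ?_⟩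
  rw [h1, mul_one]
  exact CharTwo.add_self_eq_zero _

end FLTA.LT2

end
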