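import Mathlib.LinearAlgebra.FiniteDimensional.Lemmas
import Mathlib.LinearAlgebra.Dual.Lemmas

/-!
# The linear algebra of level raising at several primes

`V A` is the space at the level belonging to a set `A` of primes, `inc`, `tw` the two pullbacks
from `V A₀` to `V A`, `A = A₀ ∪ {r}`, and `push` the adjoint of `inc`.  For sets `C`, `B` the
subquotient `subQuot C B A` is the image of the joint kernel of the pushes at `C` in the quotient
by the images of `inc` at `B`.  The only input is Ihara's lemma for the pullbacks modulo the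
images `incSpan B`; it makes the pushes exact, computes the dimension of `subQuot Q Q A`, and shows
that it is not zero.
-/

set_option autoImplicit false

noncomputable section

namespace FLTA.LT2

variable {ι : Type*} [DecidableEq ι]

/-- `A` is obtained from `A₀` by adding `r`. -/
structure RaiseStep (r : ι) (A₀ A : Finset ι) : Prop where
  notMem : r ∉ A₀
  eq_insert : A = insert r A₀

namespace RaiseStep

variable {r s : ι} {A₀ A₁ A : Finset ι}

theorem mem (h : RaiseStep r A₀ A) : r ∈ A := by rw [h.eq_insert]; exact Finset.mem_insert_self _ _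

theorem of_mem (h : r ∈ A) : RaiseStep r (A.erase r) A :=
  ⟨Finset.notMem_erase r A, (Finset.insert_erase h).symm⟩

theorem eq_erase (h : RaiseStep r A₀ A) : A₀ = A.erase r := by
  rw [h.eq_insert, Finset.erase_insert h.notMem]

theorem eq_of (h : RaiseStep r A₀ A) (h' : RaiseStep r A₁ A) : A₀ = A₁ := by
  rw [h.eq_erase, h'.eq_erase]

theorem mem_of_ne (h : RaiseStep r A₀ A) (hs : s ∈ A) (hne : s ≠ r) : s ∈ A₀ := by
  rw [h.eq_erase]; exact Finset.mem_erase.mpr ⟨hne, hs⟩

theorem square (h : RaiseStep r A₀ A) (h' : RaiseStep s A₁ A) (hne : r ≠ s) :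
    RaiseStep s (A₀.erase s) A₀ ∧ RaiseStep r (A₀.erase s) A₁ := by
  refine ⟨of_mem (h.mem_of_ne h'.mem hne.symm), ?_⟩
  rw [h.eq_erase, h'.eq_erase, Finset.erase_right_comm]
  exact of_mem (Finset.mem_erase.mpr ⟨hne, h.mem⟩)

end RaiseStep

variable (k : Type*) [Field k] (V : Finset ι → Type*) [∀ A, AddCommGroup (V A)]
  [∀ A, Module k (V A)]

/-- Spaces with degeneracy maps, an adjunction and Ihara's lemma. -/
structure RaiseData where
  /-- the first pullback -/
  inc : ∀ {r : ι} {A₀ A : Finset ι}, RaiseStep r A₀ A → V A₀ →ₗ[k] V A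
  /-- the second pullback -/
  tw : ∀ {r : ι} {A₀ A : Finset ι}, RaiseStep r A₀ A → V A₀ →ₗ[k] V A
  /-- the first pushforward -/
  push : ∀ {r : ι} {A₀ A : Finset ι}, RaiseStep r A₀ A → V A →ₗ[k] V A₀
  /-- the operator `push ∘ tw` at a prime outside the level -/
  op : ι → ∀ A : Finset ι, Module.End k (V A)
  /-- the pairing -/
  pair : ∀ A : Finset ι, V A →ₗ[k] V A →ₗ[k] k
  pair_nondeg : ∀ A (y : V A), (∀ x, pair A y x = 0) → y = 0
  adjoint : ∀ {r : ι} {A₀ A : Finset ι} (h : RaiseStep r A₀ A) (x : V A₀) (y : V A),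
    pair A (inc h x) y = pair A₀ x (push h y)
  push_inc : ∀ {r : ι} {A₀ A : Finset ι} (h : RaiseStep r A₀ A) (x : V A₀), push h (inc h x) = 0
  push_tw : ∀ {r : ι} {A₀ A : Finset ι} (h : RaiseStep r A₀ A) (x : V A₀),
    push h (tw h x) = op r A₀ x
  push_push : ∀ {r s : ι} {A₀₀ A₀ A₁ A : Finset ι} (h : RaiseStep r A₀ A) (h' : RaiseStep s A₁ A)
    (g : RaiseStep s A₀₀ A₀) (g' : RaiseStep r A₀₀ A₁) (z : V A),
    push g (push h z) = push g' (push h' z)
  push_inc_comm : ∀ {r s : ι} {A₀₀ A₀ A₁ A : Finset ι} (h : RaiseStep r A₀ A)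
    (h' : RaiseStep s A₁ A) (g : RaiseStep s A₀₀ A₀) (g' : RaiseStep r A₀₀ A₁) (x : V A₁),
    r ≠ s → push h (inc h' x) = inc g (push g' x)
  push_tw_comm : ∀ {r s : ι} {A₀₀ A₀ A₁ A : Finset ι} (h : RaiseStep r A₀ A)
    (h' : RaiseStep s A₁ A) (g : RaiseStep s A₀₀ A₀) (g' : RaiseStep r A₀₀ A₁) (x : V A₁),
    r ≠ s → push h (tw h' x) = tw g (push g' x)
  inc_inc : ∀ {r s : ι} {A₀₀ A₀ A₁ A : Finset ι} (h : RaiseStep r A₀ A) (h' : RaiseStep s A₁ A)
    (g : RaiseStep s A₀₀ A₀) (g' : RaiseStep r A₀₀ A₁) (x : V A₀₀),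
    inc h (inc g x) = inc h' (inc g' x)
  op_push : ∀ {r : ι} (q : ι) {A₀ A : Finset ι} (h : RaiseStep r A₀ A) (z : V A), q ∉ A →
    push h (op q A z) = op q A₀ (push h z)
  op_inc : ∀ {r : ι} (q : ι) {A₀ A : Finset ι} (h : RaiseStep r A₀ A) (x : V A₀), q ∉ A →
    op q A (inc h x) = inc h (op q A₀ x)
  op_nilpotent : ∀ (q : ι) (A : Finset ι), q ∉ A → IsNilpotent (op q A)

namespace RaiseData

variable {k V} (D : RaiseData k V)

/-- The joint kernel of the pushes at `C`. -/
def pushKer (C A : Finset ι) : Submodule k (V A) :=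
  ⨅ (r : ι) (_ : r ∈ C) (A₀ : Finset ι) (h : RaiseStep r A₀ A), LinearMap.ker (D.push h)

/-- The sum of the images of the first pullbacks at `B`. -/
def incSpan (B A : Finset ι) : Submodule k (V A) :=
  ⨆ (r : ι) (_ : r ∈ B) (A₀ : Finset ι) (h : RaiseStep r A₀ A), LinearMap.range (D.inc h)

/-- Ihara's lemma modulo the images `incSpan B`. -/
def Ihara : Prop :=
  ∀ {q : ι} {A₀ A : Finset ι} (h : RaiseStep q A₀ A) (B : Finset ι) (x y : V A₀), q ∉ B →
    D.inc h x + D.tw h y ∈ D.incSpan B A → x ∈ D.incSpan B A₀ ∧ y ∈ D.incSpan B A₀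

theorem mem_pushKer {C A : Finset ι} {z : V A} :
    z ∈ D.pushKer C A ↔
      ∀ r ∈ C, ∀ (A₀ : Finset ι) (h : RaiseStep r A₀ A), D.push h z = 0 := by
  simp [pushKer, LinearMap.mem_ker]

theorem pushKer_anti {C C' A : Finset ι} (hC : C ⊆ C') : D.pushKer C' A ≤ D.pushKer C A := by
  intro z hz
  rw [mem_pushKer] at hz ⊢
  exact fun r hr => hz r (hC hr)

theorem pushKer_empty (A : Finset ι) : D.pushKer ∅ A = ⊤ := by simp [pushKer]

theorem incSpan_empty (A : Finset ι) : D.incSpan ∅ A = ⊥ := by simp [incSpan]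

theorem incSpan_mono {B B' A : Finset ι} (hB : B ⊆ B') : D.incSpan B A ≤ D.incSpan B' A :=
  iSup₂_le fun r hr => le_iSup₂_of_le (f := fun r (_ : r ∈ B') =>
    ⨆ (A₀ : Finset ι) (h : RaiseStep r A₀ A), LinearMap.range (D.inc h)) r (hB hr) le_rfl

theorem inc_mem_incSpan {r : ι} {B A₀ A : Finset ι} (h : RaiseStep r A₀ A) (hr : r ∈ B)
    (x : V A₀) : D.inc h x ∈ D.incSpan B A :=
  (le_iSup₂_of_le (f := fun r (_ : r ∈ B) =>
    ⨆ (A₀ : Finset ι) (h : RaiseStep r A₀ A), LinearMap.range (D.inc h)) r hr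
      (le_iSup₂_of_le (f := fun A₀ h => LinearMap.range (D.inc (r := r) (A₀ := A₀) (A := A) h))
        A₀ h le_rfl)) ⟨x, rfl⟩

theorem incSpan_le_iff {B A : Finset ι} {W : Submodule k (V A)} :
    D.incSpan B A ≤ W ↔
      ∀ r ∈ B, ∀ (A₀ : Finset ι) (h : RaiseStep r A₀ A) (x : V A₀), D.inc h x ∈ W := by
  simp only [incSpan, iSup_le_iff, LinearMap.range_le_iff_comap, Submodule.eq_top_iff',
    Submodule.mem_comap]

theorem mem_incSpan_insert {b : ι} {B A : Finset ι} {z : V A} (hz : z ∈ D.incSpan (insert b B) A) :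
    z ∈ D.incSpan B A ∨ ∃ (A₀ : Finset ι) (h : RaiseStep b A₀ A) (w : V A) (v : V A₀),
      w ∈ D.incSpan B A ∧ z = w + D.inc h v := by
  by_cases hb : b ∈ A
  · have hle : D.incSpan (insert b B) A ≤
        D.incSpan B A ⊔ LinearMap.range (D.inc (RaiseStep.of_mem hb)) := by
      rw [incSpan_le_iff]
      intro r hr A₀ h x
      rcases Finset.mem_insert.mp hr with rfl | hr
      · obtain rfl := h.eq_erase
        exact Submodule.mem_sup_right ⟨x, rfl⟩
      · exact Submodule.mem_sup_left (D.inc_mem_incSpan h hr x)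
    obtain ⟨w, hw, _, ⟨v, rfl⟩, hsum⟩ := Submodule.mem_sup.mp (hle hz)
    exact Or.inr ⟨_, RaiseStep.of_mem hb, w, v, hw, hsum.symm⟩
  · refine Or.inl ((show D.incSpan (insert b B) A ≤ D.incSpan B A from ?_) hz)
    rw [incSpan_le_iff]
    intro r hr A₀ h x
    rcases Finset.mem_insert.mp hr with rfl | hr
    · exact absurd h.mem hb
    · exact D.inc_mem_incSpan h hr x

theorem push_mem_incSpan {a : ι} {B A₀ A : Finset ι} (h : RaiseStep a A₀ A) {z : V A}
    (hz : z ∈ D.incSpan B A) : D.push h z ∈ D.incSpan (B.erase a) A₀ := by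
  suffices D.incSpan B A ≤ (D.incSpan (B.erase a) A₀).comap (D.push h) from this hz
  rw [incSpan_le_iff]
  intro r hr A₁ h' x
  rw [Submodule.mem_comap]
  rcases eq_or_ne r a with rfl | hne
  · obtain rfl := h'.eq_of h
    rw [D.push_inc]
    exact zero_mem _
  · obtain ⟨g, g'⟩ := h.square h' hne.symm
    rw [D.push_inc_comm h h' g g' x hne.symm]
    exact D.inc_mem_incSpan g (Finset.mem_erase.mpr ⟨hne, hr⟩) _

theorem inc_mem_incSpan_of_mem {b : ι} {B A₀ A : Finset ι} (h : RaiseStep b A₀ A) {z : V A₀}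
    (hz : z ∈ D.incSpan B A₀) : D.inc h z ∈ D.incSpan B A := by
  suffices D.incSpan B A₀ ≤ (D.incSpan B A).comap (D.inc h) from this hz
  rw [incSpan_le_iff]
  intro r hr A₀₀ g x
  have hne : b ≠ r := fun e => h.notMem (e ▸ g.mem)
  have h' : RaiseStep r (A.erase r) A :=
    RaiseStep.of_mem (by rw [h.eq_insert]; exact Finset.mem_insert_of_mem g.mem)
  obtain ⟨g₂, g'⟩ := h.square h' hne
  obtain rfl := g₂.eq_of g
  rw [Submodule.mem_comap, D.inc_inc h h' g g' x]
  exact D.inc_mem_incSpan h' hr _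

theorem push_mem_pushKer {a : ι} {C A₀ A : Finset ι} (h : RaiseStep a A₀ A) {z : V A}
    (hz : z ∈ D.pushKer C A) : D.push h z ∈ D.pushKer C A₀ := by
  rw [mem_pushKer] at hz ⊢
  intro r hr A₀₀ g
  have hne : a ≠ r := fun e => h.notMem (e ▸ g.mem)
  have h' : RaiseStep r (A.erase r) A :=
    RaiseStep.of_mem (by rw [h.eq_insert]; exact Finset.mem_insert_of_mem g.mem)
  obtain ⟨g₂, g'⟩ := h.square h' hne
  obtain rfl := g₂.eq_of g
  rw [D.push_push h h' g g', hz r hr _ h', map_zero]

theorem inc_mem_pushKer {b : ι} {C A₀ A : Finset ι} (h : RaiseStep b A₀ A) {x : V A₀}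
    (hx : x ∈ D.pushKer (C.erase b) A₀) : D.inc h x ∈ D.pushKer C A := by
  rw [mem_pushKer] at hx ⊢
  intro r hr A₁ h'
  rcases eq_or_ne r b with rfl | hne
  · obtain rfl := h'.eq_of h
    exact D.push_inc h' x
  · obtain ⟨g, g'⟩ := h'.square h hne
    rw [D.push_inc_comm h' h g g' x hne, hx r (Finset.mem_erase.mpr ⟨hne, hr⟩) _ g', map_zero]

theorem inc_injective_mod (hI : D.Ihara) {q : ι} {A₀ A : Finset ι} (h : RaiseStep q A₀ A)
    {B : Finset ι} (hq : q ∉ B) {x : V A₀} (hx : D.inc h x ∈ D.incSpan B A) :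
    x ∈ D.incSpan B A₀ :=
  (hI h B x 0 hq (by rwa [map_zero, add_zero])).1

section FiniteDim

variable [∀ A, FiniteDimensional k (V A)]

theorem exists_pair_eq (A : Finset ι) (f : Module.Dual k (V A)) :
    ∃ y, D.pair A y = f :=
  ((LinearMap.injective_iff_surjective_of_finrank_eq_finrank
    (Subspace.dual_finrank_eq (K := k) (V := V A)).symm).mp
      ((injective_iff_map_eq_zero _).mpr fun y hy =>
        D.pair_nondeg A y fun x => by rw [hy, LinearMap.zero_apply])) f

theorem exists_pair_left_eq (A : Finset ι) (f : Module.Dual k (V A)) :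
    ∃ x, ∀ y, D.pair A y x = f y := by
  have hflip : Function.Injective (D.pair A).flip := by
    refine (injective_iff_map_eq_zero _).mpr fun x hx => ?_
    refine (Module.forall_dual_apply_eq_zero_iff k x).mp fun g => ?_
    obtain ⟨y, rfl⟩ := D.exists_pair_eq A g
    simpa using LinearMap.congr_fun hx y
  obtain ⟨x, hx⟩ := (LinearMap.injective_iff_surjective_of_finrank_eq_finrank
    (Subspace.dual_finrank_eq (K := k) (V := V A)).symm).mp hflip f
  exact ⟨x, fun y => LinearMap.congr_fun hx y⟩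

theorem mem_incSpan_of_orth {C A : Finset ι} {y : V A}
    (hy : ∀ x ∈ D.pushKer C A, D.pair A y x = 0) : y ∈ D.incSpan C A := by
  by_contra hmem
  obtain ⟨f, hfy, hf⟩ := Submodule.exists_dual_map_eq_bot_of_notMem hmem inferInstance
  obtain ⟨x, hx⟩ := D.exists_pair_left_eq A f
  refine hfy ((hx y).symm.trans (hy x ?_))
  rw [mem_pushKer]
  intro r hr A₀ h
  refine (Module.forall_dual_apply_eq_zero_iff k _).mp fun g => ?_
  obtain ⟨v, rfl⟩ := D.exists_pair_eq A₀ g
  rw [← D.adjoint h, hx]
  exact LinearMap.mem_ker.mp (LinearMap.le_ker_iff_map.mpr hf (D.inc_mem_incSpan h hr v))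

omit [∀ A, FiniteDimensional k (V A)] in
theorem orth_incSpan {C A : Finset ι} {x y : V A} (hy : y ∈ D.incSpan C A)
    (hx : x ∈ D.pushKer C A) : D.pair A y x = 0 := by
  suffices D.incSpan C A ≤ LinearMap.ker ((D.pair A).flip x) from this hy
  rw [incSpan_le_iff]
  intro r hr A₀ h v
  rw [LinearMap.mem_ker, LinearMap.flip_apply, D.adjoint h, (D.mem_pushKer.mp hx) r hr _ h,
    map_zero]

/-- The pushes are surjective on the joint kernels. -/
theorem exists_push_eq (hI : D.Ihara) {a : ι} {C A₀ A : Finset ι} (h : RaiseStep a A₀ A)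
    (haC : a ∉ C) {v : V A₀} (hv : v ∈ D.pushKer C A₀) :
    ∃ z ∈ D.pushKer C A, D.push h z = v := by
  suffices v ∈ (D.pushKer C A).map (D.push h) by simpa using this
  by_contra hmem
  obtain ⟨f, hfv, hf⟩ := Submodule.exists_dual_map_eq_bot_of_notMem hmem inferInstance
  obtain ⟨y, rfl⟩ := D.exists_pair_eq A₀ f
  have hker := LinearMap.le_ker_iff_map.mpr hf
  refine hfv (D.orth_incSpan (D.inc_injective_mod hI h haC (D.mem_incSpan_of_orth fun x hx => ?_))
    hv)
  rw [D.adjoint h]
  exact LinearMap.mem_ker.mp (hker ⟨x, hx, rfl⟩)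

/-- A class in `V A` modulo `incSpan B` killed by the pushes at `C` comes from `pushKer C A`. -/
theorem exists_pushKer_congr (hI : D.Ihara) (B : Finset ι) :
    ∀ (C : Finset ι) {A : Finset ι} (p : V A),
      (∀ c ∈ C, ∀ (A₀ : Finset ι) (h : RaiseStep c A₀ A),
        D.push h p ∈ D.incSpan (B.erase c) A₀) →
      ∃ p' ∈ D.pushKer C A, p - p' ∈ D.incSpan B A := by
  induction B using Finset.strongInduction with
  | H B ihB =>
    intro C
    induction C using Finset.induction_on with
    | empty => intro A p _; exact ⟨p, by simp [pushKer_empty], by simp⟩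
    | insert a C haC ihC =>
      intro A p hp
      obtain ⟨z, hz, hpz⟩ := ihC p fun c hc => hp c (Finset.mem_insert_of_mem hc)
      have hjoin : ∀ {z' : V A}, z' ∈ D.pushKer C A →
          (∀ (A₀ : Finset ι) (h : RaiseStep a A₀ A), D.push h z' = 0) →
          z' ∈ D.pushKer (insert a C) A := by
        intro z' hz' ha
        rw [mem_pushKer] at hz' ⊢
        intro r hr
        rcases Finset.mem_insert.mp hr with rfl | hr
        · exact ha
        · exact hz' r hr
      by_cases haA : a ∈ A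
      swap
      · exact ⟨z, hjoin hz fun A₀ h => absurd h.mem haA, hpz⟩
      set A₀ := A.erase a
      have h : RaiseStep a A₀ A := RaiseStep.of_mem haA
      -- it is enough to find a correction inside `incSpan B`
      suffices key : ∀ (B' : Finset ι), B' ⊆ B → ∀ z ∈ D.pushKer C A,
          D.push h z ∈ D.incSpan (B'.erase a) A₀ →
            ∃ z' ∈ D.pushKer (insert a C) A, z - z' ∈ D.incSpan B' A by
        have hjz : D.push h z ∈ D.incSpan (B.erase a) A₀ := by
          rw [show z = p - (p - z) by abel, map_sub]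
          exact sub_mem (hp a (Finset.mem_insert_self _ _) _ h) (D.push_mem_incSpan h hpz)
        obtain ⟨z', hz', hzz'⟩ := key B subset_rfl z hz hjz
        exact ⟨z', hz', by simpa using add_mem hpz hzz'⟩
      intro B'
      induction B' using Finset.induction_on with
      | empty =>
        intro _ z hz hjz
        rw [Finset.erase_empty, incSpan_empty, Submodule.mem_bot] at hjz
        exact ⟨z, hjoin hz fun A₁ h₁ => by obtain rfl := h₁.eq_of h; exact hjz, by simp⟩
      | insert b B' hbB' ihB' =>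
        intro hB' z hz hjz
        have hB'B : B' ⊆ B := (Finset.subset_insert b B').trans hB'
        rcases eq_or_ne b a with rfl | hba
        · rw [Finset.erase_insert hbB'] at hjz
          obtain ⟨z', hz', hzz'⟩ := ihB' hB'B z hz (by rwa [Finset.erase_eq_of_notMem hbB'])
          exact ⟨z', hz', D.incSpan_mono (Finset.subset_insert _ _) hzz'⟩
        rw [Finset.erase_insert_of_ne hba] at hjz
        rcases D.mem_incSpan_insert hjz with hjz | ⟨A₀₀, g, w, v, hw, hjzw⟩
        · obtain ⟨z', hz', hzz'⟩ := ihB' hB'B z hz hjz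
          exact ⟨z', hz', D.incSpan_mono (Finset.subset_insert _ _) hzz'⟩
        have hbA : RaiseStep b (A.erase b) A :=
          RaiseStep.of_mem (by rw [h.eq_insert]; exact Finset.mem_insert_of_mem g.mem)
        obtain ⟨g₂, g'⟩ := h.square hbA hba.symm
        obtain rfl := g₂.eq_of g
        -- the coefficient `v` lifts to the joint kernel
        obtain ⟨v', hv', hvv'⟩ : ∃ v' ∈ D.pushKer (C.erase b) (A₀.erase b),
            v - v' ∈ D.incSpan (B'.erase a) (A₀.erase b) := by
          refine ihB (B'.erase a) ?_ (C.erase b) v fun c hc A₂ e => ?_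
          · refine Finset.ssubset_iff.mpr ⟨b, ?_, Finset.insert_subset
              (hB' (Finset.mem_insert_self _ _)) ((Finset.erase_subset _ _).trans hB'B)⟩
            exact fun hb => hbB' (Finset.mem_of_mem_erase hb)
          obtain ⟨hcb, hcC⟩ := Finset.mem_erase.mp hc
          have hc₀ : RaiseStep c (A₀.erase c) A₀ :=
            RaiseStep.of_mem (Finset.mem_of_mem_erase e.mem)
          obtain ⟨e', e''⟩ := hc₀.square g hcb
          obtain rfl := e''.eq_of e
          have h0 : D.push hc₀ (w + D.inc g v) = 0 := by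
            rw [← hjzw]
            exact (D.mem_pushKer.mp (D.push_mem_pushKer h hz)) c hcC _ hc₀
          rw [map_add, D.push_inc_comm hc₀ g e' e'' v hcb] at h0
          refine D.inc_injective_mod hI e'
            (fun hb => hbB' (Finset.mem_of_mem_erase (Finset.mem_of_mem_erase hb))) ?_
          rw [show D.inc e' (D.push e'' v) = -D.push hc₀ w from eq_neg_of_add_eq_zero_right h0]
          exact neg_mem (D.push_mem_incSpan hc₀ hw)
        obtain ⟨v'', hv'', rfl⟩ := D.exists_push_eq hI g'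
          (fun ha => haC (Finset.mem_of_mem_erase ha)) hv'
        have hz₂ : z - D.inc hbA v'' ∈ D.pushKer C A := sub_mem hz (D.inc_mem_pushKer hbA hv'')
        have hjz₂ : D.push h (z - D.inc hbA v'') ∈ D.incSpan (B'.erase a) A₀ := by
          rw [map_sub, hjzw, D.push_inc_comm h hbA g g' v'' hba.symm,
            show w + D.inc g v - D.inc g (D.push g' v'') = w + D.inc g (v - D.push g' v'') by
              rw [map_sub]; abel]
          exact add_mem hw (D.inc_mem_incSpan_of_mem g hvv')
        obtain ⟨z', hz', hzz'⟩ := ihB' hB'B _ hz₂ hjz₂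
        refine ⟨z', hz', ?_⟩
        rw [show z - z' = (z - D.inc hbA v'' - z') + D.inc hbA v'' by abel]
        exact add_mem (D.incSpan_mono (Finset.subset_insert _ _) hzz')
          (D.inc_mem_incSpan hbA (Finset.mem_insert_self _ _) _)

/-- The image of `pushKer C A` modulo `incSpan B A`. -/
def subQuot (C B A : Finset ι) : Submodule k (V A ⧸ D.incSpan B A) :=
  (D.pushKer C A).map (D.incSpan B A).mkQ

/-- The dimension of `subQuot`. -/
def subDim (C B A : Finset ι) : ℤ := Module.finrank k (D.subQuot C B A)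

/-- The alternating sum of dimensions. -/
def altDim (Q A : Finset ι) : ℤ :=
  ∑ S ∈ Q.powerset, (-2 : ℤ) ^ S.card * Module.finrank k (V (A \ S))

theorem subDim_insert_left (hI : D.Ihara) {a : ι} {C B A₀ A : Finset ι} (h : RaiseStep a A₀ A)
    (haC : a ∉ C) :
    D.subDim (insert a C) B A + D.subDim C (B.erase a) A₀ = D.subDim C B A := by
  set f : (V A ⧸ D.incSpan B A) →ₗ[k] (V A₀ ⧸ D.incSpan (B.erase a) A₀) :=
    (D.incSpan B A).mapQ _ (D.push h) (fun z hz => D.push_mem_incSpan h hz)
  set fW : D.subQuot C B A →ₗ[k] (V A₀ ⧸ D.incSpan (B.erase a) A₀) := f.domRestrict _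
  have hrange : LinearMap.range fW = D.subQuot C (B.erase a) A₀ := by
    rw [LinearMap.range_domRestrict]
    refine le_antisymm ?_ ?_
    · rintro _ ⟨_, ⟨z, hz, rfl⟩, rfl⟩
      exact ⟨D.push h z, D.push_mem_pushKer h hz, rfl⟩
    · rintro _ ⟨v, hv, rfl⟩
      obtain ⟨z, hz, rfl⟩ := D.exists_push_eq hI h haC hv
      exact ⟨_, ⟨z, hz, rfl⟩, rfl⟩
  have hsub : D.subQuot (insert a C) B A ≤ D.subQuot C B A :=
    Submodule.map_mono (D.pushKer_anti (Finset.subset_insert _ _))
  have hker : LinearMap.ker fW = (D.subQuot (insert a C) B A).comap (D.subQuot C B A).subtype := by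
    refine le_antisymm ?_ ?_
    · rintro ⟨_, z, hz, rfl⟩ h0
      have h0' : D.push h z ∈ D.incSpan (B.erase a) A₀ := by
        rw [LinearMap.mem_ker] at h0
        exact (Submodule.Quotient.mk_eq_zero _).mp h0
      obtain ⟨z', hz', hzz'⟩ := D.exists_pushKer_congr hI B (insert a C) z fun c hc A₁ h₁ => by
        rcases Finset.mem_insert.mp hc with rfl | hc
        · obtain rfl := h₁.eq_of h; exact h0'
        · rw [(D.mem_pushKer.mp hz) c hc _ h₁]; exact zero_mem _
      exact ⟨z', hz', ((Submodule.Quotient.eq _).mpr hzz').symm⟩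
    · rintro ⟨_, z, hz, rfl⟩ ⟨z', hz', he⟩
      rw [LinearMap.mem_ker]
      show f ((D.incSpan B A).mkQ z) = 0
      rw [show (D.incSpan B A).mkQ z = (D.incSpan B A).mkQ z' from he.symm]
      show Submodule.Quotient.mk (D.push h z') = 0
      rw [(D.mem_pushKer.mp hz') a (Finset.mem_insert_self _ _) _ h, Submodule.Quotient.mk_zero]
  have := LinearMap.finrank_range_add_finrank_ker fW
  rw [hrange, hker, (Submodule.comapSubtypeEquivOfLe hsub).finrank_eq] at this
  simp only [subDim]
  omega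

theorem subDim_insert_right (hI : D.Ihara) {b : ι} {C B A₀ A : Finset ι} (h : RaiseStep b A₀ A)
    (hbB : b ∉ B) :
    D.subDim C (insert b B) A + D.subDim (C.erase b) B A₀ = D.subDim C B A := by
  set f : (V A ⧸ D.incSpan B A) →ₗ[k] (V A ⧸ D.incSpan (insert b B) A) :=
    (D.incSpan B A).mapQ _ LinearMap.id (fun z hz => D.incSpan_mono (Finset.subset_insert _ _) hz)
  set g : (V A₀ ⧸ D.incSpan B A₀) →ₗ[k] (V A ⧸ D.incSpan B A) :=
    (D.incSpan B A₀).mapQ _ (D.inc h) (fun z hz => D.inc_mem_incSpan_of_mem h hz)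
  set fW : D.subQuot C B A →ₗ[k] (V A ⧸ D.incSpan (insert b B) A) := f.domRestrict _
  set gW : D.subQuot (C.erase b) B A₀ →ₗ[k] (V A ⧸ D.incSpan B A) := g.domRestrict _
  have hrange : LinearMap.range fW = D.subQuot C (insert b B) A := by
    rw [LinearMap.range_domRestrict]
    refine le_antisymm ?_ ?_
    · rintro _ ⟨_, ⟨z, hz, rfl⟩, rfl⟩; exact ⟨z, hz, rfl⟩
    · rintro _ ⟨z, hz, rfl⟩; exact ⟨_, ⟨z, hz, rfl⟩, rfl⟩
  have hg : Function.Injective gW := by
    refine (injective_iff_map_eq_zero _).mpr ?_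
    rintro ⟨_, z, hz, rfl⟩ h0
    exact Subtype.ext ((Submodule.Quotient.mk_eq_zero _).mpr
      (D.inc_injective_mod hI h hbB ((Submodule.Quotient.mk_eq_zero _).mp h0)))
  have hsub : LinearMap.range gW ≤ D.subQuot C B A := by
    rintro _ ⟨⟨_, z, hz, rfl⟩, rfl⟩
    exact ⟨D.inc h z, D.inc_mem_pushKer h hz, rfl⟩
  have hker : LinearMap.ker fW = (LinearMap.range gW).comap (D.subQuot C B A).subtype := by
    refine le_antisymm ?_ ?_
    · rintro ⟨_, z, hz, rfl⟩ h0
      rw [LinearMap.mem_ker] at h0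
      rcases D.mem_incSpan_insert ((Submodule.Quotient.mk_eq_zero _).mp h0) with hzB |
        ⟨A₁, h₁, w, v, hw, rfl⟩
      · exact ⟨0, by rw [map_zero]; exact ((Submodule.Quotient.mk_eq_zero _).mpr hzB).symm⟩
      obtain rfl := h₁.eq_of h
      obtain ⟨v', hv', hvv'⟩ := D.exists_pushKer_congr hI B (C.erase b) v fun c hc A₂ e => by
        obtain ⟨hcb, hcC⟩ := Finset.mem_erase.mp hc
        have hc₀ : RaiseStep c (A.erase c) A :=
          RaiseStep.of_mem (by rw [h.eq_insert]; exact Finset.mem_insert_of_mem e.mem)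
        obtain ⟨e', e''⟩ := hc₀.square h₁ hcb
        obtain rfl := e''.eq_of e
        have h0 := (D.mem_pushKer.mp hz) c hcC _ hc₀
        rw [map_add, D.push_inc_comm hc₀ h₁ e' e'' v hcb] at h0
        refine D.inc_injective_mod hI e' (fun hb => hbB (Finset.mem_of_mem_erase hb)) ?_
        rw [show D.inc e' (D.push e'' v) = -D.push hc₀ w from eq_neg_of_add_eq_zero_right h0]
        exact neg_mem (D.push_mem_incSpan hc₀ hw)
      refine ⟨⟨_, v', hv', rfl⟩, (Submodule.Quotient.eq _).mpr ?_⟩
      rw [show D.inc h₁ v' - (w + D.inc h₁ v) = -(w + D.inc h₁ (v - v')) by rw [map_sub]; abel]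
      exact neg_mem (add_mem hw (D.inc_mem_incSpan_of_mem h₁ hvv'))
    · rintro ⟨x, hx⟩ ⟨⟨_, z, hz, rfl⟩, rfl⟩
      exact (Submodule.Quotient.mk_eq_zero _).mpr
        (D.inc_mem_incSpan h (Finset.mem_insert_self _ _) z)
  have := LinearMap.finrank_range_add_finrank_ker fW
  rw [hrange, hker, (Submodule.comapSubtypeEquivOfLe hsub).finrank_eq,
    LinearMap.finrank_range_of_inj hg] at this
  simp only [subDim]
  omega

omit [∀ A, FiniteDimensional k (V A)] in
theorem altDim_insert {r : ι} {Q : Finset ι} (hr : r ∉ Q) (A : Finset ι) :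
    altDim (k := k) (V := V) (insert r Q) A =
      altDim (k := k) (V := V) Q A - 2 * altDim (k := k) (V := V) Q (A.erase r) := by
  have hdisj : Disjoint Q.powerset (Q.powerset.image (insert r)) := by
    rw [Finset.disjoint_left]
    intro S hS hS'
    obtain ⟨T, -, rfl⟩ := Finset.mem_image.mp hS'
    exact hr (Finset.mem_powerset.mp hS (Finset.mem_insert_self _ _))
  have hinj : Set.InjOn (insert r) (Q.powerset : Set (Finset ι)) := fun S hS T hT e => by
    rw [← Finset.erase_insert (fun h => hr (Finset.mem_powerset.mp hS h)),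
      ← Finset.erase_insert (fun h => hr (Finset.mem_powerset.mp hT h))]
    exact congrArg (fun U : Finset ι => U.erase r) e
  simp only [altDim, Finset.powerset_insert, Finset.sum_union hdisj, Finset.sum_image hinj,
    Finset.mul_sum, sub_eq_add_neg, ← Finset.sum_neg_distrib]
  congr 1
  refine Finset.sum_congr rfl fun S hS => ?_
  rw [Finset.card_insert_of_notMem fun h => hr (Finset.mem_powerset.mp hS h), pow_succ,
    show A \ insert r S = A.erase r \ S by ext x; simp; tauto]
  ring

/-- The dimension of `subQuot Q Q A`. -/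
theorem subDim_eq_altDim (hI : D.Ihara) (Q : Finset ι) :
    ∀ A : Finset ι, Q ⊆ A → D.subDim Q Q A = altDim (k := k) (V := V) Q A := by
  induction Q using Finset.induction_on with
  | empty =>
    intro A _
    have h1 : D.subQuot ∅ ∅ A = ⊤ := by
      rw [subQuot, pushKer_empty, Submodule.map_top, Submodule.range_mkQ]
    rw [subDim, h1, finrank_top, (Submodule.quotEquivOfEqBot _ (D.incSpan_empty A)).finrank_eq]
    simp only [altDim, Finset.powerset_empty, Finset.sum_singleton, Finset.card_empty, pow_zero,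
      one_mul]
    rw [Finset.sdiff_empty]
  | insert r Q hr ih =>
    intro A hA
    have hrA : r ∈ A := hA (Finset.mem_insert_self _ _)
    have hQA : Q ⊆ A := (Finset.subset_insert _ _).trans hA
    have h := RaiseStep.of_mem hrA
    have h1 := D.subDim_insert_left hI (C := Q) (B := insert r Q) h hr
    have h2 := D.subDim_insert_right hI (C := Q) (B := Q) h hr
    rw [Finset.erase_insert hr] at h1
    rw [Finset.erase_eq_of_notMem hr] at h2
    rw [altDim_insert hr, ← ih A hQA,
      ← ih (A.erase r) fun x hx => Finset.mem_erase.mpr ⟨fun e => hr (e ▸ hx), hQA hx⟩]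
    omega

/-- A space at level `∅` which is not zero gives a non-zero subquotient at every level. -/
theorem exists_mem_pushKer_notMem (hI : D.Ihara) (hne : ∃ x : V ∅, x ≠ 0) (Q : Finset ι) :
    ∃ z ∈ D.pushKer Q Q, z ∉ D.incSpan Q Q := by
  induction Q using Finset.induction_on with
  | empty =>
    obtain ⟨x, hx⟩ := hne
    exact ⟨x, by simp [pushKer_empty], by rwa [incSpan_empty, Submodule.mem_bot]⟩
  | insert q Q hq ih =>
    obtain ⟨y₀, hy₀, hy₀'⟩ := ih
    -- make `y` killed by `op q` modulo `incSpan Q Q`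
    have hstab : ∀ y ∈ D.pushKer Q Q, D.op q Q y ∈ D.pushKer Q Q := fun y hy => by
      rw [mem_pushKer] at hy ⊢
      intro r hr A₀ h
      rw [D.op_push q h y hq, hy r hr _ h, map_zero]
    have hiter : ∀ n, ((D.op q Q) ^ n) y₀ ∈ D.pushKer Q Q := fun n => by
      induction n with
      | zero => simpa using hy₀
      | succ n ihn => rw [pow_succ']; exact hstab _ ihn
    obtain ⟨m, hm⟩ := D.op_nilpotent q Q hq
    have hex : ∃ n, ((D.op q Q) ^ n) y₀ ∈ D.incSpan Q Q :=
      ⟨m, by rw [hm, LinearMap.zero_apply]; exact zero_mem _⟩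
    classical
    obtain ⟨n, hn⟩ : ∃ n, Nat.find hex = n + 1 :=
      ⟨Nat.find hex - 1, (Nat.succ_pred_eq_of_ne_zero fun h0 => hy₀' (by
        simpa [h0] using Nat.find_spec hex)).symm⟩
    have hy : ((D.op q Q) ^ n) y₀ ∉ D.incSpan Q Q := Nat.find_min hex (by omega)
    have hTy : D.op q Q (((D.op q Q) ^ n) y₀) ∈ D.incSpan Q Q := by
      have := Nat.find_spec hex
      rw [hn, pow_succ'] at this
      exact this
    set y := ((D.op q Q) ^ n) y₀
    have h : RaiseStep q Q (insert q Q) := ⟨hq, rfl⟩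
    obtain ⟨z, hz, hzz⟩ := D.exists_pushKer_congr hI Q (insert q Q) (D.tw h y) fun c hc A₀ hc' => by
      rcases Finset.mem_insert.mp hc with rfl | hc
      · obtain rfl := hc'.eq_of h
        rw [D.push_tw, Finset.erase_eq_of_notMem hq]
        exact hTy
      · have hne' : c ≠ q := fun e => hq (e ▸ hc)
        obtain ⟨g, g'⟩ := hc'.square h hne'
        rw [D.push_tw_comm hc' h g g' y hne', (D.mem_pushKer.mp (hiter n)) c hc _ g', map_zero]
        exact zero_mem _
    refine ⟨z, hz, fun hzI => hy ?_⟩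
    have htw : D.tw h y ∈ D.incSpan (insert q Q) (insert q Q) := by
      rw [show D.tw h y = (D.tw h y - z) + z by abel]
      exact add_mem (D.incSpan_mono (Finset.subset_insert _ _) hzz) hzI
    rcases D.mem_incSpan_insert htw with hQ | ⟨A₀, h', w, x, hw, he⟩
    · exact (hI h Q 0 y hq (by rwa [map_zero, zero_add])).2
    · obtain rfl : Q = A₀ := (h'.eq_of h).symm
      refine (hI h' Q (-x) y hq ?_).2
      rw [map_neg, he, show -D.inc h' x + (w + D.inc h' x) = w by abel]
      exact hw

theorem altDim_pos (hI : D.Ihara) (hne : ∃ x : V ∅, x ≠ 0) (Q : Finset ι) :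
    0 < altDim (k := k) (V := V) Q Q := by
  rw [← D.subDim_eq_altDim hI Q Q subset_rfl, subDim]
  obtain ⟨z, hz, hz'⟩ := D.exists_mem_pushKer_notMem hI hne Q
  have : 0 < Module.finrank k (D.subQuot Q Q Q) := by
    refine Module.finrank_pos_iff_exists_ne_zero.mpr ⟨⟨_, z, hz, rfl⟩, fun h0 => hz' ?_⟩
    exact (Submodule.Quotient.mk_eq_zero _).mp (congrArg Subtype.val h0)
  exact_mod_cast this

end FiniteDim

end RaiseData

end FLTA.LT2

end
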