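import Fermat.Agent.BadRed.Ordinary.GoodLevel
import Fermat.Agent.BadRed.Ordinary.Wild

/-!
# Two components at `q`: the relation between pullbacks

If the product of a pullback along `a` and a pullback along `w a` is an `n`-th power, then the
reductions satisfy the two relations `frobq p * r ^ q = frobq r * p ^ q = 1` modulo `n`-th
powers.
-/

set_option autoImplicit false

noncomputable section

open AlgebraicCurve

namespace FLTA.BadRed.BadFibre

variable {K : Type*} [Field K] [IsAlgClosed K] [CharZero K] {A : ValuationSubring K}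
  {k : Type*} [Field k] [IsAlgClosed k] {π : A →+* k}
  {q : ℕ} [NeZero q] [Fact q.Prime] [CharP k q]
  {F : Type*} [Field F] [Algebra K F] {F' : Type*} [Field F'] [Algebra K F']
  {Fk : Type*} [Field Fk] [Algebra k Fk] {g gF : ℕ} (B : BadFibre A π q F F' Fk g gF)

/-- The relation on each component. -/
theorem pullback_relation {n : ℕ} (f h : B.R.O) (hf : B.R.red f ≠ 0) (hh : B.R.red h ≠ 0)
    {c : K} {G : F} (hG : B.a (f : F') * B.w (B.a (h : F')) = c • G ^ n) :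
    (∃ (μ : k) (η : Fk), μ ≠ 0 ∧ η ≠ 0 ∧
      (B.frobq • B.R.red f) * B.R.red h ^ q = algebraMap k Fk μ * η ^ n) ∧
    ∃ (μ : k) (η : Fk), μ ≠ 0 ∧ η ≠ 0 ∧
      (B.frobq • B.R.red h) * B.R.red f ^ q = algebraMap k Fk μ * η ^ n := by
  have hι : ∀ x : Fk, B.frobq • B.iota x = x ^ q := fun x => (B.exk_frobq_iota x).1
  have hιne : ∀ {x : Fk}, x ≠ 0 → B.iota x ≠ 0 := fun hx => (map_ne_zero B.iota).mpr hx
  obtain ⟨hf0, hf1⟩ := B.hasRed_a f
  obtain ⟨hh0, hh1⟩ := B.hasRed_a h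
  have hG0 : c • G ^ n ≠ 0 := by
    rw [← hG]
    have hne : ∀ x : B.R.O, B.R.red x ≠ 0 → (x : F') ≠ 0 := fun x hx h0 => hx (by
      rw [show x = 0 from Subtype.ext h0, map_zero])
    exact mul_ne_zero ((map_ne_zero B.a).mpr (hne f hf))
      ((map_ne_zero B.w).mpr ((map_ne_zero B.a).mpr (hne h hh)))
  have key : ∀ (i : Fin 2) (P : Fk), P ≠ 0 → B.HasRed i (c • G ^ n) P →
      ∃ (μ : k) (η : Fk), μ ≠ 0 ∧ η ≠ 0 ∧ B.frobq • P = algebraMap k Fk μ * η ^ n := by
    intro i P hP hred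
    have hc : c ≠ 0 := fun h0 => hG0 (by rw [h0, zero_smul])
    rcases Nat.eq_zero_or_pos n with hn | hn
    · subst hn
      rw [pow_zero] at hred
      obtain ⟨u, hu, hu'⟩ := Ordinary.hasRed_unique (Ordinary.hasRed_one (B := B) (i := i)) hred
        one_ne_zero hP
      refine ⟨u ^ q, 1, pow_ne_zero _ hu, one_ne_zero, ?_⟩
      rw [hu', mul_one, pow_zero, mul_one, SemilinearAut.smul_algebraMap, B.baseAut_frobq]
    have hGn : G ≠ 0 := fun h0 => hG0 (by rw [h0, zero_pow hn.ne', smul_zero])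
    obtain ⟨d, η, hd, hη, hdG⟩ := B.exists_hasRed_smul i hGn
    have hpow := Ordinary.hasRed_pow hdG n
    obtain ⟨u, hu, hu'⟩ := Ordinary.hasRed_unique (l := c * (d ^ n)⁻¹) hpow
      (by rwa [smul_pow, smul_smul, mul_assoc, inv_mul_cancel₀ (pow_ne_zero _ hd), mul_one])
      (pow_ne_zero _ hη) hP
    refine ⟨u ^ q, B.frobq • η, pow_ne_zero _ hu, (smul_ne_zero_iff_ne _).mpr hη, ?_⟩
    rw [hu', smul_mul', smul_pow', SemilinearAut.smul_algebraMap, B.baseAut_frobq]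
  constructor
  · obtain ⟨μ, η, hμ, hη, e⟩ := key 0 (B.R.red f * B.iota (B.R.red h)) (mul_ne_zero hf (hιne hh))
      (hG ▸ hf0.mul (B.hasRed_w_iff (by decide) hh1))
    exact ⟨μ, η, hμ, hη, by rw [← e, smul_mul', hι]⟩
  · obtain ⟨μ, η, hμ, hη, e⟩ := key 1 (B.iota (B.R.red f) * B.R.red h) (mul_ne_zero (hιne hf) hh)
      (hG ▸ hf1.mul (B.hasRed_w_iff (by decide) hh0))
    exact ⟨μ, η, hμ, hη, by rw [← e, smul_mul', hι, mul_comm]⟩

end FLTA.BadRed.BadFibre

end
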