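import Fermat.Agent.LT2.RaiseFibre
import Fermat.Agent.BadRed.Galois
import Fermat.Agent.PlaceRed.GaloisEquiv
import Fermat.Agent.Congruence.Torsion

/-!
# Pullbacks to level `M q` specialised at `q`

If `a^* x + (w a)^* y = 0` on prime-to-`q` torsion then `σ x + q y = 0 = σ y + q x` for every
Frobenius element `σ` at `q`.
-/

set_option autoImplicit false
set_option synthInstance.maxHeartbeats 400000

noncomputable section

open AlgebraicCurve ModularCurve IsLocalRing

namespace FLTA.LT2

local notation "Qb" => AlgebraicClosure ℚ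
local notation "Γℚ" => AlgebraicClosure ℚ ≃ₐ[ℚ] AlgebraicClosure ℚ

variable (M q : ℕ) [NeZero M] [NeZero q]

/-- The pullback of classes along `τ ↦ τ`. -/
def pullAlpha : JZero M →+ JZero (M * q) :=
  BadRed.BadFibre.pullPic (heckeAlphaBar Qb M q) (Curves.isIntegral_of_algHom _)
    (Curves.fundamentalIdentityAlong _ _ (Curves.finiteAlong _)
      (Curves.separableAlong_of_charZero _))

/-- The pullback of classes along `τ ↦ q τ`. -/
def pullBeta : JZero M →+ JZero (M * q) :=
  BadRed.BadFibre.pullPic (heckeBetaBar Qb M q) (Curves.isIntegral_of_algHom _)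
    (Curves.fundamentalIdentityAlong _ _ (Curves.finiteAlong _)
      (Curves.separableAlong_of_charZero _))

theorem pullAlpha_mk (D : Divisor.degZero (K := Qb) (F := modularFunctionFieldBar M)) :
    ∃ D' : Divisor.degZero (K := Qb) (F := modularFunctionFieldBar (M * q)),
      (D' : Divisor Qb (modularFunctionFieldBar (M * q))) =
        Divisor.pullbackAlong (heckeAlphaBar Qb M q) (Curves.isIntegral_of_algHom _)
          (D : Divisor Qb (modularFunctionFieldBar M)) ∧
      pullAlpha M q (Pic0.mk D) = Pic0.mk D' :=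
  ⟨_, rfl, rfl⟩

theorem pullBeta_mk (D : Divisor.degZero (K := Qb) (F := modularFunctionFieldBar M)) :
    ∃ D' : Divisor.degZero (K := Qb) (F := modularFunctionFieldBar (M * q)),
      (D' : Divisor Qb (modularFunctionFieldBar (M * q))) =
        Divisor.pullbackAlong (heckeBetaBar Qb M q) (Curves.isIntegral_of_algHom _)
          (D : Divisor Qb (modularFunctionFieldBar M)) ∧
      pullBeta M q (Pic0.mk D) = Pic0.mk D' :=
  ⟨_, rfl, rfl⟩

variable {M q} [hq : Fact q.Prime] (hqM : ¬ q ∣ M) {A : ValuationSubring (AlgebraicClosure ℚ)}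
  (hA : A.LiesOverPrime q) {n : ℕ} (hn : ¬ q ∣ n)

omit [NeZero q] in
/-- A torsion class whose Kummer function reduces to an `n`-th power vanishes. -/
theorem mk_eq_zero_of_red (D : Divisor.degZero (K := Qb) (F := modularFunctionFieldBar M))
    (u : (PlaceRed.gaussRedModL M hqM A hA).O)
    (hu : ∀ P : Place Qb (modularFunctionFieldBar M),
      (n : ℤ) * (D : Divisor Qb (modularFunctionFieldBar M)) P =
        P.ord (u : modularFunctionFieldBar M))
    {μ : ResidueField A} {η : modularFunctionFieldFullC (ResidueField A) M}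
    (hμ : μ ≠ 0) (hη : η ≠ 0)
    (hred : (PlaceRed.gaussRedModL M hqM A hA).red u = algebraMap _ _ μ * η ^ n)
    (hn : ¬ q ∣ n) : Pic0.mk D = 0 := by
  classical
  have hn0 : n ≠ 0 := fun h => hn (h ▸ dvd_zero q)
  have hne : (PlaceRed.gaussRedModL M hqM A hA).red u ≠ 0 := by
    rw [hred]
    exact mul_ne_zero ((map_ne_zero _).mpr hμ) (pow_ne_zero _ hη)
  have hu0 : (u : modularFunctionFieldBar M) ≠ 0 := fun h => hne (by
    rw [show u = 0 from Subtype.ext h, map_zero])
  refine FLTA.Congruence.eq_zero_of_reductionModL_eq_zero M hq.out hqM A hA n hn _ ?_ ?_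
  · show ((n • D : Divisor.degZero (K := Qb) (F := modularFunctionFieldBar M)) :
      Pic0 Qb (modularFunctionFieldBar M)) = 0
    refine (QuotientAddGroup.eq_zero_iff _).mpr ⟨(u : modularFunctionFieldBar M), hu0, fun P => ?_⟩
    rw [AddSubgroup.coe_subtype, AddSubgroupClass.coe_nsmul, Finsupp.smul_apply, nsmul_eq_mul]
    exact hu P
  · rw [PlaceRed.reductionModL_mk_eq_zero_iff hqM hA]
    refine ⟨η, hη, fun Q => ?_⟩
    have hr := PlaceRed.isPlaceMap_placeRed M hqM A hA u hne
      (n • (D : Divisor Qb (modularFunctionFieldBar M)))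
      (fun P => by rw [Finsupp.smul_apply, nsmul_eq_mul]; exact hu P) Q
    rw [Finsupp.mapDomain_smul, Finsupp.smul_apply, nsmul_eq_mul, hred,
      Q.ord_mul ((map_ne_zero _).mpr hμ) (pow_ne_zero _ hη), Curves.ord_algebraMap, zero_add,
      Curves.ord_pow] at hr
    exact mul_left_cancel₀ (Nat.cast_ne_zero.mpr hn0) hr

include hqM hA hn in
/-- The two relations at a Frobenius element. -/
theorem frob_relation {σ : Γℚ} (hσ : A.IsFrobeniusAt σ q) {x y : JZero M} (hx : n • x = 0)
    (hy : n • y = 0) (h : pullAlpha M q x + pullBeta M q y = 0) :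
    σ • x + q • y = 0 ∧ σ • y + q • x = 0 := by
  classical
  haveI := FLTA.Galois.charP_residueField hq.out hA
  haveI := FLTA.Galois.isAlgClosed_residueField A
  haveI : ExpChar (ResidueField A) q := ExpChar.prime hq.out
  haveI : PerfectRing (ResidueField A) q := PerfectField.toPerfectRing q
  set B := BadRed.badFibre M q A hA hqM with hBdef
  obtain ⟨D, rfl⟩ := Pic0.mk_surjective x
  obtain ⟨E, rfl⟩ := Pic0.mk_surjective y
  -- scaled Kummer functions
  have kum : ∀ D : Divisor.degZero (K := Qb) (F := modularFunctionFieldBar M),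
      n • Pic0.mk D = 0 → ∃ u : B.R.O, B.R.red u ≠ 0 ∧
        ∀ P : Place Qb (modularFunctionFieldBar M),
          (n : ℤ) * (D : Divisor Qb (modularFunctionFieldBar M)) P =
            P.ord (u : modularFunctionFieldBar M) := by
    intro D hD
    obtain ⟨f, hf, hfD⟩ := (QuotientAddGroup.eq_zero_iff (n • D)).mp hD
    obtain ⟨d, u, hd, hu, hur⟩ := B.exists_smul_red_ne_zero hf
    refine ⟨u, hur, fun P => ?_⟩
    have e := hfD P
    rw [AddSubgroup.coe_subtype, AddSubgroupClass.coe_nsmul, Finsupp.smul_apply,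
      nsmul_eq_mul] at e
    rw [hu, Algebra.smul_def, P.ord_mul ((map_ne_zero _).mpr hd) hf, Curves.ord_algebraMap,
      zero_add, ← e]
  obtain ⟨f, hfr, hf⟩ := kum D hx
  obtain ⟨g, hgr, hg⟩ := kum E hy
  have hne : ∀ u : B.R.O, B.R.red u ≠ 0 → (u : modularFunctionFieldBar M) ≠ 0 :=
    fun u hu h0 => hu (by rw [show u = 0 from Subtype.ext h0, map_zero])
  -- the product is an `n`-th power
  obtain ⟨D', hD', e₁⟩ := pullAlpha_mk M q D
  obtain ⟨E', hE', e₂⟩ := pullBeta_mk M q E
  rw [e₁, e₂] at h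
  obtain ⟨G, hG, hGD⟩ := (QuotientAddGroup.eq_zero_iff (D' + E')).mp h
  rw [AddSubgroup.coe_subtype, AddSubgroup.coe_add, hD', hE'] at hGD
  have hk := (BadRed.BadFibre.kummerFn_pullback (heckeAlphaBar Qb M q)
    (Curves.isIntegral_of_algHom _) (hne f hfr) hf).mul
    (BadRed.BadFibre.kummerFn_pullback (heckeBetaBar Qb M q)
      (Curves.isIntegral_of_algHom _) (hne g hgr) hg)
  obtain ⟨c, hc⟩ := B.exists_eq_algebraMap_of_ord_eq_zero
    (u := heckeAlphaBar Qb M q f * heckeBetaBar Qb M q g * (G ^ n)⁻¹)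
    (mul_ne_zero hk.ne_zero (inv_ne_zero (pow_ne_zero _ hG))) fun P => by
    rw [P.ord_mul hk.ne_zero (inv_ne_zero (pow_ne_zero _ hG)), P.ord_inv, Curves.ord_pow,
      ← hk.ord_eq P, ← hGD P]
    exact add_neg_cancel _
  have hGn : B.a (f : modularFunctionFieldBar M) * B.w (B.a (g : modularFunctionFieldBar M)) =
      c • G ^ n := by
    rw [Algebra.smul_def, ← hc, inv_mul_cancel_right₀ (pow_ne_zero _ hG)]
    congr 1
    exact DFunLike.congr_fun (BadRed.swapBar_alpha M q hqM) _
  obtain ⟨⟨μ, η, hμ, hη, e0⟩, ⟨ν, θ, hν, hθ, e1⟩⟩ := B.pullback_relation f g hfr hgr hGn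
  -- Galois on the Kummer functions
  have hσd := (FLTA.Galois.isFrobeniusAt_iff.mp hσ).1
  have key : ∀ (D E : Divisor.degZero (K := Qb) (F := modularFunctionFieldBar M)) (f g : B.R.O),
      B.R.red f ≠ 0 → B.R.red g ≠ 0 →
      (∀ P : Place Qb (modularFunctionFieldBar M),
        (n : ℤ) * (D : Divisor Qb (modularFunctionFieldBar M)) P =
          P.ord (f : modularFunctionFieldBar M)) →
      (∀ P : Place Qb (modularFunctionFieldBar M),
        (n : ℤ) * (E : Divisor Qb (modularFunctionFieldBar M)) P =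
          P.ord (g : modularFunctionFieldBar M)) →
      ∀ {μ : ResidueField A} {η : modularFunctionFieldFullC (ResidueField A) M}, μ ≠ 0 → η ≠ 0 →
      (B.frobq • B.R.red f) * B.R.red g ^ q = algebraMap _ _ μ * η ^ n →
      σ • Pic0.mk D + q • Pic0.mk E = 0 := by
    intro D E f g hfr hgr hf hg μ η hμ hη e
    have hmem := PlaceRed.smul_mem_gaussRedModL hqM hA
      (fun a => FLTA.Galois.apply_mem_of_mem_decompositionSubgroup hσd a.2)
      (BadRed.residualAut hσd) (fun a => (BadRed.residualAut_residue hσd a)) f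
    have hred := PlaceRed.red_smul_gaussRedModL hqM hA
      (fun a => FLTA.Galois.apply_mem_of_mem_decompositionSubgroup hσd a.2)
      (BadRed.residualAut hσd) (fun a => (BadRed.residualAut_residue hσd a)) f
    obtain ⟨s, hs⟩ : ∃ s : B.R.O, (s : modularFunctionFieldBar M) =
        arithmeticGalois (modularFunctionFieldFull M) σ • (f : modularFunctionFieldBar M) ∧
        B.R.red s = B.frobq • B.R.red f := by
      refine ⟨⟨_, hmem⟩, rfl, hred.trans ?_⟩
      exact B.frob_smul_fk (BadRed.symOfData B (fun _ => rfl) (fun _ => rfl)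
        (BadRed.swapBar_alpha M q hqM) (BadRed.swapBar_beta M q hqM) hσd)
        (fun c => BadRed.residualAut_of_frobenius hσ c) _
    rw [galois_smul_pic0_def, SemilinearAut.pic0_smul_mk]
    show Pic0.mk (_ + q • E) = 0
    refine mk_eq_zero_of_red hqM hA _ (s * g ^ q) (fun P => ?_) hμ hη
      (((map_mul B.R.red s (g ^ q)).trans (congrArg₂ (· * ·) hs.2 (map_pow B.R.red g q))).trans e) hn
    have hs0 : (s : modularFunctionFieldBar M) ≠ 0 := by
      rw [hs.1]; exact (smul_ne_zero_iff_ne _).mpr (hne f hfr)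
    have hkf : BadRed.BadFibre.KummerFn n (D : Divisor Qb (modularFunctionFieldBar M))
      (f : modularFunctionFieldBar M) := ⟨hne f hfr, hf⟩
    rw [MulMemClass.coe_mul, SubmonoidClass.coe_pow, P.ord_mul hs0 (pow_ne_zero _ (hne g hgr)),
      Curves.ord_pow, hs.1, ← (hkf.conj (arithmeticGalois (modularFunctionFieldFull M) σ)).ord_eq P,
      ← hg P, AddSubgroup.coe_add, Finsupp.add_apply, AddSubgroupClass.coe_nsmul,
      Finsupp.smul_apply, nsmul_eq_mul, mul_add]
    congr 1
    ring
  exact ⟨key D E f g hfr hgr hf hg hμ hη e0, key E D g f hgr hfr hg hf hν hθ e1⟩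

end FLTA.LT2

end
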