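import Fermat.Agent.LT2.ReciprocityHilbertLocal

/-!
# Isotropy of ternary forms over `ℚ_p`, `p` odd
-/

set_option autoImplicit false

namespace FLTA.LT2

variable {p : ℕ} [Fact p.Prime]

/-- An element of `ℚ_p`, `p` odd, of even valuation is a square iff its unit residue is one. -/
lemma isSquare_iff_legBit (hp : p ≠ 2) (b : ℚ_[p]ˣ) (hb : parityVal b = 0) :
    IsSquare (b : ℚ_[p]) ↔ legBit (unitResidue b) = 0 := by
  constructor
  · rintro ⟨c, hc⟩
    have hc0 : c ≠ 0 := fun h => b.ne_zero (by rw [hc, h, mul_zero])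
    have : b = Units.mk0 c hc0 * Units.mk0 c hc0 := Units.ext hc
    rw [this, unitResidue_mul, legBit_mul (unitResidue_ne_zero _) (unitResidue_ne_zero _)]
    exact CharTwo.add_self_eq_zero _
  · intro h
    obtain ⟨m, hm⟩ := (ZMod.intCast_zmod_eq_zero_iff_dvd _ 2).mp hb
    obtain ⟨w, hw⟩ := exists_sq_eq_of_odd hp (padicUnit b)
      ((legBit_eq_zero_iff (unitResidue_ne_zero b)).mp h)
    refine ⟨(p : ℚ_[p]) ^ m * (w : ℚ_[p]), ?_⟩
    conv_lhs => rw [eq_zpow_mul_padicUnit b, hm, ← hw]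
    rw [PadicInt.coe_pow]
    simp only [zpow_natCast, Nat.cast_ofNat, zpow_mul']
    rw [zpow_ofNat]
    ring

/-- Ternary forms with coefficients of even valuation are isotropic. -/
theorem exists_zero_of_even_valuation (hp : p ≠ 2) (e : Fin 3 → ℚ_[p]) (he : ∀ i, e i ≠ 0)
    (hv : ∀ i, Even (e i).valuation) :
    ∃ X : Fin 3 → ℚ_[p], X ≠ 0 ∧ ∑ i, e i * X i ^ 2 = 0 := by
  have hpar : ∀ i, parityVal (Units.mk0 (e i) (he i)) = 0 := fun i => by
    obtain ⟨n, hn⟩ := hv i
    rw [parityVal, Units.val_mk0, hn, Int.cast_add]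
    exact CharTwo.add_self_eq_zero _
  let a : ℚ_[p]ˣ := -1 * Units.mk0 (e 0) (he 0) * Units.mk0 (e 2) (he 2)
  let b : ℚ_[p]ˣ := -1 * Units.mk0 (e 1) (he 1) * Units.mk0 (e 2) (he 2)
  have h0 : hilbertSign (a : ℚ_[p]) (b : ℚ_[p]) = 0 := by
    rw [hilbertSign_eq_hilbert, hilbert_odd hp]
    simp only [a, b, parityVal_mul, hpar, parityVal_neg_one]
    ring
  obtain ⟨x, y, z, hne, hz⟩ := (hilbertSign_eq_zero_iff _ _).mp h0
  simp only [a, b, Units.val_mul, Units.val_neg, Units.val_one, Units.val_mk0] at hz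
  have h2 := he 2
  refine ⟨![x, y, z / e 2], fun h => ?_, ?_⟩
  · have hx : x = 0 := congrFun h 0
    have hy : y = 0 := congrFun h 1
    have hz' : z / e 2 = 0 := congrFun h 2
    rw [div_eq_zero_iff, or_iff_left h2] at hz'
    rcases hne with h | h | h
    · exact h hx
    · exact h hy
    · exact h hz'
  · simp only [Fin.sum_univ_three, Matrix.cons_val_zero, Matrix.cons_val_one, Matrix.cons_val]
    field_simp
    linear_combination hz

/-- A binary anisotropic norm form has even valuation, twice the smaller valuation. -/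
theorem even_valuation_norm {ν : ℤ} (hν : ¬ IsSquare (ν : ZMod p)) {A B : ℚ_[p]}
    (h : A ≠ 0 ∨ B ≠ 0) :
    A ^ 2 - ν * B ^ 2 ≠ 0 ∧ ∃ m : ℤ, (A ^ 2 - ν * B ^ 2).valuation = 2 * m ∧
      ‖A‖ ≤ (p : ℝ) ^ (-m) ∧ ‖B‖ ≤ (p : ℝ) ^ (-m) := by
  have hp1 : (1 : ℝ) < p := by exact_mod_cast (Fact.out : p.Prime).one_lt
  have hbig : ∀ z : ℤ_[p], PadicInt.toZMod z ≠ 0 → ‖z‖ = 1 := fun z hz => by
    rw [← PadicInt.isUnit_iff]
    by_contra hnu
    exact hz (RingHom.mem_ker.mp (PadicInt.ker_toZMod (p := p) ▸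
      (IsLocalRing.mem_maximalIdeal z).mpr hnu))
  have key : ∀ C D : ℚ_[p], C ≠ 0 → ‖D‖ ≤ ‖C‖ → ∀ α β : ℤ,
      (∀ t : ZMod p, (α : ZMod p) - β * t ^ 2 ≠ 0) →
      α * C ^ 2 - β * D ^ 2 ≠ 0 ∧ (α * C ^ 2 - β * D ^ 2).valuation = 2 * C.valuation := by
    intro C D hC hle α β hres
    have ht : ‖D / C‖ ≤ 1 := by
      rw [norm_div, div_le_one (norm_pos_iff.mpr hC)]
      exact hle
    set t : ℤ_[p] := ⟨D / C, ht⟩
    have hu := hbig ((α : ℤ_[p]) - β * t ^ 2) (by simpa using hres (PadicInt.toZMod t))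
    rw [PadicInt.norm_def] at hu
    simp only [PadicInt.coe_sub, PadicInt.coe_mul, PadicInt.coe_intCast, PadicInt.coe_pow] at hu
    change ‖(α : ℚ_[p]) - β * (D / C) ^ 2‖ = 1 at hu
    have hfac : α * C ^ 2 - β * D ^ 2 = C ^ 2 * ((α : ℚ_[p]) - β * (D / C) ^ 2) := by
      field_simp
    have hne : α * C ^ 2 - β * D ^ 2 ≠ 0 := by
      rw [hfac]
      refine mul_ne_zero (pow_ne_zero 2 hC) fun h0 => ?_
      rw [h0, norm_zero] at hu
      exact zero_ne_one hu
    refine ⟨hne, ?_⟩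
    have hN := Padic.norm_eq_zpow_neg_valuation hne
    rw [hfac, norm_mul, hu, mul_one, norm_pow, Padic.norm_eq_zpow_neg_valuation hC,
      ← zpow_natCast, ← zpow_mul, zpow_right_inj₀ (by positivity) hp1.ne'] at hN
    rw [← hfac] at hN
    push_cast at hN
    omega
  have hν0 : (ν : ZMod p) ≠ 0 := fun h0 => hν (by rw [h0]; exact IsSquare.zero)
  rcases le_total ‖B‖ ‖A‖ with hle | hle
  · have hA : A ≠ 0 := by
      rcases h with h | h
      · exact h
      · exact norm_pos_iff.mp (lt_of_lt_of_le (norm_pos_iff.mpr h) hle)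
    obtain ⟨h1, h2⟩ := key A B hA hle 1 ν fun t ht => by
      rw [Int.cast_one, sub_eq_zero] at ht
      have ht0 : t ≠ 0 := fun h0 => one_ne_zero (α := ZMod p) (by
        rw [ht, h0, zero_pow two_ne_zero, mul_zero])
      exact hν ⟨1 / t, by field_simp; linear_combination -ht⟩
    simp only [Int.cast_one, one_mul] at h1 h2
    exact ⟨h1, A.valuation, h2, (Padic.norm_eq_zpow_neg_valuation hA).le,
      hle.trans (Padic.norm_eq_zpow_neg_valuation hA).le⟩
  · have hB : B ≠ 0 := by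
      rcases h with h | h
      · exact norm_pos_iff.mp (lt_of_lt_of_le (norm_pos_iff.mpr h) hle)
      · exact h
    obtain ⟨h1, h2⟩ := key B A hB hle (-ν) (-1) fun t ht => by
      push_cast at ht
      exact hν ⟨t, by linear_combination -ht⟩
    have e : ((-ν : ℤ) : ℚ_[p]) * B ^ 2 - ((-1 : ℤ) : ℚ_[p]) * A ^ 2 = A ^ 2 - ν * B ^ 2 := by
      push_cast
      ring
    rw [e] at h1 h2
    exact ⟨h1, B.valuation, h2, hle.trans (Padic.norm_eq_zpow_neg_valuation hB).le,
      (Padic.norm_eq_zpow_neg_valuation hB).le⟩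

/-- Isotropy of `e Z² + 2 (A X² + 2 B ν X Y + A ν Y²)`. -/
theorem binaryTrace_isotropic_iff (hp : p ≠ 2) {ν : ℤ} (hν : ¬ IsSquare (ν : ZMod p))
    {e A B : ℚ_[p]} (he : e ≠ 0) (h : A ≠ 0 ∨ B ≠ 0) {m : ℤ}
    (hm : (A ^ 2 - ν * B ^ 2).valuation = 2 * m) :
    (∃ Z X Y : ℚ_[p], (Z ≠ 0 ∨ X ≠ 0 ∨ Y ≠ 0) ∧
        e * Z ^ 2 + 2 * (A * X ^ 2 + 2 * B * ν * X * Y + A * ν * Y ^ 2) = 0) ↔
      (Even (e.valuation - m) ∨ IsSquare (-(ν : ℚ_[p]) * (A ^ 2 - ν * B ^ 2))) := by
  obtain ⟨hN, m', hm', hAm, hBm⟩ := even_valuation_norm hν h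
  obtain rfl : m' = m := by omega
  by_cases hA : A = 0
  · refine iff_of_true ⟨0, 1, 0, Or.inr (Or.inl one_ne_zero), by rw [hA]; ring⟩ (Or.inr ?_)
    exact ⟨ν * B, by rw [hA]; ring⟩
  have hνz : (ν : ZMod p) ≠ 0 := fun h0 => hν (by rw [h0]; exact IsSquare.zero)
  have hνu : IsUnit (ν : ℤ_[p]) := by
    by_contra hnu
    refine hνz ?_
    rw [← map_intCast (PadicInt.toZMod (p := p)), ← RingHom.mem_ker, PadicInt.ker_toZMod]
    exact (IsLocalRing.mem_maximalIdeal _).mpr hnu
  have hν' : (ν : ℚ_[p]) ≠ 0 := by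
    intro h0
    refine hνu.ne_zero (Subtype.ext ?_)
    rw [PadicInt.coe_intCast, PadicInt.coe_zero]
    exact h0
  have h2 : (2 : ℚ_[p]) ≠ 0 := two_ne_zero
  -- the symbol
  let νu : ℚ_[p]ˣ := Units.mk0 (ν : ℚ_[p]) hν'
  let b : ℚ_[p]ˣ := -1 * νu * Units.mk0 _ hN
  let a : ℚ_[p]ˣ := -1 * Units.mk0 e he * Units.mk0 A hA * (Units.mk0 (2 : ℚ_[p]) h2)⁻¹
  have hva : parityVal a = (((e.valuation - m' : ℤ)) : ZMod 2) +
      (((A.valuation - m' : ℤ)) : ZMod 2) := by
    have h2v : parityVal (Units.mk0 (2 : ℚ_[p]) h2)⁻¹ = 0 := by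
      have h2p : parityVal (Units.mk0 (2 : ℚ_[p]) h2) = 0 := by
        rw [parityVal, Units.val_mk0, Padic.valuation_ofNat,
          padicValNat.eq_zero_of_not_dvd fun hd => hp
            ((Nat.prime_dvd_prime_iff_eq Fact.out Nat.prime_two).mp hd)]
        rfl
      have := parityVal_mul (Units.mk0 (2 : ℚ_[p]) h2)⁻¹ (Units.mk0 (2 : ℚ_[p]) h2)
      rw [inv_mul_cancel, h2p, add_zero] at this
      rw [← this]
      simp [parityVal]
    simp only [a, parityVal_mul, parityVal_neg_one, h2v]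
    simp only [parityVal, Units.val_mk0, zero_add, add_zero]
    push_cast
    rw [CharTwo.sub_eq_add, CharTwo.sub_eq_add, add_add_add_comm, CharTwo.add_self_eq_zero,
      add_zero]
  have hνv : parityVal νu = 0 := by
    have : νu = ofPadicUnit hνu.unit := Units.ext (by
      rw [coe_ofPadicUnit, IsUnit.unit_spec, PadicInt.coe_intCast]
      rfl)
    rw [this, parityVal_ofPadicUnit]
  have hvb : parityVal b = 0 := by
    simp only [b, parityVal_mul, parityVal_neg_one, hνv]
    rw [parityVal, Units.val_mk0, hm', zero_add, zero_add, Int.cast_mul]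
    rw [show ((2 : ℤ) : ZMod 2) = 0 from rfl, zero_mul]
  have hbsq : IsSquare (-(ν : ℚ_[p]) * (A ^ 2 - ν * B ^ 2)) ↔ legBit (unitResidue b) = 0 := by
    rw [← isSquare_iff_legBit hp b hvb]
    simp [b, νu]
  have hsign : hilbertSign (a : ℚ_[p]) (b : ℚ_[p]) = parityVal a * legBit (unitResidue b) := by
    rw [hilbertSign_eq_hilbert, hilbert_odd hp, hvb]
    ring
  have hiso : (∃ Z X Y : ℚ_[p], (Z ≠ 0 ∨ X ≠ 0 ∨ Y ≠ 0) ∧
      e * Z ^ 2 + 2 * (A * X ^ 2 + 2 * B * ν * X * Y + A * ν * Y ^ 2) = 0) ↔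
        IsHilbertTrivial (a : ℚ_[p]) (b : ℚ_[p]) := by
    simp only [a, b, νu, Units.val_mul, Units.val_neg, Units.val_one, Units.val_mk0,
      Units.val_inv_eq_inv_val]
    constructor
    · rintro ⟨Z, X, Y, hne, hz⟩
      refine ⟨Z, Y, A * X + B * ν * Y, ?_, ?_⟩
      · by_contra hall
        push Not at hall
        obtain ⟨hZ, hY, hU⟩ := hall
        rw [hY, mul_zero, add_zero, mul_eq_zero, or_iff_right hA] at hU
        rcases hne with h | h | h
        · exact h hZ
        · exact h hU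
        · exact h hY
      · field_simp
        linear_combination A * hz
    · rintro ⟨Z, Y, U, hne, hz⟩
      refine ⟨Z, (U - B * ν * Y) / A, Y, ?_, ?_⟩
      · by_contra hall
        push Not at hall
        obtain ⟨hZ, hX, hY⟩ := hall
        rw [div_eq_zero_iff, or_iff_left hA, hY, mul_zero, sub_zero] at hX
        rcases hne with h | h | h
        · exact h hZ
        · exact h hY
        · exact h hX
      · field_simp at hz ⊢
        linear_combination hz
  rw [hiso, ← hilbertSign_eq_zero_iff, hsign, mul_eq_zero, hbsq]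
  by_cases hAv : A.valuation = m'
  · rw [hva, hAv, sub_self, Int.cast_zero, add_zero, ZMod.intCast_zmod_eq_zero_iff_dvd,
      even_iff_two_dvd]
    rfl
  · have hsq : legBit (unitResidue b) = 0 := by
      have hp1 : (1 : ℝ) < p := by exact_mod_cast (Fact.out : p.Prime).one_lt
      have hle : m' ≤ A.valuation := by
        have h1 := hAm
        rw [Padic.norm_eq_zpow_neg_valuation hA, zpow_le_zpow_iff_right₀ hp1] at h1
        omega
      have hB : B ≠ 0 := by
        intro hB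
        rw [hB] at hm'
        simp only [ne_eq, OfNat.ofNat_ne_zero, not_false_eq_true, zero_pow, mul_zero, sub_zero] at hm'
        rw [pow_two, Padic.valuation_mul hA hA] at hm'
        omega
      have hlt : ‖A‖ < ‖B‖ := by
        by_contra hge
        push Not at hge
        obtain ⟨-, m'', hm'', -, -⟩ := even_valuation_norm hν h
        have hA' : ‖A‖ < (p : ℝ) ^ (-m') := by
          rw [Padic.norm_eq_zpow_neg_valuation hA, zpow_lt_zpow_iff_right₀ hp1]
          omega
        have hmax : ‖A ^ 2 - ν * B ^ 2‖ ≤ ‖A‖ ^ 2 := by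
          rw [sub_eq_add_neg]
          refine (IsUltrametricDist.norm_add_le_max _ _).trans (max_le (by rw [norm_pow]) ?_)
          rw [norm_neg, norm_mul, norm_pow]
          calc ‖(ν : ℚ_[p])‖ * ‖B‖ ^ 2 ≤ 1 * ‖A‖ ^ 2 := by
                gcongr
                exact Padic.norm_int_le_one ν
            _ = ‖A‖ ^ 2 := one_mul _
        rw [Padic.norm_eq_zpow_neg_valuation hN, hm'] at hmax
        have : (p : ℝ) ^ (-(2 * m')) = ((p : ℝ) ^ (-m')) ^ 2 := by
          rw [← zpow_natCast, ← zpow_mul]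
          congr 1
          push_cast
          ring
        rw [this] at hmax
        nlinarith [norm_nonneg A]
      have hsmall : ‖A / (ν * B)‖ < 1 := by
        rw [norm_div, norm_mul, show ‖(ν : ℚ_[p])‖ = 1 by
          rw [← PadicInt.isUnit_iff.mp hνu, PadicInt.norm_def, PadicInt.coe_intCast], one_mul,
          div_lt_one (norm_pos_iff.mpr hB)]
        exact hlt
      set t : ℤ_[p] := ⟨A / (ν * B), hsmall.le⟩
      have ht0 : PadicInt.toZMod t = 0 := by
        rw [← RingHom.mem_ker, PadicInt.ker_toZMod, PadicInt.maximalIdeal_eq_span_p,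
          Ideal.mem_span_singleton, ← PadicInt.norm_lt_one_iff_dvd]
        exact hsmall
      have hu : IsUnit (1 - (ν : ℤ_[p]) * t ^ 2) := by
        by_contra hnu
        have h0 : PadicInt.toZMod (1 - (ν : ℤ_[p]) * t ^ 2) = 0 := by
          rw [← RingHom.mem_ker, PadicInt.ker_toZMod]
          exact (IsLocalRing.mem_maximalIdeal _).mpr hnu
        simp [ht0] at h0
      have hb : b = (νu * Units.mk0 B hB) ^ 2 * ofPadicUnit hu.unit := by
        refine Units.ext ?_
        simp only [b, νu, Units.val_mul, Units.val_neg, Units.val_one, Units.val_mk0,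
          Units.val_pow_eq_pow_val, coe_ofPadicUnit, IsUnit.unit_spec, PadicInt.coe_sub,
          PadicInt.coe_one, PadicInt.coe_mul, PadicInt.coe_intCast, PadicInt.coe_pow]
        change _ = _ * (1 - (ν : ℚ_[p]) * (A / (ν * B)) ^ 2)
        field_simp
        ring
      rw [hb, sq (νu * Units.mk0 B hB), unitResidue_mul, unitResidue_mul,
        legBit_mul (mul_ne_zero (unitResidue_ne_zero _) (unitResidue_ne_zero _))
          (unitResidue_ne_zero _),
        legBit_mul (unitResidue_ne_zero _) (unitResidue_ne_zero _), CharTwo.add_self_eq_zero,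
        zero_add, unitResidue, padicUnit_ofPadicUnit, IsUnit.unit_spec,
        legBit_eq_zero_iff (by simp [ht0])]
      simp [ht0]
    exact iff_of_true (Or.inr hsq) (Or.inr hsq)

end FLTA.LT2
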