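import Fermat.Agent.LT2.ReciprocityKummer
import Fermat.Agent.LT2.ReciprocityPlaces
import Fermat.Agent.LT2.ReciprocityLocal
import Fermat.Agent.LT2.PrimesLine
import Fermat.Agent.LT2.ImageFrob

/-!
# The pairing at a conjugation prime (LT2, part E)

An unramified class visible at `q` pairs nontrivially with a ramified Frobenius-null class.
-/

set_option autoImplicit false

open WeierstrassCurve

open scoped WeierstrassCurve.Affine

namespace FLTA.LT2

local notation "Qbar" => AlgebraicClosure ℚ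
local notation "Γℚ" => AlgebraicClosure ℚ ≃ₐ[ℚ] AlgebraicClosure ℚ

variable {E : WeierstrassCurve ℤ} {q : ℕ} [Fact q.Prime]

/-- The three points at a prime where Frobenius is a transvection, with the square root of the
discriminant. -/
structure TransFrame (E : WeierstrassCurve ℤ) (q : ℕ) [Fact q.Prime] where
  Φ : AlgebraicClosure ℚ ≃ₐ[ℚ] AlgebraicClosure ℚ
  P₀ : NzTors E
  P₁ : NzTors E
  P₂ : NzTors E
  δ : AlgebraicClosure ℚ
  frob : (padicPlace q).IsFrobeniusAt Φ q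
  ne01 : P₀ ≠ P₁
  ne02 : P₀ ≠ P₂
  ne12 : P₁ ≠ P₂
  cover : ∀ P : NzTors E, P = P₀ ∨ P = P₁ ∨ P = P₂
  add : P₁.1 + P₂.1 = P₀.1
  sq_δ : δ ^ 2 = ((E.Δ : ℤ) : AlgebraicClosure ℚ)
  inertia : ∀ ι ∈ (padicPlace q).inertiaSubgroupIn ℚ, ∀ P : Tors2 E, ι • P = P
  swap : Φ • P₀ = P₀ ∧ Φ • P₁ = P₂ ∧ Φ • P₂ = P₁
  dec : ∀ σ ∈ (padicPlace q).decompositionSubgroup ℚ,
    (σ • P₀ = P₀ ∧ σ • P₁ = P₁ ∧ σ • P₂ = P₂ ∧ σ δ = δ) ∨
      (σ • P₀ = P₀ ∧ σ • P₁ = P₂ ∧ σ • P₂ = P₁ ∧ σ δ = -δ)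

/-- Frobenius at a conjugation prime is an involution on `E[2]`. -/
lemma frobenius_involutive (hE : Companion E) {n : ℕ} (hn : 1 ≤ n) (hq : ConjPrime E n q)
    {Φ : Γℚ} (hΦ : (padicPlace q).IsFrobeniusAt Φ q) (P : Tors2 E) : Φ • Φ • P = P := by
  have hP : (2 ^ 1) • P.1 = 0 := by
    rw [pow_one]
    exact congrArg Subtype.val (two_nsmul_tors2 P)
  have h := Image.frobenius_quadratic_two_pow E hE.Δ_ne_zero hq.prime hq.ne_two hq.good
    (liesOverPrime_padicPlace q) hΦ 1 P.1 hP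
  obtain ⟨a, ha⟩ : (2 : ℤ) ∣ E.apOfModel q := (dvd_pow_self _ (by omega)).trans hq.dvd_trace
  obtain ⟨b, hb⟩ := hq.prime.odd_of_ne_two hq.ne_two
  have h' : Φ • Φ • P - E.apOfModel q • (Φ • P) + q • P = 0 := Subtype.ext h
  have h1 : E.apOfModel q • (Φ • P) = 0 := by
    rw [ha, two_mul, add_zsmul, tors2_add_self]
  have h2 : q • P = P := by
    rw [hb, two_mul, add_nsmul, add_nsmul, tors2_add_self, zero_add, one_nsmul]
  rw [h1, sub_zero, h2] at h'
  rw [eq_neg_of_add_eq_zero_left h', tors2_neg]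

/-- At a conjugation prime every Frobenius element gives a frame. -/
theorem exists_transFrame (hE : Companion E) {n : ℕ} (hn : 1 ≤ n) (hq : ConjPrime E n q)
    {Φ : Γℚ} (hΦ : (padicPlace q).IsFrobeniusAt Φ q) : ∃ F : TransFrame E q, F.Φ = Φ := by
  classical
  have hA := liesOverPrime_padicPlace q
  have hinv := frobenius_involutive hE hn hq hΦ
  have hI : ∀ ι ∈ (padicPlace q).inertiaSubgroupIn ℚ, ∀ P : Tors2 E, ι • P = P :=
    fun ι hι => smul_eq_self_of_inertia_two hq.prime hq.ne_two hq.good hA hι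
  obtain ⟨P, hP⟩ :=
    exists_frobenius_smul_ne_two hE hq.prime hq.ne_two hq.good hq.nonsquare hA hΦ
  have h0 : P ≠ 0 := fun h => hP (by rw [h, smul_zero])
  have h0' : Φ • P ≠ 0 := fun h => h0 (by rw [← hinv P, h, smul_zero])
  have h01 : P + Φ • P ≠ 0 := fun h => hP (by rw [eq_neg_of_add_eq_zero_right h, tors2_neg])
  have hfix : Φ • (P + Φ • P) = P + Φ • P := by rw [smul_add, hinv, add_comm]
  obtain ⟨δ, hδ, -⟩ := exists_sqrt_disc_fixed hE (σ := 1) fun P => one_smul _ P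
  have hδfix : ∀ σ : Γℚ, (∀ Q : Tors2 E, σ • Q = Q) → σ δ = δ := fun σ hσ => by
    obtain ⟨δ', hδ', hσδ⟩ := exists_sqrt_disc_fixed hE hσ
    rcases eq_or_eq_neg_of_sq_eq_sq δ δ' (hδ.trans hδ'.symm) with rfl | rfl
    · exact hσδ
    · rw [map_neg, hσδ]
  -- the values at the elements of the decomposition group
  obtain ⟨L, hL, hact⟩ :=
    EllTorsion.galoisFactorsThroughFiniteLevel_intModel E hE.Δ_ne_zero (n := 2) two_ne_zero
  have : FiniteDimensional ℚ (IntermediateField.adjoin ℚ ({δ} : Set Qbar)) :=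
    IntermediateField.adjoin.finiteDimensional
      ((Algebra.IsAlgebraic.isAlgebraic (R := ℚ) δ).isIntegral)
  let M := L ⊔ IntermediateField.adjoin ℚ ({δ} : Set Qbar)
  have : FiniteDimensional ℚ M := IntermediateField.finiteDimensional_sup _ _
  have hlevel : ∀ σ ∈ (padicPlace q).decompositionSubgroup ℚ, ∃ k : ℕ,
      (∀ Q : Tors2 E, σ • Q = Φ ^ k • Q) ∧ σ δ = (Φ ^ k) δ := by
    intro σ hσ
    obtain ⟨k, ι, hι, he⟩ := FLTA.Galois.exists_pow_mul_inertia_eq hq.prime hA hΦ hσ M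
    refine ⟨k, fun Q => ?_, ?_⟩
    · have hQ : ((Φ ^ k * ι)⁻¹ * σ) • Q = Q :=
        LinearMap.congr_fun (hact _ fun x hx => by
          rw [AlgEquiv.mul_apply, he x (le_sup_left (a := L) hx), ← AlgEquiv.mul_apply,
            inv_mul_cancel, AlgEquiv.one_apply]) Q
      rw [mul_smul, inv_smul_eq_iff, mul_smul, hI ι hι] at hQ
      exact hQ
    · rw [he δ (le_sup_right (a := L) (IntermediateField.mem_adjoin_simple_self ℚ δ)),
        AlgEquiv.mul_apply, hδfix ι (hI ι hι)]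
  have hΦδ : Φ δ = -δ := by
    refine (eq_or_eq_neg_of_sq_eq_sq (Φ δ) δ (by rw [← map_pow, hδ, map_intCast])).resolve_left
      fun hfx => ?_
    have hD : ∀ σ ∈ (padicPlace q).decompositionSubgroup ℚ, σ δ = δ := fun σ hσ => by
      obtain ⟨k, -, hk⟩ := hlevel σ hσ
      rw [hk]
      induction k generalizing σ with
      | zero => rfl
      | succ k ih =>
        rw [pow_succ, AlgEquiv.mul_apply, hfx]
        exact ih ((Φ : Γℚ) ^ k) (pow_mem hΦ.mem_decompositionSubgroup k) rfl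
    obtain ⟨t, ht⟩ := padicEmbedding_mem_range q hD
    have ht2 : t ^ 2 = (E.Δ : ℚ_[q]) := (algebraMap ℚ_[q] (PadicAlgCl q)).injective (by
      rw [map_pow, ht, ← map_pow, hδ, map_intCast, map_intCast])
    have ht1 : ‖t‖ ≤ 1 := by
      have h : ‖t‖ ^ 2 ≤ 1 := by rw [← norm_pow, ht2]; exact Padic.norm_int_le_one _
      nlinarith [norm_nonneg t]
    obtain ⟨T, hT⟩ : ∃ T : ℤ_[q], (T : ℚ_[q]) = t := ⟨⟨t, ht1⟩, rfl⟩
    refine hq.nonsquare ⟨PadicInt.toZMod T, ?_⟩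
    have ht' : T ^ 2 = (E.Δ : ℤ_[q]) := PadicInt.ext (by
      rw [PadicInt.coe_pow, PadicInt.coe_intCast, hT]; exact ht2)
    have := congrArg (PadicInt.toZMod (p := q)) ht'
    rw [map_pow, map_intCast] at this
    exact this.symm.trans (sq _)
  refine ⟨⟨Φ, ⟨P + Φ • P, h01⟩, ⟨P, h0⟩, ⟨Φ • P, h0'⟩, δ, hΦ, ?_, ?_, ?_, ?_, rfl, hδ, hI,
    ⟨Subtype.ext hfix, rfl, Subtype.ext (hinv P)⟩, fun σ hσ => ?_⟩, rfl⟩
  · exact fun h => h0' (add_eq_left.mp (congrArg Subtype.val h))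
  · exact fun h => h0 (add_eq_right.mp (congrArg Subtype.val h))
  · exact fun h => hP (congrArg Subtype.val h).symm
  · intro R
    by_cases hR1 : R.1 = P
    · exact Or.inr (Or.inl (Subtype.ext hR1))
    by_cases hR2 : R.1 = Φ • P
    · exact Or.inr (Or.inr (Subtype.ext hR2))
    refine Or.inl (Subtype.ext ?_)
    show R.1 = P + Φ • P
    exact (tors2_eq_or_eq_add hE.Δ_ne_zero h0 h0' hP R.2 hR1).resolve_left hR2 |>.trans
      (add_comm _ _)
  · obtain ⟨k, hk, hkδ⟩ := hlevel σ hσ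
    have key : ∀ k : ℕ, ((∀ Q : Tors2 E, Φ ^ k • Q = Q) ∧ (Φ ^ k) δ = δ) ∨
        ((∀ Q : Tors2 E, Φ ^ k • Q = Φ • Q) ∧ (Φ ^ k) δ = -δ) := by
      intro k
      induction k with
      | zero => exact Or.inl ⟨fun Q => by rw [pow_zero, one_smul], rfl⟩
      | succ k ih =>
        rw [pow_succ']
        rcases ih with ⟨h, h'⟩ | ⟨h, h'⟩
        · exact Or.inr ⟨fun Q => by rw [mul_smul, h], by rw [AlgEquiv.mul_apply, h', hΦδ]⟩
        · exact Or.inl ⟨fun Q => by rw [mul_smul, h, hinv],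
            by rw [AlgEquiv.mul_apply, h', map_neg, hΦδ, neg_neg]⟩
    rcases key k with ⟨h, h'⟩ | ⟨h, h'⟩
    · exact Or.inl ⟨Subtype.ext ((hk _).trans (h _)), Subtype.ext ((hk _).trans (h _)),
        Subtype.ext ((hk _).trans (h _)), hkδ.trans h'⟩
    · exact Or.inr ⟨Subtype.ext (((hk _).trans (h _)).trans hfix),
        Subtype.ext ((hk _).trans (h _)), Subtype.ext (((hk _).trans (h _)).trans (hinv P)),
        hkδ.trans h'⟩

namespace TransFrame

variable (F : TransFrame E q)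

/-- The image of the square root of the discriminant. -/
noncomputable def dd : PadicAlgCl q := padicEmbedding q F.δ

lemma dd_sq : F.dd ^ 2 = algebraMap ℚ_[q] (PadicAlgCl q) (E.Δ : ℚ_[q]) := by
  rw [dd, ← map_pow, F.sq_δ, map_intCast, map_intCast]

lemma dd_ne_zero (hE : Companion E) : F.dd ≠ 0 := fun h => by
  have := F.dd_sq
  rw [h, zero_pow two_ne_zero, eq_comm, map_eq_zero, Int.cast_eq_zero] at this
  exact hE.Δ_ne_zero this

lemma norm_dd (hgood : ¬ (q : ℤ) ∣ E.Δ) : ‖F.dd‖ = 1 := by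
  have h : ‖F.dd‖ ^ 2 = 1 := by
    rw [← norm_pow, dd_sq]
    show ‖((E.Δ : ℚ_[q]) : PadicAlgCl q)‖ = 1
    rw [PadicAlgCl.norm_extends]
    exact le_antisymm (Padic.norm_int_le_one _)
      (not_lt.mp fun h => hgood ((Padic.norm_intCast_lt_one_iff (p := q)).mp h))
  exact (sq_eq_one_iff.mp h).resolve_right fun hh => by linarith [norm_nonneg F.dd]

open Classical in
/-- The local equivariant function with parameters `Z, X, Y`. -/
noncomputable def fn (Z X Y : ℚ_[q]) (P : NzTors E) : PadicAlgCl q :=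
  if P = F.P₀ then algebraMap _ _ Z
  else if P = F.P₁ then algebraMap _ _ X + algebraMap _ _ Y * F.dd
  else algebraMap _ _ X - algebraMap _ _ Y * F.dd

@[simp] lemma fn_P₀ (Z X Y : ℚ_[q]) : F.fn Z X Y F.P₀ = algebraMap _ _ Z := if_pos rfl

@[simp] lemma fn_P₁ (Z X Y : ℚ_[q]) :
    F.fn Z X Y F.P₁ = algebraMap _ _ X + algebraMap _ _ Y * F.dd := by
  rw [fn, if_neg F.ne01.symm, if_pos rfl]

@[simp] lemma fn_P₂ (Z X Y : ℚ_[q]) :
    F.fn Z X Y F.P₂ = algebraMap _ _ X - algebraMap _ _ Y * F.dd := by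
  rw [fn, if_neg F.ne02.symm, if_neg F.ne12.symm]

lemma ext_frame {M : Type*} {f g : NzTors E → M} (h0 : f F.P₀ = g F.P₀) (h1 : f F.P₁ = g F.P₁)
    (h2 : f F.P₂ = g F.P₂) : f = g := funext fun P => by
  rcases F.cover P with rfl | rfl | rfl <;> assumption

/-- Equivariant functions are given by three elements of `ℚ_q`. -/
lemma exists_fn (hE : Companion E) {g : NzTors E → Qbar}
    (hg : IsEquivariantOn (padicData q).dec g) :
    ∃ Z X Y : ℚ_[q], (fun P => padicEmbedding q (g P)) = F.fn Z X Y := by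
  have hδ : F.δ ≠ 0 := fun h => F.dd_ne_zero hE (by rw [dd, h, map_zero])
  let a := (g F.P₁ + g F.P₂) / 2
  let b := (g F.P₁ - g F.P₂) / (2 * F.δ)
  have hfix : ∀ σ ∈ (padicPlace q).decompositionSubgroup ℚ,
      σ (g F.P₀) = g F.P₀ ∧ σ a = a ∧ σ b = b := by
    intro σ hσ
    have e := hg σ hσ
    rcases F.dec σ hσ with ⟨h0, h1, h2, hd⟩ | ⟨h0, h1, h2, hd⟩
    · refine ⟨by rw [e, h0], ?_, ?_⟩ <;>
        simp only [a, b, map_div₀, map_add, map_sub, map_mul, map_ofNat, e, h1, h2, hd]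
    · refine ⟨by rw [e, h0], ?_, ?_⟩ <;>
        simp only [a, b, map_div₀, map_add, map_sub, map_mul, map_ofNat, e, h1, h2, hd]
      · rw [add_comm]
      · rw [mul_neg, div_neg, ← neg_div, neg_sub]
  obtain ⟨Z, hZ⟩ := padicEmbedding_mem_range q fun σ hσ => (hfix σ hσ).1
  obtain ⟨X, hX⟩ := padicEmbedding_mem_range q fun σ hσ => (hfix σ hσ).2.1
  obtain ⟨Y, hY⟩ := padicEmbedding_mem_range q fun σ hσ => (hfix σ hσ).2.2
  refine ⟨Z, X, Y, F.ext_frame ?_ ?_ ?_⟩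
  · rw [fn_P₀, hZ]
  · rw [fn_P₁, hX, hY, dd, ← map_mul, ← map_add]
    congr 1
    simp only [a, b]
    field_simp
    ring
  · rw [fn_P₂, hX, hY, dd, ← map_mul, ← map_sub]
    congr 1
    simp only [a, b]
    field_simp
    ring

lemma fn_add (Z X Y Z' X' Y' : ℚ_[q]) :
    F.fn (Z + Z') (X + X') (Y + Y') = F.fn Z X Y + F.fn Z' X' Y' := by
  refine F.ext_frame ?_ ?_ ?_ <;> simp <;> ring

lemma fn_smul (t Z X Y : ℚ_[q]) : F.fn (t * Z) (t * X) (t * Y) = t • F.fn Z X Y := by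
  refine F.ext_frame ?_ ?_ ?_ <;> simp [Algebra.smul_def] <;> ring

lemma fn_mem (Z X Y : ℚ_[q]) : F.fn Z X Y ∈ (padicData q).space (NzTors E) := by
  classical
  let g₀ : NzTors E → Qbar := fun P => if P = F.P₀ then 1 else 0
  let g₁ : NzTors E → Qbar := fun P => if P = F.P₀ then 0 else 1
  let g₂ : NzTors E → Qbar := fun P => if P = F.P₀ then 0 else if P = F.P₁ then F.δ else -F.δ
  have hP : ∀ σ ∈ (padicPlace q).decompositionSubgroup ℚ, ∀ P, σ • P = F.P₀ ↔ P = F.P₀ := by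
    intro σ hσ P
    have h0 : σ • F.P₀ = F.P₀ := by
      rcases F.dec σ hσ with h | h <;> exact h.1
    exact ⟨fun h => smul_left_cancel σ (h.trans h0.symm), fun h => h.symm ▸ h0⟩
  have e₀ : IsEquivariantOn (padicData q).dec g₀ := fun σ hσ P => by
    simp only [g₀, hP σ hσ, apply_ite σ, map_one, map_zero]
  have e₁ : IsEquivariantOn (padicData q).dec g₁ := fun σ hσ P => by
    simp only [g₁, hP σ hσ, apply_ite σ, map_one, map_zero]
  have e₂ : IsEquivariantOn (padicData q).dec g₂ := fun σ hσ P => by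
    simp only [g₂]
    rcases F.cover P with rfl | rfl | rfl
    · rw [if_pos rfl, map_zero, if_pos ((hP σ hσ _).mpr rfl)]
    all_goals
      rcases F.dec σ hσ with ⟨h0, h1, h2, hd⟩ | ⟨h0, h1, h2, hd⟩ <;>
        simp [h1, h2, hd, F.ne01.symm, F.ne02.symm, F.ne12.symm]
  have hmem : ∀ g, IsEquivariantOn (padicData q).dec g →
      (fun P : NzTors E => padicEmbedding q (g P)) ∈ (padicData q).space (NzTors E) := fun g hg =>
    Submodule.subset_span ⟨g, hg, rfl⟩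
  have he : F.fn Z X Y = Z • (fun P => padicEmbedding q (g₀ P)) +
      X • (fun P => padicEmbedding q (g₁ P)) + Y • fun P => padicEmbedding q (g₂ P) := by
    refine F.ext_frame ?_ ?_ ?_ <;>
      simp [g₀, g₁, g₂, dd, Algebra.smul_def, F.ne01.symm, F.ne02.symm, F.ne12.symm,
        sub_eq_add_neg]
  rw [he]
  exact add_mem (add_mem (Submodule.smul_mem _ _ (hmem _ e₀)) (Submodule.smul_mem _ _ (hmem _ e₁)))
    (Submodule.smul_mem _ _ (hmem _ e₂))

lemma exists_fn_of_mem (hE : Companion E) {f : NzTors E → PadicAlgCl q}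
    (hf : f ∈ (padicData q).space (NzTors E)) : ∃ Z X Y : ℚ_[q], f = F.fn Z X Y := by
  refine Submodule.span_induction ?_ ⟨0, 0, 0, F.ext_frame (by simp) (by simp) (by simp)⟩ ?_ ?_ hf
  · rintro _ ⟨g, hg, rfl⟩
    exact F.exists_fn hE hg
  · rintro f g _ _ ⟨Z, X, Y, rfl⟩ ⟨Z', X', Y', rfl⟩
    exact ⟨_, _, _, (F.fn_add Z X Y Z' X' Y').symm⟩
  · rintro t f _ ⟨Z, X, Y, rfl⟩
    exact ⟨_, _, _, (F.fn_smul t Z X Y).symm⟩

/-- The coordinates of an equivariant function. -/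
def IsCoords (a : NzTors E → AlgebraicClosure ℚ) (e A B : ℚ_[q]) : Prop :=
  (fun P => padicEmbedding q (a P)) = F.fn e A B

variable {F}

lemma IsCoords.at₀ {a : NzTors E → Qbar} {e A B : ℚ_[q]} (h : F.IsCoords a e A B) :
    padicEmbedding q (a F.P₀) = algebraMap _ _ e := (congrFun h F.P₀).trans (F.fn_P₀ e A B)

lemma IsCoords.at₁ {a : NzTors E → Qbar} {e A B : ℚ_[q]} (h : F.IsCoords a e A B) :
    padicEmbedding q (a F.P₁) = algebraMap _ _ A + algebraMap _ _ B * F.dd :=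
  (congrFun h F.P₁).trans (F.fn_P₁ e A B)

lemma IsCoords.at₂ {a : NzTors E → Qbar} {e A B : ℚ_[q]} (h : F.IsCoords a e A B) :
    padicEmbedding q (a F.P₂) = algebraMap _ _ A - algebraMap _ _ B * F.dd :=
  (congrFun h F.P₂).trans (F.fn_P₂ e A B)

lemma IsCoords.ne_zero {a : NzTors E → Qbar} {e A B : ℚ_[q]} (h : F.IsCoords a e A B)
    (ha0 : ∀ P, a P ≠ 0) : e ≠ 0 ∧ (A ≠ 0 ∨ B ≠ 0) := by
  constructor
  · intro he
    exact ha0 F.P₀ ((padicEmbedding q).toRingHom.injective (by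
      show padicEmbedding q (a F.P₀) = padicEmbedding q 0
      rw [h.at₀, he, map_zero, map_zero]))
  · by_contra! hn
    exact ha0 F.P₁ ((padicEmbedding q).toRingHom.injective (by
      show padicEmbedding q (a F.P₁) = padicEmbedding q 0
      rw [h.at₁, hn.1, hn.2, map_zero, map_zero, zero_mul, add_zero]))

lemma IsCoords.mul {a b : NzTors E → Qbar} {e A B e' A' B' : ℚ_[q]} (h : F.IsCoords a e A B)
    (h' : F.IsCoords b e' A' B') :
    F.IsCoords (a * b) (e * e') (A * A' + (E.Δ : ℚ_[q]) * (B * B')) (A * B' + B * A') := by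
  refine F.ext_frame ?_ ?_ ?_ <;> simp only [Pi.mul_apply, map_mul, fn_P₀, fn_P₁, fn_P₂, map_add]
  · rw [h.at₀, h'.at₀]
  · rw [h.at₁, h'.at₁, ← F.dd_sq]; ring
  · rw [h.at₂, h'.at₂, ← F.dd_sq]; ring

lemma isCoords_one : F.IsCoords 1 1 1 0 := by
  refine F.ext_frame ?_ ?_ ?_ <;> simp

/-- The sign in coordinates. -/
theorem IsCoords.isotropic_iff [Fintype (NzTors E)] (hE : Companion E) (hq2 : q ≠ 2)
    (hns : ¬ IsSquare (E.Δ : ZMod q)) {a : NzTors E → Qbar} (ha0 : ∀ P, a P ≠ 0)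
    {e A B : ℚ_[q]} (h : F.IsCoords a e A B) {m : ℤ}
    (hm : (A ^ 2 - (E.Δ : ℚ_[q]) * B ^ 2).valuation = 2 * m) :
    (padicData q).Isotropic a ↔
      (Even (e.valuation - m) ∨
        IsSquare (-(E.Δ : ℚ_[q]) * (A ^ 2 - (E.Δ : ℚ_[q]) * B ^ 2))) := by
  classical
  obtain ⟨he, hAB⟩ := h.ne_zero ha0
  rw [← binaryTrace_isotropic_iff hq2 hns he hAB hm]
  have huniv : (Finset.univ : Finset (NzTors E)) = {F.P₀, F.P₁, F.P₂} :=
    (Finset.eq_univ_of_forall fun P => by simpa using F.cover P).symm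
  have hsum : ∀ Z X Y : ℚ_[q], ∑ P, (padicData q).emb (a P) * F.fn Z X Y P ^ 2 =
      algebraMap _ _ (e * Z ^ 2 +
        2 * (A * X ^ 2 + 2 * B * (E.Δ : ℚ_[q]) * X * Y + A * (E.Δ : ℚ_[q]) * Y ^ 2)) := by
    intro Z X Y
    show ∑ P, padicEmbedding q (a P) * F.fn Z X Y P ^ 2 = _
    rw [huniv, Finset.sum_insert (by simp [F.ne01, F.ne02]),
      Finset.sum_insert (by simp [F.ne12]), Finset.sum_singleton, h.at₀, h.at₁, h.at₂, fn_P₀,
      fn_P₁, fn_P₂]
    simp only [map_add, map_mul, map_pow, map_ofNat]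
    rw [← F.dd_sq]
    ring
  constructor
  · rintro ⟨f, hf, hne, h0⟩
    obtain ⟨Z, X, Y, rfl⟩ := F.exists_fn_of_mem hE hf
    refine ⟨Z, X, Y, ?_, ?_⟩
    · by_contra! hn
      refine hne (F.ext_frame ?_ ?_ ?_) <;> simp [hn.1, hn.2.1, hn.2.2]
    · rw [hsum, map_eq_zero] at h0
      exact h0
  · rintro ⟨Z, X, Y, hn, h0⟩
    refine ⟨F.fn Z X Y, F.fn_mem Z X Y, fun hz => ?_, by rw [hsum, h0, map_zero]⟩
    have e0 : algebraMap ℚ_[q] (PadicAlgCl q) Z = 0 := by simpa using congrFun hz F.P₀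
    have e1 : algebraMap ℚ_[q] (PadicAlgCl q) X + algebraMap _ _ Y * F.dd = 0 := by
      simpa using congrFun hz F.P₁
    have e2 : algebraMap ℚ_[q] (PadicAlgCl q) X - algebraMap _ _ Y * F.dd = 0 := by
      simpa using congrFun hz F.P₂
    have hX : algebraMap ℚ_[q] (PadicAlgCl q) X = 0 := by linear_combination (e1 + e2) / 2
    have hY : algebraMap ℚ_[q] (PadicAlgCl q) Y = 0 := by
      rw [hX, zero_add] at e1
      exact (mul_eq_zero.mp e1).resolve_right (F.dd_ne_zero hE)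
    rw [map_eq_zero] at e0 hX hY
    rcases hn with h | h | h <;> contradiction

/-- Parities from the action of inertia on square roots. -/
theorem IsCoords.parity (hq2 : q ≠ 2) (hgood : ¬ (q : ℤ) ∣ E.Δ)
    (hns : ¬ IsSquare (E.Δ : ZMod q)) {y : StCocycle E} {α : NzTors E → Qbar}
    (hα : IsKummerFor E y α) {e A B : ℚ_[q]} (h : F.IsCoords (α ^ 2) e A B)
    (hval : ∀ ι ∈ (padicPlace q).inertiaSubgroupIn ℚ, y.toFun ι = 0 ∨ y.toFun ι = F.P₀.1) :
    Even e.valuation ∧ ∃ m : ℤ, (A ^ 2 - (E.Δ : ℚ_[q]) * B ^ 2).valuation = 2 * m ∧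
      (Even m ↔ ∀ ι ∈ (padicPlace q).inertiaSubgroupIn ℚ, y.toFun ι = 0) := by
  classical
  obtain ⟨he, hAB⟩ := h.ne_zero hα.sq_ne_zero
  have hI : ∀ ι ∈ (padicPlace q).inertiaSubgroupIn ℚ, ∀ P : NzTors E, ι • P = P :=
    fun ι hι P => Subtype.ext (F.inertia ι hι P.1)
  have hfix : ∀ ι ∈ (padicPlace q).inertiaSubgroupIn ℚ, ∀ P, ι ((α ^ 2) P) = (α ^ 2) P :=
    fun ι hι P => by rw [hα.sq_equivariant ι trivial P, hI ι hι P]
  have hact : ∀ ι ∈ (padicPlace q).inertiaSubgroupIn ℚ, ∀ P,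
      ι (α P) = stSign E (y.toFun ι) P * α P :=
    fun ι hι P => by rw [hα.2 ι P, hI ι hι P]
  constructor
  · refine (inertia_apply_sqrt_iff hq2 (x := (α ^ 2) F.P₀) (r := α F.P₀) (Pi.pow_apply α 2 _).symm
      ?_ fun ι hι => hfix ι hι _).mp fun ι hι => ?_
    · rw [h.at₀]
      show ‖((e : ℚ_[q]) : PadicAlgCl q)‖ = _
      rw [PadicAlgCl.norm_extends, Padic.norm_eq_zpow_neg_valuation he]
    · rw [hact ι hι, stSign, if_pos (hval ι hι), one_mul]
  · obtain ⟨hN0, m, hm, hA, hB⟩ := even_valuation_norm hns hAB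
    refine ⟨m, hm, ?_⟩
    have hBd : ‖algebraMap ℚ_[q] (PadicAlgCl q) B * F.dd‖ ≤ (q : ℝ) ^ (-m) := by
      rw [norm_mul, F.norm_dd hgood, mul_one]
      show ‖((B : ℚ_[q]) : PadicAlgCl q)‖ ≤ _
      rwa [PadicAlgCl.norm_extends]
    have hA' : ‖algebraMap ℚ_[q] (PadicAlgCl q) A‖ ≤ (q : ℝ) ^ (-m) := by
      show ‖((A : ℚ_[q]) : PadicAlgCl q)‖ ≤ _
      rwa [PadicAlgCl.norm_extends]
    set u := algebraMap ℚ_[q] (PadicAlgCl q) A + algebraMap _ _ B * F.dd with hu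
    set u' := algebraMap ℚ_[q] (PadicAlgCl q) A - algebraMap _ _ B * F.dd with hu'
    have hle : ‖u‖ ≤ (q : ℝ) ^ (-m) :=
      (IsUltrametricDist.norm_add_le_max _ _).trans (max_le hA' hBd)
    have hle' : ‖u'‖ ≤ (q : ℝ) ^ (-m) := by
      rw [hu', sub_eq_add_neg]
      exact (IsUltrametricDist.norm_add_le_max _ _).trans (max_le hA' (by rwa [norm_neg]))
    have hpos : (0 : ℝ) < (q : ℝ) ^ (-m) :=
      zpow_pos (by exact_mod_cast (Fact.out : q.Prime).pos) _
    have hprod : ‖u‖ * ‖u'‖ = (q : ℝ) ^ (-m) * (q : ℝ) ^ (-m) := by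
      rw [← norm_mul, show u * u' = algebraMap ℚ_[q] (PadicAlgCl q)
        (A ^ 2 - (E.Δ : ℚ_[q]) * B ^ 2) by
          rw [map_sub, map_mul, map_pow, map_pow, ← F.dd_sq]; simp only [hu, hu']; ring]
      show ‖(((A ^ 2 - (E.Δ : ℚ_[q]) * B ^ 2 : ℚ_[q])) : PadicAlgCl q)‖ = _
      rw [PadicAlgCl.norm_extends, Padic.norm_eq_zpow_neg_valuation hN0, hm,
        ← zpow_add₀ (Nat.cast_ne_zero.mpr (Fact.out : q.Prime).ne_zero)]
      congr 1
      ring
    have hnorm : ‖u‖ = (q : ℝ) ^ (-m) := by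
      refine le_antisymm hle (not_lt.mp fun hlt => ?_)
      have := mul_lt_mul hlt hle' (by
        rcases eq_or_ne u' 0 with h0 | h0
        · rw [h0, norm_zero, mul_zero] at hprod
          exact absurd hprod.symm (mul_pos hpos hpos).ne'
        · exact norm_pos_iff.mpr h0) hpos.le
      rw [hprod] at this
      exact lt_irrefl _ this
    rw [← inertia_apply_sqrt_iff hq2 (x := (α ^ 2) F.P₁) (r := α F.P₁) (Pi.pow_apply α 2 _).symm
      (by rw [h.at₁]; exact hnorm) fun ι hι => hfix ι hι _]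
    refine forall₂_congr fun ι hι => ?_
    rw [hact ι hι]
    constructor
    · intro hh
      refine (hval ι hι).resolve_right fun hv => ?_
      rw [hv, stSign, if_neg (fun h' => h'.elim F.P₀.2 fun e => F.ne01 (Subtype.ext e)),
        neg_one_mul] at hh
      exact hα.1 F.P₁ (by linear_combination (-1 / 2 : Qbar) * hh)
    · intro hh
      rw [hh, stSign_zero, one_mul]

/-- The norm of an unramified class visible at `q` is a nonsquare. -/
theorem IsCoords.not_isSquare_norm {x : StCocycle E} {α : NzTors E → Qbar}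
    (hα : IsKummerFor E x α) {e A B : ℚ_[q]} (h : F.IsCoords (α ^ 2) e A B)
    (hx : ¬ ∃ v : Tors2 E, x.toFun F.Φ = F.Φ • v - v) :
    ¬ IsSquare (A ^ 2 - (E.Δ : ℚ_[q]) * B ^ 2) := by
  classical
  rintro ⟨t, ht⟩
  have hprod : padicEmbedding q (α F.P₁ * α F.P₂) ^ 2 =
      (algebraMap ℚ_[q] (PadicAlgCl q) t) ^ 2 := by
    rw [← map_pow, mul_pow, map_mul, ← Pi.pow_apply α 2, ← Pi.pow_apply α 2, h.at₁, h.at₂,
      ← map_pow, sq t, ← ht, map_sub, map_mul, map_pow, map_pow, ← F.dd_sq]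
    ring
  have hfix : F.Φ (α F.P₁ * α F.P₂) = α F.P₁ * α F.P₂ := by
    rcases eq_or_eq_neg_of_sq_eq_sq _ _ hprod with hh | hh
    · exact apply_eq_of_padicEmbedding_eq q hh F.frob.mem_decompositionSubgroup
    · exact apply_eq_of_padicEmbedding_eq q (hh.trans (map_neg _ t).symm)
        F.frob.mem_decompositionSubgroup
  rw [map_mul, hα.2, hα.2, F.swap.2.1, F.swap.2.2] at hfix
  have hne : α F.P₁ * α F.P₂ ≠ 0 := mul_ne_zero (hα.1 _) (hα.1 _)
  have hsgn : stSign E (x.toFun F.Φ) F.P₂ * stSign E (x.toFun F.Φ) F.P₁ = 1 :=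
    mul_right_cancel₀ hne (by linear_combination hfix)
  by_cases h0 : x.toFun F.Φ = 0
  · exact hx ⟨0, by rw [h0, smul_zero, sub_zero]⟩
  have h' : ∀ P : NzTors E, x.toFun F.Φ = P.1 → P = F.P₁ ∨ P = F.P₂ := fun P hP => by
    rcases F.cover P with rfl | rfl | rfl
    · exfalso
      refine hx ⟨F.P₁.1, ?_⟩
      rw [hP, ← coe_smul_nzTors, F.swap.2.1, tors2_sub, add_comm, F.add]
    · exact Or.inl rfl
    · exact Or.inr rfl
  rcases h' ⟨_, h0⟩ rfl with hh | hh <;>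
    · rw [show x.toFun F.Φ = _ from congrArg Subtype.val hh, stSign, stSign] at hsgn
      simp only [F.P₁.2, F.P₂.2, Subtype.coe_inj, F.ne12, F.ne12.symm, false_or, or_false,
        if_true, if_false, one_mul, mul_one] at hsgn
      norm_num at hsgn

end TransFrame

/-- Square classes of elements of even valuation multiply. -/
lemma isSquare_mul_iff_not (hq2 : q ≠ 2) {s t : ℚ_[q]} (hs : s ≠ 0) (ht : t ≠ 0)
    (hvs : Even s.valuation) (hvt : Even t.valuation) (hns : ¬ IsSquare t) :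
    IsSquare (s * t) ↔ ¬ IsSquare s := by
  have par : ∀ (z : ℚ_[q]) (hz : z ≠ 0), Even z.valuation → parityVal (Units.mk0 z hz) = 0 :=
    fun z hz hev => by
      show ((z.valuation : ℤ) : ZMod 2) = 0
      exact (ZMod.intCast_zmod_eq_zero_iff_dvd _ 2).mpr hev.two_dvd
  have ht' := isSquare_iff_legBit hq2 (Units.mk0 t ht) (par t ht hvt)
  have hs' := isSquare_iff_legBit hq2 (Units.mk0 s hs) (par s hs hvs)
  have hst := isSquare_iff_legBit hq2 (Units.mk0 s hs * Units.mk0 t ht) (by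
    rw [parityVal_mul, par s hs hvs, par t ht hvt, add_zero])
  simp only [Units.val_mk0, Units.val_mul, unitResidue_mul,
    legBit_mul (unitResidue_ne_zero _) (unitResidue_ne_zero _)] at ht' hs' hst
  rw [hst, hs']
  rw [ht'] at hns
  revert hns
  generalize legBit (unitResidue (Units.mk0 s hs)) = a
  generalize legBit (unitResidue (Units.mk0 t ht)) = b
  revert a b
  decide

lemma sign_of_isotropic {K Ω : Type*} [Field K] [Field Ω] [Algebra K Ω] {L : LocalData K Ω}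
    {S : Type*} [MulAction Γℚ S] [Fintype S] {a : S → Qbar} (h : L.Isotropic a) : L.sign a = 0 := by
  rw [LocalData.sign, if_pos h]

lemma sign_of_not_isotropic {K Ω : Type*} [Field K] [Field Ω] [Algebra K Ω] {L : LocalData K Ω}
    {S : Type*} [MulAction Γℚ S] [Fintype S] {a : S → Qbar} (h : ¬ L.Isotropic a) :
    L.sign a = 1 := by
  rw [LocalData.sign, if_neg h]

lemma pairing_eq_one_of {K Ω : Type*} [Field K] [Field Ω] [Algebra K Ω] {L : LocalData K Ω}
    {S : Type*} [MulAction Γℚ S] [Fintype S] {a b : S → Qbar} {P : Prop}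
    (h1 : L.Isotropic (1 : S → Qbar)) (ha : L.Isotropic a) (hb : L.Isotropic b ↔ P)
    (hab : L.Isotropic (a * b) ↔ ¬ P) : L.pairing a b = 1 := by
  rw [LocalData.pairing, sign_of_isotropic h1, sign_of_isotropic ha]
  by_cases hP : P
  · rw [sign_of_isotropic (hb.mpr hP), sign_of_not_isotropic (fun h => (hab.mp h) hP)]
    decide
  · rw [sign_of_not_isotropic (fun h => hP (hb.mp h)), sign_of_isotropic (hab.mpr hP)]
    decide

set_option maxHeartbeats 800000 in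
/-- An unramified class visible at `q` and a ramified class killed by Frobenius pair to `1`. -/
theorem pairing_eq_one (hE : Companion E) [Fintype (NzTors E)] {n : ℕ} (hn : 1 ≤ n)
    (hq : ConjPrime E n q) {x c : StCocycle E} {Φ : Γℚ}
    (hΦ : (padicPlace q).IsFrobeniusAt Φ q) (hx : UnramAt E q x)
    (hxΦ : ¬ ∃ v : Tors2 E, x.toFun Φ = Φ • v - v) (hc : FrobNull E q c)
    (hcr : ¬ UnramAt E q c) {α β : NzTors E → Qbar} (hα : IsKummerFor E x α)
    (hβ : IsKummerFor E c β) : (padicData q).pairing (α ^ 2) (β ^ 2) = 1 := by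
  classical
  obtain ⟨F, rfl⟩ := exists_transFrame hE hn hq hΦ
  have hA := liesOverPrime_padicPlace q
  have hq2 := hq.ne_two
  have hx0 : ∀ ι ∈ (padicPlace q).inertiaSubgroupIn ℚ, x.toFun ι = 0 :=
    (unramAt_iff_forall hq.prime hq2 hq.good x).mp hx _ hA
  have himg : ∀ u : Tors2 E, F.Φ • u - u = 0 ∨ F.Φ • u - u = F.P₀.1 := by
    intro u
    by_cases hu : u = 0
    · exact Or.inl (by rw [hu, smul_zero, sub_zero])
    rcases F.cover ⟨u, hu⟩ with h | h | h <;> rw [show u = _ from congrArg Subtype.val h,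
      ← coe_smul_nzTors]
    · exact Or.inl (by rw [F.swap.1, sub_self])
    · exact Or.inr (by rw [F.swap.2.1, tors2_sub, add_comm, F.add])
    · exact Or.inr (by rw [F.swap.2.2, tors2_sub, F.add])
  have hcI : ∀ ι ∈ (padicPlace q).inertiaSubgroupIn ℚ, c.toFun ι = 0 ∨ c.toFun ι = F.P₀.1 := by
    intro ι hι
    obtain ⟨v, hv⟩ := hc _ hA F.Φ hΦ
    obtain ⟨w, hw⟩ := hc _ hA (F.Φ * ι) (FLTA.Galois.isFrobeniusAt_mul_inertia hΦ hι)
    rw [c.map_mul, hv, mul_smul, F.inertia ι hι w] at hw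
    have h1 : F.Φ • c.toFun ι = F.Φ • (w - v) - (w - v) := by
      rw [smul_sub]
      linear_combination (norm := abel) hw
    have h2 : c.toFun ι = F.Φ • (F.Φ • (w - v) - (w - v)) := by
      rw [← h1, frobenius_involutive hE hn hq hΦ]
    rw [smul_sub, frobenius_involutive hE hn hq hΦ] at h2
    have h3 : c.toFun ι = F.Φ • (w - v) - (w - v) := by
      rw [h2, ← tors2_neg (F.Φ • (w - v) - (w - v))]
      abel
    rw [h3]
    exact himg _
  have hcne : ¬ ∀ ι ∈ (padicPlace q).inertiaSubgroupIn ℚ, c.toFun ι = 0 := fun h =>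
    hcr (unramAt_of_forall_inertia hq.prime hq2 hq.good c hA h)
  obtain ⟨ex, Ax, Bx, hxc⟩ := F.exists_fn hE (hα.sq_equivariant.mono le_top)
  obtain ⟨ec, Ac, Bc, hcc⟩ := F.exists_fn hE (hβ.sq_equivariant.mono le_top)
  obtain ⟨hex, hABx⟩ := TransFrame.IsCoords.ne_zero hxc hα.sq_ne_zero
  obtain ⟨hec, hABc⟩ := TransFrame.IsCoords.ne_zero hcc hβ.sq_ne_zero
  obtain ⟨hvex, mx, hmx, hmx'⟩ := TransFrame.IsCoords.parity hq2 hq.good hq.nonsquare hα hxc
    fun ι hι => Or.inl (hx0 ι hι)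
  obtain ⟨hvec, mc, hmc, hmc'⟩ := TransFrame.IsCoords.parity hq2 hq.good hq.nonsquare hβ hcc hcI
  have hmx2 : Even mx := hmx'.mpr hx0
  have hmc2 : ¬ Even mc := fun h => hcne (hmc'.mp h)
  have hNx : ¬ IsSquare (Ax ^ 2 - (E.Δ : ℚ_[q]) * Bx ^ 2) :=
    TransFrame.IsCoords.not_isSquare_norm hα hxc hxΦ
  obtain ⟨hNx0, -⟩ := even_valuation_norm hq.nonsquare hABx
  obtain ⟨hNc0, -⟩ := even_valuation_norm hq.nonsquare hABc
  have hΔ0 : (E.Δ : ℚ_[q]) ≠ 0 := Int.cast_ne_zero.mpr hE.Δ_ne_zero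
  have hxy := TransFrame.IsCoords.mul hxc hcc
  set Nx := Ax ^ 2 - (E.Δ : ℚ_[q]) * Bx ^ 2 with hNxdef
  set Nc := Ac ^ 2 - (E.Δ : ℚ_[q]) * Bc ^ 2 with hNcdef
  have hNxy : (Ax * Ac + (E.Δ : ℚ_[q]) * (Bx * Bc)) ^ 2 -
      (E.Δ : ℚ_[q]) * (Ax * Bc + Bx * Ac) ^ 2 = Nx * Nc := by
    simp only [hNxdef, hNcdef]; ring
  have h1 : (padicData q).Isotropic (1 : NzTors E → Qbar) := by
    refine (TransFrame.IsCoords.isotropic_iff hE hq2 hq.nonsquare (fun _ => one_ne_zero)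
      (F.isCoords_one) (m := 0) ?_).mpr (Or.inl ?_)
    · simp
    · simp
  have ha : (padicData q).Isotropic (α ^ 2) :=
    (TransFrame.IsCoords.isotropic_iff hE hq2 hq.nonsquare hα.sq_ne_zero hxc hmx).mpr
      (Or.inl (hvex.sub hmx2))
  have hb : (padicData q).Isotropic (β ^ 2) ↔ IsSquare (-(E.Δ : ℚ_[q]) * Nc) := by
    rw [TransFrame.IsCoords.isotropic_iff hE hq2 hq.nonsquare hβ.sq_ne_zero hcc hmc, or_iff_right]
    exact fun h => hmc2 ((Int.even_sub.mp h).mp hvec)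
  have hab : (padicData q).Isotropic (α ^ 2 * β ^ 2) ↔ ¬ IsSquare (-(E.Δ : ℚ_[q]) * Nc) := by
    rw [TransFrame.IsCoords.isotropic_iff (a := α ^ 2 * β ^ 2) hE hq2 hq.nonsquare
      (fun P => mul_ne_zero (hα.sq_ne_zero P) (hβ.sq_ne_zero P)) hxy (m := mx + mc) (by
        rw [hNxy, Padic.valuation_mul hNx0 hNc0, hmx, hmc]; ring), hNxy, or_iff_right]
    · rw [show -(E.Δ : ℚ_[q]) * (Nx * Nc) = -(E.Δ : ℚ_[q]) * Nc * Nx by ring]
      have hvs : Even (-(E.Δ : ℚ_[q]) * Nc).valuation := by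
        rw [Padic.valuation_mul (neg_ne_zero.mpr hΔ0) hNc0, hmc, ← Int.cast_neg,
          Padic.valuation_intCast,
          padicValInt.eq_zero_of_not_dvd (fun h => hq.good (dvd_neg.mp h))]
        exact ⟨mc, by push_cast; ring⟩
      exact isSquare_mul_iff_not hq2 (mul_ne_zero (neg_ne_zero.mpr hΔ0) hNc0) hNx0 hvs
        ⟨mx, by rw [hmx]; ring⟩ hNx
    · intro h
      rw [Padic.valuation_mul hex hec, Int.even_sub, Int.even_add, Int.even_add] at h
      tauto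
  exact pairing_eq_one_of h1 ha hb hab

end FLTA.LT2
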