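import Mathlib

/-!
# The quadratic Hilbert symbol on `ℚ_p`: definition and bilinearity

The symbol takes values in `ZMod 2` and is given by the classical explicit formulas.
-/

set_option autoImplicit false

namespace FLTA.LT2

/-- A sign as an element of `ZMod 2`. -/
def sgnBit (s : ℤ) : ZMod 2 := if s = -1 then 1 else 0

/-- The residue character modulo `4` on natural numbers, additively. -/
def eps8 (n : ℕ) : ZMod 2 := sgnBit (ZMod.χ₄ (n : ZMod 4))

/-- The second residue character modulo `8` on natural numbers, additively. -/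
def omega8 (n : ℕ) : ZMod 2 := sgnBit (ZMod.χ₈ (n : ZMod 8))

lemma sgnBit_mul {s t : ℤ} (hs : s = 1 ∨ s = -1) (ht : t = 1 ∨ t = -1) :
    sgnBit (s * t) = sgnBit s + sgnBit t := by
  rcases hs with rfl | rfl <;> rcases ht with rfl | rfl <;> decide

variable {p : ℕ} [Fact p.Prime]

lemma norm_padicUnit (c : ℚ_[p]ˣ) :
    ‖((p : ℚ_[p]) ^ (-Padic.valuation (c : ℚ_[p]))) * (c : ℚ_[p])‖ = 1 := by
  rw [norm_mul, norm_zpow, Padic.norm_p, Padic.norm_eq_zpow_neg_valuation (Units.ne_zero c),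
    inv_zpow, ← zpow_neg, neg_neg, ← zpow_add₀ (Nat.cast_ne_zero.2 (Fact.out : p.Prime).ne_zero),
    add_neg_cancel, zpow_zero]

/-- The unit part of an element of `ℚ_pˣ`. -/
noncomputable def padicUnit : ℚ_[p]ˣ →* ℤ_[p]ˣ :=
  MonoidHom.mk' (fun c => PadicInt.mkUnits (norm_padicUnit c)) fun a b => by
    apply Units.ext
    apply Subtype.ext
    simp only [Units.val_mul, PadicInt.coe_mul, PadicInt.mkUnits_eq,
      Padic.valuation_mul (Units.ne_zero a) (Units.ne_zero b), neg_add,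
      zpow_add₀ (show (p : ℚ_[p]) ≠ 0 from Nat.cast_ne_zero.2 (Fact.out : p.Prime).ne_zero)]
    ring

lemma coe_padicUnit (c : ℚ_[p]ˣ) :
    (((padicUnit c : ℤ_[p]ˣ) : ℤ_[p]) : ℚ_[p]) =
      ((p : ℚ_[p]) ^ (-Padic.valuation (c : ℚ_[p]))) * (c : ℚ_[p]) :=
  PadicInt.mkUnits_eq (norm_padicUnit c)

lemma eq_zpow_mul_padicUnit (c : ℚ_[p]ˣ) :
    (c : ℚ_[p]) = (p : ℚ_[p]) ^ Padic.valuation (c : ℚ_[p]) *
      (((padicUnit c : ℤ_[p]ˣ) : ℤ_[p]) : ℚ_[p]) := by
  rw [coe_padicUnit, ← mul_assoc,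
    ← zpow_add₀ (Nat.cast_ne_zero.2 (Fact.out : p.Prime).ne_zero), add_neg_cancel, zpow_zero,
    one_mul]

/-- The parity of the valuation. -/
noncomputable def parityVal (c : ℚ_[p]ˣ) : ZMod 2 := (Padic.valuation (c : ℚ_[p]) : ZMod 2)

lemma parityVal_mul (a b : ℚ_[p]ˣ) : parityVal (a * b) = parityVal a + parityVal b := by
  simp [parityVal, Padic.valuation_mul (Units.ne_zero a) (Units.ne_zero b)]

/-- The residue of the unit part modulo `p`. -/
noncomputable def unitResidue (c : ℚ_[p]ˣ) : ZMod p :=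
  PadicInt.toZMod ((padicUnit c : ℤ_[p]ˣ) : ℤ_[p])

lemma unitResidue_ne_zero (c : ℚ_[p]ˣ) : unitResidue c ≠ 0 :=
  ((padicUnit c).isUnit.map (PadicInt.toZMod (p := p))).ne_zero

lemma unitResidue_mul (a b : ℚ_[p]ˣ) : unitResidue (a * b) = unitResidue a * unitResidue b := by
  simp [unitResidue]

/-- Whether a residue is a non-square, additively. -/
noncomputable def legBit (x : ZMod p) : ZMod 2 := sgnBit (quadraticChar (ZMod p) x)

lemma legBit_mul {x y : ZMod p} (hx : x ≠ 0) (hy : y ≠ 0) :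
    legBit (x * y) = legBit x + legBit y := by
  rw [legBit, map_mul, sgnBit_mul (quadraticChar_dichotomy hx) (quadraticChar_dichotomy hy)]
  rfl

lemma legBit_eq_zero_iff {x : ZMod p} (hx : x ≠ 0) : legBit x = 0 ↔ IsSquare x := by
  rw [← quadraticChar_one_iff_isSquare hx, legBit]
  rcases quadraticChar_dichotomy hx with h | h <;> rw [h] <;> decide

/-- The residue of the unit part modulo `p ^ 3`, as a natural number. -/
noncomputable def unitResidue8 (c : ℚ_[p]ˣ) : ℕ :=
  (PadicInt.toZModPow 3 ((padicUnit c : ℤ_[p]ˣ) : ℤ_[p])).val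

/-- `(u - 1) / 2` on unit parts. -/
noncomputable def epsBit (c : ℚ_[p]ˣ) : ZMod 2 := eps8 (unitResidue8 c)

/-- `(u² - 1) / 8` on unit parts. -/
noncomputable def omegaBit (c : ℚ_[p]ˣ) : ZMod 2 := omega8 (unitResidue8 c)

lemma eps8_omega8_mul : ∀ x y : ZMod (2 ^ 3), IsUnit x → IsUnit y →
    eps8 (x * y).val = eps8 x.val + eps8 y.val ∧
      omega8 (x * y).val = omega8 x.val + omega8 y.val := by
  have h : ∀ x y : ZMod (2 ^ 3), x.val % 2 = 1 → y.val % 2 = 1 →
      eps8 (x * y).val = eps8 x.val + eps8 y.val ∧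
        omega8 (x * y).val = omega8 x.val + omega8 y.val := by decide
  have hu : ∀ x : ZMod (2 ^ 3), IsUnit x → x.val % 2 = 1 := fun x hx => by
    obtain ⟨u, rfl⟩ := hx
    exact Nat.odd_iff.mp (Nat.Coprime.odd_of_right (Nat.Coprime.coprime_dvd_right
      (by norm_num : 2 ∣ 2 ^ 3) (ZMod.val_coe_unit_coprime u)))
  exact fun x y hx hy => h x y (hu x hx) (hu y hy)

lemma epsBit_mul (a b : ℚ_[2]ˣ) : epsBit (a * b) = epsBit a + epsBit b := by
  simp only [epsBit, unitResidue8, map_mul, Units.val_mul]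
  exact (eps8_omega8_mul _ _ ((padicUnit a).isUnit.map _) ((padicUnit b).isUnit.map _)).1

lemma omegaBit_mul (a b : ℚ_[2]ˣ) : omegaBit (a * b) = omegaBit a + omegaBit b := by
  simp only [omegaBit, unitResidue8, map_mul, Units.val_mul]
  exact (eps8_omega8_mul _ _ ((padicUnit a).isUnit.map _) ((padicUnit b).isUnit.map _)).2

/-- The quadratic Hilbert symbol on `ℚ_p`, with values in `ZMod 2`. -/
noncomputable def hilbert (a b : ℚ_[p]ˣ) : ZMod 2 :=
  if p = 2 then epsBit a * epsBit b + parityVal a * omegaBit b + parityVal b * omegaBit a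
  else parityVal a * parityVal b * legBit (-1 : ZMod p) + parityVal a * legBit (unitResidue b) +
    parityVal b * legBit (unitResidue a)

lemma hilbert_two (a b : ℚ_[2]ˣ) : hilbert a b =
    epsBit a * epsBit b + parityVal a * omegaBit b + parityVal b * omegaBit a := if_pos rfl

lemma hilbert_odd (hp : p ≠ 2) (a b : ℚ_[p]ˣ) : hilbert a b =
    parityVal a * parityVal b * legBit (-1 : ZMod p) + parityVal a * legBit (unitResidue b) +
      parityVal b * legBit (unitResidue a) := if_neg hp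

theorem hilbert_comm (a b : ℚ_[p]ˣ) : hilbert a b = hilbert b a := by
  unfold hilbert
  split_ifs <;> ring

theorem hilbert_mul_left (a a' b : ℚ_[p]ˣ) :
    hilbert (a * a') b = hilbert a b + hilbert a' b := by
  by_cases hp : p = 2
  · subst hp
    simp only [hilbert_two, epsBit_mul, omegaBit_mul, parityVal_mul]
    ring
  · simp only [hilbert_odd hp, parityVal_mul, unitResidue_mul,
      legBit_mul (unitResidue_ne_zero a) (unitResidue_ne_zero a')]
    ring

theorem hilbert_mul_right (a b b' : ℚ_[p]ˣ) :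
    hilbert a (b * b') = hilbert a b + hilbert a b' := by
  rw [hilbert_comm, hilbert_mul_left, hilbert_comm b, hilbert_comm b']

theorem hilbert_one_left (b : ℚ_[p]ˣ) : hilbert 1 b = 0 := by
  have h := hilbert_mul_left 1 1 b
  rw [mul_one] at h
  exact left_eq_add.mp h

theorem hilbert_one_right (a : ℚ_[p]ˣ) : hilbert a 1 = 0 := by
  rw [hilbert_comm, hilbert_one_left]

theorem hilbert_sq_left (a b : ℚ_[p]ˣ) : hilbert (a ^ 2) b = 0 := by
  rw [sq, hilbert_mul_left]
  exact CharTwo.add_self_eq_zero _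

theorem hilbert_sq_right (a b : ℚ_[p]ˣ) : hilbert a (b ^ 2) = 0 := by
  rw [hilbert_comm, hilbert_sq_left]

theorem hilbert_inv_left (a b : ℚ_[p]ˣ) : hilbert a⁻¹ b = hilbert a b := by
  have h := hilbert_mul_left a⁻¹ a b
  rw [inv_mul_cancel, hilbert_one_left] at h
  exact CharTwo.add_eq_zero.mp h.symm

theorem hilbert_inv_right (a b : ℚ_[p]ˣ) : hilbert a b⁻¹ = hilbert a b := by
  rw [hilbert_comm, hilbert_inv_left, hilbert_comm]

/-- The Hilbert symbol at the real place. -/
noncomputable def hilbertReal (a b : ℝˣ) : ZMod 2 :=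
  if (a : ℝ) < 0 ∧ (b : ℝ) < 0 then 1 else 0

theorem hilbertReal_comm (a b : ℝˣ) : hilbertReal a b = hilbertReal b a := by
  simp only [hilbertReal, and_comm]

theorem hilbertReal_mul_left (a a' b : ℝˣ) :
    hilbertReal (a * a') b = hilbertReal a b + hilbertReal a' b := by
  rcases lt_or_gt_of_ne a.ne_zero with ha | ha <;> rcases lt_or_gt_of_ne a'.ne_zero with ha' | ha' <;>
    by_cases hb : (b : ℝ) < 0 <;>
    simp [hilbertReal, hb, ha, ha', mul_neg_iff, ha.not_gt, ha'.not_gt] <;> decide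

theorem hilbertReal_mul_right (a b b' : ℝˣ) :
    hilbertReal a (b * b') = hilbertReal a b + hilbertReal a b' := by
  rw [hilbertReal_comm, hilbertReal_mul_left, hilbertReal_comm b, hilbertReal_comm b']

theorem hilbertReal_eq_zero_iff (a b : ℝˣ) :
    hilbertReal a b = 0 ↔ 0 < (a : ℝ) ∨ 0 < (b : ℝ) := by
  rcases lt_or_gt_of_ne a.ne_zero with ha | ha <;> rcases lt_or_gt_of_ne b.ne_zero with hb | hb <;>
    simp [hilbertReal, ha, hb, ha.not_gt, hb.not_gt]

theorem hilbertReal_eq_zero_of_norm (a b : ℝˣ) (x y : ℝ) (h : (b : ℝ) = x ^ 2 - a * y ^ 2) :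
    hilbertReal a b = 0 := by
  rw [hilbertReal_eq_zero_iff]
  by_contra hn
  push Not at hn
  have ha : (a : ℝ) < 0 := lt_of_le_of_ne hn.1 a.ne_zero
  have hb : (b : ℝ) < 0 := lt_of_le_of_ne hn.2 b.ne_zero
  nlinarith [sq_nonneg x, sq_nonneg y]

end FLTA.LT2
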