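import Mathlib

/-!
# Solvability of `z² = a x² + b y²`
-/

set_option autoImplicit false

namespace FLTA.LT2

/-- The conic `z² = a x² + b y²` has a non-trivial point. -/
def IsHilbertTrivial {K : Type*} [Field K] (a b : K) : Prop :=
  ∃ x y z : K, (x ≠ 0 ∨ y ≠ 0 ∨ z ≠ 0) ∧ z ^ 2 = a * x ^ 2 + b * y ^ 2

open Classical in
/-- `0` if the conic `z² = a x² + b y²` has a non-trivial point, `1` otherwise. -/
noncomputable def hilbertSign {K : Type*} [Field K] (a b : K) : ZMod 2 :=
  if IsHilbertTrivial a b then 0 else 1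

lemma hilbertSign_eq_zero_iff {K : Type*} [Field K] (a b : K) :
    hilbertSign a b = 0 ↔ IsHilbertTrivial a b := by
  unfold hilbertSign
  split_ifs with h <;> simp [h]

/-- `Nat.Primes` are prime, as a fact; meant to be used as a local instance. -/
theorem factPrimes (p : Nat.Primes) : Fact (p : ℕ).Prime := ⟨p.2⟩

end FLTA.LT2
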