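import Fermat.Agent.LT2.ReciprocityHilbertBasic
import Fermat.Agent.LT2.ReciprocityHilbertDefs

/-!
# The explicit symbol decides solvability of `z² = a x² + b y²` over `ℚ_p`
-/

set_option autoImplicit false

namespace FLTA.LT2

open Polynomial

variable {p : ℕ} [Fact p.Prime]

lemma zmod2_cases (x : ZMod 2) : x = 0 ∨ x = 1 := by
  revert x; decide

/-- A unit of `ℤ_p` as a unit of `ℚ_p`. -/
noncomputable def ofPadicUnit : ℤ_[p]ˣ →* ℚ_[p]ˣ :=
  Units.map (PadicInt.Coe.ringHom : ℤ_[p] →+* ℚ_[p])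

lemma coe_ofPadicUnit (u : ℤ_[p]ˣ) : (ofPadicUnit u : ℚ_[p]) = ((u : ℤ_[p]) : ℚ_[p]) := rfl

lemma valuation_ofPadicUnit (u : ℤ_[p]ˣ) :
    Padic.valuation (ofPadicUnit u : ℚ_[p]) = 0 := by
  have h := Padic.norm_eq_zpow_neg_valuation (ofPadicUnit u).ne_zero
  rw [coe_ofPadicUnit, ← PadicInt.norm_def, PadicInt.isUnit_iff.mp u.isUnit] at h
  have h2 := (zpow_right_inj₀ (by exact_mod_cast (Fact.out : p.Prime).pos)
    (by exact_mod_cast (Fact.out : p.Prime).one_lt.ne')).mp (h.symm.trans (zpow_zero (p : ℝ)).symm)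
  simpa [coe_ofPadicUnit] using h2

lemma parityVal_ofPadicUnit (u : ℤ_[p]ˣ) : parityVal (ofPadicUnit u) = 0 := by
  simp [parityVal, valuation_ofPadicUnit]

lemma padicUnit_ofPadicUnit (u : ℤ_[p]ˣ) : padicUnit (ofPadicUnit u) = u := by
  refine Units.ext (Subtype.ext ?_)
  rw [coe_padicUnit, valuation_ofPadicUnit, neg_zero, zpow_zero, one_mul]
  rfl

/-- Units congruent to a square modulo `p ≠ 2` are squares. -/
lemma exists_sq_eq_of_odd (hp : p ≠ 2) (u : ℤ_[p]ˣ)
    (h : IsSquare (PadicInt.toZMod (u : ℤ_[p]))) : ∃ w : ℤ_[p], w ^ 2 = (u : ℤ_[p]) := by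
  obtain ⟨x, hx⟩ := h
  obtain ⟨a, rfl⟩ := ZMod.ringHom_surjective (PadicInt.toZMod (p := p)) x
  have hsmall : ∀ z : ℤ_[p], PadicInt.toZMod z = 0 → ‖z‖ < 1 := fun z hz => by
    rw [PadicInt.norm_lt_one_iff_dvd, ← Ideal.mem_span_singleton, ← PadicInt.maximalIdeal_eq_span_p,
      ← PadicInt.ker_toZMod]
    exact hz
  have hbig : ∀ z : ℤ_[p], PadicInt.toZMod z ≠ 0 → ‖z‖ = 1 := fun z hz => by
    refine le_antisymm (PadicInt.norm_le_one z) (not_lt.mp fun hlt => hz ?_)
    rw [← RingHom.mem_ker, PadicInt.ker_toZMod, PadicInt.maximalIdeal_eq_span_p,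
      Ideal.mem_span_singleton, ← PadicInt.norm_lt_one_iff_dvd]
    exact hlt
  have hu0 : PadicInt.toZMod (u : ℤ_[p]) ≠ 0 := (u.isUnit.map _).ne_zero
  have h2 : (2 : ZMod p) ≠ 0 := Ring.two_ne_zero (by rwa [ZMod.ringChar_zmod_n])
  have ha0 : PadicInt.toZMod a ≠ 0 := fun h0 => hu0 (by rw [hx, h0, zero_mul])
  obtain ⟨w, hw, -⟩ := hensels_lemma (p := p) (F := X ^ 2 - C (u : ℤ_[p])) (a := a) (by
    have hd : ‖aeval a (derivative (X ^ 2 - C (u : ℤ_[p])))‖ = 1 := by
      refine hbig _ ?_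
      simp [ha0, h2, map_ofNat, one_add_one_eq_two]
    rw [hd, one_pow]
    refine hsmall _ ?_
    simp [hx, sq])
  refine ⟨w, ?_⟩
  simpa [sub_eq_zero] using hw

/-- Units congruent to one modulo `8` are squares in `ℤ_2`. -/
lemma exists_sq_eq_of_two (u : ℤ_[2]ˣ) (h : PadicInt.toZModPow 3 (u : ℤ_[2]) = 1) :
    ∃ w : ℤ_[2], w ^ 2 = (u : ℤ_[2]) := by
  obtain ⟨c, hc⟩ : (2 : ℤ_[2]) ^ 3 ∣ 1 - (u : ℤ_[2]) := by
    have h0 : (1 : ℤ_[2]) - (u : ℤ_[2]) ∈ RingHom.ker (PadicInt.toZModPow (p := 2) 3) := by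
      rw [RingHom.mem_ker, map_sub, map_one, h, sub_self]
    rw [PadicInt.ker_toZModPow, Ideal.mem_span_singleton] at h0
    exact_mod_cast h0
  have h2 : ‖(2 : ℤ_[2])‖ = 2⁻¹ := by
    have := PadicInt.norm_p (p := 2)
    exact_mod_cast this
  obtain ⟨w, hw, -⟩ := hensels_lemma (p := 2) (F := X ^ 2 - C (u : ℤ_[2])) (a := (1 : ℤ_[2])) (by
    have e1 : aeval (1 : ℤ_[2]) (X ^ 2 - C (u : ℤ_[2])) = 1 - (u : ℤ_[2]) := by simp
    have e2 : aeval (1 : ℤ_[2]) (derivative (X ^ 2 - C (u : ℤ_[2]))) = 2 := by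
      simp [derivative_X_pow, one_add_one_eq_two]
    rw [e1, e2, hc, norm_mul, norm_pow, h2]
    nlinarith [PadicInt.norm_le_one c, norm_nonneg c])
  refine ⟨w, ?_⟩
  simpa [sub_eq_zero] using hw

lemma unitResidue_neg_one : unitResidue (-1 : ℚ_[p]ˣ) = -1 := by
  have h : (-1 : ℚ_[p]ˣ) = ofPadicUnit (-1) := Units.ext (by simp [coe_ofPadicUnit])
  rw [h, unitResidue, padicUnit_ofPadicUnit, Units.val_neg, Units.val_one, map_neg, map_one]

lemma parityVal_neg_one : parityVal (-1 : ℚ_[p]ˣ) = 0 := by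
  have h : (-1 : ℚ_[p]ˣ) = ofPadicUnit (-1) := Units.ext (by simp [coe_ofPadicUnit])
  rw [h, parityVal_ofPadicUnit]

lemma epsBit_neg_one : epsBit (-1 : ℚ_[2]ˣ) = 1 ∧ omegaBit (-1 : ℚ_[2]ˣ) = 0 := by
  have h : (-1 : ℚ_[2]ˣ) = ofPadicUnit (-1) := Units.ext (by simp [coe_ofPadicUnit])
  rw [h, epsBit, omegaBit, unitResidue8, padicUnit_ofPadicUnit, Units.val_neg, Units.val_one,
    map_neg, map_one]
  decide

theorem hilbert_neg_self (a : ℚ_[p]ˣ) : hilbert a (-a) = 0 := by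
  have h : -a = -1 * a := (neg_one_mul a).symm
  by_cases hp : p = 2
  · subst hp
    rw [h, hilbert_mul_right, hilbert_two, hilbert_two, epsBit_neg_one.1, epsBit_neg_one.2,
      parityVal_neg_one]
    rcases zmod2_cases (epsBit a) with e | e <;> rcases zmod2_cases (omegaBit a) with o | o <;>
      rcases zmod2_cases (parityVal a) with v | v <;> rw [e, o, v] <;> decide
  · rw [h, hilbert_mul_right, hilbert_odd hp, hilbert_odd hp, parityVal_neg_one,
      unitResidue_neg_one]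
    rcases zmod2_cases (parityVal a) with v | v <;>
      rcases zmod2_cases (legBit (-1 : ZMod p)) with l | l <;>
      rcases zmod2_cases (legBit (unitResidue a)) with o | o <;> rw [v, l, o] <;> decide

lemma eps8_steinberg : ∀ U : ZMod (2 ^ 3), U.val % 2 = 1 → ∀ n : Fin 4, n.val ≠ 0 →
    eps8 U.val * eps8 (1 - 2 ^ n.val * U).val +
      (n.val : ZMod 2) * omega8 (1 - 2 ^ n.val * U).val = 0 := by
  decide

lemma eps8_omega8_one : eps8 (1 : ZMod (2 ^ 3)).val = 0 ∧ omega8 (1 : ZMod (2 ^ 3)).val = 0 := by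
  decide

lemma zmod2_eq_one_of_ne_zero : ∀ x : ZMod 2, x ≠ 0 → x = 1 := by decide

lemma zmod2_one_add_one : (1 : ZMod 2) + 1 ≠ 1 := by decide

lemma zmod8_val_odd {x : ZMod (2 ^ 3)} (hx : IsUnit x) : x.val % 2 = 1 := by
  obtain ⟨u, rfl⟩ := hx
  exact Nat.odd_iff.mp (Nat.Coprime.odd_of_right (Nat.Coprime.coprime_dvd_right
    (by norm_num : 2 ∣ 2 ^ 3) (ZMod.val_coe_unit_coprime u)))

private lemma hilbert_steinberg_of_pos {a b : ℚ_[p]ˣ} (h : (a : ℚ_[p]) + b = 1)
    (ha : 0 < Padic.valuation (a : ℚ_[p])) : hilbert a b = 0 := by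
  obtain ⟨n, hn⟩ := Int.eq_ofNat_of_zero_le ha.le
  have hn0 : n ≠ 0 := by omega
  have hz : (a : ℚ_[p]) = (((p : ℤ_[p]) ^ n * (padicUnit a : ℤ_[p]) : ℤ_[p]) : ℚ_[p]) := by
    rw [PadicInt.coe_mul, PadicInt.coe_pow, PadicInt.coe_natCast]
    conv_lhs => rw [eq_zpow_mul_padicUnit a, hn, zpow_natCast]
  set z : ℤ_[p] := (p : ℤ_[p]) ^ n * (padicUnit a : ℤ_[p]) with hzdef
  have hu : IsUnit (1 - z) := by
    rw [PadicInt.isUnit_iff]
    refine le_antisymm (PadicInt.norm_le_one _) (not_lt.mp fun hlt => ?_)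
    have h1 : (p : ℤ_[p]) ∣ 1 := by
      have h2 := dvd_add ((PadicInt.norm_lt_one_iff_dvd _).mp hlt)
        ((dvd_pow_self (p : ℤ_[p]) hn0).mul_right (padicUnit a : ℤ_[p]))
      rwa [← hzdef, sub_add_cancel] at h2
    exact PadicInt.p_nonunit (isUnit_of_dvd_one h1)
  have hb : b = ofPadicUnit hu.unit := by
    refine Units.ext ?_
    rw [coe_ofPadicUnit, IsUnit.unit_spec, PadicInt.coe_sub, PadicInt.coe_one, ← hz, ← h]
    ring
  have hpar : parityVal a = (n : ZMod 2) := by simp [parityVal, hn]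
  by_cases hp : p = 2
  · subst hp
    rw [hilbert_two, hb, parityVal_ofPadicUnit, zero_mul, add_zero, hpar, epsBit, epsBit, omegaBit,
      unitResidue8, unitResidue8, padicUnit_ofPadicUnit, IsUnit.unit_spec, hzdef, map_sub, map_one,
      map_mul, map_pow, map_natCast, Nat.cast_ofNat]
    have hU : IsUnit (PadicInt.toZModPow 3 (padicUnit a : ℤ_[2])) := (padicUnit a).isUnit.map _
    by_cases hn3 : n < 3
    · exact eps8_steinberg _ (zmod8_val_odd hU) ⟨n, by omega⟩ hn0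
    · obtain ⟨j, rfl⟩ := Nat.exists_eq_add_of_le (not_lt.mp hn3)
      rw [pow_add, show (2 : ZMod (2 ^ 3)) ^ 3 = 0 from rfl, zero_mul, zero_mul, sub_zero,
        eps8_omega8_one.1, eps8_omega8_one.2, mul_zero, mul_zero, add_zero]
  · have h1 : legBit (1 : ZMod p) = 0 := (legBit_eq_zero_iff one_ne_zero).mpr IsSquare.one
    rw [hilbert_odd hp, hb, parityVal_ofPadicUnit, unitResidue, padicUnit_ofPadicUnit,
      IsUnit.unit_spec, hzdef, map_sub, map_one, map_mul, map_pow, map_natCast, ZMod.natCast_self,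
      zero_pow hn0, zero_mul, sub_zero, h1]
    ring

theorem hilbert_steinberg {a b : ℚ_[p]ˣ} (h : (a : ℚ_[p]) + b = 1) : hilbert a b = 0 := by
  have aux : ∀ a b : ℚ_[p]ˣ, (a : ℚ_[p]) + b = 1 → Padic.valuation (a : ℚ_[p]) ≠ 0 →
      hilbert a b = 0 := by
    intro a b h hne
    rcases lt_or_gt_of_ne hne with hlt | hgt
    · have h' : ((a⁻¹ : ℚ_[p]ˣ) : ℚ_[p]) + ((b * (-a)⁻¹ : ℚ_[p]ˣ) : ℚ_[p]) = 1 := by
        rw [Units.val_mul, Units.val_inv_eq_inv_val, Units.val_inv_eq_inv_val, Units.val_neg,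
          ← eq_sub_iff_add_eq'] at *
        field_simp
        rw [h]
        ring
      have hpos : 0 < Padic.valuation ((a⁻¹ : ℚ_[p]ˣ) : ℚ_[p]) := by
        have h0 := Padic.valuation_mul (p := p) (a⁻¹).ne_zero a.ne_zero
        rw [← Units.val_mul, inv_mul_cancel, Units.val_one, Padic.valuation_one] at h0
        omega
      have h2 := hilbert_steinberg_of_pos h' hpos
      rw [hilbert_inv_left, hilbert_mul_right, hilbert_inv_right, hilbert_neg_self, add_zero] at h2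
      exact h2
    · exact hilbert_steinberg_of_pos h hgt
  by_cases ha : Padic.valuation (a : ℚ_[p]) = 0
  swap
  · exact aux a b h ha
  by_cases hb : Padic.valuation (b : ℚ_[p]) = 0
  swap
  · rw [hilbert_comm]
    exact aux b a (by rwa [add_comm]) hb
  have pa : parityVal a = 0 := by simp [parityVal, ha]
  have pb : parityVal b = 0 := by simp [parityVal, hb]
  by_cases hp : p = 2
  · subst hp
    exfalso
    have ea := eq_zpow_mul_padicUnit a
    have eb := eq_zpow_mul_padicUnit b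
    rw [ha, zpow_zero, one_mul] at ea
    rw [hb, zpow_zero, one_mul] at eb
    rw [ea, eb, ← PadicInt.coe_add, ← PadicInt.coe_one] at h
    have h2 := congrArg (PadicInt.toZMod (p := 2)) (Subtype.ext h)
    rw [map_add, map_one, zmod2_eq_one_of_ne_zero _ (((padicUnit a).isUnit.map _).ne_zero),
      zmod2_eq_one_of_ne_zero _ (((padicUnit b).isUnit.map _).ne_zero)] at h2
    exact zmod2_one_add_one h2
  · rw [hilbert_odd hp, pa, pb]
    ring

/-- Norms from `ℚ_p(√a)` have trivial symbol with `a`. -/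
theorem hilbert_eq_zero_of_norm {a b : ℚ_[p]ˣ} {x y : ℚ_[p]}
    (h : (b : ℚ_[p]) = x ^ 2 - a * y ^ 2) : hilbert a b = 0 := by
  by_cases hy : y = 0
  · have hx : x ≠ 0 := fun hx => b.ne_zero (by rw [h, hx, hy]; ring)
    have : b = (Units.mk0 x hx) ^ 2 := Units.ext (by simp [h, hy])
    rw [this, hilbert_sq_right]
  by_cases hx : x = 0
  · have : b = -a * (Units.mk0 y hy) ^ 2 := Units.ext (by simp [h, hx])
    rw [this, hilbert_mul_right, hilbert_sq_right, hilbert_neg_self, add_zero]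
  · have e : ((a * (Units.mk0 (y / x) (div_ne_zero hy hx)) ^ 2 : ℚ_[p]ˣ) : ℚ_[p]) +
        ((b * ((Units.mk0 x hx) ^ 2)⁻¹ : ℚ_[p]ˣ) : ℚ_[p]) = 1 := by
      simp only [Units.val_mul, Units.val_pow_eq_pow_val, Units.val_mk0, Units.val_inv_eq_inv_val, h]
      field_simp
      ring
    have h2 := hilbert_steinberg e
    rwa [hilbert_mul_left, hilbert_sq_left, add_zero, hilbert_mul_right, hilbert_inv_right,
      hilbert_sq_right, add_zero] at h2

lemma exists_rep_two : ∀ W U : ZMod (2 ^ 3), W.val % 2 = 1 → U.val % 2 = 1 → ∀ α : Fin 2,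
    eps8 W.val * eps8 U.val + (α.val : ZMod 2) * omega8 U.val = 0 →
      ∃ X Y : ZMod (2 ^ 3), X ^ 2 - 2 ^ α.val * W * Y ^ 2 = U := by
  decide

/-- The unit case of the converse to `hilbert_eq_zero_of_norm`. -/
private lemma exists_norm_unit (w u : ℤ_[p]ˣ) (α : Fin 2)
    (h : (if p = 2 then eps8 (PadicInt.toZModPow 3 (w : ℤ_[p])).val *
          eps8 (PadicInt.toZModPow 3 (u : ℤ_[p])).val +
          (α.val : ZMod 2) * omega8 (PadicInt.toZModPow 3 (u : ℤ_[p])).val
        else (α.val : ZMod 2) * legBit (PadicInt.toZMod (u : ℤ_[p]))) = 0) :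
    ∃ x y : ℤ_[p], (u : ℤ_[p]) = x ^ 2 - (p : ℤ_[p]) ^ α.val * (w : ℤ_[p]) * y ^ 2 := by
  by_cases hp : p = 2
  · subst hp
    rw [if_pos rfl] at h
    obtain ⟨X, Y, hXY⟩ := exists_rep_two _ _ (zmod8_val_odd (w.isUnit.map _))
      (zmod8_val_odd (u.isUnit.map _)) α h
    obtain ⟨x, rfl⟩ := ZMod.ringHom_surjective (PadicInt.toZModPow (p := 2) 3) X
    obtain ⟨y, rfl⟩ := ZMod.ringHom_surjective (PadicInt.toZModPow (p := 2) 3) Y
    set r : ℤ_[2] := x ^ 2 - (2 : ℤ_[2]) ^ α.val * (w : ℤ_[2]) * y ^ 2 with hr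
    have hrU : PadicInt.toZModPow 3 r = PadicInt.toZModPow 3 (u : ℤ_[2]) := by
      rw [hr, ← hXY]
      simp [map_ofNat]
    have hru : IsUnit r := by
      rw [PadicInt.isUnit_iff]
      refine le_antisymm (PadicInt.norm_le_one _) (not_lt.mp fun hlt => ?_)
      obtain ⟨c, hc⟩ := (PadicInt.norm_lt_one_iff_dvd _).mp hlt
      have hodd := zmod8_val_odd (u.isUnit.map (PadicInt.toZModPow (p := 2) 3))
      rw [← hrU, hc, map_mul, map_natCast] at hodd
      revert hodd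
      generalize PadicInt.toZModPow 3 c = z
      revert z
      decide
    obtain ⟨s, hs⟩ := exists_sq_eq_of_two (u * hru.unit⁻¹) (by
      have hri : PadicInt.toZModPow 3 r * PadicInt.toZModPow 3 (hru.unit⁻¹ : ℤ_[2]ˣ).1 = 1 := by
        rw [← map_mul, IsUnit.mul_val_inv, map_one]
      rw [Units.val_mul, map_mul, ← hrU]
      exact hri)
    refine ⟨s * x, s * y, ?_⟩
    rw [Units.val_mul] at hs
    calc (u : ℤ_[2]) = (u : ℤ_[2]) * (hru.unit⁻¹ : ℤ_[2]ˣ).1 * r := by
          rw [mul_assoc, IsUnit.val_inv_mul, mul_one]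
      _ = _ := by rw [← hs, hr]; push_cast; ring
  · rw [if_neg hp] at h
    set U := PadicInt.toZMod (u : ℤ_[p]) with hU
    have hU0 : U ≠ 0 := (u.isUnit.map _).ne_zero
    have hsq : IsSquare U → ∃ x y : ℤ_[p],
        (u : ℤ_[p]) = x ^ 2 - (p : ℤ_[p]) ^ α.val * (w : ℤ_[p]) * y ^ 2 := fun hs => by
      obtain ⟨x, hx⟩ := exists_sq_eq_of_odd hp u hs
      exact ⟨x, 0, by rw [hx]; ring⟩
    by_cases hUs : IsSquare U
    · exact hsq hUs
    have hα : α = 0 := by
      rcases Fin.exists_fin_two.mp ⟨α, rfl⟩ with hα | hα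
      · exact hα
      · exfalso
        rw [hα] at h
        exact hUs ((legBit_eq_zero_iff hU0).mp (by simpa using h))
    subst hα
    set W := PadicInt.toZMod (w : ℤ_[p]) with hW
    have hW0 : W ≠ 0 := (w.isUnit.map _).ne_zero
    obtain ⟨X, Y, hXY⟩ : ∃ X Y : ZMod p, X ^ 2 - W * Y ^ 2 = U := by
      by_cases hn : IsSquare (-W)
      · obtain ⟨t, ht⟩ := hn
        have ht0 : t ≠ 0 := fun ht0 => hW0 (neg_eq_zero.mp (by rw [ht, ht0, zero_mul]))
        obtain ⟨A, B, hAB⟩ := ZMod.sq_add_sq p U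
        refine ⟨A, B / t, ?_⟩
        rw [← hAB, sub_eq_add_neg, ← neg_mul, ht]
        field_simp
      · have hnU : legBit U = 1 := (zmod2_cases _).resolve_left
          fun h0 => hUs ((legBit_eq_zero_iff hU0).mp h0)
        have hnW : legBit (-W) = 1 := (zmod2_cases _).resolve_left
          fun h0 => hn ((legBit_eq_zero_iff (neg_ne_zero.mpr hW0)).mp h0)
        obtain ⟨t, ht⟩ := (legBit_eq_zero_iff (mul_ne_zero hU0 (neg_ne_zero.mpr hW0))).mp (by
          rw [legBit_mul hU0 (neg_ne_zero.mpr hW0), hnU, hnW]; decide)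
        refine ⟨0, t / W, ?_⟩
        rw [zero_pow two_ne_zero, zero_sub, div_pow, sq t, ← ht]
        field_simp
    obtain ⟨x, rfl⟩ := ZMod.ringHom_surjective (PadicInt.toZMod (p := p)) X
    obtain ⟨y, rfl⟩ := ZMod.ringHom_surjective (PadicInt.toZMod (p := p)) Y
    have hbig : ∀ z : ℤ_[p], PadicInt.toZMod z ≠ 0 → IsUnit z := fun z hz => by
      by_contra hnu
      exact hz (RingHom.mem_ker.mp (PadicInt.ker_toZMod (p := p) ▸
        (IsLocalRing.mem_maximalIdeal z).mpr hnu))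
    by_cases hx : PadicInt.toZMod x = 0
    · -- then `-u / w` is a square
      obtain ⟨s, hs⟩ := exists_sq_eq_of_odd hp (-(u * w⁻¹)) ⟨PadicInt.toZMod y, by
        have hwi : W * PadicInt.toZMod ((w⁻¹ : ℤ_[p]ˣ) : ℤ_[p]) = 1 := by
          rw [hW, ← map_mul, ← Units.val_mul, mul_inv_cancel, Units.val_one, map_one]
        rw [Units.val_neg, Units.val_mul, map_neg, map_mul, ← hU, ← hXY, hx]
        linear_combination (PadicInt.toZMod y * PadicInt.toZMod y) * hwi⟩
      refine ⟨0, s, ?_⟩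
      rw [hs, Units.val_neg, Units.val_mul]
      have hwi : (w : ℤ_[p]) * ((w⁻¹ : ℤ_[p]ˣ) : ℤ_[p]) = 1 := w.mul_inv
      simp only [Fin.val_zero, pow_zero, one_mul]
      linear_combination -(u : ℤ_[p]) * hwi
    · have hres : PadicInt.toZMod ((u : ℤ_[p]) + (w : ℤ_[p]) * y ^ 2) = PadicInt.toZMod x ^ 2 := by
        rw [map_add, map_mul, map_pow, ← hU, ← hXY, ← hW]
        ring
      have hru : IsUnit ((u : ℤ_[p]) + (w : ℤ_[p]) * y ^ 2) :=
        hbig _ (by rw [hres]; exact pow_ne_zero 2 hx)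
      obtain ⟨s, hs⟩ := exists_sq_eq_of_odd hp hru.unit ⟨PadicInt.toZMod x, by
        rw [IsUnit.unit_spec, hres, sq]⟩
      refine ⟨s, y, ?_⟩
      rw [hs, IsUnit.unit_spec]
      simp

/-- Elements with trivial symbol with `a` are norms from `ℚ_p(√a)`. -/
theorem exists_norm_of_hilbert_eq_zero {a b : ℚ_[p]ˣ} (h : hilbert a b = 0) :
    ∃ x y : ℚ_[p], (b : ℚ_[p]) = x ^ 2 - a * y ^ 2 := by
  have hp0 : (p : ℚ_[p]) ≠ 0 := Nat.cast_ne_zero.mpr (Fact.out : p.Prime).ne_zero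
  -- reduce to `b` of even valuation
  have core : ∀ a b : ℚ_[p]ˣ, hilbert a b = 0 → parityVal b = 0 →
      ∃ x y : ℚ_[p], (b : ℚ_[p]) = x ^ 2 - a * y ^ 2 := by
    intro a b h hb
    obtain ⟨m, hm⟩ : ∃ m : ℤ, Padic.valuation (b : ℚ_[p]) = 2 * m :=
      (ZMod.intCast_zmod_eq_zero_iff_dvd _ 2).mp hb
    obtain ⟨j, α, hα⟩ : ∃ (j : ℤ) (α : Fin 2), Padic.valuation (a : ℚ_[p]) = 2 * j + (α.val : ℤ) :=
      ⟨Padic.valuation (a : ℚ_[p]) / 2, ⟨(Padic.valuation (a : ℚ_[p]) % 2).toNat, by omega⟩, by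
        simp only
        omega⟩
    have hpar : parityVal a = (α.val : ZMod 2) := by
      rw [parityVal, hα]
      push_cast
      rw [show (2 : ZMod 2) = 0 from rfl, zero_mul, zero_add]
    obtain ⟨x, y, hxy⟩ := exists_norm_unit (padicUnit a) (padicUnit b) α (by
      by_cases hp : p = 2
      · subst hp
        rw [if_pos rfl, ← h, hilbert_two, hb, hpar, zero_mul, add_zero]
        rfl
      · rw [if_neg hp, ← h, hilbert_odd hp, hb, hpar, mul_zero, zero_mul, zero_mul, zero_add,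
          add_zero]
        rfl)
    refine ⟨(p : ℚ_[p]) ^ m * (x : ℚ_[p]), (p : ℚ_[p]) ^ (m - j) * (y : ℚ_[p]), ?_⟩
    conv_lhs => rw [eq_zpow_mul_padicUnit b, hm, hxy]
    conv_rhs => rw [eq_zpow_mul_padicUnit a, hα]
    simp only [PadicInt.coe_sub, PadicInt.coe_mul, PadicInt.coe_pow, PadicInt.coe_natCast,
      zpow_add₀ hp0, zpow_sub₀ hp0, two_mul, zpow_natCast]
    field_simp
  rcases zmod2_cases (parityVal b) with hb | hb
  · exact core a b h hb
  rcases zmod2_cases (parityVal a) with ha | ha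
  · -- exchange the two arguments
    obtain ⟨x, y, hxy⟩ := core b a (by rwa [hilbert_comm]) ha
    by_cases hy : y = 0
    · have hx : x ≠ 0 := fun hx => a.ne_zero (by rw [hxy, hx, hy]; ring)
      refine ⟨((b : ℚ_[p]) + 1) / 2, ((b : ℚ_[p]) - 1) / (2 * x), ?_⟩
      rw [hxy, hy]
      field_simp
      ring
    · refine ⟨x / y, 1 / y, ?_⟩
      rw [hxy]
      field_simp
      ring
  · -- replace `b` by `-a b`
    have hpar : parityVal (-a * b) = 0 := by
      rw [← neg_one_mul a, parityVal_mul, parityVal_mul, parityVal_neg_one, ha, hb]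
      decide
    obtain ⟨x, y, hxy⟩ := core a (-a * b)
      (by rw [hilbert_mul_right, hilbert_neg_self, h, add_zero]) hpar
    refine ⟨y, x / a, ?_⟩
    rw [Units.val_mul, Units.val_neg] at hxy
    field_simp
    linear_combination -hxy

/-- The explicit symbol is the solvability symbol. -/
theorem hilbertSign_eq_hilbert (a b : ℚ_[p]ˣ) :
    hilbertSign (a : ℚ_[p]) (b : ℚ_[p]) = hilbert a b := by
  rcases zmod2_cases (hilbert a b) with h | h
  · rw [h, hilbertSign_eq_zero_iff]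
    obtain ⟨x, y, hxy⟩ := exists_norm_of_hilbert_eq_zero h
    exact ⟨y, 1, x, Or.inr (Or.inl one_ne_zero), by rw [hxy]; ring⟩
  · rw [h]
    refine (zmod2_cases _).resolve_left fun h0 => ?_
    obtain ⟨x, y, z, hne, hz⟩ := (hilbertSign_eq_zero_iff _ _).mp h0
    suffices hilbert a b = 0 from zero_ne_one (this.symm.trans h)
    by_cases hy : y = 0
    · by_cases hx : x = 0
      · rw [hx, hy] at hz
        simp only [zero_pow two_ne_zero, mul_zero, add_zero, sq_eq_zero_iff] at hz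
        simp [hx, hy, hz] at hne
      · have hz0 : z / x ≠ 0 := by
          refine div_ne_zero (fun hz0 => a.ne_zero ?_) hx
          rw [hz0, hy] at hz
          simpa [hx] using hz.symm
        have : a = (Units.mk0 (z / x) hz0) ^ 2 := Units.ext (by
          simp only [Units.val_pow_eq_pow_val, Units.val_mk0, div_pow, hz, hy]
          field_simp
          ring)
        rw [this, hilbert_sq_left]
    · refine hilbert_eq_zero_of_norm (x := z / y) (y := x / y) ?_
      field_simp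
      linear_combination -hz

end FLTA.LT2
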