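import Fermat.Agent.LT2.ReciprocityDefs
import Fermat.Agent.EllTorsion.Card
import Fermat.Agent.EllPoints.TwoTorsion

/-!
# Part E: the three element set, the sign characters and square roots attached to a cocycle
-/

set_option autoImplicit false

open WeierstrassCurve WeierstrassCurve.Affine.Point

open scoped WeierstrassCurve.Affine

namespace FLTA.LT2

local notation "Qbar" => AlgebraicClosure ℚ
local notation "Γℚ" => AlgebraicClosure ℚ ≃ₐ[ℚ] AlgebraicClosure ℚ

variable {E : WeierstrassCurve ℤ}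

/-! ### The group `E[2]` -/

lemma tors2_add_self (v : Tors2 E) : v + v = 0 := by
  have h := (Submodule.mem_torsionBy_iff _ _).mp v.2
  rw [natCast_zsmul, two_nsmul] at h
  exact Subtype.ext h

lemma tors2_neg (v : Tors2 E) : -v = v :=
  neg_eq_of_add_eq_zero_left (tors2_add_self v)

lemma tors2_sub (v w : Tors2 E) : v - w = v + w := by
  rw [sub_eq_add_neg, tors2_neg]

lemma natCard_tors2_of_ne (hΔ : E.Δ ≠ 0) : Nat.card (Tors2 E) = 4 :=
  (EllTorsion.natCard_torsionBy_intModel E hΔ two_ne_zero).trans (by norm_num)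

lemma finite_tors2_of_ne (hΔ : E.Δ ≠ 0) : Finite (Tors2 E) :=
  Nat.finite_of_card_ne_zero (by rw [natCard_tors2_of_ne hΔ]; norm_num)

theorem natCard_nzTors (hΔ : E.Δ ≠ 0) : Nat.card (NzTors E) = 3 := by
  classical
  have := finite_tors2_of_ne hΔ
  have := Fintype.ofFinite (Tors2 E)
  rw [Nat.card_eq_fintype_card, Fintype.card_subtype_compl, Fintype.card_subtype_eq,
    ← Nat.card_eq_fintype_card, natCard_tors2_of_ne hΔ]

theorem finite_nzTors (hΔ : E.Δ ≠ 0) : Finite (NzTors E) :=
  Nat.finite_of_card_ne_zero (by rw [natCard_nzTors hΔ]; norm_num)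

/-- There are three nonzero points of order dividing two. -/
theorem card_nzTors (hΔ : E.Δ ≠ 0) : ∃ _ : Fintype (NzTors E), Fintype.card (NzTors E) = 3 := by
  have := finite_nzTors hΔ
  let := Fintype.ofFinite (NzTors E)
  exact ⟨this, by rw [← Nat.card_eq_fintype_card, natCard_nzTors hΔ]⟩

/-- Two elements outside `{0, P}` differ by an element of `{0, P}`. -/
lemma tors2_eq_or_eq_add (hΔ : E.Δ ≠ 0) {P v w : Tors2 E} (hP : P ≠ 0) (hv : v ≠ 0) (hv' : v ≠ P)
    (hw : w ≠ 0) (hw' : w ≠ P) : w = v ∨ w = v + P := by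
  classical
  by_contra h
  push Not at h
  have := finite_tors2_of_ne hΔ
  have := Fintype.ofFinite (Tors2 E)
  have h3 : v + P ≠ 0 := fun e => hv' ((neg_eq_of_add_eq_zero_left e).symm.trans (tors2_neg P))
  have h4 : v + P ≠ P := fun e => hv (add_eq_right.mp e)
  have h5 : v + P ≠ v := fun e => hP (add_eq_left.mp e)
  have h6 := Finset.card_le_univ ({0, P, v, v + P, w} : Finset (Tors2 E))
  rw [Finset.card_insert_of_notMem (by simp [Ne.symm hP, Ne.symm hv, Ne.symm h3, Ne.symm hw]),
    Finset.card_insert_of_notMem (by simp [Ne.symm hv', Ne.symm h4, Ne.symm hw']),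
    Finset.card_insert_of_notMem (by simp [Ne.symm h5, Ne.symm h.1]),
    Finset.card_insert_of_notMem (by simp [Ne.symm h.2]), Finset.card_singleton,
    ← Nat.card_eq_fintype_card, natCard_tors2_of_ne hΔ] at h6
  omega

/-! ### The signs -/

lemma stSign_zero (P : NzTors E) : stSign E 0 P = 1 := if_pos (Or.inl rfl)

lemma stSign_eq_one_or (v : Tors2 E) (P : NzTors E) : stSign E v P = 1 ∨ stSign E v P = -1 := by
  unfold stSign
  split_ifs <;> simp

lemma stSign_ne_zero (v : Tors2 E) (P : NzTors E) : stSign E v P ≠ 0 := by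
  rcases stSign_eq_one_or v P with h | h <;> rw [h] <;> simp

lemma stSign_mul_self (v : Tors2 E) (P : NzTors E) : stSign E v P * stSign E v P = 1 := by
  rcases stSign_eq_one_or v P with h | h <;> rw [h] <;> simp

lemma map_stSign (σ : Γℚ) (v : Tors2 E) (P : NzTors E) : σ (stSign E v P) = stSign E v P := by
  rcases stSign_eq_one_or v P with h | h <;> rw [h] <;> simp

theorem stSign_add (hΔ : E.Δ ≠ 0) (v w : Tors2 E) (P : NzTors E) :
    stSign E (v + w) P = stSign E v P * stSign E w P := by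
  classical
  have hPP := tors2_add_self P.1
  unfold stSign
  by_cases hv : v = 0 ∨ v = P.1
  · rw [if_pos hv, one_mul]
    refine if_congr ?_ rfl rfl
    rcases hv with rfl | rfl
    · rw [zero_add]
    · constructor <;> rintro (h | h)
      · exact Or.inr ((neg_eq_of_add_eq_zero_right h).symm.trans (tors2_neg _))
      · exact Or.inl (add_eq_left.mp h)
      · exact Or.inr (by rw [h, add_zero])
      · exact Or.inl (by rw [h, hPP])
  · rw [if_neg hv]
    by_cases hw : w = 0 ∨ w = P.1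
    · rw [if_pos hw, mul_one, if_neg]
      rcases hw with rfl | rfl
      · rwa [add_zero]
      · rintro (h | h)
        · exact hv (Or.inr ((neg_eq_of_add_eq_zero_left h).symm.trans (tors2_neg _)))
        · exact hv (Or.inl (add_eq_right.mp h))
    · rw [if_neg hw, neg_one_mul, neg_neg, if_pos]
      push Not at hv hw
      rcases tors2_eq_or_eq_add hΔ P.2 hv.1 hv.2 hw.1 hw.2 with rfl | rfl
      · exact Or.inl (tors2_add_self _)
      · exact Or.inr (by rw [← add_assoc, tors2_add_self, zero_add])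

theorem stSign_smul (σ : Γℚ) (v : Tors2 E) (P : NzTors E) :
    stSign E (σ • v) (σ • P) = stSign E v P := by
  unfold stSign
  refine if_congr ?_ rfl rfl
  rw [coe_smul_nzTors, smul_left_cancel_iff, smul_eq_zero_iff_eq]

/-! ### Square roots attached to a cocycle -/

lemma StCocycle.apply_mul_of_apply_eq_zero (c : StCocycle E) {σ k : Γℚ} (hk : c.toFun k = 0) :
    c.toFun (σ * k) = c.toFun σ := by
  rw [c.map_mul, hk, smul_zero, add_zero]

/-- Kummer theory: every cocycle has a system of square roots. -/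
theorem exists_kummer (hΔ : E.Δ ≠ 0) (c : StCocycle E) : ∃ α, IsKummerFor E c α := by
  classical
  obtain ⟨K, hKfin, hK⟩ := c.open_kernel
  have : IsAlgClosure ℚ Qbar := ⟨inferInstance, AlgebraicClosure.isAlgebraic ℚ⟩
  have : Normal ℚ Qbar := IsAlgClosure.normal ℚ Qbar
  let L : IntermediateField ℚ Qbar := IntermediateField.normalClosure ℚ K Qbar
  haveI : Normal ℚ L := normalClosure.normal ℚ K Qbar
  haveI : FiniteDimensional ℚ L := normalClosure.is_finiteDimensional ℚ K Qbar
  have hKL : K ≤ L := K.le_normalClosure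
  have hker : ∀ σ : Γℚ, AlgEquiv.restrictNormalHom (F := ℚ) (K₁ := Qbar) L σ = 1 →
      c.toFun σ = 0 := fun σ hσ => hK σ fun x => by
    have h := AlgEquiv.restrictNormal_commutes σ L ⟨x.1, hKL x.2⟩
    rw [show σ.restrictNormal L = AlgEquiv.restrictNormalHom (F := ℚ) L σ from rfl, hσ] at h
    exact h.symm
  choose r hr using AlgEquiv.restrictNormalHom_surjective (F := ℚ) (K₁ := L) Qbar
  -- the twisted average
  let A : NzTors E → (L →ₗ[ℚ] Qbar) := fun P =>
    ∑ τ : L ≃ₐ[ℚ] L, stSign E (c.toFun (r τ)) P • ((L.val.comp τ.toAlgHom).toLinearMap)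
  have hA : ∀ P x, A P x = ∑ τ : L ≃ₐ[ℚ] L, stSign E (c.toFun (r τ)) P * ((τ x : L) : Qbar) :=
    fun P x => by simp [A]; rfl
  have hne : ∀ P, A P ≠ 0 := fun P h0 => by
    let χ : (L ≃ₐ[ℚ] L) → (L →ₐ[ℚ] Qbar) := fun τ => L.val.comp τ.toAlgHom
    have hinj : Function.Injective χ := fun τ τ' h => AlgEquiv.ext fun x =>
      Subtype.ext (AlgHom.congr_fun h x)
    have hli := (linearIndependent_algHom_toLinearMap ℚ L Qbar).comp χ hinj
    exact stSign_ne_zero _ _ (Fintype.linearIndependent_iff.mp hli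
      (fun τ => stSign E (c.toFun (r τ)) P) h0 1)
  obtain ⟨x, hx⟩ : ∃ x : L, ∀ P, A P x ≠ 0 := by
    by_contra h
    push Not at h
    have := finite_nzTors hΔ
    obtain ⟨P, hP⟩ := Subspace.exists_eq_top_of_iUnion_eq_univ (p := fun P => LinearMap.ker (A P))
      (Set.eq_univ_of_forall fun x => Set.mem_iUnion.mpr (h x))
    exact hne P (LinearMap.ker_eq_top.mp hP)
  refine ⟨fun P => A P x, hx, fun σ P => ?_⟩
  have hsum : ∀ τ : L ≃ₐ[ℚ] L, σ (stSign E (c.toFun (r τ)) P * ((τ x : L) : Qbar)) =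
      stSign E (c.toFun σ) (σ • P) * (stSign E (c.toFun
        (r (AlgEquiv.restrictNormalHom (F := ℚ) L σ * τ))) (σ • P) *
          (((AlgEquiv.restrictNormalHom (F := ℚ) L σ * τ) x : L) : Qbar)) := fun τ => by
    set τ' := AlgEquiv.restrictNormalHom (F := ℚ) L σ * τ with hτ'
    have hk : c.toFun ((r τ')⁻¹ * (σ * r τ)) = 0 := hker _ (by
      simp only [map_mul, map_inv, hr, hτ']
      group)
    have hc : c.toFun (σ * r τ) = c.toFun (r τ') := by
      rw [← c.apply_mul_of_apply_eq_zero (σ := r τ') hk, mul_inv_cancel_left]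
    have hcoe : σ ((τ x : L) : Qbar) = ((τ' x : L) : Qbar) :=
      (AlgEquiv.restrictNormal_commutes σ L (τ x)).symm
    rw [map_mul, map_stSign, ← stSign_smul σ, ← hc, c.map_mul, stSign_add hΔ, hcoe,
      mul_assoc (stSign E (c.toFun σ) _), ← mul_assoc (stSign E (c.toFun σ) _)
        (stSign E (c.toFun σ) _), stSign_mul_self, one_mul]
  dsimp only
  rw [hA, hA, map_sum, Finset.sum_congr rfl fun τ _ => hsum τ, ← Finset.mul_sum]
  congr 1
  exact Equiv.sum_comp (Equiv.mulLeft (AlgEquiv.restrictNormalHom (F := ℚ) L σ)) fun τ =>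
    stSign E (c.toFun (r τ)) (σ • P) * ((τ x : L) : Qbar)

theorem IsKummerFor.sq_equivariant {c : StCocycle E} {α : NzTors E → Qbar}
    (h : IsKummerFor E c α) : IsEquivariantOn ⊤ (α ^ 2) := fun σ _ P => by
  rw [Pi.pow_apply, Pi.pow_apply, map_pow, h.2, mul_pow, sq (stSign _ _ _), stSign_mul_self,
    one_mul]

theorem IsKummerFor.sq_ne_zero {c : StCocycle E} {α : NzTors E → Qbar}
    (h : IsKummerFor E c α) (P : NzTors E) : (α ^ 2) P ≠ 0 := pow_ne_zero 2 (h.1 P)

theorem isSquareOn_mul_of_locEq (hΔ : E.Δ ≠ 0) {D : Subgroup Γℚ} {c c' : StCocycle E}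
    {a b : NzTors E → Qbar} (ha : IsKummerFor E c a) (hb : IsKummerFor E c' b)
    (h : LocEq E D c c') : IsSquareOn D (a ^ 2 * b ^ 2) := by
  obtain ⟨v, hv⟩ := h
  refine ⟨fun P => stSign E v P * (a P * b P), fun σ hσ P => ?_,
    fun P => mul_ne_zero (stSign_ne_zero _ _) (mul_ne_zero (ha.1 P) (hb.1 P)), ?_⟩
  · have e : stSign E (c.toFun σ) (σ • P) * stSign E (c'.toFun σ) (σ • P) =
        stSign E v P * stSign E v (σ • P) := by
      rw [← stSign_add hΔ, ← tors2_sub, hv σ hσ, tors2_sub, stSign_add hΔ, stSign_smul]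
    simp only [map_mul, map_stSign, ha.2, hb.2]
    calc _ = stSign E v P * (stSign E (c.toFun σ) (σ • P) * stSign E (c'.toFun σ) (σ • P)) *
          (a (σ • P) * b (σ • P)) := by ring
      _ = _ := by rw [e, ← mul_assoc (stSign E v P), stSign_mul_self, one_mul]
  · funext P
    simp only [Pi.mul_apply, Pi.pow_apply, mul_pow, sq (stSign E v P), stSign_mul_self, one_mul]

theorem isSquareOn_of_locCob (hΔ : E.Δ ≠ 0) {D : Subgroup Γℚ} {c : StCocycle E}
    {a : NzTors E → Qbar} (ha : IsKummerFor E c a) (h : LocCob E D c) : IsSquareOn D (a ^ 2) := by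
  obtain ⟨v, hv⟩ := h
  refine ⟨fun P => stSign E v P * a P, fun σ hσ P => ?_,
    fun P => mul_ne_zero (stSign_ne_zero _ _) (ha.1 P), ?_⟩
  · rw [map_mul, map_stSign, ha.2, hv σ hσ, tors2_sub, stSign_add hΔ, stSign_smul, ← mul_assoc,
      ← mul_assoc, stSign_mul_self, one_mul]
  · funext P
    simp only [Pi.pow_apply, mul_pow, sq (stSign E v P), stSign_mul_self, one_mul]

/-! ### Coordinates -/

lemma addOrderOf_nzTors (P : NzTors E) : addOrderOf P.1.1 = 2 := by
  have : Fact (Nat.Prime 2) := ⟨Nat.prime_two⟩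
  refine addOrderOf_eq_prime ?_ fun h => P.2 (Subtype.ext h)
  have h := (Submodule.mem_torsionBy_iff _ _).mp P.1.2
  rwa [natCast_zsmul] at h

lemma exists_nzTors_coords (P : NzTors E) :
    ∃ x y h, P.1.1 = Affine.Point.some x y h ∧
      2 * y + ((E.map (Int.castRingHom ℚ))⁄Qbar).a₁ * x + ((E.map (Int.castRingHom ℚ))⁄Qbar).a₃ = 0 ∧
      4 * x ^ 3 + ((E.map (Int.castRingHom ℚ))⁄Qbar).b₂ * x ^ 2 +
        2 * ((E.map (Int.castRingHom ℚ))⁄Qbar).b₄ * x + ((E.map (Int.castRingHom ℚ))⁄Qbar).b₆ = 0 :=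
  EllPoints.exists_coords_of_addOrderOf_two (W := ((E.map (Int.castRingHom ℚ))⁄Qbar))
    (addOrderOf_nzTors P)

/-- The abscissa separates the three points and is equivariant. -/
theorem exists_coord : ∃ e : NzTors E → Qbar, IsEquivariantOn ⊤ e ∧ Function.Injective e := by
  choose X Y H he h2 _ using exists_nzTors_coords (E := E)
  refine ⟨X, fun σ _ P => ?_, fun P Q hPQ => ?_⟩
  · have h1 : (σ • P).1.1 = σ • P.1.1 := rfl
    rw [he (σ • P), he P, algEquiv_smul_def] at h1
    erw [Affine.Point.map_some] at h1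
    injection h1 with hx _
    exact hx.symm
  · have hy : Y P = Y Q := by
      have e1 := h2 P
      have e2 := h2 Q
      rw [hPQ] at e1
      exact mul_left_cancel₀ two_ne_zero (by linear_combination e1 - e2)
    refine Subtype.ext (Subtype.ext ?_)
    rw [he P, he Q]
    simp only [hPQ, hy]

end FLTA.LT2
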