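import Fermat.Agent.LT2.ReciprocityDefs
import Fermat.Agent.LT2.ReciprocityKummer
import Fermat.Agent.LT2.ReciprocityPlaces
import Fermat.Agent.LT2.PrimesLine

/-!
# Local classes forming at most a line (LT2, part E)

At the bad odd primes, at the good primes where Frobenius moves `E[2]`, at the primes of `Q` and at
the real place, two classes with the local conditions are trivial or equal.
-/

set_option autoImplicit false

open WeierstrassCurve WeierstrassCurve.Affine.Point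

open scoped WeierstrassCurve.Affine

namespace FLTA.LT2

local notation "Qbar" => AlgebraicClosure ℚ
local notation "Γℚ" => AlgebraicClosure ℚ ≃ₐ[ℚ] AlgebraicClosure ℚ

variable {E : WeierstrassCurve ℤ}

/-- `x` and `c` span at most a line of local classes on `D`. -/
def LocLine (E : WeierstrassCurve ℤ) (D : Subgroup Γℚ) (x c : StCocycle E) : Prop :=
  LocCob E D x ∨ LocCob E D c ∨ LocEq E D x c

/-- Three distinct nonzero points of `E[2]` add up to zero. -/
lemma tors2_eq_add (hE : Companion E) {x y z : Tors2 E} (hx : x ≠ 0) (hy : y ≠ 0) (hz : z ≠ 0)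
    (hxy : x ≠ y) (hxz : x ≠ z) (hyz : y ≠ z) : z = x + y := by
  classical
  have := finite_tors2 hE
  have := Fintype.ofFinite (Tors2 E)
  by_contra h
  have h3 : x + y ≠ 0 := fun he => hxy (by rw [← tors2_neg y]; exact eq_neg_of_add_eq_zero_left he)
  have h4 : x + y ≠ x := fun he => hy (add_eq_left.mp he)
  have h5 : x + y ≠ y := fun he => hx (add_eq_right.mp he)
  have hcard : ({0, x, y, z, x + y} : Finset (Tors2 E)).card = 5 := by
    rw [Finset.card_insert_of_notMem (by simp [hx.symm, hy.symm, hz.symm, h3.symm]),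
      Finset.card_insert_of_notMem (by simp [hxy, hxz, h4.symm]),
      Finset.card_insert_of_notMem (by simp [hyz, h5.symm]),
      Finset.card_insert_of_notMem (by simp [h]), Finset.card_singleton]
  have hle := Finset.card_le_univ ({0, x, y, z, x + y} : Finset (Tors2 E))
  rw [hcard, ← Nat.card_eq_fintype_card, natCard_tors2 hE] at hle
  omega

/-- A nontrivial automorphism of `E[2]` has at most one nonzero fixed point. -/
lemma fixed_line (hE : Companion E) {σ : Γℚ} (hmove : ∃ P : Tors2 E, σ • P ≠ P) {a b : Tors2 E}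
    (ha : σ • a = a) (hb : σ • b = b) : a = 0 ∨ b = 0 ∨ a = b := by
  by_contra! h
  obtain ⟨P, hP⟩ := hmove
  apply hP
  by_cases h0 : P = 0
  · rw [h0, smul_zero]
  by_cases hPa : P = a
  · rw [hPa, ha]
  by_cases hPb : P = b
  · rw [hPb, hb]
  rw [tors2_eq_add hE h.1 h.2.1 h0 h.2.2 (Ne.symm hPa) (Ne.symm hPb), smul_add, ha, hb]

/-- The coboundary values of a nontrivial automorphism have index at most two. -/
lemma coboundary_line (hE : Companion E) {σ : Γℚ} (hmove : ∃ P : Tors2 E, σ • P ≠ P)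
    (a b : Tors2 E) :
    (∃ v, a = σ • v - v) ∨ (∃ v, b = σ • v - v) ∨ (∃ v, a - b = σ • v - v) := by
  obtain ⟨P, hP⟩ := hmove
  have hw : σ • P - P ≠ 0 := sub_ne_zero.mpr hP
  by_cases ha : a = 0
  · exact Or.inl ⟨0, by rw [ha, smul_zero, sub_zero]⟩
  by_cases hb : b = 0
  · exact Or.inr (Or.inl ⟨0, by rw [hb, smul_zero, sub_zero]⟩)
  by_cases hab : a = b
  · exact Or.inr (Or.inr ⟨0, by rw [hab, smul_zero, sub_zero, sub_self]⟩)
  by_cases haw : a = σ • P - P
  · exact Or.inl ⟨P, haw⟩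
  by_cases hbw : b = σ • P - P
  · exact Or.inr (Or.inl ⟨P, hbw⟩)
  refine Or.inr (Or.inr ⟨P, ?_⟩)
  rw [tors2_sub a b]
  exact (tors2_eq_add hE ha hb hw hab haw hbw).symm

lemma toFun_coboundary_mul (c : StCocycle E) {v : Tors2 E} {σ τ : Γℚ}
    (hσ : c.toFun σ = σ • v - v) (hτ : c.toFun τ = τ • v - v) :
    c.toFun (σ * τ) = (σ * τ) • v - v := by
  rw [c.map_mul, hσ, hτ, mul_smul, smul_sub]
  abel

lemma toFun_coboundary_pow (c : StCocycle E) {v : Tors2 E} {σ : Γℚ}
    (hσ : c.toFun σ = σ • v - v) (k : ℕ) : c.toFun (σ ^ k) = (σ ^ k) • v - v := by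
  induction k with
  | zero => rw [pow_zero, c.toFun_one, one_smul, sub_self]
  | succ k ih => rw [pow_succ]; exact toFun_coboundary_mul c ih hσ

/-- A class trivial on inertia and at one Frobenius, compatibly, is trivial on decomposition. -/
theorem locCob_of_generators (hE : Companion E) {ℓ : ℕ} (hℓ : ℓ.Prime)
    {A : ValuationSubring Qbar} (hA : A.LiesOverPrime ℓ) {Φ : Γℚ} (hΦ : A.IsFrobeniusAt Φ ℓ)
    (c : StCocycle E) {v : Tors2 E} (h1 : c.toFun Φ = Φ • v - v)
    (h2 : ∀ ι ∈ A.inertiaSubgroupIn ℚ, c.toFun ι = ι • v - v) :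
    LocCob E (A.decompositionSubgroup ℚ) c := by
  refine ⟨v, fun σ hσ => ?_⟩
  obtain ⟨L, hL, hLf⟩ := affHom_finiteLevel hE c
  obtain ⟨k, ι, hι, he⟩ := FLTA.Galois.exists_pow_mul_inertia_eq hℓ hA hΦ hσ L
  have h3 : affHom c ((Φ ^ k * ι)⁻¹ * σ) = 1 := hLf _ fun x hx => by
    rw [AlgEquiv.mul_apply, he x hx, ← AlgEquiv.mul_apply, inv_mul_cancel, AlgEquiv.one_apply]
  have h4 : c.toFun (Φ ^ k * ι) = (Φ ^ k * ι) • v - v := by
    exact toFun_coboundary_mul c (toFun_coboundary_pow c h1 k) (h2 ι hι)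
  have h5 : c.toFun ((Φ ^ k * ι)⁻¹ * σ) = ((Φ ^ k * ι)⁻¹ * σ) • v - v := by
    have hv := Equiv.ext_iff.mp h3 v
    rw [affHom_apply] at hv
    rw [Equiv.Perm.coe_one, id_eq] at hv
    rw [tors2_sub, ← add_left_cancel_iff (a := ((Φ ^ k * ι)⁻¹ * σ) • v)]
    rw [← add_assoc, tors2_add_self, zero_add, hv]
  have := toFun_coboundary_mul c h4 h5
  rwa [mul_inv_cancel_left] at this

section bad

variable {ℓ : ℕ} [Fact ℓ.Prime]

/-- At an odd bad prime inertia moves `E[2]`. -/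
lemma exists_inertia_moves_point (hE : Companion E) (h2 : ℓ ≠ 2) (hbad : (ℓ : ℤ) ∣ E.Δ) :
    ∃ τ ∈ (padicPlace ℓ).inertiaSubgroupIn ℚ, ∃ P : Tors2 E, τ • P ≠ P := by
  by_contra! hall
  obtain ⟨δ, hδ, -⟩ := exists_sqrt_disc_fixed hE (σ := 1) fun P => one_smul _ P
  have hfix : ∀ τ ∈ (padicPlace ℓ).inertiaSubgroupIn ℚ, τ δ = δ := fun τ hτ => by
    obtain ⟨δ', hδ', hτδ⟩ := exists_sqrt_disc_fixed hE (hall τ hτ)
    rcases eq_or_eq_neg_of_sq_eq_sq δ δ' (hδ.trans hδ'.symm) with rfl | rfl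
    · exact hτδ
    · rw [map_neg, hτδ]
  have hval : ‖padicEmbedding ℓ ((E.Δ : ℤ) : Qbar)‖ =
      (ℓ : ℝ) ^ (-(padicValInt ℓ E.Δ : ℤ)) := by
    rw [map_intCast, ← map_intCast (algebraMap ℚ_[ℓ] (PadicAlgCl ℓ))]
    show ‖(((E.Δ : ℤ) : ℚ_[ℓ]) : PadicAlgCl ℓ)‖ = _
    rw [PadicAlgCl.norm_extends, Padic.norm_eq_zpow_neg_valuation (Int.cast_ne_zero.mpr hE.Δ_ne_zero),
      Padic.valuation_intCast]
  have heven := (inertia_apply_sqrt_iff h2 hδ hval fun σ _ => map_intCast σ _).mp hfix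
  exact Int.not_even_iff_odd.mpr
    (Int.odd_coe_nat _ |>.mpr (hE.oddVal ℓ Fact.out hbad)) heven

/-- At an odd bad prime two unramified classes span at most a line. -/
theorem locLine_bad (hE : Companion E) (h2 : ℓ ≠ 2) (hbad : (ℓ : ℤ) ∣ E.Δ) {x c : StCocycle E}
    (hx : UnramAt E ℓ x) (hc : UnramAt E ℓ c) :
    LocLine E ((padicPlace ℓ).decompositionSubgroup ℚ) x c := by
  have hℓ : ℓ.Prime := Fact.out
  have hA := liesOverPrime_padicPlace ℓ
  obtain ⟨Φ, hΦ⟩ := FLTA.Galois.exists_isFrobeniusAt hℓ hA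
  obtain ⟨τ, hτ, hmove⟩ := exists_inertia_moves_point hE h2 hbad
  obtain ⟨v, hv⟩ := hx _ hA
  obtain ⟨w, hw⟩ := hc _ hA
  have key : ∀ (y : StCocycle E) (u : Tors2 E),
      (∀ σ ∈ (padicPlace ℓ).inertiaSubgroupIn ℚ, y.toFun σ = σ • u - u) →
      τ • (y.toFun Φ - (Φ • u - u)) = y.toFun Φ - (Φ • u - u) := by
    intro y u hu
    have hι : Φ⁻¹ * τ * Φ ∈ (padicPlace ℓ).inertiaSubgroupIn ℚ := by
      have := FLTA.Galois.inertia_conj_mem (inv_mem hΦ.mem_decompositionSubgroup) hτ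
      rwa [inv_inv] at this
    have e1 := y.map_mul τ Φ
    have e2 := y.map_mul Φ (Φ⁻¹ * τ * Φ)
    rw [show Φ * (Φ⁻¹ * τ * Φ) = τ * Φ by group, hu _ hι, smul_sub, ← mul_smul,
      show Φ * (Φ⁻¹ * τ * Φ) = τ * Φ by group] at e2
    rw [e2, hu τ hτ, mul_smul] at e1
    rw [smul_sub, smul_sub]
    linear_combination (norm := abel) -e1
  have hdiff : ∀ σ ∈ (padicPlace ℓ).inertiaSubgroupIn ℚ,
      (x.sub c).toFun σ = σ • (v - w) - (v - w) := fun σ hσ => by
    show x.toFun σ - c.toFun σ = _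
    rw [hv σ hσ, hw σ hσ, smul_sub]
    abel
  rcases fixed_line hE hmove (key x v hv) (key c w hw) with h | h | h
  · exact Or.inl (locCob_of_generators hE hℓ hA hΦ x (sub_eq_zero.mp h) hv)
  · exact Or.inr (Or.inl (locCob_of_generators hE hℓ hA hΦ c (sub_eq_zero.mp h) hw))
  · refine Or.inr (Or.inr (locCob_of_generators hE hℓ hA hΦ (x.sub c) ?_ hdiff))
    show x.toFun Φ - c.toFun Φ = _
    rw [smul_sub]
    linear_combination (norm := abel) h

/-- At a good odd prime with Frobenius moving `E[2]`, two unramified classes span at most a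
line. -/
theorem locLine_good (hE : Companion E) (h2 : ℓ ≠ 2) (hgood : ¬ (ℓ : ℤ) ∣ E.Δ) {Φ : Γℚ}
    (hΦ : (padicPlace ℓ).IsFrobeniusAt Φ ℓ) (hmove : ∃ P : Tors2 E, Φ • P ≠ P)
    {x c : StCocycle E} (hx : UnramAt E ℓ x) (hc : UnramAt E ℓ c) :
    LocLine E ((padicPlace ℓ).decompositionSubgroup ℚ) x c := by
  have hℓ : ℓ.Prime := Fact.out
  have hA := liesOverPrime_padicPlace ℓ
  have hx0 := (unramAt_iff_forall hℓ h2 hgood x).mp hx _ hA
  have hc0 := (unramAt_iff_forall hℓ h2 hgood c).mp hc _ hA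
  have htriv : ∀ u : Tors2 E, ∀ σ ∈ (padicPlace ℓ).inertiaSubgroupIn ℚ, σ • u - u = 0 :=
    fun u σ hσ => by rw [smul_eq_self_of_inertia_two hℓ h2 hgood hA hσ, sub_self]
  rcases coboundary_line hE hmove (x.toFun Φ) (c.toFun Φ) with ⟨v, hv⟩ | ⟨v, hv⟩ | ⟨v, hv⟩
  · exact Or.inl (locCob_of_generators hE hℓ hA hΦ x hv fun σ hσ => by
      rw [hx0 σ hσ, htriv v σ hσ])
  · exact Or.inr (Or.inl (locCob_of_generators hE hℓ hA hΦ c hv fun σ hσ => by
      rw [hc0 σ hσ, htriv v σ hσ]))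
  · refine Or.inr (Or.inr (locCob_of_generators hE hℓ hA hΦ (x.sub c) hv fun σ hσ => ?_))
    show x.toFun σ - c.toFun σ = _
    rw [hx0 σ hσ, hc0 σ hσ, htriv v σ hσ, sub_zero]

/-- At a conjugation prime two Frobenius-null classes span at most a line. -/
theorem locLine_conjPrime (hE : Companion E) {n : ℕ} (hq : ConjPrime E n ℓ) {x c : StCocycle E}
    (hx : FrobNull E ℓ x) (hc : FrobNull E ℓ c) :
    LocLine E ((padicPlace ℓ).decompositionSubgroup ℚ) x c := by
  have hℓ : ℓ.Prime := Fact.out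
  have hA := liesOverPrime_padicPlace ℓ
  obtain ⟨Φ, hΦ⟩ := FLTA.Galois.exists_isFrobeniusAt hℓ hA
  have key : ∀ (y : StCocycle E), UnramAt E ℓ y → (∃ v, y.toFun Φ = Φ • v - v) →
      LocCob E ((padicPlace ℓ).decompositionSubgroup ℚ) y := by
    rintro y hy ⟨v, hv⟩
    refine locCob_of_generators hE hℓ hA hΦ y hv fun σ hσ => ?_
    rw [(unramAt_iff_forall hℓ hq.ne_two hq.good y).mp hy _ hA σ hσ,
      smul_eq_self_of_inertia_two hℓ hq.ne_two hq.good hA hσ, sub_self]
  obtain ⟨v, hv⟩ := hx _ hA Φ hΦ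
  obtain ⟨w, hw⟩ := hc _ hA Φ hΦ
  by_cases hxu : UnramAt E ℓ x
  · exact Or.inl (key x hxu ⟨v, hv⟩)
  by_cases hcu : UnramAt E ℓ c
  · exact Or.inr (Or.inl (key c hcu ⟨w, hw⟩))
  refine Or.inr (Or.inr (key (x.sub c) (unramAt_sub_of_ramified hE hq hx hc hxu hcu)
    ⟨v - w, ?_⟩))
  show x.toFun Φ - c.toFun Φ = _
  rw [hv, hw, smul_sub]
  abel

end bad

section real

/-- Complex conjugation moves `E[2]`. -/
lemma realConj_moves (hE : Companion E) : ∃ P : Tors2 E, realConj • P ≠ P := by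
  by_contra! hall
  obtain ⟨δ, hδ, hfix⟩ := exists_sqrt_disc_fixed hE hall
  obtain ⟨r, hr⟩ := realData.fixed δ fun σ hσ => by
    rcases mem_zpowers_realConj.mp hσ with rfl | rfl
    · rfl
    · exact hfix
  have h := congrArg realData.emb hδ
  rw [map_pow, ← hr, ← map_pow, map_intCast,
    ← map_intCast (algebraMap ℝ ℂ)] at h
  have h2 := (algebraMap ℝ ℂ).injective h
  have : (E.Δ : ℝ) < 0 := Int.cast_lt_zero.mpr hE.neg
  nlinarith [sq_nonneg r]

/-- Every class is trivial at the real place. -/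
theorem locCob_real (hE : Companion E) (c : StCocycle E) : LocCob E realData.dec c := by
  have hmove := realConj_moves hE
  have hfix : realConj • c.toFun realConj = c.toFun realConj := by
    have h := c.map_mul realConj realConj
    rw [realConj_mul_self, c.toFun_one] at h
    calc realConj • c.toFun realConj = -c.toFun realConj := eq_neg_of_add_eq_zero_right h.symm
      _ = _ := tors2_neg _
  obtain ⟨P, hP⟩ := hmove
  have hw : realConj • (realConj • P - P) = realConj • P - P := by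
    rw [smul_sub, ← mul_smul, realConj_mul_self, one_smul, tors2_sub, tors2_sub, add_comm]
  have main : ∃ v, c.toFun realConj = realConj • v - v := by
    rcases fixed_line hE ⟨P, hP⟩ hfix hw with h | h | h
    · exact ⟨0, by rw [h, smul_zero, sub_zero]⟩
    · exact absurd (sub_eq_zero.mp h) hP
    · exact ⟨P, h⟩
  obtain ⟨v, hv⟩ := main
  refine ⟨v, fun σ hσ => ?_⟩
  rcases mem_zpowers_realConj.mp hσ with rfl | rfl
  · rw [c.toFun_one, one_smul, sub_self]
  · exact hv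

end real

end FLTA.LT2
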