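import Fermat.Agent.LT2.ReciprocityKummer
import Fermat.Agent.LT2.ReciprocityPlaces
import Fermat.Agent.LT2.ReciprocityLocal
import Fermat.Agent.LT2.PrimesLine

/-!
# The good primes with trivial decomposition action on `E[2]` (LT2, part E)

There the unramified classes give unimodular diagonal forms, which are isotropic.
-/

set_option autoImplicit false

open WeierstrassCurve

open scoped WeierstrassCurve.Affine

namespace FLTA.LT2

local notation "Qbar" => AlgebraicClosure ℚ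
local notation "Γℚ" => AlgebraicClosure ℚ ≃ₐ[ℚ] AlgebraicClosure ℚ

variable {E : WeierstrassCurve ℤ} {ℓ : ℕ} [Fact ℓ.Prime]

/-- `a` takes values of even valuation in `ℚ_ℓ`. -/
def EvenValued (ℓ : ℕ) [Fact ℓ.Prime] {S : Type*} (a : S → AlgebraicClosure ℚ) : Prop :=
  ∀ P, ∃ t : ℚ_[ℓ], t ≠ 0 ∧ Even t.valuation ∧
    padicEmbedding ℓ (a P) = algebraMap ℚ_[ℓ] (PadicAlgCl ℓ) t

lemma EvenValued.mul {S : Type*} {a b : S → Qbar} (ha : EvenValued ℓ a) (hb : EvenValued ℓ b) :
    EvenValued ℓ (a * b) := fun P => by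
  obtain ⟨t, ht, hvt, het⟩ := ha P
  obtain ⟨s, hs, hvs, hes⟩ := hb P
  exact ⟨t * s, mul_ne_zero ht hs, by rw [Padic.valuation_mul ht hs]; exact hvt.add hvs,
    by rw [Pi.mul_apply, map_mul, het, hes, map_mul]⟩

lemma evenValued_one {S : Type*} : EvenValued ℓ (1 : S → Qbar) := fun _ =>
  ⟨1, one_ne_zero, by simp, by rw [Pi.one_apply, map_one, map_one]⟩

lemma isotropic_of_evenValued (hℓ : ℓ ≠ 2) {S : Type*} [MulAction Γℚ S] [Fintype S]
    (hcard : Fintype.card S = 3)
    (hD : ∀ σ ∈ (padicPlace ℓ).decompositionSubgroup ℚ, ∀ P : S, σ • P = P) {a : S → Qbar}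
    (ha : EvenValued ℓ a) : (padicData ℓ).Isotropic a := by
  classical
  choose t ht hvt het using ha
  let ε : Fin 3 ≃ S := (Fintype.equivFinOfCardEq hcard).symm
  obtain ⟨X, hX, hsum⟩ := exists_zero_of_even_valuation hℓ (t ∘ ε) (fun i => ht _) fun i => hvt _
  let f : S → PadicAlgCl ℓ := fun P => algebraMap ℚ_[ℓ] _ (X (ε.symm P))
  refine ⟨f, ?_, fun h => hX (funext fun i => ?_), ?_⟩
  · have he : f = ∑ Q, X (ε.symm Q) •
        fun P => padicEmbedding ℓ (if P = Q then 1 else 0) := funext fun P => by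
      simp [f, Finset.sum_apply, apply_ite (padicEmbedding ℓ), Algebra.smul_def]
    rw [he]
    refine Submodule.sum_mem _ fun Q _ => Submodule.smul_mem _ _ (Submodule.subset_span
      ⟨fun P => if P = Q then 1 else 0, fun σ hσ P => ?_, rfl⟩)
    simp only [hD σ hσ, apply_ite σ, map_one, map_zero]
  · have := congrFun h (ε i)
    simpa [f] using this
  · show ∑ P, padicEmbedding ℓ (a P) * f P ^ 2 = 0
    simp only [f, het, ← map_pow, ← map_mul, ← map_sum]
    rw [← Fintype.sum_equiv ε (fun i => t (ε i) * X i ^ 2) _ fun i => by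
      rw [ε.symm_apply_apply], map_eq_zero]
    exact hsum

/-- Where the decomposition group fixes `E[2]`, unramified classes pair to zero. -/
theorem pairing_eq_zero_of_split (hE : Companion E) (h2 : ℓ ≠ 2) (hgood : ¬ (ℓ : ℤ) ∣ E.Δ)
    [Fintype (NzTors E)]
    (hD : ∀ σ ∈ (padicPlace ℓ).decompositionSubgroup ℚ, ∀ P : Tors2 E, σ • P = P)
    {x c : StCocycle E} (hx : UnramAt E ℓ x) (hc : UnramAt E ℓ c) {α β : NzTors E → Qbar}
    (hα : IsKummerFor E x α) (hβ : IsKummerFor E c β) :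
    (padicData ℓ).pairing (α ^ 2) (β ^ 2) = 0 := by
  classical
  have hA := liesOverPrime_padicPlace ℓ
  have hfix : ∀ σ ∈ (padicPlace ℓ).decompositionSubgroup ℚ, ∀ P : NzTors E, σ • P = P :=
    fun σ hσ P => Subtype.ext (hD σ hσ P.1)
  have heven : ∀ {y : StCocycle E} {γ : NzTors E → Qbar}, UnramAt E ℓ y → IsKummerFor E y γ →
      EvenValued ℓ (γ ^ 2) := by
    intro y γ hy hγ P
    have hy0 := (unramAt_iff_forall Fact.out h2 hgood y).mp hy _ hA
    have hsq : ∀ σ ∈ (padicPlace ℓ).decompositionSubgroup ℚ, σ ((γ ^ 2) P) = (γ ^ 2) P :=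
      fun σ hσ => by rw [hγ.sq_equivariant σ trivial P, hfix σ hσ P]
    obtain ⟨t, ht⟩ := padicEmbedding_mem_range ℓ hsq
    have ht0 : t ≠ 0 := fun h => hγ.sq_ne_zero P ((padicEmbedding ℓ).toRingHom.injective (by
      show padicEmbedding ℓ ((γ ^ 2) P) = padicEmbedding ℓ 0
      rw [← ht, h, map_zero, map_zero]))
    refine ⟨t, ht0, (inertia_apply_sqrt_iff h2 (x := (γ ^ 2) P) (r := γ P)
      (Pi.pow_apply γ 2 _).symm ?_ fun ι hι => ?_).mp fun ι hι => ?_, ht.symm⟩
    · rw [← ht]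
      show ‖((t : ℚ_[ℓ]) : PadicAlgCl ℓ)‖ = _
      rw [PadicAlgCl.norm_extends, Padic.norm_eq_zpow_neg_valuation ht0]
    · exact hsq ι (FLTA.Galois.inertiaSubgroupIn_le_decompositionSubgroup hι)
    · rw [hγ.2 ι P, hy0 ι hι, stSign_zero, one_mul,
        hfix ι (FLTA.Galois.inertiaSubgroupIn_le_decompositionSubgroup hι)]
  have hcard : Fintype.card (NzTors E) = 3 := by
    rw [← Nat.card_eq_fintype_card]; exact natCard_nzTors hE.Δ_ne_zero
  have hz : ∀ {a : NzTors E → Qbar}, EvenValued ℓ a → (padicData ℓ).sign a = 0 := fun ha => by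
    rw [LocalData.sign, if_pos (isotropic_of_evenValued h2 hcard hfix ha)]
  rw [LocalData.pairing, hz ((heven hx hα).mul (heven hc hβ)), hz (heven hx hα), hz (heven hc hβ),
    hz evenValued_one]
  decide

end FLTA.LT2
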