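import Fermat.Agent.LT2.ReciprocityLines
import Fermat.Agent.LT2.ReciprocitySplit
import Fermat.Agent.LT2.ReciprocityConjPrime

/-!
# Reciprocity: visible classes kill ramification at a new conjugation prime (LT2, part E)
-/

set_option autoImplicit false

open WeierstrassCurve

open scoped WeierstrassCurve.Affine Pointwise

namespace FLTA.LT2

local notation "Qbar" => AlgebraicClosure ℚ
local notation "Γℚ" => AlgebraicClosure ℚ ≃ₐ[ℚ] AlgebraicClosure ℚ

attribute [local instance] factPrimes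

variable {E : WeierstrassCurve ℤ}

/-- If the classes of `x` and `c` form at most a line, their pairing vanishes. -/
theorem pairing_eq_zero_of_locLine (hE : Companion E) [Fintype (NzTors E)] {K Ω : Type*} [Field K]
    [Field Ω] [Algebra K Ω] (L : LocalData K Ω) {x c : StCocycle E} {α β : NzTors E → Qbar}
    (hα : IsKummerFor E x α) (hβ : IsKummerFor E c β) (h : LocLine E L.dec x c) :
    L.pairing (α ^ 2) (β ^ 2) = 0 := by
  refine L.pairing_eq_zero (hα.sq_equivariant.mono le_top) hα.sq_ne_zero ?_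
  rcases h with h | h | h
  · exact Or.inl (isSquareOn_of_locCob hE.Δ_ne_zero hα h)
  · exact Or.inr (Or.inl (isSquareOn_of_locCob hE.Δ_ne_zero hβ h))
  · exact Or.inr (Or.inr (isSquareOn_mul_of_locEq hE.Δ_ne_zero hα hβ h))

/-- Coboundary values are carried along by conjugation. -/
lemma toFun_conj_coboundary (x : StCocycle E) (g : Γℚ) {τ : Γℚ} {v : Tors2 E}
    (h : x.toFun τ = τ • v - v) :
    x.toFun (g * τ * g⁻¹) =
      (g * τ * g⁻¹) • (g • v - x.toFun g) - (g • v - x.toFun g) := by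
  have hinv : g • x.toFun g⁻¹ = -x.toFun g := by
    have := x.map_mul g g⁻¹
    rw [mul_inv_cancel, x.toFun_one] at this
    exact eq_neg_of_add_eq_zero_right this.symm
  have e : (g * τ * g⁻¹) • g • v = (g * τ) • v := by rw [← mul_smul, inv_mul_cancel_right]
  have e' : (g * τ) • x.toFun g⁻¹ = -((g * τ * g⁻¹) • x.toFun g) := by
    rw [← smul_neg, ← hinv, ← mul_smul, inv_mul_cancel_right]
  rw [x.map_mul, x.map_mul, h, smul_sub, smul_sub, e, e', ← mul_smul]
  abel

/-- A class visible at `q` is visible at a Frobenius element of the standard place. -/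
lemma exists_visible_frobenius {q : ℕ} [Fact q.Prime] {x : StCocycle E}
    (hxq : ¬ FrobNull E q x) :
    ∃ Φ : Γℚ, (padicPlace q).IsFrobeniusAt Φ q ∧ ¬ ∃ v : Tors2 E, x.toFun Φ = Φ • v - v := by
  unfold FrobNull at hxq
  push Not at hxq
  obtain ⟨A, hA, σ, hσ, hv⟩ := hxq
  obtain ⟨g, rfl⟩ := FLTA.Galois.exists_smul_eq Fact.out (liesOverPrime_padicPlace q) hA
  refine ⟨g⁻¹ * σ * g, ?_, ?_⟩
  · have := FLTA.Galois.isFrobeniusAt_smul g⁻¹ hσ
    have e : g⁻¹ • g • padicPlace q = padicPlace q :=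
      (mul_smul _ _ _).symm.trans ((congrArg (· • padicPlace q) (inv_mul_cancel g)).trans (one_smul _ _))
    rwa [e, inv_inv] at this
  · rintro ⟨v, hxv⟩
    have := toFun_conj_coboundary x g hxv
    rw [show g * (g⁻¹ * σ * g) * g⁻¹ = σ by group] at this
    exact hv _ this

/-- If Frobenius fixes `E[2]` at a good odd prime, so does the decomposition group. -/
lemma decomposition_fixes (hE : Companion E) {ℓ : ℕ} [Fact ℓ.Prime] (h2 : ℓ ≠ 2)
    (hgood : ¬ (ℓ : ℤ) ∣ E.Δ) {Φ : Γℚ} (hΦ : (padicPlace ℓ).IsFrobeniusAt Φ ℓ)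
    (hfix : ∀ P : Tors2 E, Φ • P = P) {σ : Γℚ}
    (hσ : σ ∈ (padicPlace ℓ).decompositionSubgroup ℚ) (P : Tors2 E) : σ • P = P := by
  have hA := liesOverPrime_padicPlace ℓ
  obtain ⟨L, hL, hact⟩ :=
    EllTorsion.galoisFactorsThroughFiniteLevel_intModel E hE.Δ_ne_zero (n := 2) two_ne_zero
  obtain ⟨k, ι, hι, he⟩ := FLTA.Galois.exists_pow_mul_inertia_eq Fact.out hA hΦ hσ L
  have h : ((Φ ^ k * ι)⁻¹ * σ) • P = P :=
    LinearMap.congr_fun (hact _ fun x hx => by
      rw [AlgEquiv.mul_apply, he x hx, ← AlgEquiv.mul_apply, inv_mul_cancel, AlgEquiv.one_apply]) P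
  rw [mul_smul, inv_smul_eq_iff, mul_smul,
    smul_eq_self_of_inertia_two Fact.out h2 hgood hA hι] at h
  rw [h]
  clear h he
  induction k with
  | zero => rw [pow_zero, one_smul]
  | succ k ih => rw [pow_succ, mul_smul, hfix, ih]

/-- The isotropy consequence of reciprocity, given the line property at `2`. -/
theorem unramAt_of_visible_of_two (hE : Companion E) {n : ℕ} (hn : 1 ≤ n) {Q : Finset ℕ}
    (hQ : ∀ q' ∈ Q, ConjPrime E n q') {q : ℕ} (hq : ConjPrime E n q) (hqQ : q ∉ Q)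
    {x c : StCocycle E} (hx : StCond E Q x) (hxq : ¬ FrobNull E q x)
    (hc : StCond E (insert q Q) c)
    (htwo : LocLine E ((padicPlace 2).decompositionSubgroup ℚ) x c) : UnramAt E q c := by
  classical
  have : Fact q.Prime := ⟨hq.prime⟩
  by_contra hcr
  obtain ⟨_, hcard⟩ := card_nzTors (E := E) hE.Δ_ne_zero
  obtain ⟨e, he, heinj⟩ := exists_coord (E := E)
  obtain ⟨α, hα⟩ := exists_kummer hE.Δ_ne_zero x
  obtain ⟨β, hβ⟩ := exists_kummer hE.Δ_ne_zero c
  obtain ⟨Φ, hΦ, hxΦ⟩ := exists_visible_frobenius hxq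
  have hpair := pairing_eq_one hE hn hq hΦ (hx.unramAt hq.prime hq.ne_two hqQ) hxΦ
    (hc.frobNull (Finset.mem_insert_self q Q)) hcr hα hβ
  have hzero : (padicData q).pairing (α ^ 2) (β ^ 2) = 0 := by
    refine pairing_eq_zero_of_others e he heinj hcard hα.sq_equivariant hβ.sq_equivariant
      hα.sq_ne_zero hβ.sq_ne_zero ⟨q, hq.prime⟩ (fun p hp => ?_)
      (pairing_eq_zero_of_locLine hE realData hα hβ (Or.inl (locCob_real hE x)))
    obtain ⟨ℓ, hℓ⟩ := p
    have hne : ℓ ≠ q := fun h => hp (Subtype.ext h)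
    have : Fact ℓ.Prime := ⟨hℓ⟩
    show (padicData ℓ).pairing (α ^ 2) (β ^ 2) = 0
    by_cases h2 : ℓ = 2
    · subst h2
      exact pairing_eq_zero_of_locLine hE _ hα hβ htwo
    by_cases hmem : ℓ ∈ Q
    · exact pairing_eq_zero_of_locLine hE _ hα hβ (locLine_conjPrime hE (hQ ℓ hmem)
        (hx.frobNull hmem) (hc.frobNull (Finset.mem_insert_of_mem hmem)))
    have hxu := hx.unramAt hℓ h2 hmem
    have hcu := hc.unramAt hℓ h2 (by simp [hne, hmem])
    by_cases hbad : (ℓ : ℤ) ∣ E.Δ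
    · exact pairing_eq_zero_of_locLine hE _ hα hβ (locLine_bad hE h2 hbad hxu hcu)
    obtain ⟨Ψ, hΨ⟩ := FLTA.Galois.exists_isFrobeniusAt hℓ (liesOverPrime_padicPlace ℓ)
    by_cases hmove : ∃ P : Tors2 E, Ψ • P ≠ P
    · exact pairing_eq_zero_of_locLine hE _ hα hβ (locLine_good hE h2 hbad hΨ hmove hxu hcu)
    · push Not at hmove
      exact pairing_eq_zero_of_split hE h2 hbad
        (fun σ hσ P => decomposition_fixes hE h2 hbad hΨ hmove hσ P) hxu hcu hα hβ
  rw [hpair] at hzero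
  exact one_ne_zero hzero

end FLTA.LT2
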