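import Fermat.Agent.LT2.SieveDefs

/-!
# Counting points of a box whose quartic value has a square factor (LT2, part A)

All estimates are in terms of the side `Y` of the box
`(pu + M i, pv + M j)`, `i, j < Y`.
-/

set_option autoImplicit false

open Finset

namespace FLTA.LT2.Sieve

/-- Few terms of an arithmetic progression lie in a class modulo `q` prime to the step. -/
theorem card_filter_dvd_le (Y q : ℕ) (M p t : ℤ) (hM : IsCoprime M (q : ℤ)) :
    ((range Y).filter fun i : ℕ => (q : ℤ) ∣ (p + M * (i : ℤ) - t)).card ≤ Y / q + 1 := by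
  have h : ∀ i ∈ (range Y).filter fun i : ℕ => (q : ℤ) ∣ (p + M * (i : ℤ) - t),
      i / q ∈ range (Y / q + 1) := by
    intro i hi
    rw [Finset.mem_filter, Finset.mem_range] at hi
    rw [Finset.mem_range]
    exact Nat.lt_succ_of_le (Nat.div_le_div_right hi.1.le)
  have hinj : Set.InjOn (fun i : ℕ => i / q)
      ((range Y).filter fun i : ℕ => (q : ℤ) ∣ (p + M * (i : ℤ) - t) : Set ℕ) := by
    intro i hi j hj hij
    simp only [Finset.coe_filter, Set.mem_ofPred_eq] at hi hj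
    have hd : (q : ℤ) ∣ M * ((i : ℤ) - j) := by
      have h2 := dvd_sub hi.2 hj.2
      have h3 : p + M * (i : ℤ) - t - (p + M * (j : ℤ) - t) = M * ((i : ℤ) - j) := by ring
      rwa [h3] at h2
    have hd2 : (q : ℤ) ∣ (i : ℤ) - j := hM.symm.dvd_of_dvd_mul_left hd
    have hmod : i % q = j % q := by
      have := (Int.modEq_iff_dvd.mpr hd2 : (j : ℤ) ≡ i [ZMOD q])
      exact (Int.natCast_modEq_iff.mp this).symm
    simp only at hij
    calc i = q * (i / q) + i % q := (Nat.div_add_mod i q).symm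
      _ = q * (j / q) + j % q := by rw [hij, hmod]
      _ = j := Nat.div_add_mod j q
  calc _ ≤ (range (Y / q + 1)).card := Finset.card_le_card_of_injOn _ h hinj
    _ = _ := Finset.card_range _

/-- The points of the box whose value is divisible by `l ^ 2`. -/
def badSet (c : Fin 5 → ℤ) (Y : ℕ) (M pu pv : ℤ) (l : ℕ) : Finset (ℕ × ℕ) :=
  (range Y ×ˢ range Y).filter fun p =>
    (l : ℤ) ^ 2 ∣ qform c (pu + M * (p.1 : ℤ)) (pv + M * (p.2 : ℤ))

/-- A prime with at most four square roots classes spoils few points of the box. -/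
theorem card_badSet_le (c : Fin 5 → ℤ) (Y : ℕ) (M pu pv : ℤ) (l : ℕ) (hl : l.Prime)
    (hM : IsCoprime M (l : ℤ)) (R : Finset ℤ) (hR : R.card ≤ 4)
    (hroot : ∀ u v : ℤ, ¬ ((l : ℤ) ∣ u ∧ (l : ℤ) ∣ v) → (l : ℤ) ^ 2 ∣ qform c u v →
      ∃ r ∈ R, (l : ℤ) ^ 2 ∣ (u - r * v)) :
    (badSet c Y M pu pv l).card ≤ 5 * (Y ^ 2 / l ^ 2) + 8 * Y := by
  classical
  set S0 := ((range Y).filter fun i : ℕ => (l : ℤ) ∣ (pu + M * (i : ℤ) - 0)) ×ˢ
    ((range Y).filter fun i : ℕ => (l : ℤ) ∣ (pv + M * (i : ℤ) - 0)) with hS0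
  set S1 := fun r : ℤ => (range Y).biUnion fun j =>
    ((range Y).filter fun i : ℕ =>
      ((l ^ 2 : ℕ) : ℤ) ∣ (pu + M * (i : ℤ) - r * (pv + M * (j : ℤ)))).image
        fun i => (i, j) with hS1
  have hsub : badSet c Y M pu pv l ⊆ S0 ∪ R.biUnion S1 := by
    intro p hp
    rw [badSet, Finset.mem_filter, Finset.mem_product] at hp
    by_cases hb : (l : ℤ) ∣ pu + M * (p.1 : ℤ) ∧ (l : ℤ) ∣ pv + M * (p.2 : ℤ)
    · apply Finset.mem_union_left
      rw [hS0, Finset.mem_product, Finset.mem_filter, Finset.mem_filter]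
      simpa using ⟨⟨Finset.mem_range.mp hp.1.1, hb.1⟩, Finset.mem_range.mp hp.1.2, hb.2⟩
    · obtain ⟨r, hr, hd⟩ := hroot _ _ hb hp.2
      apply Finset.mem_union_right
      rw [Finset.mem_biUnion]
      refine ⟨r, hr, ?_⟩
      simp only [hS1, Finset.mem_biUnion, Finset.mem_image, Finset.mem_filter]
      exact ⟨p.2, hp.1.2, p.1, ⟨hp.1.1, by exact_mod_cast hd⟩, rfl⟩
  have h0 : S0.card ≤ (Y / l + 1) * (Y / l + 1) := by
    rw [hS0, Finset.card_product]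
    exact Nat.mul_le_mul (card_filter_dvd_le Y l M pu 0 hM)
      (card_filter_dvd_le Y l M pv 0 hM)
  have hM2 : IsCoprime M ((l ^ 2 : ℕ) : ℤ) := by push_cast; exact hM.pow_right
  have h1 : ∀ r : ℤ, (S1 r).card ≤ Y * (Y / l ^ 2 + 1) := by
    intro r
    calc (S1 r).card ≤ ∑ j ∈ range Y, (Y / l ^ 2 + 1) :=
          Finset.card_biUnion_le.trans (Finset.sum_le_sum fun j _ =>
            Finset.card_image_le.trans
              (card_filter_dvd_le Y (l ^ 2) M pu _ hM2))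
      _ = _ := by rw [Finset.sum_const, Finset.card_range, smul_eq_mul]
  have h2 : (R.biUnion S1).card ≤ 4 * (Y * (Y / l ^ 2 + 1)) := by
    calc (R.biUnion S1).card ≤ ∑ r ∈ R, (Y * (Y / l ^ 2 + 1)) :=
          Finset.card_biUnion_le.trans (Finset.sum_le_sum fun r _ => h1 r)
      _ = R.card * (Y * (Y / l ^ 2 + 1)) := by rw [Finset.sum_const, smul_eq_mul]
      _ ≤ _ := Nat.mul_le_mul_right _ hR
  have h3 : (Y / l) * (Y / l) ≤ Y ^ 2 / l ^ 2 := by
    rw [Nat.le_div_iff_mul_le (pow_pos hl.pos 2)]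
    calc Y / l * (Y / l) * l ^ 2 = (Y / l * l) * (Y / l * l) := by ring
      _ ≤ Y * Y := Nat.mul_le_mul (Nat.div_mul_le_self _ _) (Nat.div_mul_le_self _ _)
      _ = Y ^ 2 := by ring
  have h4 : Y * (Y / l ^ 2) ≤ Y ^ 2 / l ^ 2 := by
    rw [pow_two Y]; exact Nat.mul_div_le_mul_div_assoc Y Y (l ^ 2)
  have h5 : Y / l ≤ Y := Nat.div_le_self _ _
  have htot := (Finset.card_le_card hsub).trans (Finset.card_union_le _ _)
  rcases Nat.eq_zero_or_pos Y with hY | hY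
  · subst hY; simp [badSet]
  · nlinarith [h0, h2, h3, h4, h5, htot, hY]

/-- The sum of `N / l ^ 2` over `l ≥ 16` is at most `N / 15`. -/
theorem sum_div_sq_le (N X : ℕ) (s : Finset ℕ) (hs : ∀ l ∈ s, 16 ≤ l ∧ l ≤ X) :
    15 * ∑ l ∈ s, N / l ^ 2 ≤ N := by
  rcases lt_or_ge X 15 with hX | hX
  · have : s = ∅ := Finset.eq_empty_of_forall_notMem fun l hl => by
      have := hs l hl; omega
    simp [this]
  have h1 : ((∑ l ∈ s, N / l ^ 2 : ℕ) : ℚ) ≤ ∑ l ∈ s, (N : ℚ) * ((l : ℚ) ^ 2)⁻¹ := by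
    push_cast
    refine Finset.sum_le_sum fun l hl => ?_
    rw [← div_eq_mul_inv]
    exact_mod_cast (Nat.cast_div_le (α := ℚ) (m := N) (n := l ^ 2))
  have h2 : ∑ l ∈ s, ((l : ℚ) ^ 2)⁻¹ ≤ ∑ l ∈ Finset.Ioc 15 X, ((l : ℚ) ^ 2)⁻¹ :=
    Finset.sum_le_sum_of_subset_of_nonneg
      (fun l hl => Finset.mem_Ioc.mpr ⟨by have := hs l hl; omega, (hs l hl).2⟩)
      (fun l _ _ => by positivity)
  have h3 : ∑ l ∈ Finset.Ioc 15 X, ((l : ℚ) ^ 2)⁻¹ ≤ (15 : ℚ)⁻¹ - (X : ℚ)⁻¹ := by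
    have := sum_Ioc_inv_sq_le_sub (α := ℚ) (k := 15) (n := X) (by norm_num) hX
    simpa using this
  have h4 : (0 : ℚ) ≤ (X : ℚ)⁻¹ := by positivity
  have h5 : ((∑ l ∈ s, N / l ^ 2 : ℕ) : ℚ) ≤ (N : ℚ) * (15 : ℚ)⁻¹ := by
    refine h1.trans ?_
    rw [← Finset.mul_sum]
    exact mul_le_mul_of_nonneg_left (by linarith) (Nat.cast_nonneg N)
  have h6 : ((15 * ∑ l ∈ s, N / l ^ 2 : ℕ) : ℚ) ≤ (N : ℚ) := by
    rw [Nat.cast_mul]
    push_cast at h5 ⊢
    linarith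
  exact_mod_cast h6

/-- Two short primitive vectors on the same line modulo a large `q` are equal up to sign. -/
theorem eq_or_eq_neg_of_short (q B r u v u' v' : ℤ) (hq : 2 * B ^ 2 < q)
    (hu : |u| ≤ B) (hv : |v| ≤ B) (hu' : |u'| ≤ B) (hv' : |v'| ≤ B)
    (hc : IsCoprime u v) (hc' : IsCoprime u' v')
    (h : q ∣ u - r * v) (h' : q ∣ u' - r * v') :
    (u' = u ∧ v' = v) ∨ (u' = -u ∧ v' = -v) := by
  have hd : q ∣ u * v' - u' * v := by
    have e : u * v' - u' * v = (u - r * v) * v' - (u' - r * v') * v := by ring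
    rw [e]; exact dvd_sub (h.mul_right _) (h'.mul_right _)
  have hB : 0 ≤ B := (abs_nonneg u).trans hu
  have hlt : |u * v' - u' * v| < q := by
    have h1 : |u * v'| ≤ B * B := by rw [abs_mul]; exact mul_le_mul hu hv' (abs_nonneg _) hB
    have h2 : |u' * v| ≤ B * B := by rw [abs_mul]; exact mul_le_mul hu' hv (abs_nonneg _) hB
    have := abs_sub (u * v') (u' * v)
    nlinarith
  have heq : u * v' = u' * v := by
    have := Int.eq_zero_of_abs_lt_dvd hd hlt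
    linarith
  obtain ⟨a, b, hab⟩ := hc
  set k := a * u' + b * v' with hk
  have e1 : u' = k * u := by rw [hk]; linear_combination -u' * hab - b * heq
  have e2 : v' = k * v := by rw [hk]; linear_combination -v' * hab + a * heq
  have hku : IsUnit k := hc'.isUnit_of_dvd' ⟨u, e1⟩ ⟨v, e2⟩
  rcases Int.isUnit_iff.mp hku with hk1 | hk1
  · left; rw [hk1] at e1 e2; simp [e1, e2]
  · right; rw [hk1] at e1 e2; simp [e1, e2]

/-- A large prime spoils at most eight primitive points of the box. -/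
theorem card_large_le (c : Fin 5 → ℤ) (Y : ℕ) (M pu pv : ℤ) (l : ℕ) (hM : M ≠ 0)
    (B : ℤ) (hB : 2 * B ^ 2 < (l : ℤ) ^ 2) (hl : l.Prime)
    (hbu : ∀ i < Y, |pu + M * (i : ℤ)| ≤ B) (hbv : ∀ j < Y, |pv + M * (j : ℤ)| ≤ B)
    (R : Finset ℤ) (hR : R.card ≤ 4)
    (hroot : ∀ u v : ℤ, ¬ ((l : ℤ) ∣ u ∧ (l : ℤ) ∣ v) → (l : ℤ) ^ 2 ∣ qform c u v →
      ∃ r ∈ R, (l : ℤ) ^ 2 ∣ (u - r * v)) :
    ((badSet c Y M pu pv l).filter fun p =>
      IsCoprime (pu + M * (p.1 : ℤ)) (pv + M * (p.2 : ℤ))).card ≤ 8 := by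
  classical
  set S := (badSet c Y M pu pv l).filter fun p =>
      IsCoprime (pu + M * (p.1 : ℤ)) (pv + M * (p.2 : ℤ)) with hS
  set T := fun r : ℤ => S.filter fun p =>
    (l : ℤ) ^ 2 ∣ (pu + M * (p.1 : ℤ) - r * (pv + M * (p.2 : ℤ))) with hT
  have hmem : ∀ p ∈ S, p.1 < Y ∧ p.2 < Y ∧
      IsCoprime (pu + M * (p.1 : ℤ)) (pv + M * (p.2 : ℤ)) ∧
      (l : ℤ) ^ 2 ∣ qform c (pu + M * (p.1 : ℤ)) (pv + M * (p.2 : ℤ)) := by
    intro p hp
    rw [hS, Finset.mem_filter, badSet, Finset.mem_filter, Finset.mem_product,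
      Finset.mem_range, Finset.mem_range] at hp
    exact ⟨hp.1.1.1, hp.1.1.2, hp.2, hp.1.2⟩
  have hsub : S ⊆ R.biUnion T := by
    intro p hp
    obtain ⟨-, -, h3, h4⟩ := hmem p hp
    have hnd : ¬ ((l : ℤ) ∣ pu + M * (p.1 : ℤ) ∧ (l : ℤ) ∣ pv + M * (p.2 : ℤ)) := by
      rintro ⟨a, b⟩
      exact (Nat.prime_iff_prime_int.mp hl).not_isUnit (h3.isUnit_of_dvd' a b)
    obtain ⟨r, hr, hd⟩ := hroot _ _ hnd h4
    exact Finset.mem_biUnion.mpr ⟨r, hr, Finset.mem_filter.mpr ⟨hp, hd⟩⟩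
  have hT2 : ∀ r : ℤ, (T r).card ≤ 2 := by
    intro r
    by_contra hcon
    obtain ⟨x, y, z, hx, hy, hz, hxy, hxz, hyz⟩ := Finset.two_lt_card_iff.mp (not_le.mp hcon)
    have key : ∀ p ∈ T r, ∀ p' ∈ T r, p ≠ p' →
        pu + M * (p'.1 : ℤ) = -(pu + M * (p.1 : ℤ)) ∧
          pv + M * (p'.2 : ℤ) = -(pv + M * (p.2 : ℤ)) := by
      intro p hp p' hp' hne
      rw [hT, Finset.mem_filter] at hp hp'
      obtain ⟨a1, a2, a3, -⟩ := hmem p hp.1
      obtain ⟨b1, b2, b3, -⟩ := hmem p' hp'.1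
      rcases eq_or_eq_neg_of_short ((l : ℤ) ^ 2) B r _ _ _ _ hB (hbu _ a1) (hbv _ a2)
        (hbu _ b1) (hbv _ b2) a3 b3 hp.2 hp'.2 with ⟨e1, e2⟩ | h
      · exfalso
        apply hne
        have e1' : (p.1 : ℤ) = p'.1 := mul_left_cancel₀ hM (by linarith)
        have e2' : (p.2 : ℤ) = p'.2 := mul_left_cancel₀ hM (by linarith)
        exact Prod.ext (by exact_mod_cast e1') (by exact_mod_cast e2')
      · exact h
    obtain ⟨p1, p2⟩ := key x hx y hy hxy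
    obtain ⟨q1, q2⟩ := key x hx z hz hxz
    have e1' : (y.1 : ℤ) = z.1 := mul_left_cancel₀ hM (by linarith)
    have e2' : (y.2 : ℤ) = z.2 := mul_left_cancel₀ hM (by linarith)
    exact hyz (Prod.ext (by exact_mod_cast e1') (by exact_mod_cast e2'))
  calc S.card ≤ ∑ r ∈ R, 2 :=
        (Finset.card_le_card hsub).trans
          (Finset.card_biUnion_le.trans (Finset.sum_le_sum fun r _ => hT2 r))
    _ = R.card * 2 := by rw [Finset.sum_const, smul_eq_mul]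
    _ ≤ 8 := by omega

/-- The bound on the values in a box. -/
theorem abs_qform_le (c : Fin 5 → ℤ) (u v B : ℤ) (hu : |u| ≤ B) (hv : |v| ≤ B) :
    |qform c u v| ≤ (∑ i, |c i|) * B ^ 4 := by
  have hB : 0 ≤ B := (abs_nonneg u).trans hu
  have key : ∀ (a : ℤ) (i j : ℕ), i + j = 4 → |a * u ^ i * v ^ j| ≤ |a| * B ^ 4 := by
    intro a i j hij
    rw [abs_mul, abs_mul, abs_pow, abs_pow, mul_assoc, ← hij, pow_add]
    gcongr
  have h0 := key (c 0) 4 0 rfl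
  have h1 := key (c 1) 3 1 rfl
  have h2 := key (c 2) 2 2 rfl
  have h3 := key (c 3) 1 3 rfl
  have h4 := key (c 4) 0 4 rfl
  simp only [pow_zero, mul_one, pow_one] at h0 h1 h2 h3 h4
  rw [Fin.sum_univ_five]
  simp only [qform]
  calc |c 0 * u ^ 4 + c 1 * u ^ 3 * v + c 2 * u ^ 2 * v ^ 2 + c 3 * u * v ^ 3 + c 4 * v ^ 4|
      ≤ |c 0 * u ^ 4| + |c 1 * u ^ 3 * v| + |c 2 * u ^ 2 * v ^ 2| + |c 3 * u * v ^ 3| +
          |c 4 * v ^ 4| := (abs_add_le _ _).trans (add_le_add ((abs_add_le _ _).trans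
            (add_le_add ((abs_add_le _ _).trans (add_le_add (abs_add_le _ _) le_rfl)) le_rfl))
            le_rfl)
    _ ≤ _ := by linarith

private theorem two_sq_lt (B l : ℤ) (h0 : 0 ≤ B) (h : 2 * B < l) : 2 * B ^ 2 < l ^ 2 := by
  nlinarith

/-- The sieve: in every large box some point has no square of a prime outside `M` dividing
its value. -/
theorem exists_good_point (hπ : ∀ k C : ℕ, ∀ᶠ n : ℕ in Filter.atTop,
      k * Nat.primeCounting (C * n) ≤ n)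
    (c : Fin 5 → ℤ) (M : ℕ) (hM : M ≠ 0)
    (h16 : ∀ l : ℕ, l.Prime → l < 16 → l ∣ M)
    (hroot : ∀ l : ℕ, l.Prime → ¬ l ∣ M → ∃ R : Finset ℤ, R.card ≤ 4 ∧
      ∀ u v : ℤ, ¬ ((l : ℤ) ∣ u ∧ (l : ℤ) ∣ v) → (l : ℤ) ^ 2 ∣ qform c u v →
      ∃ r ∈ R, (l : ℤ) ^ 2 ∣ (u - r * v))
    (C : ℕ) :
    ∀ᶠ Y : ℕ in Filter.atTop, ∀ pu pv : ℤ,
      (∀ l : ℕ, l.Prime → l ∣ M → ¬ ((l : ℤ) ∣ pu ∧ (l : ℤ) ∣ pv)) →
      (∀ i < Y, |pu + (M : ℤ) * (i : ℤ)| ≤ (C : ℤ) * Y) →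
      (∀ j < Y, |pv + (M : ℤ) * (j : ℤ)| ≤ (C : ℤ) * Y) →
      ∃ i < Y, ∃ j < Y, ∀ l : ℕ, l.Prime → ¬ l ∣ M →
        ¬ (l : ℤ) ^ 2 ∣ qform c (pu + (M : ℤ) * (i : ℤ)) (pv + (M : ℤ) * (j : ℤ)) := by
  classical
  obtain ⟨p0, hp0, hp0prime⟩ := Nat.exists_infinite_primes (M + 16)
  have hp0M : ¬ p0 ∣ M := fun h => by
    have := Nat.le_of_dvd (Nat.pos_of_ne_zero hM) h; omega
  set C' : ℕ := (∑ i, (c i).natAbs) * C ^ 4 with hC'
  have hA := hπ 64 (2 * (C + 1))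
  have hB := hπ 64 C'
  rw [Filter.eventually_atTop] at hA hB
  obtain ⟨N1, hN1⟩ := hA
  obtain ⟨N2, hN2⟩ := hB
  filter_upwards [Filter.eventually_ge_atTop N1, Filter.eventually_ge_atTop N2,
    Filter.eventually_ge_atTop p0, Filter.eventually_ge_atTop 4] with Y hY1 hY2 hY0 hY4
  intro pu pv hprim hbu hbv
  set Z := 2 * (C + 1) * Y with hZ
  set U := fun p : ℕ × ℕ => pu + (M : ℤ) * (p.1 : ℤ) with hU
  set V := fun p : ℕ × ℕ => pv + (M : ℤ) * (p.2 : ℤ) with hV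
  set box := range Y ×ˢ range Y with hbox
  set P1 := (range (Z + 1)).filter fun l => l.Prime ∧ ¬ l ∣ M with hP1
  set P2 := (range (C' * Y ^ 2 + 1)).filter fun l => l.Prime ∧ ¬ l ∣ M ∧ Z < l with hP2
  set W1 := P1.biUnion fun l => badSet c Y M pu pv l with hW1
  set W2 := P2.biUnion fun l => (badSet c Y M pu pv l).filter fun p =>
    IsCoprime (pu + (M : ℤ) * (p.1 : ℤ)) (pv + (M : ℤ) * (p.2 : ℤ)) with hW2
  set W0 := box.filter fun p => U p = 0 ∧ V p = 0 with hW0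
  have hcM : ∀ l : ℕ, l.Prime → ¬ l ∣ M → IsCoprime (M : ℤ) (l : ℤ) := fun l hl hlM =>
    (Nat.isCoprime_iff_coprime).mpr ((Nat.Prime.coprime_iff_not_dvd hl).mpr hlM).symm
  have hMz : (M : ℤ) ≠ 0 := by exact_mod_cast hM
  -- sizes
  have hp1card : P1.card ≤ Nat.primeCounting Z := by
    rw [Nat.primeCounting, ← Nat.primesBelow_card_eq_primeCounting', Nat.primesBelow]
    exact Finset.card_le_card fun l hl => by
      rw [hP1, Finset.mem_filter] at hl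
      exact Finset.mem_filter.mpr ⟨hl.1, hl.2.1⟩
  have hp2card : P2.card ≤ Nat.primeCounting (C' * Y ^ 2) := by
    rw [Nat.primeCounting, ← Nat.primesBelow_card_eq_primeCounting', Nat.primesBelow]
    exact Finset.card_le_card fun l hl => by
      rw [hP2, Finset.mem_filter] at hl
      exact Finset.mem_filter.mpr ⟨hl.1, hl.2.1⟩
  have hW0card : W0.card ≤ 1 := by
    rw [Finset.card_le_one]
    intro a ha b hb
    simp only [hW0, hU, hV, Finset.mem_filter] at ha hb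
    have e1 : (a.1 : ℤ) = b.1 := mul_left_cancel₀ hMz (by linarith [ha.2.1, hb.2.1])
    have e2 : (a.2 : ℤ) = b.2 := mul_left_cancel₀ hMz (by linarith [ha.2.2, hb.2.2])
    exact Prod.ext (by exact_mod_cast e1) (by exact_mod_cast e2)
  have hW1card : W1.card ≤ 5 * (∑ l ∈ P1, Y ^ 2 / l ^ 2) + P1.card * (8 * Y) := by
    calc W1.card ≤ ∑ l ∈ P1, (5 * (Y ^ 2 / l ^ 2) + 8 * Y) := by
          refine Finset.card_biUnion_le.trans (Finset.sum_le_sum fun l hl => ?_)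
          rw [hP1, Finset.mem_filter] at hl
          obtain ⟨R, hR, hr⟩ := hroot l hl.2.1 hl.2.2
          exact card_badSet_le c Y M pu pv l hl.2.1 (hcM l hl.2.1 hl.2.2) R hR hr
      _ = _ := by rw [Finset.sum_add_distrib, ← Finset.mul_sum, Finset.sum_const, smul_eq_mul]
  have hsum : 15 * ∑ l ∈ P1, Y ^ 2 / l ^ 2 ≤ Y ^ 2 := by
    refine sum_div_sq_le (Y ^ 2) Z P1 fun l hl => ?_
    rw [hP1, Finset.mem_filter, Finset.mem_range] at hl
    exact ⟨not_lt.mp fun h => hl.2.2 (h16 l hl.2.1 h), Nat.lt_succ_iff.mp hl.1⟩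
  have hW2card : W2.card ≤ P2.card * 8 := by
    calc W2.card ≤ ∑ l ∈ P2, 8 := by
          refine Finset.card_biUnion_le.trans (Finset.sum_le_sum fun l hl => ?_)
          rw [hP2, Finset.mem_filter] at hl
          obtain ⟨R, hR, hr⟩ := hroot l hl.2.1 hl.2.2.1
          refine card_large_le c Y M pu pv l hMz ((C : ℤ) * Y) ?_ hl.2.1 hbu hbv R hR hr
          have h1 : ((Z : ℕ) : ℤ) < (l : ℤ) := by exact_mod_cast hl.2.2.2
          rw [hZ] at h1
          push_cast at h1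
          exact two_sq_lt _ _ (by positivity) (by linarith [Int.natCast_nonneg Y])
      _ = _ := by rw [Finset.sum_const, smul_eq_mul]
  have hπ1 : 64 * Nat.primeCounting Z ≤ Y := hN1 Y hY1
  have hπ2 : 64 * Nat.primeCounting (C' * Y ^ 2) ≤ Y ^ 2 :=
    hN2 (Y ^ 2) (hY2.trans (Nat.le_self_pow two_ne_zero Y))
  have hlt : (W0 ∪ W1 ∪ W2).card < box.card := by
    have hb : box.card = Y ^ 2 := by rw [hbox, Finset.card_product, Finset.card_range]; ring
    have := (Finset.card_union_le (W0 ∪ W1) W2).trans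
      (Nat.add_le_add_right (Finset.card_union_le W0 W1) _)
    have hY16 : 16 ≤ Y ^ 2 := by rw [pow_two]; exact le_trans (by norm_num) (Nat.mul_le_mul hY4 hY4)
    have h8 : 64 * (P1.card * (8 * Y)) ≤ 8 * Y ^ 2 :=
      calc 64 * (P1.card * (8 * Y)) = 8 * Y * (64 * P1.card) := by ring
        _ ≤ 8 * Y * Y := Nat.mul_le_mul_left _ ((Nat.mul_le_mul_left 64 hp1card).trans hπ1)
        _ = 8 * Y ^ 2 := by ring
    omega
  obtain ⟨p, hp, hpW⟩ := Finset.exists_mem_notMem_of_card_lt_card hlt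
  simp only [Finset.mem_union, not_or] at hpW
  obtain ⟨⟨hp0', hp1'⟩, hp2'⟩ := hpW
  have hp12 := hp
  rw [hbox, Finset.mem_product, Finset.mem_range, Finset.mem_range] at hp12
  refine ⟨p.1, hp12.1, p.2, hp12.2, fun l hl hlM hdvd => ?_⟩
  have hnotsmall : ∀ q : ℕ, q.Prime → ¬ q ∣ M → q ≤ Z →
      ¬ (q : ℤ) ^ 2 ∣ qform c (U p) (V p) := by
    intro q hq hqM hqZ hd
    apply hp1'
    rw [hW1, Finset.mem_biUnion]
    exact ⟨q, Finset.mem_filter.mpr ⟨Finset.mem_range.mpr (by omega), hq, hqM⟩,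
      Finset.mem_filter.mpr ⟨hp, hd⟩⟩
  have hne : ¬ (U p = 0 ∧ V p = 0) := fun h => hp0' (Finset.mem_filter.mpr ⟨hp, h⟩)
  have hUb : |U p| ≤ (C : ℤ) * Y := hbu _ hp12.1
  have hVb : |V p| ≤ (C : ℤ) * Y := hbv _ hp12.2
  have hcop : IsCoprime (U p) (V p) := by
    refine Int.isCoprime_iff_nat_coprime.mpr (Nat.coprime_of_dvd fun q hq ha hb => ?_)
    have ha' : (q : ℤ) ∣ U p := Int.natCast_dvd.mpr ha
    have hb' : (q : ℤ) ∣ V p := Int.natCast_dvd.mpr hb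
    by_cases hqM : q ∣ M
    · have hqM' : (q : ℤ) ∣ (M : ℤ) := Int.natCast_dvd_natCast.mpr hqM
      exact hprim q hq hqM
        ⟨by simpa [hU] using dvd_sub ha' (hqM'.mul_right (p.1 : ℤ)),
          by simpa [hV] using dvd_sub hb' (hqM'.mul_right (p.2 : ℤ))⟩
    · refine hnotsmall q hq hqM ?_ ?_
      · have hle : (q : ℤ) ≤ (C : ℤ) * Y := by
          by_cases h0 : U p = 0
          · exact le_trans (Int.le_of_dvd (abs_pos.mpr fun h => hne ⟨h0, h⟩)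
              ((dvd_abs _ _).mpr hb')) hVb
          · exact le_trans (Int.le_of_dvd (abs_pos.mpr h0) ((dvd_abs _ _).mpr ha')) hUb
        have : q ≤ C * Y := by exact_mod_cast hle
        exact this.trans (Nat.mul_le_mul_right Y (by omega))
      · obtain ⟨a, ha''⟩ := ha'
        obtain ⟨b, hb''⟩ := hb'
        rw [ha'', hb'', qform_homog]
        exact Dvd.dvd.mul_right (pow_dvd_pow _ (by norm_num)) _
  have hF : qform c (U p) (V p) ≠ 0 := fun h => by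
    refine hnotsmall p0 hp0prime hp0M (hY0.trans (Nat.le_mul_of_pos_left Y (by omega))) ?_
    rw [h]; exact dvd_zero _
  by_cases hlZ : l ≤ Z
  · exact hnotsmall l hl hlM hlZ hdvd
  · apply hp2'
    rw [hW2, Finset.mem_biUnion]
    refine ⟨l, Finset.mem_filter.mpr ⟨Finset.mem_range.mpr ?_, hl, hlM, not_le.mp hlZ⟩,
      Finset.mem_filter.mpr ⟨Finset.mem_filter.mpr ⟨hp, hdvd⟩, hcop⟩⟩
    have h1 : (l : ℤ) ^ 2 ≤ |qform c (U p) (V p)| :=
      Int.le_of_dvd (abs_pos.mpr hF) ((dvd_abs _ _).mpr hdvd)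
    have h2 := h1.trans (abs_qform_le c _ _ _ hUb hVb)
    have hS : (∑ i, |c i|) * ((C : ℤ) * Y) ^ 4 = ((C' * Y ^ 4 : ℕ) : ℤ) := by
      rw [hC']; push_cast; ring
    rw [hS] at h2
    have h3 : l ^ 2 ≤ C' * Y ^ 4 := by exact_mod_cast h2
    have h4 : C' * Y ^ 4 ≤ (C' * Y ^ 2) ^ 2 := by
      rw [mul_pow, ← pow_mul]
      exact Nat.mul_le_mul_right _ (Nat.le_self_pow two_ne_zero C')
    exact Nat.lt_succ_of_le ((Nat.pow_le_pow_iff_left two_ne_zero).mp (h3.trans h4))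

end FLTA.LT2.Sieve
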