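import Mathlib

/-!
# The primes have density zero (LT2, part A)
-/

set_option autoImplicit false

namespace FLTA.LT2.Sieve

/-- `π (C n) = o(n)`. -/
theorem eventually_mul_primeCounting_le (k C : ℕ) :
    ∀ᶠ n : ℕ in Filter.atTop, k * Nat.primeCounting (C * n) ≤ n := by
  rcases Nat.eq_zero_or_pos C with rfl | hC
  · simp
  have hC' : (0 : ℝ) < C := by exact_mod_cast hC
  have ht : Filter.Tendsto (fun n : ℕ => (C : ℝ) * n) Filter.atTop Filter.atTop :=
    tendsto_natCast_atTop_atTop.const_mul_atTop hC'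
  have hlog : Filter.Tendsto (fun n : ℕ => Real.log ((C : ℝ) * n)) Filter.atTop Filter.atTop :=
    Real.tendsto_log_atTop.comp ht
  filter_upwards [ht.eventually (Chebyshev.eventually_primeCounting_le one_pos),
    hlog.eventually_ge_atTop ((k : ℝ) * ((Real.log 4 + 1) * C)),
    hlog.eventually_gt_atTop 0] with n hn hk hpos
  have hfl : ⌊(C : ℝ) * n⌋₊ = C * n := by
    rw [← Nat.cast_mul, Nat.floor_natCast]
  rw [hfl, le_div_iff₀ hpos] at hn
  have h2 : ((k * Nat.primeCounting (C * n) : ℕ) : ℝ) ≤ (n : ℝ) := by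
    push_cast
    refine le_of_mul_le_mul_right ?_ hpos
    calc (k : ℝ) * (Nat.primeCounting (C * n) : ℝ) * Real.log (C * n)
        = (k : ℝ) * ((Nat.primeCounting (C * n) : ℝ) * Real.log (C * n)) := by ring
      _ ≤ (k : ℝ) * ((Real.log 4 + 1) * ((C : ℝ) * n)) :=
          mul_le_mul_of_nonneg_left hn (Nat.cast_nonneg k)
      _ = (k : ℝ) * ((Real.log 4 + 1) * C) * n := by ring
      _ ≤ Real.log (C * n) * n := mul_le_mul_of_nonneg_right hk (Nat.cast_nonneg n)
      _ = (n : ℝ) * Real.log (C * n) := mul_comm _ _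
  exact_mod_cast h2

end FLTA.LT2.Sieve
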