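import Fermat.Agent.Elliptic.Switch.Orbit
import Fermat.Agent.EllReduction.IntModel
import Mathlib.RingTheory.RootsOfUnity.AlgebraicallyClosed

/-!
# A cusp of the five-switch family which is rational at the place over two

For invariants `c₄`, `c₆` of multiplicative reduction at `2`, the line `a ↦ P + a (kfv, -kfu)`
through a Klein point `P` passes through a cusp at a `2`-adically rational parameter; near it the
discriminant form takes every large valuation while `c₄`, `c₆` stay units after scaling.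
-/

set_option autoImplicit false

namespace FLTA.LT2.SwitchTwo

open FLTA.Elliptic.Switch FLTA.EllReduction

local notation "Qbar" => AlgebraicClosure ℚ

/-- The dehomogenised form of degree 20. -/
def hp {R : Type*} [CommRing R] (w : R) : R := 1 + 228 * w + 494 * w ^ 2 - 228 * w ^ 3 + w ^ 4

/-- Minus the dehomogenised form of degree 30. -/
def gp {R : Type*} [CommRing R] (w : R) : R :=
  1 - 522 * w - 10005 * w ^ 2 - 10005 * w ^ 4 + 522 * w ^ 5 + w ^ 6

/-- The cusp factor of the form of degree 12. -/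
def dp {R : Type*} [CommRing R] (w : R) : R := 1 - 11 * w - w ^ 2

/-- The first derivative factor. -/
def ap {R : Type*} [CommRing R] (w : R) : R := 11 - 66 * w - w ^ 2

/-- The second derivative factor. -/
def bp {R : Type*} [CommRing R] (w : R) : R := 1 - 66 * w - 11 * w ^ 2

lemma hp_gp {R : Type*} [CommRing R] (w : R) : hp w ^ 3 - gp w ^ 2 = 1728 * (w * dp w ^ 5) := by
  simp only [hp, gp, dp]; ring

section Forms

variable {K : Type*} [Field K] {u v : K}

lemma kH_eq (hv : v ≠ 0) : kH u v = (v ^ 10) ^ 2 * hp ((u / v) ^ 5) := by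
  simp only [kH, hp]; field_simp

lemma kT_eq (hv : v ≠ 0) : kT u v = -((v ^ 10) ^ 3) * gp ((u / v) ^ 5) := by
  simp only [kT, gp]; field_simp; ring

lemma kf_eq (hv : v ≠ 0) : kf u v = u * v * v ^ 10 * dp ((u / v) ^ 5) := by
  simp only [kf, dp]; field_simp

lemma line_fst (hv : v ≠ 0) (a : K) :
    u + a * kfv u v = u * (1 + a * (v ^ 10 * ap ((u / v) ^ 5))) := by
  simp only [kfv, ap]; field_simp

lemma line_snd (hv : v ≠ 0) (a : K) :
    v - a * kfu u v = v * (1 - a * (v ^ 10 * bp ((u / v) ^ 5))) := by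
  simp only [kfu, bp]; field_simp

lemma scaled_eq [CharZero K] {V r z g : K} (h : V ^ 10 = 2 ^ 20 * (r * z ^ 10)) :
    -((V ^ 10) ^ 3) * g / 2 ^ 60 + 1 = 1 - r ^ 3 * (z ^ 2) ^ 15 * g := by
  rw [h, mul_pow, ← pow_mul, mul_pow, ← pow_mul, ← pow_mul]
  field_simp
  ring

/-- A symmetry moves the line through a point to the line through the image. -/
lemma line_sym {g : Lin K} (hg : IsKleinSym g) (u v a : K) :
    g.fu (u + a * kfv u v) (v - a * kfu u v) =
        g.fu u v + a * kfv (g.fu u v) (g.fv u v) ∧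
      g.fv (u + a * kfv u v) (v - a * kfu u v) =
        g.fv u v - a * kfu (g.fu u v) (g.fv u v) := by
  have h1 := hg.hgu u v
  have h2 := hg.hgv u v
  simp only [Lin.fu, Lin.fv] at h1 h2 ⊢
  exact ⟨by linear_combination (-a) * h1, by linear_combination (-a) * h2⟩

end Forms

section Close

variable {L : Type*} [Field L] {A : ValuationSubring L}

/-- Two integral elements congruent up to `e`. -/
def Near (A : ValuationSubring L) (e : A.ValueGroup) (x y : L) : Prop :=
  x ∈ A ∧ y ∈ A ∧ A.valuation (x - y) ≤ e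

variable {e : A.ValueGroup} {x y x' y' : L}

lemma Near.refl (hx : x ∈ A) : Near A e x x := ⟨hx, hx, by simp⟩

lemma Near.natCast (n : ℕ) : Near A e (n : L) (n : L) := Near.refl (natCast_mem A n)

lemma Near.ofNat (n : ℕ) [n.AtLeastTwo] : Near A e (OfNat.ofNat n : L) (OfNat.ofNat n) := by
  rw [← Nat.cast_ofNat]; exact Near.natCast n

lemma Near.add (h : Near A e x y) (h' : Near A e x' y') : Near A e (x + x') (y + y') :=
  ⟨add_mem h.1 h'.1, add_mem h.2.1 h'.2.1, by
    rw [add_sub_add_comm]; exact A.valuation.map_add_le h.2.2 h'.2.2⟩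

lemma Near.neg (h : Near A e x y) : Near A e (-x) (-y) :=
  ⟨neg_mem h.1, neg_mem h.2.1, by
    rw [show -x - -y = -(x - y) by ring, Valuation.map_neg]; exact h.2.2⟩

lemma Near.sub (h : Near A e x y) (h' : Near A e x' y') : Near A e (x - x') (y - y') := by
  simpa only [sub_eq_add_neg] using h.add h'.neg

lemma Near.mul (h : Near A e x y) (h' : Near A e x' y') : Near A e (x * x') (y * y') :=
  ⟨mul_mem h.1 h'.1, mul_mem h.2.1 h'.2.1, by
    rw [show x * x' - y * y' = x * (x' - y') + (x - y) * y' by ring]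
    refine A.valuation.map_add_le ?_ ?_
    · rw [map_mul]
      exact mul_le_of_le_one_of_le ((A.valuation_le_one_iff _).mpr h.1) h'.2.2
    · rw [map_mul]
      exact mul_le_of_le_of_le_one h.2.2 ((A.valuation_le_one_iff _).mpr h'.2.1)⟩

lemma Near.pow (h : Near A e x y) (n : ℕ) : Near A e (x ^ n) (y ^ n) := by
  induction n with
  | zero => simpa using Near.refl (A := A) (e := e) (one_mem A)
  | succ n ih => simpa only [pow_succ] using ih.mul h

lemma Near.inv (h : Near A e x y) (hx : A.valuation x = 1) (hy : A.valuation y = 1) :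
    Near A e x⁻¹ y⁻¹ :=
  ⟨A.mem_of_valuation_le_one _ (by rw [map_inv₀, hx, inv_one]),
    A.mem_of_valuation_le_one _ (by rw [map_inv₀, hy, inv_one]), by
      have hx0 : x ≠ 0 := fun h0 => by rw [h0, map_zero] at hx; exact zero_ne_one hx
      have hy0 : y ≠ 0 := fun h0 => by rw [h0, map_zero] at hy; exact zero_ne_one hy
      rw [inv_sub_inv hx0 hy0, map_div₀, map_mul, hx, hy, one_mul, div_one, ← neg_sub,
        Valuation.map_neg]
      exact h.2.2⟩

lemma near_hp (h : Near A e x y) : Near A e (hp x) (hp y) :=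
  ((((Near.refl (one_mem A)).add ((Near.ofNat 228).mul h)).add
    ((Near.ofNat 494).mul (h.pow 2))).sub ((Near.ofNat 228).mul (h.pow 3))).add (h.pow 4)

lemma near_gp (h : Near A e x y) : Near A e (gp x) (gp y) :=
  (((((Near.refl (one_mem A)).sub ((Near.ofNat 522).mul h)).sub
    ((Near.ofNat 10005).mul (h.pow 2))).sub ((Near.ofNat 10005).mul (h.pow 4))).add
      ((Near.ofNat 522).mul (h.pow 5))).add (h.pow 6)

lemma near_dp (h : Near A e x y) : Near A e (dp x) (dp y) :=
  ((Near.refl (one_mem A)).sub ((Near.ofNat 11).mul h)).sub (h.pow 2)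

lemma near_ap (h : Near A e x y) : Near A e (ap x) (ap y) :=
  ((Near.ofNat 11).sub ((Near.ofNat 66).mul h)).sub (h.pow 2)

lemma valuation_eq_one_of_sub_lt {x y : L} (hy : A.valuation y = 1)
    (h : A.valuation (x - y) < 1) : A.valuation x = 1 := by
  rw [← sub_add_cancel x y, A.valuation.map_add_eq_of_lt_right (by rwa [hy]), hy]

end Close

section Two

variable {A : ValuationSubring Qbar} (hA : A.LiesOverPrime 2)

local notation "two" => ValuationSubring.valuation A (2 : AlgebraicClosure ℚ)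

include hA

lemma two_lt_one : two < 1 := by
  have := A.mem_nonunits_iff.mp hA
  simpa using this

lemma valuation_odd {n : ℤ} (hn : ¬ (2 : ℤ) ∣ n) : A.valuation (n : Qbar) = 1 :=
  EllReduction.valuation_intCast_of_not_dvd Nat.prime_two hA (by exact_mod_cast hn)

lemma valuation_le_two {n : ℤ} (hn : (2 : ℤ) ∣ n) : A.valuation (n : Qbar) ≤ two := by
  obtain ⟨m, rfl⟩ := hn
  push_cast
  rw [map_mul]
  exact mul_le_of_le_one_right' ((A.valuation_le_one_iff _).mpr (intCast_mem A m))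

lemma valuation_le_four {n : ℤ} (hn : (4 : ℤ) ∣ n) : A.valuation (n : Qbar) ≤ two ^ 2 := by
  obtain ⟨m, rfl⟩ := hn
  push_cast
  rw [show (4 : Qbar) * (m : Qbar) = 2 * (2 * (m : Qbar)) by ring, map_mul, map_mul, sq]
  exact mul_le_mul' le_rfl (mul_le_of_le_one_right' ((A.valuation_le_one_iff _).mpr
    (intCast_mem A m)))

/-- All factors are units at an element of the maximal ideal. -/
lemma units_of_lt {w : Qbar} (hw : A.valuation w < 1) :
    A.valuation (hp w) = 1 ∧ A.valuation (gp w) = 1 ∧ A.valuation (dp w) = 1 ∧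
      A.valuation (ap w) = 1 := by
  have h0 : Near A (A.valuation w) w 0 :=
    ⟨mem_of_valuation_lt_one hw, zero_mem A, by simp⟩
  have key : ∀ {a b : Qbar}, Near A (A.valuation w) a b → A.valuation b = 1 →
      A.valuation a = 1 := fun h hb => valuation_eq_one_of_sub_lt hb (h.2.2.trans_lt hw)
  refine ⟨key (near_hp h0) ?_, key (near_gp h0) ?_, key (near_dp h0) ?_, key (near_ap h0) ?_⟩
  · simp [hp]
  · simp [gp]
  · simp [dp]
  · have := valuation_odd hA (n := 11) (by norm_num)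
    simpa [ap] using this

/-- A root in the maximal ideal of `w dp(w)⁵ = δ hp(w)³`. -/
lemma exists_param {δ : Qbar} (hδ : A.valuation δ < 1) (hδ0 : δ ≠ 0) :
    ∃ w : Qbar, A.valuation w < 1 ∧ w * dp w ^ 5 = δ * hp w ^ 3 := by
  classical
  -- the reversed polynomial, up to the unit `-δ`
  let H : Polynomial Qbar := Polynomial.X ^ 4 + Polynomial.C 228 * Polynomial.X ^ 3 +
    Polynomial.C 494 * Polynomial.X ^ 2 - Polynomial.C 228 * Polynomial.X + 1
  let G : Polynomial Qbar := Polynomial.X *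
    (Polynomial.X ^ 2 - Polynomial.C 11 * Polynomial.X - 1) ^ 5
  let p : Polynomial Qbar := H ^ 3 - Polynomial.C δ⁻¹ * G
  have hH : H.Monic ∧ H.natDegree = 4 :=
    ⟨by simp only [H]; monicity!, by simp only [H]; compute_degree!⟩
  have hq : (Polynomial.X ^ 2 - Polynomial.C (11 : Qbar) * Polynomial.X - 1).natDegree = 2 := by
    compute_degree!
  have hq' : (Polynomial.X ^ 2 - Polynomial.C (11 : Qbar) * Polynomial.X - 1).Monic := by monicity!
  have hG : G.Monic ∧ G.natDegree = 11 := by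
    refine ⟨Polynomial.monic_X.mul (hq'.pow 5), ?_⟩
    simp only [G]
    rw [Polynomial.natDegree_mul Polynomial.X_ne_zero (hq'.pow 5).ne_zero, Polynomial.natDegree_X,
      Polynomial.natDegree_pow, hq]
  have hdeg : p.natDegree = 12 := by
    rw [Polynomial.natDegree_sub_eq_left_of_natDegree_lt, Polynomial.natDegree_pow, hH.2]
    rw [Polynomial.natDegree_C_mul (inv_ne_zero hδ0), hG.2, Polynomial.natDegree_pow, hH.2]
    norm_num
  have hmon : p.Monic := by
    refine (hH.1.pow 3).sub_of_left ?_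
    rw [Polynomial.degree_eq_natDegree (hH.1.pow 3).ne_zero, Polynomial.natDegree_pow, hH.2]
    refine Polynomial.degree_le_natDegree.trans_lt ?_
    rw [Polynomial.natDegree_C_mul (inv_ne_zero hδ0), hG.2]
    norm_num
  by_contra hcon
  push Not at hcon
  -- otherwise all roots are integral, so is the coefficient of degree `11`
  have hroots : ∀ y ∈ p.roots, y ∈ A := by
    intro y hy
    rw [Polynomial.mem_roots hmon.ne_zero, Polynomial.IsRoot] at hy
    by_contra hyA
    have hy0 : y ≠ 0 := fun h => hyA (h ▸ zero_mem A)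
    refine hcon y⁻¹ ?_ ?_
    · rw [map_inv₀]
      exact inv_lt_one_of_one_lt₀ (one_lt_valuation_of_notMem hyA)
    · simp only [p, H, G, Polynomial.eval_sub, Polynomial.eval_mul, Polynomial.eval_pow,
        Polynomial.eval_add, Polynomial.eval_X, Polynomial.eval_C, Polynomial.eval_one] at hy
      simp only [hp, dp]
      field_simp at hy ⊢
      linear_combination (-1 : Qbar) * hy
  have hc : p.coeff 11 ∈ A := by
    have hmem : ∀ s : Multiset Qbar, (∀ y ∈ s, y ∈ A) → s.sum ∈ A := fun s hs =>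
      multiset_sum_mem s hs
    have h := (IsAlgClosed.splits p).nextCoeff_eq_neg_sum_roots_of_monic hmon
    rw [Polynomial.nextCoeff_of_natDegree_pos (by omega), hdeg] at h
    rw [h]
    exact neg_mem (hmem _ hroots)
  have h11 : p.coeff 11 = (3 * 228) - δ⁻¹ := by
    have hG11 : G.coeff 11 = 1 := hG.2 ▸ hG.1.leadingCoeff
    have hH11 : (H ^ 3).coeff 11 = 3 * 228 := by
      have h1 : (H ^ 3).nextCoeff = 3 * H.nextCoeff := by
        rw [hH.1.nextCoeff_pow]; simp
      rw [Polynomial.nextCoeff_of_natDegree_pos (by rw [Polynomial.natDegree_pow, hH.2]; norm_num),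
        Polynomial.natDegree_pow, hH.2, Polynomial.nextCoeff_of_natDegree_pos (by omega), hH.2]
        at h1
      rw [h1]
      simp [H, Polynomial.coeff_X, Polynomial.coeff_one]
    simp only [p, Polynomial.coeff_sub, Polynomial.coeff_C_mul, hG11, hH11, mul_one]
  rw [h11] at hc
  have hinv : δ⁻¹ ∈ A := by
    have h684 : (3 * 228 : Qbar) ∈ A := by
      simpa using mul_mem (natCast_mem A 3) (natCast_mem A 228)
    simpa using sub_mem h684 hc
  have := (A.valuation_le_one_iff _).mpr hinv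
  rw [map_inv₀] at this
  exact absurd ((one_lt_inv₀ (A.valuation.pos_iff.mpr hδ0)).mpr hδ) (not_lt.mpr this)

/-- Near an element of `2A` both forms are `1` modulo four. -/
lemma near_one {y : Qbar} (hy : A.valuation y ≤ A.valuation 2) :
    Near A (A.valuation (2 : Qbar) ^ 2) (hp y) 1 ∧ Near A (A.valuation (2 : Qbar) ^ 2) (gp y) 1 := by
  have ht1 := two_lt_one hA
  have hyA : y ∈ A := mem_of_valuation_lt_one (hy.trans_lt ht1)
  have h2y : Near A (two ^ 2) (2 * y) 0 := ⟨mul_mem (by simpa using natCast_mem A 2) hyA,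
    zero_mem A, by rw [sub_zero, map_mul, sq]; exact mul_le_mul' le_rfl hy⟩
  have hy2 : Near A (two ^ 2) (y ^ 2) 0 := ⟨pow_mem hyA 2, zero_mem A, by
    rw [sub_zero, map_pow]; exact pow_le_pow_left₀ zero_le hy 2⟩
  have hr' : ∀ {c : Qbar}, c ∈ A → Near A (two ^ 2) c c := fun hc => Near.refl hc
  have hy' := hr' hyA
  constructor
  · have h := (((Near.refl (one_mem A)).add ((Near.ofNat 114).mul h2y)).add
      (((Near.ofNat 494).sub ((Near.ofNat 228).mul hy')).mul hy2)).add (hy2.pow 2)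
    convert h using 1 <;> first | (simp only [hp]; ring) | ring
  · have h := ((((Near.refl (one_mem A)).sub ((Near.ofNat 261).mul h2y)).sub
      ((Near.ofNat 10005).mul hy2)).sub ((Near.ofNat 10005).mul (hy2.pow 2))).add
      ((((Near.ofNat 522).mul hy').add (hy'.pow 2)).mul (hy2.pow 2))
    convert h using 1 <;> first | (simp only [gp]; ring) | ring

/-- The forms at a parameter near the cusp, at a Klein point in normal position. -/
lemma cusp_eval {c₄ c₆ : ℤ} (hc₆ : (4 : ℤ) ∣ c₆ + 1) (hc₄ : (4 : ℤ) ∣ c₄ - 1) {w ω v r a : Qbar}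
    (hwv : A.valuation w ≤ A.valuation 2) (hω : ω ^ 5 = w) (hω0 : ω ≠ 0) (hv0 : v ≠ 0)
    (hv : v ^ 10 = r) (hr : r = -(c₆ : Qbar) * hp w * ((c₄ : Qbar) * gp w)⁻¹)
    (hrv : A.valuation r = 1) {k : ℕ} (hk : 3 ≤ k)
    (hεv : A.valuation (a - -(r * ap w)⁻¹) = A.valuation (2 : Qbar) ^ k) :
    A.valuation (kH (ω * v + a * kfv (ω * v) v) (v - a * kfu (ω * v) v)) =
        A.valuation (2 : Qbar) ^ 40 ∧
      A.valuation (kT (ω * v + a * kfv (ω * v) v) (v - a * kfu (ω * v) v) / 2 ^ 60 + 1) ≤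
        A.valuation (2 : Qbar) ^ 2 ∧
      A.valuation (kf (ω * v + a * kfv (ω * v) v) (v - a * kfu (ω * v) v) / kf (ω * v) v) =
        A.valuation (2 : Qbar) ^ (k + 22) := by
  have ht1 := two_lt_one hA
  have ht0 : two ≠ 0 := A.valuation.ne_zero_iff.mpr two_ne_zero
  have hanti : ∀ {m n : ℕ}, m ≤ n → two ^ n ≤ two ^ m := fun h =>
    pow_le_pow_right_of_le_one' ht1.le h
  have hw1 : A.valuation w < 1 := hwv.trans_lt ht1
  have hc₄v : A.valuation (c₄ : Qbar) = 1 := valuation_odd hA fun h => by omega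
  obtain ⟨uh, ug, ud, ua⟩ := units_of_lt hA hw1
  have hquot : (ω * v / v) ^ 5 = w := by rw [mul_div_cancel_right₀ _ hv0, hω]
  set ts : Qbar := -(r * ap w)⁻¹ with hts
  set ε := a - ts with hεdef
  have hra : r * ap w ≠ 0 := mul_ne_zero (fun h => by rw [h, map_zero] at hrv; exact zero_ne_one hrv)
    (fun h => by rw [h, map_zero] at ua; exact zero_ne_one ua)
  have ea : a = ε + ts := by rw [hεdef]; ring
  have hap : ap w ≠ 0 := right_ne_zero_of_mul hra
  have hr0 : r ≠ 0 := left_ne_zero_of_mul hra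
  set U := ω * v + a * kfv (ω * v) v with hUdef
  set V := v - a * kfu (ω * v) v with hVdef
  have hU : U = ω * v * (ε * (r * ap w)) := by
    rw [hUdef, line_fst hv0, hquot, hv, ea, hts]
    field_simp
    ring
  have hV : V = 4 * v * (3 * dp w / ap w - ε * r * bp w / 4) := by
    rw [hVdef, line_snd hv0, hquot, hv, ea, hts]
    field_simp
    simp only [ap, bp, dp]
    ring
  set z := 3 * dp w / ap w - ε * r * bp w / 4 with hz
  -- `z ≡ 1 (mod 2)`
  have hz1 : A.valuation (z - 1) ≤ two := by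
    rw [hz, show 3 * dp w / ap w - ε * r * bp w / 4 - 1 =
        (-8 + 33 * w - 2 * w ^ 2) / ap w - ε * r * bp w / 4 by
      field_simp; simp only [ap, dp]; ring]
    refine A.valuation.map_sub_le ?_ ?_
    · rw [map_div₀, ua, div_one]
      rw [sub_eq_add_neg (-8 + 33 * w), ← neg_mul]
      refine A.valuation.map_add_le (A.valuation.map_add_le ?_ ?_) ?_
      · simpa using valuation_le_two hA (n := -8) (by norm_num)
      · rw [map_mul]
        exact mul_le_of_le_one_of_le ((A.valuation_le_one_iff _).mpr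
          (by simpa using natCast_mem A 33)) hwv
      · rw [show -2 * w ^ 2 = 2 * -(w * w) by ring, map_mul]
        exact mul_le_of_le_one_right' ((A.valuation_le_one_iff _).mpr (neg_mem (mul_mem
          (mem_of_valuation_lt_one hw1) (mem_of_valuation_lt_one hw1))))
    · rw [map_div₀, map_mul, map_mul, hεv, hrv, mul_one,
        show (4 : Qbar) = 2 * 2 by norm_num, map_mul, div_le_iff₀ (by
          exact zero_lt_iff.mpr (mul_ne_zero ht0 ht0))]
      calc two ^ k * A.valuation (bp w) ≤ two ^ k * 1 := by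
            refine mul_le_mul' le_rfl ((A.valuation_le_one_iff _).mpr ?_)
            simp only [bp]
            exact sub_mem (sub_mem (one_mem A) (mul_mem (by simpa using natCast_mem A 66)
              (mem_of_valuation_lt_one hw1))) (mul_mem (by simpa using natCast_mem A 11)
              (pow_mem (mem_of_valuation_lt_one hw1) 2))
        _ ≤ two ^ 3 := by rw [mul_one]; exact hanti hk
        _ = _ := by rw [pow_succ, sq, mul_assoc]
  have hzv : A.valuation z = 1 := valuation_eq_one_of_sub_lt (map_one _) (hz1.trans_lt ht1)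
  have hv4 : A.valuation (4 : Qbar) = two ^ 2 := by
    rw [show (4 : Qbar) = 2 ^ 2 by norm_num, map_pow]
  have hvv : A.valuation v = 1 := by
    have := congrArg A.valuation hv
    rw [map_pow, hrv] at this
    exact (pow_eq_one_iff.mp this).resolve_right (by norm_num)
  have hVv : A.valuation V = two ^ 2 := by rw [hV, map_mul, map_mul, hv4, hvv, hzv, mul_one, mul_one]
  have hV0 : V ≠ 0 := A.valuation.ne_zero_iff.mp (by rw [hVv]; exact pow_ne_zero _ ht0)
  set W := (U / V) ^ 5 with hW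
  have hWv : A.valuation W ≤ two := by
    rw [hW, hU, map_pow, map_div₀, hVv, map_mul, map_mul, map_mul, map_mul, hvv, hrv, ua, hεv,
      mul_one, mul_one, mul_one, div_pow, mul_pow, div_le_iff₀ (zero_lt_iff.mpr
        (pow_ne_zero _ (pow_ne_zero _ ht0))), ← map_pow, hω]
    calc A.valuation w * (two ^ k) ^ 5 ≤ two * (two ^ k) ^ 5 := mul_le_mul' hwv le_rfl
      _ ≤ two * (two ^ 2) ^ 5 := mul_le_mul' le_rfl (pow_le_pow_left₀ zero_le (hanti (by omega)) 5)
  obtain ⟨Wh, Wg, Wd, -⟩ := units_of_lt hA (hWv.trans_lt ht1)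
  refine ⟨?_, ?_, ?_⟩
  · rw [kH_eq hV0, ← hW, map_mul, Wh, mul_one, map_pow, map_pow, hVv, ← pow_mul, ← pow_mul]
  · have e : kT U V / 2 ^ 60 + 1 = 1 - r ^ 3 * (z ^ 2) ^ 15 * gp W := by
      have h10 : V ^ 10 = 2 ^ 20 * (r * z ^ 10) := by
        rw [hV, mul_pow, mul_pow, hv, show (4 : Qbar) ^ 10 = 2 ^ 20 by norm_num, mul_assoc]
      rw [kT_eq hV0, ← hW]
      exact scaled_eq h10
    rw [e]
    have near4 : ∀ {n : ℤ}, (4 : ℤ) ∣ n - 1 → Near A (two ^ 2) (n : Qbar) 1 := fun {n} hn =>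
      ⟨intCast_mem A n, one_mem A, by simpa using valuation_le_four hA hn⟩
    have hz2 : Near A (two ^ 2) (z ^ 2) 1 := by
      have hzA : z ∈ A := A.mem_of_valuation_le_one _ hzv.le
      refine ⟨pow_mem hzA 2, one_mem A, ?_⟩
      rw [show z ^ 2 - 1 = (z - 1) * ((z - 1) + 2) by ring, map_mul, sq]
      exact mul_le_mul' hz1 (A.valuation.map_add_le hz1 le_rfl)
    have hpoly : ∀ {y : Qbar}, A.valuation y ≤ two →
        Near A (two ^ 2) (hp y) 1 ∧ Near A (two ^ 2) (gp y) 1 := fun hy => near_one hA hy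
    obtain ⟨hw4, gw4⟩ := hpoly hwv
    obtain ⟨-, gW4⟩ := hpoly hWv
    have hr4 : Near A (two ^ 2) r 1 := by
      have h := ((near4 (n := -c₆) (by omega)).mul hw4).mul (((near4 hc₄).mul gw4).inv
        (by rw [map_mul, hc₄v, ug, one_mul]) (by simp))
      simpa [hr] using h
    have hfin := (((hr4.pow 3).mul (hz2.pow 15)).mul gW4)
    simp only [one_pow, mul_one] at hfin
    rw [← neg_sub, Valuation.map_neg]
    exact hfin.2.2
  · have hωv : A.valuation ω ≠ 0 := A.valuation.ne_zero_iff.mpr hω0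
    rw [kf_eq hV0, ← hW, kf_eq hv0, hquot, map_div₀, map_mul, map_mul, map_mul, map_mul, map_mul,
      map_mul, Wd, ud, mul_one, mul_one, map_pow, map_pow, hVv, hU, map_mul, map_mul, map_mul,
      map_mul, hvv, hεv, hrv, ua, mul_one, mul_one, one_pow, mul_one]
    rw [mul_one, mul_one, mul_assoc, mul_assoc, mul_div_cancel_left₀ _ hωv, ← pow_mul, ← pow_add,
      ← pow_add]

/-- The behaviour along the line near the rational approximation of the cusp, at one Klein point. -/
theorem cusp_aux {c₄ c₆ : ℤ} (hc₆ : (4 : ℤ) ∣ c₆ + 1) (hrel : (2 : ℤ) * 1728 ∣ c₄ ^ 3 - c₆ ^ 2)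
    (hne : c₄ ^ 3 ≠ c₆ ^ 2) {k : ℕ} (hk : 3 ≤ k) :
    ∃ (u v : Qbar) (a₀ : ℚ), A.valuation (a₀ : Qbar) = 1 ∧ kH u v = (c₄ : Qbar) ∧
      kT u v = (c₆ : Qbar) ∧
      ∀ a : Qbar, A.valuation (a - (a₀ : Qbar)) = two ^ k →
        A.valuation (kH (u + a * kfv u v) (v - a * kfu u v)) = two ^ 40 ∧
        A.valuation (kT (u + a * kfv u v) (v - a * kfu u v) / 2 ^ 60 + 1) ≤ two ^ 2 ∧
        A.valuation (kf (u + a * kfv u v) (v - a * kfu u v) / kf u v) = two ^ (k + 22) := by
  have ht1 := two_lt_one hA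
  have ht0 : two ≠ 0 := A.valuation.ne_zero_iff.mpr two_ne_zero
  have hle1 : ∀ n : ℕ, two ^ n ≤ 1 := fun n => pow_le_one₀ zero_le ht1.le
  have hanti : ∀ {m n : ℕ}, m ≤ n → two ^ n ≤ two ^ m := fun h =>
    pow_le_pow_right_of_le_one' ht1.le h
  obtain ⟨d, hd⟩ := hrel
  -- `c₄ ≡ 1 (mod 4)`
  have hc₄ : (4 : ℤ) ∣ c₄ - 1 := by
    obtain ⟨m, hm⟩ := hc₆
    have h1 : c₄ ^ 3 = c₆ ^ 2 + 2 * 1728 * d := by linear_combination hd
    rw [show c₆ = 4 * m - 1 by linear_combination hm] at h1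
    have h2 : (4 : ℤ) ∣ c₄ ^ 3 - 1 := ⟨4 * m ^ 2 - 2 * m + 864 * d, by linear_combination h1⟩
    have h3 : ((c₄ ^ 3 - 1 : ℤ) : ZMod 4) = 0 := (ZMod.intCast_zmod_eq_zero_iff_dvd _ 4).mpr h2
    refine (ZMod.intCast_zmod_eq_zero_iff_dvd _ 4).mp ?_
    push_cast at h3 ⊢
    generalize (c₄ : ZMod 4) = z at h3 ⊢
    revert z
    decide
  have hc₄v : A.valuation (c₄ : Qbar) = 1 := valuation_odd hA fun h => by omega
  have hc₆v : A.valuation (c₆ : Qbar) = 1 := valuation_odd hA fun h => by omega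
  set δ : ℚ := (2 * d : ℚ) / (c₄ : ℚ) ^ 3 with hδdef
  have hδ : A.valuation (δ : Qbar) ≤ two := by
    rw [hδdef]; push_cast
    rw [map_div₀, map_pow, hc₄v, one_pow, div_one, map_mul]
    exact mul_le_of_le_one_right' ((A.valuation_le_one_iff _).mpr (intCast_mem A d))
  have hd0 : d ≠ 0 := fun h => hne (by rw [h, mul_zero, sub_eq_zero] at hd; exact hd)
  have hc₄0 : c₄ ≠ 0 := fun h => by omega
  have hδ0 : (δ : Qbar) ≠ 0 := by
    rw [hδdef]; push_cast
    exact div_ne_zero (mul_ne_zero two_ne_zero (Int.cast_ne_zero.mpr hd0))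
      (pow_ne_zero _ (Int.cast_ne_zero.mpr hc₄0))
  obtain ⟨w, hw1, hwp⟩ := exists_param hA (hδ.trans_lt ht1) hδ0
  obtain ⟨uh, ug, ud, ua⟩ := units_of_lt hA hw1
  have hwv : A.valuation w ≤ two := by
    have h := congrArg A.valuation hwp
    rw [map_mul, map_mul, map_pow, map_pow, ud, uh, one_pow, one_pow, mul_one, mul_one] at h
    exact h ▸ hδ
  -- rational approximations of the parameter
  let Φ : ℚ → ℚ := fun x => δ * hp x ^ 3 * (dp x ^ 5)⁻¹
  have hΦ : ∀ n : ℕ, Near A (two ^ (n + 1)) ((Φ^[n] 0 : ℚ) : Qbar) w := by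
    intro n
    induction n with
    | zero =>
      refine ⟨by simpa using zero_mem A, mem_of_valuation_lt_one hw1, ?_⟩
      simpa using hwv
    | succ n ih =>
      rw [Function.iterate_succ_apply']
      set x : Qbar := ((Φ^[n] 0 : ℚ) : Qbar)
      have hx1 : A.valuation x < 1 := by
        rw [← sub_add_cancel x w]
        exact valuation_add_lt_one (ih.2.2.trans_lt ((pow_le_of_le_one zero_le ht1.le
          (Nat.succ_ne_zero n)).trans_lt ht1)) hw1
      obtain ⟨xh, -, xd, -⟩ := units_of_lt hA hx1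
      have hN : Near A (two ^ (n + 1)) (hp x ^ 3 * (dp x ^ 5)⁻¹) (hp w ^ 3 * (dp w ^ 5)⁻¹) :=
        ((near_hp ih).pow 3).mul (((near_dp ih).pow 5).inv (by rw [map_pow, xd, one_pow])
          (by rw [map_pow, ud, one_pow]))
      have hd5 : dp w ^ 5 ≠ 0 := pow_ne_zero _ fun h => by
        rw [h, map_zero] at ud; exact zero_ne_one ud
      have e1 : ((Φ (Φ^[n] 0) : ℚ) : Qbar) = (δ : Qbar) * (hp x ^ 3 * (dp x ^ 5)⁻¹) := by
        simp only [Φ, hp, dp, x]; push_cast; ring
      have e2 : w = (δ : Qbar) * (hp w ^ 3 * (dp w ^ 5)⁻¹) := by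
        rw [← mul_assoc, ← hwp, mul_inv_cancel_right₀ hd5]
      have hδA : (δ : Qbar) ∈ A := mem_of_valuation_lt_one (hδ.trans_lt ht1)
      refine ⟨e1 ▸ mul_mem hδA hN.1, mem_of_valuation_lt_one hw1, ?_⟩
      rw [e1, e2, ← mul_sub, map_mul, pow_succ' _ (n + 1)]
      exact mul_le_mul' hδ hN.2.2
  -- the Klein point
  set r : Qbar := -(c₆ : Qbar) * hp w * ((c₄ : Qbar) * gp w)⁻¹ with hr
  have hrv : A.valuation r = 1 := by
    rw [hr, map_mul, map_mul, map_inv₀, map_mul, Valuation.map_neg, hc₆v, uh, hc₄v, ug]; simp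
  have hg0 : gp w ≠ 0 := fun h => by rw [h, map_zero] at ug; exact zero_ne_one ug
  have hcQ : (c₄ : Qbar) ≠ 0 := Int.cast_ne_zero.mpr hc₄0
  have hkey : hp w ^ 3 * ((c₄ : Qbar) ^ 3 - 1728 * (2 * d)) = (c₄ : Qbar) ^ 3 * gp w ^ 2 := by
    have h := hp_gp w
    rw [hwp, hδdef] at h
    push_cast at h
    field_simp at h
    linear_combination h
  have hc6sq : (c₆ : Qbar) ^ 2 = (c₄ : Qbar) ^ 3 - 1728 * (2 * d) := by
    have h := congrArg (fun z : ℤ => (z : Qbar)) hd
    push_cast at h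
    linear_combination -h
  obtain ⟨v, hv⟩ := IsAlgClosed.exists_pow_nat_eq r (n := 10) (by norm_num)
  obtain ⟨ω, hω⟩ := IsAlgClosed.exists_pow_nat_eq w (n := 5) (by norm_num)
  have hv0 : v ≠ 0 := by
    rintro rfl; rw [← hv] at hrv; simp at hrv
  have hquot : (ω * v / v) ^ 5 = w := by rw [mul_div_cancel_right₀ _ hv0, hω]
  set a₁ : ℚ := Φ^[k] 0
  let r₁ : ℚ := -(c₆ : ℚ) * hp a₁ * ((c₄ : ℚ) * gp a₁)⁻¹
  refine ⟨ω * v, v, -(r₁ * ap a₁)⁻¹, ?_, ?_, ?_, fun a ha => ?_⟩
  · have hx1 : A.valuation ((a₁ : ℚ) : Qbar) < 1 := by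
      rw [← sub_add_cancel ((a₁ : ℚ) : Qbar) w]
      exact valuation_add_lt_one ((hΦ k).2.2.trans_lt ((pow_le_of_le_one zero_le ht1.le
        (Nat.succ_ne_zero k)).trans_lt ht1)) hw1
    obtain ⟨xh, xg, -, xa⟩ := units_of_lt hA hx1
    simp only [r₁, hp, gp, ap] at xh xg xa ⊢
    push_cast
    simp [map_mul, map_inv₀, hc₆v, hc₄v, xh, xg, xa]
  · rw [kH_eq hv0, hquot, hv, hr]
    field_simp
    linear_combination (hp w ^ 3) * hc6sq + hkey
  · rw [kT_eq hv0, hquot, hv, hr]
    field_simp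
    linear_combination (c₆ : Qbar) * (hp w ^ 3 * hc6sq + hkey)
  -- the approximation
  have hN := hΦ k
  set x : Qbar := (a₁ : Qbar)
  have hx1 : A.valuation x < 1 := by
    rw [← sub_add_cancel x w]
    exact valuation_add_lt_one (hN.2.2.trans_lt ((pow_le_of_le_one zero_le ht1.le
      (Nat.succ_ne_zero k)).trans_lt ht1)) hw1
  obtain ⟨xh, xg, -, xa⟩ := units_of_lt hA hx1
  have hr₁ : Near A (two ^ (k + 1)) (-(c₆ : Qbar) * hp x * ((c₄ : Qbar) * gp x)⁻¹) r :=
    ((Near.refl (neg_mem (intCast_mem A c₆))).mul (near_hp hN)).mul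
      (((Near.refl (intCast_mem A c₄)).mul (near_gp hN)).inv
        (by rw [map_mul, hc₄v, xg, one_mul]) (by rw [map_mul, hc₄v, ug, one_mul]))
  have ha₀ : Near A (two ^ (k + 1)) (((-(r₁ * ap a₁)⁻¹ : ℚ)) : Qbar) (-(r * ap w)⁻¹) := by
    have e : (((-(r₁ * ap a₁)⁻¹ : ℚ)) : Qbar) =
        -(-(c₆ : Qbar) * hp x * ((c₄ : Qbar) * gp x)⁻¹ * ap x)⁻¹ := by
      simp only [r₁, hp, gp, ap, x]; push_cast; ring
    rw [e]
    refine ((hr₁.mul (near_ap hN)).inv ?_ (by rw [map_mul, hrv, ua, one_mul])).neg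
    simp [map_mul, map_inv₀, Valuation.map_neg, hc₆v, hc₄v, xh, xg, xa]
  have hω0 : ω ≠ 0 := fun h => by
    rw [h, zero_pow (by norm_num)] at hω
    rw [← hω, zero_mul, eq_comm, mul_eq_zero] at hwp
    rcases hwp with h' | h'
    · exact hδ0 h'
    · simp [hp] at h'
  refine cusp_eval hA hc₆ hc₄ hwv hω hω0 hv0 hv hr hrv hk ?_
  rw [show a - -(r * ap w)⁻¹ = (a - ((-(r₁ * ap a₁)⁻¹ : ℚ) : Qbar)) +
    (((-(r₁ * ap a₁)⁻¹ : ℚ) : Qbar) - -(r * ap w)⁻¹) by ring,
    A.valuation.map_add_eq_of_lt_left, ha]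
  rw [ha]
  exact ha₀.2.2.trans_lt (pow_lt_pow_right_of_lt_one₀ (zero_lt_iff.mpr ht0) ht1 (by omega))

/-- **The rational cusp at two**: near `a₀` the line through any Klein point of `(c₄, c₆)`. -/
theorem exists_cusp {c₄ c₆ : ℤ} (hc₆ : (4 : ℤ) ∣ c₆ + 1)
    (hrel : (2 : ℤ) * 1728 ∣ c₄ ^ 3 - c₆ ^ 2) (hne : c₄ ^ 3 ≠ c₆ ^ 2) {k : ℕ} (hk : 3 ≤ k) :
    ∃ a₀ : ℚ, A.valuation (a₀ : Qbar) = 1 ∧
      ∀ u v : Qbar, kH u v = (c₄ : Qbar) → kT u v = (c₆ : Qbar) →
      ∀ a : Qbar, A.valuation (a - (a₀ : Qbar)) = two ^ k →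
        A.valuation (kH (u + a * kfv u v) (v - a * kfu u v)) = two ^ 40 ∧
        A.valuation (kT (u + a * kfv u v) (v - a * kfu u v) / 2 ^ 60 + 1) ≤ two ^ 2 ∧
        A.valuation (kf (u + a * kfv u v) (v - a * kfu u v) / kf u v) = two ^ (k + 22) := by
  obtain ⟨u₀, v₀, a₀, ha₀, hH, hT, h⟩ := cusp_aux hA hc₆ hrel hne hk
  refine ⟨a₀, ha₀, fun u v hH' hT' a ha => ?_⟩
  have hζ : ∃ ζ : Qbar, IsPrimitiveRoot ζ 5 := HasEnoughRootsOfUnity.exists_primitiveRoot Qbar 5
  obtain ⟨ζ, hζ⟩ := hζ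
  have h4 : (c₄ : Qbar) ≠ 0 := Int.cast_ne_zero.mpr fun h0 => by
    obtain ⟨d, hd⟩ := hrel
    rw [h0] at hd
    obtain ⟨m, hm⟩ := hc₆
    have : (2 : ℤ) ∣ c₆ ^ 2 := ⟨-1728 * d, by linear_combination -hd⟩
    have := Int.prime_two.dvd_of_dvd_pow this
    omega
  have h6 : (c₆ : Qbar) ≠ 0 := Int.cast_ne_zero.mpr fun h0 => by omega
  have hf : kf u₀ v₀ ≠ 0 := fun h0 => by
    have := kH_pow_three_sub u₀ v₀
    rw [hH, hT, h0, zero_pow (by norm_num), mul_zero, sub_eq_zero] at this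
    exact hne (Int.cast_injective (α := Qbar) (by push_cast; exact this))
  obtain ⟨g, hg, hgu, hgv⟩ := exists_kleinSym hζ (hH'.trans hH.symm) (hT'.trans hT.symm)
    (hH ▸ h4) (hT ▸ h6) hf
  obtain ⟨e1, e2⟩ := line_sym hg u₀ v₀ a
  rw [hgu, hgv] at e1 e2
  obtain ⟨α, hα, hfg⟩ := hg.hf
  rw [← e1, ← e2, hg.hH, hg.hT, ← hgu, ← hgv, hfg, hfg, mul_div_mul_left _ _ hα]
  exact h a ha

end Two

end FLTA.LT2.SwitchTwo
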