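import Fermat.Agent.EllReduction.IntModel
import Mathlib.NumberTheory.Padics.RingHoms

/-!
# Integral models at two with multiplicative reduction

A curve with a unit `c₄`, `c₆ ≡ -1 (mod 4)` and discriminant in `2ℤ₂` has a model
`y² + xy = x³ + a₂x² + a₄x + a₆` over `ℤ₂` with `a₂` a rational integer.
-/

set_option autoImplicit false

namespace FLTA.LT2.SwitchTwo

local notation "Qbar" => AlgebraicClosure ℚ

section Bridge

variable {A : ValuationSubring Qbar}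

theorem two_ne_zero_valuation : A.valuation (2 : Qbar) ≠ 0 :=
  A.valuation.ne_zero_iff.mpr two_ne_zero

theorem two_valuation_lt_one (hA : A.LiesOverPrime 2) : A.valuation (2 : Qbar) < 1 := by
  have := A.mem_nonunits_iff.mp hA
  simpa using this

theorem not_two_dvd_den (hA : A.LiesOverPrime 2) {y : ℚ}
    (hy : A.valuation ((y : ℚ) : Qbar) ≤ 1) : ¬ 2 ∣ y.den := by
  intro hd
  have hnum : ¬ (2 : ℤ) ∣ y.num := fun h => by
    have h' := Nat.dvd_gcd (Int.natCast_dvd.mp h) hd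
    rw [y.reduced] at h'
    exact absurd h' (by norm_num)
  have h1 : A.valuation (y.num : Qbar) = 1 :=
    EllReduction.valuation_intCast_of_not_dvd Nat.prime_two hA (by exact_mod_cast hnum)
  have h2 : A.valuation (y.den : Qbar) < 1 := by
    obtain ⟨e, he⟩ := hd
    rw [he, Nat.cast_mul, map_mul, Nat.cast_ofNat]
    exact mul_lt_one_of_lt_of_le (two_valuation_lt_one hA)
      ((A.valuation_le_one_iff _).mpr (natCast_mem A e))
  have he : (y : Qbar) * (y.den : Qbar) = (y.num : Qbar) := by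
    exact_mod_cast congrArg (fun z : ℚ => (z : Qbar)) y.mul_den_eq_num
  rw [← he, map_mul] at h1
  exact ((mul_le_of_le_one_left zero_le hy).trans_lt h2).ne h1

/-- A rational number small at a place over `2` is small in `ℚ₂`. -/
theorem exists_eq_two_pow_mul (hA : A.LiesOverPrime 2) {x : ℚ} {n : ℕ}
    (hx : A.valuation ((x : ℚ) : Qbar) ≤ A.valuation (2 : Qbar) ^ n) :
    ∃ z : ℤ_[2], (x : ℚ_[2]) = 2 ^ n * (z : ℚ_[2]) := by
  have hy : A.valuation (((x / 2 ^ n : ℚ)) : Qbar) ≤ 1 := by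
    rw [Rat.cast_div, Rat.cast_pow, Rat.cast_ofNat, map_div₀, map_pow]
    exact div_le_one_of_le₀ hx zero_le
  refine ⟨⟨((x / 2 ^ n : ℚ) : ℚ_[2]), Padic.norm_rat_le_one (not_two_dvd_den hA hy)⟩, ?_⟩
  show _ = 2 ^ n * ((x / 2 ^ n : ℚ) : ℚ_[2])
  push_cast
  field_simp

/-- A rational number of exact valuation at a place over `2`. -/
theorem exists_eq_two_pow_mul_unit (hA : A.LiesOverPrime 2) {x : ℚ} {n : ℕ}
    (hx : A.valuation ((x : ℚ) : Qbar) = A.valuation (2 : Qbar) ^ n) :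
    ∃ z : ℤ_[2], IsUnit z ∧ (x : ℚ_[2]) = 2 ^ n * (z : ℚ_[2]) := by
  have h0 : A.valuation (2 : Qbar) ^ n ≠ 0 := pow_ne_zero _ two_ne_zero_valuation
  have hx0 : x ≠ 0 := fun h => h0 (by rw [← hx, h]; simp)
  have hy : A.valuation (((x / 2 ^ n : ℚ)) : Qbar) = 1 := by
    rw [Rat.cast_div, Rat.cast_pow, Rat.cast_ofNat, map_div₀, map_pow, hx, div_self h0]
  have hy' : A.valuation (((2 ^ n / x : ℚ)) : Qbar) = 1 := by
    rw [Rat.cast_div, Rat.cast_pow, Rat.cast_ofNat, map_div₀, map_pow, hx, div_self h0]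
  refine ⟨⟨((x / 2 ^ n : ℚ) : ℚ_[2]), Padic.norm_rat_le_one (not_two_dvd_den hA hy.le)⟩, ?_, ?_⟩
  · refine IsUnit.of_mul_eq_one ⟨((2 ^ n / x : ℚ) : ℚ_[2]),
      Padic.norm_rat_le_one (not_two_dvd_den hA hy'.le)⟩ (Subtype.ext ?_)
    show ((x / 2 ^ n : ℚ) : ℚ_[2]) * ((2 ^ n / x : ℚ) : ℚ_[2]) = 1
    rw [← Rat.cast_mul, div_mul_div_comm, mul_comm x, div_self (mul_ne_zero (by positivity) hx0),
      Rat.cast_one]
  · show _ = 2 ^ n * ((x / 2 ^ n : ℚ) : ℚ_[2])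
    push_cast
    field_simp

end Bridge

theorem two_dvd_iff_not_isUnit (x : ℤ_[2]) : (2 : ℤ_[2]) ∣ x ↔ ¬ IsUnit x := by
  rw [← mem_nonunits_iff, ← IsLocalRing.mem_maximalIdeal, PadicInt.maximalIdeal_eq_span_p,
    Ideal.mem_span_singleton, Nat.cast_ofNat]

/-- The model at two. -/
theorem exists_two_model {c₄ c₆ D : ℤ_[2]} (h4 : IsUnit c₄) (h6 : (4 : ℤ_[2]) ∣ c₆ + 1)
    (hD : (2 : ℤ_[2]) ∣ D) (hrel : c₄ ^ 3 - c₆ ^ 2 = 1728 * D) (B : ℤ) :
    ∃ a₂ : ℤ, (3 : ℤ) ∣ 1 + 4 * a₂ - B ∧ ∃ x₄ x₆ : ℤ_[2],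
      48 * x₄ = (1 + 4 * (a₂ : ℤ_[2])) ^ 2 - c₄ ∧
      864 * x₆ = -c₆ - (1 + 4 * (a₂ : ℤ_[2])) ^ 3 + 72 * (1 + 4 * (a₂ : ℤ_[2])) * x₄ := by
  obtain ⟨e, he⟩ := h6
  obtain ⟨d, hd⟩ := hD
  obtain ⟨i, hi⟩ := h4.exists_right_inv
  -- `V = -c₆ / c₄` is congruent to one modulo four
  set V : ℤ_[2] := -c₆ * i with hV
  have hc4 : c₄ - V ^ 2 = 64 * (54 * d * i ^ 2) := by
    rw [hV]
    linear_combination (i ^ 2) * hrel + (1728 * i ^ 2) * hd - c₄ * (c₄ * i + 1) * hi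
  have hc6 : c₆ + V ^ 3 = 64 * (-(V * (54 * d * i ^ 2))) := by
    rw [hV]
    linear_combination (c₆ * i) * hc4 - c₆ * hi
  have hV4 : (4 : ℤ_[2]) ∣ V - 1 := by
    have hz : ∀ x : ℤ_[2], (4 : ℤ_[2]) ∣ x ↔ PadicInt.toZModPow 2 x = 0 := fun x => by
      rw [← RingHom.mem_ker, PadicInt.ker_toZModPow, Ideal.mem_span_singleton]
      norm_num
    rw [hz]
    have e1 := congrArg (PadicInt.toZModPow 2) hrel
    have e2 := congrArg (PadicInt.toZModPow 2) he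
    have e3 := congrArg (PadicInt.toZModPow 2) hi
    simp only [map_sub, map_mul, map_pow, map_add, map_one, map_ofNat, hV, map_neg] at e1 e2 e3 ⊢
    generalize PadicInt.toZModPow 2 c₄ = a at e1 e3 ⊢
    generalize PadicInt.toZModPow 2 c₆ = b at e1 e2 ⊢
    generalize PadicInt.toZModPow 2 i = j at e3 ⊢
    generalize PadicInt.toZModPow 2 D = t at e1
    generalize PadicInt.toZModPow 2 e = s at e2
    revert a b j t s
    decide
  -- the integer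
  set Bc : ℤ := ((PadicInt.toZModPow 6 V).val : ℤ) with hBc
  obtain ⟨q, hq⟩ : (64 : ℤ_[2]) ∣ (Bc : ℤ_[2]) - V := by
    have : PadicInt.toZModPow 6 ((Bc : ℤ_[2]) - V) = 0 := by
      rw [map_sub, map_intCast, hBc, Int.cast_natCast, ZMod.natCast_zmod_val, sub_self]
    rw [← RingHom.mem_ker, PadicInt.ker_toZModPow, Ideal.mem_span_singleton] at this
    norm_num at this
    exact this
  obtain ⟨g, hg⟩ := hV4
  obtain ⟨a₂, ha₂⟩ : (4 : ℤ) ∣ Bc + 64 * (B - Bc) - 1 := by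
    have h : (4 : ℤ_[2]) ∣ ((Bc + 64 * (B - Bc) - 1 : ℤ) : ℤ_[2]) := by
      push_cast
      exact ⟨16 * q + g + 16 * ((B : ℤ_[2]) - Bc), by linear_combination hq + hg⟩
    have h' := (PadicInt.pow_p_dvd_int_iff (p := 2) 2 (Bc + 64 * (B - Bc) - 1)).mp
      (by norm_num at h ⊢; exact h)
    norm_num at h'
    exact h'
  refine ⟨a₂, ⟨21 * (B - Bc), by linarith⟩, ?_⟩
  have hβ : (1 + 4 * (a₂ : ℤ_[2])) = V + 64 * (q + ((B : ℤ_[2]) - Bc)) := by
    have := congrArg (fun z : ℤ => (z : ℤ_[2])) ha₂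
    push_cast at this
    linear_combination -this + hq
  set β := (1 + 4 * (a₂ : ℤ_[2]))
  set r := q + ((B : ℤ_[2]) - Bc)
  have h3 : IsUnit (3 : ℤ_[2]) := by
    by_contra h
    rw [← two_dvd_iff_not_isUnit] at h
    have h2 := (PadicInt.pow_p_dvd_int_iff (p := 2) 1 3).mp (by simpa using h)
    norm_num at h2
  obtain ⟨j, hj⟩ := h3.exists_right_inv
  set x₄ : ℤ_[2] := 4 * (j * (2 * V * r + 64 * r ^ 2 - 54 * d * i ^ 2)) with hx₄
  refine ⟨x₄, j ^ 3 * (2 * (V * (54 * d * i ^ 2)) - 2 * (3 * V ^ 2 * r + 192 * V * r ^ 2 +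
    4096 * r ^ 3) + 9 * β * (j * (2 * V * r + 64 * r ^ 2 - 54 * d * i ^ 2))), ?_, ?_⟩
  · rw [hx₄, hβ]
    linear_combination 64 * (2 * V * r + 64 * r ^ 2 - 54 * d * i ^ 2) * hj + hc4
  · rw [hx₄, hβ]
    linear_combination hc6 + 32 * (2 * (V * (54 * d * i ^ 2)) - 2 * (3 * V ^ 2 * r + 192 * V * r ^ 2 +
      4096 * r ^ 3) + 9 * (V + 64 * r) * (j * (2 * V * r + 64 * r ^ 2 - 54 * d * i ^ 2))) *
      (9 * j ^ 2 + 3 * j + 1) * hj

/-- A rational number integral at every prime is an integer. -/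
theorem exists_int_of_forall_norm_le_one (x : ℚ)
    (h : ∀ (p : ℕ) [Fact p.Prime], ‖(x : ℚ_[p])‖ ≤ 1) : ∃ z : ℤ, (z : ℚ) = x := by
  refine ⟨x.num, (Rat.den_eq_one_iff x).mp ?_⟩
  by_contra hne
  obtain ⟨p, hp, hpd⟩ := Nat.exists_prime_and_dvd hne
  have := Fact.mk hp
  have hnum : ‖(x.num : ℚ_[p])‖ = 1 :=
    le_antisymm (Padic.norm_int_le_one _) (not_lt.mp fun hlt => by
      have h' := Nat.dvd_gcd (Int.natCast_dvd.mp (Padic.norm_intCast_lt_one_iff.mp hlt)) hpd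
      rw [x.reduced] at h'
      exact hp.not_dvd_one h')
  have hden : ‖(x.den : ℚ_[p])‖ < 1 := Padic.norm_natCast_lt_one_iff.mpr hpd
  have he : (x : ℚ_[p]) * (x.den : ℚ_[p]) = (x.num : ℚ_[p]) := by
    exact_mod_cast congrArg (fun z : ℚ => (z : ℚ_[p])) x.mul_den_eq_num
  have := congrArg norm he
  rw [norm_mul, hnum] at this
  exact (mul_lt_one_of_nonneg_of_lt_one_right (h p) (norm_nonneg _) hden).ne this

end FLTA.LT2.SwitchTwo
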