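import Fermat.Agent.LT2.Defs
import Fermat.Agent.LT2.SwitchTwoCusp
import Fermat.Agent.LT2.SwitchTwoModel
import Fermat.Agent.Elliptic.Switch.FamilyMember
import Fermat.Agent.Elliptic.Switch.SemistableLocal
import Fermat.Agent.Elliptic.Switch.ModThree
import Fermat.Agent.Elliptic.Switch.Congr
import Fermat.Agent.EllIsogeny.VarChange

/-!
# The switch at five with controlled reduction at two

A semistable curve with multiplicative reduction at `2` has, in its family with the same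
`5`-torsion, a semistable curve with irreducible `3`-torsion whose discriminant has `2`-adic
valuation divisible by three: take the parameter `2`-adically near the rational cusp.
-/

set_option autoImplicit false

open Polynomial WeierstrassCurve
open scoped WeierstrassCurve.Affine

namespace FLTA.LT2.SwitchTwo

open FLTA.Elliptic.Switch

local notation "Qbar" => AlgebraicClosure ℚ

/-- An isomorphism of groups restricted to the `5`-torsion. -/
noncomputable def torsionFiveEquiv {M N : Type*} [AddCommGroup M] [AddCommGroup N] (e : M ≃+ N) :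
    Submodule.torsionBy ℤ M (5 : ℕ) ≃+ Submodule.torsionBy ℤ N (5 : ℕ) where
  toFun P := ⟨e P.1, mem_torsion_five (by rw [← map_nsmul, five_nsmul_eq_zero, map_zero])⟩
  invFun P := ⟨e.symm P.1, mem_torsion_five (by rw [← map_nsmul, five_nsmul_eq_zero, map_zero])⟩
  left_inv P := Subtype.ext (e.symm_apply_apply _)
  right_inv P := Subtype.ext (e.apply_symm_apply _)
  map_add' P Q := Subtype.ext (map_add e _ _)

/-- A change of variables preserves the `5`-torsion as a Galois module. -/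
theorem exists_vc_equiv (E E' : WeierstrassCurve ℚ) (C : VariableChange ℚ) (h : C • E = E') :
    ∃ φ : Submodule.torsionBy ℤ (E⁄Qbar).Point (5 : ℕ) ≃+
        Submodule.torsionBy ℤ (E'⁄Qbar).Point (5 : ℕ),
      ∀ (σ : Qbar ≃ₐ[ℚ] Qbar) x, φ (σ • x) = σ • φ x := by
  subst h
  let e := (EllIsogeny.vcBaseEquiv E C Qbar).symm
  refine ⟨torsionFiveEquiv e, fun σ x => Subtype.ext ?_⟩
  show e (σ • x.1) = σ • e x.1
  apply (EllIsogeny.vcBaseEquiv E C Qbar).injective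
  rw [Affine.Point.algEquiv_smul_def, Affine.Point.algEquiv_smul_def, AddEquiv.apply_symm_apply,
    ← EllIsogeny.vcBaseEquiv_map E C σ.toAlgHom, AddEquiv.apply_symm_apply]

/-- An even direction whose point is off the cusps. -/
theorem exists_even_direction {u v : Qbar} (hf : kf u v ≠ 0) :
    ∃ k : ℤ, 2 ∣ k ∧ kf ((k : Qbar) * u + kfv u v) ((k : Qbar) * v - kfu u v) ≠ 0 := by
  by_contra hcon
  simp only [not_exists, not_and, not_not] at hcon
  apply hf
  have hp : kf (C u + X * C (kfv u v)) (C v - X * C (kfu u v)) = (0 : Qbar[X]) := by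
    refine eq_zero_of_infinite_isRoot _ (Set.Infinite.mono ?_ (Set.infinite_range_of_injective
      (f := fun n : ℕ => (((2 * (n + 1) : ℕ) : Qbar))⁻¹) fun a b hab => by simpa using hab))
    rintro _ ⟨n, rfl⟩
    set m : Qbar := ((2 * (n + 1) : ℕ) : Qbar) with hm
    have hm0 : m ≠ 0 := Nat.cast_ne_zero.mpr (by omega)
    show eval m⁻¹ _ = 0
    rw [← coe_evalRingHom, map_kf]
    simp only [map_add, map_sub, map_mul, coe_evalRingHom, eval_C, eval_X]
    have e := hcon (2 * (n + 1)) (dvd_mul_right 2 _)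
    rw [show ((2 * ((n : ℤ) + 1) : ℤ) : Qbar) = m by simp [hm]] at e
    have e1 : m * (u + m⁻¹ * kfv u v) = m * u + kfv u v := by field_simp
    have e2 : m * (v - m⁻¹ * kfu u v) = m * v - kfu u v := by field_simp
    rw [← e1, ← e2, kf_smul] at e
    exact (mul_eq_zero.mp e).resolve_left (pow_ne_zero _ hm0)
  have := congrArg (evalRingHom (0 : Qbar)) hp
  simpa [map_kf] using this

/-- The scalings of a point of the line. -/
theorem line_scale (u v : Qbar) (k t : Qbar) (hs : 1 + k * t ≠ 0) :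
    u + (k * u + kfv u v) * t = (1 + k * t) * (u + t / (1 + k * t) * kfv u v) ∧
      v + (k * v - kfu u v) * t = (1 + k * t) * (v - t / (1 + k * t) * kfu u v) := by
  constructor <;> field_simp <;> ring

/-- The parameter near the cusp, in an arithmetic progression. -/
theorem exists_progression (k L : ℕ) (hL : Odd L) (t₀ : ℚ) (ht₀ : ¬ 2 ∣ t₀.den) :
    ∃ c : ℤ, ∀ n : ℤ, ∃ w : ℤ, ((L : ℤ) * c + 2 ^ (k + 1) * (L : ℤ) * n) * t₀.den - t₀.num
      = 2 ^ k * (1 + 2 * w) := by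
  have h2 : ¬ (2 : ℤ) ∣ (L : ℤ) * t₀.den := by
    intro h
    rcases Int.prime_two.dvd_mul.mp h with h | h
    · obtain ⟨j, rfl⟩ := hL
      push_cast at h
      omega
    · exact ht₀ (by exact_mod_cast h)
  obtain ⟨x, y, hxy⟩ : IsCoprime ((L : ℤ) * t₀.den) (2 ^ (k + 1)) :=
    ((Int.prime_two.coprime_iff_not_dvd).mpr h2).symm.pow_right
  refine ⟨(t₀.num + 2 ^ k) * x, fun n =>
    ⟨(L : ℤ) * n * t₀.den - y * (t₀.num + 2 ^ k), ?_⟩⟩
  linear_combination (t₀.num + 2 ^ k) * hxy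

/-- Two curves with the same `a₁, a₂, a₃, c₄, c₆` are equal. -/
theorem eq_of_invariants {E E' : WeierstrassCurve ℚ} (h1 : E.a₁ = E'.a₁) (h2 : E.a₂ = E'.a₂)
    (h3 : E.a₃ = E'.a₃) (h4 : E.c₄ = E'.c₄) (h6 : E.c₆ = E'.c₆) : E = E' := by
  simp only [WeierstrassCurve.c₄, WeierstrassCurve.c₆, WeierstrassCurve.b₂, WeierstrassCurve.b₄,
    WeierstrassCurve.b₆, h1, h2, h3] at h4 h6
  have ha4 : E.a₄ = E'.a₄ := by linarith
  rw [ha4] at h6
  exact WeierstrassCurve.ext h1 h2 h3 ha4 (by linarith)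

theorem not_two_dvd_of_isUnit {n : ℤ} (h : IsUnit (n : ℤ_[2])) : ¬ (2 : ℤ) ∣ n := fun hd =>
  (two_dvd_iff_not_isUnit _).mp (by simpa using map_dvd (Int.castRingHom ℤ_[2]) hd) h

theorem padicInt_coe_injective {p : ℕ} [Fact p.Prime] :
    Function.Injective (PadicInt.Coe.ringHom (p := p)) := Subtype.coe_injective

theorem exists_switch_of_multTwo (W : WeierstrassCurve ℤ) (hΔ : W.Δ ≠ 0)
    (hW : W.IsSemistableModel) (h1 : W.a₁ = 1) (h3 : W.a₃ = 0) (h2 : (2 : ℤ) ∣ W.Δ) :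
    ∃ W' : WeierstrassCurve ℤ, W'.Δ ≠ 0 ∧ W'.IsSemistableModel ∧ W'.ModRepIsIrreducible 3 ∧
      TwoOK W' ∧ (2 : ℤ) ∣ W'.Δ ∧ TraceCong 5 W W' := by
  set E := W.map (Int.castRingHom ℚ) with hE
  obtain ⟨hc4, hc6⟩ := c₄_ne_zero_and_c₆_ne_zero W hΔ hW
  have hEΔ : E.Δ ≠ 0 := by rw [hE, WeierstrassCurve.map_Δ]; simpa using hΔ
  have hEc4 : E.c₄ = (W.c₄ : ℚ) := by rw [hE, WeierstrassCurve.map_c₄]; simp
  have hEc6 : E.c₆ = (W.c₆ : ℚ) := by rw [hE, WeierstrassCurve.map_c₆]; simp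
  obtain ⟨A, hA⟩ := FLTA.Galois.exists_liesOverPrime Nat.prime_two
  set τ := A.valuation (2 : Qbar) with hτ
  have hτ1 : τ < 1 := two_valuation_lt_one hA
  -- the invariants at two
  have h6 : (4 : ℤ) ∣ W.c₆ + 1 := ⟨-(3 * W.a₂ + 12 * W.a₂ ^ 2 + 16 * W.a₂ ^ 3)
      + 18 * (1 + 4 * W.a₂) * W.a₄ - 216 * W.a₆, by
    simp only [WeierstrassCurve.c₆, WeierstrassCurve.b₂, WeierstrassCurve.b₄, WeierstrassCurve.b₆,
      h1, h3]
    ring⟩
  obtain ⟨e, he⟩ := h2
  have hrel : (2 : ℤ) * 1728 ∣ W.c₄ ^ 3 - W.c₆ ^ 2 :=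
    ⟨e, by linear_combination -W.c_relation + 1728 * he⟩
  have hne : W.c₄ ^ 3 ≠ W.c₆ ^ 2 := fun h => hΔ (by linarith [W.c_relation])
  set v₂ := padicValInt 2 W.Δ with hv₂
  have hv1 : 1 ≤ v₂ := by
    have h := (padicValInt_dvd_iff (p := 2) 1 W.Δ).mp (by simp [he])
    exact h.resolve_left hΔ
  set k := (v₂ + 2) % 3 + 3 with hk
  obtain ⟨N, hN, hN3, hN1⟩ : ∃ N, v₂ + 5 * k = N + 10 ∧ 3 ∣ N ∧ 1 ≤ N :=
    ⟨v₂ + 5 * k - 10, by omega, by omega, by omega⟩
  obtain ⟨o, ho⟩ : (2 : ℤ) ^ v₂ ∣ W.Δ := by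
    exact_mod_cast padicValInt_dvd (p := 2) W.Δ
  have ho2 : ¬ (2 : ℤ) ∣ o := by
    rintro ⟨o', rfl⟩
    have h := (padicValInt_dvd_iff (p := 2) (v₂ + 1) W.Δ).mp
      (by push_cast; exact ⟨o', by rw [ho]; ring⟩)
    rcases h with h | h
    · exact hΔ h
    · omega
  obtain ⟨a₀, ha₀', hcusp⟩ := exists_cusp hA h6 hrel hne (k := k) (by omega)
  have ha₀ := ha₀'.le
  -- the line
  obtain ⟨u, v, hH, hT⟩ := exists_kleinPoint (K := Qbar) (A := algebraMap ℚ Qbar E.c₄)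
    (B := algebraMap ℚ Qbar E.c₆) (by rw [hEc4]; simpa using hc4) (by rw [hEc6]; simpa using hc6)
    (by
      rw [← map_pow, ← map_pow]
      exact fun h => hEΔ (by linarith [E.c_relation, (algebraMap ℚ Qbar).injective h]))
  have hf : kf u v ≠ 0 := by
    intro h0
    have h := kH_pow_three_sub u v
    rw [hH, hT, h0, ← map_pow, ← map_pow, ← map_sub, zero_pow (by norm_num), mul_zero,
      map_eq_zero, sub_eq_zero] at h
    exact hEΔ (by linarith [E.c_relation])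
  obtain ⟨k₀, hk₀, hdir⟩ := exists_even_direction hf
  obtain ⟨qH, qT, qD, d⟩ := exists_lineData E.c₄ E.c₆ (by rw [hEc4]; exact_mod_cast hc4)
    (by rw [hEc6]; exact_mod_cast hc6) u v hH hT hf k₀ hdir
  -- the family
  set Wt : WeierstrassCurve ℚ[X] := twist E qH qT with hWt
  have hmapWt : ∀ t : ℚ, Wt.map (evalRingHom t) = twist E (qH.eval t) (qT.eval t) := fun t => by
    rw [hWt, map_twist]; rfl
  have h0 : Wt.map (evalRingHom 0) = E := by
    rw [hmapWt, d.eval_zero_qH, d.eval_zero_qT]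
    simpa using twist_self (R := ℚ) E
  have hWtΔ : Wt.Δ = Polynomial.C (W.Δ : ℚ) * qD ^ 5 := by
    rw [hWt, d.twist_Δ, hE, WeierstrassCurve.map_Δ]; rfl
  obtain ⟨L, hL0, -, -, hloc⟩ := exists_semistable_local W hΔ hW Wt
    (by simp [hWt, twist, hE]) (by simp [hWt, twist, hE]) (by simp [hWt, twist, hE])
    (by simpa [hE] using congrArg WeierstrassCurve.a₄ h0)
    (by simpa [hE] using congrArg WeierstrassCurve.a₆ h0)
    qD hWtΔ (by rw [hWt, twist_c₄]; exact d.isCoprime) 1 one_pos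
  obtain ⟨eL, L', hL', hLeq⟩ := Nat.exists_eq_two_pow_mul_odd hL0.ne'
  -- the parameter
  have hk₀v : A.valuation (k₀ : Qbar) < 1 := by
    obtain ⟨j, rfl⟩ := hk₀
    push_cast
    rw [map_mul]
    exact (mul_le_of_le_one_right' ((A.valuation_le_one_iff _).mpr (intCast_mem A j))).trans_lt hτ1
  have hden : A.valuation (1 - (k₀ : Qbar) * (a₀ : Qbar)) = 1 := by
    apply A.valuation.map_one_sub_of_lt
    rw [map_mul]
    exact (mul_le_of_le_one_right' ha₀).trans_lt hk₀v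
  set t₀ : ℚ := a₀ / (1 - k₀ * a₀) with ht₀def
  have ht₀c : (t₀ : Qbar) = (a₀ : Qbar) / (1 - (k₀ : Qbar) * (a₀ : Qbar)) := by
    rw [ht₀def]; push_cast; rfl
  have ht₀ : ¬ 2 ∣ t₀.den := not_two_dvd_den hA (by rw [ht₀c, map_div₀, hden, div_one]; exact ha₀)
  obtain ⟨c, hc⟩ := exists_progression k L' hL' t₀ ht₀
  have hM0 : (2 ^ (k + 1) * (L' : ℤ) : ℤ) ≠ 0 := mul_ne_zero (pow_ne_zero _ two_ne_zero)
    (Int.natCast_ne_zero.mpr (by obtain ⟨j, rfl⟩ := hL'; omega))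
  obtain ⟨n, hn⟩ := d.exists_no_root (((L' : ℤ) * c : ℤ) : ℚ) ((2 ^ (k + 1) * (L' : ℤ) : ℤ) : ℚ)
    (Int.cast_ne_zero.mpr hM0)
  set t : ℤ := (L' : ℤ) * c + 2 ^ (k + 1) * (L' : ℤ) * n with ht
  obtain ⟨w, hw⟩ := hc n
  rw [← ht] at hw
  set s : Qbar := 1 + (k₀ : Qbar) * (t : Qbar) with hs
  have hsv : A.valuation s = 1 := by
    apply A.valuation.map_one_add_of_lt
    rw [map_mul]
    exact (mul_le_of_le_one_right' ((A.valuation_le_one_iff _).mpr (intCast_mem A t))).trans_lt hk₀v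
  have hs0 : s ≠ 0 := fun h => by rw [h, map_zero] at hsv; exact zero_ne_one hsv
  set a : Qbar := (t : Qbar) / s with ha
  have hav : A.valuation (a - (a₀ : Qbar)) = τ ^ k := by
    have hd0 : (1 - (k₀ : Qbar) * (a₀ : Qbar)) ≠ 0 :=
      fun h => by rw [h, map_zero] at hden; exact zero_ne_one hden
    have e1 : a - (a₀ : Qbar) = (1 - (k₀ : Qbar) * (a₀ : Qbar)) * ((t : Qbar) - (t₀ : Qbar)) / s := by
      rw [eq_div_iff hs0, ha, sub_mul, div_mul_cancel₀ _ hs0, ht₀c, mul_sub,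
        mul_div_cancel₀ _ hd0, hs]
      ring
    have hq0 : (t₀.den : Qbar) ≠ 0 := Nat.cast_ne_zero.mpr t₀.den_ne_zero
    have e2 : (t : Qbar) - (t₀ : Qbar) =
        (2 : Qbar) ^ k * ((1 + 2 * w : ℤ) : Qbar) / (t₀.den : Qbar) := by
      have h := congrArg (fun z : ℤ => (z : Qbar)) hw
      push_cast at h ⊢
      rw [eq_div_iff hq0]
      have h' : (t₀ : Qbar) * (t₀.den : Qbar) = (t₀.num : Qbar) := by
        exact_mod_cast congrArg (fun z : ℚ => (z : Qbar)) t₀.mul_den_eq_num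
      linear_combination h - h'
    rw [e1, e2, map_div₀, map_mul, map_div₀, map_mul, map_pow, hden, hsv,
      valuation_odd hA (n := 1 + 2 * w) (by omega),
      show A.valuation (t₀.den : Qbar) = 1 from by
        simpa using valuation_odd hA (n := (t₀.den : ℤ)) (by exact_mod_cast ht₀)]
    simp [hτ]
  obtain ⟨hvH, hvT, hvD⟩ := hcusp u v (by rw [hH, hEc4]; simp) (by rw [hT, hEc6]; simp) a hav
  -- the invariants of the member
  have htc : algebraMap ℚ Qbar (t : ℚ) = (t : Qbar) := map_intCast _ t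
  obtain ⟨hlu, hlv⟩ := line_scale u v (k₀ : Qbar) (t : Qbar) hs0
  rw [← hs, ← ha] at hlu hlv
  have hqH : ((qH.eval (t : ℚ) : ℚ) : Qbar) =
      s ^ 20 * kH (u + a * kfv u v) (v - a * kfu u v) := by
    rw [← eq_ratCast (algebraMap ℚ Qbar), d.eval_qH, htc, hlu, hlv, kH_smul]
  have hqT : ((qT.eval (t : ℚ) : ℚ) : Qbar) =
      s ^ 30 * kT (u + a * kfv u v) (v - a * kfu u v) := by
    rw [← eq_ratCast (algebraMap ℚ Qbar), d.eval_qT, htc, hlu, hlv, kT_smul]
  have hqD : ((qD.eval (t : ℚ) : ℚ) : Qbar) =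
      s ^ 12 * (kf (u + a * kfv u v) (v - a * kfu u v) / kf u v) := by
    apply mul_left_cancel₀ hf
    rw [← eq_ratCast (algebraMap ℚ Qbar), d.eval_qD, htc, hlu, hlv, kf_smul]
    field_simp
  set h := qH.eval (t : ℚ) with hh
  set T := qT.eval (t : ℚ) with hTd
  set Dq := qD.eval (t : ℚ) with hDq
  obtain ⟨y4, hy4u, hy4⟩ := exists_eq_two_pow_mul_unit hA (x := h / 2 ^ 40) (n := 0) (by
    push_cast
    rw [hqH, map_div₀, map_mul, map_pow, map_pow, hsv, hvH, one_pow, one_mul, pow_zero]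
    exact div_self (pow_ne_zero _ two_ne_zero_valuation))
  obtain ⟨y6, hy6⟩ := exists_eq_two_pow_mul hA (x := T / 2 ^ 60 + 1) (n := 2) (by
    push_cast
    rw [hqT, show s ^ 30 * kT (u + a * kfv u v) (v - a * kfu u v) / 2 ^ 60 + 1 =
      s ^ 30 * (kT (u + a * kfv u v) (v - a * kfu u v) / 2 ^ 60 + 1) + (1 - s ^ 30) by ring]
    refine A.valuation.map_add_le (by rw [map_mul, map_pow, hsv, one_pow, one_mul]; exact hvT) ?_
    have hd4 : (4 : ℤ) ∣ 1 - (1 + k₀ * t) ^ 30 := by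
      obtain ⟨j, rfl⟩ := hk₀
      have h' : (4 : ℤ) ∣ (1 + 2 * j * t) ^ 2 - 1 := ⟨j * t + j ^ 2 * t ^ 2, by ring⟩
      have h'' := h'.trans (sub_one_dvd_pow_sub_one ((1 + 2 * j * t) ^ 2) 15)
      rw [← pow_mul] at h''
      simpa using h''.neg_right
    simpa [hs] using valuation_le_four hA hd4)
  obtain ⟨yD, hyDu, hyD⟩ := exists_eq_two_pow_mul_unit hA (x := Dq) (n := k + 22) (by
    rw [hqD, map_mul, map_pow, hsv, one_pow, one_mul, hvD])
  have hDq0 : Dq ≠ 0 := fun h0' => by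
    rw [h0', Rat.cast_zero, eq_comm, mul_eq_zero] at hyD
    rcases hyD with h' | h'
    · exact pow_ne_zero _ two_ne_zero h'
    · exact hyDu.ne_zero (Subtype.ext h')
  have hou : IsUnit (o : ℤ_[2]) := by
    by_contra hu
    rw [← two_dvd_iff_not_isUnit] at hu
    exact ho2 (by simpa using (PadicInt.pow_p_dvd_int_iff (p := 2) 1 o).mp (by simpa using hu))
  -- the curve over `ℚ`
  have hrelq : (h / 2 ^ 40) ^ 3 - (T / 2 ^ 60) ^ 2 = 1728 * ((W.Δ : ℚ) * Dq ^ 5 / 2 ^ 120) := by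
    have h' := (twist E h T).c_relation
    rw [twist_c₄, twist_c₆] at h'
    have hd' := congrArg WeierstrassCurve.Δ (hmapWt (t : ℚ))
    rw [WeierstrassCurve.map_Δ, hWtΔ] at hd'
    simp only [coe_evalRingHom, eval_mul, eval_C, eval_pow, ← hh, ← hTd, ← hDq] at hd'
    linear_combination (-1 / 2 ^ 120 : ℚ) * h' - (1728 / 2 ^ 120 : ℚ) * hd'
  have hDz : (((W.Δ : ℚ) * Dq ^ 5 / 2 ^ 120 : ℚ) : ℚ_[2]) =
      PadicInt.Coe.ringHom (2 ^ N * ((o : ℤ_[2]) * yD ^ 5) : ℤ_[2]) := by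
    simp only [map_mul, map_pow, map_ofNat, map_intCast]
    simp only [padicInt_ringHom_eq_coe]
    push_cast
    rw [hyD, ho]
    push_cast
    have e : (2 : ℚ_[2]) ^ v₂ * ((2 : ℚ_[2]) ^ (k + 22)) ^ 5 = 2 ^ N * 2 ^ 120 := by
      rw [← pow_mul, ← pow_add, ← pow_add]; congr 1; omega
    field_simp
    linear_combination ((o : ℚ_[2]) * (yD : ℚ_[2]) ^ 5) * e
  have hrel2 : y4 ^ 3 - (4 * y6 - 1) ^ 2 = 1728 * (2 ^ N * ((o : ℤ_[2]) * yD ^ 5)) := by
    apply padicInt_coe_injective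
    have h' := congrArg (fun z : ℚ => (z : ℚ_[2])) hrelq
    simp only [Rat.cast_sub, Rat.cast_pow, Rat.cast_mul, Rat.cast_ofNat, hDz] at h'
    rw [hy4, show ((T / 2 ^ 60 : ℚ) : ℚ_[2]) = 2 ^ 2 * (y6 : ℚ_[2]) - 1 by
      rw [← hy6]; push_cast; ring] at h'
    simp only [map_sub, map_mul, map_pow, map_ofNat, map_intCast, map_one] at h' ⊢
    simp only [padicInt_ringHom_eq_coe, pow_zero, one_mul] at h' ⊢
    linear_combination h'
  obtain ⟨a₂, ha₂, x₄, x₆, hx4, hx6⟩ := exists_two_model hy4u ⟨y6, by ring⟩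
    (dvd_mul_of_dvd_left (dvd_pow_self 2 (by omega)) _) hrel2 (1 + 4 * W.a₂)
  obtain ⟨R, hR⟩ : (3 : ℤ) ∣ 1024 ^ 2 * (1 + 4 * a₂) - (1 + 4 * W.a₂) := by
    obtain ⟨j, hj⟩ := ha₂
    exact ⟨349525 * (1 + 4 * a₂) + j, by linear_combination hj⟩
  let a4q : ℚ := ((1 + 4 * (a₂ : ℚ)) ^ 2 - h / 2 ^ 40) / 48
  let a6q : ℚ := (-(T / 2 ^ 60) - (1 + 4 * (a₂ : ℚ)) ^ 3 + 72 * (1 + 4 * (a₂ : ℚ)) * a4q) / 864
  let Wq : WeierstrassCurve ℚ := ⟨1, a₂, 0, a4q, a6q⟩
  let Cv : VariableChange ℚ := ⟨Units.mk0 1024 (by norm_num), (R : ℚ) / 4, 1023 / 2, -(R : ℚ) / 8⟩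
  have hEa : E.a₁ = 1 ∧ E.a₂ = W.a₂ ∧ E.a₃ = 0 := by simp [hE, h1, h3]
  have hCv : Cv • twist E h T = Wq := by
    have hR' := congrArg (fun z : ℤ => (z : ℚ)) hR
    push_cast at hR'
    apply eq_of_invariants
    · simp [Cv, Wq, variableChange_a₁, twist, hEa.1, Units.val_inv_eq_inv_val]; norm_num
    · simp [Cv, Wq, variableChange_a₂, twist, hEa.1, hEa.2.1, Units.val_inv_eq_inv_val]
      linear_combination (-1 / 4194304 : ℚ) * hR'
    · simp [Cv, Wq, variableChange_a₃, twist, hEa.1, hEa.2.2, Units.val_inv_eq_inv_val]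
      ring
    · rw [variableChange_c₄, twist_c₄]
      simp [Cv, Wq, a4q, WeierstrassCurve.c₄, WeierstrassCurve.b₂, WeierstrassCurve.b₄,
        Units.val_inv_eq_inv_val]
      ring
    · rw [variableChange_c₆, twist_c₆]
      simp [Cv, Wq, a6q, WeierstrassCurve.c₆, WeierstrassCurve.b₂, WeierstrassCurve.b₄,
        WeierstrassCurve.b₆, Units.val_inv_eq_inv_val]
      ring
  have htle : ∀ (p : ℕ) [Fact p.Prime], ‖(((t : ℚ)) : ℚ_[p])‖ ≤ 1 := fun p _ => by
    rw [Rat.cast_intCast]; exact Padic.norm_int_le_one t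
  have htL : ∀ (p : ℕ) [Fact p.Prime], p ≠ 2 →
      ‖(((t : ℚ)) : ℚ_[p])‖ ≤ ‖(L : ℚ_[p])‖ := fun p _ hp => by
    have h2p : ‖((2 : ℕ) : ℚ_[p])‖ = 1 := Padic.norm_natCast_eq_one_iff.mpr
      ((Nat.coprime_primes Fact.out Nat.prime_two).mpr hp)
    rw [hLeq, Rat.cast_intCast, ht, show (L' : ℤ) * c + 2 ^ (k + 1) * (L' : ℤ) * n =
      (L' : ℤ) * (c + 2 ^ (k + 1) * n) by ring, Int.cast_mul, Int.cast_natCast, Nat.cast_mul,
      Nat.cast_pow, norm_mul, norm_mul, norm_pow, h2p, one_pow, one_mul]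
    exact mul_le_of_le_one_right (norm_nonneg _) (Padic.norm_int_le_one _)
  -- integrality
  have hint : ∀ (p : ℕ) [Fact p.Prime], ‖(a4q : ℚ_[p])‖ ≤ 1 ∧ ‖(a6q : ℚ_[p])‖ ≤ 1 := by
    intro p hp
    rcases eq_or_ne p 2 with rfl | hp2
    · have e4 := congrArg (PadicInt.Coe.ringHom (p := 2)) hx4
      have e6 := congrArg (PadicInt.Coe.ringHom (p := 2)) hx6
      simp only [map_sub, map_mul, map_pow, map_add, map_neg, map_ofNat, map_intCast, map_one]
        at e4 e6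
      simp only [padicInt_ringHom_eq_coe] at e4 e6
      have ha4 : (a4q : ℚ_[2]) = x₄ := by
        simp only [a4q, Rat.cast_div, Rat.cast_sub, Rat.cast_pow, Rat.cast_add, Rat.cast_mul,
          Rat.cast_ofNat, Rat.cast_one, Rat.cast_intCast]
        rw [show ((h : ℚ_[2]) / 2 ^ 40) = y4 by simpa using hy4]
        rw [div_eq_iff (by norm_num)]
        linear_combination -e4
      have ha6 : (a6q : ℚ_[2]) = x₆ := by
        simp only [a6q, Rat.cast_div, Rat.cast_sub, Rat.cast_pow, Rat.cast_add, Rat.cast_mul,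
          Rat.cast_ofNat, Rat.cast_one, Rat.cast_intCast, Rat.cast_neg, ha4]
        rw [show ((T : ℚ_[2]) / 2 ^ 60) = 2 ^ 2 * (y6 : ℚ_[2]) - 1 by
          rw [← hy6]; push_cast; ring]
        rw [div_eq_iff (by norm_num)]
        linear_combination -e6
      exact ⟨ha4 ▸ x₄.2, ha6 ▸ x₆.2⟩
    obtain ⟨V, hV, -, -⟩ := hloc p (t : ℚ) (htle p) (fun _ => htL p hp2)
    rw [hmapWt, ← hh, ← hTd] at hV
    have hhalf : ‖(((1 / 2 : ℚ)) : ℚ_[p])‖ ≤ 1 := Padic.norm_rat_le_one (by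
      rw [show (1 / 2 : ℚ).den = 2 by norm_num]
      exact fun hd => hp2 ((Nat.prime_dvd_prime_iff_eq hp.out Nat.prime_two).mp hd))
    set half : ℤ_[p] := ⟨_, hhalf⟩
    have hhalf2 : half * 2 = 1 := Subtype.ext (by
      show (((1 / 2 : ℚ)) : ℚ_[p]) * 2 = 1
      norm_num)
    have h1024 : IsUnit (1024 : ℤ_[p]) := IsUnit.of_mul_eq_one (half ^ 10) (by
      rw [show (1024 : ℤ_[p]) = 2 ^ 10 by norm_num, ← mul_pow, mul_comm, hhalf2, one_pow])
    let Cp : VariableChange ℤ_[p] :=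
      ⟨h1024.unit, (R : ℤ_[p]) * half ^ 2, 1023 * half, -((R : ℤ_[p]) * half ^ 3)⟩
    have hCp : Cp.map PadicInt.Coe.ringHom = Cv.map (Rat.castHom ℚ_[p]) := by
      have hc' : (half : ℚ_[p]) = 1 / 2 := by
        show (((1 / 2 : ℚ)) : ℚ_[p]) = _
        norm_num
      ext
      · simp [Cp, Cv, VariableChange.map, map_ofNat]
      · simp only [Cp, Cv, VariableChange.map, map_mul, map_pow, map_neg, map_ofNat, map_intCast,
          map_div₀]
        simp [padicInt_ringHom_eq_coe, hc']; ring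
      · simp only [Cp, Cv, VariableChange.map, map_mul, map_pow, map_neg, map_ofNat, map_intCast,
          map_div₀]
        simp [padicInt_ringHom_eq_coe, hc']; ring
      · simp only [Cp, Cv, VariableChange.map, map_mul, map_pow, map_neg, map_ofNat, map_intCast,
          map_div₀]
        simp [padicInt_ringHom_eq_coe, hc']; ring
    have hmain : (Cp • V).map PadicInt.Coe.ringHom = Wq.map (Rat.castHom ℚ_[p]) := by
      rw [← WeierstrassCurve.map_variableChange, hV, hCp, WeierstrassCurve.map_variableChange, hCv]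
    have e4 := congrArg WeierstrassCurve.a₄ hmain
    have e6 := congrArg WeierstrassCurve.a₆ hmain
    simp only [WeierstrassCurve.map_a₄, WeierstrassCurve.map_a₆, padicInt_ringHom_eq_coe,
      Rat.coe_castHom, Wq] at e4 e6
    exact ⟨e4 ▸ (Cp • V).a₄.2, e6 ▸ (Cp • V).a₆.2⟩
  obtain ⟨z4, hz4⟩ := exists_int_of_forall_norm_le_one a4q fun p _ => (hint p).1
  obtain ⟨z6, hz6⟩ := exists_int_of_forall_norm_le_one a6q fun p _ => (hint p).2
  set W' : WeierstrassCurve ℤ := ⟨1, a₂, 0, z4, z6⟩ with hW'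
  have hW'q : W'.map (Int.castRingHom ℚ) = Wq := by
    ext <;> simp [hW', Wq, hz4, hz6]
  have hc4' : (W'.c₄ : ℚ) = h / 2 ^ 40 := by
    have := congrArg WeierstrassCurve.c₄ (hW'q.trans hCv.symm)
    rw [WeierstrassCurve.map_c₄, variableChange_c₄, twist_c₄] at this
    simp [Cv, Units.val_inv_eq_inv_val] at this
    rw [this]; ring
  have hc6' : (W'.c₆ : ℚ) = T / 2 ^ 60 := by
    have := congrArg WeierstrassCurve.c₆ (hW'q.trans hCv.symm)
    rw [WeierstrassCurve.map_c₆, variableChange_c₆, twist_c₆] at this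
    simp [Cv, Units.val_inv_eq_inv_val] at this
    rw [this]; ring
  have hΔq : (W'.Δ : ℚ) = (W.Δ : ℚ) * Dq ^ 5 / 2 ^ 120 := by
    have h' := congrArg (fun z : ℤ => (z : ℚ)) W'.c_relation
    push_cast at h'
    rw [hc4', hc6', hrelq] at h'
    linarith
  have hΔ' : W'.Δ ≠ 0 := fun h0' => by
    rw [h0', Int.cast_zero, eq_comm, div_eq_zero_iff] at hΔq
    simp [hΔ, hDq0] at hΔq
  have hΔ2 : (W'.Δ : ℤ_[2]) = 2 ^ N * ((o : ℤ_[2]) * yD ^ 5) := by
    apply padicInt_coe_injective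
    rw [map_intCast, ← Rat.cast_intCast, hΔq, hDz]
  have hcu : IsUnit (W'.c₄ : ℤ_[2]) := by
    have : (W'.c₄ : ℤ_[2]) = y4 := by
      apply Subtype.coe_injective
      show ((W'.c₄ : ℤ_[2]) : ℚ_[2]) = _
      rw [PadicInt.coe_intCast, ← Rat.cast_intCast, hc4', hy4, pow_zero, one_mul]
    rwa [this]
  have hdvd2 : (2 : ℤ) ^ N ∣ W'.Δ := by
    exact_mod_cast (PadicInt.pow_p_dvd_int_iff (p := 2) N W'.Δ).mp
      (by rw [hΔ2]; exact dvd_mul_right _ _)
  have hval : padicValInt 2 W'.Δ = N := by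
    refine le_antisymm (not_lt.mp fun hlt => ?_) ?_
    · have h' := (PadicInt.pow_p_dvd_int_iff (p := 2) (N + 1) W'.Δ).mpr
        ((padicValInt_dvd_iff (p := 2) (N + 1) W'.Δ).mpr (Or.inr hlt))
      rw [hΔ2, pow_succ] at h'
      have h'' := (mul_dvd_mul_iff_left (pow_ne_zero _ (by norm_num))).mp h'
      exact (two_dvd_iff_not_isUnit _).mp (by simpa using h'') (hou.mul (hyDu.pow 5))
    · exact ((padicValInt_dvd_iff (p := 2) N W'.Δ).mp (by exact_mod_cast hdvd2)).resolve_left hΔ'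
  have hss : W'.IsSemistableModel := by
    intro p hp hpΔ
    rcases eq_or_ne p 2 with rfl | hp2
    · exact_mod_cast not_two_dvd_of_isUnit hcu
    have := Fact.mk hp
    obtain ⟨V, hV, -, hV0⟩ := hloc p (t : ℚ) (htle p) (fun _ => htL p hp2)
    refine not_dvd_c₄_of_local hV hV0 W' (a := 1024) (b := 1) ?_ ?_ ?_ hpΔ
    · exact fun hd => hp.not_dvd_one (by exact_mod_cast hd)
    · rw [WeierstrassCurve.map_c₄, hWt, twist_c₄, coe_evalRingHom, ← hh, hc4']
      push_cast; ring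
    · rw [WeierstrassCurve.map_Δ, hWtΔ, hΔq]
      simp only [coe_evalRingHom, eval_mul, eval_C, eval_pow, ← hDq]
      push_cast; ring
  refine ⟨W', hΔ', hss, modThree_irreducible_of_no_root W' hΔ' (fun x hx => hn (2 ^ 20 * x) ?_),
    Or.inr (hval ▸ hN3), (dvd_pow_self 2 (by omega)).trans hdvd2, ?_⟩
  · have hx' := congrArg (fun z : ℤ => (z : ℚ)) hx
    simp only [quartic, Int.cast_sub, Int.cast_mul, Int.cast_pow, Int.cast_ofNat, Int.cast_zero,
      hc4', hc6'] at hx'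
    have ht' : (((L' : ℤ) * c : ℤ) : ℚ) + ((2 ^ (k + 1) * (L' : ℤ) : ℤ) : ℚ) * (n : ℚ) =
        (t : ℚ) := by rw [ht]; push_cast; ring
    rw [ht', ← hh, ← hTd]
    simp only [quartic]
    push_cast
    linear_combination (2 : ℚ) ^ 80 * hx'
  -- traces
  obtain ⟨φ, hφ⟩ := d.exists_member_equiv E (t : ℚ) hDq0 _ rfl
  obtain ⟨ψ, hψ⟩ := exists_vc_equiv _ _ Cv (hCv.trans hW'q.symm)
  intro ℓ hℓ hg hg' hℓ5
  refine five_dvd_apOfModel_sub_of_ne_two W W' hΔ hΔ' (φ.trans ψ) (fun σ x => ?_) ℓ hℓ hg hg'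
    (fun h' => ?_) hℓ5
  · show ψ (φ (σ • x)) = σ • ψ (φ x)
    rw [hφ, hψ]
  · subst h'
    exact hg ⟨e, by exact_mod_cast he⟩

end FLTA.LT2.SwitchTwo
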