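import Fermat.Agent.LT2.Defs
import Fermat.Agent.LT2.SwitchCurve
import Fermat.Agent.Wiring.FreyModel
import Fermat.Agent.EllReducible.FreyFive

/-! # Part A: the switch curves -/

set_option autoImplicit false

namespace FLTA.LT2

theorem frey_irreducible_five (P : FreyPackage) : P.freyCurveInt.ModRepIsIrreducible 5 :=
  FLTA.EllReducible.frey_modRepIsIrreducible_five P

theorem two_dvd_freyCurveInt_Δ (P : FreyPackage) : (2 : ℤ) ∣ P.freyCurveInt.Δ := by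
  have hb : (2 : ℤ) ∣ P.b := (ZMod.intCast_zmod_eq_zero_iff_dvd P.b 2).1 P.hb2
  obtain ⟨j, hj⟩ : (2 : ℤ) ^ 5 ∣ P.b ^ P.p :=
    (pow_dvd_pow_of_dvd hb 5).trans (pow_dvd_pow P.b P.hp5)
  have h := FLTA.Wiring.freyCurveInt_Δ_mul P
  rw [hj] at h
  exact ⟨2 * (P.a ^ P.p * j * P.c ^ P.p) ^ 2,
    mul_left_cancel₀ (show (256 : ℤ) ≠ 0 by norm_num) (by linear_combination h)⟩

theorem exists_switch_five (P : FreyPackage) :
    ∃ W : WeierstrassCurve ℤ, W.Δ ≠ 0 ∧ W.IsSemistableModel ∧ W.ModRepIsIrreducible 3 ∧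
      TwoOK W ∧ (2 : ℤ) ∣ W.Δ ∧ TraceCong 5 P.freyCurveInt W :=
  SwitchTwo.exists_switch_of_multTwo P.freyCurveInt
    (FLTA.Wiring.freyCurveInt_Δ_ne_zero P) (FLTA.Wiring.freyCurveInt_isSemistableModel P) rfl rfl
    (two_dvd_freyCurveInt_Δ P)

end FLTA.LT2
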