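import Fermat.Agent.LT2.ThetaPull
import Fermat.Agent.LT2.ThetaSymbolDefs

/-!
# The finite set of classes of primitive binary forms of determinant `N`
-/

set_option autoImplicit false

namespace FLTA.LT2

open BinForm

/-- A primitive form of determinant `N`. -/
abbrev PrimForm (N : ℕ) : Type := {Q : BinForm // Q.det = N ∧ Q.Prim}

/-- Proper equivalence. -/
def formSetoid (N : ℕ) : Setoid (PrimForm N) where
  r P P' := FormEquiv P.1 P'.1
  iseqv := ⟨fun P => FormEquiv.refl _, fun h => h.symm, fun h h' => h.trans h'⟩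

/-- The classes. -/
def FormClass (N : ℕ) : Type := Quotient (formSetoid N)

/-- The class of a form. -/
def FormClass.of {N : ℕ} (P : PrimForm N) : FormClass N := Quotient.mk (formSetoid N) P

/-- A representative. -/
noncomputable def FormClass.rep {N : ℕ} (C : FormClass N) : BinForm := (Quotient.out C).1

theorem FormClass.det_rep {N : ℕ} (C : FormClass N) : C.rep.det = N := (Quotient.out C).2.1

theorem FormClass.of_eq_of {N : ℕ} {P P' : PrimForm N} :
    FormClass.of P = FormClass.of P' ↔ FormEquiv P.1 P'.1 := Quotient.eq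

theorem FormClass.of_out {N : ℕ} (C : FormClass N) : FormClass.of (Quotient.out C) = C :=
  Quotient.out_eq C

theorem FormClass.equiv_rep {N : ℕ} (P : PrimForm N) : FormEquiv (FormClass.of P).rep P.1 :=
  FormClass.of_eq_of.1 (FormClass.of_out (FormClass.of P))

/-- A form is pulled back by a translation. -/
theorem exists_shift (Q : BinForm) (k : ℤ) :
    ∃ R : BinForm, FormEquiv Q R ∧ R.a = Q.a ∧ R.b = Q.b + k * Q.a := by
  refine ⟨⟨Q.a, Q.b + k * Q.a, Q.eval k 1, Q.a_pos, ?_⟩, ⟨1, k, 0, 1, by ring, ?_, ?_, rfl⟩,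
    rfl, rfl⟩
  · have := Q.det_pos
    simp only [eval_int]
    linear_combination this
  · simp [eval_int]
  · ring

/-- Completion of a primitive vector. -/
theorem exists_equiv_of_coprime (Q : BinForm) {p s : ℤ} (h : IsCoprime p s) :
    ∃ R : BinForm, FormEquiv Q R ∧ R.a = Q.eval p s := by
  obtain ⟨u, v, huv⟩ := h
  have h' : p * u - -v * s = 1 := by linear_combination huv
  set q := -v
  set t := u
  have hdet : Q.eval p s * Q.eval q t -
      (Q.a * p * q + Q.b * (p * t + q * s) + Q.c * s * t) ^ 2 = Q.det := by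
    simp only [eval_int, det]
    linear_combination (Q.a * Q.c - Q.b ^ 2) * (p * t - q * s + 1) * h'
  have hpos : 0 < Q.eval p s := by
    rcases (Q.eval_int_nonneg (p, s)).lt_or_eq with hlt | heq
    · exact hlt
    · have h0 : Q.eval p s = 0 := heq.symm
      rw [h0] at hdet
      nlinarith [Q.det_pos, sq_nonneg (Q.a * p * q + Q.b * (p * t + q * s) + Q.c * s * t),
        show Q.det = Q.a * Q.c - Q.b ^ 2 from rfl]
  exact ⟨⟨_, _, _, hpos, hdet ▸ Q.det_pos⟩, ⟨p, q, s, t, h', rfl, rfl, rfl⟩, rfl⟩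

theorem exists_swap (Q : BinForm) : ∃ R : BinForm, FormEquiv Q R ∧ R.a = Q.c := by
  simpa [eval_int] using exists_equiv_of_coprime Q (p := 0) (s := 1) isCoprime_one_right

/-- Reduction. -/
theorem exists_reduced (Q : BinForm) :
    ∃ R : BinForm, FormEquiv Q R ∧ |2 * R.b| ≤ R.a ∧ R.a ≤ R.c := by
  classical
  have hex : ∃ n : ℕ, ∃ R : BinForm, FormEquiv Q R ∧ R.a = n :=
    ⟨Q.a.toNat, Q, FormEquiv.refl Q, (Int.toNat_of_nonneg Q.a_pos.le).symm⟩
  obtain ⟨R, hR, ha⟩ := Nat.find_spec hex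
  obtain ⟨R', hR', ha', hb'⟩ := exists_shift R (-((2 * R.b + R.a) / (2 * R.a)))
  have hapos := R.a_pos
  have h1 := Int.emod_add_mul_ediv (2 * R.b + R.a) (2 * R.a)
  have h2 := Int.emod_nonneg (2 * R.b + R.a) (show (2 * R.a) ≠ 0 by omega)
  have h3 := Int.emod_lt_of_pos (2 * R.b + R.a) (show 0 < 2 * R.a by omega)
  refine ⟨R', hR.trans hR', abs_le.2 ⟨?_, ?_⟩, ?_⟩
  · rw [ha', hb']; nlinarith
  · rw [ha', hb']; nlinarith
  · obtain ⟨R'', hR'', ha''⟩ := exists_swap R'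
    have h := Nat.find_min' hex (m := R''.a.toNat)
      ⟨R'', (hR.trans hR').trans hR'', (Int.toNat_of_nonneg R''.a_pos.le).symm⟩
    have := R''.a_pos
    omega

theorem finite_formClass (N : ℕ) : Finite (FormClass N) := by
  classical
  have hred : ∀ C : FormClass N, ∃ R : BinForm, FormEquiv C.rep R ∧ |2 * R.b| ≤ R.a ∧ R.a ≤ R.c :=
    fun C => exists_reduced _
  choose R hR hb hc using hred
  have hdet : ∀ C, (R C).det = N := fun C => (hR C).det_eq.trans C.det_rep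
  have hmem : ∀ C : FormClass N, (R C).a ∈ Set.Icc (0 : ℤ) (2 * N) ∧
      (R C).b ∈ Set.Icc (-(2 * N : ℤ)) (2 * N) := by
    intro C
    have h := hdet C
    simp only [BinForm.det] at h
    have hp := (R C).a_pos
    obtain ⟨hb1, hb2⟩ := abs_le.1 (hb C)
    have h34 : 3 * (R C).a * (R C).a ≤ 4 * N := by nlinarith [mul_le_mul_of_nonneg_left (hc C) hp.le]
    have : (R C).a ≤ 2 * N := by nlinarith
    exact ⟨⟨hp.le, this⟩, by omega, by omega⟩
  refine Finite.of_injective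
    (fun C => ((⟨_, (hmem C).1⟩ : Set.Icc (0 : ℤ) (2 * N)),
      (⟨_, (hmem C).2⟩ : Set.Icc (-(2 * N : ℤ)) (2 * N)))) fun C C' h => ?_
  simp only [Prod.mk.injEq, Subtype.mk.injEq] at h
  have he : R C = R C' := eq_of_det_eq h.1 h.2 (by rw [hdet, hdet])
  rw [← C.of_out, ← C'.of_out, FormClass.of_eq_of]
  exact (hR C).trans (he ▸ (hR C').symm)

theorem eval_ne_zero_mod {N : ℕ} (hN : Squarefree N) {Q : BinForm} (hQ : Q.det = N) (hp : Q.Prim)
    {r : ℕ} (hr : r.Prime) (ha : (r : ℤ) ∣ Q.a) (hc : (r : ℤ) ∣ Q.c) : ¬ (r : ℤ) ∣ 2 * Q.b := by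
  intro h
  have hrp := Nat.prime_iff_prime_int.1 hr
  rcases hrp.dvd_or_dvd h with h2 | hb
  · have : r = 2 := (Nat.prime_dvd_prime_iff_eq hr Nat.prime_two).1 (Int.natCast_dvd_natCast.1 h2)
    subst this
    exact hp ⟨ha, hc⟩
  · have : ((r * r : ℕ) : ℤ) ∣ (N : ℤ) := by
      rw [← hQ, BinForm.det, Nat.cast_mul, sq]
      exact dvd_sub (mul_dvd_mul ha hc) (mul_dvd_mul hb hb)
    exact hr.not_isUnit (hN r (Int.natCast_dvd_natCast.1 this))

/-- A form of determinant `N` properly represents a number prime to `M`. -/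
theorem exists_eval_coprime {N : ℕ} (hN : Squarefree N) {Q : BinForm} (hQ : Q.det = N)
    (hp : Q.Prim) {M : ℤ} (hM : M ≠ 0) :
    ∃ p s : ℤ, IsCoprime p s ∧ IsCoprime (Q.eval p s) M := by
  classical
  set F := M.natAbs.primeFactors with hF
  set S₁ := F.filter fun r : ℕ => (r : ℤ) ∣ Q.a ∧ ¬ (r : ℤ) ∣ Q.c
  set S₂ := F.filter fun r : ℕ => ¬ (r : ℤ) ∣ Q.a
  have hdvd : ∀ (S : Finset ℕ), S ⊆ F → ∀ r : ℕ, r.Prime →
      ((r : ℤ) ∣ ((Finset.prod S fun i : ℕ => i : ℕ) : ℤ) ↔ r ∈ S) := by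
    intro S hS r hr
    rw [Int.natCast_dvd_natCast, (Nat.prime_iff.1 hr).dvd_finsetProd_iff]
    refine ⟨fun ⟨i, hi, hd⟩ => ?_, fun h => ⟨r, h, dvd_rfl⟩⟩
    rwa [(Nat.prime_dvd_prime_iff_eq hr (Nat.prime_of_mem_primeFactors (hS hi))).1 hd]
  have h1 : S₁ ⊆ F := Finset.filter_subset _ _
  have h2 : S₂ ⊆ F := Finset.filter_subset _ _
  refine ⟨((Finset.prod S₁ fun i : ℕ => i : ℕ) : ℤ), ((Finset.prod S₂ fun i : ℕ => i : ℕ) : ℤ), ?_, ?_⟩
  · refine Nat.isCoprime_iff_coprime.2 (Nat.coprime_of_dvd fun r hr ha hb => ?_)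
    have ha' := (hdvd S₁ h1 r hr).1 (Int.natCast_dvd_natCast.2 ha)
    have hb' := (hdvd S₂ h2 r hr).1 (Int.natCast_dvd_natCast.2 hb)
    simp only [S₁, S₂, Finset.mem_filter] at ha' hb'
    exact hb'.2 ha'.2.1
  · rw [Int.isCoprime_iff_nat_coprime]
    refine Nat.coprime_of_dvd fun r hr ha hb => ?_
    have hrF : r ∈ F := Nat.mem_primeFactors.2 ⟨hr, hb, by simpa using hM⟩
    have hrp := Nat.prime_iff_prime_int.1 hr
    have hev := Int.natCast_dvd.2 ha
    rw [eval_int] at hev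
    set P : ℤ := ((Finset.prod S₁ fun i : ℕ => i : ℕ) : ℤ)
    set S : ℤ := ((Finset.prod S₂ fun i : ℕ => i : ℕ) : ℤ)
    have hP : (r : ℤ) ∣ P ↔ r ∈ S₁ := hdvd S₁ h1 r hr
    have hS : (r : ℤ) ∣ S ↔ r ∈ S₂ := hdvd S₂ h2 r hr
    simp only [S₁, S₂, Finset.mem_filter, hrF, true_and] at hP hS
    by_cases hra : (r : ℤ) ∣ Q.a
    · by_cases hrc : (r : ℤ) ∣ Q.c
      · have := eval_ne_zero_mod hN hQ hp hr hra hrc
        have hd : (r : ℤ) ∣ 2 * Q.b * (P * S) := by
          refine (dvd_sub hev (dvd_add (hra.mul_right (P ^ 2)) (hrc.mul_right (S ^ 2)))).trans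
            (dvd_of_eq (by ring))
        rcases (hrp.dvd_or_dvd hd).resolve_left this |> hrp.dvd_or_dvd with h | h
        · exact (hP.1 h).2 hrc
        · exact (hS.1 h) hra
      · have hd : (r : ℤ) ∣ Q.c * S ^ 2 := by
          have hP' := hP.2 ⟨hra, hrc⟩
          refine (dvd_sub hev (dvd_add (hra.mul_right (P ^ 2))
            (hP'.mul_left (2 * Q.b * S)))).trans (dvd_of_eq (by ring))
        exact hS.1 (hrp.dvd_of_dvd_pow ((hrp.dvd_or_dvd hd).resolve_left hrc)) hra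
    · have hS' := hS.2 hra
      have hd : (r : ℤ) ∣ Q.a * P ^ 2 := by
        refine (dvd_sub hev (dvd_add (hS'.mul_left (Q.c * S))
          (hS'.mul_left (2 * Q.b * P)))).trans (dvd_of_eq (by ring))
      exact hra (hP.1 (hrp.dvd_of_dvd_pow ((hrp.dvd_or_dvd hd).resolve_left hra))).1

theorem exists_equiv_a_coprime {N : ℕ} (hN : Squarefree N) {Q : BinForm} (hQ : Q.det = N)
    (hp : Q.Prim) {M : ℤ} (hM : M ≠ 0) : ∃ R, FormEquiv Q R ∧ IsCoprime R.a M := by
  obtain ⟨p, s, hps, h⟩ := exists_eval_coprime hN hQ hp hM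
  obtain ⟨R, hR, ha⟩ := exists_equiv_of_coprime Q hps
  exact ⟨R, hR, ha ▸ h⟩

end FLTA.LT2
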