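import Mathlib

/-!
# The cubic field cut out by the 2-torsion of a companion curve

`X ^ 3 + a X ^ 2 + b X + c` is an Eisenstein polynomial at `2` of discriminant `4 D s ^ 2`.
-/

set_option autoImplicit false

namespace FLTA.LT2

/-- A monic cubic, Eisenstein at `2`, of discriminant `4 D s ^ 2` with `D` fundamental, whose
discriminant is prime to `a ^ 2 - 3 b` away from `2` and `3`. -/
structure CubicData where
  a : ℤ
  b : ℤ
  c : ℤ
  D : ℤ
  s : ℤ
  two_dvd_a : 2 ∣ a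
  two_dvd_b : 2 ∣ b
  two_dvd_c : 2 ∣ c
  not_four_dvd_c : ¬ 4 ∣ c
  D_neg : D < 0
  D_mod : D % 8 = 5
  D_squarefree : Squarefree D
  disc_eq : a ^ 2 * b ^ 2 - 4 * b ^ 3 - 4 * a ^ 3 * c - 27 * c ^ 2 + 18 * a * b * c = 4 * D * s ^ 2
  coprime : ∀ r : ℕ, r.Prime → r ≠ 2 → r ≠ 3 → (r : ℤ) ∣ D * s → ¬ (r : ℤ) ∣ a ^ 2 - 3 * b
  three : ¬ 3 ∣ a ∨ ¬ 3 ∣ D * s

namespace CubicData

variable (C : CubicData)

/-- The cubic at `x` in any commutative ring. -/
def eval {R : Type*} [CommRing R] (x : R) : R :=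
  x ^ 3 + (C.a : R) * x ^ 2 + (C.b : R) * x + (C.c : R)

/-- The finite set of primes left out. -/
def bad : ℤ := 6 * C.D * C.s * (C.a ^ 2 - 3 * C.b)

end CubicData

end FLTA.LT2
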