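import Fermat.Agent.LT2.ThetaReciprocity

/-!
# The reciprocity law for the cubic character of a binary quadratic order

The key identity `sym |p Y ^ 2 - q X ^ 2| (X U + 3 √-3 Y V) = 0` whenever
`p U ^ 2 + 27 q V ^ 2 = A ^ 3`.
-/

set_option autoImplicit false
set_option maxHeartbeats 400000

namespace FLTA.LT2

open QuadraticAlgebra

/-- A natural number is prime to an integer if no prime divides both. -/
theorem isCoprime_of_forall_prime {a b : ℤ}
    (h : ∀ r : ℕ, r.Prime → (r : ℤ) ∣ a → ¬ (r : ℤ) ∣ b) : IsCoprime a b := by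
  rw [Int.isCoprime_iff_nat_coprime]
  exact Nat.coprime_of_dvd fun r hr ha hb =>
    h r hr (Int.natCast_dvd.mpr ha) (Int.natCast_dvd.mpr hb)

theorem not_dvd_of_isCoprime {a b : ℤ} (h : IsCoprime a b) {r : ℕ} (hr : r.Prime)
    (ha : (r : ℤ) ∣ a) : ¬ (r : ℤ) ∣ b := fun hb => by
  have := Int.isUnit_iff.mp (h.isUnit_of_dvd' ha hb)
  have := hr.two_le
  omega

theorem eq_zero_of_two_mul {k : ZMod 3} (h : 2 * k = 0) : k = 0 := by
  revert h; revert k; decide

theorem not_three_dvd_norm {z : Eis} (h3 : 3 ∣ z.im) (hre : ¬ 3 ∣ z.re) : ¬ 3 ∣ z.norm := by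
  rw [eis_norm]
  intro h
  obtain ⟨c, hc⟩ := h3
  have h' : (3 : ℤ) ∣ z.re * z.re := by
    have e : z.re * z.re = z.re * z.re - z.re * z.im + z.im * z.im + 3 * (z.re * c - 3 * c * c) := by
      rw [hc]; ring
    rw [e]
    exact dvd_add h (Dvd.intro _ rfl)
  exact hre ((Int.prime_three.dvd_or_dvd h').elim id id)

/-- Cubic reciprocity for a rational integer and a primitive Eisenstein integer congruent to a
rational integer modulo `3`. -/
theorem sym_eq_symR {γ : Eis} {m : ℕ} (hm : γ.norm = m) (h3 : 3 ∣ γ.im) (hre3 : ¬ 3 ∣ γ.re)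
    (hc : IsCoprime γ.re γ.im) {w : ℤ} (hw : (m : ℤ) ∣ γ.re + γ.im * w) :
    SymROk m w ∧ ∀ n : ℕ, ¬ 3 ∣ n → IsCoprime (n : ℤ) m → sym n γ = symR m w n := by
  have hm0 : m ≠ 0 := by
    rintro rfl
    rw [eis_norm_eq_zero (hm.trans Nat.cast_zero)] at hre3
    simp at hre3
  have hmi : IsCoprime γ.im (m : ℤ) := by
    rw [← hm, eis_norm, show γ.re * γ.re - γ.re * γ.im + γ.im * γ.im =
      γ.re * γ.re + γ.im * (γ.im - γ.re) by ring]
    exact (hc.symm.mul_right hc.symm).add_mul_left_right _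
  have hn' : γ.re * γ.re - γ.re * γ.im + γ.im * γ.im = m := by rw [← eis_norm, hm]
  have hww : (m : ℤ) ∣ w ^ 2 + w + 1 := by
    refine (hmi.symm.mul_right hmi.symm).dvd_of_dvd_mul_left ?_
    rw [show γ.im * γ.im * (w ^ 2 + w + 1) =
      (γ.re + γ.im * w) * (γ.im * w + γ.im - γ.re) + (m : ℤ) by linear_combination hn']
    exact dvd_add (dvd_mul_of_dvd_left hw _) dvd_rfl
  have h3m : ¬ 3 ∣ m := fun h => not_three_dvd_norm h3 hre3 (by
    rw [hm]; exact_mod_cast h)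
  have hok : SymROk m w := ⟨h3m, hww⟩
  refine ⟨hok, fun n hn3 hnm => ?_⟩
  have hokP : ∀ P ∈ m.primeFactorsList, P.Prime ∧ SymROk P w := fun P hP =>
    ⟨Nat.prime_of_mem_primeFactorsList hP,
      fun h => h3m (h.trans (Nat.dvd_of_mem_primeFactorsList hP)),
      (Int.natCast_dvd_natCast.mpr (Nat.dvd_of_mem_primeFactorsList hP)).trans hww⟩
  obtain ⟨J, hJn, -, hJi, hJd, hJs⟩ := exists_jac_prod m.primeFactorsList
    (by rw [Nat.prod_primeFactorsList hm0]; exact hww) hokP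
  rw [Nat.prod_primeFactorsList hm0] at hJn hJd
  -- `J` is `γ` up to sign
  have hm0' : (m : ℤ) ≠ 0 := by exact_mod_cast hm0
  obtain ⟨d₁, hd₁⟩ : (m : ℤ) ∣ (J * star γ).re := by
    obtain ⟨e, he⟩ := hw
    obtain ⟨f, hf⟩ := hJd
    obtain ⟨g, hg⟩ := hww
    refine ⟨f * (γ.re - γ.im) - J.im * w * e + J.im * γ.im * g, ?_⟩
    simp only [re_mul, re_star, im_star]
    linear_combination (γ.re - γ.im) * hf - J.im * w * he + J.im * γ.im * hg
  obtain ⟨d₂, hd₂⟩ : (m : ℤ) ∣ (J * star γ).im := by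
    obtain ⟨e, he⟩ := hw
    obtain ⟨f, hf⟩ := hJd
    refine ⟨J.im * e - γ.im * f, ?_⟩
    simp only [im_mul, re_star, im_star]
    linear_combination J.im * he - γ.im * hf
  let δ : Eis := ⟨d₁, d₂⟩
  have hδ : J * star γ = (m : Eis) * δ := QuadraticAlgebra.ext (by simp [δ, hd₁]) (by simp [δ, hd₂])
  have hδn : δ.norm = 1 := by
    have h1 := congrArg QuadraticAlgebra.norm hδ
    rw [map_mul, map_mul, QuadraticAlgebra.norm_star, hJn, hm, QuadraticAlgebra.norm_natCast,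
      pow_two] at h1
    exact (mul_eq_left₀ (mul_ne_zero hm0' hm0')).mp h1.symm
  have hd₂3 : 3 ∣ d₂ := by
    have h1 : (3 : ℤ) ∣ (m : ℤ) * d₂ := by
      rw [← hd₂]
      simp only [im_mul, re_star, im_star]
      exact dvd_add (dvd_add (dvd_mul_of_dvd_right (dvd_neg.mpr h3) _)
        (dvd_mul_of_dvd_left hJi _)) (dvd_mul_of_dvd_right (dvd_neg.mpr h3) _)
    exact (Int.prime_three.dvd_or_dvd h1).elim (fun h => absurd (by exact_mod_cast h) h3m) id
  have hsign : δ = 1 ∨ δ = -1 := by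
    rw [eis_norm] at hδn
    change d₁ * d₁ - d₁ * d₂ + d₂ * d₂ = 1 at hδn
    obtain ⟨c, rfl⟩ := hd₂3
    have hc0 : c = 0 := by nlinarith [sq_nonneg (2 * d₁ - 3 * c), sq_nonneg c]
    subst hc0
    rcases Int.eq_one_or_neg_one_of_mul_eq_one (show d₁ * d₁ = 1 by linarith) with h | h
    · left; ext <;> simp [δ, h]
    · right; ext <;> simp [δ, h]
  have hJγ : J = δ * γ := by
    have h1 : star γ * γ = (m : Eis) := by
      rw [mul_comm, ← QuadraticAlgebra.algebraMap_norm_eq_mul_star, hm, map_natCast]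
    have h2 := congrArg (· * γ) hδ
    simp only [mul_assoc, h1] at h2
    rw [mul_comm] at h2
    refine mul_left_cancel₀ ?_ h2
    intro h0
    exact hm0' (by simpa using congrArg QuadraticAlgebra.re h0)
  have hsym : ∀ q : ℕ, q.Prime → q ≠ 3 → ¬ q ∣ m → symP q γ = symR m w q := by
    intro q hq hq3 hqm
    have := Fact.mk hq
    have hqg : ¬ (q : ℤ) ∣ γ.norm := by rw [hm]; exact_mod_cast hqm
    have h1 := hJs q hq hq3 fun hmem => hqm (Nat.dvd_of_mem_primeFactorsList hmem)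
    rw [hJγ] at h1
    rw [symR, ← h1]
    rcases hsign with h | h
    · rw [h, one_mul]
    · have hone : ¬ (q : ℤ) ∣ (-1) := by
        rw [dvd_neg]
        exact fun h => hq.ne_one (by exact_mod_cast Int.eq_one_of_dvd_one (by simp) h)
      have hn1 : ¬ (q : ℤ) ∣ ((((-1 : ℤ)) : Eis)).norm := by
        rw [QuadraticAlgebra.norm_intCast, Int.cast_id, neg_one_sq]
        exact fun h => hq.ne_one (by exact_mod_cast Int.eq_one_of_dvd_one (by simp) h)
      rw [h, show (-1 : Eis) = (((-1 : ℤ)) : Eis) by simp, symP_mul hq3 hn1 hqg,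
        symP_intCast hq3 hone, zero_add]
  induction n using Nat.recOnMul with
  | zero => exact absurd (dvd_zero 3) hn3
  | one =>
    have h0 := symR_mul (r := 1) (s := 1) hok isCoprime_one_left isCoprime_one_left
    simp only [mul_one, left_eq_add] at h0
    rw [sym_one, Nat.cast_one, h0]
  | prime q hq =>
    rw [sym_prime hq]
    refine hsym q hq (fun h => hn3 (h ▸ dvd_rfl)) fun h => ?_
    exact not_dvd_of_isCoprime hnm hq dvd_rfl (Int.natCast_dvd_natCast.mpr h)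
  | mul a c iha ihc =>
    have ha0 : a ≠ 0 := by rintro rfl; simp at hn3
    have hc0 : c ≠ 0 := by rintro rfl; simp at hn3
    rw [Nat.cast_mul] at hnm
    rw [sym_mul_left ha0 hc0, Nat.cast_mul,
      symR_mul hok hnm.of_mul_left_left hnm.of_mul_left_right,
      iha (fun h => hn3 (dvd_mul_of_dvd_left h c)) hnm.of_mul_left_left,
      ihc (fun h => hn3 (dvd_mul_of_dvd_right h a)) hnm.of_mul_left_right]

/-- A residue map for a primitive Eisenstein integer. -/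
theorem exists_residue {γ : Eis} {m : ℕ} (hm : γ.norm = m) (hc : IsCoprime γ.re γ.im) :
    ∃ w : ℤ, (m : ℤ) ∣ γ.re + γ.im * w := by
  have hmi : IsCoprime γ.im (m : ℤ) := by
    rw [← hm, eis_norm, show γ.re * γ.re - γ.re * γ.im + γ.im * γ.im =
      γ.re * γ.re + γ.im * (γ.im - γ.re) by ring]
    exact (hc.symm.mul_right hc.symm).add_mul_left_right _
  obtain ⟨u, v, huv⟩ := hmi
  exact ⟨-(γ.re * u), γ.re * v, by linear_combination -(γ.re) * huv⟩

theorem eisSqrt_re_im (x y : ℤ) : (eisSqrt x y).re = x + y ∧ (eisSqrt x y).im = 2 * y := ⟨rfl, rfl⟩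

/-- The symbol modulo a divisor of `x` of `x + y √-3` is trivial. -/
theorem sym_eisSqrt_left {n : ℕ} (hn3 : ¬ 3 ∣ n) {x y : ℤ} (hx : (n : ℤ) ∣ x)
    (hy : IsCoprime (n : ℤ) y) : sym n (eisSqrt x y) = 0 := by
  refine sym_eq_zero_of fun q hq hqn => ?_
  have := Fact.mk hq
  have hq3 : q ≠ 3 := fun h => hn3 (h ▸ hqn)
  have hqy : ¬ (q : ℤ) ∣ y := not_dvd_of_isCoprime hy hq (Int.natCast_dvd_natCast.mpr hqn)
  have h0 : ¬ (q : ℤ) ∣ (eisSqrt 0 1).norm := by
    rw [norm_eisSqrt]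
    norm_num
    intro h
    exact hq3 ((Nat.prime_dvd_prime_iff_eq hq Nat.prime_three).mp (by exact_mod_cast h))
  have hy' : ¬ (q : ℤ) ∣ ((y : Eis)).norm := by
    rw [QuadraticAlgebra.norm_intCast]
    exact fun h => hqy ((Nat.prime_iff_prime_int.mp hq).dvd_of_dvd_pow h)
  have hqx : (q : ℤ) ∣ x := (Int.natCast_dvd_natCast.mpr hqn).trans hx
  have hprod : ¬ (q : ℤ) ∣ ((y : Eis) * eisSqrt 0 1).norm := by
    rw [map_mul]
    exact fun h => ((Nat.prime_iff_prime_int.mp hq).dvd_or_dvd h).elim hy' h0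
  rw [symP_congr hq3 hprod (z' := eisSqrt x y), symP_mul hq3 hy' h0, symP_intCast hq3 hqy,
    symP_of_star_eq_neg hq3 h0 (by ext <;> simp [eisSqrt]), add_zero]
  · simpa [eisSqrt] using dvd_neg.mpr hqx
  · simp [eisSqrt, mul_comm]

/-- The symbol modulo a divisor of `y` of `x + y √-3` is trivial. -/
theorem sym_eisSqrt_right {n : ℕ} (hn3 : ¬ 3 ∣ n) {x y : ℤ} (hy : (n : ℤ) ∣ y)
    (hx : IsCoprime (n : ℤ) x) : sym n (eisSqrt x y) = 0 := by
  refine sym_eq_zero_of fun q hq hqn => ?_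
  have := Fact.mk hq
  have hqx : ¬ (q : ℤ) ∣ x := not_dvd_of_isCoprime hx hq (Int.natCast_dvd_natCast.mpr hqn)
  have hqy : (q : ℤ) ∣ y := (Int.natCast_dvd_natCast.mpr hqn).trans hy
  have hq3 : q ≠ 3 := fun h => hn3 (h ▸ hqn)
  have hx' : ¬ (q : ℤ) ∣ ((x : Eis)).norm := by
    rw [QuadraticAlgebra.norm_intCast]
    exact fun h => hqx ((Nat.prime_iff_prime_int.mp hq).dvd_of_dvd_pow h)
  rw [symP_congr hq3 hx' (z' := eisSqrt x y), symP_intCast hq3 hqx]
  · simpa [eisSqrt] using dvd_neg.mpr hqy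
  · simpa [eisSqrt] using dvd_neg.mpr (dvd_mul_of_dvd_right hqy 2)

/-- Bundled data of a primitive element `x + 3 √-3 z` with a residue map. -/
structure RatData (x z : ℤ) where
  m : ℕ
  w : ℤ
  norm_eq : (m : ℤ) = x ^ 2 + 27 * z ^ 2
  ok : SymROk m w
  recip : ∀ n : ℕ, ¬ 3 ∣ n → IsCoprime (n : ℤ) m → sym n (eisSqrt x (3 * z)) = symR m w n

theorem exists_ratData {x z : ℤ} (hx : ¬ 3 ∣ x) (hxz : IsCoprime x z) (hodd : ¬ 2 ∣ x + z) :
    Nonempty (RatData x z) := by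
  have hn : (eisSqrt x (3 * z)).norm = ((x ^ 2 + 27 * z ^ 2).toNat : ℤ) := by
    rw [norm_eisSqrt, Int.toNat_of_nonneg (by positivity)]
    ring
  have h3 : 3 ∣ (eisSqrt x (3 * z)).im := Dvd.intro (2 * z) (by simp [eisSqrt]; ring)
  have hre : ¬ 3 ∣ (eisSqrt x (3 * z)).re := by
    simp only [eisSqrt]
    intro h
    exact hx (by simpa using dvd_sub h (dvd_mul_right 3 z))
  have hc : IsCoprime (eisSqrt x (3 * z)).re (eisSqrt x (3 * z)).im := by
    refine isCoprime_of_forall_prime fun r hr hr1 hr2 => ?_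
    have hr3 : (r : ℤ) ≠ 3 := fun h => hre (h ▸ hr1)
    have hr2' : (r : ℤ) ≠ 2 := fun h => by
      have h' : (2 : ℤ) ∣ x + 3 * z := h ▸ hr1
      exact hodd (by omega)
    have hrp := Nat.prime_iff_prime_int.mp hr
    rw [(eisSqrt_re_im x (3 * z)).2] at hr2
    rcases hrp.dvd_or_dvd hr2 with h | h
    · exact hr2' (by exact_mod_cast ((Nat.prime_dvd_prime_iff_eq hr Nat.prime_two).mp
        (by exact_mod_cast h)))
    rcases hrp.dvd_or_dvd h with h | h
    · exact hr3 (by exact_mod_cast ((Nat.prime_dvd_prime_iff_eq hr Nat.prime_three).mp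
        (by exact_mod_cast h)))
    refine not_dvd_of_isCoprime hxz hr ?_ h
    simpa [eisSqrt] using dvd_sub hr1 (dvd_mul_of_dvd_right h 3)
  obtain ⟨w, hw⟩ := exists_residue hn hc
  obtain ⟨hok, hrec⟩ := sym_eq_symR hn h3 hre hc hw
  exact ⟨⟨_, w, by rw [Int.toNat_of_nonneg (by positivity)], hok, hrec⟩⟩

namespace RatData

variable {x z : ℤ} (d : RatData x z)

theorem coprime_m (hx : ¬ 3 ∣ x) (hxz : IsCoprime x z) :
    IsCoprime x d.m ∧ IsCoprime z d.m := by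
  constructor
  · refine isCoprime_of_forall_prime fun r hr h1 h2 => ?_
    rw [d.norm_eq] at h2
    have hrp := Nat.prime_iff_prime_int.mp hr
    have h : (r : ℤ) ∣ 27 * z ^ 2 := by
      simpa using dvd_sub h2 (dvd_pow h1 two_ne_zero)
    rcases hrp.dvd_or_dvd h with h' | h'
    · have : r = 3 := (Nat.prime_dvd_prime_iff_eq hr Nat.prime_three).mp
        (hr.dvd_of_dvd_pow (n := 3) (by exact_mod_cast h'))
      exact hx (by rw [this] at h1; exact_mod_cast h1)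
    · exact not_dvd_of_isCoprime hxz hr h1 (hrp.dvd_of_dvd_pow h')
  · refine isCoprime_of_forall_prime fun r hr h1 h2 => ?_
    rw [d.norm_eq] at h2
    have hrp := Nat.prime_iff_prime_int.mp hr
    have h : (r : ℤ) ∣ x ^ 2 := by
      simpa using dvd_sub h2 (dvd_mul_of_dvd_right (dvd_pow h1 two_ne_zero) 27)
    exact not_dvd_of_isCoprime hxz hr (hrp.dvd_of_dvd_pow h) h1

theorem symR_natAbs {c : ℤ} (hc : IsCoprime c d.m) :
    symR d.m d.w c = symR d.m d.w c.natAbs := by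
  rcases Int.natAbs_eq c with h | h
  · rw [← h]
  · conv_lhs => rw [h]
    rw [← neg_one_mul ((c.natAbs : ℤ)), symR_mul d.ok isCoprime_one_left.neg_left
      (by rw [h] at hc; simpa using hc.neg_left), symR_neg_one d.ok, zero_add]

theorem recip' {c : ℤ} (hc3 : ¬ 3 ∣ c) (hc : IsCoprime c d.m) :
    symR d.m d.w c = sym c.natAbs (eisSqrt x (3 * z)) := by
  rw [d.symR_natAbs hc, d.recip c.natAbs (fun h => hc3 (Int.natCast_dvd.mpr h))]
  rcases Int.natAbs_eq c with h | h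
  · rwa [← h]
  · rw [h] at hc; simpa using hc.neg_left

theorem symR_left (hx : ¬ 3 ∣ x) (hxz : IsCoprime x z) : symR d.m d.w x = 0 := by
  rw [d.recip' hx (d.coprime_m hx hxz).1]
  refine sym_eisSqrt_left (fun h => hx (Int.natCast_dvd.mpr h)) Int.natAbs_dvd_self ?_
  rw [Int.isCoprime_iff_nat_coprime, Int.natAbs_natCast, ← Int.isCoprime_iff_nat_coprime]
  refine IsCoprime.mul_right ?_ hxz
  exact isCoprime_of_forall_prime fun r hr h1 h2 => hx (by
    have : r = 3 := (Nat.prime_dvd_prime_iff_eq hr Nat.prime_three).mp (by exact_mod_cast h2)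
    rw [this] at h1; exact_mod_cast h1)

theorem symR_of_dvd_right (hx : ¬ 3 ∣ x) (hxz : IsCoprime x z) {c : ℤ} (hc : c ∣ z)
    (hc3 : ¬ 3 ∣ c) : symR d.m d.w c = 0 := by
  rw [d.recip' hc3 ((d.coprime_m hx hxz).2.of_isCoprime_of_dvd_left hc)]
  refine sym_eisSqrt_right (fun h => hc3 (Int.natCast_dvd.mpr h))
    (Int.natAbs_dvd.mpr (dvd_mul_of_dvd_right hc 3)) ?_
  rw [Int.isCoprime_iff_nat_coprime, Int.natAbs_natCast, ← Int.isCoprime_iff_nat_coprime]
  exact hxz.symm.of_isCoprime_of_dvd_left hc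

theorem three_coprime_m (hx : ¬ 3 ∣ x) : IsCoprime (3 : ℤ) d.m := by
  refine (Int.prime_three.coprime_iff_not_dvd).mpr fun h => hx ?_
  rw [d.norm_eq] at h
  exact Int.prime_three.dvd_of_dvd_pow (n := 2)
    ((dvd_add_left (dvd_mul_of_dvd_left (show (3 : ℤ) ∣ 27 by norm_num) (z ^ 2))).mp h)

theorem symR_pow {c : ℤ} (hc : IsCoprime c d.m) (i : ℕ) :
    symR d.m d.w (c ^ i) = i * symR d.m d.w c := by
  induction i with
  | zero =>
    have h0 := symR_mul (r := 1) (s := 1) d.ok isCoprime_one_left isCoprime_one_left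
    simp only [mul_one, left_eq_add] at h0
    simp [h0]
  | succ i ih =>
    rw [pow_succ, symR_mul d.ok hc.pow_left hc, ih, Nat.cast_succ, add_mul, one_mul]

end RatData

theorem symR_three_of_not_dvd {x z : ℤ} (hx : ¬ 3 ∣ x) (hxz : IsCoprime x (3 * z))
    (hz : ¬ 3 ∣ z) (d : RatData x (3 * z)) : symR d.m d.w 3 = 0 := by
  have h3 := d.three_coprime_m hx
  have hcz : IsCoprime z (d.m : ℤ) :=
    (d.coprime_m hx hxz).2.of_isCoprime_of_dvd_left (dvd_mul_left z 3)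
  have hcx := (d.coprime_m hx hxz).1
  have key : symR d.m d.w (3 ^ 5 * z ^ 2) = symR d.m d.w (-1 * x ^ 2) :=
    symR_congr ⟨1, by rw [d.norm_eq]; ring⟩
  rw [symR_mul d.ok h3.pow_left hcz.pow_left,
    symR_mul d.ok isCoprime_one_left.neg_left hcx.pow_left, d.symR_pow h3, d.symR_pow hcz,
    d.symR_pow hcx, symR_neg_one d.ok, d.symR_left hx hxz,
    d.symR_of_dvd_right hx hxz (dvd_mul_left z 3) hz] at key
  simp only [mul_zero, add_zero] at key
  revert key
  generalize symR d.m d.w 3 = s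
  revert s
  decide

theorem symR_three {x z : ℤ} (hx : ¬ 3 ∣ x) (hxz : IsCoprime x (3 * z)) (hodd : ¬ 2 ∣ x + z)
    (d : RatData x (3 * z)) : symR d.m d.w 3 = 0 := by
  by_cases hz : 3 ∣ z
  swap
  · exact symR_three_of_not_dvd hx hxz hz d
  -- multiply by `± 8 + 9 √-3`, of prime norm `307`
  obtain ⟨x₂, hx₂, hnd⟩ : ∃ x₂ : ℤ, (x₂ = 8 ∨ x₂ = -8) ∧ ¬ (307 : ℤ) ∣ x + x₂ * z := by
    by_contra hall
    push Not at hall
    have h1 := hall 8 (Or.inl rfl)
    have h2 := hall (-8) (Or.inr rfl)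
    have hp : Prime (307 : ℤ) := Int.prime_iff_natAbs_prime.mpr (by norm_num)
    have hx' : (307 : ℤ) ∣ x := by
      have := dvd_add h1 h2
      rw [show x + 8 * z + (x + -8 * z) = 2 * x by ring] at this
      exact (hp.dvd_or_dvd this).resolve_left (by norm_num)
    have hz' : (307 : ℤ) ∣ z := by
      have := dvd_sub h1 h2
      rw [show x + 8 * z - (x + -8 * z) = 16 * z by ring] at this
      exact (hp.dvd_or_dvd this).resolve_left (by norm_num)
    have := Int.isUnit_iff.mp (hxz.isUnit_of_dvd' hx' (dvd_mul_of_dvd_right hz' 3))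
    omega
  set X := x * x₂ - 243 * z with hX
  set Z := x + x₂ * z with hZ
  have hx₂3 : ¬ (3 : ℤ) ∣ x₂ := by rcases hx₂ with rfl | rfl <;> norm_num
  have hZ3 : ¬ 3 ∣ Z := fun h => hx (by
    simpa [hZ] using dvd_sub h (dvd_mul_of_dvd_right hz x₂))
  have hX3 : ¬ 3 ∣ X := fun h => by
    have h' : (3 : ℤ) ∣ x * x₂ := by
      simpa [hX] using dvd_add h (dvd_mul_of_dvd_left (show (3 : ℤ) ∣ 243 by norm_num) z)
    exact (Int.prime_three.dvd_or_dvd h').elim hx hx₂3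
  have hm₂ : x₂ ^ 2 + 243 = 307 := by rcases hx₂ with rfl | rfl <;> norm_num
  have hXZ : IsCoprime X (3 * Z) := by
    refine IsCoprime.mul_right ((Int.prime_three.coprime_iff_not_dvd).mpr hX3).symm ?_
    refine isCoprime_of_forall_prime fun r hr h1 h2 => ?_
    have hx' : (r : ℤ) ∣ 307 * x := by
      rw [← hm₂, show (x₂ ^ 2 + 243) * x = x₂ * X + 243 * Z by rw [hX, hZ]; ring]
      exact dvd_add (dvd_mul_of_dvd_right h1 x₂) (dvd_mul_of_dvd_right h2 243)
    have hz' : (r : ℤ) ∣ 307 * z := by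
      rw [← hm₂, show (x₂ ^ 2 + 243) * z = x₂ * Z - X by rw [hX, hZ]; ring]
      exact dvd_sub (dvd_mul_of_dvd_right h2 x₂) h1
    have hrp := Nat.prime_iff_prime_int.mp hr
    by_cases hr307 : (r : ℤ) ∣ 307
    · have : r = 307 := (Nat.prime_dvd_prime_iff_eq hr (by norm_num)).mp (by exact_mod_cast hr307)
      exact hnd (by rw [this] at h2; exact_mod_cast h2)
    exact not_dvd_of_isCoprime hxz hr ((hrp.dvd_or_dvd hx').resolve_left hr307)
      (dvd_mul_of_dvd_right ((hrp.dvd_or_dvd hz').resolve_left hr307) 3)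
  have hodd' : ¬ 2 ∣ X + 3 * Z := by
    obtain ⟨e, rfl⟩ : (2 : ℤ) ∣ x₂ := by rcases hx₂ with rfl | rfl <;> norm_num
    intro h
    apply hodd
    rw [hX, hZ] at h
    obtain ⟨f, hf⟩ := h
    exact ⟨f - x * e + 122 * z - x - 3 * e * z, by linear_combination hf⟩
  obtain ⟨d₃⟩ := exists_ratData hX3 hXZ hodd'
  obtain ⟨d₂⟩ := exists_ratData (x := x₂) (z := 3) hx₂3
    (by rcases hx₂ with rfl | rfl <;> exact Int.isCoprime_iff_nat_coprime.mpr (by norm_num))
    (by rcases hx₂ with rfl | rfl <;> norm_num)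
  -- a natural number congruent to `3` modulo both norms and prime to `3`
  let n : ℕ := 3 + d.m * d₂.m
  have hm₂' : (d₂.m : ℤ) = 307 := by rw [d₂.norm_eq, ← hm₂]; ring
  have hm₃ : (d₃.m : ℤ) = d.m * d₂.m := by
    rw [d₃.norm_eq, d.norm_eq, d₂.norm_eq, hX, hZ]; ring
  have hn : (n : ℤ) = 3 + (d.m : ℤ) * d₂.m := by simp [n]
  have hn3 : ¬ 3 ∣ n := by
    intro h
    have h' : (3 : ℤ) ∣ (d.m : ℤ) * d₂.m := by
      have := Int.natCast_dvd_natCast.mpr h
      rw [hn] at this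
      simpa using this
    rcases Int.prime_three.dvd_or_dvd h' with h1 | h1
    · exact d.ok.1 (Int.natCast_dvd_natCast.mp h1)
    · exact d₂.ok.1 (Int.natCast_dvd_natCast.mp h1)
  have hc₁ : IsCoprime (n : ℤ) d.m := by
    rw [hn]; exact (d.three_coprime_m hx).add_mul_left_left _
  have hc₂ : IsCoprime (n : ℤ) d₂.m := by
    rw [hn]; exact (d₂.three_coprime_m hx₂3).add_mul_right_left _
  have hc₃ : IsCoprime (n : ℤ) d₃.m := by rw [hm₃]; exact hc₁.mul_right hc₂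
  have e₁ : symR d.m d.w 3 = sym n (eisSqrt x (3 * (3 * z))) := by
    rw [d.recip n hn3 hc₁]; exact symR_congr ⟨-(d₂.m : ℤ), by rw [hn]; ring⟩
  have e₂ : sym n (eisSqrt x₂ (3 * 3)) = 0 := by
    rw [d₂.recip n hn3 hc₂, symR_congr (r' := 3) ⟨(d.m : ℤ), by rw [hn]; ring⟩]
    exact symR_three_of_not_dvd (z := 1) hx₂3
      (by rcases hx₂ with rfl | rfl <;> exact Int.isCoprime_iff_nat_coprime.mpr (by norm_num))
      (by norm_num) d₂
  have e₃ : sym n (eisSqrt X (3 * (3 * Z))) = 0 := by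
    rw [d₃.recip n hn3 hc₃, symR_congr (r' := 3) ⟨1, by rw [hn, hm₃]; ring⟩]
    exact symR_three_of_not_dvd hX3 hXZ hZ3 d₃
  have hok : ∀ {u v : ℤ} (e : RatData u v), IsCoprime (n : ℤ) e.m →
      SymOk n (eisSqrt u (3 * v)) := fun {u v} e hce => ⟨hn3, fun r hr hrn hr' => by
    rw [norm_eisSqrt, show u ^ 2 + 3 * (3 * v) ^ 2 = u ^ 2 + 27 * v ^ 2 by ring, ← e.norm_eq] at hr'
    exact not_dvd_of_isCoprime hce hr (Int.natCast_dvd_natCast.mpr hrn) hr'⟩
  have hmul : eisSqrt x (3 * (3 * z)) * eisSqrt x₂ (3 * 3) = eisSqrt X (3 * (3 * Z)) := by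
    ext <;> simp [eisSqrt, hX, hZ] <;> ring
  rw [← hmul, sym_mul (hok d hc₁) (hok d₂ hc₂), e₂, add_zero] at e₃
  rw [e₁, e₃]

/-- The symbol of any divisor of `z` is trivial. -/
theorem symR_eq_zero_of_dvd_right {x z : ℤ} (d : RatData x z) (hx : ¬ 3 ∣ x) (hxz : IsCoprime x z)
    (hodd : ¬ 2 ∣ x + z) (j : ℕ) :
    ∀ c : ℤ, c.natAbs = j → c ≠ 0 → c ∣ z → symR d.m d.w c = 0 := by
  induction j using Nat.strong_induction_on with
  | _ j ih =>
    intro c hj hc0 hcz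
    by_cases h3 : (3 : ℤ) ∣ c
    swap
    · exact d.symR_of_dvd_right hx hxz hcz h3
    obtain ⟨z', rfl⟩ := h3.trans hcz
    obtain ⟨c', rfl⟩ := h3
    have hc' : c' ≠ 0 := fun h => hc0 (by rw [h, mul_zero])
    have hlt : c'.natAbs < j := by
      rw [← hj, Int.natAbs_mul]
      have := Int.natAbs_pos.mpr hc'
      norm_num
      omega
    have hcm : IsCoprime c' (d.m : ℤ) :=
      (d.coprime_m hx hxz).2.of_isCoprime_of_dvd_left ((dvd_mul_left c' 3).trans hcz)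
    rw [symR_mul d.ok (d.three_coprime_m hx) hcm,
      symR_three hx hxz (by omega) d,
      ih _ hlt c' rfl hc' ((dvd_mul_left c' 3).trans hcz), add_zero]

/-- The reciprocity law. -/
theorem sym_binary_form_eq_zero {X Y U V A p q : ℤ} (hrel : p * U ^ 2 + 27 * q * V ^ 2 = A ^ 3)
    (hX3 : ¬ 3 ∣ X) (hU3 : ¬ 3 ∣ U) (hXY : IsCoprime X Y) (hUV : IsCoprime U V)
    (hn3 : ¬ 3 ∣ p * Y ^ 2 - q * X ^ 2) (hnA : IsCoprime (p * Y ^ 2 - q * X ^ 2) A)
    (hnp : IsCoprime (p * Y ^ 2 - q * X ^ 2) p) (hV : V ≠ 0) (hodd : ¬ 2 ∣ X * U + Y * V) :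
    sym (p * Y ^ 2 - q * X ^ 2).natAbs (eisSqrt (X * U) (3 * (Y * V))) = 0 := by
  set n := p * Y ^ 2 - q * X ^ 2 with hn
  have hnX : IsCoprime n X := isCoprime_of_forall_prime fun r hr h1 h2 => by
    have hrp := Nat.prime_iff_prime_int.mp hr
    have h : (r : ℤ) ∣ p * Y ^ 2 := by
      rw [show p * Y ^ 2 = n + q * X ^ 2 by rw [hn]; ring]
      exact dvd_add h1 (dvd_mul_of_dvd_right (dvd_pow h2 two_ne_zero) q)
    rcases hrp.dvd_or_dvd h with h' | h'
    · exact not_dvd_of_isCoprime hnp hr h1 h'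
    · exact not_dvd_of_isCoprime hXY hr h2 (hrp.dvd_of_dvd_pow h')
  -- split off the common rational factor
  obtain ⟨g₁, X', V', hg₁, hco₁, hX', hV'⟩ :=
    Int.exists_gcd_one' (m := X) (n := V) (Int.gcd_pos_of_ne_zero_right _ hV)
  obtain ⟨g₂, hg₂, U', Y', hU', hY', hco₂⟩ : ∃ (g : ℕ), 0 < g ∧ ∃ U' Y' : ℤ,
      U = U' * g ∧ Y = Y' * g ∧ Int.gcd U' Y' = 1 := by
    have hU0 : U ≠ 0 := by rintro rfl; simp at hU3
    obtain ⟨g, U', Y', hg, h1, h2, h3⟩ :=
      Int.exists_gcd_one' (m := U) (n := Y) (Int.gcd_pos_of_ne_zero_left _ hU0)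
    exact ⟨g, hg, U', Y', h2, h3, h1⟩
  have hU'3 : ¬ 3 ∣ U' := fun h => hU3 (hU' ▸ dvd_mul_of_dvd_left h _)
  have hX'3 : ¬ 3 ∣ X' := fun h => hX3 (hX' ▸ dvd_mul_of_dvd_left h _)
  have hx3 : ¬ 3 ∣ X' * U' := fun h => (Int.prime_three.dvd_or_dvd h).elim hX'3 hU'3
  have hXV : IsCoprime X' V' := Int.isCoprime_iff_gcd_eq_one.mpr hco₁
  have hUY : IsCoprime U' Y' := Int.isCoprime_iff_gcd_eq_one.mpr hco₂
  have hXY' : IsCoprime X' Y' := by
    rw [hX', hY'] at hXY; exact hXY.of_mul_left_left.of_mul_right_left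
  have hUV' : IsCoprime U' V' := by
    rw [hU', hV'] at hUV; exact hUV.of_mul_left_left.of_mul_right_left
  have hcop : IsCoprime (X' * U') (Y' * V') :=
    (hXY'.mul_right hXV).mul_left (hUY.mul_right hUV')
  have hodd' : ¬ 2 ∣ X' * U' + Y' * V' := fun h => hodd (by
    rw [hX', hU', hY', hV', show X' * g₁ * (U' * g₂) + Y' * g₂ * (V' * g₁) =
      (X' * U' + Y' * V') * (g₁ * g₂) by ring]
    exact dvd_mul_of_dvd_left h _)
  obtain ⟨d⟩ := exists_ratData hx3 hcop hodd'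
  have hV'0 : V' ≠ 0 := fun h => hV (by rw [hV', h, zero_mul])
  obtain ⟨hxm, hzm⟩ := d.coprime_m hx3 hcop
  have hVm : IsCoprime V' (d.m : ℤ) := hzm.of_isCoprime_of_dvd_left (dvd_mul_left V' Y')
  have hXm : IsCoprime X' (d.m : ℤ) := hxm.of_isCoprime_of_dvd_left (dvd_mul_right X' U')
  have hid : 27 * V' ^ 2 * n = p * g₂ ^ 2 * d.m - X' ^ 2 * A ^ 3 := by
    rw [d.norm_eq, hn, ← hrel, hU', hY', hV', hX']
    ring
  have hnm : IsCoprime n (d.m : ℤ) := isCoprime_of_forall_prime fun r hr h1 h2 => by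
    have hrp := Nat.prime_iff_prime_int.mp hr
    have h : (r : ℤ) ∣ X' ^ 2 * A ^ 3 := by
      rw [show X' ^ 2 * A ^ 3 = p * g₂ ^ 2 * d.m - 27 * V' ^ 2 * n by rw [hid]; ring]
      exact dvd_sub (dvd_mul_of_dvd_right h2 _) (dvd_mul_of_dvd_right h1 _)
    rcases hrp.dvd_or_dvd h with h' | h'
    · exact not_dvd_of_isCoprime hXm hr (hrp.dvd_of_dvd_pow h') h2
    · exact not_dvd_of_isCoprime hnA hr h1 (hrp.dvd_of_dvd_pow h')
  have hAm : IsCoprime A (d.m : ℤ) := isCoprime_of_forall_prime fun r hr h1 h2 => by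
    have hrp := Nat.prime_iff_prime_int.mp hr
    have h : (r : ℤ) ∣ 27 * V' ^ 2 * n := by
      rw [hid]
      exact dvd_sub (dvd_mul_of_dvd_right h2 _) (dvd_mul_of_dvd_right (dvd_pow h1 (by norm_num)) _)
    rcases hrp.dvd_or_dvd h with h' | h'
    · rcases hrp.dvd_or_dvd h' with h'' | h''
      · have : r = 3 := (Nat.prime_dvd_prime_iff_eq hr Nat.prime_three).mp
          (hr.dvd_of_dvd_pow (n := 3) (by exact_mod_cast h''))
        rw [this] at h2
        exact d.ok.1 (Int.natCast_dvd_natCast.mp h2)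
      · exact not_dvd_of_isCoprime hVm hr (hrp.dvd_of_dvd_pow h'') h2
    · exact not_dvd_of_isCoprime hnA hr h' h1
  have h3m := d.three_coprime_m hx3
  have key : symR d.m d.w (3 ^ 3 * V' ^ 2 * n) = symR d.m d.w (-1 * (X' ^ 2 * A ^ 3)) :=
    symR_congr ⟨p * g₂ ^ 2, by linear_combination hid⟩
  rw [symR_mul d.ok (h3m.pow_left.mul_left hVm.pow_left) hnm,
    symR_mul d.ok h3m.pow_left hVm.pow_left,
    symR_mul d.ok isCoprime_one_left.neg_left (hXm.pow_left.mul_left hAm.pow_left),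
    symR_mul d.ok hXm.pow_left hAm.pow_left, d.symR_pow h3m, d.symR_pow hVm, d.symR_pow hXm,
    d.symR_pow hAm, symR_neg_one d.ok,
    show ((3 : ℕ) : ZMod 3) = 0 by decide, zero_mul, zero_mul,
    symR_eq_zero_of_dvd_right d hx3 hcop hodd' V'.natAbs V' rfl hV'0 (dvd_mul_left V' Y')] at key
  have hX0 : symR d.m d.w X' = 0 := by
    rw [d.recip' hX'3 hXm]
    refine sym_eisSqrt_left (fun h => hX'3 (Int.natCast_dvd.mpr h))
      (Int.natAbs_dvd.mpr (dvd_mul_right X' U')) ?_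
    rw [Int.isCoprime_iff_nat_coprime, Int.natAbs_natCast, ← Int.isCoprime_iff_nat_coprime]
    exact ((Int.prime_three.coprime_iff_not_dvd).mpr hX'3).symm.mul_right (hXY'.mul_right hXV)
  rw [hX0] at key
  have hn0 : symR d.m d.w n = 0 := by simpa using key
  -- back to the original element
  have hg : eisSqrt (X * U) (3 * (Y * V)) =
      (((g₁ : ℤ) * g₂ : ℤ) : Eis) * eisSqrt (X' * U') (3 * (Y' * V')) := by
    rw [hX', hU', hY', hV']
    ext <;> simp [eisSqrt] <;> ring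
  have hng : IsCoprime n ((g₁ : ℤ) * g₂) := by
    refine IsCoprime.mul_right ?_ (isCoprime_of_forall_prime fun r hr h1 h2 => ?_)
    · exact hnX.of_isCoprime_of_dvd_right (hX' ▸ dvd_mul_left _ _)
    have hrp := Nat.prime_iff_prime_int.mp hr
    have hrY : (r : ℤ) ∣ Y := hY' ▸ dvd_mul_of_dvd_right h2 _
    have hrU : (r : ℤ) ∣ U := hU' ▸ dvd_mul_of_dvd_right h2 _
    have h : (r : ℤ) ∣ q * X ^ 2 := by
      rw [show q * X ^ 2 = p * Y ^ 2 - n by rw [hn]; ring]
      exact dvd_sub (dvd_mul_of_dvd_right (dvd_pow hrY two_ne_zero) _) h1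
    rcases hrp.dvd_or_dvd h with h' | h'
    · refine not_dvd_of_isCoprime hnA hr h1 (hrp.dvd_of_dvd_pow (n := 3) ?_)
      rw [← hrel]
      exact dvd_add (dvd_mul_of_dvd_right (dvd_pow hrU two_ne_zero) _)
        (dvd_mul_of_dvd_left (dvd_mul_of_dvd_right h' _) _)
    · exact not_dvd_of_isCoprime hnX hr h1 (hrp.dvd_of_dvd_pow h')
  have hn3' : ¬ 3 ∣ n.natAbs := fun h => hn3 (Int.natCast_dvd.mpr h)
  rw [hg, sym_mul ⟨hn3', ?_⟩ ⟨hn3', ?_⟩, sym_eq_zero_of, zero_add, ← d.recip' hn3 hnm, hn0]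
  · intro r hr hrn
    have := Fact.mk hr
    exact symP_intCast (fun h => hn3' (h ▸ hrn))
      (not_dvd_of_isCoprime hng hr (Int.natCast_dvd.mpr hrn))
  · intro r hr hrn h
    rw [QuadraticAlgebra.norm_intCast] at h
    exact not_dvd_of_isCoprime hng hr (Int.natCast_dvd.mpr hrn)
      ((Nat.prime_iff_prime_int.mp hr).dvd_of_dvd_pow h)
  · intro r hr hrn h
    rw [norm_eisSqrt, show (X' * U') ^ 2 + 3 * (3 * (Y' * V')) ^ 2 =
      (X' * U') ^ 2 + 27 * (Y' * V') ^ 2 by ring, ← d.norm_eq] at h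
    exact not_dvd_of_isCoprime hnm hr (Int.natCast_dvd.mpr hrn) h

end FLTA.LT2
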