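import Fermat.Agent.LT2.ThetaCubicLaw
import Fermat.Agent.LT2.ThetaCubicDefs

/-!
# Roots of the cubic modulo a prime and the cubic symbol

For a good prime `p` and `r ^ 2 = D` modulo `p` the cubic has a root modulo `p` if and only if the
symbol of `u + 3 s r √-3` modulo `p` vanishes; it always has one if `D` is not a square modulo `p`.
-/

set_option autoImplicit false
set_option maxHeartbeats 400000

namespace FLTA.LT2

open QuadraticAlgebra

namespace CubicData

variable (C : CubicData)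

/-- `u`, with `u ^ 2 + 27 D s ^ 2 = (a ^ 2 - 3 b) ^ 3`. -/
def u : ℤ := (-2 * C.a ^ 3 + 9 * C.a * C.b - 27 * C.c) / 2

theorem two_mul_u : 2 * C.u = -2 * C.a ^ 3 + 9 * C.a * C.b - 27 * C.c := by
  refine Int.mul_ediv_cancel' ?_
  obtain ⟨e, he⟩ := C.two_dvd_a
  obtain ⟨f, hf⟩ := C.two_dvd_c
  exact ⟨-C.a ^ 3 + 9 * e * C.b - 27 * f, by rw [he, hf]; ring⟩

theorem u_sq_add : C.u ^ 2 + 27 * C.D * C.s ^ 2 = (C.a ^ 2 - 3 * C.b) ^ 3 := by
  have h := C.two_mul_u
  have h2 := C.disc_eq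
  have h4 : (2 * C.u) ^ 2 + 27 * (4 * C.D * C.s ^ 2) = 4 * (C.a ^ 2 - 3 * C.b) ^ 3 := by
    rw [h, ← h2]; ring
  linarith

/-- `u + 3 s r √-3`. -/
def gam (r : ℤ) : Eis := eisSqrt C.u (3 * C.s * r)

theorem star_gam (r : ℤ) : star (C.gam r) = C.gam (-r) := by
  ext <;> simp [gam, eisSqrt] <;> ring

theorem not_dvd_norm_gam {p : ℕ} (hp : p.Prime) (hbad : ¬ (p : ℤ) ∣ C.bad) {r : ℤ}
    (hr : (p : ℤ) ∣ r ^ 2 - C.D) : ¬ (p : ℤ) ∣ (C.gam r).norm := by
  rw [gam, norm_eisSqrt]
  intro h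
  have hp' := Nat.prime_iff_prime_int.mp hp
  have h1 : (p : ℤ) ∣ (C.a ^ 2 - 3 * C.b) ^ 3 := by
    rw [show (C.a ^ 2 - 3 * C.b) ^ 3 =
      C.u ^ 2 + 3 * (3 * C.s * r) ^ 2 - 27 * C.s ^ 2 * (r ^ 2 - C.D) by rw [← C.u_sq_add]; ring]
    exact dvd_sub h (dvd_mul_of_dvd_right hr _)
  exact hbad (dvd_mul_of_dvd_right (hp'.dvd_of_dvd_pow h1) _)

variable {p : ℕ} [Fact p.Prime]

theorem bad_facts (hbad : ¬ (p : ℤ) ∣ C.bad) :
    p ≠ 2 ∧ p ≠ 3 ∧ (C.s : Clo p) ≠ 0 ∧ (C.D : Clo p) ≠ 0 ∧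
      ((C.a ^ 2 - 3 * C.b : ℤ) : Clo p) ≠ 0 := by
  refine ⟨?_, ?_, ?_, ?_, ?_⟩
  · rintro rfl; exact hbad (Dvd.intro (3 * C.D * C.s * (C.a ^ 2 - 3 * C.b)) (by rw [bad]; ring))
  · rintro rfl; exact hbad (Dvd.intro (2 * C.D * C.s * (C.a ^ 2 - 3 * C.b)) (by rw [bad]; ring))
  all_goals
    intro h
    rw [CharP.intCast_eq_zero_iff (Clo p) p] at h
    apply hbad
    rw [bad]
  · exact dvd_mul_of_dvd_left (dvd_mul_of_dvd_right h _) _
  · exact dvd_mul_of_dvd_left (dvd_mul_of_dvd_left (dvd_mul_of_dvd_right h _) _) _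
  · exact dvd_mul_of_dvd_right h _

theorem intCast_pow_card (n : ℤ) : (n : Clo p) ^ p = n := by
  rw [← frobenius_def, map_intCast]

theorem natCast_ne_zero_clo {n : ℕ} (h : ¬ p ∣ n) : (n : Clo p) ≠ 0 := by
  rwa [Ne, CharP.cast_eq_zero_iff (Clo p) p]

theorem exists_root_iff :
    (∃ x : ZMod p, C.eval x = 0) ↔ ∃ x : Clo p, x ^ p = x ∧ C.eval x = 0 := by
  have hmap : ∀ x : ZMod p, C.eval (ZMod.castHom (dvd_refl p) (Clo p) x) =
      ZMod.castHom (dvd_refl p) (Clo p) (C.eval x) := fun x => by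
    simp only [eval, map_add, map_mul, map_pow, map_intCast]
  constructor
  · rintro ⟨x, hx⟩
    refine ⟨ZMod.castHom (dvd_refl p) (Clo p) x, ?_, ?_⟩
    · rw [← map_pow, ZMod.pow_card]
    · rw [hmap, hx, map_zero]
  · rintro ⟨x, hxp, hx⟩
    obtain ⟨n, rfl⟩ := (mem_bot_iff_intCast p (Clo p)).mp ((Subfield.mem_bot_iff_pow_eq_self (F := Clo p) (p := p)).mpr hxp)
    refine ⟨(n : ZMod p), (ZMod.castHom (dvd_refl p) (Clo p)).injective ?_⟩
    rw [← hmap, map_intCast, hx, map_zero]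

/-- A root of the cubic from a cube root of `β`, where `β + β' = 2 u` and `β β' = A ^ 3`. -/
theorem eval_root (h3 : p ≠ 3) {β β' z : Clo p} (hsum : β + β' = 2 * (C.u : Clo p))
    (hprod : β * β' = ((C.a ^ 2 - 3 * C.b : ℤ) : Clo p) ^ 3) (hz : z ^ 3 = β) (hz0 : z ≠ 0) :
    C.eval ((z + ((C.a ^ 2 - 3 * C.b : ℤ) : Clo p) / z - (C.a : Clo p)) / 3) = 0 := by
  set A := ((C.a ^ 2 - 3 * C.b : ℤ) : Clo p) with hA
  have h3' : (3 : Clo p) ≠ 0 := three_ne_zero_clo h3
  have hb' : (A / z) ^ 3 = β' := by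
    rw [div_pow, ← hprod, hz, mul_comm, mul_div_assoc, div_self, mul_one]
    rw [← hz]; exact pow_ne_zero _ hz0
  have hcross : z * (A / z) = A := mul_div_cancel₀ A hz0
  have hu := congrArg (Int.cast : ℤ → Clo p) C.two_mul_u
  push_cast at hu
  have hA' : A = (C.a : Clo p) ^ 2 - 3 * C.b := by rw [hA]; push_cast; ring
  set w := A / z
  set x := (z + w - (C.a : Clo p)) / 3 with hx
  have hx3 : 3 * x = z + w - C.a := by rw [hx, mul_div_cancel₀ _ h3']
  have key : 27 * C.eval x = 0 := by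
    rw [eval]
    linear_combination
      (9 * x ^ 2 + 3 * x * (z + w - (C.a : Clo p)) + (z + w - (C.a : Clo p)) ^ 2
        + 3 * (C.a : Clo p) * (3 * x + (z + w - (C.a : Clo p))) + 9 * (C.b : Clo p)) * hx3 +
      hz + hb' + hsum + hu + 3 * (z + w) * hA' + 3 * (z + w) * hcross
  refine (mul_eq_zero.mp key).resolve_left ?_
  rw [show (27 : Clo p) = 3 ^ 3 by norm_num]
  exact pow_ne_zero _ h3'

/-- The number `u + 3 s δ √-3`. -/
noncomputable def beta (W δ : Clo p) : Clo p := C.u + 3 * C.s * δ * (2 * W + 1)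

theorem beta_add (W δ : Clo p) : C.beta W δ + C.beta W (-δ) = 2 * (C.u : Clo p) := by
  simp only [beta]; ring

theorem beta_mul {W δ : Clo p} (hW : W ^ 2 + W + 1 = 0) (hδ : δ ^ 2 = (C.D : Clo p)) :
    C.beta W δ * C.beta W (-δ) = ((C.a ^ 2 - 3 * C.b : ℤ) : Clo p) ^ 3 := by
  have h := congrArg (Int.cast : ℤ → Clo p) C.u_sq_add
  push_cast at h
  push_cast
  simp only [beta]
  linear_combination h + (-36 * (C.s : Clo p) ^ 2 * δ ^ 2) * hW + 27 * (C.s : Clo p) ^ 2 * hδ

theorem beta_ne_zero (hbad : ¬ (p : ℤ) ∣ C.bad) {W δ : Clo p} (hW : W ^ 2 + W + 1 = 0)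
    (hδ : δ ^ 2 = (C.D : Clo p)) : C.beta W δ ≠ 0 := fun h => by
  have := C.beta_mul hW hδ
  rw [h, zero_mul] at this
  exact pow_ne_zero 3 (C.bad_facts hbad).2.2.2.2 this.symm

theorem beta_frob (W δ : Clo p) : C.beta W δ ^ p = C.beta (W ^ p) (δ ^ p) := by
  simp only [beta, ← frobenius_def, map_add, map_mul, map_intCast, map_ofNat, map_one]

theorem eisHom_gam {W : Clo p} (hW : W ^ 2 + W + 1 = 0) (r : ℤ) :
    eisHom W hW (C.gam r) = C.beta W (r : Clo p) := by
  simp only [eisHom_apply, gam, eisSqrt, beta]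
  push_cast
  ring

theorem mod_three_cases (h3 : p ≠ 3) {W : Clo p} (hW : W ^ 2 + W + 1 = 0) :
    (p % 3 = 1 ∧ W ^ p = W) ∨ (p % 3 = 2 ∧ W ^ p = W ^ 2) := by
  have hwm : W ^ p = W ^ (p % 3) := pow_eq_pow_mod p (pow_three_of_root hW)
  have h0 : p % 3 ≠ 0 := fun h =>
    h3 ((Nat.prime_dvd_prime_iff_eq Nat.prime_three Fact.out).mp (Nat.dvd_of_mod_eq_zero h)).symm
  rcases (show p % 3 = 1 ∨ p % 3 = 2 by omega) with h | h
  · exact Or.inl ⟨h, by rw [hwm, h, pow_one]⟩
  · exact Or.inr ⟨h, by rw [hwm, h]⟩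

/-- If `D` is not a square modulo `p`, the cubic has a root modulo `p`. -/
theorem exists_root_of_not_isSquare (hbad : ¬ (p : ℤ) ∣ C.bad)
    (hD : ¬ IsSquare (C.D : ZMod p)) : ∃ x : ZMod p, C.eval x = 0 := by
  obtain ⟨-, h3, -, -, hA⟩ := C.bad_facts hbad
  set A := ((C.a ^ 2 - 3 * C.b : ℤ) : Clo p) with hAdef
  obtain ⟨W, hW⟩ := exists_root_clo (q := p)
  obtain ⟨δ, hδ⟩ := IsAlgClosed.exists_pow_nat_eq (C.D : Clo p) (n := 2) two_pos
  have hδp : δ ^ p = -δ := by
    have h : (δ ^ p - δ) * (δ ^ p + δ) = 0 := by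
      have e : (δ ^ p) ^ 2 = δ ^ 2 := by
        rw [← pow_mul, mul_comm, pow_mul, hδ, intCast_pow_card]
      linear_combination e
    refine (mul_eq_zero.mp h).elim (fun h => absurd ?_ hD) eq_neg_of_add_eq_zero_left
    obtain ⟨n, rfl⟩ := (mem_bot_iff_intCast p (Clo p)).mp
      ((Subfield.mem_bot_iff_pow_eq_self (F := Clo p) (p := p)).mpr (sub_eq_zero.mp h))
    refine ⟨(n : ZMod p), (ZMod.castHom (dvd_refl p) (Clo p)).injective ?_⟩
    rw [map_mul, map_intCast, map_intCast, ← pow_two, hδ]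
  rw [exists_root_iff]
  set β := C.beta W δ with hβdef
  have hβ0 : β ≠ 0 := C.beta_ne_zero hbad hW hδ
  have hA3 : A ^ 3 ≠ 0 := pow_ne_zero _ hA
  have hp1 := (Fact.out : p.Prime).two_le
  have hAp : A ^ p = A := intCast_pow_card _
  have hap : (C.a : Clo p) ^ p = C.a := intCast_pow_card _
  suffices ∃ z : Clo p, z ^ 3 = β ∧ (z ^ p = z ∨ z ^ p = A / z) by
    obtain ⟨z, hz, hzp⟩ := this
    have hz0 : z ≠ 0 := fun h => hβ0 (by rw [← hz, h, zero_pow three_ne_zero])
    refine ⟨(z + A / z - (C.a : Clo p)) / 3, ?_, C.eval_root h3 (C.beta_add W δ)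
      (C.beta_mul hW hδ) hz hz0⟩
    rw [← frobenius_def, map_div₀, map_sub, map_add, map_div₀, map_ofNat, frobenius_def,
      frobenius_def, frobenius_def, hap, hAp]
    rcases hzp with h | h <;> rw [h]
    rw [div_div_cancel₀ hA, add_comm (A / z)]
  rcases mod_three_cases h3 hW with ⟨h1, hWp⟩ | ⟨h2, hWp⟩
  · have hβp : β ^ p = C.beta W (-δ) := by rw [hβdef, beta_frob, hWp, hδp]
    obtain ⟨z, hz⟩ := IsAlgClosed.exists_pow_nat_eq β (n := 3) (by norm_num)
    have hz0 : z ≠ 0 := fun h => hβ0 (by rw [← hz, h, zero_pow three_ne_zero])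
    have hc : (z ^ (p + 1) / A) ^ 3 = 1 := by
      rw [div_pow, ← pow_mul, mul_comm (p + 1), pow_mul, hz, pow_succ, hβp, mul_comm,
        C.beta_mul hW hδ, div_self hA3]
    obtain ⟨j, hj⟩ := exists_pow_val_eq (isPrimitiveRoot_of_root (three_ne_zero_clo h3) hW) hc
    refine ⟨z * W ^ j.val, by rw [mul_pow, hz, ← pow_mul, mul_comm j.val, pow_mul,
      pow_three_of_root hW, one_pow, mul_one], Or.inr ?_⟩
    have hzW : z * W ^ j.val ≠ 0 := mul_ne_zero hz0
      (pow_ne_zero _ fun h => by rw [h] at hW; simp at hW)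
    rw [eq_div_iff hzW, mul_pow, ← pow_mul, mul_comm j.val, pow_mul, hWp]
    have e : z ^ p * z = A * W ^ j.val := by
      rw [← pow_succ, ← hj, mul_div_cancel₀ _ hA]
    calc z ^ p * W ^ j.val * (z * W ^ j.val) = z ^ p * z * (W ^ j.val * W ^ j.val) := by ring
      _ = A * (W ^ j.val) ^ 3 := by rw [e]; ring
      _ = A := by rw [← pow_mul, mul_comm j.val, pow_mul, pow_three_of_root hW, one_pow, mul_one]
  · have hβp : β ^ p = β := by
      rw [hβdef, beta_frob, hWp, hδp]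
      simp only [beta]
      linear_combination (-6 * (C.s : Clo p) * δ) * hW
    have hpm : p * ((2 * p - 1) / 3) = ((2 * p - 1) / 3) * p := mul_comm _ _
    refine ⟨β ^ ((2 * p - 1) / 3), ?_, Or.inl ?_⟩
    · have hβp1 : β ^ (p - 1) = 1 := by
        refine mul_right_cancel₀ hβ0 ?_
        rw [← pow_succ, Nat.sub_add_cancel (by omega), hβp, one_mul]
      rw [← pow_mul, show (2 * p - 1) / 3 * 3 = 2 * (p - 1) + 1 by omega, pow_succ, mul_comm 2,
        pow_mul, hβp1, one_pow, one_mul]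
    · rw [← pow_mul, ← hpm, pow_mul, hβp]

/-- The Kummer criterion: for `r ^ 2 = D` modulo `p`. -/
theorem exists_root_iff_symP (hbad : ¬ (p : ℤ) ∣ C.bad) {r : ℤ} (hr : (p : ℤ) ∣ r ^ 2 - C.D) :
    (∃ x : ZMod p, C.eval x = 0) ↔ symP p (C.gam r) = 0 := by
  obtain ⟨hp2, h3, hs, hD, hA⟩ := C.bad_facts hbad
  set A := ((C.a ^ 2 - 3 * C.b : ℤ) : Clo p) with hAdef
  obtain ⟨W, hW⟩ := exists_root_clo (q := p)
  have hWp' := isPrimitiveRoot_of_root (three_ne_zero_clo h3) hW
  have hδ : ((r : Clo p)) ^ 2 = (C.D : Clo p) := by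
    rw [← sub_eq_zero, ← Int.cast_pow, ← Int.cast_sub, CharP.intCast_eq_zero_iff (Clo p) p]
    exact hr
  have hspec := symP_spec h3 (C.not_dvd_norm_gam Fact.out hbad hr) W hW
  rw [symVal, C.eisHom_gam, C.star_gam, C.eisHom_gam, Int.cast_neg, symExp] at hspec
  set β := C.beta W (r : Clo p) with hβdef
  set β' := C.beta W (-(r : Clo p)) with hβ'def
  have hprod : β * β' = A ^ 3 := C.beta_mul hW hδ
  have hsum : β + β' = 2 * (C.u : Clo p) := C.beta_add _ _
  have hβ0 : β ≠ 0 := C.beta_ne_zero hbad hW hδ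
  have hβ'0 : β' ≠ 0 := C.beta_ne_zero hbad hW (by rw [neg_sq]; exact hδ)
  have hiff : symP p (C.gam r) = 0 ↔ W ^ (symP p (C.gam r)).val = 1 :=
    ⟨fun h => by rw [h, ZMod.val_zero, pow_zero],
      fun h => eq_of_pow_val_eq hWp' (h.trans (by rw [ZMod.val_zero, pow_zero]))⟩
  rw [exists_root_iff, hiff, ← hspec]
  have hp1 := (Fact.out : p.Prime).two_le
  have hAp : A ^ p = A := intCast_pow_card _
  have hap : (C.a : Clo p) ^ p = C.a := intCast_pow_card _
  have hrp : (r : Clo p) ^ p = r := intCast_pow_card _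
  -- from a root to a cube root of `β` fixed by Frobenius or mapped to `A / z`
  have root_to : ∀ x : Clo p, x ^ p = x → C.eval x = 0 →
      ∃ z : Clo p, z ^ 3 = β ∧ (z ^ p = z ∨ z ^ p = A / z) := by
    intro x hxp hx
    set y := 3 * x + (C.a : Clo p) with hy
    obtain ⟨e, he⟩ := IsAlgClosed.exists_pow_nat_eq (y ^ 2 - 4 * A) (n := 2) two_pos
    set z := (y + e) / 2
    have h2 : (2 : Clo p) ≠ 0 := by
      have := natCast_ne_zero_clo (p := p) (n := 2)
        (fun h => hp2 ((Nat.prime_dvd_prime_iff_eq Fact.out Nat.prime_two).mp h))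
      simpa using this
    have hq : z * (y - z) = A := by
      have h2z : 2 * z = y + e := mul_div_cancel₀ _ h2
      refine mul_left_cancel₀ (mul_ne_zero h2 h2) ?_
      linear_combination (y - 2 * z - e) * h2z - he
    have hz0 : z ≠ 0 := fun h => hA (by rw [← hq, h, zero_mul])
    have hwz : A / z = y - z := by rw [← hq, mul_div_cancel_left₀ _ hz0]
    have hu := congrArg (Int.cast : ℤ → Clo p) C.two_mul_u
    push_cast at hu
    have hA' : A = (C.a : Clo p) ^ 2 - 3 * C.b := by rw [hAdef]; push_cast; ring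
    have hcube : z ^ 3 + (y - z) ^ 3 = 2 * (C.u : Clo p) := by
      rw [eval] at hx
      linear_combination 27 * hx - 3 * y * hq - 3 * y * hA' - hu
    have hyp : y ^ p = y := by
      rw [hy, ← frobenius_def, map_add, map_mul, map_ofNat, frobenius_def, frobenius_def, hxp, hap]
    have hconj : ∀ t : Clo p, t * (y - t) = A → t ^ p = t ∨ t ^ p = A / t := by
      intro t ht
      have ht0 : t ≠ 0 := fun h => hA (by rw [← ht, h, zero_mul])
      have h1 : t ^ p * (y - t ^ p) = A := by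
        have := congrArg (fun a => a ^ p) ht
        simp only [hAp] at this
        rw [mul_pow, sub_pow_char, hyp] at this
        exact this
      have h2 : (t ^ p - t) * (y - t - t ^ p) = 0 := by linear_combination h1 - ht
      rcases mul_eq_zero.mp h2 with h | h
      · exact Or.inl (sub_eq_zero.mp h)
      · exact Or.inr (by rw [← ht, mul_div_cancel_left₀ _ ht0]; linear_combination -h)
    have hor : (z ^ 3 - β) * (z ^ 3 - β') = 0 := by
      have hq3 : z ^ 3 * (y - z) ^ 3 = A ^ 3 := by rw [← mul_pow, hq]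
      linear_combination z ^ 3 * hcube - hq3 - z ^ 3 * hsum + hprod
    rcases mul_eq_zero.mp hor with h | h
    · exact ⟨z, sub_eq_zero.mp h, hconj z hq⟩
    · refine ⟨y - z, ?_, hconj (y - z) (by rw [sub_sub_cancel, mul_comm]; exact hq)⟩
      linear_combination hcube - hsum - h
  have root_of : ∀ z : Clo p, z ^ 3 = β → (z ^ p = z ∨ z ^ p = A / z) →
      ∃ x : Clo p, x ^ p = x ∧ C.eval x = 0 := by
    intro z hz hzp
    have hz0 : z ≠ 0 := fun h => hβ0 (by rw [← hz, h, zero_pow three_ne_zero])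
    refine ⟨(z + A / z - (C.a : Clo p)) / 3, ?_, C.eval_root h3 hsum hprod hz hz0⟩
    rw [← frobenius_def, map_div₀, map_sub, map_add, map_div₀, map_ofNat, frobenius_def,
      frobenius_def, frobenius_def, hap, hAp]
    rcases hzp with h | h <;> rw [h]
    rw [div_div_cancel₀ hA, add_comm (A / z)]
  rcases mod_three_cases h3 hW with ⟨h1, hWp⟩ | ⟨h2, hWp⟩
  · rw [if_pos h1, zpow_natCast]
    have hβp : β ^ p = β := by rw [hβdef, beta_frob, hWp, hrp]
    have hA3 : (A ^ 3) ^ (p / 3) = 1 := by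
      rw [← pow_mul, show 3 * (p / 3) = p - 1 by omega]
      refine mul_right_cancel₀ hA ?_
      rw [← pow_succ, Nat.sub_add_cancel (by omega), hAp, one_mul]
    have hsq : (β / β') ^ (p / 3) = (β ^ (p / 3)) ^ 2 := by
      rw [show β' = A ^ 3 / β by rw [← hprod, mul_div_cancel_left₀ _ hβ0], div_div_eq_mul_div,
        div_pow, hA3, div_one, mul_pow, pow_two]
    have hcube : (β ^ (p / 3)) ^ 3 = 1 := by
      rw [← pow_mul, show p / 3 * 3 = p - 1 by omega]
      refine mul_right_cancel₀ hβ0 ?_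
      rw [← pow_succ, Nat.sub_add_cancel (by omega), hβp, one_mul]
    have hiff1 : (β / β') ^ (p / 3) = 1 ↔ β ^ (p / 3) = 1 := by
      rw [hsq]
      refine ⟨fun h => ?_, fun h => by rw [h, one_pow]⟩
      rw [← hcube, pow_succ, h, one_mul]
    rw [hiff1]
    constructor
    · rintro ⟨x, hxp, hx⟩
      obtain ⟨z, hz, hzp⟩ := root_to x hxp hx
      have hz0 : z ≠ 0 := fun h => hβ0 (by rw [← hz, h, zero_pow three_ne_zero])
      rcases hzp with h | h
      · rw [← hz, ← pow_mul, show 3 * (p / 3) = p - 1 by omega]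
        refine mul_right_cancel₀ hz0 ?_
        rw [← pow_succ, Nat.sub_add_cancel (by omega), h, one_mul]
      · exfalso
        have hβ2 : β = β' := by
          have e : β ^ p = A ^ 3 / β := by
            rw [← hz, ← pow_mul, mul_comm, pow_mul, h, div_pow]
          rw [hβp, ← hprod, mul_div_cancel_left₀ _ hβ0] at e
          exact e
        have h6 : (6 : Clo p) * C.s * (r : Clo p) * (2 * W + 1) = 0 := by
          simp only [hβdef, hβ'def, beta] at hβ2
          linear_combination hβ2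
        have h6' : (6 : Clo p) ≠ 0 := by
          have := natCast_ne_zero_clo (p := p) (n := 6) (fun h => by
            rcases (Fact.out : p.Prime).dvd_mul.mp (show p ∣ 2 * 3 from h) with h | h
            · exact hp2 ((Nat.prime_dvd_prime_iff_eq Fact.out Nat.prime_two).mp h)
            · exact h3 ((Nat.prime_dvd_prime_iff_eq Fact.out Nat.prime_three).mp h))
          simpa using this
        have hr0 : (r : Clo p) ≠ 0 := fun h => hD (by rw [← hδ, h, zero_pow two_ne_zero])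
        have hW1 : 2 * W + 1 ≠ 0 := fun h => by
          have : (3 : Clo p) = 0 := by linear_combination -(2 * W + 1) * h + 4 * hW
          exact three_ne_zero_clo h3 this
        simp [h6', hs, hr0, hW1] at h6
    · intro hb
      obtain ⟨z, hz⟩ := IsAlgClosed.exists_pow_nat_eq β (n := 3) (by norm_num)
      refine root_of z hz (Or.inl ?_)
      have he : z ^ p = (z ^ 3) ^ (p / 3) * z := by
        rw [← pow_mul, ← pow_succ]; congr 1; omega
      rw [he, hz, hb, one_mul]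
  · rw [if_neg (by omega), zpow_neg, zpow_natCast, ← inv_pow, inv_div]
    have hβp : β ^ p = β' := by
      rw [hβdef, beta_frob, hWp, hrp, hβ'def]
      simp only [beta]
      linear_combination (6 * (C.s : Clo p) * (r : Clo p)) * hW
    have hval : (β' / β) ^ (p / 3 + 1) = β ^ ((p - 1) * (p / 3 + 1)) := by
      rw [pow_mul]
      congr 1
      rw [div_eq_iff hβ0, ← pow_succ, Nat.sub_add_cancel (by omega), hβp]
    rw [hval]
    constructor
    · rintro ⟨x, hxp, hx⟩
      obtain ⟨z, hz, hzp⟩ := root_to x hxp hx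
      have hz0 : z ≠ 0 := fun h => hβ0 (by rw [← hz, h, zero_pow three_ne_zero])
      have hzpp : (z ^ p) ^ p = z := by
        rcases hzp with h | h
        · rw [h, h]
        · rw [h, div_pow, hAp, h, div_div_cancel₀ hA]
      rw [← hz, ← pow_mul, show 3 * ((p - 1) * (p / 3 + 1)) = (p - 1) * (p + 1) by
        rw [← mul_assoc, mul_comm 3, mul_assoc]; congr 1; omega]
      refine mul_right_cancel₀ hz0 ?_
      rw [one_mul, ← pow_succ]
      have he : (p - 1) * (p + 1) + 1 = p * p := by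
        obtain ⟨q, rfl⟩ : ∃ q, p = q + 1 := ⟨p - 1, by omega⟩
        simp; ring
      rw [he, pow_mul, hzpp]
    · intro hb
      obtain ⟨z, hz⟩ := IsAlgClosed.exists_pow_nat_eq β (n := 3) (by norm_num)
      have hz0 : z ≠ 0 := fun h => hβ0 (by rw [← hz, h, zero_pow three_ne_zero])
      have hc : (z ^ (p + 1) / A) ^ 3 = 1 := by
        rw [div_pow, ← pow_mul, mul_comm (p + 1), pow_mul, hz, pow_succ, hβp, mul_comm, hprod,
          div_self (pow_ne_zero _ hA)]
      obtain ⟨j, hj⟩ := exists_pow_val_eq hWp' hc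
      -- `z ^ (p ^ 2) = z` forces `j = 0`
      have hzz : (z ^ p) ^ p = z := by
        rw [← pow_mul, show p * p = 3 * ((p - 1) * (p / 3 + 1)) + 1 by
          rw [← mul_assoc, mul_comm 3, mul_assoc, show 3 * (p / 3 + 1) = p + 1 by omega]
          obtain ⟨q, rfl⟩ : ∃ q, p = q + 1 := ⟨p - 1, by omega⟩
          simp; ring, pow_succ, pow_mul, hz, hb, one_mul]
      have e : z ^ p * z = A * W ^ j.val := by
        rw [← pow_succ, ← hj, mul_div_cancel₀ _ hA]
      have e2 := congrArg (fun t => t ^ p) e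
      simp only [mul_pow, hzz, hAp, ← pow_mul W, mul_comm j.val p] at e2
      rw [pow_mul, hWp, mul_comm z, e] at e2
      have hWj : W ^ j.val = 1 := by
        have h' := mul_left_cancel₀ hA e2
        rw [← pow_mul, mul_comm 2, pow_mul, pow_two] at h'
        exact (mul_eq_left₀ (pow_ne_zero _ (hWp'.ne_zero (by norm_num)))).mp h'.symm
      rw [hWj, mul_one] at e
      exact root_of z hz (Or.inr (by rw [eq_div_iff hz0]; exact e))

end CubicData

end FLTA.LT2
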