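import Mathlib

/-!
# Cubic symbols on Eisenstein integers

`sym n z` is the cubic residue symbol of `z` modulo the rational integer `n`, written additively
with values in `ZMod 3`; `symR m w r` is the symbol of the rational integer `r` modulo the element
of norm `m` whose residue map sends the cube root of unity to `w`.
-/

set_option autoImplicit false
set_option maxHeartbeats 400000

namespace FLTA.LT2

open QuadraticAlgebra

/-- The Eisenstein integers. -/
abbrev Eis : Type := QuadraticAlgebra ℤ (-1) (-1)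

/-- A primitive cube root of unity in `Eis`. -/
def eisOm : Eis := ⟨0, 1⟩

/-- `x + y √-3` in `Eis`. -/
def eisSqrt (x y : ℤ) : Eis := ⟨x + y, 2 * y⟩

theorem eis_norm (z : Eis) : z.norm = z.re * z.re - z.re * z.im + z.im * z.im := by
  rw [QuadraticAlgebra.norm_def]; ring

theorem eis_norm_nonneg (z : Eis) : 0 ≤ z.norm := by
  rw [eis_norm]; nlinarith [sq_nonneg (2 * z.re - z.im), sq_nonneg z.im]

theorem eis_norm_eq_zero {z : Eis} (h : z.norm = 0) : z = 0 := by
  rw [eis_norm] at h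
  have h1 : z.im = 0 := by nlinarith [sq_nonneg (2 * z.re - z.im), sq_nonneg z.im]
  have h2 : z.re = 0 := by rw [h1] at h; nlinarith
  exact QuadraticAlgebra.ext h2 h1

theorem norm_eisSqrt (x y : ℤ) : (eisSqrt x y).norm = x ^ 2 + 3 * y ^ 2 := by
  rw [eis_norm]; simp [eisSqrt]; ring

theorem eisOm_sq_add : eisOm ^ 2 + eisOm + 1 = 0 := by
  rw [sq]; ext <;> simp [eisOm]

section Hom

variable {R : Type*} [CommRing R]

/-- Evaluation at a root of `X^2 + X + 1`. -/
def eisHom (w : R) (hw : w ^ 2 + w + 1 = 0) : Eis →+* R where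
  toFun z := (z.re : R) + (z.im : R) * w
  map_one' := by simp
  map_mul' z z' := by
    simp only [re_mul, im_mul]
    push_cast
    linear_combination (-(z.im : R) * (z'.im : R)) * hw
  map_zero' := by simp
  map_add' z z' := by
    simp only [re_add, im_add]
    push_cast
    ring

variable {w : R} {hw : w ^ 2 + w + 1 = 0}

theorem eisHom_apply (z : Eis) : eisHom w hw z = (z.re : R) + (z.im : R) * w := rfl

theorem sq_add_of_root (hw : w ^ 2 + w + 1 = 0) : (w ^ 2) ^ 2 + w ^ 2 + 1 = 0 := by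
  linear_combination (w ^ 2 - w + 1) * hw

theorem pow_three_of_root (hw : w ^ 2 + w + 1 = 0) : w ^ 3 = 1 := by
  linear_combination (w - 1) * hw

theorem eisHom_star (z : Eis) :
    eisHom w hw (star z) = eisHom (w ^ 2) (sq_add_of_root hw) z := by
  simp only [eisHom_apply, re_star, im_star]
  push_cast
  linear_combination (-(z.im : R)) * hw

theorem eisHom_mul_star (z : Eis) : eisHom w hw z * eisHom w hw (star z) = (z.norm : R) := by
  rw [← map_mul, ← QuadraticAlgebra.algebraMap_norm_eq_mul_star]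
  simp [eisHom_apply]

theorem eisHom_om : eisHom w hw eisOm = w := by simp [eisHom_apply, eisOm]

/-- Powers of `w` indexed by `ZMod 3`. -/
theorem pow_val_add (hw : w ^ 3 = 1) (a b : ZMod 3) :
    w ^ (a + b).val = w ^ a.val * w ^ b.val := by
  rw [ZMod.val_add, ← pow_add, ← pow_eq_pow_mod _ hw]

theorem pow_val_neg (hw : w ^ 3 = 1) (a : ZMod 3) : w ^ (-a).val * w ^ a.val = 1 := by
  rw [← pow_val_add hw, neg_add_cancel, ZMod.val_zero, pow_zero]

end Hom

theorem isPrimitiveRoot_of_root {K : Type*} [Field K] (h3 : (3 : K) ≠ 0) {w : K}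
    (hw : w ^ 2 + w + 1 = 0) : IsPrimitiveRoot w 3 := by
  refine IsPrimitiveRoot.mk_of_lt _ (by norm_num) (pow_three_of_root hw) fun l hl hl3 h => ?_
  have hw1 : w = 1 := by
    interval_cases l
    · simpa using h
    · have h' := pow_three_of_root hw
      rwa [pow_succ, h, one_mul] at h'
  rw [hw1] at hw
  exact h3 (by linear_combination hw)

theorem root_of_isPrimitiveRoot {K : Type*} [CommRing K] [IsDomain K] {w : K}
    (hw : IsPrimitiveRoot w 3) : w ^ 2 + w + 1 = 0 := by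
  have := hw.geom_sum_eq_zero (by norm_num : 1 < 3)
  simp [Finset.sum_range_succ] at this
  linear_combination this

theorem eq_of_pow_val_eq {K : Type*} [CommRing K] {w : K} (hw : IsPrimitiveRoot w 3)
    {a b : ZMod 3} (h : w ^ a.val = w ^ b.val) : a = b :=
  ZMod.val_injective 3 (hw.pow_inj (ZMod.val_lt a) (ZMod.val_lt b) h)

theorem exists_pow_val_eq {K : Type*} [CommRing K] [IsDomain K] {w : K} (hw : IsPrimitiveRoot w 3)
    {x : K} (hx : x ^ 3 = 1) : ∃ a : ZMod 3, x = w ^ a.val := by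
  obtain ⟨i, hi, rfl⟩ := hw.eq_pow_of_pow_eq_one hx
  exact ⟨i, by rw [ZMod.val_natCast, Nat.mod_eq_of_lt hi]⟩

section Sym

variable {q : ℕ} [Fact q.Prime]

/-- An algebraic closure of `ZMod q`. -/
abbrev Clo (q : ℕ) [Fact q.Prime] : Type := AlgebraicClosure (ZMod q)

theorem three_ne_zero_clo (h3 : q ≠ 3) : (3 : Clo q) ≠ 0 := by
  intro h
  have : ((3 : ℕ) : Clo q) = 0 := by exact_mod_cast h
  rw [CharP.cast_eq_zero_iff (Clo q) q] at this
  exact h3 ((Nat.prime_dvd_prime_iff_eq Fact.out Nat.prime_three).mp this)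

theorem exists_root_clo : ∃ w : Clo q, w ^ 2 + w + 1 = 0 := by
  obtain ⟨w, hw⟩ := IsAlgClosed.exists_root
    (Polynomial.X ^ 2 + Polynomial.X + 1 : Polynomial (Clo q)) (by
      rw [show (Polynomial.X ^ 2 + Polynomial.X + 1 : Polynomial (Clo q)) =
        Polynomial.C 1 * Polynomial.X ^ 2 + Polynomial.C 1 * Polynomial.X + Polynomial.C 1 by simp,
        Polynomial.degree_quadratic one_ne_zero]
      exact two_ne_zero)
  exact ⟨w, by simpa using hw⟩

/-- The exponent `(q* - 1) / 3`, with `q* = ± q` congruent to `1` modulo `3`. -/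
def symExp (q : ℕ) : ℤ := if q % 3 = 1 then ((q / 3 : ℕ) : ℤ) else -((q / 3 + 1 : ℕ) : ℤ)

theorem frob_eisHom {w : Clo q} (hw : w ^ 2 + w + 1 = 0) (z : Eis) :
    (eisHom w hw z) ^ q = (z.re : Clo q) + (z.im : Clo q) * w ^ q := by
  rw [eisHom_apply, ← frobenius_def, map_add, map_mul, map_intCast, map_intCast, frobenius_def]

theorem eisHom_ne_zero {w : Clo q} (hw : w ^ 2 + w + 1 = 0) {z : Eis}
    (hz : ¬ (q : ℤ) ∣ z.norm) : eisHom w hw z ≠ 0 ∧ eisHom w hw (star z) ≠ 0 := by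
  have h : (z.norm : Clo q) ≠ 0 := fun h => hz ((CharP.intCast_eq_zero_iff (Clo q) q _).mp h)
  rw [← eisHom_mul_star (hw := hw)] at h
  exact mul_ne_zero_iff.mp h

/-- The value of the symbol in a field of characteristic `q`. -/
noncomputable def symVal (q : ℕ) [Fact q.Prime] (w : Clo q) (hw : w ^ 2 + w + 1 = 0) (z : Eis) :
    Clo q :=
  (eisHom w hw z / eisHom w hw (star z)) ^ symExp q

theorem symVal_pow_three (h3 : q ≠ 3) {w : Clo q} (hw : w ^ 2 + w + 1 = 0) {z : Eis}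
    (hz : ¬ (q : ℤ) ∣ z.norm) : symVal q w hw z ^ 3 = 1 := by
  obtain ⟨h1, h2⟩ := eisHom_ne_zero hw hz
  set x := eisHom w hw z
  set y := eisHom w hw (star z)
  have hq3 : q % 3 ≠ 0 := fun h =>
    h3 ((Nat.prime_dvd_prime_iff_eq Nat.prime_three Fact.out).mp (Nat.dvd_of_mod_eq_zero h)).symm
  have hx : x ^ q = (z.re : Clo q) + (z.im : Clo q) * w ^ q := frob_eisHom hw z
  have hwm : w ^ q = w ^ (q % 3) := pow_eq_pow_mod q (pow_three_of_root hw)
  rw [symVal, ← zpow_natCast, ← zpow_mul, symExp]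
  by_cases h : q % 3 = 1
  · rw [if_pos h, show ((q / 3 : ℕ) : ℤ) * ((3 : ℕ) : ℤ) = ((q - 1 : ℕ) : ℤ) by
      rw [← Nat.cast_mul]; congr 1; omega, zpow_natCast]
    have hx' : x ^ q = x := by rw [hx, hwm, h, pow_one]; rfl
    have hy' : y ^ q = y := by
      rw [frob_eisHom hw (star z), hwm, h, pow_one]; rfl
    rw [pow_sub₀ _ (div_ne_zero h1 h2) (Fact.out : q.Prime).one_le, pow_one, div_pow, hx', hy',
      mul_inv_cancel₀ (div_ne_zero h1 h2)]
  · rw [if_neg h, show -((q / 3 + 1 : ℕ) : ℤ) * ((3 : ℕ) : ℤ) = -((q + 1 : ℕ) : ℤ) by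
      rw [neg_mul, ← Nat.cast_mul]; congr 2; omega, zpow_neg, zpow_natCast, inv_eq_one]
    have hm : q % 3 = 2 := by omega
    have hx' : x ^ q = y := by rw [hx, hwm, hm]; exact (eisHom_star z).symm
    have hy' : y ^ q = x := by
      rw [frob_eisHom hw (star z), hwm, hm]
      have := eisHom_star (hw := hw) (star z)
      rw [star_star] at this
      exact this.symm
    rw [pow_succ, div_pow, hx', hy']
    change y / x * (x / y) = 1
    rw [div_mul_div_comm, mul_comm, div_self (mul_ne_zero h1 h2)]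

theorem exists_symP (h3 : q ≠ 3) {z : Eis} (hz : ¬ (q : ℤ) ∣ z.norm) :
    ∃ k : ZMod 3, ∀ (w : Clo q) (hw : w ^ 2 + w + 1 = 0), symVal q w hw z = w ^ k.val := by
  obtain ⟨w₀, hw₀⟩ := exists_root_clo (q := q)
  have hp := isPrimitiveRoot_of_root (three_ne_zero_clo h3) hw₀
  obtain ⟨k, hk⟩ := exists_pow_val_eq hp (symVal_pow_three h3 hw₀ hz)
  refine ⟨k, fun w hw => ?_⟩
  obtain ⟨j, hj, rfl⟩ :=
    hp.eq_pow_of_pow_eq_one (pow_three_of_root hw)
  interval_cases j
  · exact absurd (by simpa using hw : (1 : Clo q) + 1 + 1 = 0)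
      (by norm_num; exact three_ne_zero_clo h3)
  · convert hk using 2 <;> simp
  · unfold symVal
    have e1 : eisHom (w₀ ^ 2) hw z = eisHom w₀ hw₀ (star z) := (eisHom_star z).symm
    have e2 : eisHom (w₀ ^ 2) hw (star z) = eisHom w₀ hw₀ z := by
      have := eisHom_star (hw := hw₀) (star z)
      rw [star_star] at this
      exact this.symm
    rw [e1, e2]
    unfold symVal at hk
    rw [← inv_div, inv_zpow, hk, ← pow_mul, mul_comm 2, pow_mul]
    refine inv_eq_of_mul_eq_one_right ?_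
    rw [← pow_succ', ← pow_mul, mul_comm, pow_mul, pow_three_of_root hw₀, one_pow]

end Sym

open Classical in
/-- The cubic symbol of `z` modulo a prime `q`. -/
noncomputable def symP (q : ℕ) (z : Eis) : ZMod 3 :=
  if h : ∃ k : ZMod 3, ∃ _ : Fact q.Prime,
      ∀ (w : Clo q) (hw : w ^ 2 + w + 1 = 0), symVal q w hw z = w ^ k.val
  then h.choose else 0

theorem symP_spec {q : ℕ} [hq : Fact q.Prime] (h3 : q ≠ 3) {z : Eis} (hz : ¬ (q : ℤ) ∣ z.norm)
    (w : Clo q) (hw : w ^ 2 + w + 1 = 0) : symVal q w hw z = w ^ (symP q z).val := by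
  obtain ⟨k, hk⟩ := exists_symP h3 hz
  have h : ∃ k : ZMod 3, ∃ _ : Fact q.Prime,
      ∀ (w : Clo q) (hw : w ^ 2 + w + 1 = 0), symVal q w hw z = w ^ k.val := ⟨k, hq, hk⟩
  rw [symP, dif_pos h]
  obtain ⟨_, h'⟩ := h.choose_spec
  exact h' w hw

theorem symP_eq {q : ℕ} [Fact q.Prime] (h3 : q ≠ 3) {z : Eis} (hz : ¬ (q : ℤ) ∣ z.norm)
    {k : ZMod 3} (w : Clo q) (hw : w ^ 2 + w + 1 = 0) (h : symVal q w hw z = w ^ k.val) :
    symP q z = k :=
  eq_of_pow_val_eq (isPrimitiveRoot_of_root (three_ne_zero_clo h3) hw)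
    ((symP_spec h3 hz w hw).symm.trans h)

theorem symP_mul {q : ℕ} [Fact q.Prime] (h3 : q ≠ 3) {z z' : Eis} (hz : ¬ (q : ℤ) ∣ z.norm)
    (hz' : ¬ (q : ℤ) ∣ z'.norm) : symP q (z * z') = symP q z + symP q z' := by
  obtain ⟨w, hw⟩ := exists_root_clo (q := q)
  have hzz : ¬ (q : ℤ) ∣ (z * z').norm := by
    rw [map_mul]
    exact fun h => (((Nat.prime_iff_prime_int.mp Fact.out).dvd_or_dvd h)).elim hz hz'
  refine symP_eq h3 hzz w hw ?_
  rw [pow_val_add (pow_three_of_root hw), ← symP_spec h3 hz w hw, ← symP_spec h3 hz' w hw, symVal,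
    symVal, symVal, star_mul', map_mul, map_mul, ← mul_zpow, mul_div_mul_comm]

theorem symP_intCast {q : ℕ} [Fact q.Prime] (h3 : q ≠ 3) {r : ℤ} (hr : ¬ (q : ℤ) ∣ r) :
    symP q (r : Eis) = 0 := by
  obtain ⟨w, hw⟩ := exists_root_clo (q := q)
  have hn : ¬ (q : ℤ) ∣ ((r : Eis)).norm := by
    rw [QuadraticAlgebra.norm_intCast]
    exact fun h => hr ((Nat.prime_iff_prime_int.mp Fact.out).dvd_of_dvd_pow h)
  refine symP_eq h3 hn w hw ?_
  obtain ⟨h1, -⟩ := eisHom_ne_zero hw hn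
  rw [symVal, star_intCast, div_self h1, one_zpow, ZMod.val_zero, pow_zero]

theorem symP_of_star_eq_neg {q : ℕ} [Fact q.Prime] (h3 : q ≠ 3) {z : Eis}
    (hz : ¬ (q : ℤ) ∣ z.norm) (hs : star z = -z) : symP q z = 0 := by
  obtain ⟨w, hw⟩ := exists_root_clo (q := q)
  obtain ⟨h1, -⟩ := eisHom_ne_zero hw hz
  have hp := isPrimitiveRoot_of_root (three_ne_zero_clo h3) hw
  have hspec := symP_spec h3 hz w hw
  rw [symVal, hs, map_neg, div_neg, div_self h1] at hspec
  have h2 : (w ^ (symP q z).val) ^ 2 = 1 := by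
    rw [← hspec, ← zpow_natCast, ← zpow_mul, mul_comm, zpow_mul]
    norm_num
  have h3' : (w ^ (symP q z).val) ^ 3 = 1 := by
    rw [← pow_mul, mul_comm, pow_mul, hp.pow_eq_one, one_pow]
  rw [pow_succ, h2, one_mul] at h3'
  exact eq_of_pow_val_eq hp (h3'.trans (by rw [ZMod.val_zero, pow_zero]))

theorem symP_congr {q : ℕ} [Fact q.Prime] (h3 : q ≠ 3) {z z' : Eis} (hz : ¬ (q : ℤ) ∣ z.norm)
    (hre : (q : ℤ) ∣ z.re - z'.re) (him : (q : ℤ) ∣ z.im - z'.im) : symP q z' = symP q z := by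
  obtain ⟨w, hw⟩ := exists_root_clo (q := q)
  have e1 : (z.re : Clo q) = z'.re := by
    rw [← sub_eq_zero, ← Int.cast_sub, CharP.intCast_eq_zero_iff (Clo q) q]; exact hre
  have e2 : (z.im : Clo q) = z'.im := by
    rw [← sub_eq_zero, ← Int.cast_sub, CharP.intCast_eq_zero_iff (Clo q) q]; exact him
  have hh : eisHom w hw z' = eisHom w hw z ∧ eisHom w hw (star z') = eisHom w hw (star z) := by
    simp [eisHom_apply, e1, e2]
  have hz' : ¬ (q : ℤ) ∣ z'.norm := by
    rw [← CharP.intCast_eq_zero_iff (Clo q) q, ← eisHom_mul_star (hw := hw), hh.1, hh.2,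
      eisHom_mul_star, CharP.intCast_eq_zero_iff (Clo q) q]
    exact hz
  refine symP_eq h3 hz' w hw ?_
  rw [← symP_spec h3 hz w hw, symVal, symVal, hh.1, hh.2]

/-- The cubic symbol of `z` modulo a natural number. -/
noncomputable def sym (n : ℕ) (z : Eis) : ZMod 3 :=
  (n.primeFactorsList.map fun q => symP q z).sum

theorem sym_mul_left {n n' : ℕ} (hn : n ≠ 0) (hn' : n' ≠ 0) (z : Eis) :
    sym (n * n') z = sym n z + sym n' z := by
  rw [sym, sym, sym, ← List.sum_append, ← List.map_append]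
  exact ((Nat.perm_primeFactorsList_mul hn hn').map _).sum_eq

theorem sym_prime {q : ℕ} (hq : q.Prime) (z : Eis) : sym q z = symP q z := by
  rw [sym, Nat.primeFactorsList_prime hq]; simp

theorem sym_one (z : Eis) : sym 1 z = 0 := by simp [sym]

/-- The hypotheses under which `sym n` is multiplicative at `z`. -/
def SymOk (n : ℕ) (z : Eis) : Prop :=
  ¬ 3 ∣ n ∧ ∀ q : ℕ, q.Prime → q ∣ n → ¬ (q : ℤ) ∣ z.norm

theorem sym_eq_zero_of {n : ℕ} {z : Eis}
    (h : ∀ q : ℕ, q.Prime → q ∣ n → symP q z = 0) : sym n z = 0 := by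
  refine List.sum_eq_zero fun x hx => ?_
  obtain ⟨q, hq, rfl⟩ := List.mem_map.mp hx
  exact h q (Nat.prime_of_mem_primeFactorsList hq) (Nat.dvd_of_mem_primeFactorsList hq)

theorem sym_mul {n : ℕ} {z z' : Eis} (h : SymOk n z) (h' : SymOk n z') :
    sym n (z * z') = sym n z + sym n z' := by
  rw [sym, sym, sym, ← List.sum_map_add]
  refine congrArg List.sum (List.map_congr_left fun q hq => ?_)
  have hp := Nat.prime_of_mem_primeFactorsList hq
  have hd := Nat.dvd_of_mem_primeFactorsList hq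
  haveI := Fact.mk hp
  exact symP_mul (fun h3 => h.1 (h3 ▸ hd)) (h.2 q hp hd) (h'.2 q hp hd)

/-- The exponent of the cubic character of `r` modulo a prime `P`, normalised by `w`. -/
noncomputable def resP (P : ℕ) (w r : ℤ) : ZMod 3 :=
  open Classical in
  if h : ∃ k : ZMod 3, (r : ZMod P) ^ (P / 3) = (w : ZMod P) ^ k.val then h.choose else 0

/-- The cubic symbol of the rational integer `r` at the element of norm `m` given by `w`. -/
noncomputable def symR (m : ℕ) (w r : ℤ) : ZMod 3 :=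
  (m.primeFactorsList.map fun P => resP P w r).sum

section Res

variable {P : ℕ} [Fact P.Prime] {w : ℤ}

theorem mod_three_of_root (h3 : P ≠ 3) (hw : ((w : ZMod P)) ^ 2 + (w : ZMod P) + 1 = 0) :
    P % 3 = 1 := by
  have h3' : (3 : ZMod P) ≠ 0 := by
    intro h
    have h' : ((3 : ℕ) : ZMod P) = 0 := by exact_mod_cast h
    rw [ZMod.natCast_eq_zero_iff] at h'
    exact h3 ((Nat.prime_dvd_prime_iff_eq Fact.out Nat.prime_three).mp h')
  have hp := isPrimitiveRoot_of_root h3' hw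
  have hw0 : (w : ZMod P) ≠ 0 := hp.ne_zero (by norm_num)
  have := hp.dvd_of_pow_eq_one (P - 1) (ZMod.pow_card_sub_one_eq_one hw0)
  have := (Fact.out : P.Prime).two_le
  omega

theorem resP_spec (h3 : P ≠ 3) (hw : ((w : ZMod P)) ^ 2 + (w : ZMod P) + 1 = 0) {r : ℤ}
    (hr : ¬ (P : ℤ) ∣ r) : (r : ZMod P) ^ (P / 3) = (w : ZMod P) ^ (resP P w r).val := by
  have h3' : (3 : ZMod P) ≠ 0 := by
    intro h
    have h' : ((3 : ℕ) : ZMod P) = 0 := by exact_mod_cast h
    rw [ZMod.natCast_eq_zero_iff] at h'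
    exact h3 ((Nat.prime_dvd_prime_iff_eq Fact.out Nat.prime_three).mp h')
  have hr0 : (r : ZMod P) ≠ 0 := fun h => hr ((ZMod.intCast_zmod_eq_zero_iff_dvd r P).mp h)
  have h1 := mod_three_of_root h3 hw
  have hcube : ((r : ZMod P) ^ (P / 3)) ^ 3 = 1 := by
    rw [← pow_mul, show P / 3 * 3 = P - 1 by omega]
    exact ZMod.pow_card_sub_one_eq_one hr0
  have hex := exists_pow_val_eq (isPrimitiveRoot_of_root h3' hw) hcube
  rw [resP, dif_pos hex]
  exact hex.choose_spec

theorem resP_eq (h3 : P ≠ 3) (hw : ((w : ZMod P)) ^ 2 + (w : ZMod P) + 1 = 0) {r : ℤ}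
    (hr : ¬ (P : ℤ) ∣ r) {k : ZMod 3} (h : (r : ZMod P) ^ (P / 3) = (w : ZMod P) ^ k.val) :
    resP P w r = k := by
  have h3' : (3 : ZMod P) ≠ 0 := by
    intro h
    have h' : ((3 : ℕ) : ZMod P) = 0 := by exact_mod_cast h
    rw [ZMod.natCast_eq_zero_iff] at h'
    exact h3 ((Nat.prime_dvd_prime_iff_eq Fact.out Nat.prime_three).mp h')
  exact eq_of_pow_val_eq (isPrimitiveRoot_of_root h3' hw) ((resP_spec h3 hw hr).symm.trans h)

theorem resP_mul (h3 : P ≠ 3) (hw : ((w : ZMod P)) ^ 2 + (w : ZMod P) + 1 = 0) {r s : ℤ}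
    (hr : ¬ (P : ℤ) ∣ r) (hs : ¬ (P : ℤ) ∣ s) : resP P w (r * s) = resP P w r + resP P w s := by
  refine resP_eq h3 hw
    (fun h => ((Nat.prime_iff_prime_int.mp Fact.out).dvd_or_dvd h).elim hr hs) ?_
  rw [pow_val_add (pow_three_of_root hw), ← resP_spec h3 hw hr, ← resP_spec h3 hw hs,
    Int.cast_mul, mul_pow]

theorem resP_neg_one (h3 : P ≠ 3) (hw : ((w : ZMod P)) ^ 2 + (w : ZMod P) + 1 = 0) :
    resP P w (-1) = 0 := by
  have hne : ¬ (P : ℤ) ∣ (-1) := by
    rw [dvd_neg]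
    exact fun h => (Fact.out : P.Prime).ne_one (by exact_mod_cast Int.eq_one_of_dvd_one (by simp) h)
  have h2 := resP_mul h3 hw hne hne
  have h1 : resP P w 1 = 0 := resP_eq h3 hw
    (fun h => (Fact.out : P.Prime).ne_one (by exact_mod_cast Int.eq_one_of_dvd_one (by simp) h))
    (by simp)
  rw [show (-1 : ℤ) * -1 = 1 by norm_num, h1] at h2
  revert h2
  generalize resP P w (-1) = k
  revert k
  decide

end Res

theorem resP_congr {P : ℕ} {w r r' : ℤ} (h : (P : ℤ) ∣ r - r') : resP P w r = resP P w r' := by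
  have : (r : ZMod P) = (r' : ZMod P) := by
    rw [← sub_eq_zero, ← Int.cast_sub, ZMod.intCast_zmod_eq_zero_iff_dvd]; exact h
  simp only [resP, this]

/-- The hypotheses under which `symR m w` is a character. -/
def SymROk (m : ℕ) (w : ℤ) : Prop :=
  ¬ 3 ∣ m ∧ (m : ℤ) ∣ w ^ 2 + w + 1

theorem SymROk.root {m : ℕ} {w : ℤ} (h : SymROk m w) {P : ℕ} (hP : P ∣ m) :
    ((w : ZMod P)) ^ 2 + (w : ZMod P) + 1 = 0 := by
  have h1 : ((w ^ 2 + w + 1 : ℤ) : ZMod P) = 0 := by
    rw [ZMod.intCast_zmod_eq_zero_iff_dvd]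
    exact (Int.natCast_dvd_natCast.mpr hP).trans h.2
  push_cast at h1
  exact h1

theorem symR_mul {m : ℕ} {w r s : ℤ} (h : SymROk m w) (hr : IsCoprime r m) (hs : IsCoprime s m) :
    symR m w (r * s) = symR m w r + symR m w s := by
  rw [symR, symR, symR, ← List.sum_map_add]
  refine congrArg List.sum (List.map_congr_left fun P hP => ?_)
  have hp := Nat.prime_of_mem_primeFactorsList hP
  have hd := Nat.dvd_of_mem_primeFactorsList hP
  haveI := Fact.mk hp
  have hnd : ∀ {t : ℤ}, IsCoprime t m → ¬ (P : ℤ) ∣ t := fun ht h' => by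
    have := Int.isUnit_iff.mp (ht.isUnit_of_dvd' h' (Int.natCast_dvd_natCast.mpr hd))
    have := hp.two_le
    omega
  exact resP_mul (fun h3 => h.1 (h3 ▸ hd)) (h.root hd) (hnd hr) (hnd hs)

theorem symR_neg_one {m : ℕ} {w : ℤ} (h : SymROk m w) : symR m w (-1) = 0 := by
  refine List.sum_eq_zero fun x hx => ?_
  obtain ⟨P, hP, rfl⟩ := List.mem_map.mp hx
  have hp := Nat.prime_of_mem_primeFactorsList hP
  haveI := Fact.mk hp
  have hd := Nat.dvd_of_mem_primeFactorsList hP
  exact resP_neg_one (fun h3 => h.1 (h3 ▸ hd)) (h.root hd)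

theorem symR_congr {m : ℕ} {w r r' : ℤ} (h : (m : ℤ) ∣ r - r') : symR m w r = symR m w r' :=
  congrArg List.sum (List.map_congr_left fun P hP =>
    resP_congr ((Int.natCast_dvd_natCast.mpr (Nat.dvd_of_mem_primeFactorsList hP)).trans h))

end FLTA.LT2
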