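import Fermat.Agent.LT2.ThetaSeries

/-!
# Binary forms up to proper equivalence: definitions

`(a, b, c)` stands for `a x² + 2 b x y + c y²`, of determinant `N = a c - b²`.
-/

set_option autoImplicit false

namespace FLTA.LT2

/-- `Q'` is the pull back of `Q` along an element of `SL₂(ℤ)`. -/
def FormEquiv (Q Q' : BinForm) : Prop :=
  ∃ p q s t : ℤ, p * t - q * s = 1 ∧ Q'.a = Q.eval p s ∧
    Q'.b = Q.a * p * q + Q.b * (p * t + q * s) + Q.c * s * t ∧ Q'.c = Q.eval q t

namespace BinForm

/-- Not both outer coefficients are even. -/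
def Prim (Q : BinForm) : Prop := ¬ (2 ∣ Q.a ∧ 2 ∣ Q.c)

/-- The form of the lattice `x ≡ k y (mod l)` divided by `l`, for `l ∣ Q(k, 1)`. -/
def up (Q : BinForm) (l : ℕ) (k : ℤ) (hl : 0 < l) (h : (l : ℤ) ∣ Q.eval k 1) : BinForm where
  a := Q.a * l
  b := Q.b + k * Q.a
  c := Q.eval k 1 / l
  a_pos := mul_pos Q.a_pos (by exact_mod_cast hl)
  det_pos := by
    rw [mul_assoc, Int.mul_ediv_cancel' h]
    have := Q.det_pos
    simp only [eval, Int.cast_id]
    linear_combination this

theorem det_up (Q : BinForm) (l : ℕ) (k : ℤ) (hl : 0 < l) (h : (l : ℤ) ∣ Q.eval k 1) :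
    (Q.up l k hl h).det = Q.det := by
  simp only [det, up]
  rw [mul_assoc, Int.mul_ediv_cancel' h]
  simp only [eval, Int.cast_id]
  ring

theorem eval_up (Q : BinForm) (l : ℕ) (k : ℤ) (hl : 0 < l) (h : (l : ℤ) ∣ Q.eval k 1) (x y : ℤ) :
    (l : ℤ) * (Q.up l k hl h).eval x y = Q.eval (l * x + k * y) y := by
  simp only [eval, Int.cast_id, up]
  have h' := Int.mul_ediv_cancel' h
  simp only [eval, Int.cast_id] at h'
  linear_combination y ^ 2 * h'

end BinForm

/-- Half the number of representations. -/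
noncomputable def BinForm.halfRep (Q : BinForm) (n : ℕ) : ℕ := Q.repCount n / 2

/-- The mod `2` theta coefficient of a weighted family of forms. -/
noncomputable def thetaWeight {ι : Type} [Fintype ι] (w : ι → ℤ) (Q : ι → BinForm) (n : ℕ) : ℤ :=
  ∑ i, w i * ((Q i).halfRep n : ℤ)

end FLTA.LT2
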