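import Fermat.Agent.LT2.ThetaPoisson
import Mathlib.Analysis.SpecialFunctions.Complex.CircleAddChar
import Mathlib.NumberTheory.GaussSum
import Mathlib.NumberTheory.LegendreSymbol.JacobiSymbol

/-!
# Gauss sums of binary forms
-/

set_option autoImplicit false

noncomputable section

open scoped Real
open Complex ZMod

namespace FLTA.LT2

variable (Q : BinForm)

/-- `∑ e (B Q(v) / D)` over `v` modulo `D`. -/
def BinForm.gauss (B : ℤ) (D : ℕ) [NeZero D] : ℂ :=
  ∑ v : ZMod D × ZMod D, stdAddChar ((B : ZMod D) * Q.eval v.1 v.2)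

theorem stdAddChar_intCast {D : ℕ} [NeZero D] (k : ℤ) :
    (stdAddChar ((k : ℤ) : ZMod D)) = ePi ((k : ℂ) / D) := by
  rw [stdAddChar_coe, ePi]
  ring_nf

theorem gauss_congr {D : ℕ} [NeZero D] {B B' : ℤ} (h : (B : ZMod D) = B') :
    Q.gauss B D = Q.gauss B' D := by
  simp only [BinForm.gauss, h]

theorem gauss_one (B : ℤ) : Q.gauss B 1 = 1 := by
  simp [BinForm.gauss, Subsingleton.elim _ (0 : ZMod 1)]

/-- Completing the square. -/
theorem gauss_linear {D : ℕ} [NeZero D] {B K : ℤ}
    (h : (-4 : ZMod D) * (Q.det : ZMod D) * K * B = 1) (w₁ w₂ : ZMod D) :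
    ∑ v : ZMod D × ZMod D,
        stdAddChar ((B : ZMod D) * Q.eval v.1 v.2 + (w₁ * v.1 + w₂ * v.2)) =
      stdAddChar ((K : ZMod D) * Q.adj.eval w₁ w₂) * Q.gauss B D := by
  rw [BinForm.gauss, Finset.mul_sum]
  refine (Fintype.sum_equiv (Equiv.addRight
    ((-2 : ZMod D) * K * (Q.c * w₁ - Q.b * w₂), (-2 : ZMod D) * K * (Q.a * w₂ - Q.b * w₁)))
    _ _ fun v => ?_)
  rw [← AddChar.map_add_eq_mul]
  congr 1
  simp only [Equiv.coe_addRight, Prod.fst_add, Prod.snd_add, BinForm.eval, BinForm.adj]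
  simp only [BinForm.det, Int.cast_sub, Int.cast_mul, Int.cast_pow] at h
  push_cast
  linear_combination -(w₁ * v.1 + w₂ * v.2 - (K : ZMod D) *
    ((Q.c : ZMod D) * w₁ ^ 2 - 2 * (Q.b : ZMod D) * w₁ * w₂ + (Q.a : ZMod D) * w₂ ^ 2)) * h

section Prime

variable {p : ℕ} [Fact p.Prime]

/-- `∑ e (k x² / p)`. -/
def quadGauss (k : ZMod p) : ℂ := ∑ x : ZMod p, stdAddChar (k * x ^ 2)

theorem quadGauss_eq (hp : p ≠ 2) {k : ZMod p} (hk : k ≠ 0) :
    quadGauss k = (quadraticChar (ZMod p) k : ℂ) *
      gaussSum ((quadraticChar (ZMod p)).ringHomComp (Int.castRingHom ℂ)) stdAddChar := by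
  classical
  set χ := (quadraticChar (ZMod p)).ringHomComp (Int.castRingHom ℂ) with hχ
  have h1 : quadGauss k = gaussSum χ ((stdAddChar (N := p)).mulShift k) := by
    have hc : ringChar (ZMod p) ≠ 2 := by rwa [ZMod.ringChar_zmod_n]
    calc quadGauss k = ∑ t : ZMod p, ∑ x ∈ Finset.univ.filter (fun x : ZMod p => x ^ 2 = t),
          stdAddChar (k * t) := by
          rw [quadGauss, ← Finset.sum_fiberwise Finset.univ (fun x : ZMod p => x ^ 2)]
          refine Finset.sum_congr rfl fun t _ => Finset.sum_congr rfl fun x hx => ?_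
          rw [(Finset.mem_filter.1 hx).2]
      _ = ∑ t : ZMod p, ((quadraticChar (ZMod p) t : ℂ) + 1) * stdAddChar (k * t) := by
          refine Finset.sum_congr rfl fun t _ => ?_
          rw [Finset.sum_const, nsmul_eq_mul]
          congr 1
          have e := quadraticChar_card_sqrts hc t
          rw [show Finset.univ.filter (fun x : ZMod p => x ^ 2 = t) =
            {x : ZMod p | x ^ 2 = t}.toFinset by ext; simp]
          exact_mod_cast e
      _ = _ := by
          simp only [add_mul, Finset.sum_add_distrib, one_mul, gaussSum, hχ,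
            MulChar.ringHomComp_apply, AddChar.mulShift_apply, eq_intCast]
          rw [add_eq_left]
          have := AddChar.sum_mulShift k (ψ := stdAddChar (N := p)) (isPrimitive_stdAddChar p)
          simpa [hk, mul_comm] using this
  rw [h1, ← gaussSum_mulShift χ stdAddChar (Units.mk0 k hk)]
  simp only [Units.val_mk0, hχ, MulChar.ringHomComp_apply, eq_intCast]
  rw [← mul_assoc, ← Int.cast_mul, ← pow_two, quadraticChar_sq_one hk]
  simp

/-- The Gauss sum at an odd prime not dividing `B` and the determinant. -/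
theorem gauss_prime (hp : p ≠ 2) (B : ℤ) (hB : (B : ZMod p) ≠ 0)
    (hN : (Q.det : ZMod p) ≠ 0) :
    Q.gauss B p = (p : ℂ) * (jacobiSym (-Q.det) p : ℂ) := by
  classical
  have hJ : (jacobiSym (-Q.det) p : ℂ) = (quadraticChar (ZMod p) (-(Q.det : ZMod p)) : ℂ) := by
    rw [← jacobiSym.legendreSym.to_jacobiSym, legendreSym, Int.cast_neg]
  rw [hJ, BinForm.gauss, Fintype.sum_prod_type]
  by_cases ha : (Q.a : ZMod p) = 0
  · have hb : (Q.b : ZMod p) ≠ 0 := fun hb => hN (by simp [BinForm.det, ha, hb])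
    have h2 : (2 : ZMod p) ≠ 0 := Ring.two_ne_zero (by rwa [ZMod.ringChar_zmod_n])
    rw [Finset.sum_comm, Finset.sum_eq_single 0]
    · have : quadraticChar (ZMod p) (-(Q.det : ZMod p)) = 1 := by
        rw [show -(Q.det : ZMod p) = (Q.b : ZMod p) ^ 2 by simp [BinForm.det, ha],
          quadraticChar_sq_one' hb]
      simp [BinForm.eval, ha, this]
    · intro y _ hy
      simp only [BinForm.eval, ha, zero_mul, zero_add, mul_add, AddChar.map_add_eq_mul,
        ← Finset.sum_mul]
      rw [show (∑ x : ZMod p, stdAddChar ((B : ZMod p) * (2 * (Q.b : ZMod p) * x * y))) = 0 by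
        have := AddChar.sum_mulShift ((B : ZMod p) * (2 * (Q.b : ZMod p) * y))
          (ψ := stdAddChar (N := p)) (isPrimitive_stdAddChar p)
        rw [if_neg (mul_ne_zero hB (mul_ne_zero (mul_ne_zero h2 hb) hy))] at this
        simp only [Nat.cast_zero] at this
        refine (Finset.sum_congr rfl fun x _ => ?_).trans this
        congr 1
        ring, zero_mul]
    · simp
  · rw [Finset.sum_comm]
    have h1 : ∀ y : ZMod p,
        ∑ x : ZMod p, stdAddChar ((B : ZMod p) * Q.eval x y) =
          quadGauss ((B : ZMod p) * (Q.a : ZMod p)) *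
            stdAddChar ((B : ZMod p) * (Q.det : ZMod p) / (Q.a : ZMod p) * y ^ 2) := by
      intro y
      rw [quadGauss, Finset.sum_mul]
      refine Fintype.sum_equiv (Equiv.addRight ((Q.b : ZMod p) / Q.a * y)) _ _ fun x => ?_
      rw [← AddChar.map_add_eq_mul]
      congr 1
      simp only [Equiv.coe_addRight, BinForm.eval, BinForm.det, Int.cast_sub, Int.cast_mul,
        Int.cast_pow]
      field_simp
      ring
    simp_rw [h1, ← Finset.mul_sum]
    have hk : (B : ZMod p) * (Q.det : ZMod p) / (Q.a : ZMod p) ≠ 0 := div_ne_zero (mul_ne_zero hB hN) ha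
    rw [← quadGauss, quadGauss_eq hp (mul_ne_zero hB ha), quadGauss_eq hp hk]
    set g := gaussSum ((quadraticChar (ZMod p)).ringHomComp (Int.castRingHom ℂ)) stdAddChar
    have hg : g ^ 2 = (quadraticChar (ZMod p) (-1) : ℂ) * p := by
      have hc : ringChar (ZMod p) ≠ 2 := by rwa [ZMod.ringChar_zmod_n]
      rw [gaussSum_sq ((MulChar.ringHomComp_ne_one_iff (Int.castRingHom ℂ).injective_int).2
        (quadraticChar_ne_one hc)) ((quadraticChar_isQuadratic _).comp _)
        (isPrimitive_stdAddChar p)]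
      simp
    rw [mul_mul_mul_comm, ← pow_two g, hg, ← mul_assoc, ← Int.cast_mul, ← Int.cast_mul,
      ← map_mul, ← map_mul,
      show (B : ZMod p) * (Q.a : ZMod p) * ((B : ZMod p) * (Q.det : ZMod p) / (Q.a : ZMod p)) * -1 =
        (B : ZMod p) ^ 2 * -(Q.det : ZMod p) by field_simp,
      map_mul, quadraticChar_sq_one' hB, one_mul, mul_comm]

end Prime

end FLTA.LT2
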