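import Mathlib.NumberTheory.ModularForms.JacobiTheta.TwoVariable
import Mathlib.Analysis.SpecialFunctions.Gaussian.PoissonSummation
import Mathlib.Analysis.Normed.Ring.InfiniteSum

/-!
# Poisson summation for binary Gaussians

`Q = a x² + 2 b x y + c y²` with `N = a c - b²` positive.
-/

set_option autoImplicit false

noncomputable section

open scoped Real
open Complex

namespace FLTA.LT2

/-- A positive definite binary form `a x² + 2 b x y + c y²`. -/
structure BinForm where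
  a : ℤ
  b : ℤ
  c : ℤ
  a_pos : 0 < a
  det_pos : 0 < a * c - b ^ 2

namespace BinForm

variable (Q : BinForm)

/-- The determinant `a c - b²`. -/
def det : ℤ := Q.a * Q.c - Q.b ^ 2

theorem c_pos : 0 < Q.c := by
  nlinarith [Q.a_pos, Q.det_pos, sq_nonneg Q.b]

/-- Evaluation. -/
def eval {R : Type*} [CommRing R] (x y : R) : R :=
  (Q.a : R) * x ^ 2 + 2 * (Q.b : R) * x * y + (Q.c : R) * y ^ 2

/-- The adjoint form `c x² - 2 b x y + a y²`. -/
def adj : BinForm where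
  a := Q.c
  b := -Q.b
  c := Q.a
  a_pos := Q.c_pos
  det_pos := by nlinarith [Q.det_pos]

@[simp] theorem det_adj : Q.adj.det = Q.det := by simp [adj, det]; ring

theorem eval_map {R S : Type*} [CommRing R] [CommRing S] (f : R →+* S) (x y : R) :
    f (Q.eval x y) = Q.eval (f x) (f y) := by
  simp [eval, map_ofNat]

/-- The lower bound by a multiple of `x² + y²`. -/
theorem le_eval (x y : ℝ) :
    (Q.det : ℝ) / (Q.a + Q.c) * (x ^ 2 + y ^ 2) ≤ Q.eval x y := by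
  have h : (0 : ℝ) < Q.a + Q.c := by exact_mod_cast Int.add_pos Q.a_pos Q.c_pos
  rw [div_mul_eq_mul_div, div_le_iff₀ h]
  simp only [eval, det]
  push_cast
  nlinarith [sq_nonneg ((Q.a : ℝ) * x + Q.b * y), sq_nonneg ((Q.b : ℝ) * x + Q.c * y)]

end BinForm

/-- `exp (2 π i z)`. -/
def ePi (z : ℂ) : ℂ := cexp (2 * π * I * z)

theorem ePi_add (z w : ℂ) : ePi (z + w) = ePi z * ePi w := by
  rw [ePi, ePi, ePi, ← Complex.exp_add]; ring_nf

theorem norm_ePi (z : ℂ) : ‖ePi z‖ = Real.exp (-2 * π * z.im) := by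
  rw [ePi, Complex.norm_exp]
  congr 1
  simp

theorem ePi_ne_zero (z : ℂ) : ePi z ≠ 0 := Complex.exp_ne_zero _

theorem ePi_intCast (n : ℤ) : ePi n = 1 := by
  rw [ePi, mul_comm]
  exact Complex.exp_int_mul_two_pi_mul_I n

theorem summable_exp_shift {T : ℝ} (hT : 0 < T) (v : ℝ) :
    Summable fun n : ℤ => Real.exp (-T * ((n : ℝ) + v) ^ 2) := by
  have hT' : 0 < T / π := div_pos hT Real.pi_pos
  have h := ((summable_jacobiTheta₂_term_iff ((T / π * v : ℝ) * I) ((T / π : ℝ) * I)).2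
    (by simpa using hT')).norm
  refine (h.mul_left (Real.exp (-T * v ^ 2))).congr fun n => ?_
  rw [norm_jacobiTheta₂_term, ← Real.exp_add]
  congr 1
  simp
  field_simp
  ring

theorem BinForm.summable_gaussian (Q : BinForm) {T : ℝ} (hT : 0 < T) (v₁ v₂ : ℝ) :
    Summable fun m : ℤ × ℤ => Real.exp (-T * Q.eval ((m.1 : ℝ) + v₁) ((m.2 : ℝ) + v₂)) := by
  have hd : 0 < (Q.det : ℝ) / (Q.a + Q.c) :=
    div_pos (by exact_mod_cast Q.det_pos) (by exact_mod_cast Int.add_pos Q.a_pos Q.c_pos)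
  have hs := summable_exp_shift (mul_pos hT hd) v₁
  have hs' := summable_exp_shift (mul_pos hT hd) v₂
  refine Summable.of_nonneg_of_le (fun m => (Real.exp_pos _).le) (fun m => ?_)
    (hs.mul_of_nonneg hs' (fun n => (Real.exp_pos _).le) (fun n => (Real.exp_pos _).le))
  rw [← Real.exp_add, Real.exp_le_exp]
  nlinarith [mul_le_mul_of_nonneg_left (Q.le_eval ((m.1 : ℝ) + v₁) ((m.2 : ℝ) + v₂)) hT.le]

/-- One variable, with a linear term. -/
theorem tsum_gaussian_linear {s : ℂ} (hs : 0 < s.im) (r β : ℂ) :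
    ∑' n : ℤ, cexp (π * I * s * (n + r) ^ 2 + 2 * π * I * β * (n + r)) =
      1 / (-I * s) ^ (1 / 2 : ℂ) *
        ∑' n : ℤ, cexp (2 * π * I * n * r - π * I * (n - β) ^ 2 / s) := by
  have h2 : 0 < (-I * s).re := by simpa using hs
  have hs0 : s ≠ 0 := fun h => by simp [h] at hs
  calc
  _ = cexp (π * I * s * r ^ 2 + 2 * π * I * β * r) *
      ∑' n : ℤ, cexp (-π * (-I * s) * (n : ℂ) ^ 2 + 2 * π * (I * (s * r + β)) * n) := by
    rw [← tsum_mul_left]
    refine tsum_congr fun n => ?_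
    rw [← Complex.exp_add]
    ring_nf
  _ = _ := by
    rw [tsum_exp_neg_quadratic h2, ← mul_assoc, mul_comm (cexp _) (1 / _), mul_assoc,
      ← tsum_mul_left]
    congr 1
    refine tsum_congr fun n => ?_
    rw [← Complex.exp_add]
    congr 1
    field_simp
    ring_nf
    simp only [I_pow_four, I_sq]
    ring

theorem cpow_half_mul_self (x : ℂ) (hx : x ≠ 0) : x ^ (1 / 2 : ℂ) * x ^ (1 / 2 : ℂ) = x := by
  rw [← Complex.cpow_add _ _ hx]
  norm_num

theorem cpow_half_ofReal_mul {r : ℝ} (hr : 0 < r) {x : ℂ} (hx : x ≠ 0) :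
    ((r : ℂ) * x) ^ (1 / 2 : ℂ) = (Real.sqrt r : ℂ) * x ^ (1 / 2 : ℂ) := by
  rw [Complex.cpow_def_of_ne_zero (mul_ne_zero (by exact_mod_cast hr.ne') hx),
    Complex.cpow_def_of_ne_zero hx, Complex.log_ofReal_mul hr hx, add_mul, Complex.exp_add,
    Real.sqrt_eq_rpow, Real.rpow_def_of_pos hr, Complex.ofReal_exp]
  push_cast
  rfl

variable (Q : BinForm)

/-- **Poisson summation** in two variables. -/
theorem BinForm.poisson {t : ℂ} (ht : 0 < t.im) (v₁ v₂ : ℝ) :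
    ∑' m : ℤ × ℤ, ePi (t * Q.eval ((m.1 : ℂ) + v₁) ((m.2 : ℂ) + v₂)) =
      I / (2 * t * Real.sqrt Q.det) * ∑' w : ℤ × ℤ, ePi (w.1 * v₁ + w.2 * v₂) *
        ePi (-Q.adj.eval (w.1 : ℂ) w.2 / (4 * Q.det * t)) := by
  have ha : (0 : ℝ) < Q.a := by exact_mod_cast Q.a_pos
  have hN : (0 : ℝ) < Q.det := by exact_mod_cast Q.det_pos
  have haC : (Q.a : ℂ) ≠ 0 := by exact_mod_cast Q.a_pos.ne'
  have hNC : (Q.det : ℂ) ≠ 0 := by exact_mod_cast Q.det_pos.ne'
  have ht0 : t ≠ 0 := fun h => by simp [h] at ht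
  set A : ℝ := 2 * Q.a with hA
  set B : ℝ := 2 * Q.det / Q.a with hB
  have hA0 : 0 < A := by positivity
  have hB0 : 0 < B := by positivity
  have hAt : 0 < ((A : ℂ) * t).im := by simpa using mul_pos hA0 ht
  have hBt : 0 < ((B : ℂ) * t).im := by simpa using mul_pos hB0 ht
  let F : ℤ → ℤ → ℂ := fun m k => ePi (k * v₁) *
    (cexp (π * I * ((B : ℂ) * t) * ((m : ℂ) + v₂) ^ 2 +
        2 * π * I * ((k : ℂ) * Q.b / Q.a) * ((m : ℂ) + v₂)) *
      cexp (-π * I * (k : ℂ) ^ 2 / ((A : ℂ) * t)))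
  have hlhs : Summable fun m : ℤ × ℤ =>
      ePi (t * Q.eval ((m.1 : ℂ) + v₁) ((m.2 : ℂ) + v₂)) := by
    refine Summable.of_norm ((Q.summable_gaussian (mul_pos Real.two_pi_pos ht) v₁ v₂).congr
      fun m => ?_)
    rw [norm_ePi]
    congr 1
    have e : Q.eval ((m.1 : ℂ) + v₁) ((m.2 : ℂ) + v₂) =
        ((Q.eval ((m.1 : ℝ) + v₁) ((m.2 : ℝ) + v₂) : ℝ) : ℂ) := by
      simp [BinForm.eval]
    rw [e, Complex.mul_im, Complex.ofReal_im, Complex.ofReal_re]
    ring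
  have hF : Summable (Function.uncurry F) := by
    have h1 := summable_exp_shift (mul_pos Real.pi_pos hBt) v₂
    have h2 : 0 < (-1 / ((A : ℂ) * t)).im := by
      rw [neg_div, neg_im, one_div, inv_im, neg_div, neg_neg]
      exact div_pos hAt (normSq_pos.2 fun h => by simp [h] at hAt)
    have h3 := summable_exp_shift (mul_pos Real.pi_pos h2) 0
    refine Summable.of_norm ((h1.mul_of_nonneg h3 (fun n => (Real.exp_pos _).le)
      (fun n => (Real.exp_pos _).le)).congr fun mk => ?_)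
    simp only [F, Function.uncurry, norm_mul, norm_ePi, Complex.norm_exp, ← Real.exp_add]
    congr 1
    have e : -(π : ℂ) * I * (mk.2 : ℂ) ^ 2 / ((A : ℂ) * t) =
        ((π * (mk.2 : ℝ) ^ 2 : ℝ) : ℂ) * I * (-1 / ((A : ℂ) * t)) := by
      push_cast; ring
    have e2 : (π : ℂ) * I * ((B : ℂ) * t) * ((mk.1 : ℂ) + v₂) ^ 2 +
        2 * π * I * ((mk.2 : ℂ) * Q.b / Q.a) * ((mk.1 : ℂ) + v₂) =
        ((π * ((mk.1 : ℝ) + v₂) ^ 2 : ℝ) : ℂ) * I * ((B : ℂ) * t) +
          ((2 * π * ((mk.2 : ℝ) * Q.b / Q.a) * ((mk.1 : ℝ) + v₂) : ℝ) : ℂ) * I := by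
      push_cast; ring
    rw [e, e2]
    simp only [add_re, mul_re, I_re, I_im, mul_im, ofReal_re, ofReal_im, intCast_re, intCast_im]
    ring
  calc
  _ = ∑' (m₂ : ℤ) (m₁ : ℤ), ePi (t * Q.eval ((m₁ : ℂ) + v₁) ((m₂ : ℂ) + v₂)) := by
    rw [Summable.tsum_prod hlhs]
    exact (Summable.tsum_comm (f := fun m₁ m₂ : ℤ =>
      ePi (t * Q.eval ((m₁ : ℂ) + v₁) ((m₂ : ℂ) + v₂))) hlhs).symm
  _ = ∑' (m₂ : ℤ), 1 / (-I * ((A : ℂ) * t)) ^ (1 / 2 : ℂ) * ∑' k : ℤ, F m₂ k := by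
    refine tsum_congr fun m₂ => ?_
    set y : ℂ := (m₂ : ℂ) + v₂ with hy
    have h := tsum_gaussian_linear hAt ((v₁ : ℂ) + Q.b / Q.a * y) 0
    simp only [mul_zero, zero_mul, add_zero, sub_zero] at h
    calc
    _ = ∑' m₁ : ℤ, cexp (π * I * ((B : ℂ) * t) * y ^ 2) *
        cexp (π * I * ((A : ℂ) * t) * ((m₁ : ℂ) + ((v₁ : ℂ) + Q.b / Q.a * y)) ^ 2) := by
      refine tsum_congr fun m₁ => ?_
      rw [← Complex.exp_add, ePi]
      congr 1
      simp only [hA, hB, BinForm.eval, BinForm.det]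
      push_cast
      field_simp
      ring
    _ = _ := by
      rw [tsum_mul_left, h, ← mul_assoc, mul_comm (cexp _) (1 / _), mul_assoc, ← tsum_mul_left]
      congr 1
      refine tsum_congr fun k => ?_
      simp only [F, ePi, ← Complex.exp_add]
      congr 1
      rw [hy]
      ring
  _ = 1 / (-I * ((A : ℂ) * t)) ^ (1 / 2 : ℂ) * ∑' (k : ℤ) (m₂ : ℤ), F m₂ k := by
    rw [tsum_mul_left, Summable.tsum_comm hF]
  _ = 1 / (-I * ((A : ℂ) * t)) ^ (1 / 2 : ℂ) * (1 / (-I * ((B : ℂ) * t)) ^ (1 / 2 : ℂ) *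
      ∑' (k : ℤ) (l : ℤ), ePi ((k : ℂ) * v₁ + l * v₂) *
        ePi (-Q.adj.eval (k : ℂ) l / (4 * Q.det * t))) := by
    congr 1
    rw [← tsum_mul_left]
    refine tsum_congr fun k => ?_
    simp only [F]
    rw [tsum_mul_left, tsum_mul_right, tsum_gaussian_linear hBt, mul_assoc, ← mul_assoc (ePi _),
      mul_comm (ePi _) (1 / _), mul_assoc, ← tsum_mul_right, ← tsum_mul_left]
    congr 1
    refine tsum_congr fun l => ?_
    simp only [ePi, ← Complex.exp_add]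
    congr 1
    simp only [hA, hB, BinForm.eval, BinForm.adj, BinForm.det]
    push_cast
    have : (Q.a : ℂ) * Q.c - (Q.b : ℂ) ^ 2 ≠ 0 := by simpa [BinForm.det] using hNC
    field_simp
    ring
  _ = _ := by
    rw [← mul_assoc, ← Summable.tsum_prod (f := fun w : ℤ × ℤ => ePi (w.1 * v₁ + w.2 * v₂) *
      ePi (-Q.adj.eval (w.1 : ℂ) w.2 / (4 * Q.det * t)))]
    · congr 1
      have e1 : (-I * ((A : ℂ) * t)) = ((A : ℝ) : ℂ) * (-I * t) := by ring
      have e2 : (-I * ((B : ℂ) * t)) = ((B : ℝ) : ℂ) * (-I * t) := by ring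
      have e3 : Real.sqrt A * Real.sqrt B = 2 * Real.sqrt Q.det := by
        rw [← Real.sqrt_mul hA0.le, hA, hB,
          show 2 * (Q.a : ℝ) * (2 * Q.det / Q.a) = 2 ^ 2 * Q.det by field_simp,
          Real.sqrt_mul (by positivity), Real.sqrt_sq (by norm_num)]
      rw [e1, e2, cpow_half_ofReal_mul hA0 (by simp [ht0]), cpow_half_ofReal_mul hB0 (by simp [ht0]), div_mul_div_comm,
        one_mul, mul_mul_mul_comm, cpow_half_mul_self _ (by simp [ht0]), ← Complex.ofReal_mul, e3]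
      push_cast
      rw [div_eq_div_iff (by simp [ht0, Real.sqrt_ne_zero'.2 hN]) (by simp [ht0,
        Real.sqrt_ne_zero'.2 hN])]
      linear_combination (2 * t * (Real.sqrt Q.det : ℂ)) * I_mul_I
    · refine Summable.of_norm ((Q.adj.summable_gaussian
        (T := π * (-1 / t).im / (2 * Q.det)) (by
          rw [neg_div, neg_im, one_div, inv_im, neg_div, neg_neg]
          have := normSq_pos.2 ht0
          positivity) 0 0).congr fun w => ?_)
      simp only [norm_mul, norm_ePi, ← Real.exp_add]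
      congr 1
      have e : -Q.adj.eval (w.1 : ℂ) (w.2 : ℂ) / (4 * Q.det * t) =
          ((Q.adj.eval (w.1 : ℝ) (w.2 : ℝ) / (4 * Q.det) : ℝ) : ℂ) * (-1 / t) := by
        rw [show Q.adj.eval (w.1 : ℂ) (w.2 : ℂ) = ((Q.adj.eval (w.1 : ℝ) (w.2 : ℝ) : ℝ) : ℂ) by
          simp [BinForm.eval]]
        push_cast; ring
      rw [e]
      simp only [add_im, mul_im, ofReal_re, ofReal_im, intCast_re, intCast_im, add_zero, mul_zero,
        zero_mul, zero_add]
      ring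

end FLTA.LT2
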