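import Fermat.Agent.LT2.ThetaClasses

/-!
# The cubic character on the classes of forms
-/

set_option autoImplicit false

namespace FLTA.LT2

open BinForm

theorem exists_dvd_mul_sub {Y m : ℤ} (h : IsCoprime Y m) (X : ℤ) : ∃ B : ℤ, m ∣ B * Y - X := by
  obtain ⟨u, v, huv⟩ := h
  exact ⟨u * X, -v * X, by linear_combination X * huv⟩

theorem IsCoprime.snd_of_sq_add {X Y N m : ℤ} (hm : m = X ^ 2 + N * Y ^ 2) (h : IsCoprime X Y) :
    IsCoprime Y m := by
  rw [hm, show X ^ 2 + N * Y ^ 2 = X ^ 2 + Y * (N * Y) by ring]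
  exact (h.symm.pow_right (n := 2)).add_mul_left_right _

namespace CubicSymbol

variable {N : ℕ} {R : ℕ → Prop} (S : CubicSymbol N R)

theorem not_three_dvd {m : ℤ} (h : IsCoprime m S.bad) : ¬ 3 ∣ m := fun h3 => by
  have h' : (3 : ℤ) ∣ S.bad := dvd_trans ⟨2, rfl⟩ S.six_dvd
  have := Int.isUnit_iff.1 (h.isUnit_of_dvd' h3 h')
  omega

theorem not_two_dvd {m : ℤ} (h : IsCoprime m S.bad) : ¬ 2 ∣ m := fun h2 => by
  have h' : (2 : ℤ) ∣ S.bad := dvd_trans ⟨3, rfl⟩ S.six_dvd
  have := Int.isUnit_iff.1 (h.isUnit_of_dvd' h2 h')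
  omega

theorem coprime_det {m : ℤ} (h : IsCoprime m S.bad) : IsCoprime m N :=
  h.of_isCoprime_of_dvd_right S.det_dvd

theorem val_one (B : ℤ) : S.val 1 B = 0 := by
  simpa using S.mul 1 1 B one_ne_zero one_ne_zero

/-- The law without the condition at `3`. -/
theorem law_all (hN : 0 < N) {m : ℕ} {X Y B : ℤ} (hm : (m : ℤ) = X ^ 2 + N * Y ^ 2)
    (hXY : IsCoprime X Y) (hg : IsCoprime (m : ℤ) S.bad) (hB : (m : ℤ) ∣ B * Y - X) :
    S.val m B = 0 := by
  classical
  have h3m := S.not_three_dvd hg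
  have hm0 : m ≠ 0 := by rintro rfl; exact h3m (dvd_zero _)
  by_cases hside : if S.onY then ¬ 3 ∣ Y else ¬ 3 ∣ X
  · exact S.law m X Y B hm hXY hg hside hB
  have hYm : IsCoprime Y (m : ℤ) := IsCoprime.snd_of_sq_add hm hXY
  rcases hY : S.onY with _ | _
  · -- square the element
    simp only [hY, Bool.false_eq_true, if_false, not_not] at hside
    have h2 : ¬ (2 : ℤ) ∣ X ^ 2 - N * Y ^ 2 := fun h => S.not_two_dvd hg
      ((dvd_add h ⟨N * Y ^ 2, rfl⟩).trans (dvd_of_eq (by rw [hm]; ring)))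
    have hXN : IsCoprime X N := by
      have h := (S.coprime_det hg).symm
      rw [hm] at h
      exact ((IsCoprime.pow_left_iff two_pos).1 (h.of_add_mul_left_right).symm)
    have hco : IsCoprime (X ^ 2 - N * Y ^ 2) (2 * X * Y) := by
      refine IsCoprime.mul_right (IsCoprime.mul_right ?_ ?_) ?_
      · exact ((Int.prime_two.coprime_iff_not_dvd).2 h2).symm
      · rw [show X ^ 2 - N * Y ^ 2 = -(N * Y ^ 2) + X * X by ring]
        exact ((hXN.mul_right hXY.pow_right).symm.neg_left).add_mul_left_left X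
      · rw [show X ^ 2 - N * Y ^ 2 = X ^ 2 + Y * (-N * Y) by ring]
        exact (hXY.pow_left (m := 2)).add_mul_left_left _
    have hm' : ((m * m : ℕ) : ℤ) = (X ^ 2 - N * Y ^ 2) ^ 2 + N * (2 * X * Y) ^ 2 := by
      push_cast [hm]; ring
    obtain ⟨B', hB'⟩ := exists_dvd_mul_sub
      (IsCoprime.snd_of_sq_add hm' hco) (X ^ 2 - N * Y ^ 2)
    have hs : if S.onY then ¬ 3 ∣ (2 * X * Y) else ¬ 3 ∣ (X ^ 2 - N * Y ^ 2) := by
      simp only [hY, Bool.false_eq_true, if_false]
      intro h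
      refine h3m ((dvd_sub (dvd_mul_of_dvd_left hside (2 * X)) h).trans (dvd_of_eq ?_))
      rw [hm]; ring
    have h0 := S.law (m * m) _ _ B' hm' hco (by push_cast; exact hg.mul_left hg) hs hB'
    have hBB : (m : ℤ) ∣ B' - B := by
      refine (IsCoprime.snd_of_sq_add hm' hco).symm.of_isCoprime_of_dvd_left
        (by push_cast; exact dvd_mul_left _ _) |>.dvd_of_dvd_mul_right ?_
      refine (dvd_sub ((dvd_mul_left _ _).trans (by push_cast at hB'; exact hB'))
        (dvd_add (hB.mul_left (2 * X)) (dvd_refl (m : ℤ)))).trans (dvd_of_eq ?_)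
      rw [hm]; ring
    rw [S.mul m m B' hm0 hm0, S.congr m B' B hBB] at h0
    revert h0; generalize S.val m B = k; revert k; decide
  · -- multiply by an auxiliary element
    simp only [hY, if_true, not_not] at hside
    set x : ℕ := ∏ r ∈ (S.bad * m).natAbs.primeFactors.filter (fun r : ℕ => ¬ r ∣ N), r with hx
    have hbm : S.bad * m ≠ 0 := mul_ne_zero S.bad_ne (by exact_mod_cast hm0)
    have hcop : IsCoprime (((x ^ 2 + N : ℕ)) : ℤ) (S.bad * m) := by
      rw [Int.isCoprime_iff_nat_coprime, Int.natAbs_natCast]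
      refine Nat.coprime_of_dvd fun r hr h1 h2 => ?_
      by_cases hrN : r ∣ N
      · have : r ∣ x := hr.dvd_of_dvd_pow ((Nat.dvd_add_left hrN).1 h1)
        rw [hx, (Nat.prime_iff.1 hr).dvd_finsetProd_iff] at this
        obtain ⟨i, hi, hri⟩ := this
        simp only [Finset.mem_filter, Nat.mem_primeFactors] at hi
        exact hi.2 ((Nat.prime_dvd_prime_iff_eq hr hi.1.1).1 hri ▸ hrN)
      · have : r ∣ x := by
          rw [hx]
          exact Finset.dvd_prod_of_mem _ (Finset.mem_filter.2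
            ⟨Nat.mem_primeFactors.2 ⟨hr, h2, by simpa using hbm⟩, hrN⟩)
        exact hrN ((Nat.dvd_add_right (dvd_pow this two_ne_zero)).1 h1)
    set m₂ : ℕ := x ^ 2 + N with hm₂
    have hm₂0 : m₂ ≠ 0 := by omega
    have hg₂ : IsCoprime (m₂ : ℤ) S.bad := hcop.of_mul_right_left
    have hmm : IsCoprime (m₂ : ℤ) m := hcop.of_mul_right_right
    have h₂ : S.val m₂ x = 0 := S.law m₂ x 1 x (by push_cast [hm₂]; ring) isCoprime_one_right hg₂
      (by simp [hY]) (by simp)
    have hm' : ((m * m₂ : ℕ) : ℤ) = (X * x - N * Y) ^ 2 + N * (X + Y * x) ^ 2 := by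
      push_cast [hm, hm₂]; ring
    have hco : IsCoprime (X * (x : ℤ) - N * Y) (X + Y * x) := by
      obtain ⟨u, v, huv⟩ := hXY
      obtain ⟨u', v', huv'⟩ := hmm
      refine ⟨u' * (u * x - v) + v' * (-Y), u' * (u * N + v * x) + v' * X, ?_⟩
      rw [hm₂] at huv'
      push_cast at huv'
      rw [hm] at huv'
      linear_combination huv' + u' * ((x : ℤ) ^ 2 + N) * huv
    obtain ⟨B', hB'⟩ := exists_dvd_mul_sub (IsCoprime.snd_of_sq_add hm' hco) (X * x - N * Y)
    have hY'' : IsCoprime (X + Y * (x : ℤ)) ((m * m₂ : ℕ) : ℤ) := IsCoprime.snd_of_sq_add hm' hco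
    push_cast at hB' hY''
    have hs : if S.onY then ¬ 3 ∣ (X + Y * (x : ℤ)) else ¬ 3 ∣ (X * x - N * Y) := by
      simp only [hY, if_true]
      intro h
      have hX : (3 : ℤ) ∣ X := (dvd_sub h (hside.mul_right (x : ℤ))).trans (dvd_of_eq (by ring))
      have := Int.isUnit_iff.1 (hXY.isUnit_of_dvd' hX hside)
      omega
    have h0 := S.law (m * m₂) _ _ B' hm' hco (by push_cast; exact hg.mul_left hg₂) hs
      (by push_cast; exact hB')
    have e1 : (m : ℤ) ∣ B' - B := by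
      refine (hY''.of_mul_right_left).symm.dvd_of_dvd_mul_right ?_
      have hd : (m : ℤ) ∣ (B * (X + Y * x) - (X * x - N * Y)) * Y := by
        refine (dvd_add (hB.mul_left (Y * x + X)) (dvd_refl (m : ℤ))).trans (dvd_of_eq ?_)
        rw [hm]; ring
      refine (dvd_sub ((dvd_mul_right _ _).trans hB') (hYm.symm.dvd_of_dvd_mul_right hd)).trans
        (dvd_of_eq (by ring))
    have e2 : (m₂ : ℤ) ∣ B' - x := by
      refine (hY''.of_mul_right_right).symm.dvd_of_dvd_mul_right ?_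
      refine (dvd_sub ((dvd_mul_left _ _).trans hB') (dvd_mul_right (m₂ : ℤ) Y)).trans
        (dvd_of_eq ?_)
      rw [hm₂]; push_cast; ring
    rw [S.mul m m₂ B' hm0 hm₂0, S.congr m B' B e1, S.congr m₂ B' x e2, h₂, add_zero] at h0
    exact h0

variable {Q Q' : BinForm}

/-- The character of a form with first coefficient prime to `bad`. -/
def formVal (Q : BinForm) : ZMod 3 := S.val Q.a.toNat Q.b

theorem formVal_eq_of_coprime (hN : 0 < N) (hQ : Q.det = N) (he : FormEquiv Q Q')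
    (hg : IsCoprime Q.a S.bad) (hg' : IsCoprime Q'.a S.bad) (hc : IsCoprime Q.a Q'.a) :
    S.formVal Q = S.formVal Q' := by
  have hQ' : Q'.det = N := he.det_eq.trans hQ
  obtain ⟨p, q, s, t, hd, ha, hb, hc'⟩ := he
  obtain ⟨n, hn⟩ : ∃ n : ℕ, Q.a = n := ⟨_, (Int.toNat_of_nonneg Q.a_pos.le).symm⟩
  obtain ⟨m, hm⟩ : ∃ m : ℕ, Q'.a = m := ⟨_, (Int.toNat_of_nonneg Q'.a_pos.le).symm⟩
  have hn0 : n ≠ 0 := by have := Q.a_pos; omega
  have hm0 : m ≠ 0 := by have := Q'.a_pos; omega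
  simp only [eval_int] at ha
  simp only [BinForm.det] at hQ hQ'
  have hps : IsCoprime s p := ⟨-q, t, by linear_combination hd⟩
  have has : IsCoprime s Q.a := by
    have h := hc
    rw [ha, show Q.a * p ^ 2 + 2 * Q.b * p * s + Q.c * s ^ 2 =
      s * (2 * Q.b * p + Q.c * s) + Q.a * p ^ 2 by ring] at h
    exact h.of_add_mul_left_right.of_mul_right_left.symm
  have hXs : IsCoprime (Q.a * p + Q.b * s) s :=
    ((has.mul_right hps).symm).add_mul_right_left Q.b
  have hX : ((n * m : ℕ) : ℤ) = (Q.a * p + Q.b * s) ^ 2 + N * s ^ 2 := by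
    push_cast; rw [← hn, ← hm, ← hQ, ha]; ring
  have hsm := IsCoprime.snd_of_sq_add hX hXs
  obtain ⟨B, hB⟩ := exists_dvd_mul_sub hsm (Q.a * p + Q.b * s)
  have h0 := S.law_all hN hX hXs (by push_cast; rw [← hn, ← hm]; exact hg.mul_left hg') hB
  push_cast at hB hsm
  have e1 : (n : ℤ) ∣ B - Q.b := by
    refine hsm.of_mul_right_left.symm.dvd_of_dvd_mul_right ?_
    refine (dvd_add ((dvd_mul_right _ _).trans hB) (dvd_mul_right (n : ℤ) p)).trans
      (dvd_of_eq ?_)
    rw [← hn]; ring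
  have e2 : (m : ℤ) ∣ B - -Q'.b := by
    refine hsm.of_mul_right_right.symm.dvd_of_dvd_mul_right ?_
    refine (dvd_add ((dvd_mul_left _ _).trans hB) (dvd_mul_right (m : ℤ) t)).trans (dvd_of_eq ?_)
    rw [← hm, ha, hb]
    linear_combination (Q.a * p + Q.b * s) * hd
  rw [S.mul n m B hn0 hm0, S.congr n B Q.b e1, S.congr m B (-Q'.b) e2,
    S.neg m Q'.b (by rw [← hm]; exact hg') ⟨Q'.c, by rw [← hm, ← hQ']; ring⟩] at h0
  simp only [formVal, hn, hm, Int.toNat_natCast]
  linear_combination h0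

variable (hN : Squarefree N)
include hN

theorem formVal_eq_of_equiv (hQ : Q.det = N) (hp : Q.Prim) (he : FormEquiv Q Q')
    (hg : IsCoprime Q.a S.bad) (hg' : IsCoprime Q'.a S.bad) : S.formVal Q = S.formVal Q' := by
  obtain ⟨T, hT, hTc⟩ := exists_equiv_a_coprime hN hQ hp
    (mul_ne_zero S.bad_ne (mul_ne_zero Q.a_pos.ne' Q'.a_pos.ne'))
  have hQ' : Q'.det = N := he.det_eq.trans hQ
  have h1 := hTc.of_mul_right_right
  rw [S.formVal_eq_of_coprime (pos_of_ne_zero hN.ne_zero) hQ hT hg hTc.of_mul_right_left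
      h1.of_mul_right_left.symm,
    S.formVal_eq_of_coprime (pos_of_ne_zero hN.ne_zero) hQ' (he.symm.trans hT) hg'
      hTc.of_mul_right_left h1.of_mul_right_right.symm]

omit hN in
theorem prim_of_coprime (h : IsCoprime Q.a S.bad) : Q.Prim := fun hp => S.not_two_dvd h hp.1

theorem exists_good_rep (C : FormClass N) {M : ℤ} (hM : M ≠ 0) :
    ∃ P : PrimForm N, FormClass.of P = C ∧ IsCoprime P.1.a S.bad ∧ IsCoprime P.1.a M := by
  obtain ⟨T, hT, hTc⟩ := exists_equiv_a_coprime hN C.det_rep (Quotient.out C).2.2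
    (mul_ne_zero S.bad_ne hM)
  refine ⟨⟨T, hT.det_eq.trans C.det_rep, prim_of_coprime S hTc.of_mul_right_left⟩, ?_,
    hTc.of_mul_right_left, hTc.of_mul_right_right⟩
  exact (FormClass.of_eq_of.2 hT.symm).trans C.of_out

/-- The character of a class. -/
noncomputable def psi (C : FormClass N) : ZMod 3 :=
  S.formVal (S.exists_good_rep hN C one_ne_zero).choose.1

theorem psi_of (P : PrimForm N) (h : IsCoprime P.1.a S.bad) :
    S.psi hN (FormClass.of P) = S.formVal P.1 := by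
  obtain ⟨h1, h2, -⟩ := (S.exists_good_rep hN (FormClass.of P) one_ne_zero).choose_spec
  set P' := (S.exists_good_rep hN (FormClass.of P) one_ne_zero).choose
  exact S.formVal_eq_of_equiv hN P'.2.1 P'.2.2 (FormClass.of_eq_of.1 h1) h2 h

theorem exists_up_class (C : FormClass N) {l : ℕ} (hl : l.Prime) (hlg : IsCoprime (l : ℤ) S.bad)
    {B : ℤ} (hB : (l : ℤ) ∣ B ^ 2 + N) :
    ∃ C' : FormClass N, UpRel l B C.rep C'.rep ∧ S.psi hN C' = S.psi hN C + S.val l B := by
  obtain ⟨P, hP, hPg, hPl⟩ := S.exists_good_rep hN C (M := (l : ℤ)) (by exact_mod_cast hl.ne_zero)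
  obtain ⟨k, hk⟩ := exists_dvd_mul_sub hPl (B - P.1.b)
  have hk' : (l : ℤ) ∣ P.1.eval k 1 := by
    refine hPl.symm.dvd_of_dvd_mul_left ?_
    refine (dvd_add (hk.mul_right (P.1.a * k + P.1.b + B)) hB).trans (dvd_of_eq ?_)
    have := P.2.1
    simp only [BinForm.det] at this
    rw [eval_int]; linear_combination -this
  have hroot : (l : ℤ) ∣ P.1.a * k + P.1.b - B := hk.trans (dvd_of_eq (by ring))
  set T := P.1.up l k hl.pos hk'
  have hTd : T.det = N := (det_up _ _ _ _ _).trans P.2.1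
  have hTg : IsCoprime T.a S.bad := hPg.mul_left hlg
  set P' : PrimForm N := ⟨T, hTd, prim_of_coprime S hTg⟩
  refine ⟨FormClass.of P', ?_, ?_⟩
  · subst hP
    exact ((upRel_up P.1 l k hl.pos hk' hroot).equiv_left hl.ne_zero
      (FormClass.equiv_rep P).symm).equiv_right (FormClass.equiv_rep P').symm
  · subst hP
    rw [S.psi_of hN P' hTg, S.psi_of hN P hPg]
    obtain ⟨n, hn⟩ : ∃ n : ℕ, P.1.a = n := ⟨_, (Int.toNat_of_nonneg P.1.a_pos.le).symm⟩
    have hn0 : n ≠ 0 := by have := P.1.a_pos; omega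
    show S.val (P.1.a * l).toNat (P.1.b + k * P.1.a) = S.val P.1.a.toNat P.1.b + S.val l B
    rw [hn, show ((n : ℤ) * l).toNat = n * l by rw [← Nat.cast_mul, Int.toNat_natCast],
      Int.toNat_natCast, S.mul n l _ hn0 hl.ne_zero, S.congr n _ P.1.b ⟨k, by ring⟩,
      S.congr l _ B (hroot.trans (dvd_of_eq (by rw [hn]; ring)))]

omit hN in
theorem not_dvd_two_mul {l : ℕ} (hl : l.Prime) (hlg : IsCoprime (l : ℤ) S.bad) {B : ℤ}
    (hB : (l : ℤ) ∣ B ^ 2 + N) : ¬ (l : ℤ) ∣ 2 * B := by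
  have hlp := Nat.prime_iff_prime_int.1 hl
  intro h
  rcases hlp.dvd_or_dvd h with h2 | h'
  · have : (2 : ℤ) ∣ (l : ℤ) := Int.natCast_dvd_natCast.2
      (((Nat.prime_dvd_prime_iff_eq hl Nat.prime_two).1 (Int.natCast_dvd_natCast.1 h2)).symm ▸ dvd_rfl)
    exact S.not_two_dvd hlg this
  · have hN' : (l : ℤ) ∣ N := (dvd_add_right (dvd_pow h' two_ne_zero)).1 hB
    exact hlp.not_isUnit ((S.coprime_det hlg).isUnit_of_dvd' dvd_rfl hN')

variable {l : ℕ} (hl : l.Prime) (hlg : IsCoprime (l : ℤ) S.bad)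
include hl hlg

/-- The permutation of the classes given by a root of `B ² + N` modulo `l`. -/
noncomputable def upClass (B : ℤ) (hB : (l : ℤ) ∣ B ^ 2 + N) (C : FormClass N) : FormClass N :=
  (S.exists_up_class hN C hl hlg hB).choose

variable {B : ℤ} (hB : (l : ℤ) ∣ B ^ 2 + N)

theorem upRel_upClass (C : FormClass N) :
    UpRel l B C.rep (S.upClass hN hl hlg B hB C).rep :=
  (S.exists_up_class hN C hl hlg hB).choose_spec.1

theorem psi_upClass (C : FormClass N) :
    S.psi hN (S.upClass hN hl hlg B hB C) = S.psi hN C + S.val l B :=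
  (S.exists_up_class hN C hl hlg hB).choose_spec.2

theorem upClass_neg_upClass (hB' : (l : ℤ) ∣ (-B) ^ 2 + N) (C : FormClass N) :
    S.upClass hN hl hlg (-B) hB' (S.upClass hN hl hlg B hB C) = C := by
  set C' := S.upClass hN hl hlg B hB C
  have h := (S.upRel_upClass hN hl hlg hB' C').unique hl
    ((S.upRel_upClass hN hl hlg hB C).symm hl.ne_zero) (S.not_dvd_two_mul hl hlg hB')
  rw [← (S.upClass hN hl hlg (-B) hB' C').of_out, ← C.of_out, FormClass.of_eq_of]
  exact h

/-- The permutation as an equivalence. -/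
noncomputable def upEquiv (B : ℤ) (hB : (l : ℤ) ∣ B ^ 2 + N) : FormClass N ≃ FormClass N where
  toFun := S.upClass hN hl hlg B hB
  invFun := S.upClass hN hl hlg (-B) (by rwa [neg_sq])
  left_inv C := S.upClass_neg_upClass hN hl hlg hB _ C
  right_inv C := by
    have e : ∀ (D : ℤ) (hD : (l : ℤ) ∣ D ^ 2 + N), D = B →
        S.upClass hN hl hlg D hD (S.upClass hN hl hlg (-B) (by rwa [neg_sq]) C) =
        S.upClass hN hl hlg B hB (S.upClass hN hl hlg (-B) (by rwa [neg_sq]) C) := by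
      rintro D hD rfl; rfl
    rw [← e (- -B) (by rwa [neg_neg]) (neg_neg B)]
    exact S.upClass_neg_upClass hN hl hlg _ _ C

end CubicSymbol

end FLTA.LT2
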