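import Fermat.Agent.LT2.ThetaFormDefs

/-!
# Classes of binary forms and sublattices of prime index
-/

set_option autoImplicit false

namespace FLTA.LT2

namespace BinForm

variable (Q : BinForm)

theorem eval_int (x y : ℤ) : Q.eval x y = Q.a * x ^ 2 + 2 * Q.b * x * y + Q.c * y ^ 2 := by
  simp [eval]

theorem ext' {Q Q' : BinForm} (ha : Q.a = Q'.a) (hb : Q.b = Q'.b) (hc : Q.c = Q'.c) : Q = Q' := by
  cases Q; cases Q'; simp_all

theorem eq_of_det_eq {Q Q' : BinForm} (ha : Q.a = Q'.a) (hb : Q.b = Q'.b)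
    (hd : Q.det = Q'.det) : Q = Q' := by
  refine ext' ha hb (mul_left_cancel₀ Q.a_pos.ne' ?_)
  simp only [det, ha, hb] at hd ⊢
  linarith

/-- Pull back along an integral matrix, up to the factor `m`. -/
def Pull (m p q s t : ℤ) (Q R : BinForm) : Prop :=
  m * R.a = Q.eval p s ∧ m * R.b = Q.a * p * q + Q.b * (p * t + q * s) + Q.c * s * t ∧
    m * R.c = Q.eval q t

theorem Pull.eval_eq {m p q s t : ℤ} {Q R : BinForm} (h : Pull m p q s t Q R) (x y : ℤ) :
    m * R.eval x y = Q.eval (p * x + q * y) (s * x + t * y) := by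
  obtain ⟨ha, hb, hc⟩ := h
  simp only [eval_int] at ha hc ⊢
  linear_combination x ^ 2 * ha + 2 * x * y * hb + y ^ 2 * hc

theorem Pull.comp {m m' p q s t p' q' s' t' : ℤ} {Q R S : BinForm} (h : Pull m p q s t Q R)
    (h' : Pull m' p' q' s' t' R S) :
    Pull (m * m') (p * p' + q * s') (p * q' + q * t') (s * p' + t * s') (s * q' + t * t') Q S := by
  obtain ⟨ha, hb, hc⟩ := h
  obtain ⟨ha', hb', hc'⟩ := h'
  simp only [Pull, eval_int] at ha hc ha' hc' ⊢
  refine ⟨?_, ?_, ?_⟩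
  · linear_combination m * ha' + p' ^ 2 * ha + 2 * p' * s' * hb + s' ^ 2 * hc
  · linear_combination m * hb' + p' * q' * ha + (p' * t' + q' * s') * hb + s' * t' * hc
  · linear_combination m * hc' + q' ^ 2 * ha + 2 * q' * t' * hb + t' ^ 2 * hc


/-- `Pull` as a system of quadratic forms. -/
theorem Pull.det_eq {m p q s t : ℤ} {Q R : BinForm} (h : Pull m p q s t Q R) :
    m ^ 2 * R.det = (p * t - q * s) ^ 2 * Q.det := by
  obtain ⟨ha, hb, hc⟩ := h
  simp only [eval_int] at ha hc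
  simp only [det]
  linear_combination m * R.c * ha + (Q.a * p ^ 2 + 2 * Q.b * p * s + Q.c * s ^ 2) * hc -
    (m * R.b + Q.a * p * q + Q.b * (p * t + q * s) + Q.c * s * t) * hb

end BinForm

open BinForm

theorem formEquiv_iff {Q Q' : BinForm} :
    FormEquiv Q Q' ↔ ∃ p q s t : ℤ, p * t - q * s = 1 ∧ Pull 1 p q s t Q Q' := by
  simp only [FormEquiv, Pull, one_mul]

theorem FormEquiv.refl (Q : BinForm) : FormEquiv Q Q :=
  formEquiv_iff.2 ⟨1, 0, 0, 1, by norm_num, by simp [Pull, eval_int]⟩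

theorem FormEquiv.symm {Q Q' : BinForm} (h : FormEquiv Q Q') : FormEquiv Q' Q := by
  obtain ⟨p, q, s, t, hd, ha, hb, hc⟩ := h
  refine ⟨t, -q, -s, p, by linarith, ?_, ?_, ?_⟩ <;>
    simp only [eval_int] at ha hc ⊢ <;> rw [ha, hb, hc]
  · linear_combination -Q.a * (p * t - q * s + 1) * hd
  · linear_combination -Q.b * (p * t - q * s + 1) * hd
  · linear_combination -Q.c * (p * t - q * s + 1) * hd

theorem FormEquiv.trans {Q Q' Q'' : BinForm} (h : FormEquiv Q Q') (h' : FormEquiv Q' Q'') :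
    FormEquiv Q Q'' := by
  obtain ⟨p, q, s, t, hd, hp⟩ := formEquiv_iff.1 h
  obtain ⟨p', q', s', t', hd', hp'⟩ := formEquiv_iff.1 h'
  exact formEquiv_iff.2 ⟨p * p' + q * s', p * q' + q * t', s * p' + t * s', s * q' + t * t',
    by linear_combination (p' * t' - q' * s') * hd + hd', by simpa using hp.comp hp'⟩

theorem FormEquiv.det_eq {Q Q' : BinForm} (h : FormEquiv Q Q') : Q'.det = Q.det := by
  obtain ⟨p, q, s, t, hd, hp⟩ := formEquiv_iff.1 h
  simpa [hd] using hp.det_eq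

/-- `R` is the form, divided by `l`, of the lattice of index `l` cut out by the root `B` of
`B ² + N` modulo `l`. -/
def UpRel (l : ℕ) (B : ℤ) (Q R : BinForm) : Prop :=
  ∃ p q s t : ℤ, p * t - q * s = l ∧ Pull (l : ℤ) p q s t Q R ∧
    (l : ℤ) ∣ Q.a * p + (Q.b - B) * s ∧ (l : ℤ) ∣ (Q.b + B) * p + Q.c * s ∧
    (l : ℤ) ∣ Q.a * q + (Q.b - B) * t ∧ (l : ℤ) ∣ (Q.b + B) * q + Q.c * t

theorem UpRel.det_eq {l : ℕ} (hl : l ≠ 0) {B : ℤ} {Q R : BinForm} (h : UpRel l B Q R) :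
    R.det = Q.det := by
  obtain ⟨p, q, s, t, hd, hp, -⟩ := h
  have := hp.det_eq
  rw [hd] at this
  exact mul_left_cancel₀ (pow_ne_zero 2 (by exact_mod_cast hl)) this

theorem UpRel.congr_root {l : ℕ} {B B' : ℤ} (hB : (l : ℤ) ∣ B - B') {Q R : BinForm}
    (h : UpRel l B Q R) : UpRel l B' Q R := by
  obtain ⟨p, q, s, t, hd, hp, h1, h2, h3, h4⟩ := h
  refine ⟨p, q, s, t, hd, hp, ?_, ?_, ?_, ?_⟩
  · exact (dvd_add h1 (hB.mul_right s)).trans (dvd_of_eq (by ring))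
  · exact (dvd_sub h2 (hB.mul_right p)).trans (dvd_of_eq (by ring))
  · exact (dvd_add h3 (hB.mul_right t)).trans (dvd_of_eq (by ring))
  · exact (dvd_sub h4 (hB.mul_right q)).trans (dvd_of_eq (by ring))

theorem UpRel.equiv_right {l : ℕ} {B : ℤ} {Q R R' : BinForm} (h : UpRel l B Q R)
    (he : FormEquiv R R') : UpRel l B Q R' := by
  obtain ⟨p, q, s, t, hd, hp, h1, h2, h3, h4⟩ := h
  obtain ⟨p', q', s', t', hd', hp'⟩ := formEquiv_iff.1 he
  refine ⟨_, _, _, _, ?_, by simpa using hp.comp hp', ?_, ?_, ?_, ?_⟩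
  · linear_combination (p' * t' - q' * s') * hd + (l : ℤ) * hd'
  · exact (dvd_add (h1.mul_right p') (h3.mul_right s')).trans (dvd_of_eq (by ring))
  · exact (dvd_add (h2.mul_right p') (h4.mul_right s')).trans (dvd_of_eq (by ring))
  · exact (dvd_add (h1.mul_right q') (h3.mul_right t')).trans (dvd_of_eq (by ring))
  · exact (dvd_add (h2.mul_right q') (h4.mul_right t')).trans (dvd_of_eq (by ring))

theorem UpRel.symm {l : ℕ} (hl : l ≠ 0) {B : ℤ} {Q R : BinForm} (h : UpRel l B Q R) :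
    UpRel l (-B) R Q := by
  obtain ⟨p, q, s, t, hd, ⟨ha, hb, hc⟩, h1, h2, h3, h4⟩ := h
  have hl' : (l : ℤ) ≠ 0 := by exact_mod_cast hl
  simp only [eval_int] at ha hc
  have e1 : R.a * t - R.b * s = Q.a * p + Q.b * s :=
    mul_left_cancel₀ hl' (by linear_combination t * ha - s * hb + (Q.a * p + Q.b * s) * hd)
  have e2 : R.b * p - R.a * q = Q.b * p + Q.c * s :=
    mul_left_cancel₀ hl' (by linear_combination p * hb - q * ha + (Q.b * p + Q.c * s) * hd)
  have e3 : R.b * t - R.c * s = Q.a * q + Q.b * t :=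
    mul_left_cancel₀ hl' (by linear_combination t * hb - s * hc + (Q.a * q + Q.b * t) * hd)
  have e4 : R.c * p - R.b * q = Q.b * q + Q.c * t :=
    mul_left_cancel₀ hl' (by linear_combination p * hc - q * hb + (Q.b * q + Q.c * t) * hd)
  refine ⟨t, -q, -s, p, by linarith, ⟨?_, ?_, ?_⟩, ?_, ?_, ?_, ?_⟩
  · simp only [eval_int]
    linear_combination -t * e1 + s * e3 - Q.a * hd
  · linear_combination q * e1 - p * e3 - Q.b * hd
  · simp only [eval_int]
    linear_combination q * e2 - p * e4 - Q.c * hd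
  · exact h1.trans (dvd_of_eq (by linear_combination -e1))
  · exact h3.trans (dvd_of_eq (by linear_combination -e3))
  · exact h2.trans (dvd_of_eq (by linear_combination -e2))
  · exact h4.trans (dvd_of_eq (by linear_combination -e4))

theorem UpRel.equiv_left {l : ℕ} (hl : l ≠ 0) {B : ℤ} {Q Q' R : BinForm} (h : UpRel l B Q R)
    (he : FormEquiv Q Q') : UpRel l B Q' R := by
  simpa using ((h.symm hl).equiv_right he).symm hl

/-- Two vectors killed modulo `l` by a matrix with a unit entry are dependent modulo `l`. -/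
theorem dvd_det_of_kernel {l : ℤ} {α β v1 v2 w1 w2 : ℤ} (h : IsCoprime l α ∨ IsCoprime l β)
    (hv : l ∣ α * v1 + β * v2) (hw : l ∣ α * w1 + β * w2) : l ∣ v1 * w2 - v2 * w1 := by
  rcases h with h | h
  · refine h.dvd_of_dvd_mul_left ?_
    exact (dvd_sub (hv.mul_right w2) (hw.mul_right v2)).trans (dvd_of_eq (by ring))
  · refine h.dvd_of_dvd_mul_left ?_
    exact (dvd_sub (hw.mul_right v1) (hv.mul_right w1)).trans (dvd_of_eq (by ring))

theorem UpRel.unique {l : ℕ} (hl : l.Prime) {B : ℤ} {Q R R' : BinForm}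
    (h : UpRel l B Q R) (h' : UpRel l B Q R') (hB : ¬ (l : ℤ) ∣ 2 * B) : FormEquiv R R' := by
  obtain ⟨p, q, s, t, hd, hp, h1, h2, h3, h4⟩ := h
  obtain ⟨p', q', s', t', hd', hp', h1', h2', h3', h4'⟩ := h'
  have hl' : (l : ℤ) ≠ 0 := by exact_mod_cast hl.ne_zero
  have hlp : Prime (l : ℤ) := Nat.prime_iff_prime_int.1 hl
  have key : ∀ {v1 v2 w1 w2 : ℤ}, (l : ℤ) ∣ Q.a * v1 + (Q.b - B) * v2 →
      (l : ℤ) ∣ (Q.b + B) * v1 + Q.c * v2 → (l : ℤ) ∣ Q.a * w1 + (Q.b - B) * w2 →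
      (l : ℤ) ∣ (Q.b + B) * w1 + Q.c * w2 → (l : ℤ) ∣ v1 * w2 - v2 * w1 := by
    intro v1 v2 w1 w2 a1 a2 b1 b2
    by_cases hc : (l : ℤ) ∣ Q.b - B
    · refine dvd_det_of_kernel (Or.inl ((hlp.coprime_iff_not_dvd).2 fun hd => hB ?_)) a2 b2
      exact (dvd_sub hd hc).trans (dvd_of_eq (by ring))
    · exact dvd_det_of_kernel (Or.inr ((hlp.coprime_iff_not_dvd).2 hc)) a1 b1
  obtain ⟨x1, e1⟩ := key h1' h2' h3 h4
  obtain ⟨x2, e2⟩ := key h3' h4' h3 h4
  obtain ⟨x3, e3⟩ := key h1 h2 h1' h2'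
  obtain ⟨x4, e4⟩ := key h1 h2 h3' h4'
  have fp : p * x1 + q * x3 = p' :=
    mul_left_cancel₀ hl' (by linear_combination -p * e1 - q * e3 + p' * hd)
  have fq : p * x2 + q * x4 = q' :=
    mul_left_cancel₀ hl' (by linear_combination -p * e2 - q * e4 + q' * hd)
  have fs : s * x1 + t * x3 = s' :=
    mul_left_cancel₀ hl' (by linear_combination -s * e1 - t * e3 + s' * hd)
  have ft : s * x2 + t * x4 = t' :=
    mul_left_cancel₀ hl' (by linear_combination -s * e2 - t * e4 + t' * hd)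
  refine formEquiv_iff.2 ⟨x1, x2, x3, x4, mul_left_cancel₀ hl' ?_, ?_⟩
  · rw [← fp, ← fq, ← fs, ← ft] at hd'
    linear_combination hd' - (x1 * x4 - x2 * x3) * hd
  · obtain ⟨ha', hb', hc'⟩ := hp'
    obtain ⟨ha, hb, hc⟩ := hp
    simp only [eval_int] at ha ha' hc hc'
    subst fp fq fs ft
    refine ⟨?_, ?_, ?_⟩ <;> simp only [eval_int, one_mul] <;> refine mul_left_cancel₀ hl' ?_
    · linear_combination ha' - x1 ^ 2 * ha - 2 * x1 * x3 * hb - x3 ^ 2 * hc
    · linear_combination hb' - x1 * x2 * ha - (x1 * x4 + x2 * x3) * hb - x3 * x4 * hc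
    · linear_combination hc' - x2 ^ 2 * ha - 2 * x2 * x4 * hb - x4 ^ 2 * hc

theorem upRel_up (Q : BinForm) (l : ℕ) (k : ℤ) (hl : 0 < l) (h : (l : ℤ) ∣ Q.eval k 1) {B : ℤ}
    (hB : (l : ℤ) ∣ Q.a * k + Q.b - B) : UpRel l B Q (Q.up l k hl h) := by
  refine ⟨l, k, 0, 1, by ring, ⟨?_, ?_, ?_⟩, ?_, ?_, ?_, ?_⟩
  · simp [up, eval_int]; ring
  · simp [up]; ring
  · simp only [up]
    exact Int.mul_ediv_cancel' h
  · exact ⟨Q.a, by ring⟩
  · exact ⟨Q.b + B, by ring⟩
  · exact hB.trans (dvd_of_eq (by ring))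
  · refine (dvd_sub h (hB.mul_right k)).trans (dvd_of_eq ?_)
    rw [eval_int]
    ring

end FLTA.LT2
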