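import Fermat.Agent.LT2.ThetaEisenstein

/-!
# Cubic reciprocity for a rational integer and an Eisenstein integer

Jacobi sums of cubic characters give `sym n γ = symR (norm γ) w n` whenever `γ` is primitive and
congruent to a rational integer modulo `3`.
-/

set_option autoImplicit false
set_option maxHeartbeats 400000

namespace FLTA.LT2

open QuadraticAlgebra

/-- An embedding of the Eisenstein integers in the complex numbers. -/
theorem exists_eisHom_complex : ∃ f : Eis →+* ℂ, Function.Injective f := by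
  have hp := Complex.isPrimitiveRoot_exp 3 (by norm_num)
  set w := Complex.exp (2 * Real.pi * Complex.I / (3 : ℕ))
  refine ⟨eisHom w (root_of_isPrimitiveRoot hp), (injective_iff_map_eq_zero _).mpr fun z hz => ?_⟩
  have h := eisHom_mul_star (hw := root_of_isPrimitiveRoot hp) z
  rw [hz, zero_mul] at h
  exact eis_norm_eq_zero (by exact_mod_cast h.symm)

noncomputable instance : IsDomain Eis :=
  exists_eisHom_complex.choose_spec.isDomain

theorem isPrimitiveRoot_eisOm : IsPrimitiveRoot eisOm 3 := by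
  obtain ⟨f, hf⟩ := exists_eisHom_complex
  refine IsPrimitiveRoot.of_map_of_injective (f := f) (isPrimitiveRoot_of_root (by norm_num) ?_) hf
  rw [← map_pow, ← map_add, ← map_one f, ← map_add, eisOm_sq_add, map_zero]

theorem eisHom_pow_val {R : Type*} [CommRing R] {w : R} (hw : w ^ 2 + w + 1 = 0) (k : ZMod 3) :
    eisHom w hw (eisOm ^ k.val) = w ^ k.val := by
  rw [map_pow, eisHom_om]

section Char

variable (P : ℕ) [Fact P.Prime] (w : ℤ) (h : SymROk P w)

/-- The cubic character modulo `P` normalised by `w`. -/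
noncomputable def cubicChar : MulChar (ZMod P) Eis where
  toFun x := if x = 0 then 0 else eisOm ^ (resP P w x.val).val
  map_one' := by
    rw [if_neg one_ne_zero, ZMod.val_one]
    have h0 : resP P w ((1 : ℕ) : ℤ) = 0 := by
      simp only [resP, Nat.cast_one, Int.cast_one, one_pow]
      split_ifs with hex
      · have hs := hex.choose_spec
        revert hs
        generalize hex.choose = k
        intro hs
        by_contra hk
        have hw := SymROk.root h dvd_rfl
        have h3 : (3 : ZMod P) ≠ 0 := fun h0 => by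
          have h' : ((3 : ℕ) : ZMod P) = 0 := by exact_mod_cast h0
          rw [ZMod.natCast_eq_zero_iff] at h'
          exact h.1 (((Nat.prime_dvd_prime_iff_eq Fact.out Nat.prime_three).mp h') ▸ dvd_rfl)
        have hp := isPrimitiveRoot_of_root h3 hw
        exact hk (eq_of_pow_val_eq hp (hs.symm.trans (by rw [ZMod.val_zero, pow_zero])))
      · rfl
    rw [h0, ZMod.val_zero, pow_zero]
  map_mul' x y := by
    by_cases hx : x = 0
    · simp [hx]
    by_cases hy : y = 0
    · simp [hy]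
    rw [if_neg (mul_ne_zero hx hy), if_neg hx, if_neg hy,
      ← pow_val_add isPrimitiveRoot_eisOm.pow_eq_one]
    have hnd : ∀ z : ZMod P, z ≠ 0 → ¬ (P : ℤ) ∣ (z.val : ℤ) := fun z hz hd => hz (by
      rw [← ZMod.natCast_zmod_val z, ZMod.natCast_eq_zero_iff]
      exact Int.natCast_dvd_natCast.mp hd)
    congr 1
    rw [← resP_mul (fun h3 => h.1 (h3 ▸ dvd_rfl)) (SymROk.root h dvd_rfl) (hnd x hx) (hnd y hy)]
    congr 1
    refine resP_congr ((ZMod.intCast_zmod_eq_zero_iff_dvd _ P).mp ?_)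
    push_cast
    simp
  map_nonunit' x hx := by
    rw [isUnit_iff_ne_zero, not_not] at hx
    rw [if_pos hx]

/-- The Jacobi sum attached to `P` and `w`. -/
noncomputable def jac : Eis := jacobiSum (cubicChar P w h) (cubicChar P w h)

variable {P w}

theorem cubicChar_apply {x : ZMod P} (hx : x ≠ 0) :
    cubicChar P w h x = eisOm ^ (resP P w x.val).val := if_neg hx

theorem cubicChar_natCast {n : ℕ} (hn : ¬ P ∣ n) :
    cubicChar P w h (n : ZMod P) = eisOm ^ (resP P w n).val := by
  rw [cubicChar_apply h (fun h0 => hn ((ZMod.natCast_eq_zero_iff n P).mp h0))]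
  congr 2
  refine resP_congr ?_
  rw [← ZMod.intCast_zmod_eq_zero_iff_dvd]
  push_cast
  simp

theorem cubicChar_pow_three : (cubicChar P w h) ^ 3 = 1 := by
  refine MulChar.ext fun x => ?_
  rw [MulChar.pow_apply_coe, MulChar.one_apply_coe, cubicChar_apply h x.ne_zero, ← pow_mul,
    mul_comm, pow_mul, isPrimitiveRoot_eisOm.pow_eq_one, one_pow]

theorem cubicChar_ne_one : cubicChar P w h ≠ 1 := by
  intro h1
  have hw := SymROk.root h dvd_rfl
  have h3 : P ≠ 3 := fun h3 => h.1 (h3 ▸ dvd_rfl)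
  have hmod := mod_three_of_root h3 hw
  have h2le := (Fact.out : P.Prime).two_le
  obtain ⟨g, hg⟩ := IsCyclic.exists_ofOrder_eq_natCard (α := (ZMod P)ˣ)
  have h2 := congrArg (fun χ : MulChar (ZMod P) Eis => χ g) h1
  simp only [MulChar.one_apply_coe, cubicChar_apply h g.ne_zero] at h2
  have hk : resP P w ((g : ZMod P).val) = 0 := eq_of_pow_val_eq isPrimitiveRoot_eisOm
    (h2.trans (by rw [ZMod.val_zero, pow_zero]))
  have hnd : ¬ (P : ℤ) ∣ ((g : ZMod P).val : ℤ) := fun hd => g.ne_zero (by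
    rw [← ZMod.natCast_zmod_val (g : ZMod P), ZMod.natCast_eq_zero_iff]
    exact Int.natCast_dvd_natCast.mp hd)
  have hsp := resP_spec h3 hw hnd
  rw [hk, ZMod.val_zero, pow_zero, Int.cast_natCast, ZMod.natCast_zmod_val] at hsp
  have hg1 : g ^ (P / 3) = 1 := Units.ext (by rw [Units.val_pow_eq_pow_val, hsp]; rfl)
  have hc : Nat.card (ZMod P)ˣ = P - 1 := by rw [Nat.card_eq_fintype_card, ZMod.card_units]
  rw [← orderOf_dvd_iff_pow_eq_one, hg, hc] at hg1
  have := Nat.le_of_dvd (by omega) hg1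
  omega

theorem orderOf_cubicChar : orderOf (cubicChar P w h) = 3 :=
  orderOf_eq_prime (cubicChar_pow_three h) (cubicChar_ne_one h)

theorem cubicChar_neg_one : cubicChar P w h (-1) = 1 := by
  rw [cubicChar_apply h (neg_ne_zero.mpr one_ne_zero)]
  have : resP P w ((-1 : ZMod P).val) = 0 := by
    rw [resP_congr (r' := -1) (by
      rw [← ZMod.intCast_zmod_eq_zero_iff_dvd]; push_cast; simp)]
    exact resP_neg_one (fun h3 => h.1 (h3 ▸ dvd_rfl)) (SymROk.root h dvd_rfl)
  rw [this, ZMod.val_zero, pow_zero]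

theorem jac_norm : (jac P w h).norm = P := by
  obtain ⟨f, hf⟩ := exists_eisHom_complex
  let χ := (cubicChar P w h).ringHomComp f
  have hne : ∀ {χ' : MulChar (ZMod P) Eis}, χ' ≠ 1 → χ'.ringHomComp f ≠ 1 := fun hχ' =>
    (MulChar.ringHomComp_ne_one_iff hf).mpr hχ'
  have hsq : cubicChar P w h * cubicChar P w h ≠ 1 := by
    rw [← pow_two]
    exact pow_ne_one_of_lt_orderOf two_ne_zero (by rw [orderOf_cubicChar]; norm_num)
  have hconj : ∀ x, f (star (cubicChar P w h x)) = χ⁻¹ x := by
    intro x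
    by_cases hx : x = 0
    · subst hx
      rw [MulChar.map_zero, star_zero, map_zero, MulChar.map_zero]
    rw [MulChar.inv_apply' χ x]
    have h1 : χ x * χ x⁻¹ = 1 := by rw [← map_mul, mul_inv_cancel₀ hx, map_one]
    have h2 : χ x * f (star (cubicChar P w h x)) = 1 := by
      change f _ * f _ = 1
      rw [← map_mul, ← QuadraticAlgebra.algebraMap_norm_eq_mul_star, cubicChar_apply h hx, map_pow,
        show (eisOm : Eis).norm = 1 by simp [eis_norm, eisOm], one_pow, map_one, map_one]
    have h0 : χ x ≠ 0 := left_ne_zero_of_mul_eq_one h1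
    exact mul_left_cancel₀ h0 (h2.trans h1.symm)
  have key := jacobiSum_mul_jacobiSum_inv (F := ZMod P) (F' := ℂ)
    (by rw [ringChar.eq_zero, ZMod.ringChar_zmod_n]; exact (Fact.out : P.Prime).ne_zero.symm)
    (hne (cubicChar_ne_one h)) (hne (cubicChar_ne_one h))
    (by rw [← MulChar.ringHomComp_mul]; exact hne hsq)
  have hstar : f (star (jac P w h)) = jacobiSum χ⁻¹ χ⁻¹ := by
    rw [jac, jacobiSum, star_sum, map_sum]
    exact Finset.sum_congr rfl fun x _ => by rw [star_mul', map_mul, hconj, hconj]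
  rw [jacobiSum_ringHomComp, ← hstar, ← jac, ← map_mul,
    ← QuadraticAlgebra.algebraMap_norm_eq_mul_star, ZMod.card] at key
  have : ((jac P w h).norm : ℂ) = P := by simpa using key
  exact_mod_cast this

theorem jac_mod_three : 3 ∣ (jac P w h).re + 1 ∧ 3 ∣ (jac P w h).im := by
  have hmod := mod_three_of_root (fun h3 => h.1 (h3 ▸ dvd_rfl)) (SymROk.root h dvd_rfl)
  have h2le := (Fact.out : P.Prime).two_le
  obtain ⟨z, -, hz⟩ := exists_jacobiSum_eq_neg_one_add (F := ZMod P) (n := 3) (by norm_num)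
    (cubicChar_pow_three h) (cubicChar_pow_three h) (by rw [ZMod.card]; omega)
    isPrimitiveRoot_eisOm
  have h1 : (eisOm - 1) ^ 2 = -3 * eisOm := by linear_combination eisOm_sq_add
  rw [jac, hz, h1]
  refine ⟨⟨z.im, ?_⟩, ⟨z.im - z.re, ?_⟩⟩
  · simp [eisOm]; ring
  · simp [eisOm]; ring

theorem jac_dvd : (P : ℤ) ∣ (jac P w h).re + (jac P w h).im * w := by
  have hw := SymROk.root h dvd_rfl
  have h3 : P ≠ 3 := fun h3 => h.1 (h3 ▸ dvd_rfl)
  have hmod := mod_three_of_root h3 hw
  have h2le := (Fact.out : P.Prime).two_le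
  rw [← ZMod.intCast_zmod_eq_zero_iff_dvd]
  push_cast
  change eisHom (w : ZMod P) hw (jac P w h) = 0
  rw [jac, ← jacobiSum_ringHomComp, jacobiSum]
  have hχ : ∀ x : ZMod P, (cubicChar P w h).ringHomComp (eisHom (w : ZMod P) hw) x = x ^ (P / 3) := by
    intro x
    by_cases hx : x = 0
    · rw [hx, MulChar.map_zero, zero_pow (by omega)]
    change eisHom (w : ZMod P) hw (cubicChar P w h x) = _
    rw [cubicChar_apply h hx, eisHom_pow_val]
    rw [← resP_spec h3 hw (fun hd => hx (by
      rw [← ZMod.natCast_zmod_val x, ZMod.natCast_eq_zero_iff]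
      exact Int.natCast_dvd_natCast.mp hd)), Int.cast_natCast, ZMod.natCast_zmod_val]
  simp only [hχ]
  have hexp : ∀ x : ZMod P, x ^ (P / 3) * (1 - x) ^ (P / 3) =
      ∑ i ∈ Finset.range (P / 3 + 1),
        ((-1 : ZMod P) ^ i * ((P / 3).choose i : ZMod P)) * x ^ (P / 3 + i) := by
    intro x
    rw [sub_eq_add_neg, add_comm, add_pow, Finset.mul_sum]
    refine Finset.sum_congr rfl fun i hi => ?_
    rw [one_pow, mul_one, neg_pow, pow_add]
    ring
  simp only [hexp]
  rw [Finset.sum_comm]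
  refine Finset.sum_eq_zero fun i hi => ?_
  rw [Finset.mem_range] at hi
  rw [← Finset.mul_sum,
    FiniteField.sum_pow_lt_card_sub_one (K := ZMod P) (P / 3 + i) (by rw [ZMod.card]; omega),
    mul_zero]

theorem cast_pow_resP {K : Type*} [CommRing K] {W : K} (hW : W ^ 2 + W + 1 = 0) {n : ℕ}
    (hn : ¬ P ∣ n) :
    ((cubicChar P w h).ringHomComp (eisHom W hW)) (n : ZMod P) = W ^ (resP P w n).val := by
  change eisHom W hW (cubicChar P w h (n : ZMod P)) = _
  rw [cubicChar_natCast h hn, eisHom_pow_val]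

theorem orderOf_comp {q : ℕ} [Fact q.Prime] (hq3 : q ≠ 3) {W : Clo q}
    (hW : W ^ 2 + W + 1 = 0) :
    orderOf ((cubicChar P w h).ringHomComp (eisHom W hW)) = 3 := by
  refine orderOf_eq_prime ?_ ?_
  · rw [MulChar.ringHomComp_pow, cubicChar_pow_three h, MulChar.ringHomComp_one]
  · intro h1
    refine cubicChar_ne_one h (MulChar.ext fun x => ?_)
    have hx := congrArg (fun c : MulChar (ZMod P) (Clo q) => c x) h1
    simp only [MulChar.ringHomComp_apply, MulChar.one_apply_coe, cubicChar_apply h x.ne_zero,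
      eisHom_pow_val] at hx
    rw [MulChar.one_apply_coe, cubicChar_apply h x.ne_zero,
      eq_of_pow_val_eq (b := 0) (isPrimitiveRoot_of_root (three_ne_zero_clo hq3) hW)
        (hx.trans (by simp)), ZMod.val_zero, pow_zero]

theorem cube_gaussSum {q : ℕ} [Fact q.Prime] (hq3 : q ≠ 3) {W : Clo q} (hW : W ^ 2 + W + 1 = 0)
    {ψ : AddChar (ZMod P) (Clo q)} (hψ : ψ.IsPrimitive) :
    gaussSum ((cubicChar P w h).ringHomComp (eisHom W hW)) ψ ^ 3 =
      (P : Clo q) * eisHom W hW (jac P w h) := by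
  let χ := (cubicChar P w h).ringHomComp (eisHom W hW)
  have hord : orderOf χ = 3 := orderOf_comp h hq3 hW
  have := gaussSum_pow_eq_prod_jacobiSum (χ := χ) (ψ := ψ) (by rw [hord]; norm_num) hψ
  rw [hord] at this
  rw [this, ZMod.card]
  simp only [show Finset.Ico 1 (3 - 1) = {1} from rfl, Finset.prod_singleton, pow_one]
  rw [show χ (-1) = 1 by simp [χ, MulChar.ringHomComp_apply, cubicChar_neg_one h], one_mul, jac,
    ← jacobiSum_ringHomComp]

theorem symP_jac {q : ℕ} [hq : Fact q.Prime] (hq3 : q ≠ 3) (hqP : q ≠ P) :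
    symP q (jac P w h) = resP P w q := by
  have hP : P.Prime := Fact.out
  obtain ⟨W, hW⟩ := exists_root_clo (q := q)
  have hWp := isPrimitiveRoot_of_root (three_ne_zero_clo hq3) hW
  have hW2 := sq_add_of_root hW
  have hndn : ¬ (q : ℤ) ∣ (jac P w h).norm := by
    rw [jac_norm h, Int.natCast_dvd_natCast]
    exact fun hd => hqP ((Nat.prime_dvd_prime_iff_eq hq.out hP).mp hd)
  have hPK : (P : Clo q) ≠ 0 := by
    rw [Ne, CharP.cast_eq_zero_iff (Clo q) q]
    exact fun hd => hqP ((Nat.prime_dvd_prime_iff_eq hq.out hP).mp hd)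
  haveI : NeZero (P : Clo q) := ⟨hPK⟩
  obtain ⟨ζ, hζ⟩ := HasEnoughRootsOfUnity.exists_primitiveRoot (Clo q) P
  let ψ : AddChar (ZMod P) (Clo q) := AddChar.zmodChar P hζ.pow_eq_one
  have hψ : ψ.IsPrimitive := AddChar.zmodChar_primitive_of_primitive_root P hζ
  set k := resP P w q with hk
  have hnd : ¬ P ∣ q := fun hd => hqP ((Nat.prime_dvd_prime_iff_eq hP hq.out).mp hd).symm
  have hqu : IsUnit (q : ZMod P) :=
    isUnit_iff_ne_zero.mpr fun h0 => hnd ((ZMod.natCast_eq_zero_iff q P).mp h0)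
  -- one Frobenius step, for both roots
  have step : ∀ (V : Clo q) (hV : V ^ 2 + V + 1 = 0),
      gaussSum ((cubicChar P w h).ringHomComp (eisHom V hV)) ψ ^ q *
          (((cubicChar P w h).ringHomComp (eisHom V hV)) ^ q) (q : ZMod P) =
        gaussSum (((cubicChar P w h).ringHomComp (eisHom V hV)) ^ q) ψ := by
    intro V hV
    rw [gaussSum_frob q, AddChar.pow_mulShift, mul_comm]
    have := gaussSum_mulShift (((cubicChar P w h).ringHomComp (eisHom V hV)) ^ q) ψ hqu.unit
    rwa [hqu.unit_spec] at this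
  have hval : ∀ (V : Clo q) (hV : V ^ 2 + V + 1 = 0),
      ((cubicChar P w h).ringHomComp (eisHom V hV)) (q : ZMod P) = V ^ k.val := fun V hV =>
    cast_pow_resP h hV hnd
  have hg0 : ∀ (V : Clo q) (hV : V ^ 2 + V + 1 = 0),
      gaussSum ((cubicChar P w h).ringHomComp (eisHom V hV)) ψ ≠ 0 ∧
        eisHom V hV (jac P w h) ≠ 0 := by
    intro V hV
    have hJ := (eisHom_ne_zero hV hndn).1
    refine ⟨fun h0 => ?_, hJ⟩
    have := cube_gaussSum h hq3 hV hψ
    rw [h0, zero_pow three_ne_zero] at this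
    exact mul_ne_zero hPK hJ this.symm
  have hpow3 : ∀ (V : Clo q) (hV : V ^ 2 + V + 1 = 0),
      ((cubicChar P w h).ringHomComp (eisHom V hV)) ^ 3 = 1 := fun V hV => by
    rw [MulChar.ringHomComp_pow, cubicChar_pow_three h, MulChar.ringHomComp_one]
  refine symP_eq hq3 hndn W hW ?_
  rw [symVal, eisHom_star, symExp]
  have hq0 : q % 3 ≠ 0 := fun h0 =>
    hq3 ((Nat.prime_dvd_prime_iff_eq Nat.prime_three hq.out).mp (Nat.dvd_of_mod_eq_zero h0)).symm
  have hVk : ∀ (V : Clo q) (hV : V ^ 2 + V + 1 = 0), V ^ k.val ≠ 0 := fun V hV =>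
    pow_ne_zero _ ((isPrimitiveRoot_of_root (three_ne_zero_clo hq3) hV).ne_zero (by norm_num))
  by_cases h1 : q % 3 = 1
  · rw [if_pos h1, zpow_natCast, div_pow]
    have e : ∀ (V : Clo q) (hV : V ^ 2 + V + 1 = 0),
        ((P : Clo q) * eisHom V hV (jac P w h)) ^ (q / 3) * V ^ k.val = 1 := by
      intro V hV
      have hc : ((cubicChar P w h).ringHomComp (eisHom V hV)) ^ q =
          (cubicChar P w h).ringHomComp (eisHom V hV) := by
        rw [pow_eq_pow_mod q (hpow3 V hV), h1, pow_one]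
      have := step V hV
      have hq' : ∀ x : Clo q, x ^ q = (x ^ 3) ^ (q / 3) * x := fun x => by
        rw [← pow_mul, ← pow_succ]; congr 1; omega
      rw [hc, hval, hq', cube_gaussSum h hq3 hV hψ, mul_right_comm] at this
      exact mul_right_cancel₀ (hg0 V hV).1 (this.trans (one_mul _).symm)
    have e1 := e W hW
    have e2 := e (W ^ 2) hW2
    rw [mul_pow, mul_assoc] at e1 e2
    have hP0 : (P : Clo q) ^ (q / 3) ≠ 0 := pow_ne_zero _ hPK
    have e3 := mul_left_cancel₀ hP0 (e1.trans e2.symm)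
    rw [← pow_mul, two_mul, pow_add, ← mul_assoc] at e3
    have e4 := mul_right_cancel₀ (hVk W hW) e3
    rw [div_eq_iff (pow_ne_zero _ (hg0 (W ^ 2) hW2).2), mul_comm]
    exact e4
  · have hm : q % 3 = 2 := by omega
    rw [if_neg h1, zpow_neg, zpow_natCast, ← inv_pow, inv_div, div_pow]
    have e : ∀ (V : Clo q) (hV : V ^ 2 + V + 1 = 0),
        ((P : Clo q) * eisHom V hV (jac P w h)) ^ (q / 3 + 1) * (V ^ k.val) ^ 2 = (P : Clo q) := by
      intro V hV
      have hc : ((cubicChar P w h).ringHomComp (eisHom V hV)) ^ q =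
          ((cubicChar P w h).ringHomComp (eisHom V hV)) ^ 2 := by
        rw [pow_eq_pow_mod q (hpow3 V hV), hm]
      have hs := step V hV
      rw [hc, MulChar.pow_apply' _ two_ne_zero, hval] at hs
      set χ := (cubicChar P w h).ringHomComp (eisHom V hV) with hχ
      have hord : orderOf χ = 3 := orderOf_comp h hq3 hV
      have hne : χ ≠ 1 := fun he => by rw [he, orderOf_one] at hord; norm_num at hord
      have hprod := gaussSum_mul_gaussSum_pow_orderOf_sub_one hne hψ
      rw [hord, show χ (-1) = 1 by simp [χ, MulChar.ringHomComp_apply, cubicChar_neg_one h],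
        one_mul, ZMod.card] at hprod
      calc ((P : Clo q) * eisHom V hV (jac P w h)) ^ (q / 3 + 1) * (V ^ k.val) ^ 2
          = gaussSum χ ψ * (gaussSum χ ψ ^ q * (V ^ k.val) ^ 2) := by
            rw [← cube_gaussSum h hq3 hV hψ, ← pow_mul, ← mul_assoc, ← pow_succ']
            congr 2
            omega
        _ = (P : Clo q) := by rw [hs]; exact hprod
    have e1 := e W hW
    have e2 := e (W ^ 2) hW2
    rw [mul_pow, mul_assoc] at e1 e2
    have hP0 : (P : Clo q) ^ (q / 3 + 1) ≠ 0 := pow_ne_zero _ hPK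
    have e3 := mul_left_cancel₀ hP0 (e1.trans e2.symm)
    have hx : ((W ^ 2) ^ k.val) ^ 2 = W ^ k.val := by
      rw [← pow_mul, ← pow_mul, show 2 * (k.val * 2) = 3 * k.val + k.val by ring, pow_add,
        pow_mul, pow_three_of_root hW, one_pow, one_mul]
    rw [hx, pow_two (W ^ k.val), ← mul_assoc] at e3
    have e4 := mul_right_cancel₀ (hVk W hW) e3
    rw [div_eq_iff (pow_ne_zero _ (hg0 W hW).2), mul_comm]
    exact e4.symm

end Char

theorem exists_jac_prod {w : ℤ} (l : List ℕ) (hw : ((l.prod : ℕ) : ℤ) ∣ w ^ 2 + w + 1)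
    (hl : ∀ P ∈ l, P.Prime ∧ SymROk P w) :
    ∃ J : Eis, J.norm = ((l.prod : ℕ) : ℤ) ∧ (3 ∣ J.re - 1 ∨ 3 ∣ J.re + 1) ∧ 3 ∣ J.im ∧
      ((l.prod : ℕ) : ℤ) ∣ J.re + J.im * w ∧
      ∀ q : ℕ, q.Prime → q ≠ 3 → q ∉ l → symP q J = (l.map fun P => resP P w q).sum := by
  induction l with
  | nil =>
    refine ⟨1, by simp, Or.inl (by simp), by simp, by simp, fun q hq hq3 _ => ?_⟩
    haveI := Fact.mk hq
    have := symP_intCast (q := q) hq3 (r := 1) (fun h => hq.ne_one
      (by exact_mod_cast Int.eq_one_of_dvd_one (by simp) h))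
    simpa using this
  | cons P l ih =>
    obtain ⟨J, hn, hre, him, hd, hs⟩ := ih
      (dvd_trans (by simp) hw) fun P' hP' => hl P' (List.mem_cons_of_mem _ hP')
    obtain ⟨hP, hok⟩ := hl P List.mem_cons_self
    haveI := Fact.mk hP
    obtain ⟨hre', him'⟩ := jac_mod_three hok
    refine ⟨jac P w hok * J, ?_, ?_, ?_, ?_, fun q hq hq3 hql => ?_⟩
    · rw [map_mul, jac_norm hok, hn, List.prod_cons, Nat.cast_mul]
    · simp only [re_mul]
      obtain ⟨a, ha⟩ := hre'
      obtain ⟨c, hc⟩ := him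
      obtain ⟨e, he⟩ | ⟨e, he⟩ := hre
      · exact Or.inr ⟨a * (3 * e + 1) - e - (jac P w hok).im * c, by
          linear_combination J.re * ha + (3 * a - 1) * he - (jac P w hok).im * hc⟩
      · exact Or.inl ⟨a * (3 * e - 1) - e - (jac P w hok).im * c, by
          linear_combination J.re * ha + (3 * a - 1) * he - (jac P w hok).im * hc⟩
    · simp only [im_mul]
      exact dvd_add (dvd_add (dvd_mul_of_dvd_right him _) (dvd_mul_of_dvd_left him' _))
        (dvd_mul_of_dvd_right him _)
    · have hmul : ((P : ℤ) * (l.prod : ℕ)) ∣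
          ((jac P w hok).re + (jac P w hok).im * w) * (J.re + J.im * w) :=
        mul_dvd_mul (jac_dvd hok) hd
      simp only [re_mul, im_mul]
      rw [List.prod_cons, Nat.cast_mul]
      have e : (jac P w hok).re * J.re + -1 * (jac P w hok).im * J.im +
          ((jac P w hok).re * J.im + (jac P w hok).im * J.re +
            -1 * (jac P w hok).im * J.im) * w =
          ((jac P w hok).re + (jac P w hok).im * w) * (J.re + J.im * w) -
            (jac P w hok).im * J.im * (w ^ 2 + w + 1) := by ring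
      rw [e]
      refine dvd_sub hmul (dvd_mul_of_dvd_right ?_ _)
      simpa using hw
    · simp only [List.mem_cons, not_or] at hql
      haveI := Fact.mk hq
      have hn1 : ¬ (q : ℤ) ∣ (jac P w hok).norm := by
        rw [jac_norm hok, Int.natCast_dvd_natCast]
        exact fun h => hql.1 ((Nat.prime_dvd_prime_iff_eq hq hP).mp h)
      have hn2 : ¬ (q : ℤ) ∣ J.norm := by
        rw [hn, Int.natCast_dvd_natCast]
        intro h
        obtain ⟨p, hp, hqp⟩ := (Nat.prime_iff.mp hq).dvd_prod_iff.mp h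
        exact hql.2 (((Nat.prime_dvd_prime_iff_eq hq (hl p (List.mem_cons_of_mem _ hp)).1).mp
          hqp) ▸ hp)
      rw [symP_mul hq3 hn1 hn2, symP_jac hok hq3 hql.1, hs q hq hq3 hql.2, List.map_cons,
        List.sum_cons]

end FLTA.LT2
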