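import Fermat.Agent.LT2.ThetaTransform
import Fermat.Agent.DeligneSerre.Level.TorsionExp

/-!
# Binary theta series as modular objects: series, cusps, products
-/

set_option autoImplicit false

noncomputable section

open scoped Real MatrixGroups ModularForm Manifold
open UpperHalfPlane hiding I
open Complex ZMod CongruenceSubgroup

namespace FLTA.LT2

variable (Q : BinForm)

/-- The number of representations of `n`. -/
def BinForm.repCount (n : ℕ) : ℕ :=
  Nat.card {m : ℤ × ℤ // (Q.eval m.1 m.2).toNat = n}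

theorem BinForm.eval_int_nonneg (m : ℤ × ℤ) : 0 ≤ Q.eval m.1 m.2 := by
  have h := Q.le_eval (m.1 : ℝ) m.2
  have e : Q.eval (m.1 : ℝ) m.2 = ((Q.eval m.1 m.2 : ℤ) : ℝ) := by simp [BinForm.eval]
  rw [e] at h
  have hd : (0 : ℝ) ≤ (Q.det : ℝ) / (Q.a + Q.c) :=
    (div_pos (by exact_mod_cast Q.det_pos) (by exact_mod_cast Int.add_pos Q.a_pos Q.c_pos)).le
  exact_mod_cast le_trans (mul_nonneg hd (by positivity)) h

theorem BinForm.finite_rep (n : ℕ) : {m : ℤ × ℤ | (Q.eval m.1 m.2).toNat = n}.Finite := by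
  have hs := (Q.summable_gaussian one_pos 0 0).tendsto_cofinite_zero
  have := hs.eventually (Iio_mem_nhds (Real.exp_pos (-(n : ℝ) - 1)))
  rw [Filter.eventually_cofinite] at this
  refine this.subset fun m hm => ?_
  simp only [Set.mem_setOf_eq, add_zero, not_lt, neg_mul, one_mul, Real.exp_le_exp] at hm ⊢
  have e : Q.eval (m.1 : ℝ) m.2 = (n : ℝ) := by
    have h0 := Q.eval_int_nonneg m
    rw [show Q.eval (m.1 : ℝ) m.2 = ((Q.eval m.1 m.2 : ℤ) : ℝ) by simp [BinForm.eval]]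
    rw [← hm]
    exact_mod_cast (Int.toNat_of_nonneg h0).symm
  rw [e]
  linarith

/-- The series of a binary theta series. -/
theorem hasSum_binTheta (τ : ℍ) :
    HasSum (fun n : ℕ => (Q.repCount n : ℂ) * Function.Periodic.qParam 1 (τ : ℂ) ^ n)
      (binTheta Q τ) := by
  let e := Equiv.sigmaFiberEquiv fun m : ℤ × ℤ => (Q.eval m.1 m.2).toNat
  have h := e.hasSum_iff.2 (summable_binTheta Q (t := (τ : ℂ)) τ.im_pos).hasSum
  refine h.sigma fun n => ?_
  have : Fintype {m : ℤ × ℤ // (Q.eval m.1 m.2).toNat = n} := (Q.finite_rep n).fintype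
  have hs := hasSum_fintype fun m : {m : ℤ × ℤ // (Q.eval m.1 m.2).toNat = n} =>
    ((fun m : ℤ × ℤ => ePi ((τ : ℂ) * Q.eval (m.1 : ℂ) m.2)) ∘ ⇑e) ⟨n, m⟩
  convert! hs using 1
  rw [BinForm.repCount, Nat.card_eq_fintype_card, ← Finset.card_univ, ← nsmul_eq_mul,
    ← Finset.sum_const]
  refine Finset.sum_congr rfl fun m _ => ?_
  obtain ⟨m, hm⟩ := m
  simp only [e, Function.comp_apply, Equiv.sigmaFiberEquiv_apply]
  rw [show Q.eval (m.1 : ℂ) m.2 = ((n : ℤ) : ℂ) by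
    rw [show Q.eval (m.1 : ℂ) m.2 = ((Q.eval m.1 m.2 : ℤ) : ℂ) by simp [BinForm.eval],
      ← hm, Int.toNat_of_nonneg (Q.eval_int_nonneg m)]]
  rw [ePi, Function.Periodic.qParam, ← Complex.exp_nat_mul]
  congr 1
  push_cast
  ring

theorem hasSum_binTheta' (τ : ℍ) :
    HasSum (fun n : ℕ => (Q.repCount n : ℂ) * Function.Periodic.qParam ((1 : ℕ) : ℝ) (τ : ℂ) ^ n)
      (binTheta Q τ) := by
  simpa using hasSum_binTheta Q τ

theorem binTheta_mdiff : MDiff (binTheta Q) :=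
  (DeligneSerre.mem_holInfty_of_hasSum (h := 1) (hasSum_binTheta' Q)).1.1

theorem binTheta_isBoundedAtImInfty : IsBoundedAtImInfty (binTheta Q) :=
  (DeligneSerre.mem_holInfty_of_hasSum (h := 1) (hasSum_binTheta' Q)).2

theorem binTheta_slash {γ : SL(2, ℤ)} (hγ : γ ∈ Gamma0 (4 * Q.det).natAbs) :
    (binTheta Q) ∣[(1 : ℤ)] γ = (thetaChar Q (γ.1 1 1) : ℂ) • binTheta Q := by
  funext τ
  have hz : ((γ.1 1 0 : ℂ) * τ + γ.1 1 1) ≠ 0 := by
    simpa [UpperHalfPlane.denom] using UpperHalfPlane.denom_ne_zero (γ : GL (Fin 2) ℝ) τ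
  rw [ModularForm.SL_slash_apply, binTheta_smul Q hγ, Pi.smul_apply, smul_eq_mul, zpow_neg_one]
  simp only [UpperHalfPlane.denom, Matrix.SpecialLinearGroup.coe_GL_coe_matrix,
    Matrix.SpecialLinearGroup.map_apply_coe, RingHom.mapMatrix_apply, Matrix.map_apply,
    Int.coe_castRingHom, Complex.ofReal_intCast]
  field_simp

/-- Bounded at every cusp. -/
theorem binTheta_slash_bdd (γ : SL(2, ℤ)) :
    IsBoundedAtImInfty ((binTheta Q) ∣[(1 : ℤ)] γ) := by
  rcases eq_or_ne (γ.1 1 0) 0 with hC | hC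
  · obtain ⟨M, A, hMA⟩ := isBoundedAtImInfty_iff.1 (binTheta_isBoundedAtImInfty Q)
    refine isBoundedAtImInfty_iff.2 ⟨M, A, fun τ hτ => ?_⟩
    have hdet : γ.1 0 0 * γ.1 1 1 = 1 := by
      have := γ.2; rw [Matrix.det_fin_two, hC] at this; linear_combination this
    obtain ⟨ha, hd⟩ | ⟨ha, hd⟩ := Int.eq_one_or_neg_one_of_mul_eq_one' hdet
    all_goals
      have hγ : ((γ • τ : ℍ) : ℂ) = (τ : ℂ) + ((γ.1 1 1 * γ.1 0 1 : ℤ) : ℂ) := by
        rw [UpperHalfPlane.coe_specialLinearGroup_apply]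
        simp [hC, ha, hd]
        try ring
      have hn : ‖UpperHalfPlane.denom (γ : GL (Fin 2) ℝ) τ ^ (-1 : ℤ)‖ = 1 := by
        simp [UpperHalfPlane.denom, hC, hd]
      rw [ModularForm.SL_slash_apply, norm_mul, hn, mul_one, binTheta_add_int Q _ τ _ hγ]
      exact hMA τ hτ
  · obtain ⟨γ₁, hpos, hslash⟩ : ∃ γ₁ : SL(2, ℤ), 0 < γ₁.1 1 0 ∧
        ∀ τ : ℍ, ‖((binTheta Q) ∣[(1 : ℤ)] γ) τ‖ = ‖((binTheta Q) ∣[(1 : ℤ)] γ₁) τ‖ := by
      rcases lt_or_gt_of_ne hC with h | h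
      · refine ⟨-γ, by simpa [Matrix.SpecialLinearGroup.coe_neg] using h, fun τ => ?_⟩
        simp only [ModularForm.SL_slash_apply, ModularGroup.SL_neg_smul, norm_mul]
        congr 1
        rw [norm_zpow, norm_zpow]
        congr 1
        rw [← norm_neg]
        congr 1
        simp [UpperHalfPlane.denom, Matrix.SpecialLinearGroup.coe_neg]
        ring
      · exact ⟨γ, h, fun τ => rfl⟩
    obtain ⟨C, hC₁⟩ : ∃ C : ℕ, γ₁.1 1 0 = C := ⟨(γ₁.1 1 0).natAbs, by omega⟩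
    have : NeZero C := ⟨fun h => by simp [h] at hC₁; omega⟩
    have hCC : (C : ℂ) ≠ 0 := NeZero.ne _
    have hN : (0 : ℝ) < Q.det := by exact_mod_cast Q.det_pos
    have hNC : (Q.det : ℂ) ≠ 0 := by exact_mod_cast Q.det_pos.ne'
    have hsum := Q.adj.summable_gaussian (T := π / (2 * Q.det)) (by positivity) 0 0
    refine isBoundedAtImInfty_iff.2 ⟨(Fintype.card (ZMod C × ZMod C) : ℝ) *
      ((1 / (2 * C * Real.sqrt Q.det)) * ∑' w : ℤ × ℤ,
        Real.exp (-(π / (2 * Q.det)) * Q.adj.eval ((w.1 : ℝ) + 0) ((w.2 : ℝ) + 0))), 1,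
      fun τ hτ => ?_⟩
    set z : ℂ := (C : ℂ) * τ + γ₁.1 1 1 with hz'
    have hz : z ≠ 0 := fun h => by
      have him := congrArg Complex.im h
      simp [hz', τ.im_pos.ne', NeZero.ne C] at him
    set t : ℂ := -1 / (C * z) with ht'
    have hγ : ((γ₁ • τ : ℍ) : ℂ) = (γ₁.1 0 0 : ℂ) / C + t := by
      have hdet : (γ₁.1 0 0 : ℂ) * γ₁.1 1 1 - γ₁.1 0 1 * C = 1 := by
        have := γ₁.2
        rw [Matrix.det_fin_two, hC₁] at this
        exact_mod_cast this
      rw [UpperHalfPlane.coe_specialLinearGroup_apply]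
      simp only [algebraMap_int_eq, eq_intCast, Complex.ofReal_intCast, hC₁, Int.cast_natCast,
        Complex.ofReal_natCast, ht']
      push_cast
      rw [← hz', div_add_div _ _ hCC (mul_ne_zero hCC hz),
        div_eq_div_iff hz (mul_ne_zero hCC (mul_ne_zero hCC hz)), hz']
      linear_combination -((C : ℂ) * ((C : ℂ) * τ + γ₁.1 1 1)) * hdet
    have ht : 0 < t.im := by
      have h := (γ₁ • τ).im_pos
      rw [UpperHalfPlane.im, hγ] at h
      simpa [Complex.div_natCast_im] using h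
    have ht2 : 0 < (t * (C : ℂ) ^ 2).im := by
      rw [show ((C : ℂ) ^ 2) = (((C : ℝ) ^ 2 : ℝ) : ℂ) by push_cast; rfl, Complex.mul_im,
        Complex.ofReal_re, Complex.ofReal_im, mul_zero, zero_add]
      have : (0 : ℝ) < C := Nat.cast_pos.2 (NeZero.pos C)
      positivity
    rw [hslash, ModularForm.SL_slash_apply, norm_mul, binTheta, hγ,
      tsum_residues (summable_binTheta Q (by simpa [Complex.div_natCast_im] using ht)) C]
    have hden : UpperHalfPlane.denom (γ₁ : GL (Fin 2) ℝ) τ = z := by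
      simp [UpperHalfPlane.denom, hC₁, hz']
    rw [hden, zpow_neg_one, norm_inv, ← div_eq_mul_inv, div_le_iff₀ (norm_pos_iff.2 hz), mul_assoc,
      ← Finset.card_univ, ← nsmul_eq_mul, ← Finset.sum_const]
    refine le_trans (norm_sum_le _ _) (Finset.sum_le_sum fun v _ => ?_)
    have hcong : ∀ n : ℤ × ℤ,
        ePi (((γ₁.1 0 0 : ℂ) / C + t) * Q.eval ((((v.1.val : ℤ) + C * n.1 : ℤ)) : ℂ)
          (((v.2.val : ℤ) + C * n.2 : ℤ) : ℂ)) =
          stdAddChar ((γ₁.1 0 0 : ZMod C) * Q.eval v.1 v.2) *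
          ePi (t * (C : ℂ) ^ 2 * Q.eval ((n.1 : ℂ) + ((v.1.val : ℝ) / C : ℝ))
            ((n.2 : ℂ) + ((v.2.val : ℝ) / C : ℝ))) := by
      intro n
      rw [add_mul, ePi_add]
      congr 1
      · rw [show (γ₁.1 0 0 : ZMod C) * Q.eval v.1 v.2 =
            ((γ₁.1 0 0 * Q.eval ((v.1.val : ℤ) + C * n.1) ((v.2.val : ℤ) + C * n.2) : ℤ) :
              ZMod C) by simp [BinForm.eval], stdAddChar_intCast]
        congr 1
        simp only [BinForm.eval]
        push_cast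
        ring
      · congr 1
        simp only [BinForm.eval]
        push_cast
        field_simp
        ring
    have hpre : ‖I / (2 * (t * (C : ℂ) ^ 2) * (Real.sqrt Q.det : ℂ))‖ =
        1 / (2 * C * Real.sqrt Q.det) * ‖z‖ := by
      simp only [ht', norm_div, norm_mul, norm_pow, norm_neg, norm_one, Complex.norm_natCast,
        Complex.norm_I, Complex.norm_real, Complex.norm_two, Real.norm_eq_abs,
        abs_of_nonneg (Real.sqrt_nonneg _)]
      have := norm_ne_zero_iff.2 hz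
      have : (C : ℝ) ≠ 0 := NeZero.ne _
      field_simp
    rw [tsum_congr hcong, tsum_mul_left, Q.poisson ht2, norm_mul, norm_mul, hpre,
      show ∀ x : ZMod C, ‖stdAddChar x‖ = 1 from fun x => by simp [stdAddChar_apply], one_mul, mul_right_comm, mul_comm (_ * _) ‖z‖,
      mul_comm _ ‖z‖]
    gcongr
    refine tsum_of_norm_bounded hsum.hasSum fun w => ?_
    rw [norm_mul, norm_ePi, norm_ePi, ← Real.exp_add, Real.exp_le_exp]
    have e1 : ((w.1 : ℂ) * ((v.1.val : ℝ) / C : ℝ) + w.2 * ((v.2.val : ℝ) / C : ℝ)).im = 0 := by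
      simp [Complex.mul_im]
    have e2 : -Q.adj.eval (w.1 : ℂ) w.2 / (4 * Q.det * (t * (C : ℂ) ^ 2)) =
        ((Q.adj.eval (w.1 : ℝ) w.2 / (4 * Q.det * C) : ℝ) : ℂ) * z := by
      rw [show Q.adj.eval (w.1 : ℂ) w.2 = ((Q.adj.eval (w.1 : ℝ) w.2 : ℝ) : ℂ) by
        simp [BinForm.eval], ht']
      push_cast
      field_simp
    rw [e1, e2]
    simp only [hz', Complex.mul_im, Complex.add_im, Complex.ofReal_re, Complex.ofReal_im,
      Complex.natCast_re, Complex.natCast_im, Complex.intCast_im, UpperHalfPlane.coe_im,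
      zero_mul, add_zero, mul_zero, zero_add]
    have hq : 0 ≤ Q.adj.eval (w.1 : ℝ) w.2 := by
      have := Q.adj.eval_int_nonneg w
      rw [show Q.adj.eval (w.1 : ℝ) w.2 = ((Q.adj.eval w.1 w.2 : ℤ) : ℝ) by simp [BinForm.eval]]
      exact_mod_cast this
    have : (C : ℝ) ≠ 0 := NeZero.ne _
    rw [show -2 * π * (Q.adj.eval (w.1 : ℝ) w.2 / (4 * Q.det * C) * (C * τ.im)) =
      -(π / (2 * Q.det)) * Q.adj.eval (w.1 : ℝ) w.2 * τ.im by field_simp; ring]
    nlinarith [mul_nonneg (mul_nonneg (div_nonneg Real.pi_pos.le (by positivity :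
      (0 : ℝ) ≤ 2 * Q.det)) hq) (sub_nonneg.2 hτ)]

theorem thetaChar_sq {γ : SL(2, ℤ)} (hγ : γ ∈ Gamma0 (4 * Q.det).natAbs) :
    thetaChar Q (γ.1 1 1) * thetaChar Q (γ.1 1 1) = 1 := by
  obtain ⟨K, hK⟩ := four_det_dvd_of_mem Q hγ
  have hcop : IsCoprime (Q.det * 4) (γ.1 1 1) := by
    refine ⟨-(γ.1 0 1 * K), γ.1 0 0, ?_⟩
    have := γ.2
    rw [Matrix.det_fin_two, hK] at this
    linear_combination this
  have hd0 : γ.1 1 1 ≠ 0 := fun h => by
    rw [h, isCoprime_zero_right, Int.isUnit_iff] at hcop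
    have : 0 < Q.det := Q.det_pos
    omega
  have hs : (γ.1 1 1).sign * (γ.1 1 1).sign = 1 := by
    rcases lt_or_gt_of_ne hd0 with hlt | hgt
    · rw [Int.sign_eq_neg_one_of_neg hlt]; norm_num
    · rw [Int.sign_eq_one_of_pos hgt]; norm_num
  rw [thetaChar, mul_mul_mul_comm, hs, one_mul, ← pow_two]
  refine jacobiSym.sq_one ?_
  rw [Int.gcd_def, Int.natAbs_neg, Int.natAbs_natCast, ← Int.gcd_def, ← Int.isCoprime_iff_gcd_eq_one]
  exact hcop.of_mul_left_left

/-- The product of two binary theta series of the same determinant. -/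
def thetaMul (Q Q' : BinForm) {M : ℕ} [NeZero M] (h : (M : ℤ) = 4 * Q.det)
    (h' : Q'.det = Q.det) : ModularForm (Gamma0 M) 2 where
  toFun := binTheta Q * binTheta Q'
  slash_action_eq' γ hγ := by
    obtain ⟨g, hg, rfl⟩ := hγ
    have hg' : g ∈ Gamma0 (4 * Q.det).natAbs := by rwa [← h, Int.natAbs_natCast]
    have e : (thetaChar Q' (g.1 1 1)) = thetaChar Q (g.1 1 1) := by rw [thetaChar, thetaChar, h']
    show (binTheta Q * binTheta Q') ∣[(1 : ℤ) + 1] g = _
    rw [ModularForm.mul_slash_SL2, binTheta_slash Q hg', binTheta_slash Q' (h' ▸ hg'), e,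
      smul_mul_smul_comm, ← Int.cast_mul, thetaChar_sq Q hg', Int.cast_one, one_smul]
  holo' := (binTheta_mdiff Q).mul (binTheta_mdiff Q')
  bdd_at_cusps' {c} hc := by
    rw [Subgroup.IsArithmetic.isCusp_iff_isCusp_SL2Z] at hc
    rw [OnePoint.isBoundedAt_iff_forall_SL2Z hc]
    intro γ _
    show IsBoundedAtImInfty ((binTheta Q * binTheta Q') ∣[(1 : ℤ) + 1] γ)
    rw [ModularForm.mul_slash_SL2]
    exact (binTheta_slash_bdd Q γ).mul (binTheta_slash_bdd Q' γ)

@[simp] theorem coe_thetaMul (Q Q' : BinForm) {M : ℕ} [NeZero M] (h : (M : ℤ) = 4 * Q.det)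
    (h' : Q'.det = Q.det) : ⇑(thetaMul Q Q' h h') = binTheta Q * binTheta Q' := rfl

end FLTA.LT2
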