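import Fermat.Agent.LT2.ThetaGauss
import Mathlib.NumberTheory.LSeries.PrimesInAP
import Mathlib.NumberTheory.ModularForms.CongruenceSubgroups
import Mathlib.NumberTheory.ModularForms.Basic
import Mathlib.NumberTheory.Modular

/-!
# The transformation law of a binary theta series on `Γ₀(4 N)`
-/

set_option autoImplicit false

noncomputable section

open scoped Real MatrixGroups
open UpperHalfPlane hiding I
open Complex ZMod CongruenceSubgroup

namespace FLTA.LT2

variable (Q : BinForm)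

/-- The theta series `∑ e (τ Q(m))` over `m ∈ ℤ²`. -/
def binTheta (τ : ℍ) : ℂ := ∑' m : ℤ × ℤ, ePi ((τ : ℂ) * Q.eval (m.1 : ℂ) m.2)

theorem summable_binTheta {t : ℂ} (ht : 0 < t.im) :
    Summable fun m : ℤ × ℤ => ePi (t * Q.eval (m.1 : ℂ) m.2) := by
  refine Summable.of_norm ((Q.summable_gaussian (mul_pos Real.two_pi_pos ht) 0 0).congr
    fun m => ?_)
  rw [norm_ePi, show Q.eval (m.1 : ℂ) m.2 = ((Q.eval (m.1 : ℝ) m.2 : ℝ) : ℂ) by
    simp [BinForm.eval]]
  congr 1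
  simp
  ring

theorem binTheta_add_int (n : ℤ) (τ τ' : ℍ) (h : (τ' : ℂ) = τ + n) :
    binTheta Q τ' = binTheta Q τ := by
  refine tsum_congr fun m => ?_
  rw [h, add_mul, ePi_add, show (n : ℂ) * Q.eval (m.1 : ℂ) m.2 = ((n * Q.eval m.1 m.2 : ℤ) : ℂ) by
    simp [BinForm.eval], ePi_intCast, mul_one]

theorem binTheta_ne_zero : ∃ τ : ℍ, binTheta Q τ ≠ 0 := by
  refine ⟨UpperHalfPlane.I, fun h => ?_⟩
  have hs := summable_binTheta Q (t := (UpperHalfPlane.I : ℂ)) UpperHalfPlane.I.im_pos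
  have e : ∀ m : ℤ × ℤ, ePi ((UpperHalfPlane.I : ℂ) * Q.eval (m.1 : ℂ) m.2) =
      ((Real.exp (-2 * π * Q.eval (m.1 : ℝ) m.2) : ℝ) : ℂ) := fun m => by
    rw [ePi, Complex.ofReal_exp]
    simp [BinForm.eval]
    ring_nf
    simp [I_sq]
    ring_nf
  simp only [binTheta, e, ← Complex.ofReal_tsum, Complex.ofReal_eq_zero] at h
  simp only [e, Complex.summable_ofReal] at hs
  have := hs.le_tsum (0, 0) fun m _ => (Real.exp_pos _).le
  rw [h] at this
  exact absurd this (not_le.2 (Real.exp_pos _))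

/-- Residue and quotient. -/
def residueEquiv (D : ℕ) [NeZero D] : ℤ ≃ ZMod D × ℤ where
  toFun m := ((m : ZMod D), m / D)
  invFun p := (p.1.val : ℤ) + D * p.2
  left_inv m := by
    simp only [ZMod.val_intCast]
    exact Int.emod_add_mul_ediv m D
  right_inv p := by
    have hD : (0 : ℤ) < D := by exact_mod_cast NeZero.pos D
    refine Prod.ext ?_ ?_
    · simp
    · simp only [Int.add_mul_ediv_left _ _ hD.ne']
      rw [Int.ediv_eq_zero_of_lt (Int.natCast_nonneg _) (by exact_mod_cast p.1.val_lt), zero_add]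

theorem tsum_residues {f : ℤ × ℤ → ℂ} (hf : Summable f) (D : ℕ) [NeZero D] :
    ∑' m, f m = ∑ v : ZMod D × ZMod D, ∑' n : ℤ × ℤ,
      f ((v.1.val : ℤ) + D * n.1, (v.2.val : ℤ) + D * n.2) := by
  let e : ℤ × ℤ ≃ (ZMod D × ZMod D) × (ℤ × ℤ) :=
    ((residueEquiv D).prodCongr (residueEquiv D)).trans (Equiv.prodProdProdComm _ _ _ _)
  have hs : Summable (f ∘ e.symm) := e.symm.summable_iff.2 hf
  rw [← e.symm.tsum_eq, show (fun c => f (e.symm c)) = f ∘ e.symm from rfl, hs.tsum_prod, tsum_fintype]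
  rfl

/-- The identity with the Gauss sum, for `0 < D`. -/
theorem binTheta_smul_gauss {γ : SL(2, ℤ)} {D : ℕ} [NeZero D] (hD : γ.1 1 1 = D)
    (hC : 4 * Q.det ∣ γ.1 1 0) (τ : ℍ) :
    binTheta Q (γ • τ) = Q.gauss (γ.1 0 1) D / (D : ℂ) *
      ((γ.1 1 0 : ℂ) * τ + γ.1 1 1) * binTheta Q τ := by
  set A := γ.1 0 0 with hA
  set B := γ.1 0 1 with hB
  set C := γ.1 1 0 with hC'
  obtain ⟨K, hK⟩ := hC
  have hdet : A * D - B * C = 1 := by
    have := γ.2; rw [Matrix.det_fin_two, hD] at this; exact this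
  have hN : (0 : ℝ) < Q.det := by exact_mod_cast Q.det_pos
  have hNC : (Q.det : ℂ) ≠ 0 := by exact_mod_cast Q.det_pos.ne'
  have hDC : (D : ℂ) ≠ 0 := NeZero.ne _
  have hτ0 : (τ : ℂ) ≠ 0 := τ.ne_zero
  have hkey : (-4 : ZMod D) * (Q.det : ZMod D) * (K : ZMod D) * (B : ZMod D) = 1 := by
    have h1 := congrArg (fun x : ℤ => (x : ZMod D)) hdet
    simp [hK] at h1
    linear_combination h1
  have hdetC : (A : ℂ) * D - B * C = 1 := by exact_mod_cast hdet
  have hz : (C : ℂ) * τ + D ≠ 0 := by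
    intro h
    have him := congrArg Complex.im h
    simp [τ.im_pos.ne'] at him
    rw [him] at h
    simp [hDC] at h
  set z : ℂ := (C : ℂ) * τ + D with hz'
  set t : ℂ := τ / (D * z) with ht'
  have hγ : ((γ • τ : ℍ) : ℂ) = (B : ℂ) / D + t := by
    rw [UpperHalfPlane.coe_specialLinearGroup_apply]
    simp only [algebraMap_int_eq, eq_intCast, Complex.ofReal_intCast, ← hA, ← hB, ← hC', hD,
      Int.cast_natCast, Complex.ofReal_natCast, ht']
    push_cast
    rw [← hz', div_add_div _ _ hDC (mul_ne_zero hDC hz),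
      div_eq_div_iff hz (mul_ne_zero hDC (mul_ne_zero hDC hz)), hz']
    linear_combination ((D : ℂ) * ((C : ℂ) * τ + D) * τ) * hdetC
  have ht : 0 < t.im := by
    have h := (γ • τ).im_pos
    rw [UpperHalfPlane.im, hγ] at h
    simpa [Complex.div_natCast_im] using h
  have ht2 : 0 < (t * (D : ℂ) ^ 2).im := by
    rw [show (t * (D : ℂ) ^ 2).im = t.im * (D : ℝ) ^ 2 by
      rw [show ((D : ℂ) ^ 2) = (((D : ℝ) ^ 2 : ℝ) : ℂ) by push_cast; rfl, Complex.mul_im, Complex.ofReal_re, Complex.ofReal_im]; ring]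
    have : (0 : ℝ) < D := Nat.cast_pos.2 (NeZero.pos D)
    positivity
  set c₀ : ℂ := I / (2 * (t * (D : ℂ) ^ 2) * Real.sqrt Q.det) with hc₀
  let χ := (stdAddChar (N := D))
  let g : ℤ × ℤ → ℂ := fun w => ePi (-Q.adj.eval (w.1 : ℂ) w.2 / (4 * Q.det * τ))
  -- the classes modulo `D`
  have hclass : ∀ v : ZMod D × ZMod D, ∑' n : ℤ × ℤ,
      ePi (((B : ℂ) / D + t) * Q.eval ((((v.1.val : ℤ) + D * n.1 : ℤ)) : ℂ)
        (((v.2.val : ℤ) + D * n.2 : ℤ) : ℂ)) =
      c₀ * ∑' w : ℤ × ℤ, χ ((B : ZMod D) * Q.eval v.1 v.2 + ((w.1 : ZMod D) * v.1 +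
        (w.2 : ZMod D) * v.2)) * (χ ((-K : ℤ) * Q.adj.eval (w.1 : ZMod D) w.2) * g w) := by
    intro v
    have hcong : ∀ n : ℤ × ℤ,
        ePi (((B : ℂ) / D + t) * Q.eval ((((v.1.val : ℤ) + D * n.1 : ℤ)) : ℂ)
          (((v.2.val : ℤ) + D * n.2 : ℤ) : ℂ)) = χ ((B : ZMod D) * Q.eval v.1 v.2) *
          ePi (t * (D : ℂ) ^ 2 * Q.eval ((n.1 : ℂ) + ((v.1.val : ℝ) / D : ℝ))
            ((n.2 : ℂ) + ((v.2.val : ℝ) / D : ℝ))) := by
      intro n
      rw [add_mul, ePi_add]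
      congr 1
      · rw [show (B : ZMod D) * Q.eval v.1 v.2 =
            ((B * Q.eval ((v.1.val : ℤ) + D * n.1) ((v.2.val : ℤ) + D * n.2) : ℤ) : ZMod D) by
          simp [BinForm.eval], stdAddChar_intCast]
        congr 1
        simp only [BinForm.eval]
        push_cast
        ring
      · congr 1
        simp only [BinForm.eval]
        push_cast
        field_simp
        ring
    rw [tsum_congr hcong, tsum_mul_left, Q.poisson ht2, mul_left_comm, ← hc₀, ← tsum_mul_left]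
    congr 1
    refine tsum_congr fun w => ?_
    have e1 : ePi (w.1 * ((v.1.val : ℝ) / D : ℝ) + w.2 * ((v.2.val : ℝ) / D : ℝ)) =
        χ ((w.1 : ZMod D) * v.1 + (w.2 : ZMod D) * v.2) := by
      rw [show (w.1 : ZMod D) * v.1 + (w.2 : ZMod D) * v.2 =
        ((w.1 * (v.1.val : ℤ) + w.2 * (v.2.val : ℤ) : ℤ) : ZMod D) by simp, stdAddChar_intCast]
      congr 1
      push_cast
      ring
    have e2 : ePi (-Q.adj.eval (w.1 : ℂ) w.2 / (4 * Q.det * (t * (D : ℂ) ^ 2))) =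
        χ ((-K : ℤ) * Q.adj.eval (w.1 : ZMod D) w.2) * g w := by
      rw [show (((-K : ℤ)) : ZMod D) * Q.adj.eval (w.1 : ZMod D) w.2 =
        ((-K * Q.adj.eval w.1 w.2 : ℤ) : ZMod D) by simp [BinForm.eval], stdAddChar_intCast,
        ← ePi_add]
      congr 1
      simp only [ht', hz', BinForm.eval]
      rw [hK]
      push_cast
      field_simp
      ring
    rw [e1, e2, ← mul_assoc, ← mul_assoc, ← AddChar.map_add_eq_mul, mul_assoc]
  have hg : Summable fun w : ℤ × ℤ => ‖g w‖ := by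
    have hs := summable_binTheta Q.adj (t := -1 / (4 * Q.det * (τ : ℂ))) ?_
    · exact hs.norm.congr fun w => by simp only [g]; congr 2; ring
    · rw [neg_div, neg_im, one_div, inv_im, neg_div, neg_neg]
      refine div_pos ?_ (normSq_pos.2 (by simp [hNC, hτ0]))
      simpa using mul_pos (mul_pos (by norm_num : (0 : ℝ) < 4) hN) τ.im_pos
  have hsum : ∀ v : ZMod D × ZMod D, Summable fun w : ℤ × ℤ =>
      χ ((B : ZMod D) * Q.eval v.1 v.2 + ((w.1 : ZMod D) * v.1 + (w.2 : ZMod D) * v.2)) *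
        (χ ((-K : ℤ) * Q.adj.eval (w.1 : ZMod D) w.2) * g w) := fun v =>
    Summable.of_norm (hg.congr fun w => by
      simp [χ, stdAddChar_apply, Circle.norm_coe])
  have hτP : binTheta Q τ = I / (2 * (τ : ℂ) * Real.sqrt Q.det) * ∑' w : ℤ × ℤ, g w := by
    have h := Q.poisson (t := (τ : ℂ)) τ.im_pos 0 0
    simpa [g, binTheta, ePi] using h
  calc binTheta Q (γ • τ)
      = ∑' m : ℤ × ℤ, ePi (((B : ℂ) / D + t) * Q.eval (m.1 : ℂ) m.2) := by rw [binTheta, hγ]
    _ = ∑ v : ZMod D × ZMod D, c₀ * ∑' w : ℤ × ℤ, χ ((B : ZMod D) * Q.eval v.1 v.2 +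
          ((w.1 : ZMod D) * v.1 + (w.2 : ZMod D) * v.2)) *
          (χ ((-K : ℤ) * Q.adj.eval (w.1 : ZMod D) w.2) * g w) := by
      rw [tsum_residues (summable_binTheta Q (by simpa [Complex.div_natCast_im] using ht)) D]
      exact Finset.sum_congr rfl fun v _ => hclass v
    _ = c₀ * ∑' w : ℤ × ℤ, Q.gauss B D * g w := by
      rw [← Finset.mul_sum, ← Summable.tsum_finsetSum fun v _ => hsum v]
      congr 1
      refine tsum_congr fun w => ?_
      rw [← Finset.sum_mul, gauss_linear Q hkey, Int.cast_neg, neg_mul, ← mul_assoc,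
        mul_right_comm _ (Q.gauss B D), ← AddChar.map_add_eq_mul, add_neg_cancel,
        AddChar.map_zero_eq_one, one_mul]
    _ = _ := by
      rw [tsum_mul_left, hτP, hD, Int.cast_natCast]
      simp only [hc₀, ht', hz']
      field_simp

theorem four_det_dvd_of_mem {γ : SL(2, ℤ)} (hγ : γ ∈ Gamma0 (4 * Q.det).natAbs) :
    4 * Q.det ∣ γ.1 1 0 := by
  have := (ZMod.intCast_zmod_eq_zero_iff_dvd _ _).1 (Gamma0_mem.1 hγ)
  rwa [Int.natCast_natAbs, abs_dvd] at this

theorem jacobiSym_neg_det_mod {b b' : ℕ} (hb : Odd b) (hb' : Odd b')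
    (h : ((b : ℤ) : ZMod (4 * Q.det).natAbs) = (b' : ℤ)) :
    jacobiSym (-Q.det) b = jacobiSym (-Q.det) b' := by
  rw [jacobiSym.mod_right _ hb, jacobiSym.mod_right _ hb']
  congr 1
  have e : (4 * Q.det).natAbs = 4 * (-Q.det).natAbs := by simp [Int.natAbs_mul]
  rw [← e]
  exact (ZMod.natCast_eq_natCast_iff' _ _ _).1 (by simpa using h)

/-- The Gauss sum of a member of `Γ₀(4 N)` is `D` times the Jacobi symbol of `-N`. -/
theorem gauss_eq_jacobiSym {γ : SL(2, ℤ)} {D : ℕ} [NeZero D] (hD : γ.1 1 1 = D)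
    (hC : 4 * Q.det ∣ γ.1 1 0) :
    Q.gauss (γ.1 0 1) D / D = (jacobiSym (-Q.det) D : ℂ) := by
  set A := γ.1 0 0 with hA
  set B := γ.1 0 1 with hB
  set C := γ.1 1 0 with hC'
  have hdet : A * D - B * C = 1 := by
    have := γ.2; rw [Matrix.det_fin_two, hD] at this; exact this
  by_cases hC0 : C = 0
  · have hD1 : D = 1 := by
      have : A * D = 1 := by simpa [hC0] using hdet
      have := Int.natAbs_mul A D ▸ congrArg Int.natAbs this
      simpa using Nat.eq_one_of_mul_eq_one_left this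
    subst hD1
    simp [gauss_one]
  have hcop : IsCoprime (D : ℤ) (C.natAbs : ℤ) := by
    have h1 : IsCoprime (D : ℤ) C := ⟨A, -B, by linear_combination hdet⟩
    rcases Int.natAbs_eq C with h | h
    · rwa [← h]
    · rw [show (C.natAbs : ℤ) = -C by omega]; exact h1.neg_right
  obtain ⟨p, hp2, hp, hpD⟩ := Nat.forall_exists_prime_gt_and_zmodEq 2
    (Int.natAbs_ne_zero.2 hC0) hcop
  have : Fact p.Prime := ⟨hp⟩
  obtain ⟨n, hn⟩ : C ∣ (p : ℤ) - D := by
    rw [← Int.natAbs_dvd]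
    exact Int.modEq_iff_dvd.1 hpD.symm
  set γ' := γ * ModularGroup.T ^ n with hγ'
  have hγ'e : γ'.1 1 1 = p ∧ γ'.1 1 0 = C ∧ γ'.1 0 1 = A * n + B := by
    rw [hγ', Matrix.SpecialLinearGroup.coe_mul, ModularGroup.coe_T_zpow]
    simp [Matrix.mul_apply, Fin.sum_univ_two, ← hA, ← hB, ← hC', hD]
    linear_combination -hn
  have hGp : Q.gauss (γ'.1 0 1) p / p = Q.gauss B D / D := by
    obtain ⟨τ, hτ⟩ := binTheta_ne_zero Q
    have h1 := binTheta_smul_gauss Q hγ'e.1 (hγ'e.2.1 ▸ hC) τ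
    have h2 := binTheta_smul_gauss Q hD hC (ModularGroup.T ^ n • τ)
    have hTn : ((ModularGroup.T ^ n • τ : ℍ) : ℂ) = (τ : ℂ) + n := by
      rw [UpperHalfPlane.modular_T_zpow_smul, UpperHalfPlane.coe_vadd]
      push_cast; ring
    rw [← mul_smul, binTheta_add_int Q n τ _ hTn, ← hγ', h1, hTn, hγ'e.1, hγ'e.2.1, hD,
      Int.cast_natCast, Int.cast_natCast] at h2
    have hp' : ((C : ℂ) * τ + (p : ℂ)) = (C : ℂ) * (τ + n) + D := by
      have := congrArg (fun x : ℤ => (x : ℂ)) hn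
      push_cast at this
      linear_combination this
    rw [← hp'] at h2
    have hz : (C : ℂ) * τ + (p : ℂ) ≠ 0 := fun h => by
      have him := congrArg Complex.im h
      simp [τ.im_pos.ne'] at him
      exact hC0 him
    exact mul_right_cancel₀ hz (mul_right_cancel₀ hτ h2)
  have hdet' : γ'.1 0 0 * p - γ'.1 0 1 * C = 1 := by
    have := γ'.2; rwa [Matrix.det_fin_two, hγ'e.1, hγ'e.2.1] at this
  have hp0 : (γ'.1 0 1 : ZMod p) ≠ 0 ∧ (C : ZMod p) ≠ 0 := by
    have h := congrArg (fun x : ℤ => (x : ZMod p)) hdet'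
    simp at h
    constructor <;> intro h0 <;> simp [h0] at h
  have hNp : (Q.det : ZMod p) ≠ 0 := fun h0 => by
    obtain ⟨K, hK⟩ := hC
    exact hp0.2 (by simp [hK, h0])
  rw [← hGp, gauss_prime Q (by omega) _ hp0.1 hNp, mul_div_cancel_left₀ _
    (Nat.cast_ne_zero.2 hp.ne_zero)]
  congr 1
  refine jacobiSym_neg_det_mod Q (hp.odd_of_ne_two (by omega)) ?_ ?_
  · rcases Nat.even_or_odd D with hev | ho
    · obtain ⟨K, hK⟩ := hC
      obtain ⟨d, hd⟩ := hev
      subst hd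
      rw [hK] at hdet
      push_cast at hdet
      exfalso
      have : (2 : ℤ) ∣ 1 := ⟨A * d - B * 2 * Q.det * K, by linear_combination -hdet⟩
      omega
    · exact ho
  · rw [ZMod.intCast_eq_intCast_iff_dvd_sub, Int.natCast_natAbs, abs_dvd]
    have : C ∣ (D : ℤ) - p := ⟨-n, by linear_combination -hn⟩
    exact hC.trans this

/-- The character `sign D · (-N / |D|)`. -/
def thetaChar (d : ℤ) : ℤ := d.sign * jacobiSym (-Q.det) d.natAbs

/-- **The transformation law.** -/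
theorem binTheta_smul {γ : SL(2, ℤ)} (hγ : γ ∈ Gamma0 (4 * Q.det).natAbs) (τ : ℍ) :
    binTheta Q (γ • τ) =
      (thetaChar Q (γ.1 1 1) : ℂ) * ((γ.1 1 0 : ℂ) * τ + γ.1 1 1) * binTheta Q τ := by
  have hC := four_det_dvd_of_mem Q hγ
  rcases lt_trichotomy (γ.1 1 1) 0 with hd | hd | hd
  · obtain ⟨D, hD⟩ : ∃ D : ℕ, (-γ).1 1 1 = D := ⟨(γ.1 1 1).natAbs, by
      simp only [Matrix.SpecialLinearGroup.coe_neg, Matrix.neg_apply]; omega⟩
    have hD' : γ.1 1 1 = -(D : ℤ) := by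
      simp [Matrix.SpecialLinearGroup.coe_neg] at hD; omega
    have : NeZero D := ⟨fun h => by simp [h] at hD'; omega⟩
    have hC' : 4 * Q.det ∣ (-γ).1 1 0 := by
      simpa [Matrix.SpecialLinearGroup.coe_neg] using hC
    rw [← ModularGroup.SL_neg_smul, binTheta_smul_gauss Q hD hC', gauss_eq_jacobiSym Q hD hC',
      thetaChar, hD', Int.sign_neg, Int.sign_natCast_of_ne_zero (NeZero.ne D)]
    simp [Matrix.SpecialLinearGroup.coe_neg, hD']
    ring
  · exfalso
    have h1 := γ.2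
    rw [Matrix.det_fin_two, hd] at h1
    have : 4 * Q.det ∣ 1 := by
      rw [← h1, mul_zero, zero_sub]
      exact (hC.mul_left _).neg_right
    have := Int.le_of_dvd one_pos this
    have : 0 < Q.det := Q.det_pos
    omega
  · obtain ⟨D, hD⟩ : ∃ D : ℕ, γ.1 1 1 = D := ⟨(γ.1 1 1).natAbs, by omega⟩
    have : NeZero D := ⟨fun h => by simp [h] at hD; omega⟩
    rw [binTheta_smul_gauss Q hD hC, gauss_eq_jacobiSym Q hD hC, thetaChar, hD,
      Int.sign_natCast_of_ne_zero (NeZero.ne D)]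
    simp

end FLTA.LT2
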