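import Fermat.Agent.LT2.RaiseAlgebra
import Fermat.Agent.LT2.FunctorFree
import Mathlib.LinearAlgebra.Trace
import Mathlib.Algebra.Order.Ring.Abs
import Mathlib.LinearAlgebra.FreeModule.PID

/-!
# Trace identities for commuting involutions

* An involution of a lattice whose reduction has every fixed vector a norm has trace zero; one
  whose fixed lattice consists of norms has trace at most zero, with equality only in that case.
* The trace on the joint kernel of the pushes at `Q` is the alternating sum over the subsets.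
* For commuting involutions with traces concentrated at the empty and the full subset, the sign
  vectors which occur depend only on their product.
-/

set_option autoImplicit false

noncomputable section

namespace FLTA.LT2

section Lattice

variable {O k : Type*} [CommRing O] [IsDomain O] [IsPrincipalIdealRing O] [Field k] [Algebra O k]
  {V M : Type*} [AddCommGroup V] [Module O V] [Module.Free O V] [Module.Finite O V]
  [AddCommGroup M] [Module O M] [Module k M] [IsScalarTower O k M]

/-- The vectors fixed by an endomorphism. -/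
def fixedSub (w : Module.End O V) : Submodule O V := LinearMap.ker (w - 1)

omit [IsDomain O] [IsPrincipalIdealRing O] [Module.Free O V] [Module.Finite O V] in
theorem mem_fixedSub {w : Module.End O V} {v : V} : v ∈ fixedSub w ↔ w v = v := by
  rw [fixedSub, LinearMap.mem_ker, LinearMap.sub_apply, Module.End.one_apply, sub_eq_zero]

/-- The trace of an involution in terms of the rank of the fixed lattice. -/
theorem trace_add_finrank_eq (w : Module.End O V) (hw : ∀ v, w (w v) = v) :
    LinearMap.trace O V w + (Module.finrank O V : O) =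
      2 * (Module.finrank O (fixedSub w) : O) := by
  set g : V →ₗ[O] fixedSub w := LinearMap.codRestrict (fixedSub w) (w + 1) fun v => by
    rw [mem_fixedSub, LinearMap.add_apply, Module.End.one_apply, map_add, hw, add_comm]
  have h := LinearMap.trace_comp_comm' (fixedSub w).subtype g
  rw [show (fixedSub w).subtype ∘ₗ g = w + 1 from LinearMap.ext fun v => rfl,
    show g ∘ₗ (fixedSub w).subtype = (2 : O) • (1 : Module.End O (fixedSub w)) from
      LinearMap.ext fun x => Subtype.ext (by
        show w (x : V) + (x : V) = (2 : O) • (x : V)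
        rw [mem_fixedSub.mp x.2, two_smul]),
    map_add, map_smul, LinearMap.trace_one, LinearMap.trace_one, smul_eq_mul] at h
  exact h.symm

variable (hk : Function.Surjective (algebraMap O k))
  (h2 : ∀ a : O, algebraMap O k a = 0 ↔ ∃ b, a = 2 * b)
  (φ : V →ₗ[O] M) (hφ : Function.Surjective φ) (hker : ∀ v, φ v = 0 ↔ ∃ u, v = (2 : O) • u)

include hk h2 hker in
omit [Module.Finite O V] in
/-- Vectors whose reductions span a space of smaller dimension: the reduction of a saturated
lattice has dimension its rank. -/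
theorem finrank_span_image {W : Submodule O V} [Module.Finite O W]
    (hW : ∀ v, (2 : O) • v ∈ W → v ∈ W) :
    Module.finrank k (Submodule.span k (φ '' (W : Set V))) = Module.finrank O W := by
  set b := Module.Free.chooseBasis O W
  have hli : LinearIndependent k fun i => φ (b i : V) := by
    refine Fintype.linearIndependent_iff.mpr fun c hc i => ?_
    choose d hd using fun i => hk (c i)
    have h0 : φ (∑ i, d i • (b i : V)) = 0 := by
      rw [map_sum, ← hc]
      refine Finset.sum_congr rfl fun i _ => ?_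
      rw [map_smul, ← hd, algebraMap_smul]
    obtain ⟨u, hu⟩ := (hker _).mp h0
    have huW : u ∈ W := hW u (hu ▸ Submodule.sum_mem _ fun i _ => W.smul_mem _ (b i).2)
    have hrepr : (∑ i, d i • b i) = (2 : O) • (⟨u, huW⟩ : W) :=
      Subtype.ext (by simpa using hu)
    have := congrArg (fun x => b.repr x i) hrepr
    simp only [b.repr_sum_self, map_smul, Finsupp.smul_apply, smul_eq_mul] at this
    rw [← hd i, h2]
    exact ⟨_, this⟩
  have hspan : Submodule.span k (φ '' (W : Set V)) = Submodule.span k (Set.range fun i => φ (b i : V)) := by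
    refine le_antisymm (Submodule.span_le.mpr ?_) (Submodule.span_mono ?_)
    · rintro _ ⟨v, hv, rfl⟩
      rw [show v = ((∑ i, b.repr ⟨v, hv⟩ i • b i : W) : V) by rw [b.sum_repr], Submodule.coe_sum,
        map_sum]
      refine Submodule.sum_mem _ fun i _ => ?_
      rw [Submodule.coe_smul, map_smul, ← algebraMap_smul k]
      exact Submodule.smul_mem _ _ (Submodule.subset_span ⟨i, rfl⟩)
    · rintro _ ⟨i, rfl⟩
      exact ⟨_, (b i).2, rfl⟩
  rw [hspan, finrank_span_eq_card hli, ← Module.finrank_eq_card_chooseBasisIndex]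

variable [NoZeroSMulDivisors O V]

include hk h2 hφ hker in
/-- An involution whose fixed lattice consists of norms: the fixed rank is at most half the rank,
and in case of equality every fixed vector of the reduction is a norm. -/
theorem two_mul_finrank_fixed_le (h20 : (2 : O) ≠ 0) (w : Module.End O V) (hw : ∀ v, w (w v) = v)
    (wM : Module.End k M) (hwM : ∀ v, φ (w v) = wM (φ v))
    (hplus : ∀ v, w v = v → ∃ u, v = u + w u) :
    2 * Module.finrank O (fixedSub w) ≤ Module.finrank O V ∧
      (2 * Module.finrank O (fixedSub w) = Module.finrank O V →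
        ∀ x : M, wM x = x → ∃ y, y + wM y = x) := by
  have : Module.Finite O M := Module.Finite.of_surjective φ hφ
  have : Module.Finite k M := Module.Finite.of_restrictScalars_finite O k M
  set Vp := fixedSub w
  set Vm := LinearMap.ker (w + 1) with hVm
  have hsat : ∀ (f : Module.End O V) v, (2 : O) • v ∈ LinearMap.ker f → v ∈ LinearMap.ker f :=
    fun f v hv => by
      rw [LinearMap.mem_ker, map_smul] at hv
      exact (smul_eq_zero.mp hv).resolve_left h20
  -- ranks
  set g : V →ₗ[O] Vp := LinearMap.codRestrict Vp (w + 1) fun v => by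
    rw [mem_fixedSub, LinearMap.add_apply, Module.End.one_apply, map_add, hw, add_comm]
  have hgs : Function.Surjective g := fun x => by
    obtain ⟨u, hu⟩ := hplus x.1 (mem_fixedSub.mp x.2)
    exact ⟨u, Subtype.ext (by
      show w u + u = x
      rw [hu, add_comm])⟩
  obtain ⟨sec, hsec⟩ := Module.projective_lifting_property g LinearMap.id hgs
  have hsplit : Module.finrank O V = Module.finrank O Vp + Module.finrank O Vm := by
    have hkerg : LinearMap.ker g = Vm := LinearMap.ker_codRestrict _ _ _
    set p : V →ₗ[O] Vm := LinearMap.codRestrict Vm (LinearMap.id - sec ∘ₗ g) fun v => by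
      rw [← hkerg, LinearMap.mem_ker, LinearMap.sub_apply, LinearMap.id_apply, LinearMap.comp_apply,
        map_sub, ← LinearMap.comp_apply g sec, hsec, LinearMap.id_apply, sub_self]
    have e : V ≃ₗ[O] Vp × Vm := LinearEquiv.ofLinearMap (g.prod p)
      (sec.coprod Vm.subtype) (by
        refine LinearMap.ext fun z => Prod.ext ?_ ?_
        · show g (sec z.1 + z.2) = z.1
          rw [map_add, show g (z.2 : V) = 0 from LinearMap.mem_ker.mp (hkerg.symm ▸ z.2.2), add_zero]
          exact LinearMap.congr_fun hsec z.1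
        · refine Subtype.ext ?_
          show (sec z.1 + z.2 : V) - sec (g (sec z.1 + z.2)) = z.2
          rw [map_add g, show g (z.2 : V) = 0 from LinearMap.mem_ker.mp (hkerg.symm ▸ z.2.2),
            add_zero, show g (sec z.1) = z.1 from LinearMap.congr_fun hsec z.1]
          abel) (LinearMap.ext fun v => by
        show sec (g v) + (v - sec (g v)) = v
        abel)
    rw [e.finrank_eq, Module.finrank_prod]
  set N : Module.End k M := 1 + wM
  have himg : LinearMap.range N = Submodule.span k (φ '' (Vp : Set V)) := by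
    refine le_antisymm ?_ (Submodule.span_le.mpr ?_)
    · rintro _ ⟨x, rfl⟩
      obtain ⟨v, rfl⟩ := hφ x
      refine Submodule.subset_span ⟨g v, (g v).2, ?_⟩
      show φ (w v + v) = φ v + wM (φ v)
      rw [map_add, hwM, add_comm]
    · rintro _ ⟨v, hv, rfl⟩
      obtain ⟨u, hu⟩ := hplus v (mem_fixedSub.mp hv)
      exact ⟨φ u, by rw [hu, map_add, hwM]; rfl⟩
  have hle : LinearMap.range N ≤ Submodule.span k (φ '' (Vm : Set V)) := by
    rintro _ ⟨x, rfl⟩
    obtain ⟨v, rfl⟩ := hφ x
    refine Submodule.subset_span ⟨v - w v, ?_, ?_⟩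
    · show (w + 1) (v - w v) = 0
      rw [LinearMap.add_apply, Module.End.one_apply, map_sub, hw]; abel
    · have h2M : ∀ y : M, y + y = 0 := fun y => by
        rw [← two_smul k y, show (2 : k) = 0 from by
          rw [← map_ofNat (algebraMap O k) 2]; exact (h2 2).mpr ⟨1, (mul_one _).symm⟩, zero_smul]
      show φ (v - w v) = φ v + wM (φ v)
      rw [map_sub, hwM]
      calc φ v - wM (φ v) = φ v - wM (φ v) + (wM (φ v) + wM (φ v)) := by rw [h2M, add_zero]
        _ = φ v + wM (φ v) := by abel
  have hrp : Module.finrank k (LinearMap.range N) = Module.finrank O Vp := by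
    rw [himg]; exact finrank_span_image hk h2 φ hker (hsat _)
  have hrm : Module.finrank k (Submodule.span k (φ '' (Vm : Set V))) = Module.finrank O Vm :=
    finrank_span_image hk h2 φ hker (hsat _)
  have hpm : Module.finrank O Vp ≤ Module.finrank O Vm := by
    rw [← hrp, ← hrm]; exact Submodule.finrank_mono hle
  refine ⟨by omega, fun heq x hx => ?_⟩
  have hdimM : Module.finrank k M = Module.finrank O V := by
    have h := finrank_span_image hk h2 φ hker (W := ⊤) (fun v _ => Submodule.mem_top)
    rw [Submodule.top_coe, Set.image_univ, LinearMap.range_eq_top.mpr hφ |> fun _ =>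
      hφ.range_eq, Submodule.span_univ, finrank_top, finrank_top] at h
    exact h
  have hfix : LinearMap.range N = LinearMap.ker N := by
    refine Submodule.eq_of_le_of_finrank_eq ?_ ?_
    · rintro _ ⟨y, rfl⟩
      obtain ⟨v, rfl⟩ := hφ y
      show φ v + wM (φ v) + wM (φ v + wM (φ v)) = 0
      rw [map_add, ← hwM, ← hwM, hw]
      rw [show φ v + φ (w v) + (φ (w v) + φ v) = φ ((2 : O) • (v + w v)) by
        rw [two_smul, map_add, map_add]; abel]
      exact (hker _).mpr ⟨_, rfl⟩
    · have := LinearMap.finrank_range_add_finrank_ker N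
      omega
  have hxk : x ∈ LinearMap.ker N := by
    show x + wM x = 0
    rw [hx, ← two_smul k x, show (2 : k) = 0 from by
      rw [← map_ofNat (algebraMap O k) 2]; exact (h2 2).mpr ⟨1, (mul_one _).symm⟩, zero_smul]
  rw [← hfix] at hxk
  exact hxk

end Lattice

/-- The trace of an endomorphism permuting a basis without fixed points is zero. -/
theorem trace_eq_zero_of_perm {O V ι : Type*} [CommRing O] [AddCommGroup V] [Module O V]
    [Fintype ι] (b : Module.Basis ι O V) (w : Module.End O V) (σ : ι → ι) (hσ : ∀ i, σ i ≠ i)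
    (hw : ∀ i, w (b i) = b (σ i)) : LinearMap.trace O V w = 0 := by
  classical
  rw [LinearMap.trace_eq_matrix_trace O b, Matrix.trace]
  refine Finset.sum_eq_zero fun i _ => ?_
  rw [Matrix.diag_apply, LinearMap.toMatrix_apply, hw, b.repr_self, Finsupp.single_apply,
    if_neg (hσ i)]

/-- An involution of a lattice whose reduction has every fixed vector a norm has trace zero. -/
theorem trace_eq_zero_of_norm {O : Type*} [CommRing O] [IsLocalRing O] {G : Type*} [Group G]
    {V : Type*} [AddCommGroup V] [Module O V] [DistribMulAction G V] [SMulCommClass G O V]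
    [Module.Free O V] [Module.Finite O V] {M : Type*} [AddCommGroup M] [Module O M]
    [Module (IsLocalRing.ResidueField O) M] [IsScalarTower O (IsLocalRing.ResidueField O) M]
    [DistribMulAction G M] [SMulCommClass G (IsLocalRing.ResidueField O) M]
    [CharP (IsLocalRing.ResidueField O) 2] [FiniteDimensional (IsLocalRing.ResidueField O) M]
    (φ : V →ₗ[O] M) (hφ : Function.Surjective φ)
    (hker : LinearMap.ker φ ≤ IsLocalRing.maximalIdeal O • (⊤ : Submodule O V))
    (hrank : Module.finrank O V = Module.finrank (IsLocalRing.ResidueField O) M) {g : G}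
    (hg : g * g = 1) (hequiv : ∀ x, φ (g • x) = g • φ x)
    (hfix : ∀ x : M, g • x = x → ∃ y, y + g • y = x) :
    LinearMap.trace O V (DistribSMul.toLinearMap O V g) = 0 := by
  obtain ⟨n, b, B, hB⟩ := exists_translate_basis_local φ hφ hker hrank (ws := [g])
    (fun u hu x => by rw [List.mem_singleton.mp hu]; exact hequiv x)
    ⟨fun u hu v hv => by rw [List.mem_singleton.mp hu, List.mem_singleton.mp hv],
      fun u hu => by rw [List.mem_singleton.mp hu, hg]⟩
    fun x hx => by
      obtain ⟨y, hy⟩ := hfix x (hx g List.mem_cons_self)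
      exact ⟨y, by rw [lnorm_cons, lnorm_nil]; exact hy⟩
  refine trace_eq_zero_of_perm B _ (fun i => (i.1, Fin.cons (!(i.2 0)) fun j => i.2 j.succ))
    (fun i h => ?_) fun i => ?_
  · have := congrFun (congrArg Prod.snd h) 0
    simp at this
  · rw [hB, hB]
    obtain ⟨j, s⟩ := i
    obtain ⟨e, t, rfl⟩ : ∃ e t, s = Fin.cons e t :=
      ⟨s 0, fun l => s l.succ, (Fin.cons_self_tail s).symm⟩
    simp only [Fin.cons_zero, Fin.cons_succ]
    show g • listSel [g] (Fin.cons e t) • b j = listSel [g] (Fin.cons (!e) t) • b j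
    rw [listSel_cons, listSel_cons, smul_smul]
    cases e <;> simp [hg]

section Kernel

variable {K : Type*} [Field K]

/-- The trace on a kernel with a complement given by a section. -/
theorem trace_ker_add {E F : Type*} [AddCommGroup E] [Module K E] [AddCommGroup F] [Module K F]
    [FiniteDimensional K E] [FiniteDimensional K F] (P : E →ₗ[K] F) (I : F →ₗ[K] E)
    (hPI : Function.Injective (P ∘ₗ I)) (w : Module.End K E) (wF : Module.End K F)
    (hI : w ∘ₗ I = I ∘ₗ wF) (hker : ∀ x ∈ LinearMap.ker P, w x ∈ LinearMap.ker P) :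
    LinearMap.trace K E w = LinearMap.trace K _ (w.restrict hker) + LinearMap.trace K F wF := by
  set C := LinearEquiv.ofInjectiveEndo (P ∘ₗ I) hPI
  have hC : ∀ y, P (I y) = C y := fun y => rfl
  set R : E →ₗ[K] F := (C.symm : F →ₗ[K] F) ∘ₗ P
  set g : E →ₗ[K] LinearMap.ker P := LinearMap.codRestrict _ (LinearMap.id - I ∘ₗ R) fun x => by
    rw [LinearMap.mem_ker, LinearMap.sub_apply, LinearMap.id_apply, map_sub]
    show P x - P (I (C.symm (P x))) = 0
    rw [hC, LinearEquiv.apply_symm_apply, sub_self]
  have hdec : w = (w ∘ₗ (LinearMap.ker P).subtype) ∘ₗ g + (w ∘ₗ I) ∘ₗ R := by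
    refine LinearMap.ext fun x => ?_
    show w x = w (x - I (R x)) + w (I (R x))
    rw [← map_add, sub_add_cancel]
  conv_lhs => rw [hdec, map_add]
  rw [LinearMap.trace_comp_comm', LinearMap.trace_comp_comm' R (w ∘ₗ I), hI]
  congr 1
  · congr 1
    refine LinearMap.ext fun x => Subtype.ext ?_
    show w x - I (C.symm (P (w x))) = w x
    rw [show P (w x) = 0 from hker _ x.2, map_zero, map_zero, sub_zero]
  · congr 1
    refine LinearMap.ext fun y => ?_
    show C.symm (P (I (wF y))) = wF y
    rw [hC, LinearEquiv.symm_apply_apply]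

end Kernel

section Data

variable {K : Type*} [CommRing K]

variable {ι : Type*} [DecidableEq ι] (V : Finset ι → Type*) [∀ A, AddCommGroup (V A)]
  [∀ A, Module K (V A)]

/-- Spaces with two degeneracy maps in each direction and an operator commuting with them. -/
structure TraceData where
  /-- the pullbacks -/
  pull : ∀ {r : ι} {A₀ A : Finset ι}, RaiseStep r A₀ A → (V A₀ × V A₀) →ₗ[K] V A
  /-- the pushforwards -/
  push : ∀ {r : ι} {A₀ A : Finset ι}, RaiseStep r A₀ A → V A →ₗ[K] (V A₀ × V A₀)
  /-- the operator -/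
  op : ∀ A : Finset ι, Module.End K (V A)
  push_pull_injective : ∀ {r : ι} {A₀ A : Finset ι} (h : RaiseStep r A₀ A),
    Function.Injective (push h ∘ₗ pull h)
  push_pull_comm : ∀ {r s : ι} {A₀₀ A₀ A₁ A : Finset ι} (h : RaiseStep r A₀ A)
    (h' : RaiseStep s A₁ A) (g : RaiseStep s A₀₀ A₀) (g' : RaiseStep r A₀₀ A₁) (x : V A₁ × V A₁),
    r ≠ s → push h (pull h' x) =
      (pull g ((push g' x.1).1, (push g' x.2).1), pull g ((push g' x.1).2, (push g' x.2).2))
  push_push : ∀ {r s : ι} {A₀₀ A₀ A₁ A : Finset ι} (h : RaiseStep r A₀ A) (h' : RaiseStep s A₁ A)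
    (g : RaiseStep s A₀₀ A₀) (g' : RaiseStep r A₀₀ A₁) (z : V A),
    push g (push h z).1 = ((push g' (push h' z).1).1, (push g' (push h' z).2).1) ∧
      push g (push h z).2 = ((push g' (push h' z).1).2, (push g' (push h' z).2).2)
  op_pull : ∀ {r : ι} {A₀ A : Finset ι} (h : RaiseStep r A₀ A) (x : V A₀ × V A₀),
    op A (pull h x) = pull h (op A₀ x.1, op A₀ x.2)
  op_push : ∀ {r : ι} {A₀ A : Finset ι} (h : RaiseStep r A₀ A) (z : V A),
    push h (op A z) = (op A₀ (push h z).1, op A₀ (push h z).2)

end Data

section Kernel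

variable {K : Type*} [Field K]

variable {ι : Type*} [DecidableEq ι] (V : Finset ι → Type*) [∀ A, AddCommGroup (V A)]
  [∀ A, Module K (V A)]

namespace TraceData

variable {V} (D : TraceData (K := K) V)

/-- The joint kernel of the pushforwards at `Q`. -/
def newPart (Q A : Finset ι) : Submodule K (V A) where
  carrier := {z | ∀ r ∈ Q, ∀ (A₀ : Finset ι) (h : RaiseStep r A₀ A), D.push h z = 0}
  zero_mem' r _ A₀ h := map_zero (D.push h)
  add_mem' hx hy r hr A₀ h := by rw [map_add, hx r hr A₀ h, hy r hr A₀ h, add_zero]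
  smul_mem' c x hx r hr A₀ h := by rw [map_smul, hx r hr A₀ h, smul_zero]

theorem mem_newPart {Q A : Finset ι} {z : V A} :
    z ∈ D.newPart Q A ↔ ∀ r ∈ Q, ∀ (A₀ : Finset ι) (h : RaiseStep r A₀ A), D.push h z = 0 :=
  Iff.rfl

theorem op_mem_newPart {Q A : Finset ι} {z : V A} (hz : z ∈ D.newPart Q A) :
    D.op A z ∈ D.newPart Q A := by
  rw [mem_newPart] at hz ⊢
  intro r hr A₀ h
  rw [D.op_push, hz r hr A₀ h]
  simp

/-- The operator on the joint kernel. -/
def opNew (Q A : Finset ι) : Module.End K (D.newPart Q A) :=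
  (D.op A).restrict fun _ hz => D.op_mem_newPart hz

variable [∀ A, FiniteDimensional K (V A)]

omit [∀ A, FiniteDimensional K (V A)] in
theorem push_mem_newPart {r : ι} {Q A₀ A : Finset ι} (hr : r ∉ Q) (h : RaiseStep r A₀ A) {z : V A}
    (hz : z ∈ D.newPart Q A) :
    (D.push h z).1 ∈ D.newPart Q A₀ ∧ (D.push h z).2 ∈ D.newPart Q A₀ := by
  simp only [mem_newPart] at hz ⊢
  have key : ∀ s ∈ Q, ∀ (A₀₀ : Finset ι) (g : RaiseStep s A₀₀ A₀),
      D.push g (D.push h z).1 = 0 ∧ D.push g (D.push h z).2 = 0 := by
    intro s hs A₀₀ g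
    have hrs : r ≠ s := fun e => hr (e ▸ hs)
    have h' : RaiseStep s (A.erase s) A :=
      RaiseStep.of_mem (by rw [h.eq_insert]; exact Finset.mem_insert_of_mem g.mem)
    obtain ⟨g₂, g'⟩ := h.square h' hrs
    obtain rfl := g₂.eq_of g
    obtain ⟨h1, h2⟩ := D.push_push h h' g g' z
    rw [h1, h2, hz s hs _ h', Prod.fst_zero, Prod.snd_zero, map_zero, Prod.fst_zero, Prod.snd_zero,
      Prod.mk_zero_zero]
    exact ⟨rfl, rfl⟩
  exact ⟨fun s hs A₀₀ g => (key s hs A₀₀ g).1, fun s hs A₀₀ g => (key s hs A₀₀ g).2⟩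

omit [∀ A, FiniteDimensional K (V A)] in
theorem pull_mem_newPart {r : ι} {Q A₀ A : Finset ι} (hr : r ∉ Q) (h : RaiseStep r A₀ A)
    {x : V A₀ × V A₀} (h1 : x.1 ∈ D.newPart Q A₀) (h2 : x.2 ∈ D.newPart Q A₀) :
    D.pull h x ∈ D.newPart Q A := by
  simp only [mem_newPart] at h1 h2 ⊢
  intro s hs A₁ h'
  have hsr : s ≠ r := fun e => hr (e ▸ hs)
  obtain ⟨g, g'⟩ := h'.square h hsr
  rw [D.push_pull_comm h' h g g' x hsr, h1 s hs _ g', h2 s hs _ g', Prod.fst_zero, Prod.snd_zero,
    Prod.mk_zero_zero, map_zero, Prod.mk_zero_zero]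

omit [∀ A, FiniteDimensional K (V A)] in
theorem mem_newPart_insert {r : ι} {Q A₀ A : Finset ι} (h : RaiseStep r A₀ A) (z : V A) :
    z ∈ D.newPart (insert r Q) A ↔ z ∈ D.newPart Q A ∧ D.push h z = 0 := by
  simp only [mem_newPart]
  constructor
  · intro hz
    exact ⟨fun s hs => hz s (Finset.mem_insert_of_mem hs),
      hz r (Finset.mem_insert_self _ _) _ h⟩
  · rintro ⟨hz, hz'⟩ s hs A₁ h'
    rcases Finset.mem_insert.mp hs with rfl | hs
    · obtain rfl := h'.eq_of h; exact hz'
    · exact hz s hs A₁ h'

/-- The pushforwards on the joint kernel. -/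
def pushNew {r : ι} {Q A₀ A : Finset ι} (hr : r ∉ Q) (h : RaiseStep r A₀ A) :
    D.newPart Q A →ₗ[K] D.newPart Q A₀ × D.newPart Q A₀ where
  toFun z := (⟨(D.push h z).1, (D.push_mem_newPart hr h z.2).1⟩,
    ⟨(D.push h z).2, (D.push_mem_newPart hr h z.2).2⟩)
  map_add' z z' := Prod.ext (Subtype.ext (by simp)) (Subtype.ext (by simp))
  map_smul' c z := Prod.ext (Subtype.ext (by simp)) (Subtype.ext (by simp))

/-- The pullbacks on the joint kernel. -/
def pullNew {r : ι} {Q A₀ A : Finset ι} (hr : r ∉ Q) (h : RaiseStep r A₀ A) :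
    (D.newPart Q A₀ × D.newPart Q A₀) →ₗ[K] D.newPart Q A where
  toFun x := ⟨D.pull h (x.1, x.2), D.pull_mem_newPart hr h x.1.2 x.2.2⟩
  map_add' x y := Subtype.ext (by simp [← map_add])
  map_smul' c x := Subtype.ext (by simp [← map_smul])

omit [∀ A, FiniteDimensional K (V A)] in
theorem push_eq_zero_iff {r : ι} {Q A₀ A : Finset ι} (hr : r ∉ Q) (h : RaiseStep r A₀ A)
    (z : D.newPart Q A) : D.pushNew hr h z = 0 ↔ D.push h (z : V A) = 0 :=
  ⟨fun e => Prod.ext (congrArg (fun w => (w.1 : V A₀)) e) (congrArg (fun w => (w.2 : V A₀)) e),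
    fun e => Prod.ext (Subtype.ext (congrArg Prod.fst e)) (Subtype.ext (congrArg Prod.snd e))⟩

omit [∀ A, FiniteDimensional K (V A)] in
theorem opNew_mem_ker {r : ι} {Q A₀ A : Finset ι} (hr : r ∉ Q) (h : RaiseStep r A₀ A)
    (x : D.newPart Q A) (hx : x ∈ LinearMap.ker (D.pushNew hr h)) :
    D.opNew Q A x ∈ LinearMap.ker (D.pushNew hr h) := by
  rw [LinearMap.mem_ker, push_eq_zero_iff] at hx ⊢
  show D.push h (D.op A (x : V A)) = 0
  rw [D.op_push, hx, Prod.fst_zero, Prod.snd_zero, map_zero, Prod.mk_zero_zero]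

/-- The kernel of the pushforwards on the joint kernel at `Q` is the one at `insert r Q`. -/
def kerEquiv {r : ι} {Q A₀ A : Finset ι} (hr : r ∉ Q) (h : RaiseStep r A₀ A) :
    LinearMap.ker (D.pushNew hr h) ≃ₗ[K] D.newPart (insert r Q) A where
  toFun x := ⟨x.1.1, (D.mem_newPart_insert h x.1.1).mpr
    ⟨x.1.2, (D.push_eq_zero_iff hr h x.1).mp x.2⟩⟩
  invFun x := ⟨⟨x.1, ((D.mem_newPart_insert h _).mp x.2).1⟩,
    LinearMap.mem_ker.mpr ((D.push_eq_zero_iff hr h _).mpr ((D.mem_newPart_insert h _).mp x.2).2)⟩
  map_add' x y := Subtype.ext (by simp only [Submodule.coe_add])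
  map_smul' c x := Subtype.ext (by simp only [Submodule.coe_smul, RingHom.id_apply])
  left_inv x := Subtype.ext (Subtype.ext rfl)
  right_inv x := Subtype.ext rfl

theorem trace_opNew_insert {r : ι} {Q A₀ A : Finset ι} (hr : r ∉ Q) (h : RaiseStep r A₀ A) :
    LinearMap.trace K _ (D.opNew Q A) =
      LinearMap.trace K _ (D.opNew (insert r Q) A) + 2 * LinearMap.trace K _ (D.opNew Q A₀) := by
  have hinj : Function.Injective (D.pushNew hr h ∘ₗ D.pullNew hr h) := fun x y hxy => by
    have he : ((x.1 : V A₀), (x.2 : V A₀)) = ((y.1 : V A₀), (y.2 : V A₀)) :=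
      D.push_pull_injective h (Prod.ext (congrArg (fun w => (w.1 : V A₀)) hxy)
        (congrArg (fun w => (w.2 : V A₀)) hxy))
    exact Prod.ext (Subtype.ext (congrArg Prod.fst he)) (Subtype.ext (congrArg Prod.snd he))
  have hI : D.opNew Q A ∘ₗ D.pullNew hr h =
      D.pullNew hr h ∘ₗ (D.opNew Q A₀).prodMap (D.opNew Q A₀) :=
    LinearMap.ext fun x => Subtype.ext (D.op_pull h ((x.1 : V A₀), (x.2 : V A₀)))
  rw [trace_ker_add (D.pushNew hr h) (D.pullNew hr h) hinj (D.opNew Q A)
      ((D.opNew Q A₀).prodMap (D.opNew Q A₀)) hI (D.opNew_mem_ker hr h),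
    LinearMap.trace_prodMap', ← two_mul,
    ← LinearMap.trace_conj' ((D.opNew Q A).restrict (D.opNew_mem_ker hr h)) (D.kerEquiv hr h)]
  rfl

/-- The trace on the joint kernel as an alternating sum. -/
theorem trace_opNew_eq (Q : Finset ι) : ∀ A : Finset ι, Q ⊆ A →
    LinearMap.trace K _ (D.opNew Q A) =
      ∑ S ∈ Q.powerset, (-2 : K) ^ S.card * LinearMap.trace K _ (D.op (A \ S)) := by
  induction Q using Finset.induction_on with
  | empty =>
    intro A _
    rw [Finset.powerset_empty, Finset.sum_singleton, Finset.card_empty, pow_zero, one_mul,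
      Finset.sdiff_empty]
    have htop : D.newPart ∅ A = ⊤ := top_le_iff.mp fun z _ r hr => absurd hr (Finset.notMem_empty r)
    rw [← LinearMap.trace_conj' (D.opNew ∅ A)
      ((LinearEquiv.ofEq _ _ htop).trans Submodule.topEquiv)]
    rfl
  | insert r Q hr ih =>
    intro A hA
    have hrA : r ∈ A := hA (Finset.mem_insert_self _ _)
    have hQA : Q ⊆ A := (Finset.subset_insert _ _).trans hA
    have h := D.trace_opNew_insert hr (RaiseStep.of_mem hrA)
    rw [ih A hQA,
      ih (A.erase r) fun x hx => Finset.mem_erase.mpr ⟨fun e => hr (e ▸ hx), hQA hx⟩] at h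
    have hdisj : Disjoint Q.powerset (Q.powerset.image (insert r)) := by
      rw [Finset.disjoint_left]
      intro S hS hS'
      obtain ⟨T, -, rfl⟩ := Finset.mem_image.mp hS'
      exact hr (Finset.mem_powerset.mp hS (Finset.mem_insert_self _ _))
    have hinj : Set.InjOn (insert r) (Q.powerset : Set (Finset ι)) := fun S hS T hT e => by
      rw [← Finset.erase_insert (fun h => hr (Finset.mem_powerset.mp hS h)),
        ← Finset.erase_insert (fun h => hr (Finset.mem_powerset.mp hT h))]
      exact congrArg (fun U : Finset ι => U.erase r) e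
    rw [Finset.powerset_insert, Finset.sum_union hdisj, Finset.sum_image hinj]
    rw [eq_sub_of_add_eq h.symm, sub_eq_add_neg, Finset.mul_sum, ← Finset.sum_neg_distrib]
    congr 1
    refine Finset.sum_congr rfl fun S hS => ?_
    rw [Finset.card_insert_of_notMem fun h => hr (Finset.mem_powerset.mp hS h), pow_succ,
      show A \ insert r S = A.erase r \ S by ext x; simp; tauto]
    ring

end TraceData

end Kernel

section Signs

variable {K : Type*} [Field K] [CharZero K] {E : Type*} [AddCommGroup E] [Module K E]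
  [FiniteDimensional K E] {ι : Type*} [DecidableEq ι]

/-- The operators of the subsets of a finite set of commuting involutions. -/
structure SignFamily (P : Finset ι) (U : Finset ι → Module.End K E) : Prop where
  empty : U ∅ = 1
  insert_eq : ∀ l D, l ∈ P → D ⊆ P → l ∉ D → U (insert l D) = U {l} * U D
  sq : ∀ l ∈ P, U {l} * U {l} = 1

variable (P : Finset ι) (U : Finset ι → Module.End K E) (s : ι → K)

/-- The projector to the sign vector `s`. -/
def signProj : Module.End K E :=
  ((2 : K) ^ P.card)⁻¹ • ∑ D ∈ P.powerset, (∏ l ∈ D, s l) • U D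

variable {P U s}

omit [CharZero K] [FiniteDimensional K E] in
theorem SignFamily.mul_signProj (hU : SignFamily P U) (hs : ∀ l ∈ P, s l * s l = 1) {l : ι}
    (hl : l ∈ P) : U {l} * signProj P U s = s l • signProj P U s := by
  rw [signProj, mul_smul_comm, Finset.mul_sum, smul_comm (s l) (((2 : K) ^ P.card)⁻¹),
    Finset.smul_sum (r := s l)]
  refine congrArg (((2 : K) ^ P.card)⁻¹ • ·) ?_
  refine Finset.sum_nbij' (fun D : Finset ι => if l ∈ D then D.erase l else insert l D)
    (fun D : Finset ι => if l ∈ D then D.erase l else insert l D) ?_ ?_ ?_ ?_ ?_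
  iterate 2
    · intro D hD
      simp only [Finset.mem_powerset] at hD ⊢
      split_ifs with h
      · exact (Finset.erase_subset _ _).trans hD
      · exact Finset.insert_subset hl hD
  · intro D _
    by_cases h : l ∈ D <;> simp [h, Finset.insert_erase]
  · intro D _
    by_cases h : l ∈ D <;> simp [h, Finset.insert_erase]
  · intro D hD
    simp only [Finset.mem_powerset] at hD
    rw [mul_smul_comm, smul_smul]
    by_cases h : l ∈ D
    · rw [if_pos h, ← Finset.mul_prod_erase D s h]
      congr 1
      conv_lhs => rw [← Finset.insert_erase h]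
      rw [hU.insert_eq l _ hl ((Finset.erase_subset _ _).trans hD) (Finset.notMem_erase _ _),
        ← mul_assoc, hU.sq l hl, one_mul]
    · rw [if_neg h, Finset.prod_insert h, ← mul_assoc, hs l hl, one_mul,
        hU.insert_eq l D hl hD h]

theorem SignFamily.pow_mul_signProj (hU : SignFamily P U) (hs : ∀ l ∈ P, s l * s l = 1) :
    ∀ D ⊆ P, U D * signProj P U s = (∏ l ∈ D, s l) • signProj P U s := by
  intro D
  induction D using Finset.induction_on with
  | empty => intro _; rw [hU.empty, one_mul, Finset.prod_empty, one_smul]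
  | insert l D hlD ih =>
    intro hD
    have hl : l ∈ P := hD (Finset.mem_insert_self _ _)
    have hD' : D ⊆ P := (Finset.subset_insert _ _).trans hD
    rw [hU.insert_eq l D hl hD' hlD, mul_assoc, ih hD', mul_smul_comm, hU.mul_signProj hs hl,
      smul_smul, Finset.prod_insert hlD, mul_comm]

theorem SignFamily.isIdempotent_signProj (hU : SignFamily P U)
    (hs : ∀ l ∈ P, s l * s l = 1) : IsIdempotentElem (signProj P U s) := by
  show signProj P U s * signProj P U s = signProj P U s
  conv_lhs => arg 1; rw [signProj]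
  rw [smul_mul_assoc, Finset.sum_mul]
  have : ∀ D ∈ P.powerset, ((∏ l ∈ D, s l) • U D) * signProj P U s = signProj P U s := fun D hD => by
    rw [smul_mul_assoc, hU.pow_mul_signProj hs D (Finset.mem_powerset.mp hD), smul_smul,
      ← Finset.prod_mul_distrib, Finset.prod_eq_one fun l hl => hs l (Finset.mem_powerset.mp hD hl),
      one_smul]
  rw [Finset.sum_congr rfl this, Finset.sum_const, Finset.card_powerset, ← Nat.cast_smul_eq_nsmul K,
    smul_smul, Nat.cast_pow, Nat.cast_ofNat, inv_mul_cancel₀ (pow_ne_zero _ two_ne_zero), one_smul]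

/-- A sign vector occurs exactly when the signed sum of traces is not zero. -/
theorem SignFamily.exists_sign_vector_iff (hU : SignFamily P U) (hs : ∀ l ∈ P, s l * s l = 1)
    (hzero : ∀ D ⊆ P, D.Nonempty → D ≠ P → LinearMap.trace K E (U D) = 0) (hP : P.Nonempty) :
    (∃ v : E, v ≠ 0 ∧ ∀ l ∈ P, U {l} v = s l • v) ↔
      (Module.finrank K E : K) + (∏ l ∈ P, s l) * LinearMap.trace K E (U P) ≠ 0 := by
  set e := signProj P U s
  have htr : (2 : K) ^ P.card * LinearMap.trace K E e =
      (Module.finrank K E : K) + (∏ l ∈ P, s l) * LinearMap.trace K E (U P) := by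
    simp only [e, signProj, map_smul, map_sum, smul_eq_mul]
    rw [← mul_assoc, mul_inv_cancel₀ (pow_ne_zero _ two_ne_zero), one_mul,
      Finset.sum_eq_add_of_mem ∅ P (Finset.empty_mem_powerset P)
        (Finset.mem_powerset.mpr subset_rfl) hP.ne_empty.symm
        (fun D hD hne => by
          rw [hzero D (Finset.mem_powerset.mp hD) (Finset.nonempty_iff_ne_empty.mpr hne.1) hne.2,
            mul_zero]),
      Finset.prod_empty, hU.empty, LinearMap.trace_one, one_mul]
  rw [← htr, mul_ne_zero_iff_left (pow_ne_zero _ two_ne_zero),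
    (LinearMap.isProj_range_iff_isIdempotentElem e |>.mpr (hU.isIdempotent_signProj hs)).trace,
    Nat.cast_ne_zero]
  constructor
  · rintro ⟨v, hv0, hv⟩
    have hUD : ∀ D ⊆ P, U D v = (∏ l ∈ D, s l) • v := by
      intro D
      induction D using Finset.induction_on with
      | empty => intro _; rw [hU.empty, Module.End.one_apply, Finset.prod_empty, one_smul]
      | insert l D hlD ih =>
        intro hD
        have hl : l ∈ P := hD (Finset.mem_insert_self _ _)
        have hD' : D ⊆ P := (Finset.subset_insert _ _).trans hD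
        rw [hU.insert_eq l D hl hD' hlD, Module.End.mul_apply, ih hD', map_smul, hv l hl, smul_smul,
          Finset.prod_insert hlD, mul_comm]
    have hev : e v = v := by
      simp only [e, signProj, LinearMap.smul_apply, LinearMap.sum_apply]
      rw [Finset.sum_congr rfl fun D hD => by
        rw [hUD D (Finset.mem_powerset.mp hD), smul_smul, ← Finset.prod_mul_distrib,
          Finset.prod_eq_one fun l hl => hs l (Finset.mem_powerset.mp hD hl), one_smul]]
      rw [Finset.sum_const, Finset.card_powerset, ← Nat.cast_smul_eq_nsmul K, smul_smul,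
        Nat.cast_pow, Nat.cast_ofNat, inv_mul_cancel₀ (pow_ne_zero _ two_ne_zero), one_smul]
    exact Submodule.one_le_finrank_iff.mpr (fun h => hv0 ((Submodule.mem_bot K).mp
      (h ▸ ⟨v, hev⟩))) |> Nat.one_le_iff_ne_zero.mp
  · intro hne
    obtain ⟨⟨w, u, rfl⟩, hw⟩ := (Module.finrank_pos_iff_exists_ne_zero (R := K)).mp
      (Nat.pos_of_ne_zero hne)
    exact ⟨e u, fun h => hw (Subtype.ext h), fun l hl =>
      LinearMap.congr_fun (hU.mul_signProj hs hl) u⟩

/-- Sign vectors with the same product occur together. -/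
theorem SignFamily.exists_sign_vector_congr (hU : SignFamily P U) {s' : ι → K}
    (hs : ∀ l ∈ P, s l * s l = 1) (hs' : ∀ l ∈ P, s' l * s' l = 1)
    (hzero : ∀ D ⊆ P, D.Nonempty → D ≠ P → LinearMap.trace K E (U D) = 0) (hP : P.Nonempty)
    (hprod : ∏ l ∈ P, s l = ∏ l ∈ P, s' l) :
    (∃ v : E, v ≠ 0 ∧ ∀ l ∈ P, U {l} v = s l • v) ↔
      ∃ v : E, v ≠ 0 ∧ ∀ l ∈ P, U {l} v = s' l • v := by
  rw [hU.exists_sign_vector_iff hs hzero hP, hU.exists_sign_vector_iff hs' hzero hP, hprod]

/-- If the trace of the full product is not zero, some sign vector occurs. -/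
theorem SignFamily.exists_sign_vector (hU : SignFamily P U)
    (hzero : ∀ D ⊆ P, D.Nonempty → D ≠ P → LinearMap.trace K E (U D) = 0) (hP : P.Nonempty)
    (hne : LinearMap.trace K E (U P) ≠ 0) :
    ∃ s : ι → K, (∀ l ∈ P, s l * s l = 1) ∧ ∃ v : E, v ≠ 0 ∧ ∀ l ∈ P, U {l} v = s l • v := by
  obtain ⟨l, hl⟩ := hP
  by_contra hno
  push Not at hno
  have key : ∀ ε : K, ε * ε = 1 →
      (Module.finrank K E : K) + ε * LinearMap.trace K E (U P) = 0 := by
    intro ε hε
    set s : ι → K := fun i => if i = l then ε else 1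
    have hs : ∀ i ∈ P, s i * s i = 1 := fun i _ => by
      by_cases h : i = l <;> simp [s, h, hε]
    have h := mt (hU.exists_sign_vector_iff hs hzero ⟨l, hl⟩).mpr (fun ⟨v, hv, hv'⟩ => by
      obtain ⟨i, hi, hi'⟩ := hno s hs v hv
      exact hi' (hv' i hi))
    rwa [not_ne_iff, show (∏ i ∈ P, s i) = ε by
      rw [Finset.prod_eq_single_of_mem l hl fun i _ hi => if_neg hi]; exact if_pos rfl] at h
  have h1 := key 1 (by ring)
  have h2 := key (-1) (by ring)
  refine hne ?_
  have : (2 : K) * LinearMap.trace K E (U P) = 0 := by linear_combination h1 - h2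
  exact (mul_eq_zero.mp this).resolve_left two_ne_zero

end Signs

end FLTA.LT2

end
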