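import Fermat.Agent.HeckeDatum.FlatModel

/-!
# Flat models and twists by a quadratic character unramified at `p`

Let `α² = α + t` with `4 t + 1` a unit of `ℤ₍p₎` and let `act'` be `act` twisted by the sign by
which Galois moves `α`. The functions `x ↦ a x + a (-x)` and `x ↦ α a x + (1 - α) a (-x)`, for
`a` in a model of `act`, generate a model of `act'`.
-/

set_option autoImplicit false

noncomputable section

open scoped TensorProduct

namespace FLTA.HeckeDatum.Flat

variable {p : ℕ} {P : Type} [AddCommGroup P] [Finite P] {act act' : GalQ →* AddMonoid.End P}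

local notation "Qbar" => AlgebraicClosure ℚ

/-- `x ↦ β a x + β' a (-x)`. -/
def twistFn (M : FlatModel p P act) (β β' : Qbar) : M.O →ₗ[Rp p] (P → Qbar) where
  toFun a x := β * (a : P → Qbar) x + β' * (a : P → Qbar) (-x)
  map_add' a b := funext fun x => by
    simp only [Subalgebra.coe_add, Pi.add_apply]
    ring
  map_smul' r a := funext fun x => by
    simp only [SetLike.val_smul, Pi.smul_apply, RingHom.id_apply, smul_add, mul_smul_comm]

omit [Finite P] in
theorem twistFn_apply (M : FlatModel p P act) (β β' : Qbar) (a : M.O) (x : P) :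
    twistFn M β β' a x = β * (a : P → Qbar) x + β' * (a : P → Qbar) (-x) := rfl

/-- A module with a flat model, twisted by a quadratic character unramified at `p`, has one. -/
theorem hasFlatModel_twist (h : HasFlatModel p P act) (α : Qbar) (t u : Rp p)
    (hα : α * α = α + algebraMap (Rp p) Qbar t) (hu : (4 * t + 1) * u = 1)
    (hsign : ∀ σ : GalQ, (σ α = α ∧ ∀ x, act' σ x = act σ x) ∨
      (σ α = 1 - α ∧ ∀ x, act' σ x = -act σ x)) : HasFlatModel p P act' := by
  classical
  obtain ⟨M⟩ := h
  have := M.finite_O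
  set T := algebraMap (Rp p) Qbar t with hT
  set U := algebraMap (Rp p) Qbar u with hU
  have hu' : (4 * T + 1) * U = 1 := by
    have h := congrArg (algebraMap (Rp p) Qbar) hu
    rwa [map_mul, map_add, map_mul, map_ofNat, map_one] at h
  obtain ⟨s, hs⟩ := Module.Finite.fg_top (R := Rp p) (M := M.O)
  let G : Set (P → Qbar) :=
    twistFn M 1 1 '' (s : Set M.O) ∪ twistFn M α (1 - α) '' (s : Set M.O)
  let O := Algebra.adjoin (Rp p) G
  have hmemO : ∀ β β' : Qbar, twistFn M β β' '' (s : Set M.O) ⊆ G →
      ∀ a, twistFn M β β' a ∈ O := by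
    intro β β' hG a
    have ha : a ∈ Submodule.span (Rp p) (s : Set M.O) := hs ▸ Submodule.mem_top
    induction ha using Submodule.span_induction with
    | mem a ha => exact Algebra.subset_adjoin (hG ⟨a, ha, rfl⟩)
    | zero => rw [map_zero]; exact O.zero_mem
    | add a b _ _ ha hb => rw [map_add]; exact O.add_mem ha hb
    | smul r a _ ha => rw [map_smul]; exact O.smul_mem ha r
  have h1O := hmemO 1 1 Set.subset_union_left
  have hαO := hmemO α (1 - α) Set.subset_union_right
  refine ⟨{ O := O, finite_O := ?_, equivariant := ?_, separates := ?_, comul := ?_ }⟩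
  · have hint : ∀ β β' : Qbar, IsIntegral (Rp p) β → IsIntegral (Rp p) β' → ∀ a : M.O,
        IsIntegral (Rp p) (twistFn M β β' a) := by
      intro β β' hβ hβ' a
      have ha := (Algebra.IsIntegral.isIntegral (R := Rp p) a).map (incl M)
      have hneg := (Algebra.IsIntegral.isIntegral (R := Rp p)
        (⟨_, comp_neg_mem M a.2⟩ : M.O)).map (incl M)
      exact ((hβ.map (Pi.constAlgHom (Rp p) P Qbar)).mul ha).add
        ((hβ'.map (Pi.constAlgHom (Rp p) P Qbar)).mul hneg)
    have hαi : IsIntegral (Rp p) α := by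
      refine ⟨Polynomial.X ^ 2 + (-Polynomial.X - Polynomial.C t),
        Polynomial.monic_X_pow_add ?_, ?_⟩
      · refine (Polynomial.degree_sub_le _ _).trans_lt (max_lt ?_ ?_)
        · rw [Polynomial.degree_neg]
          exact (Polynomial.degree_X_le).trans_lt (by norm_num)
        · exact (Polynomial.degree_C_le).trans_lt (by norm_num)
      · simp only [Polynomial.eval₂_add, Polynomial.eval₂_sub, Polynomial.eval₂_neg,
          Polynomial.eval₂_X_pow, Polynomial.eval₂_X, Polynomial.eval₂_C, ← hT]
        linear_combination hα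
    refine Module.Finite.iff_fg.mpr (fg_adjoin_of_finite
      ((s.finite_toSet.image _).union (s.finite_toSet.image _)) ?_)
    rintro g (⟨a, -, rfl⟩ | ⟨a, -, rfl⟩)
    · exact hint 1 1 isIntegral_one isIntegral_one a
    · exact hint _ _ hαi (isIntegral_one.sub hαi) a
  · intro g hg σ x
    induction hg using Algebra.adjoin_induction with
    | mem g hg =>
      have hM : ∀ (a : M.O) y, (a : P → Qbar) (act σ y) = σ ((a : P → Qbar) y) := fun a y =>
        M.equivariant _ a.2 σ y
      rcases hg with ⟨a, -, rfl⟩ | ⟨a, -, rfl⟩ <;> rcases hsign σ with ⟨hσ, hx⟩ | ⟨hσ, hx⟩ <;>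
        simp only [twistFn_apply, hx, neg_neg, ← map_neg (act σ), hM, map_add, map_mul, map_one,
          map_sub, hσ] <;> ring
    | algebraMap r => exact ((galHom p σ).commutes r).symm
    | add u v _ _ hu hv => simp [hu, hv]
    | mul u v _ _ hu hv => simp [hu, hv]
  · intro x y hxy
    obtain ⟨a, ha, hne⟩ := M.separates x y hxy
    by_contra hall
    push Not at hall
    have h1 := hall _ (h1O ⟨a, ha⟩)
    have hα' := hall _ (hαO ⟨a, ha⟩)
    simp only [twistFn_apply, one_mul] at h1 hα'
    refine hne (sub_eq_zero.mp ((mul_eq_zero.mp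
      (show (4 * T + 1) * (a x - a y) = 0 from ?_)).resolve_left (left_ne_zero_of_mul_eq_one hu')))
    linear_combination (2 * α - 1) * (hα' - (1 - α) * h1) - 4 * (a x - a y) * hα
  · have hle : O ≤ (mulMap O.val O.val).range.comap (pull p fun z : P × P => z.1 + z.2) := by
      refine Algebra.adjoin_le fun g hg => ?_
      have key : ∀ (a : M.O) (β β' : Qbar), (∀ b e : M.O, ∃ w, ∀ z : P × P,
          mulMap O.val O.val w z = β * ((b : P → Qbar) z.1 * (e : P → Qbar) z.2) +
            β' * ((b : P → Qbar) (-z.1) * (e : P → Qbar) (-z.2))) →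
          twistFn M β β' a ∈ (mulMap O.val O.val).range.comap
            (pull p fun z : P × P => z.1 + z.2) := by
        intro a β β' hbe
        obtain ⟨c, hc⟩ := (mem_prodSpan_iff M).mp (M.comul _ a.2)
        have hw : ∀ c : M.O ⊗[Rp p] M.O, ∃ w, ∀ z : P × P, mulMap O.val O.val w z =
            β * mulMap₂ M c z + β' * mulMap₂ M c (-z.1, -z.2) := by
          intro c
          induction c using TensorProduct.induction_on with
          | zero => exact ⟨0, by simp⟩
          | tmul b e =>
            obtain ⟨w, hw⟩ := hbe b e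
            exact ⟨w, fun z => by rw [hw]; simp [mulMap₂]⟩
          | add c d hc hd =>
            obtain ⟨w, hw⟩ := hc
            obtain ⟨w', hw'⟩ := hd
            exact ⟨w + w', fun z => by simp only [map_add, Pi.add_apply, hw, hw']; ring⟩
        obtain ⟨w, hw⟩ := hw c
        refine ⟨w, funext fun z => (hw z).trans ?_⟩
        rw [hc]
        show _ = β * (a : P → Qbar) (z.1 + z.2) + β' * (a : P → Qbar) (-(z.1 + z.2))
        rw [neg_add]
      rcases hg with ⟨a, -, rfl⟩ | ⟨a, -, rfl⟩
      · refine key a 1 1 fun b e => ?_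
        let b₁ : O := ⟨_, h1O b⟩
        let b₂ : O := ⟨_, hαO b⟩
        let e₁ : O := ⟨_, h1O e⟩
        let e₂ : O := ⟨_, hαO e⟩
        refine ⟨u • ((2 * t + 1) • (b₁ ⊗ₜ e₁) - b₂ ⊗ₜ e₁ - b₁ ⊗ₜ e₂ + (2 : Rp p) • (b₂ ⊗ₜ e₂)),
          fun z => ?_⟩
        simp only [map_smul, map_add, map_sub, Pi.smul_apply, Pi.add_apply, Pi.sub_apply,
          mulMap_tmul]
        simp only [Algebra.smul_def, map_add, map_mul, map_ofNat, map_one, ← hT, ← hU]
        simp only [b₁, b₂, e₁, e₂, Subalgebra.coe_val, twistFn_apply]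
        linear_combination ((b : P → Qbar) z.1 * (e : P → Qbar) z.2 +
          (b : P → Qbar) (-z.1) * (e : P → Qbar) (-z.2)) * hu' +
          2 * U * ((b : P → Qbar) z.1 - (b : P → Qbar) (-z.1)) *
            ((e : P → Qbar) z.2 - (e : P → Qbar) (-z.2)) * hα
      · refine key a α (1 - α) fun b e => ?_
        let b₁ : O := ⟨_, h1O b⟩
        let b₂ : O := ⟨_, hαO b⟩
        let e₁ : O := ⟨_, h1O e⟩
        let e₂ : O := ⟨_, hαO e⟩
        refine ⟨u • ((2 * t) • (b₁ ⊗ₜ e₂) + (2 * t) • (b₂ ⊗ₜ e₁) - t • (b₁ ⊗ₜ e₁) + b₂ ⊗ₜ e₂),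
          fun z => ?_⟩
        simp only [map_smul, map_add, map_sub, Pi.smul_apply, Pi.add_apply, Pi.sub_apply,
          mulMap_tmul]
        simp only [Algebra.smul_def, map_mul, map_ofNat, ← hT, ← hU]
        simp only [b₁, b₂, e₁, e₂, Subalgebra.coe_val, twistFn_apply]
        linear_combination (α * ((b : P → Qbar) z.1 * (e : P → Qbar) z.2) +
          (1 - α) * ((b : P → Qbar) (-z.1) * (e : P → Qbar) (-z.2))) * hu' +
          U * ((b : P → Qbar) z.1 - (b : P → Qbar) (-z.1)) *
            ((e : P → Qbar) z.2 - (e : P → Qbar) (-z.2)) * hα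
    intro g hg
    obtain ⟨c, hc⟩ := hle hg
    change mulMap O.val O.val c = pull p (fun z : P × P => z.1 + z.2) g at hc
    rw [show (fun xy : P × P => g (xy.1 + xy.2)) = mulMap O.val O.val c from hc.symm]
    clear hc
    induction c using TensorProduct.induction_on with
    | zero => rw [map_zero]; exact Submodule.zero_mem _
    | tmul v w =>
      exact Submodule.subset_span ⟨v, v.2, w, w.2, funext fun z => mulMap_tmul _ _ _ _ z⟩
    | add v w hv hw => rw [map_add]; exact Submodule.add_mem _ hv hw

end FLTA.HeckeDatum.Flat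

end
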